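import Fermat.Agent.CFT.Global.Defs
import Fermat.Agent.CFT.Global.Approx

/-!
# Ray characters, additively

`F` a number field, `S` a finite set of (finite) places, `A` an additive commutative group.
A function `η` on the places of `F` gives a homomorphism
`rayVal S η : Fˣ →* Multiplicative A`, `x ↦ ∑_{v ∉ S} ord_v(x) • η v`.
`η` is a ray character (`IsRay S n η`) if this is trivial on all `x` congruent to `1`
modulo `v ^ (n + 1)` for all `v ∈ S`.
-/

set_option autoImplicit false

namespace Fermat.Agent.LT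

open IsDedekindDomain NumberField WithZero
open Fermat.Agent.CFT.SUnits Fermat.Agent.CFT.Global

variable {F : Type*} [Field F] [NumberField F] {A : Type*} [AddCommGroup A]

open Classical in
/-- the value of a function on places outside `S` on a divisor -/
noncomputable def divVal (S : Finset (HeightOneSpectrum (𝓞 F))) (η : HeightOneSpectrum (𝓞 F) → A) :
    (HeightOneSpectrum (𝓞 F) →₀ ℤ) →+ A :=
  Finsupp.liftAddHom fun v => if v ∈ S then 0 else (smulAddHom ℤ A).flip (η v)

lemma divVal_single_of_mem (S : Finset (HeightOneSpectrum (𝓞 F)))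
    (η : HeightOneSpectrum (𝓞 F) → A) {v : HeightOneSpectrum (𝓞 F)} (hv : v ∈ S) (m : ℤ) :
    divVal S η (Finsupp.single v m) = 0 := by
  rw [divVal, Finsupp.liftAddHom_apply_single, if_pos hv]
  rfl

lemma divVal_single (S : Finset (HeightOneSpectrum (𝓞 F)))
    (η : HeightOneSpectrum (𝓞 F) → A) {v : HeightOneSpectrum (𝓞 F)} (hv : v ∉ S) (m : ℤ) :
    divVal S η (Finsupp.single v m) = m • η v := by
  rw [divVal, Finsupp.liftAddHom_apply_single, if_neg hv]
  rfl

open Classical in
lemma divVal_apply (S : Finset (HeightOneSpectrum (𝓞 F)))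
    (η : HeightOneSpectrum (𝓞 F) → A) (D : HeightOneSpectrum (𝓞 F) →₀ ℤ) :
    divVal S η D = D.sum fun v m => if v ∈ S then 0 else m • η v := by
  rw [divVal, Finsupp.liftAddHom_apply]
  refine Finsupp.sum_congr fun v _ => ?_
  split_ifs <;> rfl

/-- the divisor as a homomorphism -/
noncomputable def divHom : Fˣ →* Multiplicative (HeightOneSpectrum (𝓞 F) →₀ ℤ) where
  toFun x := Multiplicative.ofAdd (div x)
  map_one' := by
    rw [← ofAdd_zero]
    congr 1
    ext v
    simp
  map_mul' x y := by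
    rw [← ofAdd_add]
    congr 1
    ext v
    simp

/-- the value of a function on places outside `S` on a nonzero element -/
noncomputable def rayVal (S : Finset (HeightOneSpectrum (𝓞 F)))
    (η : HeightOneSpectrum (𝓞 F) → A) : Fˣ →* Multiplicative A :=
  (AddMonoidHom.toMultiplicative (divVal S η)).comp divHom

lemma rayVal_apply (S : Finset (HeightOneSpectrum (𝓞 F)))
    (η : HeightOneSpectrum (𝓞 F) → A) (x : Fˣ) :
    rayVal S η x = Multiplicative.ofAdd (divVal S η (div x)) := rfl

open Classical in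
lemma toAdd_rayVal (S : Finset (HeightOneSpectrum (𝓞 F)))
    (η : HeightOneSpectrum (𝓞 F) → A) (x : Fˣ) :
    (rayVal S η x).toAdd = (div x).sum fun v m => if v ∈ S then 0 else m • η v := by
  rw [rayVal_apply, toAdd_ofAdd, divVal_apply]

open Classical in
/-- the value as a sum over any finite set containing the support -/
lemma toAdd_rayVal_eq_sum (S T : Finset (HeightOneSpectrum (𝓞 F)))
    (η : HeightOneSpectrum (𝓞 F) → A) (x : Fˣ) (hT : ∀ v ∉ T, v ∉ S → ord v x • η v = 0) :
    (rayVal S η x).toAdd = ∑ v ∈ T, if v ∈ S then 0 else ord v x • η v := by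
  rw [toAdd_rayVal, Finsupp.sum]
  have h1 : ∑ v ∈ (div x).support, (if v ∈ S then 0 else (div x) v • η v) =
      ∑ v ∈ (div x).support ∪ T, (if v ∈ S then 0 else (div x) v • η v) := by
    refine Finset.sum_subset Finset.subset_union_left fun v _ hv => ?_
    rw [Finsupp.notMem_support_iff] at hv
    rw [hv, zero_smul, ite_self]
  have h2 : ∑ v ∈ T, (if v ∈ S then 0 else ord v x • η v) =
      ∑ v ∈ (div x).support ∪ T, (if v ∈ S then 0 else ord v x • η v) := by
    refine Finset.sum_subset Finset.subset_union_right fun v _ hv => ?_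
    split_ifs with hS
    · rfl
    · exact hT v hv hS
  rw [h1, h2]
  rfl

lemma toAdd_rayVal_of_ord_eq_zero (S : Finset (HeightOneSpectrum (𝓞 F)))
    (η : HeightOneSpectrum (𝓞 F) → A) (x : Fˣ) (h : ∀ v ∉ S, ord v x • η v = 0) :
    (rayVal S η x).toAdd = 0 := by
  classical
  rw [toAdd_rayVal_eq_sum S ∅ η x (fun v _ hv => h v hv), Finset.sum_empty]

lemma rayVal_of_mem_E (S : Finset (HeightOneSpectrum (𝓞 F)))
    (η : HeightOneSpectrum (𝓞 F) → A) {x : Fˣ} (h : x ∈ E S) : rayVal S η x = 1 := by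
  have := toAdd_rayVal_of_ord_eq_zero S η x (fun v hv => by rw [mem_E.mp h v hv, zero_smul])
  exact toAdd_eq_zero.mp this

/-- the value at an element which is a uniformizer at exactly one place outside `S` -/
lemma toAdd_rayVal_of_single (S : Finset (HeightOneSpectrum (𝓞 F)))
    (η : HeightOneSpectrum (𝓞 F) → A) {x : Fˣ} {w : HeightOneSpectrum (𝓞 F)} (hw : w ∉ S)
    (h : ∀ v ∉ S, v ≠ w → ord v x = 0) :
    (rayVal S η x).toAdd = ord w x • η w := by
  classical
  rw [toAdd_rayVal_eq_sum S {w} η x, Finset.sum_singleton, if_neg hw]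
  intro v hv hvS
  rw [Finset.mem_singleton] at hv
  rw [h v hvS hv, zero_smul]

/-- ray characters -/
def IsRay (S : Finset (HeightOneSpectrum (𝓞 F))) (n : ℕ) (η : HeightOneSpectrum (𝓞 F) → A) :
    Prop :=
  ∀ x : Fˣ, (∀ v ∈ S, x ∈ cong v n) → rayVal S η x = 1

lemma IsRay.mono {S : Finset (HeightOneSpectrum (𝓞 F))} {n m : ℕ}
    {η : HeightOneSpectrum (𝓞 F) → A} (h : IsRay S n η) (hnm : n ≤ m) : IsRay S m η :=
  fun x hx => h x fun v hv => cong_anti v hnm (hx v hv)

/-- enlarging `S` -/
lemma IsRay.mono_set {S T : Finset (HeightOneSpectrum (𝓞 F))} {n : ℕ}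
    {η : HeightOneSpectrum (𝓞 F) → A} (h : IsRay S n η) (hST : S ⊆ T) : IsRay T n η := by
  classical
  intro x hx
  have h1 := h x fun v hv => hx v (hST hv)
  apply toAdd_eq_zero.mp
  have h2 : (rayVal S η x).toAdd = 0 := toAdd_eq_zero.mpr h1
  rw [← h2, toAdd_rayVal, toAdd_rayVal]
  refine Finsupp.sum_congr fun v _ => ?_
  by_cases hvT : v ∈ T
  · rw [if_pos hvT]
    split_ifs with hvS
    · rfl
    · have : div x v = 0 := ord_eq_zero_of_mem_cong (hx v hvT)
      rw [this, zero_smul]
  · rw [if_neg hvT, if_neg (fun h' => hvT (hST h'))]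

lemma rayVal_comp {B : Type*} [AddCommGroup B] (f : A →+ B)
    (S : Finset (HeightOneSpectrum (𝓞 F))) (η : HeightOneSpectrum (𝓞 F) → A) (x : Fˣ) :
    (rayVal S (fun v => f (η v)) x).toAdd = f (rayVal S η x).toAdd := by
  classical
  rw [toAdd_rayVal, toAdd_rayVal, map_finsuppSum]
  refine Finsupp.sum_congr fun v _ => ?_
  split_ifs
  · rw [map_zero]
  · rw [map_zsmul]

lemma IsRay.comp {B : Type*} [AddCommGroup B] (f : A →+ B)
    {S : Finset (HeightOneSpectrum (𝓞 F))} {n : ℕ}
    {η : HeightOneSpectrum (𝓞 F) → A} (h : IsRay S n η) : IsRay S n (fun v => f (η v)) := by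
  intro x hx
  apply toAdd_eq_zero.mp
  rw [rayVal_comp, h x hx, toAdd_one, map_zero]

lemma rayVal_add (S : Finset (HeightOneSpectrum (𝓞 F)))
    (η θ : HeightOneSpectrum (𝓞 F) → A) (x : Fˣ) :
    rayVal S (fun v => η v + θ v) x = rayVal S η x * rayVal S θ x := by
  classical
  apply Multiplicative.toAdd.injective
  rw [toAdd_mul, toAdd_rayVal, toAdd_rayVal, toAdd_rayVal, ← Finsupp.sum_add]
  refine Finsupp.sum_congr fun v _ => ?_
  split_ifs
  · rw [add_zero]
  · rw [smul_add]

lemma IsRay.add {S : Finset (HeightOneSpectrum (𝓞 F))} {n : ℕ}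
    {η θ : HeightOneSpectrum (𝓞 F) → A} (h : IsRay S n η) (h' : IsRay S n θ) :
    IsRay S n (fun v => η v + θ v) := by
  intro x hx
  rw [rayVal_add, h x hx, h' x hx, one_mul]

lemma IsRay.neg {S : Finset (HeightOneSpectrum (𝓞 F))} {n : ℕ}
    {η : HeightOneSpectrum (𝓞 F) → A} (h : IsRay S n η) :
    IsRay S n (fun v => - η v) :=
  h.comp (negAddMonoidHom : A →+ A)

/-- only the values outside `S` matter -/
lemma rayVal_congr {S : Finset (HeightOneSpectrum (𝓞 F))}
    {η θ : HeightOneSpectrum (𝓞 F) → A} (h : ∀ v ∉ S, η v = θ v) (x : Fˣ) :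
    rayVal S η x = rayVal S θ x := by
  classical
  apply Multiplicative.toAdd.injective
  rw [toAdd_rayVal, toAdd_rayVal]
  refine Finsupp.sum_congr fun v _ => ?_
  split_ifs with hv
  · rfl
  · rw [h v hv]

lemma IsRay.congr {S : Finset (HeightOneSpectrum (𝓞 F))} {n : ℕ}
    {η θ : HeightOneSpectrum (𝓞 F) → A} (h : IsRay S n η) (h' : ∀ v ∉ S, η v = θ v) :
    IsRay S n θ := by
  intro x hx
  rw [← rayVal_congr h']
  exact h x hx

end Fermat.Agent.LT
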