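import Mathlib

/-!
# Cusp forms from holomorphic functions with growth conditions
-/

set_option autoImplicit false

noncomputable section

open UpperHalfPlane ModularForm CongruenceSubgroup Matrix.SpecialLinearGroup Filter Topology
open scoped MatrixGroups Manifold ModularForm

namespace Fermat.Agent.LT

variable {k : ℤ}

theorem norm_petersson_self (f : ℍ → ℂ) (τ : ℍ) :
    ‖petersson k f f τ‖ = ‖f τ‖ ^ 2 * τ.im ^ k := by
  rw [petersson, norm_mul, norm_mul, RCLike.norm_conj, norm_zpow, ← pow_two]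
  simp [abs_of_pos τ.im_pos]

/-- If `y^{k/2} |f|` is bounded, `f` vanishes at all cusps (`k > 0`). -/
theorem isZeroAtImInfty_slash_of_bounded (hk : 0 < k) {f : ℍ → ℂ} {C : ℝ}
    (hb : ∀ τ : ℍ, ‖f τ‖ ^ 2 * τ.im ^ k ≤ C) (γ : SL(2, ℤ)) :
    IsZeroAtImInfty (f ∣[k] γ) := by
  have h1 : ∀ τ : ℍ, ‖(f ∣[k] γ) τ‖ ^ 2 * τ.im ^ k ≤ C := by
    intro τ
    rw [← norm_petersson_self, petersson_slash_SL, norm_petersson_self]
    exact hb _
  rw [isZeroAtImInfty_iff]
  intro ε hε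
  obtain ⟨A, hA⟩ : ∃ A : ℝ, ∀ y : ℝ, A ≤ y → 1 ≤ y ∧ C / ε ^ 2 ≤ y := ⟨max 1 (C / ε ^ 2),
    fun y hy => ⟨(le_max_left _ _).trans hy, (le_max_right _ _).trans hy⟩⟩
  refine ⟨A, fun τ hτ => ?_⟩
  obtain ⟨h2, h3⟩ := hA τ.im hτ
  have h4 : τ.im ≤ τ.im ^ k := by
    conv_lhs => rw [← zpow_one τ.im]
    exact zpow_le_zpow_right₀ h2 hk
  have h5 : C / ε ^ 2 ≤ τ.im ^ k := h3.trans h4
  have h6 : 0 < τ.im ^ k := zpow_pos τ.im_pos k
  have h7 := h1 τ
  rw [div_le_iff₀ (pow_pos hε 2)] at h5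
  have h8 : ‖(f ∣[k] γ) τ‖ ^ 2 * τ.im ^ k ≤ ε ^ 2 * τ.im ^ k := by linarith
  have h9 := le_of_mul_le_mul_right h8 h6
  exact (pow_le_pow_iff_left₀ (norm_nonneg _) hε.le two_ne_zero).mp h9

/-- **Cusp forms from raw data**: holomorphic, invariant, zero at `∞` after every `γ ∈ SL₂(ℤ)`. -/
def mkCusp (Γ : Subgroup SL(2, ℤ)) (f : ℍ → ℂ) (hinv : ∀ γ ∈ Γ, f ∣[k] γ = f)
    (hol : MDiff f) (hz : ∀ γ : SL(2, ℤ), IsZeroAtImInfty (f ∣[k] γ)) : CuspForm Γ k where
  toFun := f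
  slash_action_eq' A hA := by
    obtain ⟨γ, hγ, rfl⟩ := hA
    exact hinv γ hγ
  holo' := hol
  zero_at_cusps' {c} hc := by
    have hc' : IsCusp c 𝒮ℒ := hc.mono (by
      rintro _ ⟨γ, -, rfl⟩
      exact ⟨γ, rfl⟩)
    rw [OnePoint.isZeroAt_iff_forall_SL2Z hc']
    exact fun γ _ => hz γ

/-- **Cusp forms from bounded functions**: `y^{k/2} |f|` bounded, `k > 0`. -/
theorem exists_cuspForm_of_bounded (hk : 0 < k) (Γ : Subgroup SL(2, ℤ)) (f : ℍ → ℂ)
    (hinv : ∀ γ ∈ Γ, f ∣[k] γ = f) (hol : MDiff f) {C : ℝ}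
    (hb : ∀ τ : ℍ, ‖f τ‖ ^ 2 * τ.im ^ k ≤ C) : ∃ F : CuspForm Γ k, ⇑F = f :=
  ⟨mkCusp Γ f hinv hol (isZeroAtImInfty_slash_of_bounded hk hb), rfl⟩

section Growth

open Function.Periodic Complex

variable {h : ℝ} {g : ℍ → ℂ}

/-- A holomorphic periodic function on the upper half plane with `g = o(exp(2 π y / h))` has a
limit at `∞`. -/
theorem exists_tendsto_of_growth (hh : 0 < h) (hper : Function.Periodic (g ∘ ofComplex) h)
    (hol : MDiff g) (hg : g =o[atImInfty] fun τ : ℍ => Real.exp (2 * Real.pi * τ.im / h)) :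
    ∃ c : ℂ, Tendsto g atImInfty (𝓝 c) := by
  set F := cuspFunction h (g ∘ ofComplex) with hF
  have hd : ∀ᶠ z in 𝓝[≠] (0 : ℂ), DifferentiableAt ℂ F z :=
    hper.eventually_differentiableAt_cuspFunction_nhds_ne_zero hh
      (eventually_of_mem (preimage_mem_comap (Ioi_mem_atTop 0))
        (fun z hz ↦ UpperHalfPlane.mdifferentiableAt_iff.mp (hol ⟨z, hz⟩)))
  have h1 : (fun q : ℂ => F q) =o[𝓝[≠] (0 : ℂ)] fun q => (q - 0)⁻¹ := by
    have h2 := hg.comp_tendsto (tendsto_comap_im_ofComplex.comp (invQParam_tendsto hh))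
    rw [← Asymptotics.isLittleO_norm_right]
    refine h2.congr' ?_ ?_
    · refine eventually_nhdsWithin_of_forall fun q hq => ?_
      show _ = F q
      rw [hF, Function.Periodic.cuspFunction_eq_of_nonzero _ _ hq]
      rfl
    · have h3 : ∀ᶠ q in 𝓝[≠] (0 : ℂ), ‖q‖ < 1 :=
        eventually_nhdsWithin_of_eventually_nhds
          ((continuous_norm.tendsto (0 : ℂ)).eventually_lt_const (by simp))
      filter_upwards [h3, self_mem_nhdsWithin] with q hq hq0
      have hq' : 0 < ‖q‖ := norm_pos_iff.mpr hq0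
      have h4 := im_invQParam_pos_of_norm_lt_one hh hq hq0
      show Real.exp (2 * Real.pi * (ofComplex (invQParam h q)).im / h) = ‖(q - 0)⁻¹‖
      rw [ofComplex_apply_of_im_pos h4, UpperHalfPlane.mk_im, im_invQParam, sub_zero, norm_inv,
        show 2 * Real.pi * (-h / (2 * Real.pi) * Real.log ‖q‖) / h = - Real.log ‖q‖ by
          field_simp, Real.exp_neg, Real.exp_log hq']
  have h0 : (fun z => F z - F 0) =o[𝓝[≠] (0 : ℂ)] fun z => (z - 0)⁻¹ := by
    refine h1.sub ?_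
    refine Asymptotics.isLittleO_const_left.mpr (Or.inr ?_)
    simp only [sub_zero]
    exact tendsto_norm_inv_nhdsNE_zero_atTop
  have h5 := tendsto_limUnder_of_differentiable_on_punctured_nhds_of_isLittleO hd h0
  refine ⟨limUnder (𝓝[≠] 0) F, ?_⟩
  have h6 := (h5.comp (qParam_tendsto hh)).comp tendsto_coe_atImInfty
  refine h6.congr fun τ => ?_
  exact eq_cuspFunction τ hh.ne' hper

/-- ... and it vanishes at `∞` if its constant term vanishes. -/
theorem isZeroAtImInfty_of_growth (hh : 0 < h) (hper : Function.Periodic (g ∘ ofComplex) h)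
    (hol : MDiff g) (hg : g =o[atImInfty] fun τ : ℍ => Real.exp (2 * Real.pi * τ.im / h))
    (hz : ∀ y : ℝ, 0 < y → ∫ x in (0 : ℝ)..h, (g ∘ ofComplex) (x + y * Complex.I) = 0) :
    IsZeroAtImInfty g := by
  obtain ⟨c, hc⟩ := exists_tendsto_of_growth hh hper hol hg
  suffices h0 : c = 0 by rw [h0] at hc; exact hc
  have hcont : ContinuousOn (g ∘ ofComplex) {z | 0 < z.im} :=
    (UpperHalfPlane.mdifferentiable_iff.mp hol).continuousOn
  by_contra hne
  have hpos : 0 < ‖c‖ := norm_pos_iff.mpr hne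
  have h1 : ∀ᶠ τ in atImInfty, ‖g τ - c‖ < ‖c‖ / 2 := by
    have := (tendsto_iff_norm_sub_tendsto_zero.mp hc).eventually_lt_const (half_pos hpos)
    exact this
  obtain ⟨A, hA⟩ := (atImInfty_mem _).mp h1
  set y : ℝ := max A 1 with hy
  have hy0 : 0 < y := lt_of_lt_of_le one_pos (le_max_right _ _)
  have him : ∀ x : ℝ, (x + y * Complex.I : ℂ).im = y := by intro x; simp
  have hint : IntervalIntegrable (fun x : ℝ => (g ∘ ofComplex) (x + y * Complex.I)) MeasureTheory.volume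
      0 h := by
    apply ContinuousOn.intervalIntegrable
    refine hcont.comp (by fun_prop) fun x _ => ?_
    show 0 < (x + y * Complex.I : ℂ).im
    rw [him]
    exact hy0
  have h2 : ‖∫ x in (0 : ℝ)..h, ((g ∘ ofComplex) (x + y * Complex.I) - c)‖ ≤ ‖c‖ / 2 * |h - 0| := by
    refine intervalIntegral.norm_integral_le_of_norm_le_const fun x _ => ?_
    have h3 : 0 < (x + y * Complex.I : ℂ).im := by rw [him]; exact hy0
    have h4 := hA ⟨x + y * Complex.I, h3⟩ (by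
      show A ≤ (x + y * Complex.I : ℂ).im
      rw [him]
      exact le_max_left _ _)
    have h5 : (g ∘ ofComplex) (x + y * Complex.I : ℂ) = g ⟨x + y * Complex.I, h3⟩ := by
      rw [Function.comp_apply, ofComplex_apply_of_im_pos h3]
    rw [h5]
    exact le_of_lt h4
  rw [intervalIntegral.integral_sub hint intervalIntegrable_const, hz y hy0,
    intervalIntegral.integral_const, sub_zero, zero_sub, norm_neg, norm_smul, Real.norm_eq_abs,
    abs_of_pos hh] at h2
  nlinarith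

end Growth

section Combined

/-- **Cusp forms from moderate growth**: `f` holomorphic, invariant under `Γ`, and for every
`γ ∈ SL₂(ℤ)` the function `f ∣[k] γ` is periodic, `o(exp(2 π y / h))` and has zero constant term. -/
theorem exists_cuspForm_of_growth (Γ : Subgroup SL(2, ℤ)) (f : ℍ → ℂ)
    (hinv : ∀ γ ∈ Γ, f ∣[k] γ = f) (hol : MDiff f) {h : ℝ} (hh : 0 < h)
    (hper : ∀ γ : SL(2, ℤ), Function.Periodic ((f ∣[k] γ) ∘ ofComplex) h)
    (hg : ∀ γ : SL(2, ℤ),
      (f ∣[k] γ) =o[atImInfty] fun τ : ℍ => Real.exp (2 * Real.pi * τ.im / h))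
    (hz : ∀ (γ : SL(2, ℤ)) (y : ℝ), 0 < y →
      ∫ x in (0 : ℝ)..h, ((f ∣[k] γ) ∘ ofComplex) (x + y * Complex.I) = 0) :
    ∃ F : CuspForm Γ k, ⇑F = f :=
  ⟨mkCusp Γ f hinv hol fun γ => isZeroAtImInfty_of_growth hh (hper γ)
    (hol.slash k (γ : GL (Fin 2) ℝ)) (hg γ) (hz γ), rfl⟩

end Combined

end Fermat.Agent.LT
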