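import Mathlib

/-!
# The modified Bessel functions `K_ν`

`besselK ν y = ½ ∫ exp (ν t - y cosh t) dt`, `ν : ℂ`, `y > 0`: bounds, recurrences, the differential
equation, asymptotics at infinity, and uniqueness of the solution of moderate growth.
-/

set_option autoImplicit false

open MeasureTheory Set Filter Topology

noncomputable section

namespace Fermat.Agent.LT

/-! ### elementary inequalities -/

theorem one_add_sq_half_le_cosh (t : ℝ) : 1 + t ^ 2 / 2 ≤ Real.cosh t := by
  have h1 : Real.cosh t = 1 + 2 * Real.sinh (t / 2) ^ 2 := by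
    have h := Real.cosh_two_mul (t / 2)
    rw [show 2 * (t / 2) = t by ring] at h
    rw [h, Real.cosh_sq]
    ring
  have h2 : |t / 2| ≤ |Real.sinh (t / 2)| := by
    rw [Real.abs_sinh]
    exact Real.self_le_sinh_iff.mpr (abs_nonneg _)
  have h3 := sq_le_sq.mpr h2
  rw [h1]
  nlinarith

theorem exp_abs_half_le_cosh (t : ℝ) : Real.exp |t| / 2 ≤ Real.cosh t := by
  rw [← Real.cosh_abs, Real.cosh_eq]
  have := Real.exp_pos (-|t|)
  linarith

/-- the real integrand -/
def bkr (σ y t : ℝ) : ℝ := Real.exp (σ * t - y * Real.cosh t)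

theorem bkr_pos (σ y t : ℝ) : 0 < bkr σ y t := Real.exp_pos _

theorem continuous_bkr (σ y : ℝ) : Continuous (bkr σ y) := by
  unfold bkr
  fun_prop

theorem integrable_bkr (σ : ℝ) {y : ℝ} (hy : 0 < y) : Integrable (bkr σ y) := by
  have h1 : Integrable fun t : ℝ => Real.exp (σ * t - y - y / 2 * t ^ 2) := by
    have h := (integrable_cexp_quadratic (b := ((y / 2 : ℝ) : ℂ)) (by simpa using hy) (σ : ℂ)
      (-(y : ℂ))).norm
    refine h.congr (ae_of_all _ fun t => ?_)
    simp only [Complex.norm_exp]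
    congr 1
    simp [← Complex.ofReal_pow, ← Complex.ofReal_neg]
    ring
  refine h1.mono' (continuous_bkr σ y).aestronglyMeasurable (ae_of_all _ fun t => ?_)
  rw [Real.norm_of_nonneg (bkr_pos σ y t).le]
  refine Real.exp_le_exp.mpr ?_
  have := mul_le_mul_of_nonneg_left (one_add_sq_half_le_cosh t) hy.le
  nlinarith

/-- `∫ exp (σ t - y cosh t) dt` -/
def bkR (σ y : ℝ) : ℝ := ∫ t : ℝ, bkr σ y t

theorem bkR_pos (σ : ℝ) {y : ℝ} (hy : 0 < y) : 0 < bkR σ y := by
  rw [bkR, integral_pos_iff_support_of_nonneg (fun t => (bkr_pos σ y t).le) (integrable_bkr σ hy)]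
  have : Function.support (bkr σ y) = univ := by
    ext t; simp [(bkr_pos σ y t).ne']
  rw [this]
  simp

theorem bkR_neg (σ y : ℝ) : bkR (-σ) y = bkR σ y := by
  rw [bkR, bkR, ← integral_neg_eq_self]
  congr 1
  ext t
  simp [bkr]

theorem bkR_le_exp_mul (σ : ℝ) {y₀ y : ℝ} (h₀ : 0 < y₀) (h : y₀ ≤ y) :
    bkR σ y ≤ Real.exp (-(y - y₀)) * bkR σ y₀ := by
  rw [bkR, bkR, ← integral_const_mul]
  refine integral_mono (integrable_bkr σ (h₀.trans_le h)) ((integrable_bkr σ h₀).const_mul _)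
    fun t => ?_
  simp only [bkr]
  rw [← Real.exp_add]
  refine Real.exp_le_exp.mpr ?_
  have := mul_le_mul_of_nonneg_left (Real.one_le_cosh t) (sub_nonneg.mpr h)
  nlinarith

theorem bkR_antitone (σ : ℝ) {y₀ y : ℝ} (h₀ : 0 < y₀) (h : y₀ ≤ y) : bkR σ y ≤ bkR σ y₀ := by
  refine (bkR_le_exp_mul σ h₀ h).trans ?_
  have h1 : Real.exp (-(y - y₀)) ≤ 1 := Real.exp_le_one_iff.mpr (by linarith)
  have h2 := (bkR_pos σ h₀).le
  nlinarith

/-! ### the complex integral -/

/-- the integrand of `2 K_ν` -/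
def bkI (ν : ℂ) (y t : ℝ) : ℂ := Complex.exp (ν * t - y * Real.cosh t)

theorem norm_bkI (ν : ℂ) (y t : ℝ) : ‖bkI ν y t‖ = bkr ν.re y t := by
  rw [bkI, Complex.norm_exp, bkr]
  congr 1
  rw [← Complex.ofReal_mul]
  simp [Complex.mul_re]

theorem continuous_bkI (ν : ℂ) (y : ℝ) : Continuous (bkI ν y) := by
  unfold bkI
  fun_prop

theorem integrable_bkI (ν : ℂ) {y : ℝ} (hy : 0 < y) : Integrable (bkI ν y) := by
  refine (integrable_bkr ν.re hy).mono' (continuous_bkI ν y).aestronglyMeasurable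
    (ae_of_all _ fun t => ?_)
  rw [norm_bkI]

theorem bkI_mul_exp (ν : ℂ) (y t : ℝ) (c : ℂ) :
    bkI ν y t * Complex.exp (c * t) = bkI (ν + c) y t := by
  rw [bkI, bkI, ← Complex.exp_add]
  congr 1
  ring

theorem bkI_mul_cosh (ν : ℂ) (y t : ℝ) :
    bkI ν y t * (Real.cosh t : ℂ) = (bkI (ν + 1) y t + bkI (ν - 1) y t) / 2 := by
  rw [Complex.ofReal_cosh, Complex.cosh, mul_div_assoc', mul_add, sub_eq_add_neg,
    ← bkI_mul_exp ν y t 1, ← bkI_mul_exp ν y t (-1), one_mul, neg_one_mul]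

theorem bkI_mul_sinh (ν : ℂ) (y t : ℝ) :
    bkI ν y t * (Real.sinh t : ℂ) = (bkI (ν + 1) y t - bkI (ν - 1) y t) / 2 := by
  rw [Complex.ofReal_sinh, Complex.sinh, mul_div_assoc', mul_sub, sub_eq_add_neg ν 1,
    ← bkI_mul_exp ν y t 1, ← bkI_mul_exp ν y t (-1), one_mul, neg_one_mul]

/-- the modified Bessel function `K_ν(y)` -/
def besselK (ν : ℂ) (y : ℝ) : ℂ := (∫ t : ℝ, bkI ν y t) / 2

theorem two_mul_besselK (ν : ℂ) (y : ℝ) : 2 * besselK ν y = ∫ t : ℝ, bkI ν y t := by
  rw [besselK, mul_div_cancel₀ _ two_ne_zero]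

theorem besselK_neg (ν : ℂ) (y : ℝ) : besselK (-ν) y = besselK ν y := by
  rw [besselK, besselK, ← integral_neg_eq_self]
  congr 2
  ext t
  simp [bkI]

theorem besselK_ofReal (σ y : ℝ) : besselK σ y = ((bkR σ y / 2 : ℝ) : ℂ) := by
  rw [besselK, bkR, Complex.ofReal_div, ← integral_complex_ofReal]
  congr 2
  ext t
  simp [bkI, bkr]

theorem norm_besselK_le (ν : ℂ) (y : ℝ) : ‖besselK ν y‖ ≤ bkR ν.re y / 2 := by
  rw [besselK, norm_div, Complex.norm_ofNat, bkR]
  refine div_le_div_of_nonneg_right ?_ (by norm_num)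
  refine (norm_integral_le_integral_norm _).trans (le_of_eq ?_)
  congr 1
  ext t
  exact norm_bkI ν y t

/-- exponential decay -/
theorem norm_besselK_le_exp (ν : ℂ) {y₀ y : ℝ} (h₀ : 0 < y₀) (h : y₀ ≤ y) :
    ‖besselK ν y‖ ≤ Real.exp (-(y - y₀)) * (bkR ν.re y₀ / 2) := by
  refine (norm_besselK_le ν y).trans ?_
  have := bkR_le_exp_mul ν.re h₀ h
  linarith

theorem besselK_zero_pos {y : ℝ} (hy : 0 < y) : ∃ r : ℝ, 0 < r ∧ besselK 0 y = r := by
  refine ⟨bkR 0 y / 2, half_pos (bkR_pos 0 hy), ?_⟩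
  have := besselK_ofReal 0 y
  simpa using this

/-! ### derivative and recurrences -/

/-- the derivative in `y` -/
theorem hasDerivAt_besselK (ν : ℂ) {y : ℝ} (hy : 0 < y) :
    HasDerivAt (besselK ν) (-(besselK (ν + 1) y + besselK (ν - 1) y) / 2) y := by
  have hs : Ioi (y / 2) ∈ 𝓝 y := Ioi_mem_nhds (by linarith)
  have hb : Integrable fun t : ℝ => (bkr (ν.re + 1) (y / 2) t + bkr (ν.re - 1) (y / 2) t) / 2 :=
    ((integrable_bkr _ (half_pos hy)).add (integrable_bkr _ (half_pos hy))).div_const 2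
  have key := (hasDerivAt_integral_of_dominated_loc_of_deriv_le (μ := volume) (F := bkI ν)
    (F' := fun x t => -(bkI ν x t * (Real.cosh t : ℂ))) hs
    (Eventually.of_forall fun x => (continuous_bkI ν x).aestronglyMeasurable)
    (integrable_bkI ν hy)
    (((continuous_bkI ν y).mul (by fun_prop)).neg.aestronglyMeasurable)
    (ae_of_all _ fun t x hx => ?_) hb (ae_of_all _ fun t x _ => ?_)).2
  · have h2 : (∫ t : ℝ, -(bkI ν y t * (Real.cosh t : ℂ))) =
        -((∫ t : ℝ, bkI (ν + 1) y t) + ∫ t : ℝ, bkI (ν - 1) y t) / 2 := by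
      rw [integral_neg, ← integral_add (integrable_bkI _ hy) (integrable_bkI _ hy), neg_div,
        ← integral_div]
      congr 2
      ext t
      exact bkI_mul_cosh ν y t
    rw [h2] at key
    have h3 := key.div_const 2
    convert! h3 using 1
    simp only [besselK]
    ring
  · rw [norm_neg, bkI_mul_cosh, norm_div, Complex.norm_ofNat]
    refine div_le_div_of_nonneg_right ((norm_add_le _ _).trans ?_) (by norm_num)
    rw [norm_bkI, norm_bkI]
    have h1 : ∀ σ : ℝ, bkr σ x t ≤ bkr σ (y / 2) t := fun σ => by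
      refine Real.exp_le_exp.mpr ?_
      have := mul_le_mul_of_nonneg_right (le_of_lt hx) (Real.cosh_pos t).le
      linarith
    simpa using add_le_add (h1 (ν.re + 1)) (h1 (ν.re - 1))
  · have h1 : HasDerivAt (fun x : ℝ => ν * t - (x : ℂ) * (Real.cosh t : ℂ))
        (-(Real.cosh t : ℂ)) x := by
      have := ((Complex.ofRealCLM.hasDerivAt (x := x)).mul_const (Real.cosh t : ℂ)).const_sub
        (ν * t)
      simpa using this
    have h2 := h1.cexp
    rw [mul_neg] at h2
    exact h2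

theorem continuousOn_besselK (ν : ℂ) : ContinuousOn (besselK ν) (Ioi 0) :=
  fun _ hy => (hasDerivAt_besselK ν hy).continuousAt.continuousWithinAt

/-- the recurrence `2 ν K_ν = y (K_{ν+1} - K_{ν-1})` -/
theorem two_mul_nu_mul_besselK (ν : ℂ) {y : ℝ} (hy : 0 < y) :
    2 * ν * besselK ν y = y * (besselK (ν + 1) y - besselK (ν - 1) y) := by
  have hd : ∀ t : ℝ, HasDerivAt (bkI ν y) ((ν - y * (Real.sinh t : ℂ)) * bkI ν y t) t := by
    intro t
    have h1 : HasDerivAt (fun t : ℝ => ν * (t : ℂ) - (y : ℂ) * (Real.cosh t : ℂ))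
        (ν - y * (Real.sinh t : ℂ)) t := by
      have h2 : HasDerivAt (fun t : ℝ => ν * (t : ℂ)) ν t := by
        simpa using (Complex.ofRealCLM.hasDerivAt (x := t)).const_mul ν
      have h3 : HasDerivAt (fun t : ℝ => (y : ℂ) * (Real.cosh t : ℂ)) (y * (Real.sinh t : ℂ)) t :=
        ((Real.hasDerivAt_cosh t).ofReal_comp).const_mul (y : ℂ)
      exact h2.sub h3
    have h4 := h1.cexp
    rw [mul_comm] at h4
    exact h4
  have he : (fun t : ℝ => (ν - y * (Real.sinh t : ℂ)) * bkI ν y t) =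
      fun t => ν * bkI ν y t - y * ((bkI (ν + 1) y t - bkI (ν - 1) y t) / 2) := by
    ext t
    rw [← bkI_mul_sinh]
    ring
  have hi1 := (integrable_bkI ν hy).const_mul ν
  have hi2 := (((integrable_bkI (ν + 1) hy).sub (integrable_bkI (ν - 1) hy)).div_const 2).const_mul
    (y : ℂ)
  have h0 := integral_eq_zero_of_hasDerivAt_of_integrable hd (by rw [he]; exact hi1.sub hi2)
    (integrable_bkI ν hy)
  have e1 := integral_sub hi1 hi2
  have e2 := integral_sub (integrable_bkI (ν + 1) hy) (integrable_bkI (ν - 1) hy)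
  simp only [Pi.sub_apply] at e1
  rw [he, e1, integral_const_mul, integral_const_mul, integral_div, e2] at h0
  rw [← two_mul_besselK, ← two_mul_besselK, ← two_mul_besselK] at h0
  linear_combination h0

/-- the derivative, second form -/
theorem hasDerivAt_besselK' (ν : ℂ) {y : ℝ} (hy : 0 < y) :
    HasDerivAt (besselK ν) (ν / y * besselK ν y - besselK (ν + 1) y) y := by
  have h := hasDerivAt_besselK ν hy
  have h1 := two_mul_nu_mul_besselK ν hy
  have hy' : (y : ℂ) ≠ 0 := by exact_mod_cast hy.ne'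
  convert! h using 1
  have h2 : ν / y * besselK ν y = (besselK (ν + 1) y - besselK (ν - 1) y) / 2 := by
    field_simp
    linear_combination h1
  rw [h2]
  ring

/-- the derivative of `K_ν` -/
def besselK' (ν : ℂ) (y : ℝ) : ℂ := ν / y * besselK ν y - besselK (ν + 1) y

/-- the derivative of `K_ν'` satisfies the modified Bessel equation -/
theorem hasDerivAt_besselK'' (ν : ℂ) {y : ℝ} (hy : 0 < y) :
    HasDerivAt (besselK' ν) ((1 + ν ^ 2 / y ^ 2) * besselK ν y - besselK' ν y / y) y := by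
  have hy' : (y : ℂ) ≠ 0 := by exact_mod_cast hy.ne'
  have h1 := hasDerivAt_besselK' ν hy
  have h2 := hasDerivAt_besselK (ν + 1) hy
  rw [add_sub_cancel_right] at h2
  have h3 : HasDerivAt (fun x : ℝ => ν / (x : ℂ)) (-ν / (y : ℂ) ^ 2) y := by
    have := (hasDerivAt_const y ν).div (Complex.ofRealCLM.hasDerivAt (x := y)) hy'
    convert! this using 1
    simp
  have h4 := (h3.mul h1).sub h2
  have h5 := two_mul_nu_mul_besselK (ν + 1) hy
  rw [add_sub_cancel_right] at h5
  convert! h4 using 1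
  have h6 : besselK (ν + 1 + 1) y = 2 * (ν + 1) / y * besselK (ν + 1) y + besselK ν y := by
    field_simp
    linear_combination -h5
  rw [h6, besselK']
  field_simp
  ring

end Fermat.Agent.LT
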