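import Mathlib

/-!
# Completions of number fields at finite places: compactness, residue fields, adeles (helper18)
-/

set_option autoImplicit false

open NumberField IsDedekindDomain HeightOneSpectrum IsLocalRing WithZero
open scoped WithZero Valued

noncomputable section

namespace Fermat.Agent.LT.Loc

variable {K : Type*} [Field K] [NumberField K] (v : HeightOneSpectrum (𝓞 K))

theorem mem_maximalIdeal_iff (x : v.adicCompletionIntegers K) :
    x ∈ maximalIdeal (v.adicCompletionIntegers K) ↔ Valued.v (x : v.adicCompletion K) < 1 := by
  rw [mem_maximalIdeal, mem_nonunits_iff, adicCompletionIntegers.isUnit_iff_valued_eq_one]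
  exact ⟨fun h => lt_of_le_of_ne x.2 h, fun h => h.ne⟩

/-- every element of the completed ring of integers is congruent to an element of `𝓞 K`. -/
theorem exists_sub_mem_maximalIdeal (x : v.adicCompletionIntegers K) :
    ∃ r : 𝓞 K, x - algebraMap (𝓞 K) (v.adicCompletionIntegers K) r ∈
      maximalIdeal (v.adicCompletionIntegers K) := by
  obtain ⟨k, hk⟩ := Metric.denseRange_iff.mp (denseRange_algebraMap (R := 𝓞 K) (K := K) v)
    (x : v.adicCompletion K) 1 one_pos
  rw [dist_eq_norm, Valued.toNormedField.norm_lt_one_iff] at hk
  have hk1 : v.valuation K k ≤ 1 := by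
    have h1 : Valued.v (algebraMap K (v.adicCompletion K) k) ≤ 1 := by
      have : algebraMap K (v.adicCompletion K) k = (x : v.adicCompletion K) -
        ((x : v.adicCompletion K) - algebraMap K (v.adicCompletion K) k) := by ring
      rw [this]
      exact (Valued.v.map_sub _ _).trans (max_le x.2 hk.le)
    rwa [← valuedAdicCompletion_eq_valuation']
  obtain ⟨a, ha⟩ := v.exists_valuation_sub_lt_of_integer hk1 1
  refine ⟨a, ?_⟩
  rw [mem_maximalIdeal_iff]
  have h2 : ((x - algebraMap (𝓞 K) (v.adicCompletionIntegers K) a : v.adicCompletionIntegers K) :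
      v.adicCompletion K) = ((x : v.adicCompletion K) - algebraMap K (v.adicCompletion K) k) -
        algebraMap K (v.adicCompletion K) (algebraMap (𝓞 K) K a - k) := by
    have h3 : ((algebraMap (𝓞 K) (v.adicCompletionIntegers K) a : v.adicCompletionIntegers K) :
      v.adicCompletion K) = algebraMap K (v.adicCompletion K) (algebraMap (𝓞 K) K a) := rfl
    rw [map_sub, AddSubgroupClass.coe_sub, h3]
    ring
  rw [h2]
  refine lt_of_le_of_lt (Valued.v.map_sub _ _) (max_lt hk ?_)
  rw [show algebraMap K (v.adicCompletion K) (algebraMap (𝓞 K) K a - k) =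
    ((algebraMap (𝓞 K) K a - k : K) : v.adicCompletion K) from rfl,
    valuedAdicCompletion_eq_valuation']
  exact ha

/-- The residue field of the completion. -/
theorem residue_surjective : Function.Surjective
    ((residue (v.adicCompletionIntegers K)).comp
      (algebraMap (𝓞 K) (v.adicCompletionIntegers K))) := by
  intro y
  obtain ⟨x, rfl⟩ := IsLocalRing.residue_surjective (R := v.adicCompletionIntegers K) y
  obtain ⟨r, hr⟩ := exists_sub_mem_maximalIdeal v x
  refine ⟨r, ?_⟩
  rw [RingHom.comp_apply, eq_comm, ← sub_eq_zero, ← map_sub, residue_eq_zero_iff]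
  exact hr

theorem ker_residue : RingHom.ker ((residue (v.adicCompletionIntegers K)).comp
      (algebraMap (𝓞 K) (v.adicCompletionIntegers K))) = v.asIdeal := by
  ext r
  rw [RingHom.mem_ker, RingHom.comp_apply, residue_eq_zero_iff, mem_maximalIdeal_iff]
  have h3 : ((algebraMap (𝓞 K) (v.adicCompletionIntegers K) r : v.adicCompletionIntegers K) :
      v.adicCompletion K) = ((algebraMap (𝓞 K) K r : K) : v.adicCompletion K) := rfl
  rw [h3, valuedAdicCompletion_eq_valuation', valuation_lt_one_iff_mem]

/-- `𝓞 K / v ≃ ` the residue field of the completion. -/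
def residueEquiv : (𝓞 K ⧸ v.asIdeal) ≃+* ResidueField (v.adicCompletionIntegers K) :=
  (Ideal.quotEquivOfEq (ker_residue v).symm).trans
    (RingHom.quotientKerEquivOfSurjective (residue_surjective v))

instance finite_residueField : Finite (ResidueField (v.adicCompletionIntegers K)) := by
  have : Finite (𝓞 K ⧸ v.asIdeal) := v.asIdeal.finiteQuotientOfFreeOfNeBot v.ne_bot
  exact Finite.of_equiv _ (residueEquiv v).toEquiv

theorem card_residueField :
    Nat.card (ResidueField (v.adicCompletionIntegers K)) = Ideal.absNorm v.asIdeal := by
  rw [← Nat.card_congr (residueEquiv v).toEquiv]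
  rfl

instance properSpace : ProperSpace (v.adicCompletion K) :=
  Valued.integer.properSpace_iff_completeSpace_and_isDiscreteValuationRing_integer_and_finite_residueField.mpr
    ⟨inferInstance, inferInstanceAs (IsDiscreteValuationRing (v.adicCompletionIntegers K)),
      finite_residueField v⟩

instance locallyCompactSpace : LocallyCompactSpace (v.adicCompletion K) := inferInstance

instance compactSpace_integers : CompactSpace (v.adicCompletionIntegers K) :=
  Valued.integer.properSpace_iff_compactSpace_integer.mp (properSpace v)

instance secondCountable : SecondCountableTopology (v.adicCompletion K) := inferInstance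

instance locallyCompactSpace_finiteAdeleRing :
    LocallyCompactSpace (FiniteAdeleRing (𝓞 K) K) :=
  haveI : Fact (∀ v : HeightOneSpectrum (𝓞 K),
      IsOpen (v.adicCompletionIntegers K : Set (v.adicCompletion K))) :=
    ⟨fun _ ↦ Valued.isOpen_valuationSubring _⟩
  RestrictedProduct.locallyCompactSpace_of_addGroup
    (fun (v : HeightOneSpectrum (𝓞 K)) ↦ v.adicCompletion K)
    (B := fun v => v.adicCompletionIntegers K)
    (.of_forall fun v ↦ isCompact_iff_compactSpace.mpr (compactSpace_integers v))

instance : LocallyCompactSpace (AdeleRing (𝓞 K) K) :=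
  inferInstanceAs (LocallyCompactSpace (InfiniteAdeleRing K × FiniteAdeleRing (𝓞 K) K))

end Fermat.Agent.LT.Loc
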