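import Mathlib
import Fermat.Agent.CFT.SUnits
import Fermat.Agent.LT.Local

/-!
# Approximation in rings of `S`-integers of number fields (helper18)

`F` a number field, `S` a finite set of finite places, `O_S = (S : Set _).integer F`.

* `exists_sunit`: an integral `S`-unit with positive order exactly at the places in `S`.
* `exists_mul_pow_integral`.
* `exists_integer_approx`: `O_S` is dense in `∏_{v ∈ S} F_v`.
-/

set_option autoImplicit false

open NumberField IsDedekindDomain HeightOneSpectrum WithZero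
open scoped WithZero

noncomputable section

namespace Fermat.Agent.LT.Loc

variable {F : Type*} [Field F] [NumberField F] (S : Finset (HeightOneSpectrum (𝓞 F)))

/-- the ring of `S`-integers. -/
abbrev OS : Subalgebra (𝓞 F) F := (S : Set (HeightOneSpectrum (𝓞 F))).integer F

variable {S} in
theorem mem_OS_iff {x : F} : x ∈ OS S ↔ ∀ v : HeightOneSpectrum (𝓞 F), v ∉ S → v.valuation F x ≤ 1 :=
  Iff.rfl

/-- an integral `S`-unit with positive order at all places in `S`. -/
theorem exists_sunit : ∃ u : 𝓞 F, u ≠ 0 ∧ (∀ v ∉ S, v.valuation F (u : F) = 1) ∧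
    ∀ v ∈ S, v.valuation F (u : F) < 1 := by
  classical
  choose x hx using fun v : HeightOneSpectrum (𝓞 F) => CFT.SUnits.exists_div_eq_single F v
  have hdiv : ∀ T : Finset (HeightOneSpectrum (𝓞 F)), ∀ w : HeightOneSpectrum (𝓞 F),
      CFT.SUnits.ord w (∏ v ∈ T, x v) = if w ∈ T then (classNumber F : ℤ) else 0 := by
    intro T w
    induction T using Finset.induction_on with
    | empty => simp
    | insert a T ha ih =>
      rw [Finset.prod_insert ha, CFT.SUnits.ord_mul, ih]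
      have h1 : CFT.SUnits.ord w (x a) = if w = a then (classNumber F : ℤ) else 0 := by
        have := DFunLike.congr_fun (hx a) w
        rw [CFT.SUnits.div_apply, Finsupp.single_apply] at this
        rw [this]
        simp only [eq_comm]
      rw [h1]
      by_cases h2 : w = a
      · subst h2
        simp [ha]
      · simp [h2]
  have hcl : (0 : ℤ) < (classNumber F : ℤ) := by
    exact_mod_cast classNumber_pos F
  have hint : ∀ w : HeightOneSpectrum (𝓞 F), w.valuation F ((∏ v ∈ S, x v : Fˣ) : F) ≤ 1 := by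
    intro w
    rw [← CFT.SUnits.ord_nonneg_iff, hdiv]
    split_ifs <;> omega
  obtain ⟨u, hu⟩ := HeightOneSpectrum.mem_integers_of_valuation_le_one F _ hint
  have hu' : (u : F) = ((∏ v ∈ S, x v : Fˣ) : F) := hu
  refine ⟨u, ?_, fun v hv => ?_, fun v hv => ?_⟩
  · rintro rfl
    exact (∏ v ∈ S, x v : Fˣ).ne_zero (by rw [← hu']; simp)
  · rw [hu', ← CFT.SUnits.ord_eq_zero_iff, hdiv, if_neg hv]
  · refine lt_of_le_of_ne (hu' ▸ hint v) ?_
    rw [hu', ne_eq, ← CFT.SUnits.ord_eq_zero_iff, hdiv, if_pos hv]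
    exact hcl.ne'

section Local

variable (v : HeightOneSpectrum (𝓞 F))

open scoped Topology

/-- the embedding of `F` into the completion at `v`. -/
abbrev ι : F →+* v.adicCompletion F := algebraMap F (v.adicCompletion F)

theorem v_ι (k : F) : Valued.v (ι v k) = v.valuation F k :=
  valuedAdicCompletion_eq_valuation' v k

theorem exp_neg_lt_of_pos {γ : ℤᵐ⁰} (hγ : γ ≠ 0) : ∃ n : ℕ, exp (-(n : ℤ)) < γ := by
  obtain ⟨m, rfl⟩ : ∃ m : ℤ, γ = exp m := ⟨_, (exp_log hγ).symm⟩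
  refine ⟨m.natAbs + 1, ?_⟩
  rw [exp_lt_exp]
  omega

theorem mem_nhds_iff {s : Set (v.adicCompletion F)} {x : v.adicCompletion F} :
    s ∈ 𝓝 x ↔ ∃ n : ℕ, {y | Valued.v (y - x) < exp (-(n : ℤ))} ⊆ s := by
  rw [Valued.mem_nhds]
  constructor
  · rintro ⟨γ, hγ⟩
    obtain ⟨n, hn⟩ := exp_neg_lt_of_pos (γ := MonoidWithZeroHom.ValueGroup₀.embedding γ.1)
      (MonoidWithZeroHom.ValueGroup₀.embedding_unit_ne_zero γ)
    refine ⟨n, fun y hy => hγ ?_⟩
    simp only [Set.mem_ofPred_eq] at hy ⊢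
    rw [Valuation.restrict_lt_iff_lt_embedding]
    exact hy.trans hn
  · rintro ⟨n, hn⟩
    obtain ⟨π, hπ⟩ := v.valuation_exists_uniformizer F
    have h0 : Valued.v (ι v π ^ n) = exp (-(n : ℤ)) := by
      rw [map_pow, v_ι, hπ, ← exp_nsmul]
      simp
    have h1 : Valued.v.restrict (ι v π ^ n) ≠ 0 := by
      rw [Valuation.ne_zero_iff]
      intro h
      rw [h, map_zero] at h0
      exact exp_ne_zero h0.symm
    refine ⟨Units.mk0 _ h1, fun y hy => hn ?_⟩
    simp only [Set.mem_ofPred_eq, Units.val_mk0] at hy ⊢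
    rw [Valuation.restrict_lt_iff, h0] at hy
    exact hy

theorem exists_ι_sub_lt (x : v.adicCompletion F) {γ : ℤᵐ⁰} (hγ : γ ≠ 0) :
    ∃ k : F, Valued.v (ι v k - x) < γ := by
  obtain ⟨n, hn⟩ := exp_neg_lt_of_pos hγ
  have h := (denseRange_algebraMap (R := 𝓞 F) (K := F) v).mem_nhds
    ((mem_nhds_iff v).mpr ⟨n, le_refl _⟩ : {y | Valued.v (y - x) < exp (-(n : ℤ))} ∈ 𝓝 x)
  obtain ⟨k, hk⟩ := h
  exact ⟨k, lt_trans hk hn⟩

end Local

/-- approximation of finitely many integral elements by one algebraic integer. -/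
theorem exists_int_approx (x : ∀ v : S, v.1.adicCompletion F) (hx : ∀ v, Valued.v (x v) ≤ 1)
    {γ : ℤᵐ⁰} (hγ : γ ≠ 0) :
    ∃ a : 𝓞 F, ∀ v : S, Valued.v (ι v.1 (a : F) - x v) < γ := by
  classical
  obtain ⟨n, hn⟩ := exp_neg_lt_of_pos hγ
  have h1 : ∀ v : S, ∃ a : 𝓞 F, Valued.v (ι v.1 (a : F) - x v) < exp (-(n : ℤ)) := by
    intro v
    obtain ⟨k, hk⟩ := exists_ι_sub_lt v.1 (x v) (γ := exp (-(n : ℤ))) exp_ne_zero
    have hk1 : v.1.valuation F k ≤ 1 := by
      rw [← v_ι, show ι v.1 k = x v + (ι v.1 k - x v) by ring]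
      refine (Valued.v.map_add _ _).trans (max_le (hx v) (hk.le.trans ?_))
      rw [← exp_zero, exp_le_exp]
      omega
    obtain ⟨a, ha⟩ := v.1.exists_valuation_sub_lt_of_integer hk1
      (Units.mk0 (exp (-(n : ℤ))) exp_ne_zero)
    refine ⟨a, ?_⟩
    rw [show ι v.1 (a : F) - x v = ι v.1 (algebraMap (𝓞 F) F a - k) + (ι v.1 k - x v) by
      rw [map_sub]; ring]
    refine lt_of_le_of_lt (Valued.v.map_add _ _) (max_lt ?_ hk)
    rw [v_ι]
    exact ha
  choose b hb using h1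
  obtain ⟨a, ha⟩ := IsDedekindDomain.exists_forall_sub_mem_ideal (s := (Finset.univ : Finset S))
    (fun v : S => v.1.asIdeal) (fun _ => n)
    (fun v _ => Ideal.prime_of_isPrime v.1.ne_bot v.1.isPrime)
    (fun v _ w _ h e => h (Subtype.ext (HeightOneSpectrum.ext e)))
    (fun v => b v.1)
  refine ⟨a, fun v => lt_of_le_of_lt ?_ hn⟩
  have h2 := ha v (Finset.mem_univ _)
  rw [← intValuation_le_pow_iff_mem] at h2
  rw [show ι v.1 (a : F) - x v = ι v.1 (algebraMap (𝓞 F) F (a - b v)) + (ι v.1 (b v : F) - x v) by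
      rw [map_sub, map_sub]; ring]
  refine (Valued.v.map_add _ _).trans (max_le ?_ (hb v).le)
  rw [v_ι, valuation_of_algebraMap]
  exact h2

/-- multiplying by a power of the `S`-unit `u` makes an element at places of `S` integral. -/
theorem exists_pow_mul_le (u : 𝓞 F) (hu : ∀ v ∈ S, v.valuation F (u : F) < 1)
    (x : ∀ v : S, v.1.adicCompletion F) {γ : ℤᵐ⁰} (hγ : γ ≠ 0) :
    ∃ n : ℕ, ∀ v : S, Valued.v (ι v.1 (u : F) ^ n * x v) ≤ γ := by
  classical
  have h1 : ∀ v : S, ∃ n : ℕ, ∀ m ≥ n, Valued.v (ι v.1 (u : F) ^ m * x v) ≤ γ := by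
    intro v
    have hu1 : Valued.v (ι v.1 (u : F)) ≤ exp (-1 : ℤ) := by
      have := hu v v.2
      rw [v_ι]
      by_cases h0 : v.1.valuation F (u : F) = 0
      · rw [h0]; exact zero_le
      · rw [← exp_log h0] at this ⊢
        rw [← exp_zero, exp_lt_exp] at this
        rw [exp_le_exp]
        omega
    by_cases hx0 : Valued.v (x v) = 0
    · refine ⟨0, fun m _ => ?_⟩
      rw [map_mul, hx0, mul_zero]
      exact zero_le
    obtain ⟨a, ha⟩ : ∃ a : ℤ, Valued.v (x v) = exp a := ⟨_, (exp_log hx0).symm⟩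
    obtain ⟨c, hc⟩ : ∃ c : ℤ, γ = exp c := ⟨_, (exp_log hγ).symm⟩
    refine ⟨(a - c).toNat, fun m hm => ?_⟩
    calc Valued.v (ι v.1 (u : F) ^ m * x v) = Valued.v (ι v.1 (u : F)) ^ m * Valued.v (x v) := by
          rw [map_mul, map_pow]
      _ ≤ exp (-1 : ℤ) ^ m * exp a := by
          rw [ha]
          gcongr
      _ ≤ γ := by
          rw [← exp_nsmul, ← exp_add, hc, exp_le_exp]
          simp only [nsmul_eq_mul]
          have : a - c ≤ (m : ℤ) := by
            have := Int.self_le_toNat (a - c)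
            omega
          linarith
  choose N hN using h1
  refine ⟨Finset.univ.sup N, fun v => hN v _ (Finset.le_sup (Finset.mem_univ v))⟩

/-- **approximation**: `O_S` is dense in `∏_{v ∈ S} F_v`. -/
theorem exists_OS_approx (x : ∀ v : S, v.1.adicCompletion F) {γ : ℤᵐ⁰} (hγ : γ ≠ 0) :
    ∃ a ∈ OS S, ∀ v : S, Valued.v (ι v.1 a - x v) < γ := by
  obtain ⟨u, hu0, hu1, hu2⟩ := exists_sunit S
  have hu0' : (u : F) ≠ 0 := by simpa using hu0
  obtain ⟨n, hn⟩ := exists_pow_mul_le S u hu2 x one_ne_zero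
  -- choose a common bound for `γ * v(u)^n`
  obtain ⟨a, ha⟩ : ∃ a : 𝓞 F, ∀ v : S,
      Valued.v (ι v.1 (a : F) - ι v.1 (u : F) ^ n * x v) < γ * Valued.v (ι v.1 (u : F)) ^ n := by
    have hne : ∀ v : S, γ * Valued.v (ι v.1 (u : F)) ^ n ≠ 0 := by
      intro v
      refine mul_ne_zero hγ (pow_ne_zero _ ?_)
      rw [Valuation.ne_zero_iff, ne_eq, map_eq_zero]
      exact hu0'
    choose m hm using fun v : S => exp_neg_lt_of_pos (hne v)
    obtain ⟨a, ha⟩ := exists_int_approx S (fun v => ι v.1 (u : F) ^ n * x v) hn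
      (γ := exp (-((Finset.univ.sup m : ℕ) : ℤ))) exp_ne_zero
    refine ⟨a, fun v => (ha v).trans_le ?_⟩
    refine le_trans ?_ (hm v).le
    rw [exp_le_exp]
    have := Finset.le_sup (f := m) (Finset.mem_univ v)
    omega
  refine ⟨(a : F) / (u : F) ^ n, ?_, fun v => ?_⟩
  · rw [mem_OS_iff]
    intro v hv
    rw [map_div₀, map_pow, hu1 v hv, one_pow, div_one]
    exact v.valuation_le_one a
  · have hι : ι v.1 (u : F) ≠ 0 := by
      rw [ne_eq, map_eq_zero]
      exact hu0'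
    have h2 : ι v.1 ((a : F) / (u : F) ^ n) - x v =
        (ι v.1 (a : F) - ι v.1 (u : F) ^ n * x v) * ((ι v.1 (u : F)) ^ n)⁻¹ := by
      rw [map_div₀, map_pow]
      field_simp
    have h3 : Valued.v (ι v.1 (u : F)) ^ n ≠ 0 :=
      pow_ne_zero _ ((Valuation.ne_zero_iff _).mpr hι)
    rw [h2, map_mul, map_inv₀, map_pow]
    exact (mul_inv_lt_iff₀ (zero_lt_iff.mpr h3)).mpr (ha v)

theorem denseRange_OS :
    DenseRange (fun (a : OS S) (v : S) => ι v.1 (a : F)) := by
  classical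
  rw [DenseRange, dense_iff_inter_open]
  rintro U hU ⟨x, hx⟩
  obtain ⟨I, t, ht, hU'⟩ := isOpen_pi_iff.mp hU x hx
  have h1 : ∀ v : S, ∃ n : ℕ, v ∈ I → {y | Valued.v (y - x v) < exp (-(n : ℤ))} ⊆ t v := by
    intro v
    by_cases hv : v ∈ I
    · obtain ⟨n, hn⟩ := (mem_nhds_iff v.1).mp ((ht v hv).1.mem_nhds (ht v hv).2)
      exact ⟨n, fun _ => hn⟩
    · exact ⟨0, fun h => absurd h hv⟩
  choose n hn using h1
  obtain ⟨a, ha, hax⟩ := exists_OS_approx S x (γ := exp (-((Finset.univ.sup n : ℕ) : ℤ)))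
    exp_ne_zero
  refine ⟨_, hU' ?_, ⟨⟨a, ha⟩, rfl⟩⟩
  intro v hv
  refine hn v hv ((hax v).trans_le ?_)
  rw [exp_le_exp]
  have := Finset.le_sup (f := n) (Finset.mem_univ v)
  omega

end Fermat.Agent.LT.Loc
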