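import Mathlib
import Fermat.Agent.LT.SApprox

/-!
# `O_S` is a cocompact lattice in `F_∞ × ∏_{v ∈ S} F_v` (helper18)
-/

set_option autoImplicit false

open NumberField IsDedekindDomain HeightOneSpectrum WithZero
open NumberField.mixedEmbedding
open scoped WithZero

noncomputable section

namespace Fermat.Agent.LT.Loc

variable {F : Type*} [Field F] [NumberField F] (S : Finset (HeightOneSpectrum (𝓞 F)))

open scoped Classical in
theorem normAtPlace_le_norm (w : InfinitePlace F) (z : mixedSpace F) : normAtPlace w z ≤ ‖z‖ := by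
  rw [norm_eq_sup'_normAtPlace]
  exact Finset.le_sup' (fun w => normAtPlace w z) (Finset.mem_univ w)

variable (F) in
/-- `𝓞 F` is cocompact in `F_∞`. -/
theorem exists_bound_mixed : ∃ C : ℝ, 0 ≤ C ∧ ∀ z : mixedSpace F, ∃ a : 𝓞 F, ∀ w : InfinitePlace F,
    normAtPlace w (z - mixedEmbedding F (a : F)) ≤ C := by
  classical
  refine ⟨∑ i, ‖latticeBasis F i‖, Finset.sum_nonneg fun _ _ => norm_nonneg _, fun z => ?_⟩
  have h1 : ((ZSpan.floor (latticeBasis F) z : _) : mixedSpace F) ∈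
      Submodule.span ℤ (Set.range (latticeBasis F)) := (ZSpan.floor (latticeBasis F) z).2
  rw [mem_span_latticeBasis] at h1
  obtain ⟨a, ha⟩ := h1
  refine ⟨a, fun w => (normAtPlace_le_norm w _).trans ?_⟩
  have h2 := ZSpan.norm_fract_le (latticeBasis F) z
  rw [ZSpan.fract_apply, ← ha] at h2
  exact h2

/-- **cocompactness**: `O_S` is cocompact in `F_∞ × ∏_{v ∈ S} F_v` (mixed space form). -/
theorem exists_OS_near_mixed {γ : ℤᵐ⁰} (hγ : γ ≠ 0) : ∃ C : ℝ, 0 ≤ C ∧
    ∀ (z : mixedSpace F) (x : ∀ v : S, v.1.adicCompletion F), ∃ a ∈ OS S,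
      (∀ v : S, Valued.v (x v - ι v.1 a) ≤ γ) ∧
      ∀ w : InfinitePlace F, normAtPlace w (z - mixedEmbedding F a) ≤ C := by
  classical
  obtain ⟨u, hu0, hu1, hu2⟩ := exists_sunit S
  have hu0' : (u : F) ≠ 0 := by simpa using hu0
  obtain ⟨n, hn⟩ := exists_pow_mul_le S u hu2 1 hγ
  obtain ⟨C, hC0, hC⟩ := exists_bound_mixed F
  refine ⟨(∑ w : InfinitePlace F, w ((u : F) ^ n)) * C,
    mul_nonneg (Finset.sum_nonneg fun w _ => apply_nonneg w _) hC0, fun z x => ?_⟩
  obtain ⟨a0, ha0, ha0'⟩ := exists_OS_approx S x hγ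
  obtain ⟨a1, ha1⟩ := hC (mixedEmbedding F ((u : F) ^ n)⁻¹ * (z - mixedEmbedding F a0))
  refine ⟨a0 + (u : F) ^ n * a1, ?_, fun v => ?_, fun w => ?_⟩
  · refine Subalgebra.add_mem _ ha0 ?_
    rw [mem_OS_iff]
    intro v _
    rw [map_mul, map_pow]
    exact mul_le_one' (pow_le_one' (v.valuation_le_one u) n) (v.valuation_le_one a1)
  · rw [map_add, show x v - (ι v.1 a0 + ι v.1 ((u : F) ^ n * a1)) =
      -(ι v.1 a0 - x v) - ι v.1 ((u : F) ^ n * a1) by ring]
    refine (Valued.v.map_sub _ _).trans (max_le ?_ ?_)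
    · rw [Valuation.map_neg]
      exact (ha0' v).le
    · have h1 := hn v
      rw [Pi.one_apply, mul_one] at h1
      rw [map_mul, map_mul, map_pow, map_pow]
      rw [map_pow] at h1
      refine (mul_le_mul' h1 ?_).trans (mul_one γ).le
      rw [v_ι]
      exact v.1.valuation_le_one a1
  · have hne : mixedEmbedding F ((u : F) ^ n) * mixedEmbedding F ((u : F) ^ n)⁻¹ = 1 := by
      rw [← map_mul, mul_inv_cancel₀ (pow_ne_zero _ hu0'), map_one]
    have h1 : z - mixedEmbedding F (a0 + (u : F) ^ n * a1) = mixedEmbedding F ((u : F) ^ n) *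
        (mixedEmbedding F ((u : F) ^ n)⁻¹ * (z - mixedEmbedding F a0) - mixedEmbedding F a1) := by
      rw [mul_sub, ← mul_assoc, hne, one_mul, map_add, map_mul]
      ring
    rw [h1, map_mul, normAtPlace_apply]
    refine mul_le_mul ?_ (ha1 w) (normAtPlace_nonneg _ _) (Finset.sum_nonneg fun w _ =>
      apply_nonneg w _)
    exact Finset.single_le_sum (f := fun w : InfinitePlace F => w ((u : F) ^ n))
      (fun w _ => apply_nonneg w _) (Finset.mem_univ w)

/-- **cocompactness**, totally complex form. -/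
theorem exists_OS_near [IsTotallyComplex F] {γ : ℤᵐ⁰} (hγ : γ ≠ 0) : ∃ C : ℝ, 0 ≤ C ∧
    ∀ (z : InfinitePlace F → ℂ) (x : ∀ v : S, v.1.adicCompletion F), ∃ a ∈ OS S,
      (∀ v : S, Valued.v (x v - ι v.1 a) ≤ γ) ∧
      ∀ w : InfinitePlace F, ‖z w - w.embedding a‖ ≤ C := by
  obtain ⟨C, hC0, hC⟩ := exists_OS_near_mixed S hγ
  refine ⟨C, hC0, fun z x => ?_⟩
  obtain ⟨a, ha, h1, h2⟩ := hC (fun w => (z w.1).re, fun w => z w.1) x
  refine ⟨a, ha, h1, fun w => ?_⟩
  have h3 := h2 w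
  rw [normAtPlace_apply_of_isComplex (IsTotallyComplex.isComplex w)] at h3
  exact h3

/-- **discreteness** of `O_S` in `F_∞ × ∏_{v ∈ S} F_v`. -/
theorem finite_OS_bounded (γ : ℤᵐ⁰) (r : ℝ) :
    {a : F | a ∈ OS S ∧ (∀ v ∈ S, v.valuation F a ≤ γ) ∧
      ∀ w : InfinitePlace F, w a ≤ r}.Finite := by
  classical
  obtain ⟨u, hu0, hu1, hu2⟩ := exists_sunit S
  have hu0' : (u : F) ≠ 0 := by simpa using hu0
  -- choose `n` such that `u ^ n * a` is integral
  obtain ⟨n, hn⟩ : ∃ n : ℕ, ∀ v ∈ S, v.valuation F (u : F) ^ n * γ ≤ 1 := by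
    by_cases hγ : γ = 0
    · refine ⟨0, fun v _ => ?_⟩
      rw [hγ, mul_zero]
      exact zero_le
    obtain ⟨c, hc⟩ : ∃ c : ℤ, γ = exp c := ⟨_, (exp_log hγ).symm⟩
    refine ⟨c.toNat, fun v hv => ?_⟩
    have hu1 : v.valuation F (u : F) ≤ exp (-1 : ℤ) := by
      have := hu2 v hv
      by_cases h0 : v.valuation F (u : F) = 0
      · rw [h0]; exact zero_le
      · rw [← exp_log h0] at this ⊢
        rw [← exp_zero, exp_lt_exp] at this
        rw [exp_le_exp]
        omega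
    calc v.valuation F (u : F) ^ c.toNat * γ ≤ exp (-1 : ℤ) ^ c.toNat * exp c := by
          rw [hc]
          gcongr
      _ ≤ 1 := by
          rw [← exp_nsmul, ← exp_add, ← exp_zero, exp_le_exp]
          simp only [nsmul_eq_mul]
          have := Int.self_le_toNat c
          linarith
  set B : ℝ := (∑ w : InfinitePlace F, w ((u : F) ^ n)) * |r| with hB
  have hfin := Embeddings.finite_of_norm_le F ℂ B
  refine Set.Finite.of_finite_image (f := fun a => (u : F) ^ n * a) (hfin.subset ?_)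
    (fun a _ b _ h => mul_left_cancel₀ (pow_ne_zero _ hu0') h)
  rintro _ ⟨a, ⟨ha1, ha2, ha3⟩, rfl⟩
  refine ⟨?_, fun φ => ?_⟩
  · have h1 : ∀ v : HeightOneSpectrum (𝓞 F), v.valuation F ((u : F) ^ n * a) ≤ 1 := by
      intro v
      by_cases hv : v ∈ S
      · rw [map_mul, map_pow]
        exact (mul_le_mul' le_rfl (ha2 v hv)).trans (hn v hv)
      · rw [map_mul, map_pow, hu1 v hv, one_pow, one_mul]
        exact ha1 v hv
    obtain ⟨b, hb⟩ := HeightOneSpectrum.mem_integers_of_valuation_le_one F _ h1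
    show IsIntegral ℤ ((u : F) ^ n * a)
    rw [← hb]
    exact b.isIntegral_coe
  · show ‖φ ((u : F) ^ n * a)‖ ≤ B
    have h1 : ‖φ ((u : F) ^ n * a)‖ = (InfinitePlace.mk φ) ((u : F) ^ n * a) := rfl
    rw [h1, map_mul]
    refine mul_le_mul ?_ ((ha3 _).trans (le_abs_self r)) (apply_nonneg _ _)
      (Finset.sum_nonneg fun w _ => apply_nonneg w _)
    exact Finset.single_le_sum (f := fun w : InfinitePlace F => w ((u : F) ^ n))
      (fun w _ => apply_nonneg w _) (Finset.mem_univ _)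

end Fermat.Agent.LT.Loc
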