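import Mathlib
import Fermat.Agent.LT.SLattice

/-!
# `F_S^1 / O_S^×` is compact (helper18)
-/

set_option autoImplicit false

open NumberField IsDedekindDomain HeightOneSpectrum WithZero
open NumberField.InfinitePlace
open scoped WithZero nonZeroDivisors

noncomputable section

namespace Fermat.Agent.LT.Loc

variable {F : Type*} [Field F] [NumberField F]

open NumberField.Units NumberField.Units.dirichletUnitTheorem in
variable (F) in
/-- the unit theorem: every vector of sum zero is near the logarithm of a unit. -/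
theorem exists_unit_bound : ∃ C : ℝ, 0 ≤ C ∧ ∀ ρ : InfinitePlace F → ℝ,
    ∑ w, (w.mult : ℝ) * ρ w = 0 →
      ∃ ε : (𝓞 F)ˣ, ∀ w : InfinitePlace F, |ρ w + Real.log (w ((ε : 𝓞 F) : F))| ≤ C := by
  classical
  let b : Module.Basis (Fin (rank F)) ℝ (logSpace F) :=
    (basisUnitLattice F).ofZLatticeBasis ℝ (unitLattice F)
  set C0 : ℝ := ∑ i, ‖b i‖ with hC0
  have hC0' : 0 ≤ C0 := Finset.sum_nonneg fun _ _ => norm_nonneg _
  have hcard : (1 : ℝ) ≤ Fintype.card (InfinitePlace F) := by
    exact_mod_cast Fintype.card_pos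
  refine ⟨Fintype.card (InfinitePlace F) * C0, by positivity, fun ρ hρ => ?_⟩
  let y : logSpace F := fun w => -((w.1.mult : ℝ) * ρ w.1)
  have h1 : ((ZSpan.floor b y : _) : logSpace F) ∈ unitLattice F := by
    have h : Submodule.span ℤ (Set.range b) = unitLattice F :=
      (basisUnitLattice F).ofZLatticeBasis_span ℝ
    exact h.le (ZSpan.floor b y).2
  obtain ⟨ε', -, hε'⟩ := h1
  obtain ⟨ε, rfl⟩ : ∃ ε : (𝓞 F)ˣ, Additive.ofMul ε = ε' := ⟨ε'.toMul, rfl⟩
  have hε : logEmbedding F (Additive.ofMul ε) = ((ZSpan.floor b y : _) : logSpace F) := hε'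
  have h2 := ZSpan.norm_fract_le b y
  rw [ZSpan.fract_apply, ← hε, ← hC0] at h2
  have h3 : ∀ w : {w : InfinitePlace F // w ≠ w₀},
      |(w.1.mult : ℝ) * (ρ w.1 + Real.log (w.1 ((ε : 𝓞 F) : F)))| ≤ C0 := by
    intro w
    refine le_trans ?_ ((norm_le_pi_norm (y - logEmbedding F (Additive.ofMul ε)) w).trans h2)
    rw [Pi.sub_apply, logEmbedding_component, Real.norm_eq_abs, ← abs_neg]
    refine le_of_eq (congrArg _ ?_)
    simp only [y]
    ring
  have hmult : ∀ w : InfinitePlace F, (1 : ℝ) ≤ w.mult := fun w => by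
    exact_mod_cast w.mult_pos
  have tool : ∀ (w : InfinitePlace F) (t : ℝ), |t| ≤ |(w.mult : ℝ) * t| := fun w t => by
    rw [abs_mul, Nat.abs_cast]
    exact le_mul_of_one_le_left (abs_nonneg t) (hmult w)
  refine ⟨ε, fun w => (tool w _).trans ?_⟩
  by_cases hw : w = w₀
  · have h4 : ∑ w : InfinitePlace F, (w.mult : ℝ) * (ρ w + Real.log (w ((ε : 𝓞 F) : F))) = 0 := by
      simp only [mul_add]
      rw [Finset.sum_add_distrib, hρ, zero_add]
      exact sum_mult_mul_log ε
    rw [Fintype.sum_eq_add_sum_subtype_ne _ w, add_eq_zero_iff_eq_neg] at h4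
    subst hw
    rw [h4, abs_neg]
    refine (Finset.abs_sum_le_sum_abs _ _).trans ((Finset.sum_le_card_nsmul _ _ _
      (fun w _ => h3 w)).trans ?_)
    rw [nsmul_eq_mul]
    refine mul_le_mul_of_nonneg_right ?_ hC0'
    simp
  · refine (h3 ⟨w, hw⟩).trans ?_
    exact le_mul_of_one_le_left hC0' hcard

/-- the product formula in logarithmic form. -/
theorem sum_mult_log_eq (x : Fˣ) : ∑ w : InfinitePlace F, (w.mult : ℝ) * Real.log (w (x : F)) =
    (CFT.SUnits.div (R := 𝓞 F) x).sum fun v n => (n : ℝ) * Real.log (Ideal.absNorm v.asIdeal) := by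
  have h1 : (FractionalIdeal.absNorm ((CFT.SUnits.idealOf F (CFT.SUnits.div (R := 𝓞 F) x) :
      (FractionalIdeal (𝓞 F)⁰ F)ˣ) : FractionalIdeal (𝓞 F)⁰ F)) = |Algebra.norm ℚ (x : F)| := by
    rw [CFT.SUnits.idealOf_div, coe_toPrincipalIdeal, FractionalIdeal.absNorm_span_singleton]
  rw [CFT.SUnits.coe_idealOf, Finsupp.prod, map_prod] at h1
  simp only [map_zpow₀, FractionalIdeal.coeIdeal_absNorm] at h1
  have h2 := InfinitePlace.prod_eq_abs_norm (x : F)
  rw [← h1] at h2
  have h3 := congrArg Real.log h2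
  rw [Real.log_prod (fun w _ => pow_ne_zero _ ?_)] at h3
  · simp only [Real.log_pow] at h3
    rw [h3, Finsupp.sum]
    push_cast
    rw [Real.log_prod (fun v _ => zpow_ne_zero _ ?_)]
    · simp only [Real.log_zpow]
    · rw [Nat.cast_ne_zero, ne_eq, Ideal.absNorm_eq_zero_iff]
      exact v.ne_bot
  · rw [ne_eq, map_eq_zero]
    exact x.ne_zero

variable (S : Finset (HeightOneSpectrum (𝓞 F)))

open CFT.SUnits in
/-- **`F_S^1 / O_S^×` is compact**: every vector of sizes is moved by an `S`-unit to a vector with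
bounded orders at `S` and with all the rest of the norm distributed equally at the infinite
places. -/
theorem exists_sUnit_bound : ∃ C : ℝ, 0 ≤ C ∧ ∀ (ρ : InfinitePlace F → ℝ) (m : S → ℤ),
    ∃ ε : Fˣ, (∀ v ∉ S, ord v ε = 0) ∧
      (∀ v : S, 0 ≤ m v + ord v.1 ε ∧ m v + ord v.1 ε < classNumber F) ∧
      ∀ w : InfinitePlace F, |ρ w + Real.log (w (ε : F)) -
        (∑ w : InfinitePlace F, (w.mult : ℝ) * ρ w -
          ∑ v : S, (m v : ℝ) * Real.log (Ideal.absNorm v.1.asIdeal)) /
            Module.finrank ℚ F| ≤ C := by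
  classical
  choose x hx using fun v : HeightOneSpectrum (𝓞 F) => exists_div_eq_single F v
  have hx' : ∀ v w, ord w (x v) = if v = w then (classNumber F : ℤ) else 0 := by
    intro v w
    have := DFunLike.congr_fun (hx v) w
    rw [div_apply, Finsupp.single_apply] at this
    exact this
  obtain ⟨C1, hC1, H1⟩ := exists_unit_bound F
  have hcl : (0 : ℤ) < (classNumber F : ℤ) := by exact_mod_cast classNumber_pos F
  have hlog : ∀ v : HeightOneSpectrum (𝓞 F), 0 ≤ Real.log (Ideal.absNorm v.asIdeal) := fun v =>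
    Real.log_natCast_nonneg _
  set R0 : ℝ := ∑ v : S, (classNumber F : ℝ) * Real.log (Ideal.absNorm v.1.asIdeal) with hR0
  have hR0' : 0 ≤ R0 := Finset.sum_nonneg fun v _ => mul_nonneg (Nat.cast_nonneg _) (hlog v)
  refine ⟨C1 + R0, by positivity, fun ρ m => ?_⟩
  set n : ℝ := (Module.finrank ℚ F : ℝ) with hn
  have hn1 : 1 ≤ n := by
    rw [hn]
    exact_mod_cast Module.finrank_pos
  -- the finite part
  let q : S → ℤ := fun v => m v / classNumber F
  let ε0 : Fˣ := ∏ v : S, x v ^ (-(q v))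
  have ord_zpow : ∀ (w : HeightOneSpectrum (𝓞 F)) (y : Fˣ) (k : ℤ), ord w (y ^ k) = k * ord w y := by
    intro w y k
    cases k with
    | ofNat k => simp
    | negSucc k =>
      rw [zpow_negSucc, ord_inv, ord_pow, Int.negSucc_eq]
      push_cast
      ring
  have ord_prod : ∀ (w : HeightOneSpectrum (𝓞 F)) (T : Finset S) (g : S → Fˣ),
      ord w (∏ v ∈ T, g v) = ∑ v ∈ T, ord w (g v) := by
    intro w T g
    induction T using Finset.induction_on with
    | empty => simp
    | insert a T ha ih => rw [Finset.prod_insert ha, Finset.sum_insert ha, ord_mul, ih]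
  have hε0 : ∀ w : HeightOneSpectrum (𝓞 F), ord w ε0 = ∑ v : S, if (v : HeightOneSpectrum (𝓞 F)) = w
      then -(q v) * (classNumber F : ℤ) else 0 := by
    intro w
    rw [ord_prod]
    refine Finset.sum_congr rfl fun v _ => ?_
    rw [ord_zpow, hx']
    split_ifs <;> simp
  have hε0S : ∀ v : S, ord v.1 ε0 = -(q v) * (classNumber F : ℤ) := by
    intro v
    rw [hε0, Finset.sum_eq_single v]
    · simp
    · intro w _ hw
      rw [if_neg]
      exact fun h => hw (Subtype.ext h)
    · intro h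
      exact absurd (Finset.mem_univ v) h
  have hε0N : ∀ v ∉ S, ord v ε0 = 0 := by
    intro v hv
    rw [hε0]
    refine Finset.sum_eq_zero fun w _ => ?_
    rw [if_neg]
    rintro rfl
    exact hv w.2
  -- the infinite part
  set ρ' : InfinitePlace F → ℝ := fun w => ρ w + Real.log (w (ε0 : F)) with hρ'
  set H0 : ℝ := ∑ w : InfinitePlace F, (w.mult : ℝ) * ρ w -
          ∑ v : S, (m v : ℝ) * Real.log (Ideal.absNorm v.1.asIdeal) with hH0
  set R : ℝ := ∑ v : S, ((m v + ord v.1 ε0 : ℤ) : ℝ) * Real.log (Ideal.absNorm v.1.asIdeal) with hR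
  have hmod : ∀ v : S, 0 ≤ m v + ord v.1 ε0 ∧ m v + ord v.1 ε0 < classNumber F := by
    intro v
    rw [hε0S]
    have h1 := Int.emod_nonneg (m v) hcl.ne'
    have h2 := Int.emod_lt_of_pos (m v) hcl
    have h3 := Int.emod_add_mul_ediv (m v) (classNumber F)
    have h4 : m v + -(q v) * (classNumber F : ℤ) = m v % classNumber F := by
      simp only [q]
      linarith
    rw [h4]
    exact ⟨h1, h2⟩
  have hRle : 0 ≤ R ∧ R ≤ R0 := by
    refine ⟨Finset.sum_nonneg fun v _ => mul_nonneg ?_ (hlog v), Finset.sum_le_sum fun v _ =>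
      mul_le_mul_of_nonneg_right ?_ (hlog v)⟩
    · exact_mod_cast (hmod v).1
    · exact_mod_cast (hmod v).2.le
  have hsum : ∑ w : InfinitePlace F, (w.mult : ℝ) * Real.log (w (ε0 : F)) =
      ∑ v : S, (ord v.1 ε0 : ℝ) * Real.log (Ideal.absNorm v.1.asIdeal) := by
    rw [sum_mult_log_eq, Finset.sum_coe_sort S
      (fun v => (ord v ε0 : ℝ) * Real.log (Ideal.absNorm v.asIdeal)), Finsupp.sum]
    refine Finset.sum_subset (fun v hv => ?_) (fun v _ hv => ?_)
    · by_contra h
      rw [Finsupp.mem_support_iff, div_apply] at hv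
      exact hv (hε0N v h)
    · rw [Finsupp.notMem_support_iff] at hv
      rw [hv]
      simp
  have htot : ∑ w : InfinitePlace F, (w.mult : ℝ) * ρ' w = H0 + R := by
    simp only [hρ', mul_add]
    rw [Finset.sum_add_distrib, hsum, hH0, hR]
    push_cast
    simp only [add_mul]
    rw [Finset.sum_add_distrib]
    ring
  have hmult : ∑ w : InfinitePlace F, (w.mult : ℝ) = n := by
    rw [hn, ← InfinitePlace.sum_mult_eq (K := F)]
    push_cast
    rfl
  obtain ⟨ε1, hε1⟩ := H1 (fun w => ρ' w - (H0 + R) / n) (by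
    simp only [mul_sub]
    rw [Finset.sum_sub_distrib, htot, ← Finset.sum_mul, hmult]
    field_simp
    ring)
  have hord1 : ∀ v : HeightOneSpectrum (𝓞 F),
      ord v (Units.map (algebraMap (𝓞 F) F : 𝓞 F →* F) ε1) = 0 := by
    intro v
    have h := (div_eq_zero_iff (R := 𝓞 F) (K := F)
      (Units.map (algebraMap (𝓞 F) F : 𝓞 F →* F) ε1)).mpr ⟨ε1, rfl⟩
    exact DFunLike.congr_fun h v
  refine ⟨ε0 * Units.map (algebraMap (𝓞 F) F : 𝓞 F →* F) ε1, fun v hv => ?_, fun v => ?_,
    fun w => ?_⟩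
  · rw [ord_mul, hord1, hε0N v hv, add_zero]
  · rw [ord_mul, hord1, add_zero]
    exact hmod v
  · have h1 := hε1 w
    have h2 : Real.log (w ((ε0 * Units.map (algebraMap (𝓞 F) F : 𝓞 F →* F) ε1 : Fˣ) : F)) =
        Real.log (w (ε0 : F)) + Real.log (w ((ε1 : 𝓞 F) : F)) := by
      rw [Units.val_mul, map_mul, Real.log_mul]
      · rfl
      · rw [ne_eq, map_eq_zero]
        exact ε0.ne_zero
      · rw [ne_eq, map_eq_zero]
        exact (Units.map (algebraMap (𝓞 F) F : 𝓞 F →* F) ε1).ne_zero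
    rw [h2]
    have h3 : ρ w + (Real.log (w (ε0 : F)) + Real.log (w ((ε1 : 𝓞 F) : F))) - H0 / n =
        (ρ' w - (H0 + R) / n + Real.log (w ((ε1 : 𝓞 F) : F))) + R / n := by
      simp only [hρ']
      ring
    rw [h3]
    refine (abs_add_le _ _).trans (add_le_add h1 ?_)
    rw [abs_of_nonneg (div_nonneg hRle.1 (by linarith))]
    exact (div_le_self hRle.1 hn1).trans hRle.2

end Fermat.Agent.LT.Loc
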