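import Mathlib

/-!
# Levels: discrete `GL₂(F)`-sets

`D` plays the role of `G(𝔸_f)/U`, `G = PGL₂`. Nothing else about the finite places is used in
reduction theory and in the compactness theorem.
-/

namespace Fermat.Agent.LT

open Matrix NumberField

/-- The group `PGL₂(F)`. -/
abbrev PG (F : Type*) [Field F] := GL (Fin 2) F ⧸ Subgroup.center (GL (Fin 2) F)

/-- Scalar matrices act trivially. -/
class TrivScalar (F X : Type*) [Field F] [MulAction (GL (Fin 2) F) X] : Prop where
  scalar_smul : ∀ (a : Fˣ) (x : X), GeneralLinearGroup.scalar (Fin 2) a • x = x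

theorem center_smul {F X : Type*} [Field F] [MulAction (GL (Fin 2) F) X] [TrivScalar F X]
    {g : GL (Fin 2) F} (hg : g ∈ Subgroup.center (GL (Fin 2) F)) (x : X) : g • x = x := by
  rw [GeneralLinearGroup.center_eq_range_scalar] at hg
  obtain ⟨a, rfl⟩ := hg
  exact TrivScalar.scalar_smul a x

/-- The homomorphism `PGL₂(F) → Perm X`. -/
def pgPerm (F X : Type*) [Field F] [MulAction (GL (Fin 2) F) X] [TrivScalar F X] :
    PG F →* Equiv.Perm X :=
  QuotientGroup.lift _ (MulAction.toPermHom (GL (Fin 2) F) X) fun g hg => by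
    ext x
    exact center_smul hg x

instance pgAction (F X : Type*) [Field F] [MulAction (GL (Fin 2) F) X] [TrivScalar F X] :
    MulAction (PG F) X where
  smul g x := pgPerm F X g x
  one_smul x := by
    change pgPerm F X 1 x = x
    rw [map_one]; rfl
  mul_smul g h x := by
    change pgPerm F X (g * h) x = pgPerm F X g (pgPerm F X h x)
    rw [map_mul]; rfl

@[simp] theorem pg_smul {F X : Type*} [Field F] [MulAction (GL (Fin 2) F) X] [TrivScalar F X]
    (g : GL (Fin 2) F) (x : X) : (QuotientGroup.mk g : PG F) • x = g • x := rfl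

theorem pg_mk_eq_iff {F : Type*} [Field F] {g h : GL (Fin 2) F} :
    (QuotientGroup.mk g : PG F) = QuotientGroup.mk h ↔
      ∃ a : Fˣ, h = g * GeneralLinearGroup.scalar (Fin 2) a := by
  rw [QuotientGroup.eq, GeneralLinearGroup.center_eq_range_scalar]
  constructor
  · rintro ⟨a, ha⟩
    exact ⟨a, by rw [ha]; group⟩
  · rintro ⟨a, rfl⟩
    exact ⟨a, by group⟩

/-- `g ∈ GL₂(𝓞 F)` and `g ≡ 1 mod m`. -/
def IsCong (F : Type*) [Field F] (m : ℕ) (g : GL (Fin 2) F) : Prop :=
  (∀ i j, IsIntegral ℤ ((g i j - (1 : Matrix (Fin 2) (Fin 2) F) i j) / m)) ∧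
    IsIntegral ℤ (g.1.det)⁻¹

/-- `D` is a level: a countable `PGL₂(F)`-set with finitely many orbits, with stabilisers
commensurable with `PGL₂(𝓞 F)`. -/
class IsLevel (F : Type*) [Field F] [NumberField F] (D : Type*) [MulAction (GL (Fin 2) F) D] : Prop
    extends TrivScalar F D where
  countable : Countable D
  finite_orbits : ∃ T : Finset D, ∀ d, ∃ g : GL (Fin 2) F, g • d ∈ T
  open_stab : ∀ d : D, ∃ m : ℕ, m ≠ 0 ∧ ∀ g : GL (Fin 2) F, IsCong F m g → g • d = d
  bounded_stab : ∀ d : D, ∃ m : ℕ, m ≠ 0 ∧ ∀ g : GL (Fin 2) F, g • d = d →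
    ∀ i j k l, IsIntegral ℤ ((m : F) * (g i j * g k l / g.1.det))

end Fermat.Agent.LT
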