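import Fermat.Agent.LT.H3.Basic
import Fermat.Agent.LT.H3.Measure
import Fermat.Agent.LT.Level

/-!
# The space `X_∞ = ∏_w ℍ₃` over the infinite places, and `Z = X_∞ × D`
-/

namespace Fermat.Agent.LT

open Matrix NumberField MeasureTheory H3

/-- `X_∞`: one copy of hyperbolic three space for every infinite place. -/
def Xi (F : Type*) [Field F] : Type _ := InfinitePlace F → H3

namespace Xi

variable {F : Type*} [Field F]

instance : Inhabited (Xi F) := inferInstanceAs (Inhabited (InfinitePlace F → H3))
instance : TopologicalSpace (Xi F) := inferInstanceAs (TopologicalSpace (InfinitePlace F → H3))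
instance : T2Space (Xi F) := inferInstanceAs (T2Space (InfinitePlace F → H3))
instance : MeasurableSpace (Xi F) := inferInstanceAs (MeasurableSpace (InfinitePlace F → H3))

@[ext] theorem ext {x x' : Xi F} (h : ∀ w, x w = x' w) : x = x' := funext h

/-- `GL₂(F)` acts through its embeddings. -/
noncomputable instance : MulAction (GL (Fin 2) F) (Xi F) where
  smul g x := fun w => (GeneralLinearGroup.map (n := Fin 2) w.embedding g) • x w
  one_smul x := by
    funext w
    change (GeneralLinearGroup.map (n := Fin 2) w.embedding 1) • x w = x w
    rw [map_one, one_smul]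
  mul_smul g h x := by
    funext w
    change (GeneralLinearGroup.map (n := Fin 2) w.embedding (g * h)) • x w = _
    rw [map_mul, mul_smul]
    rfl

theorem smul_apply (g : GL (Fin 2) F) (x : Xi F) (w : InfinitePlace F) :
    (g • x) w = (GeneralLinearGroup.map (n := Fin 2) w.embedding g) • x w := rfl

instance : TrivScalar F (Xi F) where
  scalar_smul a x := by
    funext w
    rw [smul_apply]
    refine H3.smul_of_scalar ?_ ?_ ?_ (x w) <;> simp [GeneralLinearGroup.map, Matrix.scalar]

variable [NumberField F]

instance : SecondCountableTopology (Xi F) :=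
  inferInstanceAs (SecondCountableTopology (InfinitePlace F → H3))
instance : LocallyCompactSpace (Xi F) :=
  inferInstanceAs (LocallyCompactSpace (InfinitePlace F → H3))
instance : BorelSpace (Xi F) := inferInstanceAs (BorelSpace (InfinitePlace F → H3))
noncomputable instance : MeasureSpace (Xi F) :=
  inferInstanceAs (MeasureSpace (InfinitePlace F → H3))

theorem volume_def : (volume : Measure (Xi F)) = Measure.pi fun _ => (volume : Measure H3) := rfl

instance : SigmaFinite (volume : Measure (Xi F)) :=
  inferInstanceAs (SigmaFinite (volume : Measure (InfinitePlace F → H3)))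

instance : IsLocallyFiniteMeasure (volume : Measure (Xi F)) :=
  inferInstanceAs (IsLocallyFiniteMeasure (volume : Measure (InfinitePlace F → H3)))

omit [NumberField F] in
theorem continuous_smul' (g : GL (Fin 2) F) : Continuous fun x : Xi F => g • x := by
  have h : ∀ w : InfinitePlace F, Continuous fun x : InfinitePlace F → H3 =>
      (GeneralLinearGroup.map (n := Fin 2) w.embedding g) • x w := fun w =>
    (continuous_const_smul _).comp (continuous_apply w)
  exact continuous_pi h

instance : ContinuousConstSMul (GL (Fin 2) F) (Xi F) := ⟨continuous_smul'⟩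

instance : ContinuousConstSMul (PG F) (Xi F) :=
  ⟨fun g => by
    obtain ⟨g, rfl⟩ := QuotientGroup.mk_surjective g
    exact continuous_smul' g⟩

theorem measurePreserving_smul (g : GL (Fin 2) F) :
    MeasurePreserving (fun x : Xi F => g • x) volume volume := by
  have := volume_preserving_pi (ι := InfinitePlace F) (α' := fun _ => H3) (β' := fun _ => H3)
    (f := fun w => (fun P : H3 => (GeneralLinearGroup.map (n := Fin 2) w.embedding g) • P))
    (fun w => H3.measurePreserving_smul' _)
  exact this

instance : SMulInvariantMeasure (GL (Fin 2) F) (Xi F) volume :=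
  ⟨fun g _ hs => (measurePreserving_smul g).measure_preimage hs.nullMeasurableSet⟩

instance : SMulInvariantMeasure (PG F) (Xi F) volume :=
  ⟨fun g _ hs => by
    obtain ⟨g, rfl⟩ := QuotientGroup.mk_surjective g
    exact (measurePreserving_smul g).measure_preimage hs.nullMeasurableSet⟩

instance : MeasurableConstSMul (GL (Fin 2) F) (Xi F) :=
  ⟨fun g => (continuous_smul' g).measurable⟩

instance : MeasurableConstSMul (PG F) (Xi F) :=
  ⟨fun g => by
    obtain ⟨g, rfl⟩ := QuotientGroup.mk_surjective g
    exact (continuous_smul' g).measurable⟩

end Xi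

section Z

variable (F : Type*) [Field F] [NumberField F] (D : Type*) [MeasurableSpace D]
  [MeasurableSingletonClass D] [Countable D] [MulAction (GL (Fin 2) F) D]

/-- The measure on `Z = X_∞ × D`. -/
noncomputable def muZ : Measure (Xi F × D) := (volume : Measure (Xi F)).prod Measure.count

instance : SigmaFinite (muZ F D) := by
  unfold muZ; infer_instance

variable {F D}

omit [NumberField F] in
theorem measurePreserving_smul_count (g : GL (Fin 2) F) :
    MeasurePreserving (fun d : D => g • d) Measure.count Measure.count := by
  refine ⟨Measurable.of_discrete, ?_⟩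
  ext s hs
  rw [Measure.map_apply Measurable.of_discrete hs, Measure.count_apply MeasurableSet.of_discrete,
    Measure.count_apply hs]
  exact congrArg _ (Set.encard_preimage_of_bijective (MulAction.bijective g) s)

theorem measurePreserving_smul_muZ (g : GL (Fin 2) F) :
    MeasurePreserving (fun z : Xi F × D => g • z) (muZ F D) (muZ F D) :=
  (Xi.measurePreserving_smul g).prod (measurePreserving_smul_count g)

instance : SMulInvariantMeasure (GL (Fin 2) F) (Xi F × D) (muZ F D) :=
  ⟨fun g _ hs => (measurePreserving_smul_muZ g).measure_preimage hs.nullMeasurableSet⟩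

instance : MeasurableConstSMul (GL (Fin 2) F) (Xi F × D) :=
  ⟨fun g => (measurePreserving_smul_muZ g).measurable⟩

variable [TrivScalar F D]

instance : SMulInvariantMeasure (PG F) (Xi F × D) (muZ F D) :=
  ⟨fun g _ hs => by
    obtain ⟨g, rfl⟩ := QuotientGroup.mk_surjective g
    exact (measurePreserving_smul_muZ g).measure_preimage hs.nullMeasurableSet⟩

instance : MeasurableConstSMul (PG F) (Xi F × D) :=
  ⟨fun g => by
    obtain ⟨g, rfl⟩ := QuotientGroup.mk_surjective g
    exact (measurePreserving_smul_muZ g).measurable⟩

end Z

end Fermat.Agent.LT
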