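import Fermat.Agent.LT.Psi.Kummer

/-!
# Norm pullback of ray characters in a Galois extension
-/

set_option autoImplicit false

namespace Fermat.Agent.LT.NV

open IsDedekindDomain NumberField WithZero
open Fermat.Agent.CFT.SUnits (ord ord_one ord_mul ord_inv ord_pow ord_div ord_eq_zero_iff
  valuation_eq_exp_neg_ord finite_ord_ne_zero div div_apply)
open Fermat.Agent.CFT.Places
open Fermat.Agent.CFT.Global (E mem_E cong mem_cong locPow mem_locPow above mem_above normU)
open Fermat.Agent.CFT.Global2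
open Fermat.Agent.LT.Psi (galU up coe_up coe_galU ord_up ord_conj mem_cong_conj exists_conj_eq
  finite_under)
open scoped Pointwise

variable {K L : Type*} [Field K] [NumberField K] [Field L] [NumberField L] [Algebra K L]

/-- the residue degree of a place of `L` over `K` -/
noncomputable def fdeg (K : Type*) {L : Type*} [Field K] [NumberField K] [Field L] [NumberField L]
    [Algebra K L] (W : HeightOneSpectrum (𝓞 L)) : ℕ :=
  (W.under (𝓞 K)).asIdeal.inertiaDeg' W.asIdeal

/-- the ramification index of a place of `L` over `K` -/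
noncomputable def edeg (K : Type*) {L : Type*} [Field K] [NumberField K] [Field L] [NumberField L]
    [Algebra K L] (W : HeightOneSpectrum (𝓞 L)) : ℕ :=
  (W.under (𝓞 K)).asIdeal.ramificationIdx' W.asIdeal

lemma edeg_ne_zero (W : HeightOneSpectrum (𝓞 L)) : edeg K W ≠ 0 := ramificationIdx'_ne_zero W

variable [IsGalois K L]

lemma up_normU_eq_prod (x : Lˣ) : up L (normU (K := K) L x) = ∏ σ : L ≃ₐ[K] L, galU σ x := by
  ext
  rw [coe_up, Units.coe_prod]
  exact Algebra.norm_eq_prod_automorphisms K (x : L)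

lemma ord_prod {ι : Type*} (v : HeightOneSpectrum (𝓞 L)) (s : Finset ι) (f : ι → Lˣ) :
    ord v (∏ i ∈ s, f i) = ∑ i ∈ s, ord v (f i) := by
  classical
  induction s using Finset.induction_on with
  | empty => simp
  | insert a s ha ih => rw [Finset.prod_insert ha, Finset.sum_insert ha, ord_mul, ih]

omit [IsGalois K L] in
lemma ord_galU_inv (σ : L ≃ₐ[K] L) (W : HeightOneSpectrum (𝓞 L)) (x : Lˣ) :
    ord W (galU σ⁻¹ x) = ord (conj σ W) x := by
  have h := ord_conj σ⁻¹ (conj σ W) x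
  rwa [← Fermat.Agent.CFT.Places.conj_mul, inv_mul_cancel, conj_one] at h

lemma edeg_mul_ord_normU (W : HeightOneSpectrum (𝓞 L)) (x : Lˣ) :
    (edeg K W : ℤ) * ord (W.under (𝓞 K)) (normU (K := K) L x) =
      ∑ σ : L ≃ₐ[K] L, ord (conj σ W) x := by
  rw [edeg, ← ord_up, up_normU_eq_prod, ord_prod]
  rw [← Equiv.sum_comp (Equiv.inv (L ≃ₐ[K] L))]
  refine Finset.sum_congr rfl fun σ _ => ?_
  rw [Equiv.inv_apply, ord_galU_inv]

lemma edeg_fdeg_eq {V W : HeightOneSpectrum (𝓞 L)} (h : V.under (𝓞 K) = W.under (𝓞 K)) :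
    edeg K V = edeg K W ∧ fdeg K V = fdeg K W := by
  have h3 : V.asIdeal.LiesOver (W.under (𝓞 K)).asIdeal := by
    rw [← h]
    infer_instance
  constructor
  · rw [edeg, edeg, h, Ideal.ramificationIdx'_eq_ramificationIdx _ V.asIdeal
      (W.under (𝓞 K)).ne_bot, Ideal.ramificationIdx'_eq_ramificationIdx _ W.asIdeal
      (W.under (𝓞 K)).ne_bot]
    exact Ideal.ramificationIdx_eq_of_isGaloisGroup (W.under (𝓞 K)).asIdeal V.asIdeal W.asIdeal
      Gal(L/K)
  · rw [fdeg, fdeg, h, Ideal.inertiaDeg'_eq_inertiaDeg, Ideal.inertiaDeg'_eq_inertiaDeg]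
    exact Ideal.inertiaDeg_eq_of_isGaloisGroup (W.under (𝓞 K)).asIdeal V.asIdeal W.asIdeal
      Gal(L/K)

lemma card_stab (W : HeightOneSpectrum (𝓞 L)) :
    Nat.card {σ : L ≃ₐ[K] L // conj σ W = W} = edeg K W * fdeg K W := by
  have h := Ideal.card_stabilizer_eq (G := Gal(L/K)) (W.under (𝓞 K)).asIdeal W.asIdeal
  rw [Ideal.ramificationIdxIn_eq_ramificationIdx (W.under (𝓞 K)).asIdeal W.asIdeal Gal(L/K),
    Ideal.inertiaDegIn_eq_inertiaDeg (W.under (𝓞 K)).asIdeal W.asIdeal Gal(L/K),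
    ← Ideal.ramificationIdx'_eq_ramificationIdx _ W.asIdeal (W.under (𝓞 K)).ne_bot,
    ← Ideal.inertiaDeg'_eq_inertiaDeg (p := (W.under (𝓞 K)).asIdeal)] at h
  rw [edeg, fdeg, ← h]
  refine Nat.card_congr (Equiv.subtypeEquivRight fun σ => ?_)
  rw [MulAction.mem_stabilizer_iff, Unr.smul_asIdeal]
  exact ⟨fun h => by rw [h], fun h => HeightOneSpectrum.ext h⟩

lemma card_conj_eq {V W : HeightOneSpectrum (𝓞 L)} (h : V.under (𝓞 K) = W.under (𝓞 K)) :
    Nat.card {σ : L ≃ₐ[K] L // conj σ W = V} = edeg K W * fdeg K W := by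
  obtain ⟨τ, rfl⟩ := exists_conj_eq h.symm
  rw [← card_stab]
  refine Nat.card_congr ⟨fun σ => ⟨τ⁻¹ * σ.1, ?_⟩, fun σ => ⟨τ * σ.1, ?_⟩, ?_, ?_⟩
  · rw [Fermat.Agent.CFT.Places.conj_mul, σ.2, ← Fermat.Agent.CFT.Places.conj_mul, inv_mul_cancel,
      conj_one]
  · rw [Fermat.Agent.CFT.Places.conj_mul, σ.2]
  · intro σ
    simp
  · intro σ
    simp

open Classical in
lemma ord_normU_eq_sum (v : HeightOneSpectrum (𝓞 K)) (x : Lˣ) :
    ord v (normU (K := K) L x) =
      ∑ W ∈ (finite_under (L := L) v).toFinset, (fdeg K W : ℤ) * ord W x := by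
  obtain ⟨W, rfl⟩ := exists_below_eq L v
  have h1 := edeg_mul_ord_normU (K := K) W x
  have hmaps : ∀ σ ∈ (Finset.univ : Finset (L ≃ₐ[K] L)),
      conj σ W ∈ (finite_under (L := L) (W.under (𝓞 K))).toFinset := by
    intro σ _
    rw [Set.Finite.mem_toFinset, Set.mem_ofPred_eq, below_conj]
  rw [← Finset.sum_fiberwise_of_maps_to hmaps] at h1
  have h2 : ∀ V ∈ (finite_under (L := L) (W.under (𝓞 K))).toFinset,
      ∑ σ ∈ Finset.univ.filter (fun σ : L ≃ₐ[K] L => conj σ W = V), ord (conj σ W) x =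
        (edeg K W : ℤ) * ((fdeg K V : ℤ) * ord V x) := by
    intro V hV
    rw [Set.Finite.mem_toFinset, Set.mem_ofPred_eq] at hV
    rw [Finset.sum_congr rfl (g := fun _ => ord V x) (fun σ hσ => by
      rw [(Finset.mem_filter.mp hσ).2]), Finset.sum_const]
    have h3 := card_conj_eq hV
    rw [Nat.card_eq_fintype_card, Fintype.card_subtype] at h3
    rw [h3, (edeg_fdeg_eq hV).2, nsmul_eq_mul]
    push_cast
    ring
  rw [Finset.sum_congr rfl h2, ← Finset.mul_sum] at h1
  have h4 : (edeg K W : ℤ) ≠ 0 := by exact_mod_cast edeg_ne_zero (K := K) W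
  exact mul_left_cancel₀ h4 h1

variable {A : Type*} [AddCommGroup A]

/-- the norm pullback of a function on places of `K` -/
noncomputable def pull (L : Type*) {K : Type*} [Field K] [NumberField K] [Field L] [NumberField L]
    [Algebra K L] {A : Type*} [AddCommGroup A] (η : HeightOneSpectrum (𝓞 K) → A)
    (W : HeightOneSpectrum (𝓞 L)) : A :=
  (fdeg K W) • η (W.under (𝓞 K))

omit [IsGalois K L] in
lemma pull_of_fdeg {η : HeightOneSpectrum (𝓞 K) → A} {W : HeightOneSpectrum (𝓞 L)}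
    (h : fdeg K W = 1) : pull L η W = η (W.under (𝓞 K)) := by
  rw [pull, h, one_smul]

open Classical in
/-- adjointness of norm and pullback -/
lemma toAdd_rayVal_pull (S : Finset (HeightOneSpectrum (𝓞 K))) (η : HeightOneSpectrum (𝓞 K) → A)
    (x : Lˣ) : (rayVal (above L S) (pull L η) x).toAdd =
      (rayVal S η (normU (K := K) L x)).toAdd := by
  set T : Finset (HeightOneSpectrum (𝓞 K)) := (div x : HeightOneSpectrum (𝓞 L) →₀ ℤ).support.image
    (fun W => W.under (𝓞 K)) with hT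
  have hx : ∀ W : HeightOneSpectrum (𝓞 L), W.under (𝓞 K) ∉ T → ord W x = 0 := by
    intro W hW
    by_contra hcon
    apply hW
    rw [hT, Finset.mem_image]
    refine ⟨W, ?_, rfl⟩
    rw [Finsupp.mem_support_iff, div_apply]
    exact hcon
  rw [toAdd_rayVal_eq_sum S T η _, toAdd_rayVal_eq_sum (above L S) (above L T) (pull L η) x]
  · rw [← Finset.sum_fiberwise_of_maps_to (s := above L T) (t := T)
      (g := fun w => w.under (𝓞 K)) (fun w hw => (mem_above L).mp hw)]
    refine Finset.sum_congr rfl fun v hv => ?_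
    have hfil : (above L T).filter (fun w => w.under (𝓞 K) = v) =
        (finite_under (L := L) v).toFinset := by
      ext w
      rw [Finset.mem_filter, mem_above, Set.Finite.mem_toFinset, Set.mem_ofPred_eq]
      constructor
      · exact fun h => h.2
      · intro h
        exact ⟨by rwa [h], h⟩
    rw [hfil]
    by_cases hvS : v ∈ S
    · rw [if_pos hvS]
      refine Finset.sum_eq_zero fun w hw => ?_
      rw [Set.Finite.mem_toFinset, Set.mem_ofPred_eq] at hw
      rw [if_pos ((mem_above L).mpr (by rwa [hw]))]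
    · rw [if_neg hvS, ord_normU_eq_sum, Finset.sum_smul]
      refine Finset.sum_congr rfl fun w hw => ?_
      rw [Set.Finite.mem_toFinset, Set.mem_ofPred_eq] at hw
      subst hw
      rw [if_neg (fun h => hvS ((mem_above L).mp h)), pull, mul_comm, mul_smul, natCast_zsmul]
  · intro w hw _
    rw [hx w (fun h => hw ((mem_above L).mpr h)), zero_smul]
  · intro v hv _
    rw [ord_normU_eq_sum, Finset.sum_eq_zero, zero_smul]
    intro W hW
    rw [Set.Finite.mem_toFinset, Set.mem_ofPred_eq] at hW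
    rw [hx W (by rwa [hW]), mul_zero]

/-- norms of elements close to one are close to one -/
lemma normU_mem_cong' {n n' : ℕ} {W : HeightOneSpectrum (𝓞 L)}
    (hn : edeg K W * (n + 1) ≤ n' + 1) {x : Lˣ}
    (hx : ∀ V : HeightOneSpectrum (𝓞 L), V.under (𝓞 K) = W.under (𝓞 K) → x ∈ cong V n') :
    normU (K := K) L x ∈ cong (W.under (𝓞 K)) n := by
  have h1 : up L (normU (K := K) L x) ∈ cong W n' := by
    rw [up_normU_eq_prod]
    refine Subgroup.prod_mem _ fun σ _ => ?_
    have h3 := (mem_cong_conj σ (conj σ⁻¹ W) n' x).mpr (hx _ (below_conj σ⁻¹ W))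
    rwa [← Fermat.Agent.CFT.Places.conj_mul, mul_inv_cancel, conj_one] at h3
  rw [mem_cong, coe_up] at h1
  have e1 : algebraMap K L ((normU (K := K) L x : Kˣ) : K) - 1 =
      algebraMap K L (((normU (K := K) L x : Kˣ) : K) - 1) := by
    rw [map_sub, map_one]
  rw [e1, valuation_algebraMap] at h1
  rw [mem_cong]
  have h6 : (W.under (𝓞 K)).valuation K ((normU (K := K) L x : K) - 1) ^ (edeg K W) ≤
      (exp (-((n : ℤ) + 1))) ^ (edeg K W) := by
    refine h1.trans ?_
    rw [← exp_nsmul, exp_le_exp, nsmul_eq_mul]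
    have : (edeg K W : ℤ) * (n + 1) ≤ n' + 1 := by exact_mod_cast hn
    linarith
  exact (pow_le_pow_iff_left₀ zero_le zero_le (edeg_ne_zero (K := K) W)).mp h6

/-- **Norm pullback of ray characters.** -/
theorem _root_.Fermat.Agent.LT.IsRay.pull {S : Finset (HeightOneSpectrum (𝓞 K))} {n : ℕ}
    {η : HeightOneSpectrum (𝓞 K) → A} (h : IsRay S n η) :
    ∃ n', IsRay (above L S) n' (pull L η) := by
  classical
  refine ⟨(n + 1) * ∑ V ∈ above L S, edeg K V, fun x hx => ?_⟩
  apply toAdd_eq_zero.mp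
  rw [toAdd_rayVal_pull]
  apply toAdd_eq_zero.mpr
  refine h _ fun v hv => ?_
  obtain ⟨V, rfl⟩ := exists_below_eq L v
  refine normU_mem_cong' (n' := (n + 1) * ∑ V ∈ above L S, edeg K V) ?_
    (fun W hW => hx W ((mem_above L).mpr (by rwa [hW])))
  have h3 : edeg K V ≤ ∑ V ∈ above L S, edeg K V :=
    Finset.single_le_sum (f := fun V : HeightOneSpectrum (𝓞 L) => edeg K V)
      (fun _ _ => Nat.zero_le _) ((mem_above L).mpr hv)
  calc edeg K V * (n + 1) ≤ (∑ V ∈ above L S, edeg K V) * (n + 1) := Nat.mul_le_mul_right _ h3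
    _ = (n + 1) * ∑ V ∈ above L S, edeg K V := mul_comm _ _
    _ ≤ _ := Nat.le_succ _

end Fermat.Agent.LT.NV
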