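import Mathlib

/-!
# Weights and unfolding

`G` is a countable group acting on `Z`, preserving the measure `μ`. A *weight* is a measurable
function `w : Z → ℝ≥0∞` with `∑_g w (g z) = 1` for all `z`; the integral over `G \ Z` of an invariant
function `f` is `∫ f ∂(μ.withDensity w)`.

* `IsWeight.lintegral_eq`, `IsWeight.integral_eq`, `IsWeight.integrable_iff` : independence of the
  weight.
* `IsWeight.sub` : the weight for a subgroup attached to a weight of the group.
* `unfold` : the unfolding lemma for a countable `G`-set.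
-/

set_option autoImplicit false

noncomputable section

open MeasureTheory ENNReal MulAction

namespace Fermat.Agent.LT

/-- Weights. -/
structure IsWeight (G : Type*) {Z : Type*} [Group G] [MeasurableSpace Z] [MulAction G Z]
    (w : Z → ℝ≥0∞) : Prop where
  meas : Measurable w
  sum_eq : ∀ z, ∑' g : G, w (g • z) = 1

namespace IsWeight

variable {G Z : Type*} [Group G] [MeasurableSpace Z] [MulAction G Z] {w w' : Z → ℝ≥0∞}

lemma le_one (h : IsWeight G w) (z : Z) : w z ≤ 1 := by
  rw [← h.sum_eq z]
  exact (ENNReal.le_tsum (1 : G)).trans_eq' (by rw [one_smul])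

lemma lt_top (h : IsWeight G w) (z : Z) : w z < ∞ := (h.le_one z).trans_lt one_lt_top

lemma ne_top (h : IsWeight G w) (z : Z) : w z ≠ ∞ := (h.lt_top z).ne

/-- `G` as the product of the set of cosets and the subgroup -/
def cosetEquiv (H : Subgroup G) : (G ⧸ H) × H ≃ G :=
  Equiv.ofBijective (fun p => p.1.out * p.2) (by
    have hmk : ∀ (r : G ⧸ H) (k : H), ((r.out * k : G) : G ⧸ H) = r := fun r k => by
      rw [QuotientGroup.mk_mul_of_mem _ k.2, QuotientGroup.out_eq']
    constructor
    · rintro ⟨r, k⟩ ⟨r', k'⟩ h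
      simp only at h
      have h1 : r = r' := by rw [← hmk r k, h, hmk r' k']
      subst h1
      have h2 := mul_left_cancel h
      rw [Subtype.coe_injective h2]
    · intro g
      refine ⟨((g : G ⧸ H), ⟨(g : G ⧸ H).out⁻¹ * g, ?_⟩), ?_⟩
      · rw [← QuotientGroup.eq, QuotientGroup.out_eq']
      · simp)

/-- The weight for a subgroup. -/
theorem sub [Countable G] [MeasurableConstSMul G Z] (h : IsWeight G w) (H : Subgroup G) :
    IsWeight H fun z => ∑' r : G ⧸ H, w (r.out • z) where
  meas := by
    have : Countable (G ⧸ H) := Quotient.countable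
    exact Measurable.tsum fun r => h.meas.comp (measurable_const_smul _)
  sum_eq z := by
    rw [← h.sum_eq z, ENNReal.tsum_comm, ← ENNReal.tsum_prod
      (f := fun (r : G ⧸ H) (k : H) => w (r.out • k • z)), ← (cosetEquiv H).tsum_eq]
    refine tsum_congr fun p => ?_
    rw [Subgroup.smul_def, smul_smul]
    rfl

variable {μ : Measure Z} [MeasurableConstSMul G Z] [SMulInvariantMeasure G Z μ]

lemma lintegral_smul (g : G) (f : Z → ℝ≥0∞) : ∫⁻ z, f (g • z) ∂μ = ∫⁻ z, f z ∂μ :=
  (measurePreserving_smul g μ).lintegral_comp_emb (measurableEmbedding_const_smul g) f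

variable [Countable G]

/-- Independence of the weight: non-negative functions. -/
theorem lintegral_mul_eq (h : IsWeight G w) (h' : IsWeight G w') {f : Z → ℝ≥0∞}
    (hf : Measurable f) (hinv : ∀ (g : G) z, f (g • z) = f z) :
    ∫⁻ z, w z * f z ∂μ = ∫⁻ z, w' z * f z ∂μ := by
  have key : ∀ (a b : Z → ℝ≥0∞), IsWeight G a → IsWeight G b →
      ∫⁻ z, a z * f z ∂μ = ∑' g : G, ∫⁻ z, b (g • z) * a z * f z ∂μ := by
    intro a b ha hb
    rw [← lintegral_tsum fun g => ?_]
    · refine lintegral_congr fun z => ?_
      rw [← one_mul (a z * f z), ← hb.sum_eq z, ← ENNReal.tsum_mul_right]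
      simp only [mul_assoc]
    · exact (((hb.meas.comp (measurable_const_smul g)).mul ha.meas).mul hf).aemeasurable
  rw [key w w' h h', key w' w h' h, ← (Equiv.inv G).tsum_eq]
  refine tsum_congr fun g => ?_
  rw [← lintegral_smul g]
  refine lintegral_congr fun z => ?_
  simp only [Equiv.inv_apply, inv_smul_smul, hinv]
  ring

theorem lintegral_eq (h : IsWeight G w) (h' : IsWeight G w') {f : Z → ℝ≥0∞}
    (hf : Measurable f) (hinv : ∀ (g : G) z, f (g • z) = f z) :
    ∫⁻ z, f z ∂μ.withDensity w = ∫⁻ z, f z ∂μ.withDensity w' := by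
  rw [lintegral_withDensity_eq_lintegral_mul _ h.meas hf,
    lintegral_withDensity_eq_lintegral_mul _ h'.meas hf]
  exact h.lintegral_mul_eq h' hf hinv

/-- The measure on the space of orbits does not depend on the weight. -/
theorem map_mk_eq (h : IsWeight G w) (h' : IsWeight G w') :
    (μ.withDensity w).map (Quotient.mk (orbitRel G Z)) =
      (μ.withDensity w').map (Quotient.mk (orbitRel G Z)) := by
  have hmk : Measurable (Quotient.mk (orbitRel G Z)) := fun _ h => h
  ext A hA
  rw [Measure.map_apply hmk hA, Measure.map_apply hmk hA, ← lintegral_indicator_one (hmk hA),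
    ← lintegral_indicator_one (hmk hA)]
  refine h.lintegral_eq h' (measurable_one.indicator (hmk hA)) fun g z => ?_
  have h1 : (Quotient.mk (orbitRel G Z) (g • z)) = Quotient.mk (orbitRel G Z) z :=
    Quotient.sound (s := orbitRel G Z) (mem_orbit z g)
  have h2 : (g • z ∈ Quotient.mk (orbitRel G Z) ⁻¹' A) =
      (z ∈ Quotient.mk (orbitRel G Z) ⁻¹' A) := by
    show (Quotient.mk (orbitRel G Z) (g • z) ∈ A) = (Quotient.mk (orbitRel G Z) z ∈ A)
    rw [h1]
  by_cases hz : z ∈ Quotient.mk (orbitRel G Z) ⁻¹' A
  · rw [Set.indicator_of_mem hz, Set.indicator_of_mem (h2.mpr hz), Pi.one_apply, Pi.one_apply]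
  · rw [Set.indicator_of_notMem hz, Set.indicator_of_notMem fun h => hz (h2.mp h)]

section Integral

variable {f : Z → ℂ}

omit [MeasurableConstSMul G Z] [Countable G] in
lemma exists_lift (hf : Measurable f) (hinv : ∀ (g : G) z, f (g • z) = f z) :
    ∃ F : Quotient (orbitRel G Z) → ℂ, Measurable F ∧ ∀ z, F (Quotient.mk _ z) = f z := by
  have hl : ∀ a b : Z, (orbitRel G Z).r a b → f a = f b := by
    rintro a b ⟨g, rfl⟩
    exact hinv g b
  exact ⟨Quotient.lift f hl, measurable_from_quotient.mpr hf, fun z => rfl⟩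

/-- Independence of the weight: complex functions. -/
theorem integral_eq (h : IsWeight G w) (h' : IsWeight G w') (hf : Measurable f)
    (hinv : ∀ (g : G) z, f (g • z) = f z) :
    ∫ z, f z ∂μ.withDensity w = ∫ z, f z ∂μ.withDensity w' := by
  have hmk : Measurable (Quotient.mk (orbitRel G Z)) := fun _ h => h
  obtain ⟨F, hF, hFf⟩ := exists_lift (G := G) hf hinv
  simp only [← hFf]
  rw [← integral_map hmk.aemeasurable hF.aestronglyMeasurable,
    ← integral_map hmk.aemeasurable hF.aestronglyMeasurable, h.map_mk_eq h']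

theorem integrable_iff (h : IsWeight G w) (h' : IsWeight G w') (hf : Measurable f)
    (hinv : ∀ (g : G) z, f (g • z) = f z) :
    Integrable f (μ.withDensity w) ↔ Integrable f (μ.withDensity w') := by
  have hmk : Measurable (Quotient.mk (orbitRel G Z)) := fun _ h => h
  obtain ⟨F, hF, hFf⟩ := exists_lift (G := G) hf hinv
  have h1 : f = F ∘ Quotient.mk (orbitRel G Z) := funext fun z => (hFf z).symm
  rw [h1, ← integrable_map_measure hF.aestronglyMeasurable hmk.aemeasurable,
    ← integrable_map_measure hF.aestronglyMeasurable hmk.aemeasurable, h.map_mk_eq h']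

end Integral

end IsWeight

/-! ### Unfolding -/

section Unfold

variable {G Z Δ : Type*} [Group G] [Countable G] [MeasurableSpace Z] [MulAction G Z]
  [MeasurableConstSMul G Z] [MulAction G Δ] [Countable Δ] {w : Z → ℝ≥0∞}

omit [Countable G] [MeasurableConstSMul G Z] [Countable Δ] in
/-- A weight of `Z` is a weight of `Δ × Z`. -/
theorem IsWeight.prod [MeasurableSpace Δ] (h : IsWeight G w) :
    IsWeight G fun p : Δ × Z => w p.2 where
  meas := h.meas.comp measurable_snd
  sum_eq p := h.sum_eq p.2

open Classical in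
/-- Weights for the stabilisers of representatives of the orbits give a weight of `Δ × Z`. -/
def orbWeight (wo : Quotient (orbitRel G Δ) → Z → ℝ≥0∞) (p : Δ × Z) : ℝ≥0∞ :=
  if (Quotient.mk (orbitRel G Δ) p.1).out = p.1 then wo (Quotient.mk _ p.1) p.2 else 0

omit [Countable G] [MeasurableConstSMul G Z] in
theorem isWeight_orbWeight [MeasurableSpace Δ] [DiscreteMeasurableSpace Δ]
    {wo : Quotient (orbitRel G Δ) → Z → ℝ≥0∞}
    (hwo : ∀ o, IsWeight (stabilizer G o.out) (wo o)) :
    IsWeight G (orbWeight (Z := Z) wo) where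
  meas := by
    refine measurable_from_prod_countable_right fun d => ?_
    unfold orbWeight
    by_cases hd : (Quotient.mk (orbitRel G Δ) d).out = d
    · simp only [hd, if_true]
      exact (hwo _).meas
    · simp only [hd, if_false]
      exact measurable_const
  sum_eq := by
    classical
    rintro ⟨d, z⟩
    set o := Quotient.mk (orbitRel G Δ) d with ho
    have hmk : ∀ g : G, Quotient.mk (orbitRel G Δ) (g • d) = o := fun g =>
      Quotient.sound (s := orbitRel G Δ) (mem_orbit d g)
    obtain ⟨g0, hg0⟩ : ∃ g0 : G, g0 • d = o.out := by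
      have h1 : Quotient.mk (orbitRel G Δ) o.out = Quotient.mk (orbitRel G Δ) d := by
        rw [Quotient.out_eq]
      obtain ⟨g, hg⟩ := Quotient.exact (s := orbitRel G Δ) h1
      exact ⟨g, hg⟩
    have hval : ∀ g : G, orbWeight (Z := Z) wo (g • (d, z)) =
        if g • d = o.out then wo o (g • z) else 0 := by
      intro g
      rw [Prod.smul_mk, orbWeight]
      simp only [hmk]
      by_cases hg : g • d = o.out
      · rw [if_pos hg, if_pos hg.symm]
      · rw [if_neg hg, if_neg fun h => hg h.symm]
    rw [tsum_congr hval, ← (hwo o).sum_eq (g0 • z)]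
    let i : stabilizer G o.out → G := fun k => k * g0
    have hi : Function.Injective i := fun a b hab =>
      Subtype.coe_injective (mul_right_cancel hab)
    rw [← hi.tsum_eq]
    · refine tsum_congr fun k => ?_
      have hk : (i k) • d = o.out := by
        show ((k : G) * g0) • d = o.out
        rw [mul_smul, hg0]
        exact k.2
      rw [if_pos hk]
      show wo o (((k : G) * g0) • z) = wo o (k • g0 • z)
      rw [Subgroup.smul_def, mul_smul]
    · intro g hg
      have hgd : g • d = o.out := by
        by_contra h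
        rw [Function.mem_support, if_neg h] at hg
        exact hg rfl
      refine ⟨⟨g * g0⁻¹, ?_⟩, ?_⟩
      · rw [mem_stabilizer_iff]
        nth_rewrite 1 [← hg0]
        rw [mul_smul, inv_smul_smul, hgd]
      · show g * g0⁻¹ * g0 = g
        simp

section SumM

variable {Z Δ : Type*} [MeasurableSpace Z] [MeasurableSpace Δ] [DiscreteMeasurableSpace Δ]
  [Countable Δ]

/-- The product of the counting measure on `Δ` and a measure on `Z`. -/
def sumM (Δ : Type*) [MeasurableSpace Δ] (μ : Measure Z) : Measure (Δ × Z) :=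
  Measure.sum fun d : Δ => μ.map (Prod.mk d)

lemma lintegral_sumM (μ : Measure Z) {f : Δ × Z → ℝ≥0∞} (hf : Measurable f) :
    ∫⁻ p, f p ∂sumM Δ μ = ∑' d, ∫⁻ z, f (d, z) ∂μ := by
  rw [sumM, lintegral_sum_measure]
  exact tsum_congr fun d => lintegral_map hf measurable_prodMk_left

lemma withDensity_map {X Y : Type*} [MeasurableSpace X] [MeasurableSpace Y] (μ : Measure X)
    {φ : X → Y} (hφ : Measurable φ) {W : Y → ℝ≥0∞} (hW : Measurable W) :
    (μ.map φ).withDensity W = (μ.withDensity fun x => W (φ x)).map φ := by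
  ext s hs
  rw [withDensity_apply _ hs, Measure.restrict_map hφ hs, lintegral_map hW hφ,
    Measure.map_apply hφ hs, withDensity_apply _ (hφ hs)]

lemma sumM_withDensity (μ : Measure Z) {W : Δ × Z → ℝ≥0∞} (hW : Measurable W) :
    (sumM Δ μ).withDensity W =
      Measure.sum fun d : Δ => (μ.withDensity fun z => W (d, z)).map (Prod.mk d) := by
  rw [sumM, withDensity_sum]
  congr 1
  funext d
  exact withDensity_map μ measurable_prodMk_left hW

end SumM

variable {μ : Measure Z} [SMulInvariantMeasure G Z μ]

omit [Countable G] in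
lemma measurableConstSMul_prod [MeasurableSpace Δ] [DiscreteMeasurableSpace Δ] :
    MeasurableConstSMul G (Δ × Z) where
  measurable_const_smul g :=
    ((Measurable.of_discrete (f := fun d : Δ => g • d)).comp measurable_fst).prodMk
      ((measurable_const_smul g).comp measurable_snd)

omit [Countable G] in
lemma smulInvariant_sumM [MeasurableSpace Δ] [DiscreteMeasurableSpace Δ] :
    SMulInvariantMeasure G (Δ × Z) (sumM Δ μ) where
  measure_preimage_smul g s hs := by
    haveI := measurableConstSMul_prod (G := G) (Z := Z) (Δ := Δ)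
    have h1 : ∀ t : Set (Δ × Z), MeasurableSet t → sumM Δ μ t =
        ∑' d, ∫⁻ z, t.indicator 1 (d, z) ∂μ := by
      intro t ht
      rw [← lintegral_indicator_one ht, lintegral_sumM μ (measurable_one.indicator ht)]
    rw [h1 _ (measurable_const_smul g hs), h1 _ hs, ← (MulAction.toPerm g : Δ ≃ Δ).tsum_eq
      (fun d => ∫⁻ z, s.indicator 1 (d, z) ∂μ)]
    refine tsum_congr fun d => ?_
    rw [← IsWeight.lintegral_smul (μ := μ) g (fun z => s.indicator 1 (toPerm g d, z))]
    rfl

/-- **Unfolding**, non-negative functions. -/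
theorem lunfold (h : IsWeight G w) {wo : Quotient (orbitRel G Δ) → Z → ℝ≥0∞}
    (hwo : ∀ o, IsWeight (stabilizer G o.out) (wo o)) {F : Δ → Z → ℝ≥0∞}
    (hF : ∀ d, Measurable (F d)) (hinv : ∀ (g : G) d z, F (g • d) (g • z) = F d z) :
    ∫⁻ z, ∑' d, F d z ∂μ.withDensity w =
      ∑' o : Quotient (orbitRel G Δ), ∫⁻ z, F o.out z ∂μ.withDensity (wo o) := by
  classical
  let _ : MeasurableSpace Δ := ⊤
  have := measurableConstSMul_prod (G := G) (Z := Z) (Δ := Δ)
  have := smulInvariant_sumM (G := G) (Δ := Δ) (μ := μ)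
  have hFm : Measurable fun p : Δ × Z => F p.1 p.2 := measurable_from_prod_countable_right hF
  have hW := isWeight_orbWeight hwo
  have key := (h.prod (Δ := Δ)).lintegral_eq hW (μ := sumM Δ μ) hFm fun g p => hinv g p.1 p.2
  rw [sumM_withDensity μ (h.prod (Δ := Δ)).meas, sumM_withDensity μ hW.meas,
    lintegral_sum_measure, lintegral_sum_measure] at key
  have e1 : ∀ (ν : Measure Z) (d : Δ), ∫⁻ p, F p.1 p.2 ∂ν.map (Prod.mk d) = ∫⁻ z, F d z ∂ν :=
    fun ν d => lintegral_map hFm measurable_prodMk_left
  simp only [e1] at key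
  rw [lintegral_tsum fun d => (hF d).aemeasurable, key]
  have hout : Function.Injective (fun o : Quotient (orbitRel G Δ) => o.out) :=
    Quotient.out_injective
  rw [← hout.tsum_eq]
  · refine tsum_congr fun o => ?_
    have h2 : (fun z => orbWeight (Z := Z) wo (o.out, z)) = wo o := by
      funext z
      rw [orbWeight]
      simp only [Quotient.out_eq, if_true]
    rw [h2]
  · intro d hd
    by_contra hne
    refine hd ?_
    have h3 : ¬ (Quotient.mk (orbitRel G Δ) d).out = d := fun h4 => hne ⟨_, h4⟩
    have h2 : (fun z => orbWeight (Z := Z) wo (d, z)) = 0 := by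
      funext z
      rw [orbWeight]
      simp only [h3, if_false]
      rfl
    simp only [h2]
    rw [withDensity_zero, lintegral_zero_measure]

/-- **Unfolding.** -/
theorem unfold (h : IsWeight G w) {wo : Quotient (orbitRel G Δ) → Z → ℝ≥0∞}
    (hwo : ∀ o, IsWeight (stabilizer G o.out) (wo o)) {F : Δ → Z → ℂ}
    (hF : ∀ d, Measurable (F d)) (hinv : ∀ (g : G) d z, F (g • d) (g • z) = F d z)
    (hfin : ∫⁻ z, ∑' d, ‖F d z‖ₑ ∂μ.withDensity w ≠ ∞) :
    ∫ z, ∑' d, F d z ∂μ.withDensity w =
      ∑' o : Quotient (orbitRel G Δ), ∫ z, F o.out z ∂μ.withDensity (wo o) := by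
  classical
  let _ : MeasurableSpace Δ := ⊤
  have := measurableConstSMul_prod (G := G) (Z := Z) (Δ := Δ)
  have := smulInvariant_sumM (G := G) (Δ := Δ) (μ := μ)
  have hFm : Measurable fun p : Δ × Z => F p.1 p.2 := measurable_from_prod_countable_right hF
  have hW := isWeight_orbWeight hwo
  have hP := h.prod (Δ := Δ)
  have hinv' : ∀ (g : G) (p : Δ × Z), F (g • p).1 (g • p).2 = F p.1 p.2 := fun g p =>
    hinv g p.1 p.2
  have key := hP.integral_eq hW (μ := sumM Δ μ) hFm hinv'
  have hfin' : Integrable (fun p : Δ × Z => F p.1 p.2) ((sumM Δ μ).withDensity fun p => w p.2) := by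
    refine ⟨hFm.aestronglyMeasurable, ?_⟩
    rw [HasFiniteIntegral, sumM_withDensity μ hP.meas, lintegral_sum_measure, lt_top_iff_ne_top]
    rw [lintegral_tsum fun d => (hF d).enorm.aemeasurable] at hfin
    convert hfin using 3 with d
    exact lintegral_map hFm.enorm measurable_prodMk_left
  have hfin'' := (hP.integrable_iff hW hFm hinv').mp hfin'
  rw [sumM_withDensity μ hP.meas] at hfin' key
  rw [sumM_withDensity μ hW.meas] at hfin'' key
  rw [integral_sum_measure hfin', integral_sum_measure hfin''] at key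
  have e1 : ∀ (ν : Measure Z) (d : Δ), ∫ p, F p.1 p.2 ∂ν.map (Prod.mk d) = ∫ z, F d z ∂ν :=
    fun ν d => integral_map measurable_prodMk_left.aemeasurable hFm.aestronglyMeasurable
  simp only [e1] at key
  rw [integral_tsum (fun d => (hF d).aestronglyMeasurable) (by
    rwa [← lintegral_tsum fun d => (hF d).enorm.aemeasurable]), key]
  have hout : Function.Injective (fun o : Quotient (orbitRel G Δ) => o.out) :=
    Quotient.out_injective
  rw [← hout.tsum_eq]
  · refine tsum_congr fun o => ?_
    have h2 : (fun z => orbWeight (Z := Z) wo (o.out, z)) = wo o := by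
      funext z
      rw [orbWeight]
      simp only [Quotient.out_eq, if_true]
    rw [h2]
  · intro d hd
    by_contra hne
    refine hd ?_
    have h3 : ¬ (Quotient.mk (orbitRel G Δ) d).out = d := fun h4 => hne ⟨_, h4⟩
    have h2 : (fun z => orbWeight (Z := Z) wo (d, z)) = 0 := by
      funext z
      rw [orbWeight]
      simp only [h3, if_false]
      rfl
    simp only [h2]
    rw [withDensity_zero, integral_zero_measure]

end Unfold

/-! ### Unfolding with explicit representatives of the orbits -/

section Reps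

variable {G Z Δ I : Type*} [Group G] [MeasurableSpace Z] [MulAction G Z] [MulAction G Δ]

open Classical in
/-- Weights for the stabilisers of representatives of the orbits give a weight of `Δ × Z`. -/
def repWeight (r : I → Δ) (wo : I → Z → ℝ≥0∞) (p : Δ × Z) : ℝ≥0∞ :=
  if h : ∃ i, r i = p.1 then wo h.choose p.2 else 0

omit [MulAction G Z] [MulAction G Δ] [Group G] [MeasurableSpace Z] in
lemma repWeight_apply {r : I → Δ} (hr : Function.Injective r) (wo : I → Z → ℝ≥0∞) (i : I) (z : Z) :
    repWeight r wo (r i, z) = wo i z := by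
  have h : ∃ j, r j = r i := ⟨i, rfl⟩
  rw [repWeight, dif_pos h, hr h.choose_spec]

omit [MulAction G Z] [MulAction G Δ] [Group G] [MeasurableSpace Z] in
lemma repWeight_of_not {r : I → Δ} (wo : I → Z → ℝ≥0∞) {d : Δ} (hd : ¬ ∃ i, r i = d) (z : Z) :
    repWeight r wo (d, z) = 0 := by
  rw [repWeight, dif_neg hd]

theorem isWeight_repWeight [Countable Δ] [MeasurableSpace Δ] [DiscreteMeasurableSpace Δ]
    {r : I → Δ} (hr : ∀ d, ∃ i, ∃ g : G, g • d = r i)
    (hr' : ∀ i j, (∃ g : G, g • r i = r j) → i = j) {wo : I → Z → ℝ≥0∞}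
    (hwo : ∀ i, IsWeight (stabilizer G (r i)) (wo i)) :
    IsWeight G (repWeight (Z := Z) r wo) := by
  have hinj : Function.Injective r := fun i j h => hr' i j ⟨1, by rw [one_smul, h]⟩
  refine ⟨?_, ?_⟩
  · refine measurable_from_prod_countable_right fun d => ?_
    by_cases hd : ∃ i, r i = d
    · obtain ⟨i, rfl⟩ := hd
      simp only [repWeight_apply hinj]
      exact (hwo i).meas
    · simp only [repWeight_of_not wo hd]
      exact measurable_const
  · classical
    rintro ⟨d, z⟩
    obtain ⟨i, g0, hg0⟩ := hr d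
    have hval : ∀ g : G, repWeight (Z := Z) r wo (g • (d, z)) =
        if g • d = r i then wo i (g • z) else 0 := by
      intro g
      rw [Prod.smul_mk]
      by_cases hg : g • d = r i
      · rw [if_pos hg, hg, repWeight_apply hinj]
      · rw [if_neg hg, repWeight_of_not]
        rintro ⟨j, hj⟩
        have h1 : i = j := hr' i j ⟨g * g0⁻¹, by rw [← hg0, mul_smul, inv_smul_smul, hj]⟩
        exact hg (by rw [← hj, h1])
    rw [tsum_congr hval, ← (hwo i).sum_eq (g0 • z)]
    let φ : stabilizer G (r i) → G := fun k => k * g0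
    have hφ : Function.Injective φ := fun a b hab =>
      Subtype.coe_injective (mul_right_cancel hab)
    rw [← hφ.tsum_eq]
    · refine tsum_congr fun k => ?_
      have hk : (φ k) • d = r i := by
        show ((k : G) * g0) • d = r i
        rw [mul_smul, hg0]
        exact k.2
      rw [if_pos hk]
      show wo i (((k : G) * g0) • z) = wo i (k • g0 • z)
      rw [Subgroup.smul_def, mul_smul]
    · intro g hg
      have hgd : g • d = r i := by
        by_contra h
        rw [Function.mem_support, if_neg h] at hg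
        exact hg rfl
      refine ⟨⟨g * g0⁻¹, ?_⟩, ?_⟩
      · rw [mem_stabilizer_iff]
        nth_rewrite 1 [← hg0]
        rw [mul_smul, inv_smul_smul, hgd]
      · show g * g0⁻¹ * g0 = g
        simp

variable [Countable G] [MeasurableConstSMul G Z] [Countable Δ] {w : Z → ℝ≥0∞}
  {μ : Measure Z} [SMulInvariantMeasure G Z μ]

/-- **Unfolding** with explicit representatives of the orbits, non-negative functions. -/
theorem lunfold_reps (h : IsWeight G w) {r : I → Δ} (hr : ∀ d, ∃ i, ∃ g : G, g • d = r i)
    (hr' : ∀ i j, (∃ g : G, g • r i = r j) → i = j) {wo : I → Z → ℝ≥0∞}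
    (hwo : ∀ i, IsWeight (stabilizer G (r i)) (wo i)) {F : Δ → Z → ℝ≥0∞}
    (hF : ∀ d, Measurable (F d)) (hinv : ∀ (g : G) d z, F (g • d) (g • z) = F d z) :
    ∫⁻ z, ∑' d, F d z ∂μ.withDensity w =
      ∑' i, ∫⁻ z, F (r i) z ∂μ.withDensity (wo i) := by
  classical
  let _ : MeasurableSpace Δ := ⊤
  have := measurableConstSMul_prod (G := G) (Z := Z) (Δ := Δ)
  have := smulInvariant_sumM (G := G) (Δ := Δ) (μ := μ)
  have hFm : Measurable fun p : Δ × Z => F p.1 p.2 := measurable_from_prod_countable_right hF
  have hW := isWeight_repWeight hr hr' hwo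
  have hinj : Function.Injective r := fun i j h => hr' i j ⟨1, by rw [one_smul, h]⟩
  have key := (h.prod (Δ := Δ)).lintegral_eq hW (μ := sumM Δ μ) hFm fun g p => hinv g p.1 p.2
  rw [sumM_withDensity μ (h.prod (Δ := Δ)).meas, sumM_withDensity μ hW.meas,
    lintegral_sum_measure, lintegral_sum_measure] at key
  have e1 : ∀ (ν : Measure Z) (d : Δ), ∫⁻ p, F p.1 p.2 ∂ν.map (Prod.mk d) = ∫⁻ z, F d z ∂ν :=
    fun ν d => lintegral_map hFm measurable_prodMk_left
  simp only [e1] at key
  rw [lintegral_tsum fun d => (hF d).aemeasurable, key, ← hinj.tsum_eq]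
  · refine tsum_congr fun i => ?_
    simp only [repWeight_apply hinj]
  · intro d hd
    by_contra hne
    refine hd ?_
    have h2 : (fun z => repWeight (Z := Z) r wo (d, z)) = 0 := by
      funext z
      rw [repWeight_of_not wo hne]
      rfl
    simp only [h2]
    rw [withDensity_zero, lintegral_zero_measure]

/-- **Unfolding** with explicit representatives of the orbits. -/
theorem unfold_reps (h : IsWeight G w) {r : I → Δ} (hr : ∀ d, ∃ i, ∃ g : G, g • d = r i)
    (hr' : ∀ i j, (∃ g : G, g • r i = r j) → i = j) {wo : I → Z → ℝ≥0∞}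
    (hwo : ∀ i, IsWeight (stabilizer G (r i)) (wo i)) {F : Δ → Z → ℂ}
    (hF : ∀ d, Measurable (F d)) (hinv : ∀ (g : G) d z, F (g • d) (g • z) = F d z)
    (hfin : ∫⁻ z, ∑' d, ‖F d z‖ₑ ∂μ.withDensity w ≠ ∞) :
    ∫ z, ∑' d, F d z ∂μ.withDensity w =
      ∑' i, ∫ z, F (r i) z ∂μ.withDensity (wo i) := by
  classical
  let _ : MeasurableSpace Δ := ⊤
  have := measurableConstSMul_prod (G := G) (Z := Z) (Δ := Δ)
  have := smulInvariant_sumM (G := G) (Δ := Δ) (μ := μ)
  have hFm : Measurable fun p : Δ × Z => F p.1 p.2 := measurable_from_prod_countable_right hF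
  have hW := isWeight_repWeight hr hr' hwo
  have hinj : Function.Injective r := fun i j h => hr' i j ⟨1, by rw [one_smul, h]⟩
  have hP := h.prod (Δ := Δ)
  have hinv' : ∀ (g : G) (p : Δ × Z), F (g • p).1 (g • p).2 = F p.1 p.2 := fun g p =>
    hinv g p.1 p.2
  have key := hP.integral_eq hW (μ := sumM Δ μ) hFm hinv'
  have hfin' : Integrable (fun p : Δ × Z => F p.1 p.2) ((sumM Δ μ).withDensity fun p => w p.2) := by
    refine ⟨hFm.aestronglyMeasurable, ?_⟩
    rw [HasFiniteIntegral, sumM_withDensity μ hP.meas, lintegral_sum_measure, lt_top_iff_ne_top]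
    rw [lintegral_tsum fun d => (hF d).enorm.aemeasurable] at hfin
    convert hfin using 3 with d
    exact lintegral_map hFm.enorm measurable_prodMk_left
  have hfin'' := (hP.integrable_iff hW hFm hinv').mp hfin'
  rw [sumM_withDensity μ hP.meas] at hfin' key
  rw [sumM_withDensity μ hW.meas] at hfin'' key
  rw [integral_sum_measure hfin', integral_sum_measure hfin''] at key
  have e1 : ∀ (ν : Measure Z) (d : Δ), ∫ p, F p.1 p.2 ∂ν.map (Prod.mk d) = ∫ z, F d z ∂ν :=
    fun ν d => integral_map measurable_prodMk_left.aemeasurable hFm.aestronglyMeasurable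
  simp only [e1] at key
  rw [integral_tsum (fun d => (hF d).aestronglyMeasurable) (by
    rwa [← lintegral_tsum fun d => (hF d).enorm.aemeasurable]), key, ← hinj.tsum_eq]
  · refine tsum_congr fun i => ?_
    simp only [repWeight_apply hinj]
  · intro d hd
    by_contra hne
    refine hd ?_
    have h2 : (fun z => repWeight (Z := Z) r wo (d, z)) = 0 := by
      funext z
      rw [repWeight_of_not wo hne]
      rfl
    simp only [h2]
    rw [withDensity_zero, integral_zero_measure]

end Reps

end Fermat.Agent.LT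

end
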