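import Fermat.Agent.LT.Period.Plane
import Fermat.Agent.LT.Unfold
import Fermat.Agent.LT.End.Main
import Mathlib.Analysis.Complex.UpperHalfPlane.Measure

/-!
# The interfaces between the steps (A), (B), (C), (D), (E) of the proof of S47

* `HasSystem ρ F`: the `KForm` `F` over `K = ℚ(√-3)` has the eigenvalues of `ρ` at the primes where
  they are used (output of (B), input of (C) and (D)).
* `HasPeriod F`: the period of `F` over the plane `{z real}` does not vanish (output of (C), input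
  of (D)).
* `KInput ρ`: such an `F` exists (output of (A) + (B)).
* `End.WtOneInput ρ`: output of (D), input of (E).
-/

set_option autoImplicit false

open NumberField MeasureTheory ENNReal
open scoped MatrixGroups UpperHalfPlane

local notation "Γℚ" => (AlgebraicClosure ℚ ≃ₐ[ℚ] AlgebraicClosure ℚ)

namespace Fermat.Agent.LT

/-- The eigenvalues of `F` at the primes above `p` are those of `ρ`, for

* `p` with `ρ(Frob_p) = ±1` (then `p` splits in `K`, the value is `±2`),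
* `p` with `det ρ(Frob_p) = -1` (then `p` is inert in `K`; the value is `tr r(Frob_p)²`, which is
  `2` for reflections and `0` otherwise). -/
structure HasSystem (ρ : Γℚ →* GL (Fin 2) (ZMod 3)) {K : Type} [Field K] [NumberField K]
    {σ : K →+* ℂ} {s : 𝓞 K} {N : ℕ} (F : KForm σ s N) : Prop where
  deg : Module.finrank ℚ K = 2
  split_one : ∀ p : ℕ, p.Prime → ¬ p ∣ N →
    ∀ A : ValuationSubring (AlgebraicClosure ℚ), A.LiesOverPrime p →
      ∀ τ : Γℚ, A.IsFrobeniusAt τ p → ρ τ = 1 →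
        ∀ ϖ : 𝓞 K, Prime ϖ → ϖ ∣ (p : 𝓞 K) → F.lam ϖ = 2
  split_neg : ∀ p : ℕ, p.Prime → ¬ p ∣ N →
    ∀ A : ValuationSubring (AlgebraicClosure ℚ), A.LiesOverPrime p →
      ∀ τ : Γℚ, A.IsFrobeniusAt τ p → ρ τ = -1 →
        ∀ ϖ : 𝓞 K, Prime ϖ → ϖ ∣ (p : 𝓞 K) → F.lam ϖ = -2
  inert_refl : ∀ p : ℕ, p.Prime → ¬ p ∣ N →
    ∀ A : ValuationSubring (AlgebraicClosure ℚ), A.LiesOverPrime p →
      ∀ τ : Γℚ, A.IsFrobeniusAt τ p → Matrix.GeneralLinearGroup.det (ρ τ) = -1 →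
        ρ τ * ρ τ = 1 → F.lam (p : 𝓞 K) = 2
  inert_other : ∀ p : ℕ, p.Prime → ¬ p ∣ N →
    ∀ A : ValuationSubring (AlgebraicClosure ℚ), A.LiesOverPrime p →
      ∀ τ : Γℚ, A.IsFrobeniusAt τ p → Matrix.GeneralLinearGroup.det (ρ τ) = -1 →
        ρ τ * ρ τ ≠ 1 → F.lam (p : 𝓞 K) = 0

/-- The period of `F` over the quotient of the plane `{z real}` by any subgroup of finite index of
`Γ₀(N)` does not vanish. -/
def HasPeriod {K : Type} [Field K] [NumberField K] {σ : K →+* ℂ} {s : 𝓞 K} {N : ℕ}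
    (F : KForm σ s N) : Prop :=
  ∀ G : Subgroup SL(2, ℤ), G ≤ CongruenceSubgroup.Gamma0 N → G.FiniteIndex →
    ∀ w : ℍ → ℝ≥0∞, IsWeight G w →
      ∫ τ : ℍ, F.F (Period.pl τ) ∂(volume : Measure ℍ).withDensity w ≠ 0

/-- The output of (A) and (B). -/
def KInput (ρ : Γℚ →* GL (Fin 2) (ZMod 3)) : Prop :=
  ∃ (K : Type) (_ : Field K) (_ : NumberField K) (σ : K →+* ℂ) (s : 𝓞 K) (N : ℕ)
    (F : KForm σ s N), HasSystem ρ F

/-- The statement of step (C) (block B13). -/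
def StepC (ρ : Γℚ →* GL (Fin 2) (ZMod 3)) : Prop :=
  ∀ (K : Type) [Field K] [NumberField K] (σ : K →+* ℂ) (s : 𝓞 K) (N : ℕ) (F : KForm σ s N),
    HasSystem ρ F → HasPeriod F

/-- The statement of step (D) (block B14). -/
def StepD (ρ : Γℚ →* GL (Fin 2) (ZMod 3)) : Prop :=
  ∀ (K : Type) [Field K] [NumberField K] (σ : K →+* ℂ) (s : 𝓞 K) (N : ℕ) (F : KForm σ s N),
    HasSystem ρ F → HasPeriod F → End.WtOneInput ρ

end Fermat.Agent.LT
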