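import Fermat.Agent.LT.Form
import Fermat.Agent.LT.Defs
import Fermat.Agent.LT.Tower.Sys
import Fermat.Agent.LT.Psi.Trace

/-!
# The statements of the blocks of step (A) + (B)

`StepT` (Tower + B10), `StepA` (B11), `StepA'` (the theta lift is cuspidal: Adapt, B5, B3),
`StepB` (the descent: B3 - B9, (H), S4, kappa, Adapt), `StepK` (Adapt, kappa, B4.5),
`StepS` (dictionary).
-/

set_option autoImplicit false

open NumberField IsDedekindDomain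

namespace Fermat.Agent.LT

open Fermat.Agent.CFT.Global (ClTrivial AboveP locPow)

local notation "Qbar" => AlgebraicClosure ℚ
local notation "Γℚ" => (AlgebraicClosure ℚ ≃ₐ[ℚ] AlgebraicClosure ℚ)
local notation "G3" => Matrix.GeneralLinearGroup (Fin 2) (ZMod 3)

/-- The places of `F` dividing `N`. -/
def bad (F : Type*) [Field F] [NumberField F] (N : ℕ) : Set (HeightOneSpectrum (𝓞 F)) :=
  {v | (N : 𝓞 F) ∈ v.asIdeal}

section Sys

variable {ρ : Γℚ →* G3} (T : Tower.TowerFields ρ)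

/-- `w` is of relative degree one over `K` (i.e. `w` lies above a place of `K` which splits in
`L`, as soon as `w` is unramified). -/
def Deg1 {K L : Type} [Field K] [NumberField K] [Field L] [NumberField L] [Algebra K L]
    (w : HeightOneSpectrum (𝓞 L)) : Prop :=
  Ideal.absNorm w.asIdeal = Ideal.absNorm (w.under (𝓞 K)).asIdeal

/-- **Contract of the Tower block.** `N` is divisible by everything, `x` is the system of
eigenvalues `x_w = tr r(Frob_w)` over `L`. -/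
structure TSys (N : ℕ) (x : HeightOneSpectrum (𝓞 T.L) → ℝ) : Prop where
  N_ne : N ≠ 0
  six_dvd : 6 ∣ N
  primes : ∀ p : ℕ, p.Prime → p ≤ 2 * Module.finrank ℚ T.M → p ∣ N
  discr : (NumberField.discr T.M).natAbs ∣ N
  /-- every prime not dividing `N` is good for the tower -/
  good : ∀ p : ℕ, p.Prime → ¬ p ∣ N → T.GoodPrime p
  clK : ∀ S : Finset (HeightOneSpectrum (𝓞 T.K)), (∀ v, v ∈ S ↔ v ∈ bad T.K N) → ClTrivial S
  clL : ∀ S : Finset (HeightOneSpectrum (𝓞 T.L)), (∀ v, v ∈ S ↔ v ∈ bad T.L N) → ClTrivial S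
  clE : ∀ S : Finset (HeightOneSpectrum (𝓞 T.E)), (∀ v, v ∈ S ↔ v ∈ bad T.E N) → ClTrivial S
  clM : ∀ S : Finset (HeightOneSpectrum (𝓞 T.M)), (∀ v, v ∈ S ↔ v ∈ bad T.M N) → ClTrivial S
  /-- the input of B10 -/
  data : ∀ S : Finset (HeightOneSpectrum (𝓞 T.L)), (∀ v, v ∈ S ↔ v ∈ bad T.L N) →
    ∃ D : Psi.TowerData T.L T.E T.M S, D.a = T.a ∧ D.b = T.b ∧ D.d = T.d ∧ D.c = T.c ∧
      ∀ w, w ∉ S → x w = D.xw w
  /-- `L / K` is unramified outside `N` -/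
  unr : ∀ w : HeightOneSpectrum (𝓞 T.L), w ∉ bad T.L N →
    (w.under (𝓞 T.K)).asIdeal.ramificationIdx' w.asIdeal = 1
  /-- invariance under `Gal(L/K)` -/
  inv : ∀ w w' : HeightOneSpectrum (𝓞 T.L), w ∉ bad T.L N →
    w'.under (𝓞 T.K) = w.under (𝓞 T.K) → x w' = x w
  /-- the place `u` -/
  exists_u : ∀ S : Set (HeightOneSpectrum (𝓞 T.L)), S.Finite → ∃ w, w ∉ S ∧
    (Ideal.absNorm w.asIdeal).Prime ∧ Deg1 (K := T.K) w ∧ x w = 0
  /-- the values -/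
  val : ∀ w : HeightOneSpectrum (𝓞 T.L), w ∉ bad T.L N →
    (x w = 0 ∧ ¬ (T.a ∈ locPow 2 w ∧ T.b ∈ locPow 2 w)) ∨
    ((x w = 2 ∨ x w = -2) ∧ T.a ∈ locPow 2 w ∧ T.b ∈ locPow 2 w)

end Sys

/-- **Tower (T0 - T3) + B10.** -/
def StepT (ρ : Γℚ →* G3) : Prop :=
  ∃ (T : Tower.TowerFields ρ) (N : ℕ) (x : HeightOneSpectrum (𝓞 T.L) → ℝ), N ≠ 0 ∧
    ∀ N' : ℕ, N ∣ N' → N' ≠ 0 → TSys T N' x

/-- **B11**: the theta lift. -/
def StepA (ρ : Γℚ →* G3) : Prop :=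
  ∀ (T : Tower.TowerFields ρ) (N : ℕ) (x : HeightOneSpectrum (𝓞 T.L) → ℝ), TSys T N x →
    ∃ (N' m : ℕ) (Φ : Xi T.L → Matrix.GeneralLinearGroup (Fin 2) T.L → ℂ),
      N ∣ N' ∧ IsFormA T.L N' m x Φ

/-- **Adapt + B5 + B3**: the theta lift as a bounded cuspidal form on `X_∞ × D U`. -/
def StepA' (ρ : Γℚ →* G3) : Prop :=
  ∀ (T : Tower.TowerFields ρ) (N m : ℕ) (x : HeightOneSpectrum (𝓞 T.L) → ℝ)
    (Φ : Xi T.L → Matrix.GeneralLinearGroup (Fin 2) T.L → ℂ), TSys T N x →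
    IsFormA T.L N m x Φ →
    ∃ (U : Lvl.Lev T.L) (f : Xi T.L × Lvl.D U → ℂ), IsForm T.L U (bad T.L N) x f

/-- **The descent** (B3 - B9, (H), S4, kappa (a) - (c), Adapt). -/
def StepB (ρ : Γℚ →* G3) : Prop :=
  ∀ (T : Tower.TowerFields ρ) (N : ℕ) (x : HeightOneSpectrum (𝓞 T.L) → ℝ) (U : Lvl.Lev T.L)
    (f : Xi T.L × Lvl.D U → ℂ), TSys T N x → IsForm T.L U (bad T.L N) x f →
    ∃ (N' : ℕ) (a : HeightOneSpectrum (𝓞 T.K) → ℝ) (U' : Lvl.Lev T.K)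
      (g : Xi T.K × Lvl.D U' → ℂ), N ∣ N' ∧ N' ≠ 0 ∧ IsForm T.K U' (bad T.K N') a g ∧
      ∀ w : HeightOneSpectrum (𝓞 T.L), w ∉ bad T.L N' → Deg1 (K := T.K) w →
        a (w.under (𝓞 T.K)) = x w

/-- **B4.5 (classicalisation)**, with Adapt and kappa. -/
def StepK : Prop :=
  ∀ (K : Type) [Field K] [NumberField K] [IsTotallyComplex K] (w : InfinitePlace K) (s : 𝓞 K)
    (_ : Module.finrank ℚ K = 2) (_ : s ^ 2 = -3) (N : ℕ) (_ : N ≠ 0)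
    (a : HeightOneSpectrum (𝓞 K) → ℝ) (U : Lvl.Lev K) (g : Xi K × Lvl.D U → ℂ),
    IsForm K U (bad K N) a g →
    ∃ (N' : ℕ) (F : KForm w.embedding s N'), N ∣ N' ∧ ∀ (ϖ : 𝓞 K) (v : HeightOneSpectrum (𝓞 K)),
      v.asIdeal = Ideal.span {ϖ} → v ∉ bad K N' → F.lam ϖ = a v

/-- **Dictionary** (Tower T3): the classical form has the system of `ρ`. -/
def StepS (ρ : Γℚ →* G3) : Prop :=
  ∀ (T : Tower.TowerFields ρ) (N : ℕ) (x : HeightOneSpectrum (𝓞 T.L) → ℝ), TSys T N x →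
    ∀ (σ : T.K →+* ℂ) (s : 𝓞 T.K) (F : KForm σ s N) (a : HeightOneSpectrum (𝓞 T.K) → ℝ),
      (∀ w : HeightOneSpectrum (𝓞 T.L), w ∉ bad T.L N → Deg1 (K := T.K) w →
        a (w.under (𝓞 T.K)) = x w) →
      (∀ (ϖ : 𝓞 T.K) (v : HeightOneSpectrum (𝓞 T.K)),
        v.asIdeal = Ideal.span {ϖ} → v ∉ bad T.K N → F.lam ϖ = a v) →
      HasSystem ρ F

end Fermat.Agent.LT
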