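import Mathlib

/-!
# Maps between coset spaces induced by homomorphisms
-/

set_option autoImplicit false

namespace Fermat.Agent.LT

section

variable {G₁ G₂ G₃ : Type*} [Group G₁] [Group G₂] [Group G₃]
  {H₁ : Subgroup G₁} {H₂ : Subgroup G₂} {H₃ : Subgroup G₃}

/-- The map `G₁ ⧸ H₁ → G₂ ⧸ H₂` induced by `φ : G₁ → G₂` with `φ(H₁) ⊆ H₂`. -/
def cosetMap (φ : G₁ →* G₂) (h : H₁ ≤ H₂.comap φ) : G₁ ⧸ H₁ → G₂ ⧸ H₂ :=
  Quotient.map' φ fun a b hab => by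
    rw [QuotientGroup.leftRel_apply] at hab ⊢
    rw [← map_inv, ← map_mul]
    exact h hab

@[simp] theorem cosetMap_mk (φ : G₁ →* G₂) (h : H₁ ≤ H₂.comap φ) (g : G₁) :
    cosetMap φ h (g : G₁ ⧸ H₁) = (φ g : G₂ ⧸ H₂) := rfl

theorem cosetMap_smul (φ : G₁ →* G₂) (h : H₁ ≤ H₂.comap φ) (g : G₁) (x : G₁ ⧸ H₁) :
    cosetMap φ h (g • x) = φ g • cosetMap φ h x := by
  induction x using QuotientGroup.induction_on with
  | H x =>
    change ((φ (g * x) : G₂) : G₂ ⧸ H₂) = φ g • ((φ x : G₂) : G₂ ⧸ H₂)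
    rw [map_mul]
    rfl

theorem cosetMap_one (φ : G₁ →* G₂) (h : H₁ ≤ H₂.comap φ) :
    cosetMap φ h ((1 : G₁) : G₁ ⧸ H₁) = ((1 : G₂) : G₂ ⧸ H₂) := by
  rw [cosetMap_mk, map_one]

theorem cosetMap_comp (φ : G₁ →* G₂) (h : H₁ ≤ H₂.comap φ) (ψ : G₂ →* G₃)
    (h' : H₂ ≤ H₃.comap ψ) (h'' : H₁ ≤ H₃.comap (ψ.comp φ)) (x : G₁ ⧸ H₁) :
    cosetMap ψ h' (cosetMap φ h x) = cosetMap (ψ.comp φ) h'' x := by
  induction x using QuotientGroup.induction_on with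
  | H x => rfl

theorem cosetMap_id (h : H₁ ≤ H₁.comap (MonoidHom.id G₁)) (x : G₁ ⧸ H₁) :
    cosetMap (MonoidHom.id G₁) h x = x := by
  induction x using QuotientGroup.induction_on with
  | H x => rfl

theorem cosetMap_congr {φ ψ : G₁ →* G₂} (e : φ = ψ) (h : H₁ ≤ H₂.comap φ)
    (h' : H₁ ≤ H₂.comap ψ) (x : G₁ ⧸ H₁) : cosetMap φ h x = cosetMap ψ h' x := by
  subst e
  rfl

theorem cosetMap_injective (φ : G₁ →* G₂) (h : H₁ ≤ H₂.comap φ) (h' : H₂.comap φ ≤ H₁) :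
    Function.Injective (cosetMap φ h) := by
  intro x y
  induction x using QuotientGroup.induction_on with
  | H x =>
  induction y using QuotientGroup.induction_on with
  | H y =>
    intro e
    rw [cosetMap_mk, cosetMap_mk, QuotientGroup.eq, ← map_inv, ← map_mul] at e
    exact QuotientGroup.eq.mpr (h' e)

theorem cosetMap_surjective (φ : G₁ →* G₂) (h : H₁ ≤ H₂.comap φ) (hφ : Function.Surjective φ) :
    Function.Surjective (cosetMap φ h) := by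
  intro y
  induction y using QuotientGroup.induction_on with
  | H y =>
    obtain ⟨x, rfl⟩ := hφ y
    exact ⟨(x : G₁ ⧸ H₁), rfl⟩

end

end Fermat.Agent.LT
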