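import Fermat.Agent.LT.CompCor
import Fermat.Agent.LT.CosetMap

/-!
# The Galois action on restricted products of coset spaces
-/

set_option autoImplicit false

open IsDedekindDomain NumberField
open scoped WithZero Topology Pointwise

namespace Fermat.Agent.LT.Ext

section GLExt

variable {L : Type*} [Field L] [NumberField L] {G : Type*} [Group G] [MulSemiringAction G L]

/-- `GL₂(L_w) → GL₂(L_w')` for `g w = w'`. -/
noncomputable def glExt {g : G} {w w' : HeightOneSpectrum (𝓞 L)} (h : g • w = w') :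
    GL (Fin 2) (w.adicCompletion L) →* GL (Fin 2) (w'.adicCompletion L) :=
  Matrix.GeneralLinearGroup.map (compat_of_smul_eq (L := L) h).ext

@[simp] theorem glExt_apply {g : G} {w w' : HeightOneSpectrum (𝓞 L)} (h : g • w = w')
    (x : GL (Fin 2) (w.adicCompletion L)) (i j : Fin 2) :
    glExt h x i j = (compat_of_smul_eq (L := L) h).ext (x i j) := rfl

theorem ext_comp_smul {g h : G} {w₁ w₂ w₃ : HeightOneSpectrum (𝓞 L)} (h₁ : h • w₁ = w₂)
    (h₂ : g • w₂ = w₃) (h₃ : (g * h) • w₁ = w₃) :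
    (compat_of_smul_eq (L := L) h₂).ext.comp (compat_of_smul_eq (L := L) h₁).ext =
      (compat_of_smul_eq (L := L) h₃).ext :=
  (compat_of_smul_eq (L := L) h₃).ext_unique
    ((compat_of_smul_eq (L := L) h₂).continuous_ext.comp
      (compat_of_smul_eq (L := L) h₁).continuous_ext)
    fun y => by
      rw [RingHom.comp_apply, Compat.ext_algebraMap, Compat.ext_algebraMap]
      congr 1
      exact (mul_smul g h y).symm

theorem ext_one_smul {w : HeightOneSpectrum (𝓞 L)} (h : (1 : G) • w = w) :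
    (compat_of_smul_eq (L := L) h).ext = RingHom.id _ :=
  ((compat_of_smul_eq (L := L) h).ext_unique continuous_id
    fun y => by
      change algebraMap L (w.adicCompletion L) y = algebraMap L _ ((1 : G) • y)
      rw [one_smul]).symm

theorem glExt_comp {g h : G} {w₁ w₂ w₃ : HeightOneSpectrum (𝓞 L)} (h₁ : h • w₁ = w₂)
    (h₂ : g • w₂ = w₃) (h₃ : (g * h) • w₁ = w₃) :
    (glExt h₂).comp (glExt h₁) = glExt h₃ := by
  ext x i j
  rw [MonoidHom.comp_apply, glExt_apply, glExt_apply, glExt_apply, ← ext_comp_smul h₁ h₂ h₃]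
  rfl

theorem glExt_one {w : HeightOneSpectrum (𝓞 L)} (h : (1 : G) • w = w) :
    glExt h = MonoidHom.id _ := by
  ext x i j
  rw [glExt_apply, ext_one_smul h]
  rfl

theorem glExt_bijective {g : G} {w w' : HeightOneSpectrum (𝓞 L)} (h : g • w = w') :
    Function.Bijective (glExt h) := by
  have h' : g⁻¹ • w' = w := by rw [← h, inv_smul_smul]
  have e1 : (glExt h').comp (glExt h) = MonoidHom.id _ := by
    have h3 : (g⁻¹ * g) • w = w := by rw [inv_mul_cancel, one_smul]
    rw [glExt_comp h h' h3]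
    have key : ∀ (k : G) (hk : k = 1) (h3 : k • w = w), glExt h3 = MonoidHom.id _ := by
      rintro k rfl h3
      exact glExt_one h3
    exact key _ (inv_mul_cancel g) h3
  have e2 : (glExt h).comp (glExt h') = MonoidHom.id _ := by
    have h3 : (g * g⁻¹) • w' = w' := by rw [mul_inv_cancel, one_smul]
    rw [glExt_comp h' h h3]
    have key : ∀ (k : G) (hk : k = 1) (h3 : k • w' = w'), glExt h3 = MonoidHom.id _ := by
      rintro k rfl h3
      exact glExt_one h3
    exact key _ (mul_inv_cancel g) h3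
  exact ⟨Function.LeftInverse.injective (g := glExt h') fun x => DFunLike.congr_fun e1 x,
    Function.RightInverse.surjective (g := glExt h') fun x => DFunLike.congr_fun e2 x⟩

theorem glExt_map {g : G} {w w' : HeightOneSpectrum (𝓞 L)} (h : g • w = w') (γ : GL (Fin 2) L) :
    glExt h (Matrix.GeneralLinearGroup.map (algebraMap L (w.adicCompletion L)) γ) =
      Matrix.GeneralLinearGroup.map (algebraMap L (w'.adicCompletion L))
        (Matrix.GeneralLinearGroup.map (MulSemiringAction.toRingHom G L g) γ) := by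
  refine Units.ext (Matrix.ext fun i j => ?_)
  exact (compat_of_smul_eq (L := L) h).ext_algebraMap (γ i j)

end GLExt

section Coset

variable {G₁ G₂ : Type*} [Group G₁] [Group G₂]

theorem sup_center_le_comap {φ : G₁ →* G₂} (hφ : Function.Surjective φ) {U₁ : Subgroup G₁}
    {U₂ : Subgroup G₂} (h : U₁ ≤ U₂.comap φ) :
    U₁ ⊔ Subgroup.center G₁ ≤ (U₂ ⊔ Subgroup.center G₂).comap φ := by
  refine sup_le (h.trans (Subgroup.comap_mono le_sup_left)) fun z hz => ?_
  refine (le_sup_right : Subgroup.center G₂ ≤ U₂ ⊔ Subgroup.center G₂) ?_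
  rw [Subgroup.mem_center_iff] at hz ⊢
  intro y
  obtain ⟨x, rfl⟩ := hφ y
  rw [← map_mul, ← map_mul, hz]

end Coset

section Res

variable {L : Type*} [Field L] [NumberField L] {G : Type*} [Group G] [MulSemiringAction G L]
  (U : ∀ w : HeightOneSpectrum (𝓞 L), Subgroup (GL (Fin 2) (w.adicCompletion L)))

/-- The level `U` is stable under `G`. -/
def GStable (G : Type*) [Group G] [MulSemiringAction G L]
    (U : ∀ w : HeightOneSpectrum (𝓞 L), Subgroup (GL (Fin 2) (w.adicCompletion L))) : Prop :=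
  ∀ (g : G) (w w' : HeightOneSpectrum (𝓞 L)) (h : g • w = w'), U w ≤ (U w').comap (glExt h)

variable {U}

theorem GStable.comap_le (hU : GStable G U) {g : G} {w w' : HeightOneSpectrum (𝓞 L)}
    (h : g • w = w') : (U w').comap (glExt h) ≤ U w := by
  intro x hx
  have h' : g⁻¹ • w' = w := by rw [← h, inv_smul_smul]
  have h1 := hU g⁻¹ w' w h' hx
  rw [Subgroup.mem_comap] at h1
  have h3 : (g⁻¹ * g) • w = w := by rw [inv_mul_cancel, one_smul]
  have e1 : glExt h' (glExt h x) = x := by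
    have key : ∀ (k : G) (hk : k = 1) (h3 : k • w = w), glExt h3 = MonoidHom.id _ := by
      rintro k rfl h3
      exact glExt_one h3
    rw [← MonoidHom.comp_apply, glExt_comp h h' h3, key _ (inv_mul_cancel g) h3]
    rfl
  rwa [e1] at h1

/-- The map `GL₂(L_w) / (U_w Z) → GL₂(L_w') / (U_w' Z)` for `g w = w'`. -/
noncomputable def dvMap (hU : GStable G U) {g : G} {w w' : HeightOneSpectrum (𝓞 L)}
    (h : g • w = w') :
    GL (Fin 2) (w.adicCompletion L) ⧸ (U w ⊔ Subgroup.center _) →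
      GL (Fin 2) (w'.adicCompletion L) ⧸ (U w' ⊔ Subgroup.center _) :=
  cosetMap (glExt h) (sup_center_le_comap (glExt_bijective h).2 (hU g w w' h))

theorem dvMap_mk (hU : GStable G U) {g : G} {w w' : HeightOneSpectrum (𝓞 L)} (h : g • w = w')
    (x : GL (Fin 2) (w.adicCompletion L)) :
    dvMap hU h (x : GL (Fin 2) (w.adicCompletion L) ⧸ (U w ⊔ Subgroup.center _)) =
      ((glExt h x : GL (Fin 2) (w'.adicCompletion L)) :
        GL (Fin 2) (w'.adicCompletion L) ⧸ (U w' ⊔ Subgroup.center _)) := rfl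

theorem dvMap_smul (hU : GStable G U) {g : G} {w w' : HeightOneSpectrum (𝓞 L)} (h : g • w = w')
    (γ : GL (Fin 2) (w.adicCompletion L))
    (x : GL (Fin 2) (w.adicCompletion L) ⧸ (U w ⊔ Subgroup.center _)) :
    dvMap hU h (γ • x) = glExt h γ • dvMap hU h x :=
  cosetMap_smul _ _ _ _

theorem dvMap_one (hU : GStable G U) {g : G} {w w' : HeightOneSpectrum (𝓞 L)} (h : g • w = w') :
    dvMap hU h ((1 : GL (Fin 2) (w.adicCompletion L)) :
      GL (Fin 2) (w.adicCompletion L) ⧸ (U w ⊔ Subgroup.center _)) =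
      ((1 : GL (Fin 2) (w'.adicCompletion L)) :
        GL (Fin 2) (w'.adicCompletion L) ⧸ (U w' ⊔ Subgroup.center _)) :=
  cosetMap_one _ _

theorem dvMap_dvMap (hU : GStable G U) {g h : G} {w₁ w₂ w₃ : HeightOneSpectrum (𝓞 L)}
    (h₁ : h • w₁ = w₂) (h₂ : g • w₂ = w₃) (h₃ : (g * h) • w₁ = w₃)
    (x : GL (Fin 2) (w₁.adicCompletion L) ⧸ (U w₁ ⊔ Subgroup.center _)) :
    dvMap hU h₂ (dvMap hU h₁ x) = dvMap hU h₃ x := by
  induction x using QuotientGroup.induction_on with
  | H x =>
    rw [dvMap_mk, dvMap_mk, dvMap_mk, ← MonoidHom.comp_apply, glExt_comp h₁ h₂ h₃]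

theorem dvMap_id (hU : GStable G U) {w : HeightOneSpectrum (𝓞 L)} (h : (1 : G) • w = w)
    (x : GL (Fin 2) (w.adicCompletion L) ⧸ (U w ⊔ Subgroup.center _)) :
    dvMap hU h x = x := by
  induction x using QuotientGroup.induction_on with
  | H x =>
    rw [dvMap_mk, glExt_one h]
    rfl

/-- `(g • d)_w = g (d_{g⁻¹ w})` on families of local cosets. -/
noncomputable def dAct (hU : GStable G U) (g : G)
    (d : ∀ w : HeightOneSpectrum (𝓞 L),
      GL (Fin 2) (w.adicCompletion L) ⧸ (U w ⊔ Subgroup.center _)) :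
    ∀ w : HeightOneSpectrum (𝓞 L),
      GL (Fin 2) (w.adicCompletion L) ⧸ (U w ⊔ Subgroup.center _) :=
  fun w => dvMap hU (smul_inv_smul g w) (d (g⁻¹ • w))

/-- `(g • d)_{g w} = g (d_w)` -/
theorem dAct_apply_smul (hU : GStable G U) (g : G)
    (d : ∀ w : HeightOneSpectrum (𝓞 L),
      GL (Fin 2) (w.adicCompletion L) ⧸ (U w ⊔ Subgroup.center _))
    {w w' : HeightOneSpectrum (𝓞 L)} (h : g • w = w') :
    dAct hU g d w' = dvMap hU h (d w) := by
  have h1 : g⁻¹ • w' = w := by rw [← h, inv_smul_smul]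
  subst h1
  rfl

theorem dAct_one (hU : GStable G U) (d : ∀ w : HeightOneSpectrum (𝓞 L),
      GL (Fin 2) (w.adicCompletion L) ⧸ (U w ⊔ Subgroup.center _)) :
    dAct hU (1 : G) d = d := by
  funext w
  rw [dAct_apply_smul hU 1 d (one_smul G w), dvMap_id]

theorem dAct_mul (hU : GStable G U) (g h : G) (d : ∀ w : HeightOneSpectrum (𝓞 L),
      GL (Fin 2) (w.adicCompletion L) ⧸ (U w ⊔ Subgroup.center _)) :
    dAct hU (g * h) d = dAct hU g (dAct hU h d) := by
  funext w
  have h1 : h • ((g * h)⁻¹ • w) = g⁻¹ • w := by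
    rw [← mul_smul, mul_inv_rev, mul_inv_cancel_left]
  rw [dAct_apply_smul hU g _ (smul_inv_smul g w), dAct_apply_smul hU h d h1,
    dvMap_dvMap hU h1 (smul_inv_smul g w) (smul_inv_smul (g * h) w)]
  rfl

/-- The diagonal action of `GL₂(L)` on families of local cosets. -/
noncomputable def glAct (U : ∀ w : HeightOneSpectrum (𝓞 L),
      Subgroup (GL (Fin 2) (w.adicCompletion L))) (γ : GL (Fin 2) L)
    (d : ∀ w : HeightOneSpectrum (𝓞 L),
      GL (Fin 2) (w.adicCompletion L) ⧸ (U w ⊔ Subgroup.center _)) :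
    ∀ w : HeightOneSpectrum (𝓞 L),
      GL (Fin 2) (w.adicCompletion L) ⧸ (U w ⊔ Subgroup.center _) :=
  fun w => Matrix.GeneralLinearGroup.map (algebraMap L (w.adicCompletion L)) γ • d w

/-- `g (γ • d) = g(γ) • (g d)` -/
theorem dAct_glAct (hU : GStable G U) (g : G) (γ : GL (Fin 2) L)
    (d : ∀ w : HeightOneSpectrum (𝓞 L),
      GL (Fin 2) (w.adicCompletion L) ⧸ (U w ⊔ Subgroup.center _)) :
    dAct hU g (glAct U γ d) =
      glAct U (Matrix.GeneralLinearGroup.map (MulSemiringAction.toRingHom G L g) γ)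
        (dAct hU g d) := by
  funext w
  rw [dAct_apply_smul hU g _ (smul_inv_smul g w)]
  change dvMap hU _ (_ • _) = _ • dAct hU g d w
  rw [dvMap_smul, glExt_map, dAct_apply_smul hU g _ (smul_inv_smul g w)]

/-- The restricted product is stable. -/
theorem dAct_eventually (hU : GStable G U) (g : G)
    {d : ∀ w : HeightOneSpectrum (𝓞 L),
      GL (Fin 2) (w.adicCompletion L) ⧸ (U w ⊔ Subgroup.center _)}
    (hd : ∀ᶠ w in Filter.cofinite, d w = ((1 : GL (Fin 2) (w.adicCompletion L)) :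
      GL (Fin 2) (w.adicCompletion L) ⧸ (U w ⊔ Subgroup.center _))) :
    ∀ᶠ w in Filter.cofinite, dAct hU g d w = ((1 : GL (Fin 2) (w.adicCompletion L)) :
      GL (Fin 2) (w.adicCompletion L) ⧸ (U w ⊔ Subgroup.center _)) := by
  rw [Filter.eventually_cofinite] at hd ⊢
  refine (hd.image fun w => g • w).subset fun w hw => ⟨g⁻¹ • w, fun h => hw ?_, ?_⟩
  · rw [dAct_apply_smul hU g d (smul_inv_smul g w), h, dvMap_one]
  · exact smul_inv_smul g w

end Res

end Fermat.Agent.LT.Ext
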