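import Fermat.Agent.LT.Space
import Fermat.Agent.LT.H3.Conj

/-!
# Base change maps between the spaces `X_∞`

`InfinitePlace.embedding` is chosen, so for `f : K →+* L` and a place `w` of `L` the embeddings
`w.embedding ∘ f` and `(w.comap f).embedding` agree only up to complex conjugation. The maps below
take care of that by means of the mirror image `H3.cj (z, y) = (conj z, y)`.

* `Xi.res f : Xi K → Xi L`, `(res f x) w = x (w.comap f)` or its mirror image; equivariant for
  `GL₂(K)`; functorial;
* `Xi.tau (τ : F ≃+* F) : Xi F ≃ᵐ Xi F`, measure preserving, `tau (g • x) = τ g • tau x`;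
* `Xi.pr f s : Xi L → Xi K` (`s` chooses a place of `L` above every place of `K`), equivariant for
  `GL₂(K)`, left inverse of `res f`;
* `PG.map`, `PG.tau`.
-/

set_option autoImplicit false

noncomputable section

open Complex MeasureTheory Matrix NumberField
open scoped ComplexConjugate MatrixGroups ENNReal

namespace Fermat.Agent.LT

namespace H3

/-! ### Comparison of two embeddings of the same place -/

section cmp

variable {F : Type*} [Field F]

open Classical in
/-- The comparison map of two embeddings which define the same place. -/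
def cmp (φ ψ : F →+* ℂ) (P : H3) : H3 := if φ = ψ then P else cj P

theorem cmp_self (φ : F →+* ℂ) (P : H3) : cmp φ φ P = P := if_pos rfl

theorem cmp_of_ne {φ ψ : F →+* ℂ} (h : φ ≠ ψ) (P : H3) : cmp φ ψ P = cj P := if_neg h

@[simp] theorem y_cmp (φ ψ : F →+* ℂ) (P : H3) : (cmp φ ψ P).y = P.y := by
  unfold cmp
  split_ifs <;> rfl

@[simp] theorem norm_z_cmp (φ ψ : F →+* ℂ) (P : H3) : ‖(cmp φ ψ P).z‖ = ‖P.z‖ := by
  unfold cmp
  split_ifs
  · rfl
  · rw [z_cj, Complex.norm_conj]

@[simp] theorem cu_cmp (φ ψ : F →+* ℂ) (P Q : H3) : cu (cmp φ ψ P) (cmp φ ψ Q) = cu P Q := by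
  unfold cmp
  split_ifs
  · rfl
  · exact cu_cj P Q

theorem continuous_cmp (φ ψ : F →+* ℂ) : Continuous (cmp φ ψ) := by
  by_cases h : φ = ψ
  · subst h
    have : cmp φ φ = id := funext fun P => cmp_self φ P
    rw [this]
    exact continuous_id
  · have : cmp φ ψ = cj := funext fun P => cmp_of_ne h P
    rw [this]
    exact continuous_cj

theorem measurePreserving_cmp (φ ψ : F →+* ℂ) : MeasurePreserving (cmp φ ψ) volume volume := by
  by_cases h : φ = ψ
  · subst h
    have : cmp φ φ = id := funext fun P => cmp_self φ P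
    rw [this]
    exact MeasurePreserving.id volume
  · have : cmp φ ψ = cj := funext fun P => cmp_of_ne h P
    rw [this]
    exact measurePreserving_cj

theorem cmp_smul {φ ψ : F →+* ℂ} (h : InfinitePlace.mk φ = InfinitePlace.mk ψ)
    (g : GL (Fin 2) F) (P : H3) :
    cmp φ ψ (GeneralLinearGroup.map (n := Fin 2) ψ g • P) =
      GeneralLinearGroup.map (n := Fin 2) φ g • cmp φ ψ P := by
  by_cases he : φ = ψ
  · subst he
    rw [cmp_self, cmp_self]
  · rw [cmp_of_ne he, cmp_of_ne he, cj_smul]
    congr 1
    rcases InfinitePlace.mk_eq_iff.mp h with h1 | h1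
    · exact absurd h1 he
    · ext i k
      show conj (ψ (g i k)) = φ (g i k)
      rw [← h1]
      show conj (conj (φ (g i k))) = _
      rw [conj_conj]

theorem cmp_cmp {φ ψ χ : F →+* ℂ} (h : InfinitePlace.mk φ = InfinitePlace.mk ψ)
    (h' : InfinitePlace.mk ψ = InfinitePlace.mk χ) (P : H3) :
    cmp φ ψ (cmp ψ χ P) = cmp φ χ P := by
  by_cases h1 : φ = ψ
  · subst h1
    rw [cmp_self]
  · by_cases h2 : ψ = χ
    · subst h2
      rw [cmp_self]
    · rw [cmp_of_ne h1, cmp_of_ne h2, cj_cj]
      have h3 := (InfinitePlace.mk_eq_iff.mp h).resolve_left h1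
      have h4 := (InfinitePlace.mk_eq_iff.mp h').resolve_left h2
      have h5 : φ = χ := by
        rw [← h4, ← h3]
        exact (ComplexEmbedding.involutive_conjugate F φ).symm
      rw [h5, cmp_self]

/-- The comparison of the restrictions of two embeddings. -/
theorem cmp_comp {K : Type*} [Field K] (f : K →+* F) {φ ψ : F →+* ℂ}
    (h : InfinitePlace.mk φ = InfinitePlace.mk ψ)
    (g : GL (Fin 2) K) (P : H3) :
    cmp φ ψ (GeneralLinearGroup.map (n := Fin 2) (ψ.comp f) g • P) =
      GeneralLinearGroup.map (n := Fin 2) (φ.comp f) g • cmp φ ψ P :=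
  cmp_smul h (GeneralLinearGroup.map (n := Fin 2) f g) P

end cmp

end H3

namespace Xi

open H3

variable {K L M F : Type*} [Field K] [Field L] [Field M] [Field F]

theorem mk_comp_eq (f : K →+* L) (w : InfinitePlace L) :
    InfinitePlace.mk (w.embedding.comp f) = InfinitePlace.mk (w.comap f).embedding := by
  rw [InfinitePlace.mk_embedding, ← InfinitePlace.comap_mk, InfinitePlace.mk_embedding]

/-- The base change map. -/
def res (f : K →+* L) (x : Xi K) : Xi L := fun w =>
  cmp (w.embedding.comp f) (w.comap f).embedding (x (w.comap f))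

theorem res_apply (f : K →+* L) (x : Xi K) (w : InfinitePlace L) :
    res f x w = cmp (w.embedding.comp f) (w.comap f).embedding (x (w.comap f)) := rfl

@[simp] theorem y_res (f : K →+* L) (x : Xi K) (w : InfinitePlace L) :
    (res f x w).y = (x (w.comap f)).y := y_cmp _ _ _

@[simp] theorem norm_z_res (f : K →+* L) (x : Xi K) (w : InfinitePlace L) :
    ‖(res f x w).z‖ = ‖(x (w.comap f)).z‖ := norm_z_cmp _ _ _

@[simp] theorem cu_res (f : K →+* L) (x x' : Xi K) (w : InfinitePlace L) :
    cu (res f x w) (res f x' w) = cu (x (w.comap f)) (x' (w.comap f)) := cu_cmp _ _ _ _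

theorem res_smul (f : K →+* L) (g : GL (Fin 2) K) (x : Xi K) :
    res f (g • x) = GeneralLinearGroup.map (n := Fin 2) f g • res f x := by
  funext w
  rw [res_apply, smul_apply, smul_apply, res_apply, cmp_smul (mk_comp_eq f w)]
  rfl

theorem res_id (x : Xi K) : res (RingHom.id K) x = x := by
  funext w
  have h1 : w.comap (RingHom.id K) = w := InfinitePlace.comap_id w
  rw [res_apply, RingHom.comp_id]
  have : ∀ v, v = w → cmp w.embedding v.embedding (x v) = x w := by
    rintro v rfl
    exact cmp_self _ _
  exact this _ h1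

/-- Restriction of embeddings to a subfield with a complex place. -/
theorem cmp_eq_cmp_comp (f : K →+* L) {φ ψ : L →+* ℂ}
    (h : InfinitePlace.mk φ = InfinitePlace.mk ψ)
    (hc : (InfinitePlace.mk (φ.comp f)).IsComplex) (P : H3) :
    cmp φ ψ P = cmp (φ.comp f) (ψ.comp f) P := by
  by_cases he : φ = ψ
  · subst he
    rw [cmp_self, cmp_self]
  · have h1 := (InfinitePlace.mk_eq_iff.mp h).resolve_left he
    rw [cmp_of_ne he, cmp_of_ne]
    intro h2
    rw [InfinitePlace.isComplex_mk_iff] at hc
    refine hc ?_
    rw [ComplexEmbedding.isReal_iff]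
    calc ComplexEmbedding.conjugate (φ.comp f) = (ComplexEmbedding.conjugate φ).comp f := rfl
      _ = ψ.comp f := by rw [h1]
      _ = φ.comp f := h2.symm

theorem res_comp [IsTotallyComplex K] (f : K →+* L) (g : L →+* M) (x : Xi K) :
    res (g.comp f) x = res g (res f x) := by
  funext w
  have h1 : w.comap (g.comp f) = (w.comap g).comap f := rfl
  rw [res_apply, res_apply, res_apply, h1]
  set v := w.comap g with hv
  set u := v.comap f with hu
  have h2 : InfinitePlace.mk (w.embedding.comp g) = InfinitePlace.mk v.embedding := mk_comp_eq g w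
  have h3 : InfinitePlace.mk (v.embedding.comp f) = InfinitePlace.mk u.embedding := mk_comp_eq f v
  have h4 : InfinitePlace.mk ((w.embedding.comp g).comp f) =
      InfinitePlace.mk (v.embedding.comp f) := by
    rw [← InfinitePlace.comap_mk, h2, InfinitePlace.comap_mk]
  rw [cmp_eq_cmp_comp f h2 (IsTotallyComplex.isComplex _), cmp_cmp h4 h3]
  rfl

theorem continuous_res (f : K →+* L) : Continuous (res f) :=
  continuous_pi fun w => (continuous_cmp _ _).comp (continuous_apply _)

/-! ### The choice of a place above -/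

/-- `s v` is a place above `v`. -/
def IsAbove (f : K →+* L) (s : InfinitePlace K → InfinitePlace L) : Prop :=
  ∀ v, (s v).comap f = v

/-- The coordinates at the chosen places. -/
def pr (f : K →+* L) (s : InfinitePlace K → InfinitePlace L) (x : Xi L) : Xi K := fun v =>
  cmp v.embedding ((s v).embedding.comp f) (x (s v))

theorem pr_apply (f : K →+* L) (s : InfinitePlace K → InfinitePlace L) (x : Xi L)
    (v : InfinitePlace K) : pr f s x v = cmp v.embedding ((s v).embedding.comp f) (x (s v)) := rfl

theorem mk_embedding_eq {f : K →+* L} {s : InfinitePlace K → InfinitePlace L} (hs : IsAbove f s)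
    (v : InfinitePlace K) :
    InfinitePlace.mk v.embedding = InfinitePlace.mk ((s v).embedding.comp f) := by
  rw [mk_comp_eq, hs v]

theorem pr_smul {f : K →+* L} {s : InfinitePlace K → InfinitePlace L} (hs : IsAbove f s)
    (g : GL (Fin 2) K) (x : Xi L) :
    pr f s (GeneralLinearGroup.map (n := Fin 2) f g • x) = g • pr f s x := by
  funext v
  rw [pr_apply, smul_apply, smul_apply, pr_apply, ← cmp_smul (mk_embedding_eq hs v)]
  rfl

theorem pr_res {f : K →+* L} {s : InfinitePlace K → InfinitePlace L} (hs : IsAbove f s)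
    (x : Xi K) : pr f s (res f x) = x := by
  funext v
  rw [pr_apply, res_apply]
  have h1 : ∀ u, u = v → InfinitePlace.mk v.embedding = InfinitePlace.mk ((s v).embedding.comp f) →
      cmp v.embedding ((s v).embedding.comp f)
        (cmp ((s v).embedding.comp f) u.embedding (x u)) = x v := by
    rintro u rfl h
    rw [cmp_cmp h h.symm, cmp_self]
  exact h1 _ (hs v) (mk_embedding_eq hs v)

theorem continuous_pr (f : K →+* L) (s : InfinitePlace K → InfinitePlace L) :
    Continuous (pr f s) :=
  continuous_pi fun v => (continuous_cmp _ _).comp (continuous_apply _)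

/-! ### Automorphisms -/

/-- The action of a field automorphism on `X_∞`. -/
def tau (τ : F ≃+* F) (x : Xi F) : Xi F := res (τ : F →+* F) x

theorem tau_apply (τ : F ≃+* F) (x : Xi F) (w : InfinitePlace F) :
    tau τ x w = cmp (w.embedding.comp (τ : F →+* F)) (w.comap (τ : F →+* F)).embedding
      (x (w.comap (τ : F →+* F))) := rfl

theorem tau_smul (τ : F ≃+* F) (g : GL (Fin 2) F) (x : Xi F) :
    tau τ (g • x) = GeneralLinearGroup.map (n := Fin 2) (τ : F →+* F) g • tau τ x :=
  res_smul _ g x

theorem tau_refl (x : Xi F) : tau (RingEquiv.refl F) x = x := res_id x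

theorem tau_trans [IsTotallyComplex F] (τ τ' : F ≃+* F) (x : Xi F) :
    tau (τ.trans τ') x = tau τ' (tau τ x) := res_comp (τ : F →+* F) (τ' : F →+* F) x

theorem tau_symm_tau [IsTotallyComplex F] (τ : F ≃+* F) (x : Xi F) :
    tau τ.symm (tau τ x) = x := by
  rw [← tau_trans, RingEquiv.self_trans_symm, tau_refl]

theorem tau_tau_symm [IsTotallyComplex F] (τ : F ≃+* F) (x : Xi F) :
    tau τ (tau τ.symm x) = x := by
  rw [← tau_trans, RingEquiv.symm_trans_self, tau_refl]

@[simp] theorem y_tau (τ : F ≃+* F) (x : Xi F) (w : InfinitePlace F) :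
    (tau τ x w).y = (x (w.comap (τ : F →+* F))).y := y_res _ _ _

@[simp] theorem norm_z_tau (τ : F ≃+* F) (x : Xi F) (w : InfinitePlace F) :
    ‖(tau τ x w).z‖ = ‖(x (w.comap (τ : F →+* F))).z‖ := norm_z_res _ _ _

@[simp] theorem cu_tau (τ : F ≃+* F) (x x' : Xi F) (w : InfinitePlace F) :
    cu (tau τ x w) (tau τ x' w) =
      cu (x (w.comap (τ : F →+* F))) (x' (w.comap (τ : F →+* F))) := cu_res _ _ _ _

theorem continuous_tau (τ : F ≃+* F) : Continuous (tau τ) := continuous_res _

/-- The permutation of the places. -/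
def placePerm (τ : F ≃+* F) : InfinitePlace F ≃ InfinitePlace F where
  toFun w := w.comap (τ : F →+* F)
  invFun w := w.comap (τ.symm : F →+* F)
  left_inv w := by
    show (w.comap (τ : F →+* F)).comap (τ.symm : F →+* F) = w
    rw [← InfinitePlace.comap_comp]
    convert InfinitePlace.comap_id w
    ext a
    simp
  right_inv w := by
    show (w.comap (τ.symm : F →+* F)).comap (τ : F →+* F) = w
    rw [← InfinitePlace.comap_comp]
    convert InfinitePlace.comap_id w
    ext a
    simp

theorem measurePreserving_tau [NumberField F] (τ : F ≃+* F) :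
    MeasurePreserving (tau τ) (volume : Measure (Xi F)) volume := by
  have h1 : MeasurePreserving (fun x : InfinitePlace F → H3 => fun w => x (placePerm τ w))
      volume volume := by
    have := volume_measurePreserving_piCongrLeft (fun _ : InfinitePlace F => H3) (placePerm τ).symm
    convert this using 1
    funext x w
    rw [MeasurableEquiv.coe_piCongrLeft, Equiv.piCongrLeft_apply_eq_cast]
    simp
  have h2 : MeasurePreserving (fun x : InfinitePlace F → H3 => fun w =>
      cmp (w.embedding.comp (τ : F →+* F)) (w.comap (τ : F →+* F)).embedding (x w))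
      volume volume :=
    volume_preserving_pi (ι := InfinitePlace F) (α' := fun _ => H3) (β' := fun _ => H3)
      (f := fun w => cmp (w.embedding.comp (τ : F →+* F)) (w.comap (τ : F →+* F)).embedding)
      fun w => measurePreserving_cmp _ _
  exact h2.comp h1

end Xi

/-! ### The groups -/

namespace PG

variable {K L F : Type*} [Field K] [Field L] [Field F]

theorem map_mem_center (f : K →+* L) {g : GL (Fin 2) K}
    (hg : g ∈ Subgroup.center (GL (Fin 2) K)) :
    GeneralLinearGroup.map (n := Fin 2) f g ∈ Subgroup.center (GL (Fin 2) L) := by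
  rw [GeneralLinearGroup.center_eq_range_scalar] at hg ⊢
  obtain ⟨a, rfl⟩ := hg
  refine ⟨Units.map (f : K →* L) a, ?_⟩
  ext i k
  simp [GeneralLinearGroup.map, Matrix.scalar, Matrix.diagonal_apply, apply_ite f]

/-- The map of projective groups defined by a homomorphism of fields. -/
def map (f : K →+* L) : PG K →* PG L :=
  QuotientGroup.map _ _ (GeneralLinearGroup.map (n := Fin 2) f) fun _ hg => map_mem_center f hg

@[simp] theorem map_mk (f : K →+* L) (g : GL (Fin 2) K) :
    map f (QuotientGroup.mk g) = QuotientGroup.mk (GeneralLinearGroup.map (n := Fin 2) f g) := rfl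

/-- The automorphism of the projective group defined by an automorphism of the field. -/
def tau (τ : F ≃+* F) : PG F ≃* PG F where
  toFun := map (τ : F →+* F)
  invFun := map (τ.symm : F →+* F)
  left_inv g := by
    obtain ⟨g, rfl⟩ := QuotientGroup.mk_surjective g
    rw [map_mk, map_mk]
    congr 1
    ext i k
    exact τ.symm_apply_apply _
  right_inv g := by
    obtain ⟨g, rfl⟩ := QuotientGroup.mk_surjective g
    rw [map_mk, map_mk]
    congr 1
    ext i k
    exact τ.apply_symm_apply _
  map_mul' := map_mul _

@[simp] theorem tau_mk (τ : F ≃+* F) (g : GL (Fin 2) F) :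
    tau τ (QuotientGroup.mk g) =
      QuotientGroup.mk (GeneralLinearGroup.map (n := Fin 2) (τ : F →+* F) g) := rfl

theorem xi_tau_smul (τ : F ≃+* F) (g : PG F) (x : Xi F) :
    Xi.tau τ (g • x) = tau τ g • Xi.tau τ x := by
  obtain ⟨g, rfl⟩ := QuotientGroup.mk_surjective g
  rw [tau_mk, pg_smul, pg_smul]
  exact Xi.tau_smul τ g x

theorem map_injective (f : K →+* L) : Function.Injective (map f) := by
  rw [injective_iff_map_eq_one]
  intro g hg
  obtain ⟨g, rfl⟩ := QuotientGroup.mk_surjective g
  rw [map_mk, QuotientGroup.eq_one_iff, GeneralLinearGroup.center_eq_range_scalar] at hg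
  rw [QuotientGroup.eq_one_iff, GeneralLinearGroup.center_eq_range_scalar]
  obtain ⟨a, ha⟩ := hg
  have h : ∀ i k, f (g i k) = (GeneralLinearGroup.scalar (Fin 2) a : GL (Fin 2) L) i k := by
    intro i k
    rw [ha]
    rfl
  have h00 : f (g 0 0) = a := by simpa [Matrix.scalar] using h 0 0
  have h11 : f (g 1 1) = a := by simpa [Matrix.scalar] using h 1 1
  have h01 : f (g 0 1) = 0 := by simpa [Matrix.scalar] using h 0 1
  have h10 : f (g 1 0) = 0 := by simpa [Matrix.scalar] using h 1 0
  have hne : g 0 0 ≠ 0 := by
    intro h0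
    rw [h0, map_zero] at h00
    exact a.ne_zero h00.symm
  refine ⟨Units.mk0 (g 0 0) hne, ?_⟩
  ext i k
  fin_cases i <;> fin_cases k
  · simp [Matrix.scalar]
  · simp [Matrix.scalar, (map_eq_zero f).mp h01]
  · simp [Matrix.scalar, (map_eq_zero f).mp h10]
  · have : g 1 1 = g 0 0 := f.injective (h11.trans h00.symm)
    simp [this]

end PG

end Fermat.Agent.LT

end
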