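import Mathlib

/-!
# Restricted products of pointed sets

`RProd D b` is the set of the families `x : ∀ v, D v` with `x v = b v` for almost all `v`.

* `RProd.countable`, the diagonal action of a group (`BaseFix`), `RProd.map`.
* `fprod f x = ∏ᶠ v, f v (x v)`.
* `RProd.finsum_fprod` : Fubini, `∑ᶠ x, fprod f x = ∏ᶠ v, ∑ᶠ x, f v x`.
* `kprod` : product kernels, their composition.
-/

set_option autoImplicit false

noncomputable section

open Function Set

namespace Fermat.Agent.LT

/-- The restricted product of the sets `D v` with respect to the base points `b v`. -/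
structure RProd {ι : Type*} (D : ι → Type*) (b : ∀ v, D v) where
  /-- the coordinates -/
  val : ∀ v, D v
  fin : {v | val v ≠ b v}.Finite

namespace RProd

variable {ι : Type*} {D : ι → Type*} {b : ∀ v, D v}

instance : CoeFun (RProd D b) (fun _ => ∀ v, D v) := ⟨RProd.val⟩

theorem ext' {x y : RProd D b} (h : ∀ v, x v = y v) : x = y := by
  cases x
  cases y
  congr
  exact funext h

/-- the base point -/
def base : RProd D b := ⟨b, by simp⟩

@[simp] theorem base_apply (v : ι) : (base : RProd D b) v = b v := rfl

open Classical in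
/-- the point with the coordinates `y v` for `v ∈ s` and `b v` outside `s` -/
def ofFin (s : Finset ι) (y : ∀ v : s, D v) : RProd D b :=
  ⟨fun v => if h : v ∈ s then y ⟨v, h⟩ else b v, s.finite_toSet.subset fun v hv => by
    by_contra h
    exact hv (dif_neg h)⟩

theorem ofFin_apply_mem {s : Finset ι} (y : ∀ v : s, D v) {v : ι} (h : v ∈ s) :
    (ofFin s y : RProd D b) v = y ⟨v, h⟩ := dif_pos h

theorem ofFin_apply_notMem {s : Finset ι} (y : ∀ v : s, D v) {v : ι} (h : v ∉ s) :
    (ofFin s y : RProd D b) v = b v := dif_neg h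

theorem ofFin_injective (s : Finset ι) : Injective (ofFin s : (∀ v : s, D v) → RProd D b) := by
  intro y y' h
  funext v
  have := congrArg (fun x : RProd D b => x v) h
  simp only [ofFin_apply_mem _ v.2] at this
  exact this

theorem ofFin_restrict {s : Finset ι} {x : RProd D b} (hx : ∀ v ∉ s, x v = b v) :
    ofFin s (fun v : s => x v) = x := by
  refine ext' fun v => ?_
  by_cases h : v ∈ s
  · rw [ofFin_apply_mem _ h]
  · rw [ofFin_apply_notMem _ h, hx v h]

instance [Countable ι] [∀ v, Countable (D v)] : Countable (RProd D b) := by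
  classical
  have h : Surjective (fun p : Σ s : Finset ι, (∀ v : s, D v) =>
      (ofFin p.1 p.2 : RProd D b)) := by
    intro x
    refine ⟨⟨x.fin.toFinset, fun v => x v⟩, ofFin_restrict fun v hv => ?_⟩
    by_contra h
    exact hv (by simpa using h)
  exact h.countable

/-- almost all coordinates agree -/
theorem fin_ne (x y : RProd D b) : {v | x v ≠ y v}.Finite :=
  (x.fin.union y.fin).subset fun v hv => by
    by_contra h
    simp only [mem_union, mem_ofPred_eq, not_or, not_not] at h
    exact hv (h.1.trans h.2.symm)

/-! ### Actions -/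

section Action

variable {G : Type*} [Group G] [∀ v, MulAction G (D v)]

variable (G b) in
/-- `g` fixes almost all base points. -/
class BaseFix : Prop where
  fin : ∀ g : G, {v | g • b v ≠ b v}.Finite

instance [BaseFix b G] : MulAction G (RProd D b) where
  smul g x := ⟨fun v => g • x v, ((BaseFix.fin (b := b) g).union x.fin).subset
    fun v hv => by
      by_contra h
      simp only [mem_union, mem_ofPred_eq, not_or, not_not] at h
      refine hv ?_
      show g • x v = b v
      rw [h.2, h.1]⟩
  one_smul x := ext' fun v => one_smul G (x v)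
  mul_smul g h x := ext' fun v => mul_smul g h (x v)

@[simp] theorem smul_apply [BaseFix b G] (g : G) (x : RProd D b) (v : ι) :
    (g • x) v = g • x v := rfl

end Action

/-! ### Maps -/

section Map

variable {D' : ι → Type*} {b' : ∀ v, D' v}

/-- the product of the maps `p v` -/
def map (p : ∀ v, D v → D' v) (hp : {v | p v (b v) ≠ b' v}.Finite) (x : RProd D b) :
    RProd D' b' :=
  ⟨fun v => p v (x v), (hp.union x.fin).subset fun v hv => by
    by_contra h
    simp only [mem_union, mem_ofPred_eq, not_or, not_not] at h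
    refine hv ?_
    show p v (x v) = b' v
    rw [h.2, h.1]⟩

@[simp] theorem map_apply (p : ∀ v, D v → D' v) (hp : {v | p v (b v) ≠ b' v}.Finite)
    (x : RProd D b) (v : ι) : map p hp x v = p v (x v) := rfl

end Map

/-! ### Product functions and Fubini -/

section Fprod

variable {R : Type*} [CommSemiring R]

/-- the product function -/
def fprod (f : ∀ v, D v → R) (x : RProd D b) : R := ∏ᶠ v, f v (x v)

theorem mulSupport_fprod {f : ∀ v, D v → R} (hf : {v | f v (b v) ≠ 1}.Finite) (x : RProd D b) :
    (mulSupport fun v => f v (x v)).Finite :=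
  (hf.union x.fin).subset fun v hv => by
    by_contra h
    simp only [mem_union, mem_ofPred_eq, not_or, not_not] at h
    refine hv ?_
    show f v (x v) = 1
    rw [h.2, h.1]

theorem fprod_eq_prod {f : ∀ v, D v → R} {s : Finset ι} {x : RProd D b}
    (h : ∀ v ∉ s, f v (x v) = 1) : fprod f x = ∏ v ∈ s, f v (x v) :=
  finprod_eq_prod_of_mulSupport_subset _ fun v hv => by
    by_contra hs
    exact hv (h v hs)

theorem ne_zero_of_fprod_ne_zero {f : ∀ v, D v → R} (hf : {v | f v (b v) ≠ 1}.Finite)
    {x : RProd D b} (h : fprod f x ≠ 0) (v : ι) : f v (x v) ≠ 0 := by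
  intro h0
  refine h ?_
  rw [fprod, finprod_eq_prod _ (mulSupport_fprod hf x)]
  refine Finset.prod_eq_zero (i := v) ?_ h0
  by_cases h1 : (1 : R) = 0
  · exact absurd (by rw [← one_mul (fprod f x), h1, zero_mul]) h
  · rw [Finite.mem_toFinset]
    show f v (x v) ≠ 1
    rw [h0]
    exact fun h => h1 h.symm

theorem fprod_mul {f g : ∀ v, D v → R} (hf : {v | f v (b v) ≠ 1}.Finite)
    (hg : {v | g v (b v) ≠ 1}.Finite) (x : RProd D b) :
    fprod (fun v y => f v y * g v y) x = fprod f x * fprod g x :=
  finprod_mul_distrib (mulSupport_fprod hf x) (mulSupport_fprod hg x)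

open Classical in
/-- The shape of the functions `f` to which Fubini applies: finite supports, and `f v` is the
indicator function of `b v` for almost all `v`. -/
structure Adm (b : ∀ v, D v) (f : ∀ v, D v → R) : Prop where
  supp : ∀ v, (support (f v)).Finite
  ind : {v | f v ≠ fun y => if y = b v then 1 else 0}.Finite

theorem Adm.base_eq {f : ∀ v, D v → R} (h : Adm b f) : {v | f v (b v) ≠ 1}.Finite :=
  h.ind.subset fun v hv => by
    intro h0
    refine hv ?_
    simp [h0]

variable {f : ∀ v, D v → R}

open Classical in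
theorem Adm.fprod_eq (h : Adm b f) {s : Finset ι}
    (hs : ∀ v ∉ s, f v = fun y => if y = b v then 1 else 0) (x : RProd D b) :
    fprod f x = if (∀ v ∉ s, x v = b v) then ∏ v ∈ s, f v (x v) else 0 := by
  split_ifs with hx
  · refine fprod_eq_prod fun v hv => ?_
    rw [hs v hv]
    simp [hx v hv]
  · push Not at hx
    obtain ⟨v, hv, hne⟩ := hx
    by_contra h0
    refine ne_zero_of_fprod_ne_zero h.base_eq h0 v ?_
    rw [hs v hv]
    simp [hne]

open Classical in
theorem Adm.exists_finset (h : Adm b f) :
    ∃ s : Finset ι, ∀ v ∉ s, f v = fun y => if y = b v then 1 else 0 :=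
  ⟨h.ind.toFinset, fun v hv => by
    by_contra h1
    exact hv (by simpa using h1)⟩

theorem Adm.finite_support (h : Adm b f) :
    (support (fprod f : RProd D b → R)).Finite := by
  classical
  obtain ⟨s, hs⟩ := h.exists_finset
  refine ((Set.Finite.pi' fun v : s => h.supp v).image (ofFin s)).subset fun x hx => ?_
  rw [mem_support, h.fprod_eq hs] at hx
  by_cases hx1 : ∀ v ∉ s, x v = b v
  · refine ⟨fun v => x v, fun v => ?_, ofFin_restrict hx1⟩
    rw [if_pos hx1] at hx
    intro h0
    exact hx (Finset.prod_eq_zero v.2 h0)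
  · rw [if_neg hx1] at hx
    exact absurd rfl hx

/-- **Fubini.** -/
theorem Adm.finsum_fprod (h : Adm b f) :
    ∑ᶠ x : RProd D b, fprod f x = ∏ᶠ v, ∑ᶠ y, f v y := by
  classical
  obtain ⟨s, hs⟩ := h.exists_finset
  have h1 : ∀ v ∉ s, ∑ᶠ y, f v y = 1 := fun v hv => by
    rw [hs v hv, finsum_eq_single _ (b v)]
    · simp
    · intro y hy
      simp [hy]
  rw [finprod_eq_prod_of_mulSupport_subset (s := s) _ fun v hv => by
    by_contra h0
    exact hv (h1 v h0)]
  have h2 : ∀ v, ∑ᶠ y, f v y = ∑ y ∈ (h.supp v).toFinset, f v y := fun v =>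
    finsum_eq_sum _ (h.supp v)
  rw [Finset.prod_congr rfl fun v _ => h2 v]
  rw [← Finset.prod_coe_sort s (fun v => ∑ y ∈ (h.supp v).toFinset, f v y),
    Finset.prod_univ_sum]
  let e : (∀ v : s, D v) ↪ RProd D b := ⟨ofFin s, ofFin_injective s⟩
  rw [finsum_eq_sum_of_support_subset (s := (Fintype.piFinset fun v : s =>
    (h.supp v).toFinset).map e)]
  · rw [Finset.sum_map]
    refine Finset.sum_congr rfl fun y _ => ?_
    show fprod f (ofFin s y : RProd D b) = _
    rw [h.fprod_eq hs, if_pos fun v hv => ofFin_apply_notMem y hv, ← Finset.prod_coe_sort s]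
    refine Finset.prod_congr rfl fun v _ => ?_
    show f v ((ofFin s y : RProd D b) v) = f v (y v)
    rw [ofFin_apply_mem y v.2]
  · intro x hx
    rw [mem_support, h.fprod_eq hs] at hx
    by_cases hx1 : ∀ v ∉ s, x v = b v
    · rw [if_pos hx1] at hx
      rw [Finset.mem_coe, Finset.mem_map]
      refine ⟨fun v => x v, ?_, ofFin_restrict hx1⟩
      rw [Fintype.mem_piFinset]
      intro v
      rw [Finite.mem_toFinset, mem_support]
      intro h0
      exact hx (Finset.prod_eq_zero v.2 h0)
    · rw [if_neg hx1] at hx
      exact absurd rfl hx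

end Fprod

/-! ### Product kernels -/

section Kernel

variable {R : Type*} [CommSemiring R]

/-- the product of the kernels `k v` -/
def kprod (k : ∀ v, D v → D v → R) (x y : RProd D b) : R := ∏ᶠ v, k v (x v) (y v)

/-- the composition of two kernels on a discrete set -/
def dcomp {A : Type*} (k k' : A → A → R) (x z : A) : R := ∑ᶠ y, k x y * k' y z

open Classical in
/-- Row finite kernels, almost all equal to the identity kernel. -/
structure KAdm (k : ∀ v, D v → D v → R) : Prop where
  row : ∀ v x, (support (k v x)).Finite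
  col : ∀ v y, (support fun x => k v x y).Finite
  ind : {v | k v ≠ fun x y => if x = y then 1 else 0}.Finite

theorem kprod_smul {G : Type*} [Group G] [∀ v, MulAction G (D v)] [BaseFix b G]
    {k : ∀ v, D v → D v → R} (hk : ∀ (g : G) v x y, k v (g • x) (g • y) = k v x y)
    (g : G) (x y : RProd D b) : kprod k (g • x) (g • y) = kprod k x y :=
  finprod_congr fun v => hk g v _ _

theorem KAdm.adm_row {k : ∀ v, D v → D v → R} (h : KAdm k) (x : RProd D b) :
    Adm b fun v => k v (x v) where
  supp v := h.row v (x v)
  ind := (h.ind.union x.fin).subset fun v hv => by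
    by_contra h0
    simp only [mem_union, mem_ofPred_eq, not_or, not_not] at h0
    refine hv ?_
    rw [h0.1, h0.2]
    funext y
    beta_reduce
    by_cases hy : y = b v
    · rw [if_pos hy, if_pos hy.symm]
    · rw [if_neg hy, if_neg (Ne.symm hy)]

theorem KAdm.adm_col {k : ∀ v, D v → D v → R} (h : KAdm k) (y : RProd D b) :
    Adm b fun v x => k v x (y v) where
  supp v := h.col v (y v)
  ind := (h.ind.union y.fin).subset fun v hv => by
    by_contra h0
    simp only [mem_union, mem_ofPred_eq, not_or, not_not] at h0
    refine hv ?_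
    rw [h0.1, h0.2]

theorem KAdm.finite_row {k : ∀ v, D v → D v → R} (h : KAdm k) (x : RProd D b) :
    (support fun y : RProd D b => kprod k x y).Finite := (h.adm_row x).finite_support

theorem KAdm.finite_col {k : ∀ v, D v → D v → R} (h : KAdm k) (y : RProd D b) :
    (support fun x : RProd D b => kprod k x y).Finite := (h.adm_col y).finite_support

theorem KAdm.base_eq {k : ∀ v, D v → D v → R} (h : KAdm k) (x y : RProd D b) :
    (mulSupport fun v => k v (x v) (y v)).Finite :=
  mulSupport_fprod (h.adm_row x).base_eq y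

theorem KAdm.ne_zero {k : ∀ v, D v → D v → R} (h : KAdm k) {x y : RProd D b}
    (hne : kprod k x y ≠ 0) (v : ι) : k v (x v) (y v) ≠ 0 :=
  ne_zero_of_fprod_ne_zero (h.adm_row x).base_eq hne v

/-- **The composition of two product kernels.** -/
theorem kprod_comp {k k' : ∀ v, D v → D v → R} (h : KAdm k) (h' : KAdm k') (x z : RProd D b) :
    dcomp (kprod k) (kprod k') x z = kprod (fun v => dcomp (k v) (k' v)) x z := by
  have hadm : Adm b fun v y => k v (x v) y * k' v y (z v) := by
    constructor
    · intro v
      exact (h.row v (x v)).subset fun y hy h0 => hy (by simp only; rw [h0, zero_mul])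
    · refine ((h.adm_row x).ind.union (h'.adm_col z).ind).subset fun v hv => ?_
      by_contra h0
      simp only [mem_union, mem_ofPred_eq, not_or, not_not] at h0
      refine hv ?_
      funext y
      rw [congrFun h0.1 y, congrFun h0.2 y]
      by_cases hy : y = b v <;> simp [hy]
  calc dcomp (kprod k) (kprod k') x z
      = ∑ᶠ y : RProd D b, fprod (fun v y => k v (x v) y * k' v y (z v)) y :=
        finsum_congr fun y => (fprod_mul (f := fun v y => k v (x v) y)
          (g := fun v y => k' v y (z v)) (h.adm_row x).base_eq (h'.adm_col z).base_eq y).symm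
    _ = ∏ᶠ v, ∑ᶠ y, k v (x v) y * k' v y (z v) := hadm.finsum_fprod

end Kernel

/-! ### Equivalences -/

section Equivs

variable {D' : ι → Type*} {b' : ∀ v, D' v}

/-- the product of the bijections `e v` -/
def mapEquiv (e : ∀ v, D v ≃ D' v) (he : {v | e v (b v) ≠ b' v}.Finite) :
    RProd D b ≃ RProd D' b' where
  toFun := map (fun v => e v) he
  invFun := map (fun v => (e v).symm) (he.subset fun v hv h0 => hv (by
    rw [← h0]
    exact (e v).symm_apply_apply _))
  left_inv x := ext' fun v => (e v).symm_apply_apply _
  right_inv x := ext' fun v => (e v).apply_symm_apply _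

@[simp] theorem mapEquiv_apply (e : ∀ v, D v ≃ D' v) (he : {v | e v (b v) ≠ b' v}.Finite)
    (x : RProd D b) (v : ι) : mapEquiv e he x v = e v (x v) := rfl

@[simp] theorem mapEquiv_symm_apply (e : ∀ v, D v ≃ D' v)
    (he : {v | e v (b v) ≠ b' v}.Finite) (x : RProd D' b') (v : ι) :
    (mapEquiv e he).symm x v = (e v).symm (x v) := rfl

/-- reindexing along a permutation of the index set -/
def permute {κ : Type*} {E : κ → Type*} {c : ∀ w, E w} (σ : ι ≃ κ) (e : ∀ v, D v ≃ E (σ v))
    (he : {v | e v (b v) ≠ c (σ v)}.Finite) : RProd D b ≃ RProd E c where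
  toFun x := ⟨Equiv.piCongr σ e x.val, ((he.union x.fin).image σ).subset fun w hw => by
    refine ⟨σ.symm w, ?_, σ.apply_symm_apply w⟩
    by_contra h
    simp only [mem_union, mem_ofPred_eq, not_or, not_not] at h
    obtain ⟨v, rfl⟩ := σ.surjective w
    rw [σ.symm_apply_apply] at h
    refine hw ?_
    rw [Equiv.piCongr_apply_apply, h.2, h.1]⟩
  invFun y := ⟨(Equiv.piCongr σ e).symm y.val,
    (he.union (y.fin.preimage σ.injective.injOn)).subset fun v hv => by
      by_contra h
      simp only [mem_union, mem_ofPred_eq, not_or, not_not, mem_preimage] at h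
      refine hv ?_
      show (e v).symm (y.val (σ v)) = b v
      rw [h.2, ← h.1]
      exact (e v).symm_apply_apply _⟩
  left_inv x := by
    refine ext' fun v => ?_
    show (Equiv.piCongr σ e).symm (Equiv.piCongr σ e x.val) v = x.val v
    rw [Equiv.symm_apply_apply]
  right_inv y := by
    refine ext' fun v => ?_
    show Equiv.piCongr σ e ((Equiv.piCongr σ e).symm y.val) v = y.val v
    rw [Equiv.apply_symm_apply]

theorem permute_apply {κ : Type*} {E : κ → Type*} {c : ∀ w, E w} (σ : ι ≃ κ)
    (e : ∀ v, D v ≃ E (σ v)) (he : {v | e v (b v) ≠ c (σ v)}.Finite) (x : RProd D b) (v : ι) :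
    permute σ e he x (σ v) = e v (x v) :=
  Equiv.piCongr_apply_apply σ e x.val v

@[simp] theorem permute_symm_apply {κ : Type*} {E : κ → Type*} {c : ∀ w, E w} (σ : ι ≃ κ)
    (e : ∀ v, D v ≃ E (σ v)) (he : {v | e v (b v) ≠ c (σ v)}.Finite) (y : RProd E c) (v : ι) :
    (permute σ e he).symm y v = (e v).symm (y (σ v)) := rfl

end Equivs

/-! ### Grouping the indices -/

section Group

variable {V : Type*} (f : ι → V)

/-- the product of the `D w` over the fibre of `f` at `v` -/
abbrev Fib (D : ι → Type*) (v : V) : Type _ := ∀ w : {w // f w = v}, D w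

/-- The restricted product over `ι` as a restricted product over `V` of the products over the
fibres of `f : ι → V` (all finite). -/
def group [∀ v, Finite {w // f w = v}] :
    RProd D b ≃ RProd (Fib f D) (fun _ w => b w) where
  toFun x := ⟨fun v w => x w, (x.fin.image f).subset fun v hv => by
    by_contra h
    refine hv (funext fun w => ?_)
    by_contra h1
    exact h ⟨w, h1, w.2⟩⟩
  invFun y := ⟨fun w => y (f w) ⟨w, rfl⟩, by
    refine (y.fin.preimage' (f := f) fun v _ => ?_).subset fun w hw => ?_
    · exact Set.finite_coe_iff.mp (inferInstanceAs (Finite {w // f w = v}))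
    · intro h
      exact hw (congrFun h ⟨w, rfl⟩)⟩
  left_inv x := rfl
  right_inv y := by
    refine ext' fun v => funext fun w => ?_
    obtain ⟨w, rfl⟩ := w
    rfl

@[simp] theorem group_apply [∀ v, Finite {w // f w = v}] (x : RProd D b) (v : V)
    (w : {w // f w = v}) : group f x v w = x w := rfl

@[simp] theorem group_symm_apply [∀ v, Finite {w // f w = v}]
    (y : RProd (Fib f D) (fun _ w => b w)) (w : ι) : (group f).symm y w = y (f w) ⟨w, rfl⟩ := rfl

theorem finprod_fiber {M : Type*} [CommMonoid M] {g : ι → M} (hg : (mulSupport g).Finite) :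
    ∏ᶠ w, g w = ∏ᶠ v, ∏ᶠ w : {w // f w = v}, g w := by
  classical
  have h1 : ∀ v, ∏ᶠ w : {w // f w = v}, g w = ∏ w ∈ hg.toFinset with f w = v, g w := by
    intro v
    rw [finprod_subtype_eq_finprod_cond (f := g) (fun w => f w = v)]
    exact finprod_cond_eq_prod_of_cond_iff g (t := hg.toFinset.filter fun w => f w = v)
      fun {w} hw => by simp [hw]
  simp only [h1]
  rw [finprod_eq_prod g hg, finprod_eq_prod_of_mulSupport_subset (s := hg.toFinset.image f)]
  · exact (Finset.prod_fiberwise_of_maps_to (fun w hw => Finset.mem_image_of_mem f hw) g).symm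
  · intro v hv
    by_contra h
    refine hv (Finset.prod_eq_one fun w hw => ?_)
    rw [Finset.mem_filter] at hw
    exact absurd (Finset.mem_coe.mpr (Finset.mem_image.mpr ⟨w, hw.1, hw.2⟩)) h

theorem fprod_group [∀ v, Finite {w // f w = v}] {R : Type*} [CommSemiring R]
    {g : ∀ w, D w → R} (hg : {w | g w (b w) ≠ 1}.Finite) (x : RProd D b) :
    fprod (fun v (y : Fib f D v) => ∏ᶠ w : {w // f w = v}, g w (y w)) (group f x) =
      fprod g x :=
  (finprod_fiber f (mulSupport_fprod hg x)).symm

theorem kprod_group [∀ v, Finite {w // f w = v}] {R : Type*} [CommSemiring R]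
    {k : ∀ w, D w → D w → R} (hk : KAdm k) (x y : RProd D b) :
    kprod (fun v (x y : Fib f D v) => ∏ᶠ w : {w // f w = v}, k w (x w) (y w)) (group f x)
      (group f y) = kprod k x y :=
  (finprod_fiber f (hk.base_eq x y)).symm

variable {G : Type*} [Group G] [∀ v, MulAction G (D v)]

theorem baseFix_group [∀ v, Finite {w // f w = v}] [BaseFix b G] :
    BaseFix (D := Fib f D) (fun _ w => b w) G where
  fin g := ((BaseFix.fin (b := b) g).image f).subset fun v hv => by
    by_contra h
    refine hv (funext fun w => ?_)
    by_contra h1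
    exact h ⟨w, h1, w.2⟩

theorem group_smul [∀ v, Finite {w // f w = v}] [BaseFix b G] (g : G) (x : RProd D b) :
    haveI := baseFix_group (b := b) (G := G) f
    group f (g • x) = g • group f x := rfl

end Group

end RProd

end Fermat.Agent.LT

end
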