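import Fermat.Agent.LT.TauSplit
import Fermat.Agent.LT.Level.Defs
import Fermat.Agent.CFT.SExt

/-!
# The Galois action on `D U`, regrouping over the places of the base field
-/

set_option autoImplicit false

open IsDedekindDomain NumberField Matrix
open scoped WithZero Topology Pointwise

namespace Fermat.Agent.LT.Ext

open Fermat.Agent.LT.Lvl

section Isometry

variable {E E' : Type*} [Field E] [Field E'] {Γ Γ' : Type*} [LinearOrderedCommGroupWithZero Γ]
  [LinearOrderedCommGroupWithZero Γ'] {w : Valuation E Γ} {w' : Valuation E' Γ'}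

theorem mem_GLO_map_iff (f : E →+* E') (hf : ∀ x, w' (f x) ≤ 1 ↔ w x ≤ 1)
    (g : GL (Fin 2) E) : GeneralLinearGroup.map f g ∈ GLO w' ↔ g ∈ GLO w := by
  rw [mem_GLO_iff, mem_GLO_iff, ← map_inv]
  exact and_congr (forall₂_congr fun i j => hf (g i j)) (forall₂_congr fun i j => hf (g⁻¹ i j))

end Isometry

section Stable

variable {L : Type*} [Field L] [NumberField L] {G : Type*} [Group G] [MulSemiringAction G L]

theorem mem_GLO_glExt_iff {g : G} {w w' : HeightOneSpectrum (𝓞 L)} (h : g • w = w')
    (x : GL (Fin 2) (w.adicCompletion L)) :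
    glExt h x ∈ GLO (Valued.v : Valuation (w'.adicCompletion L) ℤᵐ⁰) ↔
      x ∈ GLO (Valued.v : Valuation (w.adicCompletion L) ℤᵐ⁰) :=
  mem_GLO_map_iff _ (fun y => (compat_of_smul_eq (L := L) h).valued_ext_le_one_iff y) x

/-- `GL₂(O_w)` is stable. -/
theorem gstable_GLO : GStable G fun w : HeightOneSpectrum (𝓞 L) =>
    GLO (Valued.v : Valuation (w.adicCompletion L) ℤᵐ⁰) :=
  fun _ _ _ h x hx => (mem_GLO_glExt_iff h x).mpr hx

variable {K : Type*} [Field K] [NumberField K] [Algebra K L]

theorem mem_GLO_glBase_iff (v : HeightOneSpectrum (𝓞 K)) (w : HeightOneSpectrum (𝓞 L))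
    [w.asIdeal.LiesOver v.asIdeal] (x : GL (Fin 2) (v.adicCompletion K)) :
    glBase v w x ∈ GLO (Valued.v : Valuation (w.adicCompletion L) ℤᵐ⁰) ↔
      x ∈ GLO (Valued.v : Valuation (v.adicCompletion K) ℤᵐ⁰) :=
  mem_GLO_map_iff _
    (fun y => (compat_liesOver (K := K) (L := L) v w).valued_ext_le_one_iff y) x

/-- The level at the places over `v` comes from the level at `v` if both are maximal. -/
theorem baseLevel_GLO (v : HeightOneSpectrum (𝓞 K)) :
    BaseLevel (GLO (Valued.v : Valuation (v.adicCompletion K) ℤᵐ⁰))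
      (fun w : HeightOneSpectrum (𝓞 L) => GLO (Valued.v : Valuation (w.adicCompletion L) ℤᵐ⁰)) :=
  fun w => by
    ext x
    exact mem_GLO_glBase_iff v w.1 x

end Stable

section TauD

variable {L : Type*} [Field L] [NumberField L] {G : Type*} [Group G] [MulSemiringAction G L]
  {U : Lev L}

/-- The action of `g ∈ G` on `D U`: `(g d)_(g w) = g (d_w)`. -/
noncomputable def tauD (hU : GStable G U.U) (g : G) (d : D U) : D U :=
  ⟨dAct hU g d.val, dAct_eventually hU g d.fin⟩

theorem tauD_val (hU : GStable G U.U) (g : G) (d : D U) : (tauD hU g d).val = dAct hU g d.val :=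
  rfl

theorem tauD_apply (hU : GStable G U.U) (g : G) (d : D U) {w w' : HeightOneSpectrum (𝓞 L)}
    (h : g • w = w') : tauD hU g d w' = dvMap hU h (d w) :=
  dAct_apply_smul hU g d.val h

theorem tauD_one (hU : GStable G U.U) (d : D U) : tauD hU (1 : G) d = d :=
  RProd.ext' fun w => congrFun (dAct_one hU d.val) w

theorem tauD_mul (hU : GStable G U.U) (g h : G) (d : D U) :
    tauD hU (g * h) d = tauD hU g (tauD hU h d) :=
  RProd.ext' fun w => congrFun (dAct_mul hU g h d.val) w

/-- `g (γ • d) = g(γ) • (g d)` -/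
theorem tauD_smul (hU : GStable G U.U) (g : G) (γ : GL (Fin 2) L) (d : D U) :
    tauD hU g (γ • d) =
      GeneralLinearGroup.map (MulSemiringAction.toRingHom G L g) γ • tauD hU g d :=
  RProd.ext' fun w => congrFun (dAct_glAct hU g γ d.val) w

theorem tauD_base (hU : GStable G U.U) (g : G) :
    tauD hU g (RProd.base : D U) = RProd.base :=
  RProd.ext' fun w => by
    rw [tauD_apply hU g _ (smul_inv_smul g w)]
    exact dvMap_one hU (smul_inv_smul g w)

/-- `G` acts on `D U`. -/
@[reducible] noncomputable def actD (hU : GStable G U.U) : MulAction G (D U) where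
  smul := tauD hU
  one_smul := tauD_one hU
  mul_smul := tauD_mul hU

/-- The bijection of `D U` defined by `g`. -/
noncomputable def tauDEquiv (hU : GStable G U.U) (g : G) : D U ≃ D U where
  toFun := tauD hU g
  invFun := tauD hU g⁻¹
  left_inv d := by rw [← tauD_mul, inv_mul_cancel, tauD_one]
  right_inv d := by rw [← tauD_mul, mul_inv_cancel, tauD_one]

@[simp] theorem tauDEquiv_apply (hU : GStable G U.U) (g : G) (d : D U) :
    tauDEquiv hU g d = tauD hU g d := rfl

@[simp] theorem tauDEquiv_symm_apply (hU : GStable G U.U) (g : G) (d : D U) :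
    (tauDEquiv hU g).symm d = tauD hU g⁻¹ d := rfl

end TauD

section Regroup

open Fermat.Agent.CFT.SUnits

variable {K L : Type*} [Field K] [Field L] [NumberField K] [NumberField L] [Algebra K L]
  (U : Lev L)

/-- The part of `D U` over the place `v` of `K`. -/
abbrev DA (v : HeightOneSpectrum (𝓞 K)) : Type _ := ∀ w : Above L v, Lvl.Dv U w.1

/-- its base point -/
noncomputable abbrev baseA (v : HeightOneSpectrum (𝓞 K)) : DA U v := fun w => base U w.1

instance baseFixA : RProd.BaseFix (baseA U : ∀ v : HeightOneSpectrum (𝓞 K), DA U v)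
    (GL (Fin 2) L) where
  fin g := by
    refine (((RProd.BaseFix.fin (b := base U) g).image fun w => under K w)).subset fun v hv => ?_
    by_contra h
    refine hv (funext fun w => ?_)
    by_contra h'
    exact h ⟨w.1, h', (under_eq_iff K w.1 v).mpr w.2⟩

variable (K)

/-- `D U` as a restricted product over the places of `K`. -/
noncomputable def regroup : D U ≃ RProd (fun v : HeightOneSpectrum (𝓞 K) => DA U v)
    (fun v => baseA U v) where
  toFun d := ⟨fun v w => d w.1, ((d.fin.image fun w => under K w)).subset fun v hv => by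
    by_contra h
    refine hv (funext fun w => ?_)
    by_contra h'
    exact h ⟨w.1, h', (under_eq_iff K w.1 v).mpr w.2⟩⟩
  invFun x := ⟨fun w => x (under K w) ⟨w, liesOver_under K w⟩, by
    have h : (⋃ v ∈ {v | x.val v ≠ baseA U v}, Set.range fun w : Above L v => w.1).Finite :=
      x.fin.biUnion fun v _ => Set.finite_range _
    refine h.subset fun w hw => ?_
    simp only [Set.mem_iUnion, Set.mem_range]
    refine ⟨under K w, fun h' => hw ?_, ⟨w, liesOver_under K w⟩, rfl⟩
    exact congrFun h' ⟨w, liesOver_under K w⟩⟩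
  left_inv d := RProd.ext' fun w => rfl
  right_inv x := RProd.ext' fun v => funext fun w => by
    obtain ⟨w, hw⟩ := w
    obtain rfl : under K w = v := (under_eq_iff K w v).mpr hw
    rfl

variable {K U}

@[simp] theorem regroup_apply (d : D U) (v : HeightOneSpectrum (𝓞 K)) (w : Above L v) :
    regroup K U d v w = d w.1 := rfl

theorem regroup_base : regroup K U (RProd.base : D U) = RProd.base := rfl

theorem regroup_smul (γ : GL (Fin 2) L) (d : D U) :
    regroup K U (γ • d) = γ • regroup K U d := rfl

theorem regroup_tauD {G : Type*} [Group G] [Finite G] [MulSemiringAction G L]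
    [IsGaloisGroup G K L] (hU : GStable G U.U) (g : G) (d : D U) (v : HeightOneSpectrum (𝓞 K)) :
    regroup K U (tauD hU g d) v = vAct hU g (regroup K U d v) := rfl

end Regroup

end Fermat.Agent.LT.Ext
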