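import Fermat.Agent.LT.H3.Measure
import Fermat.Agent.LT.H3.Abel
import Fermat.Agent.LT.BesselK

/-!
# The classical form over `K = ℚ(√-3)`: interface between step (B) and steps (C), (D)

`KForm σ s N` is a cusp form on hyperbolic 3-space, invariant under
`Γ₀(N) ≤ GL₂(𝓞 K)` (all units allowed), an eigenfunction of all radial kernels with the
eigenvalue at `ν = 0`, with the Fourier expansion

  `F (z, y) = ∑_{b ≠ 0} lam b * y * K₀ (4 π |b| y / √3) * e (Tr (b z / √-3))`,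

where `lam` is supported on the elements prime to `N`, is invariant under units and satisfies the
Hecke relations at all primes not dividing `N`.
-/

set_option autoImplicit false

open NumberField MeasureTheory

namespace Fermat.Agent.LT

/-- `K₀`, as a real function. -/
noncomputable def bK0 (y : ℝ) : ℝ := bkR 0 y / 2

variable {K : Type} [Field K] [NumberField K]

/-- Matrices over `𝓞 K` as complex matrices, through the embedding `σ`. -/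
noncomputable def toGLC (σ : K →+* ℂ) : GL (Fin 2) (𝓞 K) →* GL (Fin 2) ℂ :=
  Matrix.GeneralLinearGroup.map (σ.comp (algebraMap (𝓞 K) K))

/-- `e (Tr (b z / s))`, the trace being that of `ℂ / ℝ`. -/
noncomputable def eTr (σ : K →+* ℂ) (s b : 𝓞 K) (z : ℂ) : ℂ :=
  Complex.exp (2 * Real.pi * Complex.I * ((2 * ((σ b * z / σ s).re) : ℝ) : ℂ))

structure KForm (σ : K →+* ℂ) (s : 𝓞 K) (N : ℕ) where
  /-- the form -/
  F : H3 → ℂ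
  /-- the (normalised) Fourier coefficients -/
  lam : 𝓞 K → ℝ
  s_sq : s ^ 2 = -3
  three_dvd : 3 ∣ N
  N_ne : N ≠ 0
  cont : Continuous F
  bdd : ∃ B : ℝ, ∀ P, ‖F P‖ ≤ B
  inv : ∀ g : GL (Fin 2) (𝓞 K), (N : 𝓞 K) ∣ g 1 0 → ∀ P, F (toGLC σ g • P) = F P
  decay : ∀ g : GL (Fin 2) (𝓞 K), ∃ C c : ℝ, 0 < c ∧
    ∀ P : H3, 1 / 2 ≤ P.y → ‖F (toGLC σ g • P)‖ ≤ C * Real.exp (-(c * P.y))
  /-- eigenfunction of all radial kernels, `ν = 0` -/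
  eig : ∀ k : ℝ → ℂ, Continuous k → (∃ R : ℝ, ∀ t, R < t → k t = 0) → ∀ P : H3,
    (∫ Q : H3, k (H3.cu P Q) * F Q) = (∫ t : ℝ, H3.abel k t) * F P
  /-- the constant term vanishes at every cusp (`N 𝓞 K ⊇ N ℤ + N s ℤ` is a period lattice) -/
  cusp : ∀ (g : GL (Fin 2) (𝓞 K)) (y : ℝ) (hy : 0 < y),
    (∫ x in (0 : ℝ)..1, ∫ x' in (0 : ℝ)..1,
      F (toGLC σ g • H3.mk ((N : ℂ) * ((x : ℂ) + (x' : ℂ) * σ s)) y hy)) = 0
  four : ∀ P : H3, HasSum (fun b : 𝓞 K => ((lam b * (P.y * bK0 (4 * Real.pi * ‖σ b‖ * P.y / √3)) :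
    ℝ) : ℂ) * eTr σ s b P.z) (F P)
  lam_one : lam 1 = 1
  lam_unit : ∀ (u : (𝓞 K)ˣ) (b : 𝓞 K), lam (u * b) = lam b
  lam_bad : ∀ b : 𝓞 K, ¬ IsCoprime b (N : 𝓞 K) → lam b = 0
  lam_hecke₁ : ∀ ϖ : 𝓞 K, Prime ϖ → ¬ ϖ ∣ (N : 𝓞 K) → ∀ b, ¬ ϖ ∣ b →
    lam (ϖ * b) = lam ϖ * lam b
  lam_hecke₂ : ∀ ϖ : 𝓞 K, Prime ϖ → ¬ ϖ ∣ (N : 𝓞 K) → ∀ b,
    lam (ϖ * (ϖ * b)) + lam b = lam ϖ * lam (ϖ * b)
  heckeT : ∀ (ϖ : 𝓞 K) (_ : Prime ϖ), ¬ ϖ ∣ (N : 𝓞 K) → ∀ (hσ : σ ϖ ≠ 0) (P : H3),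
    F (H3.ut (σ ϖ) 0 1 hσ one_ne_zero • P) +
      ∑ᶠ j : 𝓞 K ⧸ Ideal.span {ϖ}, F (H3.ut 1 (σ (Quotient.out j : 𝓞 K)) (σ ϖ) one_ne_zero hσ • P)
        = ((‖σ ϖ‖ * lam ϖ : ℝ) : ℂ) * F P

end Fermat.Agent.LT
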