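import Fermat.Agent.LT.Space
import Fermat.Agent.LT.Red.Emb

/-!
# Unipotent elements, the lattices `𝔞_d`, cuspidal functions
-/

namespace Fermat.Agent.LT

open Matrix NumberField MeasureTheory H3
open scoped Pointwise

section Unip

variable {F : Type*} [Field F]

/-- The upper unipotent matrix `(1 b; 0 1)`. -/
noncomputable def nb (b : F) : GL (Fin 2) F :=
  GeneralLinearGroup.mkOfDetNeZero !![1, b; 0, 1] (by simp)

@[simp] theorem coe_nb (b : F) : (nb b : Matrix (Fin 2) (Fin 2) F) = !![1, b; 0, 1] := rfl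

theorem nb_zero : nb (0 : F) = 1 := by
  apply Units.ext
  rw [coe_nb, Units.val_one, Matrix.one_fin_two]

theorem nb_add (a b : F) : nb (a + b) = nb a * nb b := by
  apply Units.ext
  rw [Units.val_mul, coe_nb, coe_nb, coe_nb, Matrix.mul_fin_two]
  simp [add_comm]

theorem nb_neg (b : F) : nb (-b) = (nb b)⁻¹ := by
  rw [eq_inv_iff_mul_eq_one, ← nb_add, neg_add_cancel, nb_zero]

/-- The point of `X_∞` with coordinates `(z, y)` (junk if some `y w ≤ 0`). -/
noncomputable def pt (z : InfinitePlace F → ℂ) (y : InfinitePlace F → ℝ) : Xi F :=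
  fun w => ofPair (z w, y w)

theorem pt_z {z : InfinitePlace F → ℂ} {y : InfinitePlace F → ℝ} (hy : ∀ w, 0 < y w)
    (w : InfinitePlace F) : (pt z y w).z = z w := by
  rw [pt, ofPair_of_pos (hy w)]; rfl

theorem pt_y {z : InfinitePlace F → ℂ} {y : InfinitePlace F → ℝ} (hy : ∀ w, 0 < y w)
    (w : InfinitePlace F) : (pt z y w).y = y w := by
  rw [pt, ofPair_of_pos (hy w)]; rfl

theorem pt_zy (x : Xi F) : pt (fun w => (x w).z) (fun w => (x w).y) = x := by
  funext w
  exact ofPair_coe (x w)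

theorem map_nb (b : F) (w : InfinitePlace F) :
    GeneralLinearGroup.map (n := Fin 2) w.embedding (nb b) = nb (w.embedding b) := by
  apply Units.ext
  ext i j
  fin_cases i <;> fin_cases j <;> simp [GeneralLinearGroup.map]

theorem nb_smul_z (b : ℂ) (P : H3) : (nb b • P).z = P.z + b := by
  rw [z_smul_of_upper (by simp) P]
  simp

theorem nb_smul_y (b : ℂ) (P : H3) : (nb b • P).y = P.y := by
  rw [y_smul_of_upper (by simp) P]
  simp

theorem nb_smul_apply_z (b : F) (x : Xi F) (w : InfinitePlace F) :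
    ((nb b • x) w).z = (x w).z + w.embedding b := by
  rw [Xi.smul_apply, map_nb, nb_smul_z]

theorem nb_smul_apply_y (b : F) (x : Xi F) (w : InfinitePlace F) :
    ((nb b • x) w).y = (x w).y := by
  rw [Xi.smul_apply, map_nb, nb_smul_y]

theorem nb_smul_pt (b : F) {z : InfinitePlace F → ℂ} {y : InfinitePlace F → ℝ}
    (hy : ∀ w, 0 < y w) : nb b • pt z y = pt (z + emb F b) y := by
  funext w
  apply H3.ext
  · rw [nb_smul_apply_z, pt_z hy, pt_z hy]; rfl
  · rw [nb_smul_apply_y, pt_y hy, pt_y hy]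

/-- The lattice `𝔞_d` of all `b` such that `n(b)` fixes `d`. -/
def aLat (F : Type*) [Field F] {D : Type*} [MulAction (GL (Fin 2) F) D] (d : D) :
    AddSubgroup F where
  carrier := {b | nb b • d = d}
  zero_mem' := by rw [Set.mem_ofPred_eq, nb_zero, one_smul]
  add_mem' {a b} ha hb := by
    rw [Set.mem_ofPred_eq] at *
    rw [nb_add, mul_smul, hb, ha]
  neg_mem' {a} ha := by
    rw [Set.mem_ofPred_eq] at *
    rw [nb_neg, inv_smul_eq_iff, ha]

theorem mem_aLat {D : Type*} [MulAction (GL (Fin 2) F) D] {d : D} {b : F} :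
    b ∈ aLat F d ↔ nb b • d = d := Iff.rfl

end Unip

section Level

variable (F : Type*) [Field F] {D : Type*} [MulAction (GL (Fin 2) F) D]

/-- `m` is a modulus for `d`: the principal congruence subgroup of level `m` fixes `d`. -/
def IsMod (m : ℕ) (d : D) : Prop := m ≠ 0 ∧ ∀ g : GL (Fin 2) F, IsCong F m g → g • d = d

variable {F}

theorem IsCong.of_dvd {m n : ℕ} (h : m ∣ n) (hn : n ≠ 0) {g : GL (Fin 2) F} [CharZero F]
    (hg : IsCong F n g) : IsCong F m g := by
  obtain ⟨k, rfl⟩ := h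
  refine ⟨fun i j => ?_, hg.2⟩
  have hm : (m : F) ≠ 0 := by
    exact_mod_cast (left_ne_zero_of_mul hn)
  have hk : (k : F) ≠ 0 := by
    exact_mod_cast (right_ne_zero_of_mul hn)
  have hk' : IsIntegral ℤ (k : F) := isIntegral_natCast k
  have h1 := hk'.mul (hg.1 i j)
  have h2 : (g i j - (1 : Matrix (Fin 2) (Fin 2) F) i j) / (m : F)
      = k * ((g i j - (1 : Matrix (Fin 2) (Fin 2) F) i j) / ((m * k : ℕ) : F)) := by
    push_cast
    field_simp
  rw [h2]
  exact h1

theorem IsMod.of_dvd [CharZero F] {m n : ℕ} {d : D} (h : IsMod F m d) (hn : n ≠ 0) (hmn : m ∣ n) :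
    IsMod F n d :=
  ⟨hn, fun g hg => h.2 g (hg.of_dvd hmn hn)⟩

theorem isCong_nb (m : ℕ) [CharZero F] (hm : m ≠ 0) {a : F} (ha : IsIntegral ℤ a) :
    IsCong F m (nb (m * a)) := by
  have hm' : (m : F) ≠ 0 := by exact_mod_cast hm
  constructor
  · intro i j
    fin_cases i <;> fin_cases j <;> simp [isIntegral_zero]
    rwa [mul_div_cancel_left₀ _ hm']
  · simpa using isIntegral_one

theorem IsMod.nb_smul [CharZero F] {m : ℕ} {d : D} (h : IsMod F m d) {a : F}
    (ha : IsIntegral ℤ a) : nb (m * a) • d = d :=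
  h.2 _ (isCong_nb m h.1 ha)

variable [NumberField F] [IsLevel F D]

variable (F) in
theorem exists_isMod (d : D) : ∃ m : ℕ, IsMod F m d := by
  obtain ⟨m, hm, h⟩ := IsLevel.open_stab (F := F) d
  exact ⟨m, hm, h⟩

variable (F) in
/-- A common modulus for a finite set. -/
theorem exists_isMod_finset (T : Finset D) : ∃ m : ℕ, m ≠ 0 ∧ ∀ d ∈ T, IsMod F m d := by
  classical
  induction T using Finset.induction_on with
  | empty => exact ⟨1, one_ne_zero, by simp⟩
  | insert d T _ ih =>
    obtain ⟨m, hm, h⟩ := ih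
    obtain ⟨n, hn⟩ := exists_isMod F d
    refine ⟨m * n, mul_ne_zero hm hn.1, fun d' hd' => ?_⟩
    rcases Finset.mem_insert.1 hd' with rfl | hd'
    · exact hn.of_dvd (mul_ne_zero hm hn.1) (dvd_mul_left _ _)
    · exact (h d' hd').of_dvd (mul_ne_zero hm hn.1) (dvd_mul_right _ _)

end Level

section Cusp

variable (F : Type*) [Field F] [NumberField F] [IsTotallyComplex F]

/-- A fundamental domain for the lattice `m 𝓞 F` in `ℂⁿ`. -/
noncomputable def fdom (m : ℕ) : Set (InfinitePlace F → ℂ) :=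
  (m : ℝ) • ZSpan.fundamentalDomain (embBasis F)

variable {F} {D : Type*} [MulAction (GL (Fin 2) F) D]

/-- **Cuspidal functions**: the constant term along `N` vanishes, for every `d ∈ D` and almost
every `y`. -/
def IsCusp (f : Xi F × D → ℂ) : Prop :=
  ∀ (d : D) (m : ℕ), m ≠ 0 → (∀ a : 𝓞 F, nb ((m : F) * a) • d = d) →
    ∀ᵐ y : InfinitePlace F → ℝ, (∀ w, 0 < y w) → ∫ z in fdom F m, f (pt z y, d) = 0

end Cusp

end Fermat.Agent.LT
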