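import Mathlib
import Fermat.Agent.CFT.Global.LocalIndex
import Fermat.Agent.LT.SUnitBound

/-!
# Algebra of the ring `O_S` (helper18): fraction field, principal ideal domain
-/

set_option autoImplicit false

open NumberField IsDedekindDomain HeightOneSpectrum WithZero
open scoped WithZero nonZeroDivisors

noncomputable section

namespace Fermat.Agent.LT.Loc

open CFT.SUnits

variable {F : Type*} [Field F] [NumberField F] (S : Finset (HeightOneSpectrum (𝓞 F)))

/-- an element of `F` becomes an algebraic integer after multiplication by a power of `u`,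
if it is in `O_S`. -/
theorem exists_pow_mul_mem_int {u : 𝓞 F} (hu1 : ∀ v ∉ S, v.valuation F (u : F) = 1)
    (hu2 : ∀ v ∈ S, v.valuation F (u : F) < 1) {x : F} (hx : x ∈ OS S) :
    ∃ (n : ℕ) (a : 𝓞 F), (a : F) = (u : F) ^ n * x := by
  obtain ⟨n, hn⟩ := exists_pow_mul_le S u hu2 (fun v => ι v.1 x) one_ne_zero
  have h1 : ∀ v : HeightOneSpectrum (𝓞 F), v.valuation F ((u : F) ^ n * x) ≤ 1 := by
    intro v
    by_cases hv : v ∈ S
    · have := hn ⟨v, hv⟩
      rwa [← map_pow, ← map_mul, v_ι] at this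
    · rw [map_mul, map_pow, hu1 v hv, one_pow, one_mul]
      exact hx v hv
  obtain ⟨a, ha⟩ := HeightOneSpectrum.mem_integers_of_valuation_le_one F _ h1
  exact ⟨n, a, ha⟩

instance isFractionRing_OS : IsFractionRing (OS S) F := by
  have : FaithfulSMul (OS S) F := inferInstance
  refine IsFractionRing.of_field (OS S) F fun z => ?_
  obtain ⟨a, b, -, h⟩ := IsFractionRing.div_surjective (A := 𝓞 F) z
  exact ⟨algebraMap (𝓞 F) (OS S) a, algebraMap (𝓞 F) (OS S) b, h.symm⟩

/-- if `S` generates the class group then `O_S` is a principal ideal domain. -/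
theorem isPrincipalIdealRing_OS (hS : CFT.Global.ClTrivial S) :
    IsPrincipalIdealRing (OS S) := by
  classical
  obtain ⟨u, hu0, hu1, hu2⟩ := exists_sunit S
  have hu0' : (u : F) ≠ 0 := by simpa using hu0
  have huS : (u : F)⁻¹ ∈ OS S := by
    intro v hv
    rw [map_inv₀, hu1 v hv, inv_one]
  let u' : (OS S)ˣ :=
    ⟨⟨(u : F), fun v hv => (hu1 v hv).le⟩, ⟨(u : F)⁻¹, huS⟩,
      Subtype.ext (mul_inv_cancel₀ hu0'), Subtype.ext (inv_mul_cancel₀ hu0')⟩
  refine IsPrincipalIdealRing.of_prime fun P hP => ?_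
  by_cases hbot : P = ⊥
  · rw [hbot]
    exact inferInstance
  -- an element of `P` times a power of `u` is integral
  have hmem : ∀ (n : ℕ) (y : OS S) (a : 𝓞 F), (a : F) = (u : F) ^ n * (y : F) →
      (y ∈ P ↔ algebraMap (𝓞 F) (OS S) a ∈ P) := by
    intro n y a h
    have h1 : algebraMap (𝓞 F) (OS S) a = (u' : OS S) ^ n * y := Subtype.ext h
    rw [h1]
    constructor
    · exact fun hy => P.mul_mem_left _ hy
    · intro hy
      have h2 : y = (u'⁻¹ : (OS S)ˣ) ^ n * ((u' : OS S) ^ n * y) := by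
        rw [← mul_assoc, ← mul_pow, Units.inv_mul, one_pow, one_mul]
      rw [h2]
      exact P.mul_mem_left _ hy
  set Q : Ideal (𝓞 F) := P.comap (algebraMap (𝓞 F) (OS S)) with hQ
  have hQbot : Q ≠ ⊥ := by
    intro hQ0
    apply hbot
    rw [eq_bot_iff]
    intro y hy
    obtain ⟨n, a, ha⟩ := exists_pow_mul_mem_int S hu1 hu2 y.2
    have h1 : a ∈ Q := (hmem n y a ha).mp hy
    rw [hQ0, Ideal.mem_bot] at h1
    rw [h1] at ha
    rw [Ideal.mem_bot]
    have h2 : (u : F) ^ n * (y : F) = 0 := by rw [← ha]; simp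
    rcases mul_eq_zero.mp h2 with h3 | h3
    · exact absurd h3 (pow_ne_zero _ hu0')
    · exact Subtype.ext h3
  let v : HeightOneSpectrum (𝓞 F) := ⟨Q, Ideal.comap_isPrime _ _, hQbot⟩
  have hvQ : v.asIdeal = Q := rfl
  have hvS : v ∉ S := by
    intro hv
    have h1 : u ∈ v.asIdeal := by
      rw [← valuation_lt_one_iff_mem (K := F)]
      exact hu2 v hv
    rw [hvQ, hQ, Ideal.mem_comap] at h1
    exact hP.ne_top (Ideal.eq_top_of_isUnit_mem P h1 u'.isUnit)
  obtain ⟨x, hx⟩ := hS (Finsupp.single v 1)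
  have hxv : v.valuation F (x : F) = exp (-1 : ℤ) := by
    rw [valuation_eq_exp_neg_ord, hx v hvS, Finsupp.single_eq_same]
  have hxw : ∀ w ∉ S, w ≠ v → w.valuation F (x : F) = 1 := by
    intro w hw hwv
    rw [← ord_eq_zero_iff, hx w hw, Finsupp.single_apply, if_neg (Ne.symm hwv)]
  have hxS : (x : F) ∈ OS S := by
    intro w hw
    by_cases hwv : w = v
    · rw [hwv, hxv, ← exp_zero, exp_le_exp]
      omega
    · exact (hxw w hw hwv).le
  refine ⟨⟨⟨(x : F), hxS⟩, ?_⟩⟩
  rw [Ideal.submodule_span_eq]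
  refine le_antisymm (fun y hy => ?_) ?_
  · obtain ⟨n, a, ha⟩ := exists_pow_mul_mem_int S hu1 hu2 y.2
    have h0 : a ∈ v.asIdeal := (hmem n y a ha).mp hy
    have h1 : v.valuation F (algebraMap (𝓞 F) F a) < 1 :=
      (valuation_lt_one_iff_mem v a).mpr h0
    rw [show algebraMap (𝓞 F) F a = (u : F) ^ n * y from ha, map_mul, map_pow, hu1 v hvS, one_pow,
      one_mul] at h1
    rw [Ideal.mem_span_singleton']
    refine ⟨⟨(y : F) / (x : F), fun w hw => ?_⟩, Subtype.ext (div_mul_cancel₀ _ x.ne_zero)⟩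
    rw [map_div₀]
    by_cases hwv : w = v
    · rw [hwv, hxv]
      by_cases h0 : v.valuation F (y : F) = 0
      · rw [h0, zero_div]
        exact zero_le
      · rw [← exp_log h0] at h1 ⊢
        rw [← exp_zero, exp_lt_exp] at h1
        rw [← exp_sub, ← exp_zero, exp_le_exp]
        omega
    · rw [hxw w hw hwv, _root_.div_one]
      exact y.2 w hw
  · rw [Ideal.span_singleton_le_iff_mem]
    obtain ⟨n, a, ha⟩ := exists_pow_mul_mem_int S hu1 hu2 hxS
    refine (hmem n ⟨(x : F), hxS⟩ a ha).mpr ?_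
    change a ∈ Q
    have h1 : v.valuation F (algebraMap (𝓞 F) F a) < 1 := by
      rw [show algebraMap (𝓞 F) F a = (u : F) ^ n * x from ha, map_mul, map_pow, hu1 v hvS,
        one_pow, one_mul, hxv, ← exp_zero, exp_lt_exp]
      omega
    exact (valuation_lt_one_iff_mem v a).mp h1

/-- any finite set of places can be enlarged such that `O_S` is a principal ideal domain. -/
theorem exists_isPrincipalIdealRing_OS (S₀ : Finset (HeightOneSpectrum (𝓞 F))) :
    ∃ S : Finset (HeightOneSpectrum (𝓞 F)), S₀ ⊆ S ∧ CFT.Global.ClTrivial S ∧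
      ∀ T : Finset (HeightOneSpectrum (𝓞 F)), S ⊆ T → IsPrincipalIdealRing (OS T) := by
  obtain ⟨S, h1, -, h3, -⟩ := CFT.Global.exists_good (K := F) 1 one_ne_zero S₀ ∅
  exact ⟨S, h1, h3, fun T hT => isPrincipalIdealRing_OS T (h3.mono hT)⟩

end Fermat.Agent.LT.Loc
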