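import Mathlib
import Fermat.Agent.LT.SRing

/-!
# The locally compact ring `A = F_∞ × ∏_{v ∈ S} F_v` for a totally complex number field (helper18)
-/

set_option autoImplicit false

open NumberField IsDedekindDomain HeightOneSpectrum WithZero
open scoped WithZero Topology Valued

noncomputable section

namespace Fermat.Agent.LT.Loc

variable {F : Type*} [Field F] [NumberField F] (S : Finset (HeightOneSpectrum (𝓞 F)))

variable (F) in
/-- `F_∞` for a totally complex field: one copy of `ℂ` for each infinite place. -/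
abbrev Rinf := InfinitePlace F → ℂ

/-- `∏_{v ∈ S} F_v`. -/
abbrev Rf := ∀ v : S, v.1.adicCompletion F

/-- `F_∞ × ∏_{v ∈ S} F_v`. -/
abbrev AS := Rinf F × Rf S

instance algebraInf : Algebra F (Rinf F) := (RingHom.pi fun w : InfinitePlace F => w.embedding).toAlgebra

theorem algebraMap_inf (x : F) (w : InfinitePlace F) : algebraMap F (Rinf F) x w = w.embedding x :=
  rfl

theorem algebraMap_f (x : F) (v : S) : algebraMap F (Rf S) x v = ι v.1 x := rfl

theorem algebraMap_AS_fst (x : F) : (algebraMap F (AS S) x).1 = algebraMap F (Rinf F) x := rfl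

theorem algebraMap_AS_snd (x : F) : (algebraMap F (AS S) x).2 = algebraMap F (Rf S) x := rfl

theorem algebraMap_OS_AS (x : OS S) : algebraMap (OS S) (AS S) x = algebraMap F (AS S) x := rfl

example : IsTopologicalRing (AS S) := inferInstance
example : T2Space (AS S) := inferInstance
example : LocallyCompactSpace (AS S) := inferInstance
example : SecondCountableTopology (AS S) := inferInstance

/-- balls are compact. -/
theorem isCompact_ball (v : HeightOneSpectrum (𝓞 F)) (γ : ℤᵐ⁰) :
    IsCompact {x : v.adicCompletion F | Valued.v x ≤ γ} := by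
  by_cases hγ : γ = 0
  · rw [hγ]
    have : {x : v.adicCompletion F | Valued.v x ≤ 0} = {0} := by
      ext x
      simp
    rw [this]
    exact isCompact_singleton
  obtain ⟨n, hn⟩ : ∃ n : ℤ, γ = exp n := ⟨_, (exp_log hγ).symm⟩
  obtain ⟨π, hπ⟩ := v.valuation_exists_uniformizer F
  have hπ0 : ι v π ≠ 0 := by
    intro h
    have := v_ι v π
    rw [h, map_zero, hπ] at this
    exact exp_ne_zero this.symm
  have h1 : IsCompact (v.adicCompletionIntegers F : Set (v.adicCompletion F)) :=
    isCompact_iff_compactSpace.mpr (compactSpace_integers v)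
  have h2 : Valued.v (ι v π ^ (-n)) = γ := by
    rw [map_zpow₀, v_ι, hπ, hn, ← exp_zsmul]
    simp
  have h3 : {x : v.adicCompletion F | Valued.v x ≤ γ} =
      (fun x => ι v π ^ (-n) * x) '' (v.adicCompletionIntegers F : Set (v.adicCompletion F)) := by
    ext x
    simp only [Set.mem_ofPred_eq, Set.mem_image, SetLike.mem_coe, mem_adicCompletionIntegers]
    constructor
    · intro hx
      refine ⟨(ι v π ^ (-n))⁻¹ * x, ?_, mul_inv_cancel_left₀ (zpow_ne_zero _ hπ0) x⟩
      rw [map_mul, map_inv₀, h2]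
      exact (mul_le_mul' le_rfl hx).trans (inv_mul_cancel₀ hγ).le
    · rintro ⟨y, hy, rfl⟩
      rw [map_mul, h2]
      exact (mul_le_mul' le_rfl hy).trans (mul_one γ).le
  rw [h3]
  exact h1.image (continuous_const.mul continuous_id)

theorem isOpen_ball (v : HeightOneSpectrum (𝓞 F)) (x : v.adicCompletion F) {γ : ℤᵐ⁰}
    (hγ : γ ≠ 0) : IsOpen {y : v.adicCompletion F | Valued.v (y - x) < γ} := by
  rw [isOpen_iff_mem_nhds]
  intro y hy
  rw [mem_nhds_iff]
  obtain ⟨n, hn⟩ := exp_neg_lt_of_pos hγ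
  refine ⟨n, fun z hz => ?_⟩
  simp only [Set.mem_ofPred_eq] at hy hz ⊢
  rw [show z - x = (z - y) + (y - x) by ring]
  exact lt_of_le_of_lt (Valued.v.map_add _ _) (max_lt (hz.trans hn) hy)

/-- a compact set which meets every class modulo `O_S`. -/
theorem exists_compact_cover [IsTotallyComplex F] : ∃ K : Set (AS S), IsCompact K ∧
    ∀ x : AS S, ∃ a : OS S, x - algebraMap (OS S) (AS S) a ∈ K := by
  obtain ⟨C, hC0, hC⟩ := exists_OS_near S (one_ne_zero (α := ℤᵐ⁰))
  refine ⟨(Set.univ.pi fun _ => Metric.closedBall (0 : ℂ) C) ×ˢ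
    (Set.univ.pi fun v : S => {x : v.1.adicCompletion F | Valued.v x ≤ 1}), ?_, fun x => ?_⟩
  · exact (isCompact_univ_pi fun _ => isCompact_closedBall _ _).prod
      (isCompact_univ_pi fun v => isCompact_ball v.1 1)
  · obtain ⟨a, ha, h1, h2⟩ := hC x.1 x.2
    refine ⟨⟨a, ha⟩, ?_⟩
    rw [Set.mem_prod]
    refine ⟨fun w _ => ?_, fun v _ => h1 v⟩
    rw [mem_closedBall_zero_iff]
    exact h2 w

/-- every point has a neighbourhood with finitely many points of `O_S`. -/
theorem exists_nhds_finite (x : AS S) : ∃ U : Set (AS S), IsOpen U ∧ x ∈ U ∧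
    {a : OS S | algebraMap (OS S) (AS S) a ∈ U}.Finite := by
  classical
  refine ⟨(Set.univ.pi fun w => Metric.ball (x.1 w) 1) ×ˢ
    (Set.univ.pi fun v : S => {y : v.1.adicCompletion F | Valued.v (y - x.2 v) < 1}),
    (isOpen_set_pi Set.finite_univ fun w _ => Metric.isOpen_ball).prod
      (isOpen_set_pi Set.finite_univ fun v _ => isOpen_ball v.1 _ one_ne_zero),
    ⟨fun w _ => Metric.mem_ball_self one_pos, fun v _ => by simp⟩, ?_⟩
  -- bounds
  obtain ⟨r, hr⟩ : ∃ r : ℝ, ∀ w, ‖x.1 w‖ + 1 ≤ r :=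
    ⟨∑ w, (‖x.1 w‖ + 1), fun w => Finset.single_le_sum (f := fun w => ‖x.1 w‖ + 1)
      (fun w _ => by positivity) (Finset.mem_univ w)⟩
  obtain ⟨γ, hγ⟩ : ∃ γ : ℤᵐ⁰, ∀ v : S, max 1 (Valued.v (x.2 v)) ≤ γ := by
    refine ⟨(Finset.univ.sup fun v : S => max 1 (Valued.v (x.2 v))), fun v =>
      Finset.le_sup (f := fun v : S => max 1 (Valued.v (x.2 v))) (Finset.mem_univ v)⟩
  refine Set.Finite.of_finite_image (f := fun a : OS S => (a : F))
    ((finite_OS_bounded S γ r).subset ?_) (fun a _ b _ h => Subtype.ext h)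
  rintro _ ⟨a, ⟨h1, h2⟩, rfl⟩
  refine ⟨a.2, fun v hv => ?_, fun w => ?_⟩
  · have h3 := h2 ⟨v, hv⟩ (Set.mem_univ _)
    simp only [Set.mem_ofPred_eq] at h3
    have h4 : Valued.v (ι v (a : F)) ≤ γ := by
      rw [show ι v (a : F) = (ι v (a : F) - x.2 ⟨v, hv⟩) + x.2 ⟨v, hv⟩ by ring]
      refine (Valued.v.map_add _ _).trans (le_trans ?_ (hγ ⟨v, hv⟩))
      exact max_le_max h3.le le_rfl
    rwa [v_ι] at h4
  · have h3 := h1 w (Set.mem_univ _)
    rw [Metric.mem_ball, dist_eq_norm] at h3
    have h4 : w (a : F) = ‖w.embedding (a : F)‖ := (InfinitePlace.norm_embedding_eq w _).symm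
    rw [h4]
    have h5 : w.embedding (a : F) = (w.embedding (a : F) - x.1 w) + x.1 w := by ring
    rw [h5]
    refine (norm_add_le _ _).trans (le_trans ?_ (hr w))
    rw [add_comm]
    gcongr
    exact h3.le

/-- a family such that every point has a neighbourhood which contains only finitely many members
has closed range. -/
theorem isClosed_range_of_nhds_finite {X α : Type*} [TopologicalSpace X] [T1Space X] (f : α → X)
    (h : ∀ x : X, ∃ U : Set X, IsOpen U ∧ x ∈ U ∧ {a | f a ∈ U}.Finite) :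
    IsClosed (Set.range f) := by
  rw [← isOpen_compl_iff, isOpen_iff_mem_nhds]
  intro x hx
  obtain ⟨U, hU, hxU, hfin⟩ := h x
  have h1 : IsClosed (f '' {a | f a ∈ U}) := (hfin.image f).isClosed
  have h2 : x ∉ f '' {a | f a ∈ U} := by
    rintro ⟨a, -, rfl⟩
    exact hx ⟨a, rfl⟩
  filter_upwards [hU.mem_nhds hxU, h1.isOpen_compl.mem_nhds h2] with y hy1 hy2
  rintro ⟨a, rfl⟩
  exact hy2 ⟨a, hy1, rfl⟩

theorem discreteTopology_range_of_nhds_finite {X α : Type*} [TopologicalSpace X] [T1Space X]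
    (f : α → X) (h : ∀ x : X, ∃ U : Set X, IsOpen U ∧ x ∈ U ∧ {a | f a ∈ U}.Finite) :
    DiscreteTopology (Set.range f) := by
  rw [discreteTopology_subtype_iff]
  rintro x -
  obtain ⟨U, hU, hxU, hfin⟩ := h x
  have h1 : IsClosed (f '' {a | f a ∈ U} \ {x}) := ((hfin.image f).subset Set.sdiff_subset).isClosed
  have h2 : x ∉ f '' {a | f a ∈ U} \ {x} := fun h => h.2 rfl
  rw [← Filter.empty_mem_iff_bot]
  have h3 : (∅ : Set X) = ({x}ᶜ ∩ (U ∩ (f '' {a | f a ∈ U} \ {x})ᶜ)) ∩ Set.range f := by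
    symm
    rw [Set.eq_empty_iff_forall_notMem]
    rintro y ⟨⟨hy1, hy2, hy3⟩, ⟨a, rfl⟩⟩
    exact hy3 ⟨⟨a, hy2, rfl⟩, hy1⟩
  rw [h3]
  refine Filter.inter_mem_inf ?_ (Filter.mem_principal_self _)
  refine Filter.inter_mem self_mem_nhdsWithin (mem_nhdsWithin_of_mem_nhds ?_)
  exact Filter.inter_mem (hU.mem_nhds hxU) (h1.isOpen_compl.mem_nhds h2)

theorem isClosed_range_OS : IsClosed (Set.range (algebraMap (OS S) (AS S))) :=
  isClosed_range_of_nhds_finite _ (exists_nhds_finite S)

instance discreteTopology_range_OS : DiscreteTopology (Set.range (algebraMap (OS S) (AS S))) :=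
  discreteTopology_range_of_nhds_finite _ (exists_nhds_finite S)

/-- the image of `O_S` in `A` as an additive subgroup. -/
abbrev diagOS : AddSubgroup (AS S) := (algebraMap (OS S) (AS S)).range.toAddSubgroup

theorem isClosed_diagOS : IsClosed (diagOS S : Set (AS S)) := by
  have : (diagOS S : Set (AS S)) = Set.range (algebraMap (OS S) (AS S)) := by
    ext x
    simp [diagOS]
  rw [this]
  exact isClosed_range_OS S

instance discreteTopology_diagOS : DiscreteTopology (diagOS S) :=
  discreteTopology_range_OS S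

theorem compactSpace_quotient_of_cover {A : Type*} [AddCommGroup A] [TopologicalSpace A]
    (H : AddSubgroup A) {K : Set A} (hK : IsCompact K) (h : ∀ x : A, ∃ a ∈ H, x - a ∈ K) :
    CompactSpace (A ⧸ H) := by
  have h1 : (QuotientAddGroup.mk : A → A ⧸ H) '' K = Set.univ := by
    rw [Set.eq_univ_iff_forall]
    intro y
    obtain ⟨x, rfl⟩ := QuotientAddGroup.mk_surjective y
    obtain ⟨a, ha, hx⟩ := h x
    refine ⟨x - a, hx, ?_⟩
    rw [QuotientAddGroup.eq]
    simpa using ha
  rw [← isCompact_univ_iff, ← h1]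
  exact hK.image continuous_quot_mk

instance compactSpace_AS_quotient [IsTotallyComplex F] : CompactSpace (AS S ⧸ diagOS S) := by
  obtain ⟨K, hK, h⟩ := exists_compact_cover S
  refine compactSpace_quotient_of_cover _ hK fun x => ?_
  obtain ⟨a, ha⟩ := h x
  exact ⟨algebraMap (OS S) (AS S) a, ⟨a, rfl⟩, ha⟩

/-- weak approximation. -/
theorem denseRange_algebraMap_Rf : DenseRange (algebraMap F (Rf S)) :=
  (denseRange_OS S).mono (by rintro _ ⟨a, rfl⟩; exact ⟨(a : F), rfl⟩)

theorem denseRange_OS_Rf : DenseRange (algebraMap (OS S) (Rf S)) :=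
  denseRange_OS S

end Fermat.Agent.LT.Loc
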