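import Mathlib

/-!
# `SL₂` over principal ideal domains and dense subrings (helper18)

* `exists_row_eq`, `exists_eq_upper_mul`: over a PID `R` with fraction field `F`,
  `GL₂(F) = B(F) SL₂(R)`.
* `exists_elementary`: over a product of fields every element of `SL₂` is
  `E₁₂(s) E₂₁(c) E₁₂(t) E₂₁(x)`.
* `denseRange_SL2`: if `O → R` has dense range then `SL₂(O) → SL₂(R)` has dense range.
-/

set_option autoImplicit false

open Matrix MatrixGroups

noncomputable section

namespace Fermat.Agent.LT.SL2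

section PID

variable {R F : Type*} [CommRing R] [IsDomain R] [IsPrincipalIdealRing R] [Field F] [Algebra R F]
  [IsFractionRing R F]

/-- every non-zero vector of `F²` is a multiple of the bottom row of a matrix in `SL₂(R)`. -/
theorem exists_row_eq (x y : F) (h : x ≠ 0 ∨ y ≠ 0) :
    ∃ (d : F) (γ : SL(2, R)), d ≠ 0 ∧ x = d * algebraMap R F (γ 1 0) ∧
      y = d * algebraMap R F (γ 1 1) := by
  classical
  -- clear denominators
  obtain ⟨b, hb⟩ := IsLocalization.exist_integer_multiples_of_finset (nonZeroDivisors R) {x, y}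
  obtain ⟨x', hx'⟩ := hb x (by simp)
  obtain ⟨y', hy'⟩ := hb y (by simp)
  have hb0 : algebraMap R F b ≠ 0 :=
    IsFractionRing.to_map_ne_zero_of_mem_nonZeroDivisors b.2
  rw [Algebra.smul_def] at hx' hy'
  -- the gcd
  obtain ⟨g, hg⟩ := (IsPrincipalIdealRing.principal (Ideal.span {x', y'})).principal
  rw [Ideal.submodule_span_eq] at hg
  have hx1 : g ∣ x' := by
    rw [← Ideal.mem_span_singleton, ← hg]
    exact Ideal.subset_span (by simp)
  have hy1 : g ∣ y' := by
    rw [← Ideal.mem_span_singleton, ← hg]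
    exact Ideal.subset_span (by simp)
  obtain ⟨p, hp⟩ := hx1
  obtain ⟨q, hq⟩ := hy1
  have hg1 : g ∈ Ideal.span {x', y'} := by
    rw [hg]
    exact Ideal.mem_span_singleton_self g
  obtain ⟨s, t, hst⟩ := Ideal.mem_span_pair.mp hg1
  have hg0 : g ≠ 0 := by
    rintro rfl
    rw [zero_mul] at hp hq
    rw [hp, map_zero] at hx'
    rw [hq, map_zero] at hy'
    rcases h with h | h
    · exact mul_ne_zero hb0 h hx'.symm
    · exact mul_ne_zero hb0 h hy'.symm
  have h1 : s * p + t * q = 1 := by
    have h2 : g * (s * p + t * q) = g * 1 := by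
      rw [mul_one]
      conv_rhs => rw [← hst, hp, hq]
      ring
    exact mul_left_cancel₀ hg0 h2
  have hgF : algebraMap R F g ≠ 0 := by
    rwa [ne_eq, IsFractionRing.to_map_eq_zero_iff]
  refine ⟨algebraMap R F g / algebraMap R F b, ⟨!![t, -s; p, q], by
    rw [Matrix.det_fin_two_of]; linear_combination h1⟩, div_ne_zero hgF hb0, ?_, ?_⟩
  · change x = algebraMap R F g / algebraMap R F b * algebraMap R F p
    rw [div_mul_eq_mul_div, ← map_mul, ← hp, hx', mul_div_cancel_left₀ _ hb0]
  · change y = algebraMap R F g / algebraMap R F b * algebraMap R F q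
    rw [div_mul_eq_mul_div, ← map_mul, ← hq, hy', mul_div_cancel_left₀ _ hb0]

/-- `GL₂(F) = B(F) SL₂(R)`. -/
theorem exists_eq_upper_mul (g : GL (Fin 2) F) :
    ∃ (b : GL (Fin 2) F) (γ : SL(2, R)), b 1 0 = 0 ∧
      g = b * (Matrix.SpecialLinearGroup.map (algebraMap R F) γ : GL (Fin 2) F) := by
  have hdet : g 0 0 * g 1 1 - g 0 1 * g 1 0 ≠ 0 := by
    rw [← Matrix.det_fin_two]
    exact g.det.ne_zero
  obtain ⟨d, γ, hd, h1, h2⟩ := exists_row_eq (R := R) (g 1 0) (g 1 1) (by
    by_contra h
    push Not at h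
    rw [h.1, h.2] at hdet
    simp at hdet)
  refine ⟨g * ((Matrix.SpecialLinearGroup.map (algebraMap R F) γ : SL(2, F)) : GL (Fin 2) F)⁻¹, γ, ?_, ?_⟩
  · have h3 : ((g * ((Matrix.SpecialLinearGroup.map (algebraMap R F) γ : SL(2, F)) : GL (Fin 2) F)⁻¹ :
        GL (Fin 2) F) : Matrix (Fin 2) (Fin 2) F) 1 0 =
        g 1 0 * algebraMap R F (γ 1 1) - g 1 1 * algebraMap R F (γ 1 0) := by
      have h4 : ((((Matrix.SpecialLinearGroup.map (algebraMap R F) γ : SL(2, F)) : GL (Fin 2) F)⁻¹ :
          GL (Fin 2) F) : Matrix (Fin 2) (Fin 2) F) =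
          !![algebraMap R F (γ 1 1), -algebraMap R F (γ 0 1);
            -algebraMap R F (γ 1 0), algebraMap R F (γ 0 0)] := by
        exact (Matrix.SpecialLinearGroup.coe_inv _).trans (Matrix.adjugate_fin_two _)
      rw [Units.val_mul, h4, Matrix.mul_apply, Fin.sum_univ_two]
      simp
      ring
    rw [h3, h1, h2]
    ring
  · rw [inv_mul_cancel_right]

end PID

section Dense

variable {R : Type*} [CommRing R]

/-- upper unipotent. -/
def E12 (x : R) : SL(2, R) := ⟨!![1, x; 0, 1], by simp⟩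

/-- lower unipotent. -/
def E21 (x : R) : SL(2, R) := ⟨!![1, 0; x, 1], by simp⟩

theorem coe_E12 (x : R) : ((E12 x : SL(2, R)) : Matrix (Fin 2) (Fin 2) R) = !![1, x; 0, 1] := rfl

theorem coe_E21 (x : R) : ((E21 x : SL(2, R)) : Matrix (Fin 2) (Fin 2) R) = !![1, 0; x, 1] := rfl

theorem ext_coe {g h : SL(2, R)}
    (e : (g : Matrix (Fin 2) (Fin 2) R) = (h : Matrix (Fin 2) (Fin 2) R)) : g = h :=
  Subtype.ext e

/-- a matrix with invertible lower left entry. -/
theorem eq_elementary_of_isUnit (g : SL(2, R)) (x : R) (u : Rˣ) (hu : g 1 0 + g 1 1 * x = u) :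
    g = E12 ((g 0 0 + g 0 1 * x - 1) * (u⁻¹ : Rˣ)) * E21 (u : R) *
      E12 ((g 1 1 - 1) * (u⁻¹ : Rˣ)) * E21 (-x) := by
  have hdet : g 0 0 * g 1 1 - g 0 1 * g 1 0 = 1 := by
    rw [← Matrix.det_fin_two]
    exact g.det_coe
  have hinv : (u : R) * (u⁻¹ : Rˣ) = 1 := Units.mul_inv u
  rw [← hu] at hinv
  apply ext_coe
  rw [Matrix.SpecialLinearGroup.coe_mul, Matrix.SpecialLinearGroup.coe_mul, Matrix.SpecialLinearGroup.coe_mul, coe_E12,
    coe_E12, coe_E21, coe_E21, Matrix.mul_fin_two, Matrix.mul_fin_two, Matrix.mul_fin_two, ← hu]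
  conv_lhs => rw [Matrix.eta_fin_two (g : Matrix (Fin 2) (Fin 2) R)]
  generalize ((u⁻¹ : Rˣ) : R) = w at hinv ⊢
  generalize (g : Matrix (Fin 2) (Fin 2) R) 0 0 = a at *
  generalize (g : Matrix (Fin 2) (Fin 2) R) 0 1 = b at *
  generalize (g : Matrix (Fin 2) (Fin 2) R) 1 0 = c at *
  generalize (g : Matrix (Fin 2) (Fin 2) R) 1 1 = d at *
  ext i j
  fin_cases i <;> fin_cases j <;> simp
  · linear_combination (x * w) * hdet +
      (-(a + b * x - 1) + x * (b + (a + b * x - 1) * (d - 1) * w)) * hinv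
  · linear_combination (-w) * hdet + (-b - (a + b * x - 1) * (d - 1) * w) * hinv
  · linear_combination (x * (d - 1)) * hinv
  · linear_combination (-(d - 1)) * hinv

variable (R) in
/-- stable range one: every unimodular row can be shortened. -/
def StableOne : Prop := ∀ c d : R, IsCoprime c d → ∃ x : R, IsUnit (c + d * x)

theorem stableOne_of_field (k : Type*) [Field k] : StableOne k := by
  intro c d h
  by_cases hc : c = 0
  · have hd : d ≠ 0 := by
      rintro rfl
      rw [hc] at h
      exact not_isCoprime_zero_zero h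
    exact ⟨1, by rw [hc, zero_add, mul_one]; exact hd.isUnit⟩
  · exact ⟨0, by rw [mul_zero, add_zero]; exact (Ne.isUnit hc)⟩

theorem stableOne_pi {α : Type*} (k : α → Type*) [∀ i, CommRing (k i)]
    (h : ∀ i, StableOne (k i)) : StableOne (∀ i, k i) := by
  rintro c d ⟨p, q, hpq⟩
  choose x hx using fun i => h i (c i) (d i) ⟨p i, q i, congrFun hpq i⟩
  exact ⟨x, Pi.isUnit_iff.mpr hx⟩

theorem isCoprime_row (g : SL(2, R)) : IsCoprime (g 1 0) (g 1 1) := by
  have hdet : g 0 0 * g 1 1 - g 0 1 * g 1 0 = 1 := by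
    rw [← Matrix.det_fin_two]
    exact g.det_coe
  exact ⟨-g 0 1, g 0 0, by linear_combination hdet⟩

/-- the product of four elementary matrices. -/
def elem4 (p : R × R × R × R) : SL(2, R) := E12 p.1 * E21 p.2.1 * E12 p.2.2.1 * E21 p.2.2.2

theorem surjective_elem4 (h : StableOne R) : Function.Surjective (elem4 : R × R × R × R → SL(2, R)) := by
  intro g
  obtain ⟨x, hx⟩ := h _ _ (isCoprime_row g)
  obtain ⟨u, hu⟩ := hx
  exact ⟨(_, _, _, _), (eq_elementary_of_isUnit g x u hu.symm).symm⟩

theorem map_E12 {R' : Type*} [CommRing R'] (f : R →+* R') (x : R) :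
    Matrix.SpecialLinearGroup.map f (E12 x) = E12 (f x) := by
  apply ext_coe
  ext i j
  fin_cases i <;> fin_cases j <;> simp [E12]

theorem map_E21 {R' : Type*} [CommRing R'] (f : R →+* R') (x : R) :
    Matrix.SpecialLinearGroup.map f (E21 x) = E21 (f x) := by
  apply ext_coe
  ext i j
  fin_cases i <;> fin_cases j <;> simp [E21]

theorem continuous_elem4 [TopologicalSpace R] [IsTopologicalRing R] :
    Continuous (elem4 : R × R × R × R → SL(2, R)) := by
  have h1 : Continuous (E12 : R → SL(2, R)) := by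
    refine Continuous.subtype_mk (continuous_matrix fun i j => ?_) _
    fin_cases i <;> fin_cases j <;> simp <;> fun_prop
  have h2 : Continuous (E21 : R → SL(2, R)) := by
    refine Continuous.subtype_mk (continuous_matrix fun i j => ?_) _
    fin_cases i <;> fin_cases j <;> simp <;> fun_prop
  exact (((h1.comp continuous_fst).mul (h2.comp (continuous_fst.comp continuous_snd))).mul
    (h1.comp (continuous_fst.comp (continuous_snd.comp continuous_snd)))).mul
      (h2.comp (continuous_snd.comp (continuous_snd.comp continuous_snd)))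

/-- **strong approximation** for `SL₂`, abstract form. -/
theorem denseRange_SL2 {O : Type*} [CommRing O] [TopologicalSpace R] [IsTopologicalRing R]
    (f : O →+* R) (hf : DenseRange f) (h : StableOne R) :
    DenseRange (Matrix.SpecialLinearGroup.map f : SL(2, O) → SL(2, R)) := by
  have h1 : DenseRange (Prod.map f (Prod.map f (Prod.map f f))) :=
    hf.prodMap (hf.prodMap (hf.prodMap hf))
  have h2 : DenseRange (elem4 ∘ Prod.map f (Prod.map f (Prod.map f f))) :=
    (surjective_elem4 h).denseRange.comp h1 continuous_elem4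
  refine h2.mono ?_
  rintro _ ⟨p, rfl⟩
  refine ⟨elem4 p, ?_⟩
  simp only [elem4, map_mul, map_E12, map_E21, Function.comp_apply, Prod.map]

end Dense

end Fermat.Agent.LT.SL2
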