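import Mathlib
import Fermat.Agent.LT.SAdele
import Fermat.Agent.LT.SL2Dense

/-!
# Strong approximation for `SL₂` over `O_S` (helper18)
-/

set_option autoImplicit false

open NumberField IsDedekindDomain HeightOneSpectrum WithZero
open scoped WithZero Topology MatrixGroups

noncomputable section

namespace Fermat.Agent.LT.Loc

variable {F : Type*} [Field F] [NumberField F] (S : Finset (HeightOneSpectrum (𝓞 F)))

theorem stableOne_Rf : SL2.StableOne (Rf S) :=
  SL2.stableOne_pi _ fun _ => SL2.stableOne_of_field _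

/-- **strong approximation**: `SL₂(O_S)` is dense in `SL₂(∏_{v ∈ S} F_v)`. -/
theorem denseRange_SL2_OS :
    DenseRange (Matrix.SpecialLinearGroup.map (algebraMap (OS S) (Rf S)) : SL(2, OS S) → SL(2, Rf S)) :=
  SL2.denseRange_SL2 _ (denseRange_OS_Rf S) (stableOne_Rf S)

/-- strong approximation with valuations. -/
theorem exists_SL2_approx (g : SL(2, Rf S)) {γ : ℤᵐ⁰} (hγ : γ ≠ 0) :
    ∃ δ : SL(2, OS S), ∀ (v : S) (i j : Fin 2),
      Valued.v (ι v.1 (δ i j : F) - g i j v) < γ := by
  let U : Set (SL(2, Rf S)) := {h | ∀ (v : S) (i j : Fin 2), Valued.v (h i j v - g i j v) < γ}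
  have hU : IsOpen U := by
    have h1 : U = ⋂ (v : S), ⋂ (i : Fin 2), ⋂ (j : Fin 2),
        {h : SL(2, Rf S) | Valued.v (h i j v - g i j v) < γ} := by
      ext h
      simp [U]
    rw [h1]
    refine isOpen_iInter_of_finite fun v => isOpen_iInter_of_finite fun i =>
      isOpen_iInter_of_finite fun j => ?_
    have h2 : Continuous fun h : SL(2, Rf S) => h i j v := by
      have h3 : Continuous fun h : SL(2, Rf S) => (h : Matrix (Fin 2) (Fin 2) (Rf S)) :=
        continuous_subtype_val
      exact (continuous_apply v).comp ((continuous_apply_apply i j).comp h3)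
    exact (isOpen_ball v.1 (g i j v) hγ).preimage h2
  have hgU : g ∈ U := fun v i j => by
    rw [sub_self, map_zero]
    exact zero_lt_iff.mpr hγ
  obtain ⟨δ, hδ⟩ := (denseRange_SL2_OS S).exists_mem_open hU ⟨g, hgU⟩
  exact ⟨δ, hδ⟩

end Fermat.Agent.LT.Loc
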