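import Mathlib
import Fermat.Agent.LT.SStrong

/-!
# The maximal compact subring `O_f = ∏_{v ∈ S} O_v` of `∏_{v ∈ S} F_v` (helper18)
-/

set_option autoImplicit false

open NumberField IsDedekindDomain HeightOneSpectrum WithZero
open scoped WithZero Topology MatrixGroups

noncomputable section

namespace Fermat.Agent.LT.Loc

variable {F : Type*} [Field F] [NumberField F] (S : Finset (HeightOneSpectrum (𝓞 F)))

/-- `∏_{v ∈ S} O_v`. -/
def Of : Subring (Rf S) where
  carrier := {x | ∀ v, Valued.v (x v) ≤ 1}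
  mul_mem' := fun {a b} ha hb v => by
    rw [Pi.mul_apply, map_mul]
    exact mul_le_one' (ha v) (hb v)
  one_mem' := fun v => by simp
  add_mem' := fun {a b} ha hb v => (Valued.v.map_add _ _).trans (max_le (ha v) (hb v))
  zero_mem' := fun v => by simp
  neg_mem' := fun {a} ha v => by
    rw [Pi.neg_apply, Valuation.map_neg]
    exact ha v

variable {S}

theorem mem_Of {x : Rf S} : x ∈ Of S ↔ ∀ v, Valued.v (x v) ≤ 1 := Iff.rfl

theorem mem_Of_eq : (Of S : Set (Rf S)) = Set.univ.pi fun v : S =>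
    {x : v.1.adicCompletion F | Valued.v x ≤ 1} := by
  ext x
  simp [mem_Of]

variable (S)

theorem isOpen_closedBall (v : HeightOneSpectrum (𝓞 F)) {γ : ℤᵐ⁰} (hγ : γ ≠ 0) :
    IsOpen {x : v.adicCompletion F | Valued.v x ≤ γ} := by
  rw [isOpen_iff_mem_nhds]
  intro y hy
  rw [mem_nhds_iff]
  obtain ⟨n, hn⟩ := exp_neg_lt_of_pos hγ
  refine ⟨n, fun z hz => ?_⟩
  simp only [Set.mem_ofPred_eq] at hy hz ⊢
  rw [show z = (z - y) + y by ring]
  exact (Valued.v.map_add _ _).trans (max_le (hz.trans hn).le hy)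

theorem isCompact_Of : IsCompact (Of S : Set (Rf S)) := by
  rw [mem_Of_eq]
  exact isCompact_univ_pi fun v => isCompact_ball v.1 1

theorem isOpen_Of : IsOpen (Of S : Set (Rf S)) := by
  rw [mem_Of_eq]
  exact isOpen_set_pi Set.finite_univ fun v _ => isOpen_closedBall v.1 one_ne_zero

theorem isClosed_Of : IsClosed (Of S : Set (Rf S)) := (isCompact_Of S).isClosed

theorem algebraMap_int_mem_Of (a : 𝓞 F) : algebraMap F (Rf S) (a : F) ∈ Of S := fun v => by
  rw [algebraMap_f, v_ι]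
  exact v.1.valuation_le_one a

/-- `O_S + O_f = ∏ F_v`. -/
theorem exists_OS_sub_mem_Of (x : Rf S) : ∃ a ∈ OS S, x - algebraMap F (Rf S) a ∈ Of S := by
  obtain ⟨a, ha, h⟩ := exists_OS_approx S x (one_ne_zero (α := ℤᵐ⁰))
  refine ⟨a, ha, fun v => ?_⟩
  rw [Pi.sub_apply, algebraMap_f, Valuation.map_sub_swap]
  exact (h v).le

/-- `O_S ∩ O_f = 𝓞 F`. -/
theorem exists_int_of_mem {a : F} (h1 : a ∈ OS S) (h2 : algebraMap F (Rf S) a ∈ Of S) :
    ∃ b : 𝓞 F, (b : F) = a := by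
  refine HeightOneSpectrum.mem_integers_of_valuation_le_one F _ fun v => ?_
  by_cases hv : v ∈ S
  · have := h2 ⟨v, hv⟩
    rwa [algebraMap_f, v_ι] at this
  · exact h1 v hv

/-- division by a global element which is a unit outside `S`. -/
theorem mem_Of_div {n : F} (hn : n ≠ 0) (x : Rf S) :
    (∀ v : S, Valued.v (x v) ≤ v.1.valuation F n) ↔
      ∃ y ∈ Of S, x = algebraMap F (Rf S) n * y := by
  constructor
  · intro h
    have hι : ∀ v : S, ι v.1 n ≠ 0 := fun v => by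
      rw [ne_eq, map_eq_zero]
      exact hn
    refine ⟨fun v => (ι v.1 n)⁻¹ * x v, fun v => ?_, ?_⟩
    · rw [map_mul, map_inv₀, v_ι]
      have h0 : v.1.valuation F n ≠ 0 := (Valuation.ne_zero_iff _).mpr hn
      calc (v.1.valuation F n)⁻¹ * Valued.v (x v) ≤ (v.1.valuation F n)⁻¹ * v.1.valuation F n :=
            mul_le_mul' le_rfl (h v)
        _ = 1 := inv_mul_cancel₀ h0
    · ext v
      rw [Pi.mul_apply, algebraMap_f, mul_inv_cancel_left₀ (hι v)]
  · rintro ⟨y, hy, rfl⟩ v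
    rw [Pi.mul_apply, algebraMap_f, map_mul, v_ι]
    exact (mul_le_mul' le_rfl (hy v)).trans (mul_one _).le

/-- `𝓞 F → O_f / n O_f` is onto. -/
theorem exists_int_sub_eq_mul {n : F} (hn : n ≠ 0) {x : Rf S} (hx : x ∈ Of S) :
    ∃ a : 𝓞 F, ∃ y ∈ Of S, x - algebraMap F (Rf S) (a : F) = algebraMap F (Rf S) n * y := by
  classical
  have hne : ∀ v : S, v.1.valuation F n ≠ 0 := fun v => (Valuation.ne_zero_iff _).mpr hn
  choose m hm using fun v : S => exp_neg_lt_of_pos (hne v)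
  obtain ⟨a, ha⟩ := exists_int_approx S x hx
    (γ := exp (-((Finset.univ.sup m : ℕ) : ℤ))) exp_ne_zero
  refine ⟨a, (mem_Of_div S hn _).mp fun v => ?_⟩
  rw [Pi.sub_apply, algebraMap_f, Valuation.map_sub_swap]
  refine (ha v).le.trans (le_trans ?_ (hm v).le)
  rw [exp_le_exp]
  have := Finset.le_sup (f := m) (Finset.mem_univ v)
  omega

/-- the kernel of `𝓞 F → O_f / n O_f` is `n 𝓞 F` if `n` is a unit outside `S`. -/
theorem dvd_of_eq_mul {n : 𝓞 F} (hn : n ≠ 0) (hnS : ∀ v ∉ S, v.valuation F (n : F) = 1)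
    {a : 𝓞 F} (h : ∃ y ∈ Of S, algebraMap F (Rf S) (a : F) = algebraMap F (Rf S) (n : F) * y) :
    n ∣ a := by
  have hn' : (n : F) ≠ 0 := by simpa using hn
  have h1 := (mem_Of_div S hn' _).mpr h
  have h2 : ∀ v : HeightOneSpectrum (𝓞 F), v.valuation F ((a : F) / (n : F)) ≤ 1 := by
    intro v
    rw [map_div₀]
    by_cases hv : v ∈ S
    · have h3 := h1 ⟨v, hv⟩
      rw [algebraMap_f, v_ι] at h3
      exact div_le_one_of_le₀ h3 zero_le
    · rw [hnS v hv, div_one]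
      exact v.valuation_le_one a
  obtain ⟨b, hb⟩ := HeightOneSpectrum.mem_integers_of_valuation_le_one F _ h2
  refine ⟨b, ?_⟩
  have h3 : (a : F) = (n : F) * (b : F) := by
    rw [show (b : F) = (a : F) / (n : F) from hb, mul_div_cancel₀ _ hn']
  exact RingOfIntegers.ext h3

/-- `n O_f` as an ideal of `O_f`. -/
def idealOf (n : 𝓞 F) : Ideal (Of S) := Ideal.span {⟨_, algebraMap_int_mem_Of S n⟩}

variable {S} in
theorem mem_idealOf {n : 𝓞 F} {x : Of S} :
    x ∈ idealOf S n ↔ ∃ y ∈ Of S, (x : Rf S) = algebraMap F (Rf S) (n : F) * y := by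
  rw [idealOf, Ideal.mem_span_singleton]
  constructor
  · rintro ⟨y, hy⟩
    exact ⟨y, y.2, congrArg Subtype.val hy⟩
  · rintro ⟨y, hy, h⟩
    exact ⟨⟨y, hy⟩, Subtype.ext h⟩

/-- the ring homomorphism `𝓞 F → O_f`. -/
def intToOf : 𝓞 F →+* Of S :=
  ((algebraMap F (Rf S)).comp (algebraMap (𝓞 F) F)).codRestrict (Of S)
    (algebraMap_int_mem_Of S)

theorem coe_intToOf (a : 𝓞 F) : (intToOf S a : Rf S) = algebraMap F (Rf S) (a : F) := rfl

/-- `𝓞 F → O_f / n` is surjective. -/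
theorem surjective_int_quot {n : 𝓞 F} (hn : n ≠ 0) : Function.Surjective
    ((Ideal.Quotient.mk (idealOf S n)).comp (intToOf S)) := by
  have hn' : (n : F) ≠ 0 := by simpa using hn
  intro x
  obtain ⟨x, rfl⟩ := Ideal.Quotient.mk_surjective x
  obtain ⟨a, y, hy, h⟩ := exists_int_sub_eq_mul S hn' x.2
  refine ⟨a, ?_⟩
  rw [RingHom.comp_apply, eq_comm, Ideal.Quotient.eq, mem_idealOf]
  exact ⟨y, hy, h⟩

theorem ker_int_quot {n : 𝓞 F} (hn : n ≠ 0) (hnS : ∀ v ∉ S, v.valuation F (n : F) = 1) :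
    RingHom.ker ((Ideal.Quotient.mk (idealOf S n)).comp (intToOf S)) = Ideal.span {n} := by
  ext a
  rw [RingHom.mem_ker, RingHom.comp_apply, Ideal.Quotient.eq_zero_iff_mem, mem_idealOf,
    Ideal.mem_span_singleton]
  constructor
  · exact fun h => dvd_of_eq_mul S hn hnS h
  · rintro ⟨b, rfl⟩
    refine ⟨algebraMap F (Rf S) (b : F), algebraMap_int_mem_Of S b, ?_⟩
    change algebraMap F (Rf S) ((n : F) * (b : F)) = _
    rw [map_mul]

/-- `𝓞 F / n ≃ O_f / n` if `n` is a unit outside `S`. -/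
def quotEquiv {n : 𝓞 F} (hn : n ≠ 0) (hnS : ∀ v ∉ S, v.valuation F (n : F) = 1) :
    (𝓞 F ⧸ Ideal.span {n}) ≃+* (Of S ⧸ idealOf S n) :=
  (Ideal.quotEquivOfEq (ker_int_quot S hn hnS).symm).trans
    (RingHom.quotientKerEquivOfSurjective (surjective_int_quot S hn))

theorem quotEquiv_mk {n : 𝓞 F} (hn : n ≠ 0) (hnS : ∀ v ∉ S, v.valuation F (n : F) = 1)
    (a : 𝓞 F) : quotEquiv S hn hnS (Ideal.Quotient.mk _ a) =
      Ideal.Quotient.mk _ (intToOf S a) := rfl

theorem finite_quot {n : 𝓞 F} (hn : n ≠ 0) : Finite (Of S ⧸ idealOf S n) := by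
  have h1 : Ideal.span {n} ≠ ⊥ := by simpa using hn
  have : Finite (𝓞 F ⧸ Ideal.span {n}) := (Ideal.span {n}).finiteQuotientOfFreeOfNeBot h1
  have h2 : ∀ a ∈ Ideal.span {n}, (Ideal.Quotient.mk (idealOf S n)).comp (intToOf S) a = 0 := by
    intro a ha
    rw [Ideal.mem_span_singleton] at ha
    obtain ⟨b, rfl⟩ := ha
    rw [RingHom.comp_apply, Ideal.Quotient.eq_zero_iff_mem, mem_idealOf]
    refine ⟨algebraMap F (Rf S) (b : F), algebraMap_int_mem_Of S b, ?_⟩
    change algebraMap F (Rf S) ((n : F) * (b : F)) = _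
    rw [map_mul]
  refine Finite.of_surjective (Ideal.Quotient.lift (Ideal.span {n}) _ h2) fun x => ?_
  obtain ⟨a, ha⟩ := surjective_int_quot S hn x
  exact ⟨Ideal.Quotient.mk _ a, ha⟩

/-- `1 + n O_f ⊂ O_f^×` if `n` has positive valuation at all places of `S`. -/
theorem isUnit_one_add {n : 𝓞 F} (hn : ∀ v ∈ S, v.valuation F (n : F) < 1) {x : Of S}
    (hx : x - 1 ∈ idealOf S n) : IsUnit x := by
  obtain ⟨y, hy, h⟩ := mem_idealOf.mp hx
  have h1 : ∀ v : S, Valued.v ((x : Rf S) v) = 1 := by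
    intro v
    have h2 : (x : Rf S) v = 1 + ι v.1 (n : F) * y v := by
      have := congrFun h v
      rw [Pi.mul_apply, algebraMap_f] at this
      rw [← this]
      simp
    rw [h2]
    have h3 : Valued.v (ι v.1 (n : F) * y v) < Valued.v (1 : v.1.adicCompletion F) := by
      rw [map_mul, v_ι, map_one]
      exact lt_of_le_of_lt ((mul_le_mul' le_rfl (hy v)).trans (mul_one _).le) (hn v v.2)
    rw [Valuation.map_add_eq_of_lt_left _ h3, map_one]
  have h2 : ∀ v : S, (x : Rf S) v ≠ 0 := by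
    intro v h0
    have := h1 v
    rw [h0, map_zero] at this
    exact zero_ne_one this
  refine ⟨⟨x, ⟨fun v => ((x : Rf S) v)⁻¹, fun v => ?_⟩, ?_, ?_⟩, rfl⟩
  · rw [map_inv₀, h1, inv_one]
  · exact Subtype.ext (funext fun v => mul_inv_cancel₀ (h2 v))
  · exact Subtype.ext (funext fun v => inv_mul_cancel₀ (h2 v))

end Fermat.Agent.LT.Loc
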