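import Fermat.Agent.LT.IwaCoset
import Fermat.Agent.LT.Local

/-!
# Uniformizers and residue representatives of a number field at a finite place

* `Datum.ofRep`: the `Datum` on `F_v` given by `ϖ : F` with `v(ϖ) = exp (-1)` and a finite set
  `B : Finset (𝓞 F)` of representatives of `𝓞 F / v`;
* `datum v`: a chosen one; `q_datum : (datum v).q = absNorm v`;
* `mem_Iw_of_bd`: the Iwahori subgroup is open.
-/

set_option autoImplicit false

open Matrix NumberField IsDedekindDomain HeightOneSpectrum WithZero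
open scoped WithZero

noncomputable section

namespace Fermat.Agent.LT.Iwa

open Fermat.Agent.LT.Lvl

variable {F : Type*} [Field F] [NumberField F] (v : HeightOneSpectrum (𝓞 F))

/-- the valuation of the completion -/
abbrev val : Valuation (v.adicCompletion F) ℤᵐ⁰ := Valued.v

theorem val_algebraMap (x : F) : val v (algebraMap F (v.adicCompletion F) x) = v.valuation F x :=
  valuedAdicCompletion_eq_valuation' v x

theorem le_exp_neg_one_of_lt {x : ℤᵐ⁰} (h : x < 1) : x ≤ exp (-1 : ℤ) := by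
  rcases eq_or_ne x 0 with rfl | hx
  · exact zero_le
  · rw [← exp_log hx] at h ⊢
    rw [← exp_zero, exp_lt_exp] at h
    rw [exp_le_exp]
    omega

/-- a system of residue representatives -/
structure IsRep (B : Finset (𝓞 F)) : Prop where
  ex : ∀ x : 𝓞 F, ∃ b ∈ B, x - b ∈ v.asIdeal
  uniq : ∀ b ∈ B, ∀ b' ∈ B, b - b' ∈ v.asIdeal → b = b'

variable {v}

theorem IsRep.card {B : Finset (𝓞 F)} (hB : IsRep v B) : B.card = Ideal.absNorm v.asIdeal := by
  have h : Function.Bijective (fun b : B => Ideal.Quotient.mk v.asIdeal (b : 𝓞 F)) := by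
    constructor
    · rintro ⟨b, hb⟩ ⟨b', hb'⟩ h
      exact Subtype.ext (hB.uniq b hb b' hb' (Ideal.Quotient.eq.mp h))
    · intro y
      obtain ⟨x, rfl⟩ := Ideal.Quotient.mk_surjective y
      obtain ⟨b, hb, h⟩ := hB.ex x
      exact ⟨⟨b, hb⟩, (Ideal.Quotient.eq.mpr h).symm⟩
  rw [Ideal.absNorm_apply, Submodule.cardQuot_apply, ← Nat.card_congr (Equiv.ofBijective _ h),
    Nat.card_eq_fintype_card, Fintype.card_coe]

variable (v) in
theorem exists_isRep : ∃ B : Finset (𝓞 F), 0 ∈ B ∧ IsRep v B := by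
  classical
  have : Finite (𝓞 F ⧸ v.asIdeal) := v.asIdeal.finiteQuotientOfFreeOfNeBot v.ne_bot
  have : Fintype (𝓞 F ⧸ v.asIdeal) := Fintype.ofFinite _
  set r : (𝓞 F ⧸ v.asIdeal) → 𝓞 F := fun y => if y = 0 then 0 else
    Function.surjInv Ideal.Quotient.mk_surjective y with hr
  have hr' : ∀ y, Ideal.Quotient.mk v.asIdeal (r y) = y := by
    intro y
    by_cases h : y = 0
    · simp [hr, h]
    · simp only [hr, h, if_false]
      exact Function.surjInv_eq Ideal.Quotient.mk_surjective y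
  refine ⟨Finset.univ.image r, Finset.mem_image.mpr ⟨0, Finset.mem_univ _, by simp [hr]⟩, ?_, ?_⟩
  · intro x
    refine ⟨r (Ideal.Quotient.mk _ x), Finset.mem_image_of_mem _ (Finset.mem_univ _), ?_⟩
    rw [← Ideal.Quotient.eq, hr']
  · intro b hb b' hb' h
    obtain ⟨y, -, rfl⟩ := Finset.mem_image.mp hb
    obtain ⟨y', -, rfl⟩ := Finset.mem_image.mp hb'
    rw [← Ideal.Quotient.eq, hr', hr'] at h
    rw [h]

/-- the integral elements of the completion are congruent to elements of `𝓞 F` -/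
theorem exists_val_sub_lt (x : v.adicCompletion F) (hx : val v x ≤ 1) :
    ∃ r : 𝓞 F, val v (x - algebraMap F (v.adicCompletion F) (algebraMap (𝓞 F) F r)) < 1 := by
  obtain ⟨r, hr⟩ := Loc.exists_sub_mem_maximalIdeal v ⟨x, hx⟩
  refine ⟨r, ?_⟩
  rw [Loc.mem_maximalIdeal_iff, AddSubgroupClass.coe_sub] at hr
  have h3 : ((algebraMap (𝓞 F) (v.adicCompletionIntegers F) r : v.adicCompletionIntegers F) :
      v.adicCompletion F) = algebraMap F (v.adicCompletion F) (algebraMap (𝓞 F) F r) := rfl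
  rw [h3] at hr
  exact hr

theorem val_sub_lt_iff (x y : 𝓞 F) :
    val v (algebraMap F (v.adicCompletion F) (algebraMap (𝓞 F) F x) -
      algebraMap F (v.adicCompletion F) (algebraMap (𝓞 F) F y)) < 1 ↔ x - y ∈ v.asIdeal := by
  rw [← map_sub, ← map_sub, val_algebraMap, valuation_lt_one_iff_mem]

/-- the datum on the completion -/
def Datum.ofRep (ϖ : F) (hϖ : v.valuation F ϖ = exp (-1 : ℤ)) (B : Finset (𝓞 F))
    (hB : IsRep v B) : Datum (val v) where
  ϖ := algebraMap F (v.adicCompletion F) ϖ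
  ϖ_ne := by
    rw [Ne, map_eq_zero]
    rintro rfl
    rw [map_zero] at hϖ
    exact exp_ne_zero hϖ.symm
  ϖ_lt := by
    rw [val_algebraMap, hϖ, ← exp_zero, exp_lt_exp]
    norm_num
  le_of_lt x hx := by
    rw [val_algebraMap, hϖ]
    exact le_exp_neg_one_of_lt hx
  B := B.map ⟨fun b => algebraMap F (v.adicCompletion F) (algebraMap (𝓞 F) F b),
    (algebraMap F (v.adicCompletion F)).injective.comp (IsFractionRing.injective (𝓞 F) F)⟩
  B_le b hb := by
    obtain ⟨r, -, rfl⟩ := Finset.mem_map.mp hb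
    exact (val_algebraMap v _).trans_le (v.valuation_le_one r)
  B_ex x hx := by
    obtain ⟨r, hr⟩ := exists_val_sub_lt x hx
    obtain ⟨b, hb, h⟩ := hB.ex r
    refine ⟨_, Finset.mem_map_of_mem _ hb, ?_⟩
    have e : x - algebraMap F (v.adicCompletion F) (algebraMap (𝓞 F) F b) =
        (x - algebraMap F (v.adicCompletion F) (algebraMap (𝓞 F) F r)) +
        (algebraMap F (v.adicCompletion F) (algebraMap (𝓞 F) F r) -
          algebraMap F (v.adicCompletion F) (algebraMap (𝓞 F) F b)) := by ring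
    exact e ▸ Valuation.map_add_lt _ hr ((val_sub_lt_iff r b).mpr h)
  B_uniq b hb b' hb' h := by
    obtain ⟨r, hr, rfl⟩ := Finset.mem_map.mp hb
    obtain ⟨r', hr', rfl⟩ := Finset.mem_map.mp hb'
    rw [hB.uniq r hr r' hr' ((val_sub_lt_iff r r').mp h)]

theorem Datum.q_ofRep (ϖ : F) (hϖ) (B : Finset (𝓞 F)) (hB : IsRep v B) :
    (Datum.ofRep ϖ hϖ B hB).q = Ideal.absNorm v.asIdeal := by
  rw [Datum.q, Datum.ofRep, Finset.card_map, hB.card]

variable (v) in
theorem exists_datum : ∃ 𝔡 : Datum (val v), 0 ∈ 𝔡.B ∧ 𝔡.q = Ideal.absNorm v.asIdeal ∧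
    val v 𝔡.ϖ = exp (-1 : ℤ) := by
  obtain ⟨ϖ, hϖ⟩ := v.valuation_exists_uniformizer F
  obtain ⟨B, h0, hB⟩ := exists_isRep v
  refine ⟨Datum.ofRep ϖ hϖ B hB, ?_, Datum.q_ofRep ϖ hϖ B hB, ?_⟩
  · exact Finset.mem_map.mpr ⟨0, h0, by simp⟩
  · exact (val_algebraMap v ϖ).trans hϖ

variable (v) in
/-- a chosen datum on the completion -/
def datum : Datum (val v) := (exists_datum v).choose

variable (v) in
theorem zero_mem_datum_B : 0 ∈ (datum v).B := (exists_datum v).choose_spec.1

variable (v) in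
theorem q_datum : (datum v).q = Ideal.absNorm v.asIdeal := (exists_datum v).choose_spec.2.1

variable (v) in
theorem val_datum_ϖ : val v (datum v).ϖ = exp (-1 : ℤ) := (exists_datum v).choose_spec.2.2

/-- The Iwahori subgroup is open. -/
theorem mem_Iw_of_bd {g : GL (Fin 2) (v.adicCompletion F)}
    (h : Bd (val v) ((g : Matrix (Fin 2) (Fin 2) (v.adicCompletion F)) - 1) (exp (-1 : ℤ))) :
    g ∈ Iw (val v) := by
  have hlt : exp (-1 : ℤ) < (1 : ℤᵐ⁰) := by
    rw [← exp_zero, exp_lt_exp]; norm_num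
  have h' : ∀ i j, val v (g i j - (1 : Matrix (Fin 2) (Fin 2) (v.adicCompletion F)) i j) < 1 :=
    fun i j => (h i j).trans_lt hlt
  rw [mem_Iw]
  refine ⟨?_, ?_, ?_, ?_⟩
  · have := v_add_eq_one (v := val v) (x := 1) (y := g 0 0 - 1) (map_one _)
      (by simpa using h' 0 0)
    simpa using this
  · have := v_add_eq_one (v := val v) (x := 1) (y := g 1 1 - 1) (map_one _)
      (by simpa using h' 1 1)
    simpa using this
  · have := h' 0 1
    simp only [ne_eq, zero_ne_one, not_false_eq_true, one_apply_ne, sub_zero] at this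
    exact this.le
  · have := h' 1 0
    simpa using this

end Fermat.Agent.LT.Iwa

end
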