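import Fermat.Agent.LT.IwaCoset

/-!
# The neighbours of a vertex: the spherical Hecke operator at one place

`v` a valuation on a field `F`, `𝔡 : Datum v`.

* `wD_eq_wD`, `fib_eq_fib`, `q_eq_q`, `nbr_eq_nbr`, `cnt_eq_cnt`: independence of the datum;
* `nbv x`: the `q + 1` neighbours of `x : Vx v = Cos (GLO v)`; `sum_nbv_mk`: the sum over the
  neighbours of the class of `g` is the sum over `g (ϖ, b; 0, 1)` and `g (1, 0; 0, ϖ)`;
* `nbv_smul`, `mem_nbv_comm`, `card_nbv`;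
* `opT`: the Hecke operator; `opE_opW_pr`: `(q + 1) e w e` is the pull-back of `T`.
-/

set_option autoImplicit false

open Matrix

namespace Fermat.Agent.LT.Iwa

open Fermat.Agent.LT.Lvl

variable {F : Type*} [Field F] {Γ₀ : Type*} [LinearOrderedCommGroupWithZero Γ₀]
  {v : Valuation F Γ₀}

namespace Datum

variable (𝔡 : Datum v)

/-! ### Independence of the datum -/

theorem fib_eq_fib (𝔡' : Datum v) (d : D v) : 𝔡.fib d = 𝔡'.fib d := by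
  ext x
  rw [mem_fib, mem_fib]

theorem q_eq_q (𝔡' : Datum v) : 𝔡.q = 𝔡'.q := by
  have h := 𝔡.card_fib (Cos.mk _ 1)
  rw [𝔡.fib_eq_fib 𝔡', 𝔡'.card_fib] at h
  omega

theorem v_ϖ_pos : v 𝔡.ϖ ≠ 0 := (Valuation.ne_zero_iff _).mpr 𝔡.ϖ_ne

theorem v_ϖ_eq (𝔡' : Datum v) : v 𝔡.ϖ = v 𝔡'.ϖ :=
  le_antisymm (𝔡'.le_of_lt _ 𝔡.ϖ_lt) (𝔡.le_of_lt _ 𝔡'.ϖ_lt)

theorem wD_eq_wD (𝔡' : Datum v) (d : D v) : 𝔡.wD d = 𝔡'.wD d := by
  obtain ⟨g, rfl⟩ := QuotientGroup.mk_surjective d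
  rw [wD_mk, wD_mk]
  have h1 : v (𝔡'.ϖ / 𝔡.ϖ) = 1 := by
    rw [map_div₀, 𝔡.v_ϖ_eq 𝔡', div_self 𝔡'.v_ϖ_pos]
  have hne : 𝔡'.ϖ / 𝔡.ϖ * 1 - 0 * 0 ≠ 0 := by
    rw [mul_one, mul_zero, sub_zero]
    exact div_ne_zero 𝔡'.ϖ_ne 𝔡.ϖ_ne
  refine mk_eq_mk_of (k := gl2 (𝔡'.ϖ / 𝔡.ϖ) 0 0 1 hne)
    (gl2_mem_iwa _ h1 (map_one _) (by simp) (by simp)) ?_
  rw [mul_assoc]
  congr 1
  rw [wel, wel, gl2_mul]
  have h2 : 𝔡.ϖ * (𝔡'.ϖ / 𝔡.ϖ) = 𝔡'.ϖ := mul_div_cancel₀ _ 𝔡.ϖ_ne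
  congr 1 <;> simp [h2]

theorem nbr_eq_nbr (𝔡' : Datum v) (d : D v) : 𝔡.nbr d = 𝔡'.nbr d := by
  classical
  rw [nbr, nbr, 𝔡.fib_eq_fib 𝔡', show 𝔡.wD = 𝔡'.wD from funext (𝔡.wD_eq_wD 𝔡')]

theorem cnt_eq_cnt (𝔡' : Datum v) (n : ℕ) (d d' : D v) : 𝔡.cnt n d d' = 𝔡'.cnt n d d' := by
  classical
  induction n generalizing d with
  | zero => rw [cnt_zero, cnt_zero]
  | succ n ih =>
    rw [cnt_succ, cnt_succ, 𝔡.nbr_eq_nbr 𝔡']
    exact Finset.sum_congr rfl fun x _ => ih x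

/-! ### The neighbours of a vertex -/

/-- an edge is determined by its origin and its end -/
theorem eq_of_pr {d d' : D v} (h : pr d = pr d') (h' : pr (𝔡.wD d) = pr (𝔡.wD d')) : d = d' := by
  obtain ⟨g, rfl⟩ := QuotientGroup.mk_surjective d
  obtain ⟨g', rfl⟩ := QuotientGroup.mk_surjective d'
  rw [pr_mk, pr_mk] at h
  rw [wD_mk, wD_mk, pr_mk, pr_mk] at h'
  obtain ⟨k, hk, rfl⟩ := pr_eq_iff.mp h
  obtain ⟨k', hk', e⟩ := pr_eq_iff.mp h'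
  -- `k * wel = wel * k'`
  rw [mul_assoc, mul_assoc] at e
  have e1 : k * 𝔡.wel = 𝔡.wel * k' := mul_left_cancel e
  refine (mk_eq_mk_of (k := k) ?_ rfl)
  obtain ⟨z, hz, hK⟩ := mem_hyp.mp hk
  obtain ⟨z', hz', hK'⟩ := mem_hyp.mp hk'
  set A : Matrix (Fin 2) (Fin 2) F := (k : Matrix (Fin 2) (Fin 2) F) with hA
  set A' : Matrix (Fin 2) (Fin 2) F := (k' : Matrix (Fin 2) (Fin 2) F) with hA'
  have e2 : A * !![0, 1; 𝔡.ϖ, 0] = !![0, 1; 𝔡.ϖ, 0] * A' := by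
    have := congrArg (fun g : GL (Fin 2) F => (g : Matrix (Fin 2) (Fin 2) F)) e1
    simpa [GeneralLinearGroup.coe_mul, wel] using this
  -- the determinants
  have hw : (!![0, 1; 𝔡.ϖ, 0] : Matrix (Fin 2) (Fin 2) F).det = -𝔡.ϖ := by
    rw [Matrix.det_fin_two_of]; ring
  have hdet : A.det = A'.det := by
    have := congrArg Matrix.det e2
    rw [Matrix.det_mul, Matrix.det_mul, mul_comm, hw] at this
    exact mul_left_cancel₀ (neg_ne_zero.mpr 𝔡.ϖ_ne) this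
  have hd1 := hK.hdet
  have hd2 := hK'.hdet
  rw [Matrix.det_smul, Fintype.card_fin, map_mul, map_pow] at hd1 hd2
  have hA0 : v A.det ≠ 0 := by
    intro h0
    rw [h0, mul_zero] at hd1
    exact zero_ne_one hd1
  have hzz : v z = v z' := by
    rw [← hdet, ← hd1] at hd2
    have h3 : v z' ^ 2 = v z ^ 2 := mul_right_cancel₀ hA0 hd2
    exact ((pow_left_inj₀ zero_le zero_le two_ne_zero).mp h3).symm
  -- the lower left entry
  have e3 : A 1 0 = 𝔡.ϖ * A' 0 1 := by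
    have := congrFun (congrFun e2 1) 1
    simpa [Matrix.mul_apply, Fin.sum_univ_two] using this
  have hlow : v (z * A 1 0) < 1 := by
    have h4 : v (z' * A' 0 1) ≤ 1 := by simpa using hK'.h 0 1
    rw [e3, map_mul, map_mul, hzz, mul_left_comm, ← map_mul, ]
    exact gz_mul_lt_one_left 𝔡.ϖ_lt h4
  have hd3 := hK.hdet
  set κ : Matrix (Fin 2) (Fin 2) F := z • A with hκ
  have h1 : v (κ 0 1 * κ 1 0) < 1 := by
    rw [map_mul]; exact gz_mul_lt_one_right (hK.h 0 1) (by simpa [hκ] using hlow)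
  have h2 : v (κ 0 0 * κ 1 1) = 1 := by
    have : κ 0 0 * κ 1 1 = κ.det + κ 0 1 * κ 1 0 := by rw [Matrix.det_fin_two]; ring
    rw [this]
    exact v_add_eq_one hd3 h1
  rw [map_mul] at h2
  have h00 : v (κ 0 0) = 1 := by
    refine le_antisymm (hK.h 0 0) ?_
    rw [← h2]
    exact mul_le_of_le_one_right' (hK.h 1 1)
  have h11 : v (κ 1 1) = 1 := by rwa [h00, one_mul] at h2
  exact mem_iwa.mpr ⟨z, hz, ⟨h00, h11, hK.h 0 1, by simpa [hκ] using hlow⟩⟩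

/-- the matrix `(1, 0; 0, ϖ)` -/
def dg : GL (Fin 2) F := gl2 1 0 0 𝔡.ϖ (by simpa using 𝔡.ϖ_ne)

theorem wel_eq : 𝔡.wel = 𝔡.dg * gl2 0 1 1 0 (by simp) := by
  rw [wel, dg, gl2_mul]
  congr 1 <;> simp

theorem swap_mem_hyp : (gl2 0 1 1 0 (by simp) : GL (Fin 2) F) ∈ hyp v := by
  refine mem_hyp_of ⟨fun i j => ?_, ?_⟩
  · fin_cases i <;> fin_cases j <;> simp
  · simp [Matrix.det_fin_two_of]

theorem pr_wD_mk (g : GL (Fin 2) F) :
    pr (𝔡.wD (g : D v)) = ((g * 𝔡.dg : GL (Fin 2) F) : Vx v) := by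
  rw [wD_mk, pr_mk, wel_eq, ← mul_assoc]
  exact (pr_eq_iff.mpr ⟨_, swap_mem_hyp, rfl⟩).symm

theorem pr_wD_mk_kb (g : GL (Fin 2) F) (b : F) :
    pr (𝔡.wD ((g * kb b : GL (Fin 2) F) : D v)) = ((g * 𝔡.nt 1 b : GL (Fin 2) F) : Vx v) := by
  rw [wD_mk, pr_mk, mul_assoc, kb_mul_wel]

open Classical in
/-- the neighbours of a vertex -/
noncomputable def nbv (x : Vx v) : Finset (Vx v) :=
  (𝔡.fib ((x.out : GL (Fin 2) F) : D v)).image fun d => pr (𝔡.wD d)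

theorem mem_nbv {x y : Vx v} : y ∈ 𝔡.nbv x ↔ ∃ d : D v, pr d = x ∧ pr (𝔡.wD d) = y := by
  classical
  have hx : pr ((x.out : GL (Fin 2) F) : D v) = x := by
    rw [pr_mk, QuotientGroup.out_eq']
  rw [nbv, Finset.mem_image]
  constructor
  · rintro ⟨d, hd, rfl⟩
    rw [mem_fib, hx] at hd
    exact ⟨d, hd, rfl⟩
  · rintro ⟨d, hd, rfl⟩
    exact ⟨d, by rw [mem_fib, hx, hd], rfl⟩

theorem nbv_eq_nbv (𝔡' : Datum v) (x : Vx v) : 𝔡.nbv x = 𝔡'.nbv x := by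
  ext y
  rw [mem_nbv, mem_nbv, show 𝔡.wD = 𝔡'.wD from funext (𝔡.wD_eq_wD 𝔡')]

theorem mem_nbv_comm {x y : Vx v} : y ∈ 𝔡.nbv x ↔ x ∈ 𝔡.nbv y := by
  rw [mem_nbv, mem_nbv]
  constructor
  · rintro ⟨d, hd, hd'⟩
    exact ⟨𝔡.wD d, hd', by rw [wD_wD, hd]⟩
  · rintro ⟨d, hd, hd'⟩
    exact ⟨𝔡.wD d, hd', by rw [wD_wD, hd]⟩

theorem smul_mem_nbv {γ : GL (Fin 2) F} {x y : Vx v} : γ • y ∈ 𝔡.nbv (γ • x) ↔ y ∈ 𝔡.nbv x := by
  rw [mem_nbv, mem_nbv]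
  constructor
  · rintro ⟨d, hd, hd'⟩
    refine ⟨γ⁻¹ • d, ?_, ?_⟩
    · rw [pr_smul, hd, inv_smul_smul]
    · rw [wD_smul, pr_smul, hd', inv_smul_smul]
  · rintro ⟨d, rfl, rfl⟩
    exact ⟨γ • d, pr_smul _ _, by rw [wD_smul, pr_smul]⟩

open Classical in
theorem nbv_smul (γ : GL (Fin 2) F) (x : Vx v) : 𝔡.nbv (γ • x) = (𝔡.nbv x).image (γ • ·) := by
  ext y
  rw [Finset.mem_image]
  constructor
  · intro hy
    refine ⟨γ⁻¹ • y, ?_, smul_inv_smul γ y⟩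
    rw [← 𝔡.smul_mem_nbv (γ := γ), smul_inv_smul]
    exact hy
  · rintro ⟨y', hy', rfl⟩
    exact 𝔡.smul_mem_nbv.mpr hy'

/-- the neighbours of the origin of an edge -/
theorem sum_nbv {A : Type*} [AddCommMonoid A] (f : Vx v → A) (d : D v) :
    ∑ y ∈ 𝔡.nbv (pr d), f y = ∑ d' ∈ 𝔡.fib d, f (pr (𝔡.wD d')) := by
  classical
  have h : 𝔡.nbv (pr d) = (𝔡.fib d).image fun d' => pr (𝔡.wD d') := by
    ext y
    rw [mem_nbv, Finset.mem_image]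
    constructor
    · rintro ⟨x, hx, rfl⟩
      exact ⟨x, 𝔡.mem_fib.mpr hx, rfl⟩
    · rintro ⟨x, hx, rfl⟩
      exact ⟨x, 𝔡.mem_fib.mp hx, rfl⟩
  rw [h, Finset.sum_image]
  intro x hx y hy hxy
  refine 𝔡.eq_of_pr ?_ hxy
  rw [𝔡.mem_fib.mp hx, 𝔡.mem_fib.mp hy]

theorem card_nbv (x : Vx v) : (𝔡.nbv x).card = 𝔡.q + 1 := by
  obtain ⟨g, rfl⟩ := QuotientGroup.mk_surjective x
  have h := 𝔡.sum_nbv (fun _ => 1) (g : D v)
  rw [pr_mk] at h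
  rw [Finset.card_eq_sum_ones, h, ← Finset.card_eq_sum_ones, card_fib]

theorem sum_fib_mk {A : Type*} [AddCommMonoid A] (f : D v → A) (g : GL (Fin 2) F) :
    ∑ d' ∈ 𝔡.fib (g : D v), f d' =
      f (g : D v) + ∑ b ∈ 𝔡.B, f ((g * kb b : GL (Fin 2) F) : D v) := by
  classical
  have h : 𝔡.fib (g : D v) =
      insert (g : D v) (𝔡.B.image fun b => ((g * kb b : GL (Fin 2) F) : D v)) := by
    ext x
    rw [mem_fib, pr_mk, 𝔡.mem_fib_mk, Finset.mem_insert, Finset.mem_image]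
    simp only [eq_comm (a := x)]
  rw [h, Finset.sum_insert, Finset.sum_image]
  · intro b hb b' hb' h
    exact 𝔡.mk_kb_inj hb hb' h
  · rw [Finset.mem_image]
    rintro ⟨b, hb, h⟩
    exact mk_ne_mk_kb (v := v) h.symm

/-- **The classical representatives.** -/
theorem sum_nbv_mk {A : Type*} [AddCommMonoid A] (f : Vx v → A) (g : GL (Fin 2) F) :
    ∑ y ∈ 𝔡.nbv (g : Vx v), f y =
      ∑ b ∈ 𝔡.B, f ((g * 𝔡.nt 1 b : GL (Fin 2) F) : Vx v) +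
        f ((g * 𝔡.dg : GL (Fin 2) F) : Vx v) := by
  have h := 𝔡.sum_nbv f (g : D v)
  rw [pr_mk, sum_fib_mk] at h
  rw [h, pr_wD_mk, add_comm]
  congr 1
  exact Finset.sum_congr rfl fun b _ => by rw [pr_wD_mk_kb]

theorem sum_nbr_mk {A : Type*} [AddCommMonoid A] (f : D v → A) (g : GL (Fin 2) F) :
    ∑ y ∈ 𝔡.nbr (g : D v), f y = ∑ b ∈ 𝔡.B, f ((g * 𝔡.nt 1 b : GL (Fin 2) F) : D v) := by
  classical
  have h : 𝔡.nbr (g : D v) = 𝔡.B.image fun b => ((g * 𝔡.nt 1 b : GL (Fin 2) F) : D v) := by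
    ext x
    rw [mem_nbr_mk, Finset.mem_image]
    simp only [eq_comm (a := x)]
  rw [h, Finset.sum_image]
  intro b hb b' hb' e
  refine 𝔡.mk_kb_inj (g := g) hb hb' (𝔡.wD_injective ?_)
  simp only at e
  rw [wD_mk, wD_mk, mul_assoc, mul_assoc, kb_mul_wel, kb_mul_wel]
  exact e

/-! ### The operator -/

section Op

variable {M : Type*} [AddCommGroup M] [Module ℂ M]

/-- the spherical Hecke operator -/
noncomputable def opT : Module.End ℂ (Vx v → M) where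
  toFun f x := ∑ y ∈ 𝔡.nbv x, f y
  map_add' f g := by
    funext x
    simp only [Pi.add_apply, Finset.sum_add_distrib]
  map_smul' c f := by
    funext x
    simp only [Pi.smul_apply, RingHom.id_apply, ← Finset.smul_sum]

@[simp] theorem opT_apply (f : Vx v → M) (x : Vx v) : 𝔡.opT f x = ∑ y ∈ 𝔡.nbv x, f y := rfl

theorem opE_comp_pr (f : Vx v → M) : 𝔡.opE (f ∘ pr) = f ∘ pr := by
  funext d
  rw [opE_apply]
  have h : ∀ d' ∈ 𝔡.fib d, (f ∘ pr) d' = (f ∘ pr) d := by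
    intro d' hd'
    rw [Function.comp_apply, Function.comp_apply, 𝔡.mem_fib.mp hd']
  rw [Finset.sum_congr rfl h, Finset.sum_const, card_fib, ← Nat.cast_smul_eq_nsmul ℂ, smul_smul]
  push_cast
  rw [inv_mul_cancel₀ 𝔡.q_add_one_ne, one_smul]

/-- the functions fixed by `e` come from the vertices -/
theorem exists_comp_pr {f : D v → M} (h : 𝔡.opE f = f) : ∃ f₀ : Vx v → M, f = f₀ ∘ pr := by
  refine ⟨fun x => f ((x.out : GL (Fin 2) F) : D v), ?_⟩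
  funext d
  rw [Function.comp_apply, ← h, opE_apply, opE_apply]
  congr 1
  have : 𝔡.fib d = 𝔡.fib (((pr d).out : GL (Fin 2) F) : D v) := by
    refine (𝔡.fib_eq (𝔡.mem_fib.mpr ?_)).symm
    rw [pr_mk, QuotientGroup.out_eq']
  rw [this]

/-- **`(q + 1) e w` on functions of the vertices is `T`.** -/
theorem opE_opW_comp_pr (f : Vx v → M) :
    𝔡.opE (𝔡.opW (f ∘ pr)) = ((𝔡.q : ℂ) + 1)⁻¹ • (𝔡.opT f) ∘ pr := by
  funext d
  rw [opE_apply, Pi.smul_apply, Function.comp_apply, opT_apply, sum_nbv]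
  rfl

end Op

end Datum

end Fermat.Agent.LT.Iwa
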