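import Fermat.Agent.LT.Form
import Fermat.Agent.LT.HK.Prod
import Fermat.Agent.LT.HK.Sph
import Fermat.Agent.LT.IwaDatum

/-!
# The neighbours in `D U` at a place `v` with `U_v = GL₂(O_v)`

* `finsum_nbr`: the sum over the neighbours of `d` with `d v = g`, by classical representatives;
* `finite_nbr`, `nbr_comm`, `nbr_smul`;
* `nbrK`: the Hecke kernel at `v`, `act_single_nbrK`.
-/

set_option autoImplicit false

open Matrix NumberField IsDedekindDomain HeightOneSpectrum WithZero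
open scoped WithZero

noncomputable section

namespace Fermat.Agent.LT

open Lvl Iwa

variable {F : Type*} [Field F] [NumberField F]

section Loc

variable {v : HeightOneSpectrum (𝓞 F)} {H : Subgroup (GL (Fin 2) (v.adicCompletion F))}

/-- `y` is a neighbour of `x` (one place) -/
def NbrLoc (x y : Cos H) : Prop :=
  ∃ g h : GL (Fin 2) (v.adicCompletion F),
    (∃ ϖ : v.adicCompletion F, Valued.v ϖ = exp (-1 : ℤ) ∧
      (h : Matrix (Fin 2) (Fin 2) (v.adicCompletion F)) = !![ϖ, 0; 0, 1]) ∧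
    x = Cos.mk H g ∧ y = Cos.mk H (g * h)

theorem Nbr_iff {U : Lev F} {v : HeightOneSpectrum (𝓞 F)} {d d' : Lvl.D U} :
    Nbr U v d d' ↔ (∀ w, w ≠ v → d' w = d w) ∧ NbrLoc (d v) (d' v) := Iff.rfl

theorem val_datum_ϖ_eq (𝔡 : Datum (val v)) : val v 𝔡.ϖ = exp (-1 : ℤ) := by
  refine le_antisymm (le_exp_neg_one_of_lt 𝔡.ϖ_lt) ?_
  obtain ⟨𝔡', -, -, h⟩ := exists_datum v
  rw [← h]
  exact 𝔡.le_of_lt _ 𝔡'.ϖ_lt

/-- `diag (ϖ, 1)` for two uniformizers gives the same coset -/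
theorem mk_diag_eq {ϖ ϖ' : v.adicCompletion F} (hϖ : val v ϖ = exp (-1 : ℤ))
    (hϖ' : val v ϖ' = exp (-1 : ℤ)) (g : GL (Fin 2) (v.adicCompletion F))
    (h : ϖ * 1 - 0 * 0 ≠ 0) (h' : ϖ' * 1 - 0 * 0 ≠ 0) :
    Cos.mk (GLO (val v)) (g * gl2 ϖ 0 0 1 h) =
      Cos.mk (GLO (val v)) (g * gl2 ϖ' 0 0 1 h') := by
  have h0 : ϖ ≠ 0 := by
    rintro rfl
    rw [map_zero] at hϖ
    exact exp_ne_zero hϖ.symm
  have h1 : val v (ϖ' / ϖ) = 1 := by
    rw [map_div₀, hϖ, hϖ', div_self exp_ne_zero]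
  have hne : ϖ' / ϖ * 1 - 0 * 0 ≠ 0 := by
    intro h2
    rw [mul_one, mul_zero, sub_zero] at h2
    rw [h2, map_zero] at h1
    exact zero_ne_one h1
  have hk : gl2 (ϖ' / ϖ) 0 0 1 hne ∈ GLO (val v) := by
    refine Iw_le_GLO (mem_Iw.mpr ⟨?_, ?_, ?_, ?_⟩)
    · simpa using h1
    · simp
    · simp
    · simp
  rw [← Cos.mk_mul hk, mul_assoc, gl2_mul]
  congr 2
  congr 1 <;> simp [mul_div_cancel₀ _ h0]

theorem nbrLoc_iff (𝔡 : Datum (val v)) {x y : Cos (GLO (val v))} :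
    NbrLoc x y ↔ y ∈ 𝔡.nbv x := by
  have hsw : (gl2 0 1 1 0 (by simp) : GL (Fin 2) (v.adicCompletion F)) ∈ GLO (val v) := by
    rw [mem_GLO_iff_isHyper]
    refine ⟨fun i j => ?_, ?_⟩
    · fin_cases i <;> fin_cases j <;> simp
    · simp [Matrix.det_fin_two_of]
  constructor
  · rintro ⟨g, h, ⟨ϖ, hϖ, hh⟩, rfl, rfl⟩
    have h0 : ϖ ≠ 0 := by
      rintro rfl
      rw [map_zero] at hϖ
      exact exp_ne_zero hϖ.symm
    have hh' : h = gl2 ϖ 0 0 1 (by simpa using h0) := Units.ext hh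
    rw [𝔡.mem_nbv]
    refine ⟨((g * kb 0 : GL (Fin 2) (v.adicCompletion F)) : Iwa.D (val v)), ?_, ?_⟩
    · rw [pr_mk]
      have : kb (0 : v.adicCompletion F) = gl2 0 1 1 0 (by simp) := rfl
      rw [this]
      exact Cos.mk_mul hsw
    · rw [𝔡.pr_wD_mk_kb, hh']
      have h2 : 𝔡.nt 1 0 = gl2 𝔡.ϖ 0 0 1 (by simpa using 𝔡.ϖ_ne) := by
        rw [Datum.nt]
        congr 1
        exact pow_one _
      rw [h2]
      exact mk_diag_eq (val_datum_ϖ_eq 𝔡) hϖ g _ _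
  · intro hy
    obtain ⟨d, rfl, rfl⟩ := 𝔡.mem_nbv.mp hy
    obtain ⟨g, rfl⟩ := QuotientGroup.mk_surjective d
    refine ⟨g * gl2 0 1 1 0 (by simp), gl2 𝔡.ϖ 0 0 1 (by simpa using 𝔡.ϖ_ne),
      ⟨𝔡.ϖ, val_datum_ϖ_eq 𝔡, rfl⟩, ?_, ?_⟩
    · rw [pr_mk]
      exact (Cos.mk_mul hsw).symm
    · rw [𝔡.pr_wD_mk, mul_assoc, gl2_mul]
      have h2 : (gl2 (0 * 𝔡.ϖ + 1 * 0) (0 * 0 + 1 * 1) (1 * 𝔡.ϖ + 0 * 0) (1 * 0 + 0 * 1)
          (by simpa using 𝔡.ϖ_ne) : GL (Fin 2) (v.adicCompletion F)) = 𝔡.dg * gl2 0 1 1 0 (by simp) := by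
        rw [Datum.dg, gl2_mul]
        congr 1 <;> simp
      rw [h2, ← mul_assoc]
      exact (Cos.mk_mul hsw).symm

/-- `GL₂(F_v)` preserves the neighbour relation. -/
theorem nbrLoc_smul {H : Subgroup (GL (Fin 2) (v.adicCompletion F))}
    (γ : GL (Fin 2) (v.adicCompletion F)) {x y : Cos H} :
    NbrLoc (γ • x) (γ • y) ↔ NbrLoc x y := by
  have key : ∀ (γ : GL (Fin 2) (v.adicCompletion F)) (x y : Cos H), NbrLoc x y →
      NbrLoc (γ • x) (γ • y) := by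
    rintro γ x y ⟨g, h, hh, rfl, rfl⟩
    exact ⟨γ * g, h, hh, rfl, by rw [mul_assoc]; rfl⟩
  refine ⟨fun h => ?_, key γ x y⟩
  have := key γ⁻¹ _ _ h
  rwa [inv_smul_smul, inv_smul_smul] at this

theorem nbrLoc_comm {H : Subgroup (GL (Fin 2) (v.adicCompletion F))} (hH : H = GLO (val v))
    {x y : Cos H} : NbrLoc x y ↔ NbrLoc y x := by
  subst hH
  obtain ⟨𝔡, -⟩ := exists_datum v
  rw [nbrLoc_iff 𝔡, nbrLoc_iff 𝔡, 𝔡.mem_nbv_comm]

theorem finite_nbrLoc {H : Subgroup (GL (Fin 2) (v.adicCompletion F))} (hH : H = GLO (val v))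
    (x : Cos H) : {y | NbrLoc x y}.Finite := by
  subst hH
  obtain ⟨𝔡, -⟩ := exists_datum v
  refine (𝔡.nbv x).finite_toSet.subset fun y hy => ?_
  exact (nbrLoc_iff 𝔡).mp hy

theorem finsum_nbrLoc {H : Subgroup (GL (Fin 2) (v.adicCompletion F))} (hH : H = GLO (val v))
    (𝔡 : Datum (val v)) {M : Type*} [AddCommMonoid M] (g : GL (Fin 2) (v.adicCompletion F))
    (Φ : Cos H → M) :
    ∑ᶠ (y : Cos H) (_ : NbrLoc (Cos.mk H g) y), Φ y =
      ∑ b ∈ 𝔡.B, Φ (Cos.mk H (g * 𝔡.nt 1 b)) + Φ (Cos.mk H (g * 𝔡.dg)) := by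
  subst hH
  have h1 : ∑ᶠ (y : Cos (GLO (val v))) (_ : NbrLoc (Cos.mk _ g) y), Φ y =
      ∑ᶠ y ∈ 𝔡.nbv (Cos.mk (GLO (val v)) g), Φ y := by
    refine finsum_congr fun y => ?_
    refine finsum_congr_Prop ?_ fun _ => rfl
    exact propext (nbrLoc_iff 𝔡)
  rw [h1, finsum_mem_finset_eq_sum]
  exact 𝔡.sum_nbv_mk Φ g

end Loc

section Glob

variable {U : Lev F} {v : HeightOneSpectrum (𝓞 F)}

section Dec

variable [DecidableEq (HeightOneSpectrum (𝓞 F))]

theorem setOf_nbr (d : Lvl.D U) :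
    {d' | Nbr U v d d'} = HK.upd d v '' {y | NbrLoc (d v) y} := by
  ext d'
  constructor
  · rintro ⟨h, h'⟩
    exact ⟨d' v, h', HK.upd_eq fun w hw => (h w hw).symm⟩
  · rintro ⟨y, hy, rfl⟩
    refine ⟨fun w hw => HK.upd_of_ne d y hw, ?_⟩
    rw [HK.upd_self]
    exact hy

/-- The sum over the neighbours, through the `v`-coordinate. -/
theorem finsum_nbr_eq {M : Type*} [AddCommMonoid M] (d : Lvl.D U) (Φ : Lvl.D U → M) :
    ∑ᶠ (d' : Lvl.D U) (_ : Nbr U v d d'), Φ d' =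
      ∑ᶠ (y : Dv U v) (_ : NbrLoc (d v) y), Φ (HK.upd d v y) := by
  have h := finsum_mem_image (f := Φ) (g := HK.upd d v) (s := {y | NbrLoc (d v) y})
    ((HK.upd_injective d v).injOn)
  rw [← setOf_nbr] at h
  exact h

/-- **The sum over the neighbours by classical representatives**, for every datum and every
representative `g` of the `v`-coordinate. -/
theorem finsum_nbr (hU : U.U v = GLO (val v)) (𝔡 : Datum (val v)) {M : Type*} [AddCommMonoid M]
    {d : Lvl.D U} {g : GL (Fin 2) (v.adicCompletion F)} (hg : d v = Cos.mk (U.U v) g)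
    (Φ : Lvl.D U → M) :
    ∑ᶠ (d' : Lvl.D U) (_ : Nbr U v d d'), Φ d' =
      ∑ b ∈ 𝔡.B, Φ (HK.upd d v (Cos.mk (U.U v) (g * 𝔡.nt 1 b))) +
        Φ (HK.upd d v (Cos.mk (U.U v) (g * 𝔡.dg))) := by
  rw [finsum_nbr_eq, hg]
  exact finsum_nbrLoc hU 𝔡 g fun y => Φ (HK.upd d v y)

end Dec

theorem finite_nbr (hU : U.U v = GLO (val v)) (d : Lvl.D U) : {d' | Nbr U v d d'}.Finite := by
  classical
  rw [setOf_nbr]
  exact (finite_nbrLoc hU _).image _

theorem nbr_comm (hU : U.U v = GLO (val v)) {d d' : Lvl.D U} : Nbr U v d d' ↔ Nbr U v d' d := by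
  rw [Nbr_iff, Nbr_iff, nbrLoc_comm hU]
  exact and_congr_left fun _ => forall₂_congr fun _ _ => eq_comm

/-- `GL₂(F)` preserves the neighbour relation. -/
theorem nbr_smul (γ : GL (Fin 2) F) {d d' : Lvl.D U} :
    Nbr U v (γ • d) (γ • d') ↔ Nbr U v d d' := by
  rw [Nbr_iff, Nbr_iff]
  refine and_congr ?_ ?_
  · refine forall₂_congr fun w _ => ?_
    rw [RProd.smul_apply, RProd.smul_apply]
    exact smul_left_cancel_iff γ
  · rw [RProd.smul_apply, RProd.smul_apply]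
    exact nbrLoc_smul (gmap v γ)

/-- The Hecke kernel of the neighbour relation at `v`. -/
def nbrK (U : Lev F) (v : HeightOneSpectrum (𝓞 F)) (hU : U.U v = GLO (val v)) :
    HK (GL (Fin 2) F) (Dv U v) := by
  classical
  exact HK.of (fun x y => if NbrLoc x y then 1 else 0)
    (fun γ x y => by
      have : NbrLoc (γ • x) (γ • y) ↔ NbrLoc x y := nbrLoc_smul (gmap v γ)
      simp only [this])
    (fun x => (finite_nbrLoc hU x).subset fun y hy => by
      by_contra h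
      exact hy (if_neg h))
    (fun y => (finite_nbrLoc hU y).subset fun x hx => by
      by_contra h
      exact hx (if_neg fun h' => h ((nbrLoc_comm hU).mp h')))

open Classical in
theorem ker_nbrK (hU : U.U v = GLO (val v)) (x y : Dv U v) :
    (nbrK U v hU).ker x y = if NbrLoc x y then 1 else 0 :=
  HK.ker_of _ _ _ _ _ _

theorem act_nbrK (hU : U.U v = GLO (val v)) {M : Type*} [AddCommGroup M] [Module ℂ M]
    (f : Dv U v → M) (x : Dv U v) :
    (nbrK U v hU).act f x = ∑ᶠ (y : Dv U v) (_ : NbrLoc x y), f y := by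
  classical
  rw [HK.act_apply_finsum]
  refine finsum_congr fun y => ?_
  rw [ker_nbrK]
  by_cases h : NbrLoc x y
  · rw [if_pos h, one_smul, finsum_eq_if, if_pos h]
  · rw [if_neg h, zero_smul, finsum_eq_if, if_neg h]

/-- **`T_v` as a Hecke kernel at one place.** -/
theorem act_single_nbrK [DecidableEq (HeightOneSpectrum (𝓞 F))] (hU : U.U v = GLO (val v)) {M : Type*} [AddCommGroup M] [Module ℂ M]
    (f : Lvl.D U → M) (d : Lvl.D U) :
    (HK.single (base U) v (nbrK U v hU)).act f d =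
      ∑ᶠ (d' : Lvl.D U) (_ : Nbr U v d d'), f d' := by
  rw [HK.act_single_apply, act_nbrK, finsum_nbr_eq]

/-- helper8's spherical kernel is `nbrK` (when `U_v` is literally `GL₂(O_v)`). -/
theorem ker_tH_eq (𝔡 : Datum (val v)) (x y : Cos (GLO (val v))) [Decidable (NbrLoc x y)] :
    𝔡.tH.ker x y = if NbrLoc x y then 1 else 0 := by
  classical
  rw [𝔡.ker_tH]
  by_cases h : NbrLoc x y
  · rw [if_pos h, if_pos ((nbrLoc_iff 𝔡).mp h)]
  · rw [if_neg h, if_neg fun h' => h ((nbrLoc_iff 𝔡).mpr h')]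

end Glob

end Fermat.Agent.LT

end
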