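import Fermat.Agent.LT.FormBdd
import Fermat.Agent.LT.Steps
import Fermat.Agent.LT.Aleph.FormVal
import Fermat.Agent.LT.Aleph.Exist
import Fermat.Agent.LT.Adapt.Dens

/-!
# Step (A'): the theta lift as a bounded cuspidal form on `X_∞ × D U`

`TSys.isForm`: an eigenform of moderate growth with the eigenvalues of the tower is cuspidal (the
operator `R(ℵ)` of `Aleph` kills all constant terms and acts on it by a non-zero number) and hence
bounded (growth of cuspidal functions on Siegel sets).
-/

set_option autoImplicit false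

open Matrix NumberField MeasureTheory IsDedekindDomain WithZero
open scoped WithZero

noncomputable section

namespace Fermat.Agent.LT

open H3 Lvl

local notation "Γℚ" => (AlgebraicClosure ℚ ≃ₐ[ℚ] AlgebraicClosure ℚ)
local notation "G3" => Matrix.GeneralLinearGroup (Fin 2) (ZMod 3)

section

variable {ρ : Γℚ →* G3} {T : Tower.TowerFields ρ} {N : ℕ} {x : HeightOneSpectrum (𝓞 T.L) → ℝ}
  {U : Lev T.L} {f : Xi T.L × D U → ℂ}

/-- An eigenform with the eigenvalues of the tower is cuspidal. -/
theorem TSys.isCusp (hT : TSys T N x) (hf : IsForm0 T.L U (bad T.L N) x f) : IsCusp f := by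
  obtain ⟨A⟩ := Aleph.Bdry.exists_data_L hT (Aleph.bdryS U (bad T.L N) hf.lev) (Aleph.pC U)
    (Aleph.pC_ray U) hT.N_ne (fun v => x v.1) fun w _ h => ⟨⟨w, h⟩, rfl, rfl⟩
  exact Aleph.isCusp_of_hecke A hf.inv hf.cont hf.hecke hf.radial

/-- **An eigenform of moderate growth with the eigenvalues of the tower is a bounded cuspidal
eigenform.** -/
theorem TSys.isForm (hT : TSys T N x) (hf : IsForm0 T.L U (bad T.L N) x f) :
    IsForm T.L U (bad T.L N) x f :=
  hf.isForm (hf.bounded (hT.isCusp hf)) (hT.isCusp hf)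

end

/-- **Step (A')**: the theta lift as a bounded cuspidal eigenform on `X_∞ × D U`. -/
theorem stepA' (ρ : Γℚ →* G3) : StepA' ρ := by
  intro T N m x Φ hT hΦ
  have hS : ∀ v, v ∈ NV.placesDvd T.L N hT.N_ne ↔ v ∈ bad T.L N := fun v => NV.mem_placesDvd
  obtain ⟨n₀, h⟩ := Adapt.exists_isForm0 hΦ hS (hT.clL _ hS)
  obtain ⟨f, hf, -⟩ := h n₀ le_rfl
  exact ⟨_, f, hT.isForm hf⟩

end Fermat.Agent.LT

end
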