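import Fermat.Agent.LT.Top
import Fermat.Agent.LT.Period.Final
import Fermat.Agent.LT.Tower.StepT
import Fermat.Agent.LT.Tower.StepS
import Fermat.Agent.LT.B11.StepA
import Fermat.Agent.LT.StepAp
import Fermat.Agent.LT.Clas.StepK
import Fermat.Agent.LT.Theta31.Main
import Fermat.Agent.LT.Desc.Main

/-!
# S47

The steps are `Tower.stepT`, `stepA`, `stepA'`, `Desc.stepB`, `Clas.stepK`, `Tower.stepS`,
`Period.stepC`, `Theta31.stepD` and `End.concl47`.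
-/

set_option autoImplicit false

open AutomorphicForm FLT.ExplicitLift EisensteinWeightOne WeierstrassCurve LanglandsTunnell
open scoped MatrixGroups
local notation "Γℚ" => (AlgebraicClosure ℚ ≃ₐ[ℚ] AlgebraicClosure ℚ)

namespace Fermat.Agent.LT

/-- S47 from the descent. -/
theorem S47_open
    (ρ : Γℚ →* GL (Fin 2) (ZMod 3)) (hρ : Continuous ρ) (hsurj : Function.Surjective ρ)
    (hdet : ∀ σ : Γℚ, Matrix.GeneralLinearGroup.det (ρ σ) = modThreeCyclotomicChar σ)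
    (Ψ : GL (Fin 2) (ZMod 3) →* GL (Fin 2) (ℤ√(-2)))
    (hΨ : ∀ g, Matrix.GeneralLinearGroup.map red (Ψ g) = g)
    (hB : StepB ρ) :
    ∃ (N : ℕ) (_ : NeZero N) (b : ℕ → ℤ√(-2)),
      FormalHecke.IsEigensystem
        (fun ℓ => if ℓ ∣ N then 0 else ((chiNegThree ℓ : ℤ) : ℤ√(-2))) b ∧
      CuspForm.IsWeightOneChiNegThreeRealized N b ∧
      ∀ p : ℕ, p.Prime → ¬ p ∣ 3 * N →
        ∀ A : ValuationSubring (AlgebraicClosure ℚ), A.LiesOverPrime p →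
          ∀ σ : Γℚ, A.IsFrobeniusAt σ p →
            b p = ((Ψ (ρ σ) : GL (Fin 2) (ℤ√(-2))) : Matrix (Fin 2) (Fin 2) (ℤ√(-2))).trace :=
  S47_of_steps ρ hρ hsurj hdet Ψ hΨ (Tower.stepT hρ hsurj hdet) (stepA ρ) (stepA' ρ) hB
    Clas.stepK (Tower.stepS ρ) (Period.stepC hρ hsurj hdet) (Theta31.stepD hdet)

/-- **S47.** -/
theorem S47_final
    (ρ : Γℚ →* GL (Fin 2) (ZMod 3)) (hρ : Continuous ρ) (hsurj : Function.Surjective ρ)
    (hdet : ∀ σ : Γℚ, Matrix.GeneralLinearGroup.det (ρ σ) = modThreeCyclotomicChar σ)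
    (Ψ : GL (Fin 2) (ZMod 3) →* GL (Fin 2) (ℤ√(-2)))
    (hΨ : ∀ g, Matrix.GeneralLinearGroup.map red (Ψ g) = g) :
    ∃ (N : ℕ) (_ : NeZero N) (b : ℕ → ℤ√(-2)),
      FormalHecke.IsEigensystem
        (fun ℓ => if ℓ ∣ N then 0 else ((chiNegThree ℓ : ℤ) : ℤ√(-2))) b ∧
      CuspForm.IsWeightOneChiNegThreeRealized N b ∧
      ∀ p : ℕ, p.Prime → ¬ p ∣ 3 * N →
        ∀ A : ValuationSubring (AlgebraicClosure ℚ), A.LiesOverPrime p →
          ∀ σ : Γℚ, A.IsFrobeniusAt σ p →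
            b p = ((Ψ (ρ σ) : GL (Fin 2) (ℤ√(-2))) : Matrix (Fin 2) (Fin 2) (ℤ√(-2))).trace :=
  S47_open ρ hρ hsurj hdet Ψ hΨ (Desc.stepB ρ)

end Fermat.Agent.LT
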