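import Fermat.Agent.LT.DegOneRay
import Fermat.Agent.CFT.Global2.Unramified

/-!
# Ray characters on the places which split in a quadratic extension

`M/K` quadratic, unramified outside `N`. A ray character of `K` which vanishes at almost all places
of degree one which split in `M` vanishes at all places which split in `M`.
-/

set_option autoImplicit false

namespace Fermat.Agent.LT.NV

open IsDedekindDomain NumberField WithZero
open Fermat.Agent.CFT.SUnits (ord ord_one ord_mul ord_inv ord_pow ord_div ord_eq_zero_iff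
  valuation_eq_exp_neg_ord finite_ord_ne_zero div ord_nonneg_iff)
open Fermat.Agent.CFT.Places (conj mem_conj conj_one valuation_conj below_conj below_eq_iff
  valuation_algebraMap exists_below_eq liesOver_below)
open Fermat.Agent.CFT.Global (cong mem_cong locPow mem_locPow normU above mem_above)
open Fermat.Agent.CFT.Global2.Unr
open scoped Pointwise

section

variable {K M : Type*} [Field K] [NumberField K] [Field M] [NumberField M] [Algebra K M]

theorem ord_eq_iff' {v : HeightOneSpectrum (𝓞 K)} {x : Kˣ} {a : ℤ} :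
    ord v x = a ↔ v.valuation K (x : K) = exp (-a) := by
  rw [valuation_eq_exp_neg_ord, exp_inj, neg_inj]

/-- degree one places upstairs lie over degree one places -/
theorem absNorm_under {W : HeightOneSpectrum (𝓞 M)} (h : (Ideal.absNorm W.asIdeal).Prime) :
    (Ideal.absNorm (W.under (𝓞 K)).asIdeal).Prime ∧
      (W.under (𝓞 K)).asIdeal.inertiaDeg' W.asIdeal = 1 := by
  have h1 := Ideal.absNorm_eq_pow_inertiaDeg'_of_liesOver (P := W.asIdeal)
    (p := (W.under (𝓞 K)).asIdeal) (W.under (𝓞 K)).isPrime (W.under (𝓞 K)).ne_bot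
  rw [h1] at h
  have h2 : (W.under (𝓞 K)).asIdeal.inertiaDeg' W.asIdeal = 1 := by
    rcases Nat.lt_or_ge ((W.under (𝓞 K)).asIdeal.inertiaDeg' W.asIdeal) 2 with h3 | h3
    · rcases Nat.lt_or_ge ((W.under (𝓞 K)).asIdeal.inertiaDeg' W.asIdeal) 1 with h4 | h4
      · rw [Nat.lt_one_iff.mp h4, pow_zero] at h
        exact absurd h Nat.not_prime_one
      · omega
    · exact absurd h (Nat.Prime.not_prime_pow h3)
  rw [h2, pow_one] at h
  exact ⟨h, h2⟩

omit [NumberField K] [NumberField M] in
theorem natCast_mem_under {W : HeightOneSpectrum (𝓞 M)} {k : ℕ} :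
    (k : 𝓞 K) ∈ (W.under (𝓞 K)).asIdeal ↔ (k : 𝓞 M) ∈ W.asIdeal := by
  rw [(liesOver_below (K := K) W).over, Ideal.under_def, Ideal.mem_comap, map_natCast]

variable [IsGalois K M] (h2 : Module.finrank K M = 2) {σ : M ≃ₐ[K] M} (hσ : σ ≠ 1)

include h2 hσ in
theorem mul_self_eq_one : σ * σ = 1 := by
  ext x
  exact apply_apply h2 hσ x

include h2 hσ in
theorem conj_conj (W : HeightOneSpectrum (𝓞 M)) : conj σ (conj σ W) = W := by
  rw [← Fermat.Agent.CFT.Places.conj_mul, mul_self_eq_one h2 hσ, conj_one]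

include h2 hσ in
theorem valuation_apply (W : HeightOneSpectrum (𝓞 M)) (x : M) :
    W.valuation M (σ x) = (conj σ W).valuation M x := by
  conv_lhs => rw [← conj_conj h2 hσ W]
  exact valuation_conj σ (conj σ W) x

include h2 hσ in
/-- order of a norm at an unramified place -/
theorem ord_normU {W : HeightOneSpectrum (𝓞 M)}
    (he : (W.under (𝓞 K)).asIdeal.ramificationIdx' W.asIdeal = 1) (x : Mˣ) :
    ord (W.under (𝓞 K)) (normU (K := K) M x) = ord W x + ord (conj σ W) x := by
  rw [ord_eq_iff', ← valuation_algebraMap_of_unr he]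
  have e : algebraMap K M ((normU (K := K) M x : Kˣ) : K) = x * σ x := norm_eq_mul h2 hσ (x : M)
  rw [e, map_mul, valuation_apply h2 hσ, valuation_eq_exp_neg_ord, valuation_eq_exp_neg_ord,
    ← exp_add]
  congr 1
  ring

include h2 hσ in
/-- a norm of an element close to one is close to one -/
theorem normU_mem_cong {n n' : ℕ} {W : HeightOneSpectrum (𝓞 M)}
    (hn : (W.under (𝓞 K)).asIdeal.ramificationIdx' W.asIdeal * (n + 1) ≤ n' + 1) {x : Mˣ}
    (hx : x ∈ cong W n') (hx' : x ∈ cong (conj σ W) n') :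
    normU (K := K) M x ∈ cong (W.under (𝓞 K)) n := by
  set e := (W.under (𝓞 K)).asIdeal.ramificationIdx' W.asIdeal with he
  have he0 : e ≠ 0 := Fermat.Agent.CFT.Places.ramificationIdx'_ne_zero W
  have e1 : algebraMap K M ((normU (K := K) M x : Kˣ) : K) = x * σ x := norm_eq_mul h2 hσ (x : M)
  rw [mem_cong] at hx hx' ⊢
  have h1 : W.valuation M (σ x - 1) ≤ exp (-((n' : ℤ) + 1)) := by
    have : σ (x : M) - 1 = σ ((x : M) - 1) := by rw [map_sub, map_one]
    rw [this, valuation_apply h2 hσ]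
    exact hx'
  have h3 : W.valuation M (σ (x : M)) ≤ 1 := by
    have : σ (x : M) = (σ x - 1) + 1 := by ring
    rw [this]
    refine (Valuation.map_add _ _ _).trans (max_le (h1.trans ?_) (by simp))
    rw [← exp_zero, exp_le_exp]
    omega
  have h4 : W.valuation M (x * σ x - 1) ≤ exp (-((n' : ℤ) + 1)) := by
    have : (x : M) * σ x - 1 = (x - 1) * σ x + (σ x - 1) := by ring
    rw [this]
    refine (Valuation.map_add _ _ _).trans (max_le ?_ h1)
    rw [map_mul]
    exact (mul_le_of_le_one_right' h3).trans hx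
  have h5 : W.valuation M (algebraMap K M ((normU (K := K) M x : K) - 1)) ≤
      exp (-((n' : ℤ) + 1)) := by
    rw [map_sub, e1, map_one]
    exact h4
  rw [valuation_algebraMap, ← he] at h5
  have h6 : (W.under (𝓞 K)).valuation K ((normU (K := K) M x : K) - 1) ^ e ≤
      (exp (-((n : ℤ) + 1))) ^ e := by
    refine h5.trans ?_
    rw [← exp_nsmul, exp_le_exp, nsmul_eq_mul]
    have : (e : ℤ) * (n + 1) ≤ n' + 1 := by exact_mod_cast hn
    linarith
  exact (pow_le_pow_iff_left₀ zero_le zero_le he0).mp h6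

variable {A : Type*} [AddCommGroup A]

include h2 hσ in
/-- **Claim (C)**: a ray character which vanishes at almost all split places of degree one
vanishes at all split places. -/
theorem _root_.Fermat.Agent.LT.IsRay.eq_zero_of_not_inert {N : ℕ} (hN : N ≠ 0) (h2N : 2 ∣ N)
    (hd : ∀ p : ℕ, p.Prime → p ≤ Module.finrank ℚ M → p ∣ N)
    {S : Finset (HeightOneSpectrum (𝓞 K))} (hS : ∀ v, v ∈ S ↔ (N : 𝓞 K) ∈ v.asIdeal)
    (hunr : ∀ W : HeightOneSpectrum (𝓞 M), W.under (𝓞 K) ∉ S →
      (W.under (𝓞 K)).asIdeal.ramificationIdx' W.asIdeal = 1)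
    {n : ℕ} {η : HeightOneSpectrum (𝓞 K) → A} (hη : IsRay S n η) {k : ℕ} (hk : k ≠ 0)
    (h : ∀ v ∉ S, (Ideal.absNorm v.asIdeal).Prime → (k : 𝓞 K) ∉ v.asIdeal → ¬ Inert M v → η v = 0)
    {w : HeightOneSpectrum (𝓞 K)} (hw : w ∉ S) (hwM : ¬ Inert M w) : η w = 0 := by
  classical
  obtain ⟨W, rfl⟩ := exists_below_eq M w
  set n' : ℕ := (n + 1) * ∑ V ∈ above M S, (V.under (𝓞 K)).asIdeal.ramificationIdx' V.asIdeal
    with hn'
  have hNW : (N : 𝓞 M) ∉ W.asIdeal := fun h' =>
    hw ((hS _).mpr (natCast_mem_under.mpr h'))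
  obtain ⟨α, hα, hαW, hαV⟩ := exists_elem_degOne hN h2N hd W hNW n' k hk
  have hSV : ∀ V : HeightOneSpectrum (𝓞 M), V.under (𝓞 K) ∈ S → α ∈ cong V n' := fun V hV =>
    hα V (natCast_mem_under.mp ((hS _).mp hV))
  have hconj : ∀ V : HeightOneSpectrum (𝓞 M), (conj σ V).under (𝓞 K) = V.under (𝓞 K) :=
    fun V => below_conj σ V
  have hray := hη (normU (K := K) M α) fun v hv => by
    obtain ⟨V, rfl⟩ := exists_below_eq M v
    refine normU_mem_cong h2 hσ (n' := n') ?_ (hSV V hv) (hSV _ (by rw [hconj]; exact hv))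
    have h3 : (V.under (𝓞 K)).asIdeal.ramificationIdx' V.asIdeal ≤
        ∑ V ∈ above M S, (V.under (𝓞 K)).asIdeal.ramificationIdx' V.asIdeal :=
      Finset.single_le_sum (f := fun V : HeightOneSpectrum (𝓞 M) =>
        (V.under (𝓞 K)).asIdeal.ramificationIdx' V.asIdeal) (fun _ _ => Nat.zero_le _)
        ((mem_above M).mpr hv)
    calc _ ≤ (∑ V ∈ above M S, (V.under (𝓞 K)).asIdeal.ramificationIdx' V.asIdeal) * (n + 1) :=
          Nat.mul_le_mul_right _ h3
      _ = n' := by rw [hn', mul_comm]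
      _ ≤ n' + 1 := Nat.le_succ _
  -- a place upstairs of positive order different from `W`
  have key : ∀ V : HeightOneSpectrum (𝓞 M), V ≠ W → ord V α ≠ 0 → V.under (𝓞 K) ∉ S →
      η (V.under (𝓞 K)) = 0 := by
    intro V hVW hV hVS
    obtain ⟨-, h3, h4, -⟩ := hαV V hVW hV
    obtain ⟨h5, h6⟩ := absNorm_under (K := K) h3
    refine h _ hVS h5 (fun h7 => h4 (natCast_mem_under.mp h7)) fun h7 => ?_
    rw [inert_iff h2 hσ] at h7
    have := (residue h2 hσ V h7 (hunr V hVS)).1
    omega
  have h1 : (rayVal S η (normU (K := K) M α)).toAdd = 0 := toAdd_eq_zero.mpr hray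
  rw [toAdd_rayVal_eq_sum S {W.under (𝓞 K)} η, Finset.sum_singleton, if_neg hw] at h1
  · rw [ord_normU h2 hσ (hunr W hw), hαW, add_smul, one_smul] at h1
    by_cases h3 : ord (conj σ W) α = 0
    · rw [h3, zero_smul, add_zero] at h1
      exact h1
    · have hne : conj σ W ≠ W := fun h' => hwM ((inert_iff h2 hσ).mpr h')
      have := key (conj σ W) hne h3 (by rw [hconj]; exact hw)
      rwa [hconj] at this
  · intro v hvw hvS
    rw [Finset.mem_singleton] at hvw
    obtain ⟨V, rfl⟩ := exists_below_eq M v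
    by_cases h3 : ord V α = 0
    · by_cases h4 : ord (conj σ V) α = 0
      · rw [ord_normU h2 hσ (hunr V hvS), h3, h4, add_zero, zero_smul]
      · have := key (conj σ V) (fun h' => hvw (by rw [← h', hconj])) h4 (by rw [hconj]; exact hvS)
        rw [hconj] at this
        rw [this, smul_zero]
    · rw [key V (fun h' => hvw (by rw [h'])) h3 hvS, smul_zero]

omit [NumberField M] [IsGalois K M] in
theorem ord_zpow' (v : HeightOneSpectrum (𝓞 K)) (x : Kˣ) (m : ℤ) : ord v (x ^ m) = m * ord v x := by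
  have h := valuation_eq_exp_neg_ord (K := K) v (x ^ m)
  rw [Units.val_zpow_eq_zpow_val, map_zpow₀, valuation_eq_exp_neg_ord, ← exp_zsmul, exp_inj,
    smul_eq_mul] at h
  linarith

include h2 hσ in
/-- adjoining a square root of an element of even order away from two is unramified -/
theorem ramificationIdx'_eq_one {α : M} {a : Kˣ} (hα : α ^ 2 = algebraMap K M a)
    (hσα : σ α = -α) {W : HeightOneSpectrum (𝓞 M)} (h2W : ((2 : ℕ) : 𝓞 M) ∉ W.asIdeal)
    (hord : (2 : ℤ) ∣ ord (W.under (𝓞 K)) a) :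
    (W.under (𝓞 K)).asIdeal.ramificationIdx' W.asIdeal = 1 := by
  classical
  have hG : Nat.card Gal(M/K) = 2 := by rw [IsGalois.card_aut_eq_finrank, h2]
  have hin : W.asIdeal.inertia Gal(M/K) = ⊥ := by
    rw [Subgroup.eq_bot_iff_forall]
    intro g hg
    rcases eq_one_or_of_card_two hG hσ g with h | h
    · exact h
    exfalso
    rw [h] at hg
    obtain ⟨m, hm⟩ := hord
    obtain ⟨π, hπ⟩ := Fermat.Agent.CFT.Global.exists_ord_eq_one (W.under (𝓞 K))
    set c : K := ((π ^ m : Kˣ) : K) with hc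
    have hc0 : algebraMap K M c ≠ 0 := (map_ne_zero _).mpr (Units.ne_zero _)
    set β : M := α / algebraMap K M c with hβ
    have hβ2 : β ^ 2 = algebraMap K M ((a / (π ^ m) ^ 2 : Kˣ) : K) := by
      rw [hβ, div_pow, hα, Units.val_div_eq_div_val, map_div₀, Units.val_pow_eq_pow_val, ← hc,
        map_pow]
    have hord0 : ord (W.under (𝓞 K)) (a / (π ^ m) ^ 2) = 0 := by
      have h3 : ∀ m : ℤ, ord (W.under (𝓞 K)) (π ^ m) = m := by
        intro m
        rw [ord_zpow', hπ, mul_one]
      rw [ord_div, ord_pow, h3, hm]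
      push_cast
      ring
    have hβ1 : W.valuation M β = 1 := by
      have h3 : W.valuation M (β ^ 2) = 1 := by
        rw [hβ2, Fermat.Agent.CFT.Places.valuation_algebraMap_eq_one_iff]
        exact (ord_eq_zero_iff _ _ _).mp hord0
      rw [map_pow] at h3
      exact (pow_eq_one_iff_of_nonneg zero_le two_ne_zero).mp h3
    have hσβ : σ β = -β := by
      rw [hβ, map_div₀, hσα, AlgEquiv.commutes, neg_div]
    obtain ⟨t, ht⟩ := W.exists_valuation_sub_lt_of_integer hβ1.le 1
    rw [Units.val_one] at ht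
    have h4 : conj σ W = W := by
      apply HeightOneSpectrum.ext
      rw [← smul_asIdeal]
      exact MulAction.mem_stabilizer_iff.mp (Ideal.inertia_le_stabilizer W.asIdeal hg)
    have h5 : W.valuation M (σ (t : M) - t) < 1 := by
      have h6 : σ • t - t ∈ W.asIdeal := hg t
      rw [← W.intValuation_lt_one_iff_mem, ← W.valuation_of_algebraMap (K := M)] at h6
      exact h6
    have h7 : W.valuation M (σ ((t : M) - β)) < 1 := by
      rw [valuation_apply h2 hσ, h4]
      exact ht
    have h8 : W.valuation M (-((2 : ℕ) : M) * β) < 1 := by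
      have e : -((2 : ℕ) : M) * β = (σ (t : M) - t) - σ ((t : M) - β) + ((t : M) - β) := by
        rw [map_sub, hσβ]
        push_cast
        ring
      rw [e]
      refine (Valuation.map_add _ _ _).trans_lt (max_lt ?_ ht)
      exact (Valuation.map_sub _ _ _).trans_lt (max_lt h5 h7)
    rw [map_mul, hβ1, mul_one, Valuation.map_neg] at h8
    apply h2W
    rw [← W.intValuation_lt_one_iff_mem, ← W.valuation_of_algebraMap (K := M)]
    exact h8
  have hv0 : (W.under (𝓞 K)).asIdeal ≠ ⊥ := (W.under (𝓞 K)).ne_bot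
  rw [Ideal.ramificationIdx'_eq_ramificationIdx (W.under (𝓞 K)).asIdeal W.asIdeal hv0,
    ← Ideal.ramificationIdxIn_eq_ramificationIdx (W.under (𝓞 K)).asIdeal W.asIdeal Gal(M/K),
    ← Ideal.card_inertia_eq_ramificationIdxIn (G := Gal(M/K)) (W.under (𝓞 K)).asIdeal W.asIdeal,
    hin, Subgroup.card_bot]

end

end Fermat.Agent.LT.NV
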