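import Fermat.Agent.CFT.Global2.ProductFormula

/-!
# Characters of order `p` from the product formula

`K` is a totally complex number field containing the `p`-th roots of unity, `a : Kˣ`, `S` a finite
set of places containing the places above `p` and the places where `a` is not a unit. The
product formula for the symbols `(a, x)_v` gives a character of `Kˣ`, trivial on elements close
to `1` at `S`, trivial on `S`-units and detecting the places at which `a` is a local `p`-th power.
For class number one, this is turned into a character of `(𝓞 K ⧸ N)ˣ`.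
-/

set_option autoImplicit false

namespace Fermat.Agent.LT.CubicChar

open Fermat.Agent.CFT.Global Fermat.Agent.CFT.Global2 Fermat.Agent.CFT.SUnits
open NumberField IsDedekindDomain WithZero

section General

variable {K : Type} [Field K] [NumberField K]

/-- The Kummer character attached to `a` (places in `S` are the bad ones). -/
structure KChar (p : ℕ) (a : Kˣ) (S : Finset (HeightOneSpectrum (𝓞 K))) where
  /-- the character -/
  hom : Kˣ →* Multiplicative (ZMod p)
  /-- the exponent of the conductor -/
  n : ℕ
  map_cong : ∀ x : Kˣ, (∀ v ∈ S, x ∈ cong v n) → hom x = 1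
  map_unit : ∀ x ∈ E S, hom x = 1
  map_place : ∀ v ∉ S, ∀ x : Kˣ, (∀ w ∉ S, w ≠ v → ord w x = 0) →
    (hom x = 1 ↔ (a ∈ locPow p v ∨ (p : ℤ) ∣ ord v x))

variable {p : ℕ} [hp : Fact p.Prime]

lemma exists_ord_eq_one (v : HeightOneSpectrum (𝓞 K)) : ∃ π : Kˣ, ord v π = 1 := by
  obtain ⟨π, hπ⟩ := v.valuation_exists_uniformizer K
  have h0 : π ≠ 0 := by
    rintro rfl
    rw [map_zero] at hπ
    exact exp_ne_zero hπ.symm
  refine ⟨Units.mk0 π h0, ?_⟩
  have h := valuation_eq_exp_neg_ord K v (Units.mk0 π h0)
  rw [Units.val_mk0, hπ, exp_inj] at h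
  omega

/-- At a place away from `p` where `a` is a unit: `(a, x)_v` is trivial iff `a` is a local `p`-th
power or `p ∣ ord v x`. -/
lemma sym_eq_one_iff (LS : LocalSymbols p K) {v : HeightOneSpectrum (𝓞 K)}
    (hv : (p : 𝓞 K) ∉ v.asIdeal) {a : Kˣ} (ha : ord v a = 0) (x : Kˣ) :
    LS.sym v a x = 1 ↔ (a ∈ locPow p v ∨ (p : ℤ) ∣ ord v x) := by
  obtain ⟨π, hπ⟩ := exists_ord_eq_one v
  have key : ∀ y : Kˣ, LS.sym v a y = LS.sym v a π ^ ord v y := by
    intro y
    have h1 : ord v (y / π ^ ord v y) = 0 := by
      rw [ord_div]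
      have : ord v (π ^ ord v y) = ord v y := by
        have h2 : ∀ k : ℤ, ord v (π ^ k) = k := by
          intro k
          cases k with
          | ofNat k => rw [Int.ofNat_eq_natCast, zpow_natCast, ord_pow, hπ, mul_one]
          | negSucc k => rw [zpow_negSucc, ord_inv, ord_pow, hπ, mul_one, Int.negSucc_eq]; push_cast; ring
        exact h2 _
      rw [this, sub_self]
    have h3 := LS.unit_mem v hv a _ ha h1
    rw [map_div, div_eq_one] at h3
    rw [h3, map_zpow]
  have hexp : LS.sym v a π ^ (p : ℤ) = 1 := by
    rw [zpow_natCast]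
    have : ∀ z : Multiplicative (ZMod p), z ^ p = 1 := by
      intro z
      rw [← toAdd_eq_zero, toAdd_pow, nsmul_eq_mul, CharP.cast_eq_zero, zero_mul]
    exact this _
  constructor
  · intro h
    by_cases h1 : LS.sym v a π = 1
    · left
      rw [LS.mem_locPow_iff]
      intro y
      rw [key, h1, one_zpow]
    · right
      rw [key] at h
      have h2 : orderOf (LS.sym v a π) = p :=
        orderOf_eq_prime (by rw [← zpow_natCast]; exact hexp) h1
      rw [← h2]
      exact orderOf_dvd_iff_zpow_eq_one.mpr h
  · rintro (h | ⟨k, hk⟩)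
    · exact (LS.mem_locPow_iff v a).mp h x
    · rw [key, hk, zpow_mul, hexp, one_zpow]

/-- The Kummer character exists. -/
theorem nonempty_kChar [IsTotallyComplex K] {ζ : K} (hζ : IsPrimitiveRoot ζ p)
    {S : Finset (HeightOneSpectrum (𝓞 K))} (hS : AboveP p S) {a : Kˣ} (ha : a ∈ E S) :
    Nonempty (KChar p a S) := by
  classical
  obtain ⟨LS, c, hc, hprod⟩ := exists_productFormula (p := p) K hζ
  choose n hn using fun v : HeightOneSpectrum (𝓞 K) => exists_cong_le_locPow p hp.out.ne_zero v
  let f : Kˣ →* Multiplicative (ZMod p) :=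
    { toFun := fun x => Multiplicative.ofAdd (∑ v ∈ S, c v * (LS.sym v a x).toAdd)
      map_one' := by simp
      map_mul' := by
        intro x y
        rw [← ofAdd_add, ← Finset.sum_add_distrib]
        congr 1
        refine Finset.sum_congr rfl fun v _ => ?_
        rw [map_mul, toAdd_mul, mul_add] }
  have hf : ∀ x, f x = Multiplicative.ofAdd (∑ v ∈ S, c v * (LS.sym v a x).toAdd) := fun x => rfl
  -- the product formula over a finite set containing the support
  have hT : ∀ (T : Finset (HeightOneSpectrum (𝓞 K))) (x : Kˣ),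
      (∀ v ∉ T, LS.sym v a x = 1) → ∑ v ∈ T, c v * (LS.sym v a x).toAdd = 0 := by
    intro T x hx
    rw [← hprod a x]
    symm
    rw [Finsupp.sum]
    simp only [symVec_apply]
    apply Finset.sum_subset
    · intro v hv
      by_contra h
      rw [Finsupp.mem_support_iff, symVec_apply, hx v h] at hv
      exact hv rfl
    · intro v _ hv
      rw [Finsupp.notMem_support_iff, symVec_apply] at hv
      rw [hv, mul_zero]
  refine ⟨⟨f, S.sup n, ?_, ?_, ?_⟩⟩
  · intro x hx
    rw [hf, ofAdd_eq_one]
    refine Finset.sum_eq_zero fun v hv => ?_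
    have h1 : x ∈ locPow p v := hn v (cong_anti v (Finset.le_sup hv) (hx v hv))
    have h2 : LS.sym v a x = 1 := LS.sym_eq_one_of_right h1
    rw [h2, toAdd_one, mul_zero]
  · intro x hx
    rw [hf, ofAdd_eq_one]
    exact hT S x fun v hv => LS.sym_unit hS ha hx hv
  · intro v hv x hx
    have hva : ord v a = 0 := mem_E.mp ha v hv
    have hvp : (p : 𝓞 K) ∉ v.asIdeal := fun h => hv (hS v h)
    rw [← sym_eq_one_iff LS hvp hva x]
    have h1 := hT (insert v S) x (by
      intro w hw
      rw [Finset.mem_insert, not_or] at hw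
      exact LS.unit_mem w (fun h => hw.2 (hS w h)) a x (mem_E.mp ha w hw.2) (hx w hw.2 hw.1))
    rw [Finset.sum_insert hv] at h1
    rw [hf, ofAdd_eq_one]
    constructor
    · intro h
      rw [h, add_zero] at h1
      have h2 := (mul_eq_zero.mp h1).resolve_left (hc v)
      rw [← toAdd_eq_zero]
      exact h2
    · intro h
      rw [h, toAdd_one, mul_zero, zero_add] at h1
      exact h1

end General

end Fermat.Agent.LT.CubicChar
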