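import Mathlib

/-!
# The ring of integers of `K = ℚ(√-3)`

For a number field `K` of degree two with `s : 𝓞 K`, `s ^ 2 = -3`: `𝓞 K = ℤ ⊕ ℤ ω`,
`ω = (s - 1) / 2`, complex conjugation as a `StarRing` structure, norms, split primes.
-/

set_option autoImplicit false

noncomputable section

open NumberField Module Polynomial

namespace Fermat.Agent.LT.EisK

variable {K : Type*} [Field K] [NumberField K]

theorem exists_omega {s : 𝓞 K} (hs : s ^ 2 = -3) :
    ∃ ω : 𝓞 K, s = 1 + 2 * ω ∧ ω ^ 2 + ω + 1 = 0 := by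
  have hsK : (s : K) ^ 2 = -3 := by
    have := congrArg (fun x : 𝓞 K => (x : K)) hs
    push_cast at this
    exact this
  have hw : (((s : K) - 1) / 2) ^ 2 + ((s : K) - 1) / 2 + 1 = 0 := by
    linear_combination (1 / 4) * hsK
  have hint : IsIntegral ℤ (((s : K) - 1) / 2) := by
    refine ⟨X ^ 2 + X + 1, ?_, ?_⟩
    · monicity!
    · simpa using hw
  refine ⟨⟨((s : K) - 1) / 2, hint⟩, ?_, ?_⟩
  · apply RingOfIntegers.ext
    change (s : K) = 1 + 2 * (((s : K) - 1) / 2)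
    ring
  · apply RingOfIntegers.ext
    exact hw

theorem isPrimitiveRoot {ω : 𝓞 K} (hω : ω ^ 2 + ω + 1 = 0) : IsPrimitiveRoot (ω : K) 3 := by
  have : NeZero ((3 : ℕ) : K) := ⟨by norm_num⟩
  rw [← Polynomial.isRoot_cyclotomic_iff, Polynomial.cyclotomic_three, IsRoot.def]
  have := congrArg (algebraMap (𝓞 K) K) hω
  simpa using this

open IntermediateField in
theorem isCyc (hK : finrank ℚ K = 2) {ω : 𝓞 K} (hω : ω ^ 2 + ω + 1 = 0) :
    IsCyclotomicExtension {3} ℚ K := by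
  have hprim := isPrimitiveRoot hω
  have h1 : IsCyclotomicExtension {3} ℚ ℚ⟮(ω : K)⟯ :=
    hprim.intermediateField_adjoin_isCyclotomicExtension ℚ
  have h2 : finrank ℚ ℚ⟮(ω : K)⟯ = 2 := by
    rw [IsCyclotomicExtension.finrank (n := 3) ℚ⟮(ω : K)⟯ (cyclotomic.irreducible_rat (by norm_num))]
    decide
  have h3 : ℚ⟮(ω : K)⟯ = ⊤ := by
    apply IntermediateField.eq_of_le_of_finrank_eq le_top
    rw [h2, IntermediateField.finrank_top', hK]
  exact IsCyclotomicExtension.equiv {3} ℚ ℚ⟮(ω : K)⟯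
    ((IntermediateField.equivOfEq h3).trans IntermediateField.topEquiv)

section Cyc

variable [hcyc : IsCyclotomicExtension {3} ℚ K]

/-- every integer is `a + b ω` -/
theorem exists_coord {ω : 𝓞 K} (hω : ω ^ 2 + ω + 1 = 0) (x : 𝓞 K) :
    ∃ a b : ℤ, x = a + b * ω := by
  have hprim := isPrimitiveRoot hω
  have hgen : hprim.integralPowerBasis.gen = ω := by
    rw [hprim.integralPowerBasis_gen]; rfl
  have htop := hprim.integralPowerBasis.adjoin_gen_eq_top
  rw [hgen] at htop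
  have hx : x ∈ Algebra.adjoin ℤ {ω} := by rw [htop]; trivial
  induction hx using Algebra.adjoin_induction with
  | mem y hy => exact ⟨0, 1, by rw [Set.mem_singleton_iff.mp hy]; simp⟩
  | algebraMap r => exact ⟨r, 0, by simp⟩
  | add y z _ _ hy hz =>
    obtain ⟨a, b, rfl⟩ := hy
    obtain ⟨c, d, rfl⟩ := hz
    exact ⟨a + c, b + d, by push_cast; ring⟩
  | mul y z _ _ hy hz =>
    obtain ⟨a, b, rfl⟩ := hy
    obtain ⟨c, d, rfl⟩ := hz
    exact ⟨a * c - b * d, a * d + b * c - b * d, by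
      push_cast; linear_combination (b * d : 𝓞 K) * hω⟩

omit [NumberField K] hcyc in
theorem indep [NumberField K] {ω : 𝓞 K} (hω : ω ^ 2 + ω + 1 = 0) (a b : ℤ)
    (h : (a : 𝓞 K) + b * ω = 0) : a = 0 ∧ b = 0 := by
  have hN : ((a ^ 2 - a * b + b ^ 2 : ℤ) : 𝓞 K) = 0 := by
    push_cast
    linear_combination (a - b - b * ω : 𝓞 K) * h + (b ^ 2 : 𝓞 K) * hω
  have hN' : a ^ 2 - a * b + b ^ 2 = 0 := by exact_mod_cast hN
  have hb : b = 0 := by nlinarith [sq_nonneg (2 * a - b), sq_nonneg b]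
  subst hb
  exact ⟨by nlinarith, rfl⟩

variable (K) in
theorem finrank_eq : finrank ℚ K = 2 := by
  rw [IsCyclotomicExtension.finrank (n := 3) K (cyclotomic.irreducible_rat (by norm_num))]
  decide

omit hcyc in
theorem int_dvd [IsCyclotomicExtension {3} ℚ K] {ω : 𝓞 K} (hω : ω ^ 2 + ω + 1 = 0) {n x y : ℤ}
    (h : (n : 𝓞 K) ∣ (x : 𝓞 K) + (y : 𝓞 K) * ω) : n ∣ x ∧ n ∣ y := by
  obtain ⟨z, hz⟩ := h
  obtain ⟨u, v, rfl⟩ := exists_coord hω z
  have := indep hω (x - n * u) (y - n * v) (by push_cast; linear_combination hz)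
  exact ⟨⟨u, by omega⟩, ⟨v, by omega⟩⟩

variable (K) in
/-- complex conjugation on `𝓞 K` -/
def conjO : 𝓞 K ≃+* 𝓞 K :=
  haveI : IsCMField K := IsCyclotomicExtension.Rat.isCMField K (S := {3}) ⟨3, rfl, by norm_num⟩
  RingOfIntegers.mapRingEquiv (IsCMField.complexConj K).toRingEquiv

theorem map_conjO (σ : K →+* ℂ) (x : 𝓞 K) :
    σ (conjO K x : K) = starRingEnd ℂ (σ (x : K)) := by
  have : IsCMField K := IsCyclotomicExtension.Rat.isCMField K (S := {3}) ⟨3, rfl, by norm_num⟩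
  exact IsCMField.complexEmbedding_complexConj K σ (x : K)

variable (K) in
/-- complex conjugation as a star structure on `𝓞 K`; use `letI := EisK.starO K`. -/
abbrev starO : StarRing (𝓞 K) where
  star := conjO K
  star_involutive x := by
    have : IsCMField K := IsCyclotomicExtension.Rat.isCMField K (S := {3}) ⟨3, rfl, by norm_num⟩
    apply RingOfIntegers.ext
    exact IsCMField.complexConj_apply_apply K (x : K)
  star_mul x y := by rw [map_mul, mul_comm]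
  star_add x y := by rw [map_add]

attribute [local instance] starO

theorem star_def (x : 𝓞 K) : star x = conjO K x := rfl

theorem map_star (σ : K →+* ℂ) (x : 𝓞 K) :
    σ (star x : 𝓞 K) = starRingEnd ℂ (σ (x : K)) := map_conjO σ x

/-- the embedding of `𝓞 K` in `ℂ` -/
theorem map_star' (σ : K →+* ℂ) (x : 𝓞 K) :
    (σ.comp (algebraMap (𝓞 K) K)) (star x) =
      starRingEnd ℂ ((σ.comp (algebraMap (𝓞 K) K)) x) := map_conjO σ x

omit [NumberField K] hcyc in
theorem embO_injective (σ : K →+* ℂ) :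
    Function.Injective (σ.comp (algebraMap (𝓞 K) K)) := by
  rw [RingHom.coe_comp]
  exact σ.injective.comp RingOfIntegers.coe_injective

theorem star_omega {ω : 𝓞 K} (hω : ω ^ 2 + ω + 1 = 0) : star ω = -1 - ω := by
  have h1 : (star ω) ^ 2 + star ω + 1 = 0 := by
    have := congrArg star hω
    simpa using this
  have h2 : (ω - star ω) * (ω + star ω + 1) = 0 := by linear_combination hω - h1
  rcases mul_eq_zero.mp h2 with h3 | h3
  · exfalso
    obtain ⟨σ⟩ : Nonempty (K →+* ℂ) := inferInstance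
    have h4 : star ω = ω := (sub_eq_zero.mp h3).symm
    have h5 := map_star σ ω
    rw [h4] at h5
    have h6 : (σ (ω : K)) ^ 2 + σ (ω : K) + 1 = 0 := by
      have := congrArg (fun x : 𝓞 K => σ (x : K)) hω
      simpa using this
    obtain ⟨r, hr⟩ := Complex.conj_eq_iff_real.mp h5.symm
    rw [hr] at h6
    have h7 : r ^ 2 + r + 1 = 0 := by exact_mod_cast h6
    nlinarith [sq_nonneg (r + 1 / 2)]
  · linear_combination h3

theorem star_coord {ω : 𝓞 K} (hω : ω ^ 2 + ω + 1 = 0) (a b : ℤ) :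
    star ((a : 𝓞 K) + b * ω) = ((a - b : ℤ) : 𝓞 K) + ((-b : ℤ) : 𝓞 K) * ω := by
  rw [star_add, star_mul', star_intCast, star_intCast, star_omega hω]
  push_cast; ring

theorem star_s {s : 𝓞 K} (hs : s ^ 2 = -3) : star s = -s := by
  obtain ⟨ω, rfl, hω⟩ := exists_omega hs
  rw [star_add, star_mul', star_one, star_ofNat, star_omega hω]
  ring

omit hcyc in
theorem exists_omega' [IsCyclotomicExtension {3} ℚ K] : ∃ ω : 𝓞 K, ω ^ 2 + ω + 1 = 0 := by
  have hζ := IsCyclotomicExtension.zeta_spec 3 ℚ K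
  refine ⟨hζ.toInteger, ?_⟩
  have h := hζ.toInteger_isPrimitiveRoot
  have h1 := h.geom_sum_eq_zero (by norm_num)
  simp only [Finset.sum_range_succ, Finset.sum_range_zero, pow_zero, pow_one] at h1
  linear_combination h1

theorem exists_nrm (x : 𝓞 K) : ∃ n : ℤ, (n : 𝓞 K) = x * star x := by
  obtain ⟨ω, hω⟩ := exists_omega' (K := K)
  obtain ⟨a, b, rfl⟩ := exists_coord hω x
  refine ⟨a ^ 2 - a * b + b ^ 2, ?_⟩
  rw [star_coord hω]
  push_cast
  linear_combination (b ^ 2 : 𝓞 K) * hω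

theorem exists_tr (x : 𝓞 K) : ∃ n : ℤ, (n : 𝓞 K) = x + star x := by
  obtain ⟨ω, hω⟩ := exists_omega' (K := K)
  obtain ⟨a, b, rfl⟩ := exists_coord hω x
  refine ⟨2 * a - b, ?_⟩
  rw [star_coord hω]
  push_cast
  ring

/-- the norm -/
def nrm (x : 𝓞 K) : ℤ := (exists_nrm x).choose

theorem nrm_eq (x : 𝓞 K) : (nrm x : 𝓞 K) = x * star x := (exists_nrm x).choose_spec

/-- the trace -/
def tr (x : 𝓞 K) : ℤ := (exists_tr x).choose

theorem tr_eq (x : 𝓞 K) : (tr x : 𝓞 K) = x + star x := (exists_tr x).choose_spec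

theorem nrm_coord {ω : 𝓞 K} (hω : ω ^ 2 + ω + 1 = 0) (a b : ℤ) :
    nrm ((a : 𝓞 K) + (b : 𝓞 K) * ω) = a ^ 2 - a * b + b ^ 2 := by
  have h : ((nrm ((a : 𝓞 K) + (b : 𝓞 K) * ω) : ℤ) : 𝓞 K) = ((a ^ 2 - a * b + b ^ 2 : ℤ) : 𝓞 K) := by
    rw [nrm_eq, star_coord hω]
    push_cast
    linear_combination (-(b ^ 2) : 𝓞 K) * hω
  exact_mod_cast h

theorem nrm_mul (x y : 𝓞 K) : nrm (x * y) = nrm x * nrm y := by
  have h : ((nrm (x * y) : ℤ) : 𝓞 K) = ((nrm x * nrm y : ℤ) : 𝓞 K) := by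
    push_cast
    rw [nrm_eq, nrm_eq, nrm_eq, star_mul']
    ring
  exact_mod_cast h

theorem nrm_intCast (n : ℤ) : nrm (n : 𝓞 K) = n ^ 2 := by
  have h : ((nrm (n : 𝓞 K) : ℤ) : 𝓞 K) = ((n ^ 2 : ℤ) : 𝓞 K) := by
    rw [nrm_eq, star_intCast]; push_cast; ring
  exact_mod_cast h

theorem nrm_natCast (n : ℕ) : nrm (n : 𝓞 K) = (n : ℤ) ^ 2 := by
  have := nrm_intCast (K := K) n
  simpa using this

theorem nrm_star (x : 𝓞 K) : nrm (star x) = nrm x := by
  have h : ((nrm (star x) : ℤ) : 𝓞 K) = ((nrm x : ℤ) : 𝓞 K) := by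
    rw [nrm_eq, nrm_eq, star_star, mul_comm]
  exact_mod_cast h

theorem norm_sq (σ : K →+* ℂ) (x : 𝓞 K) : ‖σ (x : K)‖ ^ 2 = (nrm x : ℝ) := by
  have h := congrArg (fun y : 𝓞 K => σ (y : K)) (nrm_eq x)
  have h2 : σ ((x * star x : 𝓞 K) : K) = σ (x : K) * starRingEnd ℂ (σ (x : K)) := by
    rw [← map_star σ x, ← map_mul]; rfl
  have h3 : ((nrm x : ℤ) : ℂ) = ((‖σ (x : K)‖ ^ 2 : ℝ) : ℂ) := by
    rw [← Complex.normSq_eq_norm_sq, Complex.normSq_eq_conj_mul_self, mul_comm, ← h2, ← h]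
    simp
  exact_mod_cast h3.symm

theorem nrm_nonneg (x : 𝓞 K) : 0 ≤ nrm x := by
  obtain ⟨σ⟩ : Nonempty (K →+* ℂ) := inferInstance
  have := norm_sq σ x
  exact_mod_cast this ▸ sq_nonneg _

theorem nrm_eq_zero {x : 𝓞 K} : nrm x = 0 ↔ x = 0 := by
  obtain ⟨σ⟩ : Nonempty (K →+* ℂ) := inferInstance
  constructor
  · intro h
    have := norm_sq σ x
    rw [h] at this
    have h2 : σ (x : K) = 0 := by simpa using this
    have h3 : (x : K) = 0 := (map_eq_zero σ).mp h2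
    exact_mod_cast h3
  · rintro rfl
    have := nrm_intCast (K := K) 0
    simpa using this

theorem nrm_dvd {x y : 𝓞 K} (h : x ∣ y) : nrm x ∣ nrm y := by
  obtain ⟨z, rfl⟩ := h
  exact ⟨nrm z, nrm_mul x z⟩

theorem nrm_eq_one_iff {x : 𝓞 K} : nrm x = 1 ↔ IsUnit x := by
  constructor
  · intro h
    have := nrm_eq x
    rw [h, Int.cast_one] at this
    exact IsUnit.of_mul_eq_one _ this.symm
  · intro h
    have h1 := nrm_dvd (isUnit_iff_dvd_one.mp h)
    have h2 : nrm (1 : 𝓞 K) = 1 := by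
      have := nrm_intCast (K := K) 1
      simpa using this
    rw [h2] at h1
    have h3 := nrm_nonneg x
    exact Int.eq_one_of_dvd_one h3 h1

/-- `nrm` is the norm of `𝓞 K` over `ℤ` (absolute norm of the principal ideal). -/
theorem absNorm_eq (x : 𝓞 K) : (Ideal.absNorm (Ideal.span {x}) : ℤ) = nrm x := by
  have h1 : Algebra.norm ℤ (star x) = Algebra.norm ℤ x :=
    Algebra.norm_eq_of_algEquiv (conjO K).toIntAlgEquiv x
  have h2 : Algebra.norm ℤ x * Algebra.norm ℤ x = nrm x ^ 2 := by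
    have h3 := congrArg (Algebra.norm ℤ) (nrm_eq x)
    rw [map_mul, h1] at h3
    rw [← h3]
    have h4 : ((nrm x : ℤ) : 𝓞 K) = algebraMap ℤ (𝓞 K) (nrm x) := by simp
    rw [h4, Algebra.norm_algebraMap, RingOfIntegers.rank, finrank_eq]
  rw [Ideal.absNorm_span_singleton]
  have h5 : |Algebra.norm ℤ x| = |nrm x| := by
    rw [← sq] at h2
    exact (sq_eq_sq_iff_abs_eq_abs _ _).mp h2
  rw [Int.natCast_natAbs, h5, abs_of_nonneg (nrm_nonneg x)]

variable (K) in
theorem isPrincipalIdealRing : IsPrincipalIdealRing (𝓞 K) :=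
  IsCyclotomicExtension.Rat.three_pid K

/-- a root of `x² + x + 1` modulo `p ≡ 1 mod 3` -/
theorem exists_root {p : ℕ} [hp : Fact p.Prime] (h3 : p % 3 = 1) :
    ∃ x : ℤ, (p : ℤ) ∣ x ^ 2 + x + 1 := by
  have hcard : 3 ∣ Fintype.card (ZMod p)ˣ := by
    rw [ZMod.card_units_eq_totient, Nat.totient_prime hp.out]
    have := hp.out.two_le
    omega
  obtain ⟨u, hu⟩ := exists_prime_orderOf_dvd_card 3 hcard
  have hu3 : u ^ 3 = 1 := by rw [← hu]; exact pow_orderOf_eq_one u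
  have hu1 : (u : ZMod p) ≠ 1 := by
    intro h
    have : u = 1 := Units.ext h
    rw [this, orderOf_one] at hu
    norm_num at hu
  have h : (u : ZMod p) ^ 2 + u + 1 = 0 := by
    have h4 : ((u : ZMod p) - 1) * ((u : ZMod p) ^ 2 + u + 1) = 0 := by
      have : (u : ZMod p) ^ 3 = 1 := by
        rw [← Units.val_pow_eq_pow_val, hu3, Units.val_one]
      linear_combination this
    exact (mul_eq_zero.mp h4).resolve_left (sub_ne_zero.mpr hu1)
  refine ⟨((u : ZMod p).val : ℤ), ?_⟩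
  rw [← ZMod.intCast_zmod_eq_zero_iff_dvd]
  push_cast
  rw [ZMod.natCast_zmod_val]
  exact h

/-- a prime `p ≡ 1 mod 3` is a norm -/
theorem exists_split {p : ℕ} [hp : Fact p.Prime] (h3 : p % 3 = 1) :
    ∃ π : 𝓞 K, nrm π = p := by
  obtain ⟨ω, hω⟩ := exists_omega' (K := K)
  obtain ⟨x, hx⟩ := exists_root h3
  have := isPrincipalIdealRing K
  obtain ⟨π, hπ⟩ := (IsPrincipalIdealRing.principal (Ideal.span {(p : 𝓞 K), (x : 𝓞 K) - ω})).principal
  have hπ' : Ideal.span {(p : 𝓞 K), (x : 𝓞 K) - ω} = Ideal.span {π} := hπ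
  have h1 : π ∣ (p : 𝓞 K) := by
    rw [← Ideal.mem_span_singleton, ← hπ']
    exact Ideal.subset_span (by simp)
  have h2 : π ∣ (x : 𝓞 K) - ω := by
    rw [← Ideal.mem_span_singleton, ← hπ']
    exact Ideal.subset_span (by simp)
  have hdvd : ∀ {a b : ℤ}, (p : 𝓞 K) ∣ (a : 𝓞 K) + (b : 𝓞 K) * ω → (p : ℤ) ∣ b := by
    intro a b h
    exact (int_dvd hω (n := (p : ℤ)) (by simpa using h)).2
  have hd1 : nrm π ∣ (p : ℤ) ^ 2 := by
    have := nrm_dvd h1
    rwa [nrm_natCast] at this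
  -- `nrm π` is `1`, `p` or `p ^ 2`
  have hnn := nrm_nonneg π
  have hp1 : ¬ (p : ℤ) ∣ 1 := by
    intro h
    have := Int.eq_one_of_dvd_one (by positivity) h
    exact hp.out.one_lt.ne' (by exact_mod_cast this)
  have hd2 : (nrm π).natAbs ∣ p ^ 2 := by
    have := Int.natAbs_dvd_natAbs.mpr hd1
    simpa [Int.natAbs_pow] using this
  obtain ⟨k, hk, hk2⟩ := (Nat.dvd_prime_pow hp.out).mp hd2
  have hk3 : nrm π = (p : ℤ) ^ k := by
    have h := Int.natAbs_of_nonneg hnn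
    rw [hk2] at h
    rw [← h]; push_cast; rfl
  interval_cases k
  · exfalso
    have hu : IsUnit π := nrm_eq_one_iff.mp (by rw [hk3, pow_zero])
    have h5 : (1 : 𝓞 K) ∈ Ideal.span {(p : 𝓞 K), (x : 𝓞 K) - ω} := by
      rw [hπ', Ideal.mem_span_singleton]
      exact hu.dvd
    rw [Ideal.mem_span_pair] at h5
    obtain ⟨α, β, h6⟩ := h5
    obtain ⟨c, hc⟩ := hx
    have hcO : (x : 𝓞 K) ^ 2 + x + 1 = p * c := by exact_mod_cast congrArg (Int.cast (R := 𝓞 K)) hc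
    apply hp1
    apply hdvd (a := x + 1) (b := 1)
    refine ⟨α * ((x : 𝓞 K) + 1 + ω) + c * β, ?_⟩
    push_cast
    linear_combination (-((x : 𝓞 K) + 1 + ω)) * h6 + β * hcO - β * hω
  · exact ⟨π, by rw [hk3, pow_one]⟩
  · exfalso
    obtain ⟨y, hy⟩ := h1
    have h7 : nrm y = 1 := by
      have h8 : nrm (p : 𝓞 K) = nrm π * nrm y := by rw [hy, nrm_mul]
      rw [nrm_natCast, hk3] at h8
      have hp0 : (p : ℤ) ^ 2 ≠ 0 := pow_ne_zero 2 (by exact_mod_cast hp.out.ne_zero)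
      exact (mul_left_cancel₀ hp0 (by rw [← h8, mul_one])).symm
    have hyu : IsUnit y := nrm_eq_one_iff.mp h7
    have h9 : (p : 𝓞 K) ∣ (x : 𝓞 K) - ω := by
      rw [hy]
      exact (hyu.mul_right_dvd).mpr h2
    have h10 := hdvd (a := x) (b := -1) (by push_cast; rwa [neg_one_mul, ← sub_eq_add_neg])
    exact hp1 (by simpa using h10)

theorem prime_of_nrm {p : ℕ} [hp : Fact p.Prime] {π : 𝓞 K} (h : nrm π = p) : Prime π := by
  have h1 := absNorm_eq π
  rw [h] at h1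
  have h2 : Ideal.absNorm (Ideal.span {π}) = p := by exact_mod_cast h1
  apply Ideal.prime_of_irreducible_absNorm_span
  · rintro rfl
    rw [nrm_eq_zero.mpr rfl] at h
    exact hp.out.ne_zero (by exact_mod_cast h.symm)
  · rw [h2]
    exact hp.out

theorem not_dvd_of_nrm {p : ℕ} [hp : Fact p.Prime] {π : 𝓞 K} (h : nrm π = p) {N : ℕ}
    (hN : ¬ p ∣ N) : ¬ π ∣ (N : 𝓞 K) := by
  intro h1
  have h2 := nrm_dvd h1
  rw [h, nrm_natCast] at h2
  have h3 : (p : ℤ) ∣ (N : ℤ) := (Nat.prime_iff_prime_int.mp hp.out).dvd_of_dvd_pow h2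
  exact hN (by exact_mod_cast h3)

/-- reduction modulo a split prime -/
theorem exists_red {p : ℕ} [hp : Fact p.Prime] {π : 𝓞 K} (h : nrm π = p) :
    ∃ r : 𝓞 K →+* ZMod p, ∀ x, r x = 0 ↔ π ∣ x := by
  have h1 := absNorm_eq π
  rw [h] at h1
  have h2 : Ideal.absNorm (Ideal.span {π}) = p := by exact_mod_cast h1
  have h3 : Nat.card (𝓞 K ⧸ Ideal.span {π}) = p := by
    rw [← h2, Ideal.absNorm_apply, Submodule.cardQuot_apply]
  have hfin : Finite (𝓞 K ⧸ Ideal.span {π}) := Nat.finite_of_card_ne_zero (by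
    rw [h3]; exact hp.out.ne_zero)
  have := Fintype.ofFinite (𝓞 K ⧸ Ideal.span {π})
  refine ⟨((ZMod.ringEquivOfPrime (𝓞 K ⧸ Ideal.span {π}) hp.out
    (by rw [← Nat.card_eq_fintype_card, h3])).symm.toRingHom).comp
      (Ideal.Quotient.mk (Ideal.span {π})), fun x => ?_⟩
  rw [RingHom.comp_apply, ← Ideal.mem_span_singleton, ← Ideal.Quotient.eq_zero_iff_mem]
  exact map_eq_zero_iff _ (RingEquiv.injective _)

theorem not_dvd_star {p : ℕ} [hp : Fact p.Prime] {π : 𝓞 K} (h : nrm π = p) (h3 : p ≠ 3) :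
    ¬ π ∣ star π := by
  obtain ⟨ω, hω⟩ := exists_omega' (K := K)
  obtain ⟨a, b, hab⟩ := exists_coord hω π
  intro hdvd
  have hpZ : Prime (p : ℤ) := Nat.prime_iff_prime_int.mp hp.out
  have hn : a ^ 2 - a * b + b ^ 2 = p := by rw [← nrm_coord hω, ← hab, h]
  -- `π ∣ π + star π = 2 a - b`
  have h1 : (p : ℤ) ∣ 2 * a - b := by
    have h4 : π ∣ ((2 * a - b : ℤ) : 𝓞 K) := by
      have h5 : ((2 * a - b : ℤ) : 𝓞 K) = π + star π := by
        rw [hab, star_coord hω]; push_cast; ring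
      rw [h5]
      exact dvd_add dvd_rfl hdvd
    have h6 := nrm_dvd h4
    rw [h, nrm_intCast] at h6
    exact hpZ.dvd_of_dvd_pow h6
  have h2 : (p : ℤ) ∣ 3 * b ^ 2 := by
    have h7 : 3 * b ^ 2 = 4 * (p : ℤ) - (2 * a - b) * (2 * a - b) := by rw [← hn]; ring
    rw [h7]
    exact dvd_sub (dvd_mul_left _ _) (h1.mul_right _)
  have hb : (p : ℤ) ∣ b := by
    rcases hpZ.dvd_or_dvd h2 with h8 | h8
    · exfalso
      have : p ∣ 3 := by exact_mod_cast h8
      exact h3 ((Nat.prime_dvd_prime_iff_eq hp.out Nat.prime_three).mp this)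
    · exact hpZ.dvd_of_dvd_pow h8
  have ha2 : (p : ℤ) ∣ a ^ 2 := by
    have : a ^ 2 = (p : ℤ) + a * b - b * b := by rw [← hn]; ring
    rw [this]
    exact dvd_sub (dvd_add dvd_rfl (hb.mul_left a)) (hb.mul_left b)
  have ha : (p : ℤ) ∣ a := hpZ.dvd_of_dvd_pow ha2
  obtain ⟨a', rfl⟩ := ha
  obtain ⟨b', rfl⟩ := hb
  have h9 : (p : ℤ) * (p * (a' ^ 2 - a' * b' + b' ^ 2)) = p * 1 := by linear_combination hn
  have hp0 : (p : ℤ) ≠ 0 := by exact_mod_cast hp.out.ne_zero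
  have h10 := mul_left_cancel₀ hp0 h9
  exact hpZ.not_isUnit (IsUnit.of_mul_eq_one _ h10)

end Cyc

end Fermat.Agent.LT.EisK
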