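import Fermat.Agent.LT.NonVan
import Fermat.Agent.LT.Psi.Kummer

/-!
# Ray characters with values in `ZMod 2` given by Kummer characters at places of degree one
-/

set_option autoImplicit false

namespace Fermat.Agent.LT.NV

open IsDedekindDomain NumberField WithZero Polynomial
open Fermat.Agent.CFT.SUnits (ord)
open Fermat.Agent.CFT.Global (E mem_E cong mem_cong locPow mem_locPow AboveP LocalSymbols Rad
  irreducible_of_not_pow numberField_rad adjoin_root_rad exists_ord_eq_one)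
open Fermat.Agent.CFT.Global2
open Fermat.Agent.CFT.Global2.Unr
open Fermat.Agent.LT.Psi (kum kum_eq_zero_iff kum_eq_one_iff zmod_two_eq exists_isRay_kum)

section

variable {K : Type} [Field K] [NumberField K] [IsTotallyComplex K]

/-- at a place outside `S` the product of two `S`-units which are not local squares is a local
square. -/
theorem mul_mem_locPow {S : Finset (HeightOneSpectrum (𝓞 K))} (hS2 : AboveP 2 S) {a b : Kˣ}
    (ha : a ∈ E S) (hb : b ∈ E S) {w : HeightOneSpectrum (𝓞 K)} (hw : w ∉ S)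
    (haw : a ∉ locPow 2 w) (hbw : b ∉ locPow 2 w) : a * b ∈ locPow 2 w := by
  obtain ⟨LS, -⟩ := exists_productFormula_two K
  obtain ⟨x, hx⟩ := exists_ord_eq_one w
  have h2w : ((2 : ℕ) : 𝓞 K) ∉ w.asIdeal := fun h => hw (hS2 w h)
  have key : ∀ c ∈ E S, LS.sym w c x = 1 ↔ c ∈ locPow 2 w := by
    intro c hc
    rw [CubicChar.sym_eq_one_iff LS h2w (mem_E.mp hc w hw) x, hx]
    constructor
    · rintro (h | h)
      · exact h
      · exact absurd h (by decide)
    · exact Or.inl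
  rw [← key _ (mul_mem ha hb)]
  have h1 := (key a ha).not.mpr haw
  have h2 := (key b hb).not.mpr hbw
  have h3 : LS.sym w (a * b) x = LS.sym w a x * LS.sym w b x := by
    rw [map_mul]
    rfl
  rw [h3]
  revert h1 h2
  generalize LS.sym w a x = s
  generalize LS.sym w b x = t
  revert s t
  decide

/-- a ray character which is a given Kummer character on almost all places of degree one at which
`a` is a square, is this Kummer character at all places where `a` is a square -/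
theorem _root_.Fermat.Agent.LT.IsRay.eq_kum_of_degOne {N : ℕ} (hN : N ≠ 0) (h2N : 2 ∣ N)
    (hd : ∀ p : ℕ, p.Prime → p ≤ 2 * Module.finrank ℚ K → p ∣ N)
    {S : Finset (HeightOneSpectrum (𝓞 K))} (hS : ∀ v, v ∈ S ↔ (N : 𝓞 K) ∈ v.asIdeal)
    {n : ℕ} {η : HeightOneSpectrum (𝓞 K) → ZMod 2} (hη : IsRay S n η) {a b : Kˣ} (ha : a ∈ E S)
    (hb : b ∈ E S) (hna : ∀ c : Kˣ, c ^ 2 ≠ a) {k : ℕ} (hk : k ≠ 0)
    (h : ∀ v ∉ S, (Ideal.absNorm v.asIdeal).Prime → (k : 𝓞 K) ∉ v.asIdeal → a ∈ locPow 2 v →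
      η v = kum b v)
    {w : HeightOneSpectrum (𝓞 K)} (hw : w ∉ S) (haw : a ∈ locPow 2 w) : η w = kum b w := by
  classical
  have hS2 : AboveP 2 S := by
    intro v hv
    rw [hS]
    obtain ⟨c, rfl⟩ := h2N
    rw [Nat.cast_mul]
    exact v.asIdeal.mul_mem_right _ hv
  have hp := Nat.prime_two
  have hζ : IsPrimitiveRoot (-1 : K) 2 := IsPrimitiveRoot.neg_one 0 (by norm_num)
  have hirr : Fact (Irreducible (X ^ 2 - C (a : K))) := ⟨irreducible_of_not_pow hp hna⟩
  have hnf : NumberField (Rad 2 a) := numberField_rad hp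
  have hna' : ∀ c : K, c ^ 2 ≠ (a : K) := by
    intro c hc
    have hc0 : c ≠ 0 := by
      rintro rfl
      rw [zero_pow two_ne_zero] at hc
      exact a.ne_zero hc.symm
    exact hna (Units.mk0 c hc0) (Units.ext (by simpa using hc))
  obtain ⟨hgal, σ, hσα, -, hσ2⟩ := Fermat.Agent.CFT.KummerExt.exists_gen hp hζ hna'
    (root_X_pow_sub_C_pow 2 (a : K)) (adjoin_root_rad 2 a)
  have hfr : Module.finrank K (Rad 2 a) = 2 := Fermat.Agent.CFT.KummerExt.finrank_eq hp hna'
    (root_X_pow_sub_C_pow 2 (a : K)) (adjoin_root_rad 2 a)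
  have hα : (AdjoinRoot.root (X ^ 2 - C (a : K)) : Rad 2 a) ^ 2 =
      algebraMap K (Rad 2 a) (a : K) := root_X_pow_sub_C_pow 2 (a : K)
  have hσ : σ ≠ 1 := by
    rintro rfl
    rw [orderOf_one] at hσ2
    exact absurd hσ2 (by norm_num)
  rw [map_neg, map_one, neg_one_mul] at hσα
  have hunr : ∀ W : HeightOneSpectrum (𝓞 (Rad 2 a)), W.under (𝓞 K) ∉ S →
      (W.under (𝓞 K)).asIdeal.ramificationIdx' W.asIdeal = 1 := by
    intro W hW
    refine ramificationIdx'_eq_one hfr hσ hα hσα (fun h' => hW (hS2 _ ?_)) ?_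
    · exact natCast_mem_under.mpr h'
    · rw [mem_E.mp ha _ hW]
      exact dvd_zero _
  have hin : ∀ v ∉ S, (a ∈ locPow 2 v ↔ ¬ Inert (Rad 2 a) v) := by
    intro v hv
    refine mem_locPow_iff_not_inert hfr hσ hα hσα fun W hW => ?_
    rw [← hW]
    exact hunr W (by rwa [hW])
  obtain ⟨m, hm⟩ := exists_isRay_kum hS2 hb
  have hd' : ∀ p : ℕ, p.Prime → p ≤ Module.finrank ℚ (Rad 2 a) → p ∣ N := by
    intro p hpp hle
    refine hd p hpp ?_
    rw [← Module.finrank_mul_finrank ℚ K (Rad 2 a), hfr] at hle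
    rw [mul_comm]
    exact hle
  have h1 : IsRay S (max n m) (fun v => η v + -(kum b v)) :=
    (hη.mono (le_max_left n m)).add (hm.mono (le_max_right n m)).neg
  have h2 := IsRay.eq_zero_of_not_inert hfr hσ hN h2N hd' hS hunr h1 hk
    (fun v hv hv1 hv2 hv3 => by
      change η v + -(kum b v) = 0
      rw [h v hv hv1 hv2 ((hin v hv).mpr hv3)]
      exact add_neg_cancel _) hw ((hin w hw).mp haw)
  exact add_neg_eq_zero.mp h2

/-- **Reduction to places of degree one** -/
theorem _root_.Fermat.Agent.LT.IsRay.iff_of_degOne {N : ℕ} (hN : N ≠ 0) (h2N : 2 ∣ N)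
    (hd : ∀ p : ℕ, p.Prime → p ≤ 2 * Module.finrank ℚ K → p ∣ N)
    {S : Finset (HeightOneSpectrum (𝓞 K))} (hS : ∀ v, v ∈ S ↔ (N : 𝓞 K) ∈ v.asIdeal)
    {n : ℕ} {η : HeightOneSpectrum (𝓞 K) → ZMod 2} (hη : IsRay S n η) {a b : Kˣ} (ha : a ∈ E S)
    (hb : b ∈ E S) (hna : ∀ c : Kˣ, c ^ 2 ≠ a) (hnb : ∀ c : Kˣ, c ^ 2 ≠ b)
    (hnab : ∀ c : Kˣ, c ^ 2 ≠ a * b) {k : ℕ} (hk : k ≠ 0)
    (h : ∀ v ∉ S, (Ideal.absNorm v.asIdeal).Prime → (k : 𝓞 K) ∉ v.asIdeal →
      (η v = 0 ↔ a ∈ locPow 2 v ∧ b ∈ locPow 2 v))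
    {w : HeightOneSpectrum (𝓞 K)} (hw : w ∉ S) :
    η w = 0 ↔ a ∈ locPow 2 w ∧ b ∈ locPow 2 w := by
  have hS2 : AboveP 2 S := by
    intro v hv
    rw [hS]
    obtain ⟨c, rfl⟩ := h2N
    rw [Nat.cast_mul]
    exact v.asIdeal.mul_mem_right _ hv
  by_cases haw : a ∈ locPow 2 w
  · rw [IsRay.eq_kum_of_degOne hN h2N hd hS hη ha hb hna hk (fun v hv hv1 hv2 hv3 => by
      apply zmod_two_eq
      rw [h v hv hv1 hv2, kum_eq_zero_iff]
      exact and_iff_right hv3) hw haw, kum_eq_zero_iff]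
    exact (and_iff_right haw).symm
  · by_cases hbw : b ∈ locPow 2 w
    · rw [IsRay.eq_kum_of_degOne hN h2N hd hS hη hb ha hnb hk (fun v hv hv1 hv2 hv3 => by
        apply zmod_two_eq
        rw [h v hv hv1 hv2, kum_eq_zero_iff]
        exact and_iff_left hv3) hw hbw, kum_eq_zero_iff]
      exact (and_iff_left hbw).symm
    · rw [IsRay.eq_kum_of_degOne hN h2N hd hS hη (mul_mem ha hb) ha hnab hk
        (fun v hv hv1 hv2 hv3 => by
          apply zmod_two_eq
          rw [h v hv hv1 hv2, kum_eq_zero_iff]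
          constructor
          · exact fun h' => h'.1
          · intro h'
            refine ⟨h', ?_⟩
            have := mul_mem (inv_mem h') hv3
            rwa [inv_mul_cancel_left] at this) hw (mul_mem_locPow hS2 ha hb hw haw hbw),
        kum_eq_zero_iff]
      exact ⟨fun h' => absurd h' haw, fun h' => h'.1⟩

end

end Fermat.Agent.LT.NV
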