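import Fermat.Agent.CFT.Global2.Final2
import Fermat.Agent.CFT.Global.Places
import Fermat.Agent.CFT.Global.Approx

/-!
# Local conditions for norms from Kummer extensions

* functoriality of `cong`, `locPow`, `ord` for an extension `E / K` of number fields;
* `exists_norm_eq`: the Hasse norm theorem for `E(a^{1/p}) / E` (`E` totally complex, `ζ_p ∈ E`) with
  easily checked local conditions.
-/

set_option autoImplicit false
set_option linter.unusedSectionVars false
set_option linter.style.haveILetI false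

namespace Fermat.Agent.LT.NormSym

open IsDedekindDomain NumberField WithZero
open Fermat.Agent.CFT.SUnits Fermat.Agent.CFT.Global Fermat.Agent.CFT.Places

section Functorial

variable {K : Type*} [Field K] [NumberField K] {E : Type*} [Field E] [NumberField E] [Algebra K E]

/-- `Kˣ → Eˣ`. -/
noncomputable abbrev up (E : Type*) {K : Type*} [Field K] [Field E] [Algebra K E] : Kˣ →* Eˣ :=
  Units.map (algebraMap K E : K →* E)

@[simp] lemma coe_up (x : Kˣ) : ((up E x : Eˣ) : E) = algebraMap K E x := rfl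

lemma exp_pow_le {n : ℤ} (hn : 0 ≤ n) {e : ℕ} (he : e ≠ 0) {a : ℤᵐ⁰} (ha : a ≤ exp (-n)) :
    a ^ e ≤ exp (-n) := by
  have h1 : a ≤ 1 := ha.trans (by rw [← exp_zero, exp_le_exp]; omega)
  exact (pow_le_of_le_one zero_le h1 he).trans ha

lemma up_mem_cong (w : HeightOneSpectrum (𝓞 E)) {n : ℕ} {u : Kˣ}
    (hu : u ∈ cong (w.under (𝓞 K)) n) : up E u ∈ cong w n := by
  rw [mem_cong] at hu ⊢
  rw [coe_up, ← map_one (algebraMap K E), ← map_sub, valuation_algebraMap]
  exact exp_pow_le (by omega) (ramificationIdx'_ne_zero w) hu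

lemma up_mem_locPow {p : ℕ} (w : HeightOneSpectrum (𝓞 E)) {x : Kˣ}
    (hx : x ∈ locPow p (w.under (𝓞 K))) : up E x ∈ locPow p w := by
  rw [mem_locPow] at hx ⊢
  intro n
  obtain ⟨y, hy⟩ := hx n
  refine ⟨up E y, ?_⟩
  have h := up_mem_cong (E := E) w (u := x / y ^ p) (mem_cong.mpr hy)
  rw [mem_cong, map_div, map_pow] at h
  exact h

lemma ord_up (w : HeightOneSpectrum (𝓞 E)) (x : Kˣ) :
    ord w (up E x) =
      ((w.under (𝓞 K)).asIdeal.ramificationIdx' w.asIdeal : ℤ) * ord (w.under (𝓞 K)) x := by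
  have h := valuation_algebraMap w (x : K)
  rw [← coe_up, valuation_eq_exp_neg_ord, valuation_eq_exp_neg_ord, ← exp_nsmul] at h
  have h2 := exp_injective h
  rw [nsmul_eq_mul] at h2
  linarith

lemma ord_up_eq_zero (w : HeightOneSpectrum (𝓞 E)) {x : Kˣ} (h : ord (w.under (𝓞 K)) x = 0) :
    ord w (up E x) = 0 := by
  rw [ord_up, h, mul_zero]

/-- if `w` is over `v` and `p ∉ v`, then `p ∉ w` -/
lemma natCast_notMem (w : HeightOneSpectrum (𝓞 E)) {p : ℕ}
    (h : (p : 𝓞 K) ∉ (w.under (𝓞 K)).asIdeal) : (p : 𝓞 E) ∉ w.asIdeal := by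
  intro h'
  apply h
  change algebraMap (𝓞 K) (𝓞 E) (p : 𝓞 K) ∈ w.asIdeal
  rwa [map_natCast]

end Functorial

section Coprime

variable {K : Type*} [Field K] {E : Type*} [Field E] [Algebra K E] [FiniteDimensional K E]

/-- An element which is not a `p`-th power stays so in extensions of degree prime to `p`. -/
lemma not_pow_up {p : ℕ} (hc : (Module.finrank K E).Coprime p) {a : Kˣ}
    (ha : ∀ b : Kˣ, b ^ p ≠ a) (b : Eˣ) : b ^ p ≠ up E a := by
  intro hb
  have hc' : IsCoprime (Module.finrank K E : ℤ) (p : ℤ) := Nat.isCoprime_iff_coprime.mpr hc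
  obtain ⟨s, t, hst⟩ := hc'
  let N : Eˣ →* Kˣ := Units.map (Algebra.norm K : E →* K)
  have h1 : (N b) ^ p = a ^ (Module.finrank K E) := by
    rw [← map_pow, hb]
    ext
    change Algebra.norm K (algebraMap K E a) = _
    rw [Algebra.norm_algebraMap, Units.val_pow_eq_pow_val]
  apply ha ((N b) ^ s * a ^ t)
  have h2 : ((N b) ^ s * a ^ t) ^ p = ((N b) ^ p) ^ s * (a ^ t) ^ p := by
    rw [mul_pow, ← zpow_natCast ((N b) ^ s), ← zpow_mul, mul_comm s, zpow_mul, zpow_natCast]
  rw [h2, h1, ← zpow_natCast a, ← zpow_mul, ← zpow_natCast (a ^ t), ← zpow_mul, ← zpow_add]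
  have h3 : (Module.finrank K E : ℤ) * s + t * (p : ℤ) = 1 := by linarith
  rw [h3, zpow_one]

end Coprime

section Norm

variable {p : ℕ} [hp : Fact p.Prime]

/-- the three easy cases in which a symbol is trivial -/
theorem sym_eq_one {E : Type*} [Field E] [NumberField E] (LS : LocalSymbols p E)
    (v : HeightOneSpectrum (𝓞 E)) {a x : Eˣ}
    (h : a ∈ locPow p v ∨ x ∈ locPow p v ∨
      ((p : 𝓞 E) ∉ v.asIdeal ∧ ord v a = 0 ∧ ord v x = 0)) : LS.sym v a x = 1 := by
  rcases h with h | h | ⟨h1, h2, h3⟩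
  · exact (LS.mem_locPow_iff v a).mp h x
  · have h1 := LS.skew v a x
    rwa [(LS.mem_locPow_iff v x).mp h a, mul_one] at h1
  · exact LS.unit_mem v h1 a x h2 h3

/-- product version: it is enough that `x` is a product of a norm and an element as in
`sym_eq_one` -/
theorem sym_eq_one_of_mul {E : Type*} [Field E] [NumberField E] (LS : LocalSymbols p E)
    (v : HeightOneSpectrum (𝓞 E)) {a x n y : Eˣ} (hx : x = n * y) (hn : IsNormFrom p a n)
    (h : a ∈ locPow p v ∨ y ∈ locPow p v ∨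
      ((p : 𝓞 E) ∉ v.asIdeal ∧ ord v a = 0 ∧ ord v y = 0)) : LS.sym v a x = 1 := by
  rw [hx, map_mul, LS.norm_mem v a n hn, sym_eq_one LS v h, one_mul]

/-- the norm from `K[X]/(X^p - a)` is the norm from `K(α)`, `α^p = a` -/
theorem exists_norm_eq_of_isNormFrom {E : Type*} [Field E] {a x : Eˣ}
    (hna : ∀ b : Eˣ, b ^ p ≠ a) (h : IsNormFrom p a x) {F : Type*} [Field F] [Algebra E F]
    {α : F} (hα : α ^ p = algebraMap E F a) (hF : IntermediateField.adjoin E {α} = ⊤) :
    ∃ z : F, Algebra.norm E z = (x : E) := by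
  obtain ⟨z, hz⟩ := h
  have hirr : Irreducible (Polynomial.X ^ p - Polynomial.C (a : E)) := by
    refine X_pow_sub_C_irreducible_of_prime hp.out fun b hb => ?_
    have hb0 : b ≠ 0 := by
      rintro rfl
      rw [zero_pow hp.out.ne_zero] at hb
      exact a.ne_zero hb.symm
    exact hna (Units.mk0 b hb0) (Units.ext (by simpa using hb))
  haveI : Fact (Irreducible (Polynomial.X ^ p - Polynomial.C (a : E))) := ⟨hirr⟩
  let φ : AdjoinRoot (Polynomial.X ^ p - Polynomial.C (a : E)) →ₐ[E] F :=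
    AdjoinRoot.liftAlgHom _ (Algebra.ofId E F) α (by
      rw [Polynomial.eval₂_sub, Polynomial.eval₂_X_pow, Polynomial.eval₂_C, hα]
      exact sub_self _)
  have hφr : φ (AdjoinRoot.root _) = α := AdjoinRoot.liftAlgHom_root ..
  have hsurj : Function.Surjective φ := by
    rw [← AlgHom.range_eq_top]
    have h1 : (φ.fieldRange) = ⊤ := by
      rw [eq_top_iff, ← hF, IntermediateField.adjoin_le_iff, Set.singleton_subset_iff]
      exact ⟨_, hφr⟩
    rw [eq_top_iff]
    intro y _
    have : y ∈ φ.fieldRange := h1 ▸ IntermediateField.mem_top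
    exact this
  let e : AdjoinRoot (Polynomial.X ^ p - Polynomial.C (a : E)) ≃ₐ[E] F :=
    AlgEquiv.ofBijective φ ⟨φ.toRingHom.injective, hsurj⟩
  exact ⟨e z, by rw [Algebra.norm_eq_of_algEquiv, hz]⟩

/-- **Hasse norm theorem with easy local conditions.** -/
theorem exists_norm_eq {E : Type} [Field E] [NumberField E] [IsTotallyComplex E] {ζ : E}
    (hζ : IsPrimitiveRoot ζ p) {a x : Eˣ} (hna : ∀ b : Eˣ, b ^ p ≠ a)
    (h : ∀ v : HeightOneSpectrum (𝓞 E), a ∈ locPow p v ∨ x ∈ locPow p v ∨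
      ((p : 𝓞 E) ∉ v.asIdeal ∧ ord v a = 0 ∧ ord v x = 0))
    {F : Type*} [Field F] [Algebra E F] {α : F} (hα : α ^ p = algebraMap E F a)
    (hF : IntermediateField.adjoin E {α} = ⊤) : ∃ z : F, Algebra.norm E z = (x : E) := by
  obtain ⟨LS⟩ := Fermat.Agent.CFT.Bridge.nonempty_localSymbols_all E hζ
  exact exists_norm_eq_of_isNormFrom hna
    (Fermat.Agent.CFT.Global2.hasse_norm_all hζ LS hna x fun v => sym_eq_one LS v (h v)) hα hF

/-- **Hasse norm theorem over an extension of degree prime to `p`.** `K ⊂ E`, `[E : K]` prime to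
`p`, `a ∈ Kˣ` not a `p`-th power, `F = E(a^{1/p})`; the conditions at `v` are written over `K` as
far as `a` is concerned. -/
theorem exists_norm_eq_up {K E : Type} [Field K] [NumberField K] [Field E] [NumberField E]
    [Algebra K E] [IsTotallyComplex E] {ζ : E} (hζ : IsPrimitiveRoot ζ p)
    (hc : (Module.finrank K E).Coprime p) {a : Kˣ} (hna : ∀ b : Kˣ, b ^ p ≠ a) {x : Eˣ}
    (h : ∀ w : HeightOneSpectrum (𝓞 E), a ∈ locPow p (w.under (𝓞 K)) ∨ x ∈ locPow p w ∨
      ((p : 𝓞 K) ∉ (w.under (𝓞 K)).asIdeal ∧ ord (w.under (𝓞 K)) a = 0 ∧ ord w x = 0))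
    {F : Type*} [Field F] [Algebra E F] {α : F}
    (hα : α ^ p = algebraMap E F (algebraMap K E a))
    (hF : IntermediateField.adjoin E {α} = ⊤) : ∃ z : F, Algebra.norm E z = (x : E) := by
  refine exists_norm_eq hζ (a := up E a) (not_pow_up hc hna) (fun w => ?_) hα hF
  rcases h w with h1 | h1 | ⟨h1, h2, h3⟩
  · exact Or.inl (up_mem_locPow w h1)
  · exact Or.inr (Or.inl h1)
  · exact Or.inr (Or.inr ⟨natCast_notMem w h1, ord_up_eq_zero w h2, h3⟩)

end Norm

end Fermat.Agent.LT.NormSym
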