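import Fermat.Agent.LT.CompExt

/-!
# Galois action on primes and on completions
-/

set_option autoImplicit false

open IsDedekindDomain NumberField
open scoped WithZero Topology Pointwise

namespace Fermat.Agent.LT.Ext

section Over

variable {A K L B : Type*} [CommRing A] [IsDedekindDomain A] [CommRing B] [IsDedekindDomain B]
  [Algebra A B] [Module.IsTorsionFree A B] [Field K] [Field L] [Algebra K L]
  [Algebra A K] [IsFractionRing A K] [Algebra A L] [IsScalarTower A K L]
  [Algebra B L] [IsFractionRing B L] [IsScalarTower A B L]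

/-- The inclusion `K → L` is compatible with `v` and a prime `w` over `v`. -/
theorem compat_liesOver (v : HeightOneSpectrum A) (w : HeightOneSpectrum B)
    [w.asIdeal.LiesOver v.asIdeal] :
    Compat v w (algebraMap K L) (v.asIdeal.ramificationIdx' w.asIdeal) where
  ne := Ideal.IsDedekindDomain.ramificationIdx'_ne_zero_of_liesOver w.asIdeal v.ne_bot
  val x := (HeightOneSpectrum.valuation_liesOver L v w x).symm

end Over

section Action

variable {R : Type*} [CommRing R] [IsDedekindDomain R] {G : Type*} [Group G]
  [MulSemiringAction G R]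

/-- The action of a group of ring automorphisms on the primes. -/
instance : SMul G (HeightOneSpectrum R) where
  smul g w := ⟨g • w.asIdeal, inferInstance, fun h => w.ne_bot (by
    rwa [Ideal.zero_eq_bot.symm, smul_eq_zero_iff_eq] at h)⟩

@[simp] theorem asIdeal_smul (g : G) (w : HeightOneSpectrum R) :
    (g • w).asIdeal = g • w.asIdeal := rfl

instance : MulAction G (HeightOneSpectrum R) where
  one_smul w := HeightOneSpectrum.ext (one_smul G w.asIdeal)
  mul_smul g h w := HeightOneSpectrum.ext (mul_smul g h w.asIdeal)

theorem pow_smul_ideal (g : G) (I : Ideal R) (n : ℕ) : (g • I) ^ n = g • I ^ n := by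
  rw [smul_pow']

/-- Two elements `≤ 1` of `ℤᵐ⁰` with the same lower powers are equal. -/
theorem eq_of_forall_le {a b : ℤᵐ⁰} (ha : a ≤ 1) (hb : b ≤ 1)
    (h : ∀ n : ℕ, a ≤ WithZero.exp (-(n : ℤ)) ↔ b ≤ WithZero.exp (-(n : ℤ))) : a = b := by
  have key : ∀ {a b : ℤᵐ⁰}, a ≤ 1 → b ≤ 1 →
      (∀ n : ℕ, a ≤ WithZero.exp (-(n : ℤ)) → b ≤ WithZero.exp (-(n : ℤ))) → b ≤ a := by
    intro a b ha hb h
    rcases eq_or_ne a 0 with rfl | ha0
    · by_contra hb0
      rw [not_le] at hb0
      have hb1 : b ≠ 0 := hb0.ne'
      have h1 : WithZero.log b ≤ 0 := by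
        rw [← WithZero.log_one]
        exact (WithZero.log_le_log hb1 one_ne_zero).mpr hb
      have h2 := h (-(WithZero.log b - 1)).toNat zero_le
      rw [Int.toNat_of_nonneg (by omega), neg_neg] at h2
      rw [← WithZero.exp_log hb1, WithZero.exp_le_exp, WithZero.log_exp] at h2
      omega
    · have h1 : WithZero.log a ≤ 0 := by
        rw [← WithZero.log_one]
        exact (WithZero.log_le_log ha0 one_ne_zero).mpr ha
      have h2 := h (-(WithZero.log a)).toNat (by
        rw [Int.toNat_of_nonneg (by omega), neg_neg, WithZero.exp_log ha0])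
      rwa [Int.toNat_of_nonneg (by omega), neg_neg, WithZero.exp_log ha0] at h2
  exact le_antisymm (key hb ha fun n => (h n).mpr) (key ha hb fun n => (h n).mp)

theorem intValuation_smul (g : G) (w : HeightOneSpectrum R) (r : R) :
    (g • w).intValuation (g • r) = w.intValuation r := by
  refine eq_of_forall_le (HeightOneSpectrum.intValuation_le_one _ _)
    (HeightOneSpectrum.intValuation_le_one _ _) fun n => ?_
  rw [HeightOneSpectrum.intValuation_le_pow_iff_mem, HeightOneSpectrum.intValuation_le_pow_iff_mem,
    asIdeal_smul, pow_smul_ideal, Ideal.smul_mem_pointwise_smul_iff]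

variable {L : Type*} [Field L] [Algebra R L] [IsFractionRing R L] [MulSemiringAction G L]
  [SMulDistribClass G R L]

theorem valuation_smul (g : G) (w : HeightOneSpectrum R) (x : L) :
    (g • w).valuation L (g • x) = w.valuation L x := by
  obtain ⟨a, b, hb, rfl⟩ := IsFractionRing.div_surjective (A := R) x
  rw [smul_div₀', ← algebraMap.smul', ← algebraMap.smul', map_div₀, map_div₀,
    HeightOneSpectrum.valuation_of_algebraMap, HeightOneSpectrum.valuation_of_algebraMap,
    HeightOneSpectrum.valuation_of_algebraMap, HeightOneSpectrum.valuation_of_algebraMap,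
    intValuation_smul, intValuation_smul]

theorem valuation_smul' (g : G) (w : HeightOneSpectrum R) (x : L) :
    w.valuation L (g • x) = (g⁻¹ • w).valuation L x := by
  rw [← valuation_smul g (g⁻¹ • w) x, smul_inv_smul]

/-- `g` is compatible with `w` and `g w`. -/
theorem compat_smul (g : G) (w : HeightOneSpectrum R) :
    Compat w (g • w) (MulSemiringAction.toRingHom G L g) 1 where
  ne := one_ne_zero
  val x := by
    rw [pow_one]
    exact valuation_smul g w x

/-- `g` is compatible with `w` and `w'` if `g w = w'`. -/
theorem compat_of_smul_eq {g : G} {w w' : HeightOneSpectrum R} (h : g • w = w') :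
    Compat w w' (MulSemiringAction.toRingHom G L g) 1 := by
  subst h
  exact compat_smul g w

end Action

end Fermat.Agent.LT.Ext
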