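import Fermat.Agent.LT.GalComp

/-!
# The completions of a Galois extension of number fields are Galois over the completions of the base
-/

set_option autoImplicit false

open IsDedekindDomain NumberField
open scoped WithZero Topology Pointwise

namespace Fermat.Agent.LT.Ext

section WeakApprox

variable {R L : Type*} [CommRing R] [IsDedekindDomain R] [Field L] [Algebra R L]
  [IsFractionRing R L]

theorem exists_exp_neg_lt {γ : ℤᵐ⁰} (hγ : γ ≠ 0) : ∃ n : ℕ, WithZero.exp (-(n : ℤ)) < γ := by
  refine ⟨(-(WithZero.log γ) + 1).toNat, ?_⟩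
  conv_rhs => rw [← WithZero.exp_log hγ]
  rw [WithZero.exp_lt_exp]
  have := Int.self_le_toNat (-(WithZero.log γ) + 1)
  omega

/-- Weak approximation at finitely many primes. -/
theorem weak_approx (T : Finset (HeightOneSpectrum R)) (x : HeightOneSpectrum R → L)
    {γ : ℤᵐ⁰} (hγ : γ ≠ 0) : ∃ y : L, ∀ w ∈ T, w.valuation L (y - x w) < γ := by
  obtain ⟨n, hn⟩ := IsLocalization.exist_integer_multiples (nonZeroDivisors R) T x
  choose a ha using hn
  have hn0 : algebraMap R L n ≠ 0 := by
    rw [Ne, IsFractionRing.to_map_eq_zero_iff]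
    exact nonZeroDivisors.coe_ne_zero n
  have h1 : ∀ w : HeightOneSpectrum R, ∃ N : ℕ,
      WithZero.exp (-(N : ℤ)) < γ * w.valuation L (algebraMap R L n) := fun w =>
    exists_exp_neg_lt (mul_ne_zero hγ ((Valuation.ne_zero_iff _).mpr hn0))
  choose N hN using h1
  obtain ⟨b, hb⟩ := IsDedekindDomain.exists_forall_sub_mem_ideal (s := T)
    (fun w : HeightOneSpectrum R => w.asIdeal) N (fun w _ => w.prime)
    (fun w _ w' _ h h' => h (HeightOneSpectrum.ext h')) (fun w => a w.1 w.2)
  refine ⟨algebraMap R L b / algebraMap R L n, fun w hw => ?_⟩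
  have h2 : algebraMap R L b / algebraMap R L n - x w =
      algebraMap R L (b - a w hw) / algebraMap R L n := by
    have h3 := ha w hw
    rw [Algebra.smul_def] at h3
    rw [map_sub, h3]
    field_simp
  have h4 : w.valuation L (algebraMap R L (b - a w hw)) ≤ WithZero.exp (-(N w : ℤ)) := by
    rw [HeightOneSpectrum.valuation_of_algebraMap, HeightOneSpectrum.intValuation_le_pow_iff_mem]
    exact hb w hw
  rw [h2, map_div₀, div_lt_iff₀ (zero_lt_iff.mpr ((Valuation.ne_zero_iff _).mpr hn0))]
  exact h4.trans_lt (hN w)

end WeakApprox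

section Gal

variable {K L : Type*} [Field K] [Field L] [NumberField K] [NumberField L] [Algebra K L]
  (v : HeightOneSpectrum (𝓞 K)) (w : HeightOneSpectrum (𝓞 L)) [w.asIdeal.LiesOver v.asIdeal]
  (G : Type*) [Group G] [Finite G] [MulSemiringAction G L] [IsGaloisGroup G K L]

/-- `L_w` as an algebra over `K_v`. -/
noncomputable abbrev algebraComp : Algebra (v.adicCompletion K) (w.adicCompletion L) :=
  (compat_liesOver (K := K) (L := L) v w).ext.toAlgebra

/-- The decomposition group acts on `L_w`. -/
noncomputable abbrev actComp :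
    MulSemiringAction (MulAction.stabilizer G w) (w.adicCompletion L) where
  smul σ x := (compat_of_smul_eq (L := L) σ.2).ext x
  one_smul x := by
    have h : (compat_of_smul_eq (L := L) (1 : MulAction.stabilizer G w).2).ext = RingHom.id _ :=
      ((compat_of_smul_eq (L := L) (1 : MulAction.stabilizer G w).2).ext_unique continuous_id
        fun y => by
          change algebraMap L (w.adicCompletion L) y = algebraMap L _ ((1 : G) • y)
          rw [one_smul]).symm
    exact congrArg (fun F : w.adicCompletion L →+* w.adicCompletion L => F x) h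
  mul_smul σ τ x := by
    have h : (compat_of_smul_eq (L := L) σ.2).ext.comp (compat_of_smul_eq (L := L) τ.2).ext =
        (compat_of_smul_eq (L := L) (σ * τ).2).ext :=
      ((compat_of_smul_eq (L := L) (σ * τ).2).ext_unique
        ((compat_of_smul_eq (L := L) σ.2).continuous_ext.comp
          (compat_of_smul_eq (L := L) τ.2).continuous_ext)
        fun y => by
          rw [RingHom.comp_apply, Compat.ext_algebraMap, Compat.ext_algebraMap]
          congr 1
          exact (mul_smul (σ : G) (τ : G) y).symm)
    exact (congrArg (fun F : w.adicCompletion L →+* w.adicCompletion L => F x) h).symm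
  smul_zero σ := map_zero _
  smul_add σ x y := map_add _ x y
  smul_one σ := map_one _
  smul_mul σ x y := map_mul _ x y

variable {G}

theorem sum_smul_mem [Fintype G] (y : L) : ∃ k : K, algebraMap K L k = ∑ g : G, g • y := by
  have h : ∀ g : G, g • (∑ h : G, h • y) = ∑ h : G, h • y := by
    intro g
    rw [Finset.smul_sum]
    exact Fintype.sum_equiv (Equiv.mulLeft g) _ _ fun h => (mul_smul g h y).symm
  exact Algebra.IsInvariant.isInvariant (G := G) _ h

variable (G)

/-- The fixed field of the decomposition group in `L_w` is `K_v`. -/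
theorem mem_range_of_fixed (x : w.adicCompletion L)
    (hx : ∀ σ : MulAction.stabilizer G w, (compat_of_smul_eq (L := L) σ.2).ext x = x) :
    x ∈ Set.range (compat_liesOver (K := K) (L := L) v w).ext := by
  classical
  have := Fintype.ofFinite G
  rw [← (compat_liesOver (K := K) (L := L) v w).isClosed_range_ext.closure_eq,
    mem_closure_iff_nhds]
  intro s hs
  obtain ⟨γ, hγ, hs⟩ := mem_nhds_adic.mp hs
  set m : ℕ := Fintype.card (MulAction.stabilizer G w) with hm
  have hm0 : (m : w.adicCompletion L) ≠ 0 := by
    have h : (m : L) ≠ 0 := Nat.cast_ne_zero.mpr Fintype.card_ne_zero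
    rw [← map_natCast (algebraMap L (w.adicCompletion L))]
    exact (map_ne_zero _).mpr h
  set δ : ℤᵐ⁰ := γ * Valued.v (m : w.adicCompletion L) with hδ
  have hδ0 : δ ≠ 0 := mul_ne_zero hγ ((Valuation.ne_zero_iff _).mpr hm0)
  obtain ⟨x₀, hx₀⟩ := exists_sub_lt x hδ0
  obtain ⟨y, hy⟩ := weak_approx (Finset.univ.image fun g : G => g⁻¹ • w)
    (fun w' => if w' = w then x₀ else 0) hδ0
  have hyw : w.valuation L (y - x₀) < δ := by
    have := hy w (Finset.mem_image.mpr ⟨1, Finset.mem_univ _, by rw [inv_one, one_smul]⟩)
    rwa [if_pos rfl] at this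
  have hyw' : ∀ g : G, g ∉ MulAction.stabilizer G w → w.valuation L (g • y) < δ := by
    intro g hg
    rw [valuation_smul']
    have hne : g⁻¹ • w ≠ w := fun h => hg (by
      rw [MulAction.mem_stabilizer_iff, ← h, smul_inv_smul, h])
    have := hy (g⁻¹ • w) (Finset.mem_image.mpr ⟨g, Finset.mem_univ _, rfl⟩)
    rwa [if_neg hne, sub_zero] at this
  have hyx : Valued.v (algebraMap L (w.adicCompletion L) y - x) < δ := by
    have h1 : algebraMap L (w.adicCompletion L) y - x =
        algebraMap L (w.adicCompletion L) (y - x₀) +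
          (algebraMap L (w.adicCompletion L) x₀ - x) := by
      rw [map_sub]; ring
    rw [h1]
    refine (Valuation.map_add _ _ _).trans_lt (max_lt ?_ hx₀)
    rw [v_algebraMap]
    exact hyw
  obtain ⟨k, hk⟩ := sum_smul_mem (K := K) (G := G) y
  refine ⟨(compat_liesOver (K := K) (L := L) v w).ext (algebraMap K _ (k / m)), hs ?_,
    Set.mem_range_self _⟩
  rw [Set.mem_ofPred_eq, Compat.ext_algebraMap, map_div₀, map_natCast, map_div₀, map_natCast]
  have h2 : algebraMap L (w.adicCompletion L) (algebraMap K L k) / m - x =
      (algebraMap L (w.adicCompletion L) (algebraMap K L k) - m * x) / m := by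
    field_simp
  rw [h2, map_div₀, div_lt_iff₀ (zero_lt_iff.mpr ((Valuation.ne_zero_iff _).mpr hm0)), ← hδ, hk,
    map_sum]
  have h3 : (m : w.adicCompletion L) * x =
      ∑ g : G, if g ∈ MulAction.stabilizer G w then x else 0 := by
    rw [← Finset.sum_filter, Finset.sum_const, nsmul_eq_mul, hm, Fintype.card_subtype]
  rw [h3, ← Finset.sum_sub_distrib]
  refine Valuation.map_sum_lt _ hδ0 fun g _ => ?_
  split_ifs with hg
  · have h4 : algebraMap L (w.adicCompletion L) (g • y) - x =
        (compat_of_smul_eq (L := L) hg).ext (algebraMap L (w.adicCompletion L) y - x) := by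
      rw [map_sub, Compat.ext_algebraMap, hx ⟨g, hg⟩]
      rfl
    rw [h4, Compat.valued_ext, pow_one]
    exact hyx
  · rw [sub_zero, v_algebraMap]
    exact hyw' g hg

/-- `L_w / K_v` is Galois, with group the decomposition group. -/
theorem isGaloisGroup_comp :
    letI := algebraComp (K := K) (L := L) v w
    letI := actComp (L := L) w G
    IsGaloisGroup (MulAction.stabilizer G w) (v.adicCompletion K) (w.adicCompletion L) := by
  letI := algebraComp (K := K) (L := L) v w
  letI := actComp (L := L) w G
  have hL : ∀ (σ : MulAction.stabilizer G w) (y : L),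
      σ • (algebraMap L (w.adicCompletion L) y) = algebraMap L (w.adicCompletion L) ((σ : G) • y) :=
    fun σ y => Compat.ext_algebraMap (compat_of_smul_eq (L := L) σ.2) y
  refine ⟨⟨fun {σ τ} h => ?_⟩, ⟨fun σ a x => ?_⟩, ⟨fun x hx => ?_⟩⟩
  · have := IsGaloisGroup.faithful (G := G) (A := K) (B := L)
    refine Subtype.ext (eq_of_smul_eq_smul (α := L) fun y => ?_)
    have h1 := h (algebraMap L (w.adicCompletion L) y)
    rw [hL, hL] at h1
    exact (algebraMap L (w.adicCompletion L)).injective h1
  · rw [Algebra.smul_def, Algebra.smul_def, smul_mul']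
    congr 1
    have h1 : (fun a : v.adicCompletion K => σ • (algebraMap (v.adicCompletion K)
        (w.adicCompletion L) a)) = algebraMap (v.adicCompletion K) (w.adicCompletion L) := by
      refine eq_of_eq_on ((compat_of_smul_eq (L := L) σ.2).continuous_ext.comp
        (compat_liesOver (K := K) (L := L) v w).continuous_ext)
        (compat_liesOver (K := K) (L := L) v w).continuous_ext fun k => ?_
      have h2 : algebraMap (v.adicCompletion K) (w.adicCompletion L) (algebraMap K _ k) =
        algebraMap L _ (algebraMap K L k) := Compat.ext_algebraMap _ _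
      rw [h2, hL]
      congr 1
      have := IsGaloisGroup.commutes (G := G) (A := K) (B := L)
      exact smul_algebraMap (σ : G) k
    exact congrFun h1 a
  · exact mem_range_of_fixed v w G x hx

end Gal

end Fermat.Agent.LT.Ext
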