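import Mathlib.Tactic.NoncommRing
import Mathlib.Tactic.LinearCombination
import Mathlib.Analysis.Complex.Basic

/-!
# The algebra at the regular place (block B9)

`e` is the projection onto the vectors invariant under the maximal compact subgroup, `ω` the
Atkin-Lehner involution, `T = (q + 1) e - 1`, `U = T ω`.  The element `C = U + q U⁻¹` is central in
the algebra generated by `e` and `ω`.
-/

set_option autoImplicit false

namespace Fermat.Agent.LT

section Alg

variable {A : Type*} [Ring A] [Algebra ℂ A]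

/-- The relations of the algebra at one place. -/
structure IwaRel (e w : A) : Prop where
  e_sq : e * e = e
  w_sq : w * w = 1

/-- The Hecke operator `U`. -/
def opU (q : ℂ) (e w : A) : A := ((q + 1) • e - 1) * w

/-- The operator `q U⁻¹`. -/
def opUinv (q : ℂ) (e w : A) : A := w * ((q + 1) • e - q • 1)

/-- The central element `C = U + q U⁻¹`. -/
def opC (q : ℂ) (e w : A) : A := (q + 1) • (e * w + w * e - w)

variable {e w : A} {q : ℂ}

theorem opC_eq : opC q e w = opU q e w + opUinv q e w := by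
  simp only [opC, opU, opUinv, sub_mul, mul_sub, smul_mul_assoc, mul_smul_comm, one_mul, mul_one]
  module

theorem IwaRel.opU_mul_opUinv (h : IwaRel e w) : opU q e w * opUinv q e w = q • 1 := by
  have h1 : opU q e w * opUinv q e w =
      ((q + 1) • e - 1) * (w * w) * ((q + 1) • e - q • 1) := by
    simp only [opU, opUinv, mul_assoc]
  rw [h1, h.w_sq, mul_one]
  have h2 : ((q + 1) • e - 1) * ((q + 1) • e - q • (1 : A)) =
      ((q + 1) * (q + 1)) • (e * e) - ((q + 1) * q) • e - (q + 1) • e + q • 1 := by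
    simp only [sub_mul, mul_sub, smul_mul_assoc, mul_smul_comm, one_mul, mul_one]
    module
  rw [h2, h.e_sq, ← sub_smul, ← sub_smul]
  have : (q + 1) * (q + 1) - (q + 1) * q - (q + 1) = 0 := by ring
  rw [this, zero_smul, zero_add]

theorem IwaRel.opUinv_mul_opU (h : IwaRel e w) : opUinv q e w * opU q e w = q • 1 := by
  have h2 : ((q + 1) • e - q • (1 : A)) * ((q + 1) • e - 1) = q • 1 := by
    have h3 : ((q + 1) • e - q • (1 : A)) * ((q + 1) • e - 1) =
        ((q + 1) * (q + 1)) • (e * e) - ((q + 1) * q) • e - (q + 1) • e + q • 1 := by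
      simp only [sub_mul, mul_sub, smul_mul_assoc, mul_smul_comm, one_mul, mul_one]
      module
    rw [h3, h.e_sq, ← sub_smul, ← sub_smul]
    have : (q + 1) * (q + 1) - (q + 1) * q - (q + 1) = 0 := by ring
    rw [this, zero_smul, zero_add]
  have h1 : opUinv q e w * opU q e w =
      w * (((q + 1) • e - q • (1 : A)) * ((q + 1) • e - 1)) * w := by
    simp only [opU, opUinv, mul_assoc]
  rw [h1, h2, mul_smul_comm, smul_mul_assoc, mul_one, h.w_sq]

theorem IwaRel.e_mul_opC (h : IwaRel e w) : e * opC q e w = (q + 1) • (e * w * e) := by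
  have h1 : e * (e * w + w * e - w) = e * e * w + e * w * e - e * w := by noncomm_ring
  rw [opC, mul_smul_comm, h1, h.e_sq]
  congr 1
  abel

theorem IwaRel.opC_mul_e (h : IwaRel e w) : opC q e w * e = (q + 1) • (e * w * e) := by
  have h1 : (e * w + w * e - w) * e = e * w * e + w * (e * e) - w * e := by noncomm_ring
  rw [opC, smul_mul_assoc, h1, h.e_sq]
  congr 1
  abel

theorem IwaRel.w_mul_opC (h : IwaRel e w) :
    w * opC q e w = (q + 1) • (w * e * w + e - 1) := by
  have h1 : w * (e * w + w * e - w) = w * e * w + w * w * e - w * w := by noncomm_ring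
  rw [opC, mul_smul_comm, h1, h.w_sq, one_mul]

theorem IwaRel.opC_mul_w (h : IwaRel e w) :
    opC q e w * w = (q + 1) • (w * e * w + e - 1) := by
  have h1 : (e * w + w * e - w) * w = e * (w * w) + w * e * w - w * w := by noncomm_ring
  rw [opC, smul_mul_assoc, h1, h.w_sq, mul_one]
  congr 1
  abel

/-- `C` commutes with `e`. -/
theorem IwaRel.commute_opC_e (h : IwaRel e w) : Commute (opC q e w) e := by
  rw [Commute, SemiconjBy, h.opC_mul_e, h.e_mul_opC]

/-- `C` commutes with `ω`. -/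
theorem IwaRel.commute_opC_w (h : IwaRel e w) : Commute (opC q e w) w := by
  rw [Commute, SemiconjBy, h.opC_mul_w, h.w_mul_opC]

theorem IwaRel.commute_opC_opU (h : IwaRel e w) : Commute (opC q e w) (opU q e w) := by
  unfold opU
  refine Commute.mul_right ?_ h.commute_opC_w
  exact (h.commute_opC_e.smul_right _).sub_right (Commute.one_right _)

/-- The quadratic relation `U² = C U - q`. -/
theorem IwaRel.opU_sq (h : IwaRel e w) :
    opU q e w * opU q e w = opC q e w * opU q e w - q • 1 := by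
  rw [opC_eq, add_mul, h.opUinv_mul_opU]
  abel

/-- On the kernel of `C`: `e ω e = 0`. -/
theorem IwaRel.e_w_e_eq_zero (h : IwaRel e w) (hq : q + 1 ≠ 0) (hC : opC q e w = 0) :
    e * w * e = 0 := by
  have h1 := h.e_mul_opC (q := q)
  rw [hC, mul_zero] at h1
  exact (smul_eq_zero.mp h1.symm).resolve_left hq

/-- On the kernel of `C`: `e + ω e ω = 1`. -/
theorem IwaRel.add_eq_one (h : IwaRel e w) (hq : q + 1 ≠ 0) (hC : opC q e w = 0) :
    e + w * e * w = 1 := by
  have h1 := h.w_mul_opC (q := q)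
  rw [hC, mul_zero] at h1
  have h2 := (smul_eq_zero.mp h1.symm).resolve_left hq
  have h3 : w * e * w + e = 1 := sub_eq_zero.mp h2
  rw [add_comm]
  exact h3

end Alg

/-! ### Chebyshev polynomials of the second kind -/

/-- `chebU x n = (z^(n+1) - z^-(n+1))/(z - z⁻¹)` for `x = z + z⁻¹`. -/
def chebU {R : Type*} [Ring R] (x : R) : ℕ → R
  | 0 => 1
  | 1 => x
  | n + 2 => x * chebU x (n + 1) - chebU x n

@[simp] theorem chebU_zero {R : Type*} [Ring R] (x : R) : chebU x 0 = 1 := rfl
@[simp] theorem chebU_one {R : Type*} [Ring R] (x : R) : chebU x 1 = x := rfl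
theorem chebU_succ_succ {R : Type*} [Ring R] (x : R) (n : ℕ) :
    chebU x (n + 2) = x * chebU x (n + 1) - chebU x n := rfl

section Pow

variable {A : Type*} [Ring A] [Algebra ℂ A]

/-- If `V V' = 1 = V' V` and `V + V' = x` then `V^(n+1) = u_(n+1)(x) - u_n(x) V'`. -/
theorem pow_succ_eq_cheb {V V' : A} {x : ℂ} (h : V * V' = 1)
    (hx : V + V' = x • 1) (n : ℕ) :
    V ^ (n + 1) = chebU x (n + 1) • 1 - chebU x n • V' := by
  have hV : V = x • 1 - V' := by rw [← hx]; abel
  induction n with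
  | zero => rw [zero_add, pow_one, chebU_one, chebU_zero, one_smul]; exact hV
  | succ n ih =>
    rw [pow_succ', ih, mul_sub, mul_smul_comm, mul_smul_comm, mul_one, h, chebU_succ_succ]
    conv_lhs => rw [hV]
    rw [smul_sub, smul_smul, sub_smul]
    rw [mul_comm (chebU x (n + 1)) x]
    abel

end Pow

/-! ### Traces -/

section Trace

variable {A : Type*} [Ring A] [Algebra ℂ A] (tr : A →ₗ[ℂ] ℂ)

/-- The trace of `U^(n+1) D` when `C` is a scalar. -/
theorem trace_pow_mul {V V' : A} {x : ℂ} (h : V * V' = 1)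
    (hx : V + V' = x • 1) (D : A) (n : ℕ) :
    tr (V ^ (n + 1) * D) = chebU x (n + 1) * tr D - chebU x n * tr (V' * D) := by
  rw [pow_succ_eq_cheb h hx, sub_mul, smul_mul_assoc, smul_mul_assoc, one_mul, map_sub,
    map_smul, map_smul, smul_eq_mul, smul_eq_mul]

variable (htr : ∀ a b, tr (a * b) = tr (b * a))
include htr

/-- One place (the `K` side): if `e + ω e ω = 1` and `B` commutes with `ω`, then
`tr B = 2 tr (e B)`. -/
theorem trace_eq_two_mul {e w B : A} (hw : w * w = 1) (h1 : e + w * e * w = 1)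
    (hB : B * w = w * B) : tr B = 2 * tr (e * B) := by
  have h2 : tr (w * e * w * B) = tr (e * B) := by
    have h3 : w * e * w * B = w * (e * w * B) := by noncomm_ring
    rw [h3, htr]
    have h4 : e * w * B * w = e * (w * (B * w)) := by noncomm_ring
    rw [h4, hB, ← mul_assoc w w B, hw, one_mul]
  have h5 : tr B = tr ((e + w * e * w) * B) := by rw [h1, one_mul]
  rw [h5, add_mul, map_add, h2]
  ring

/-- An idempotent `P` with `P D = D P'`, `P' P = 0` does not contribute. -/
theorem trace_eq_zero_of_orth {P P' D : A} (hP : P * P = P) (hD : P * D = D * P')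
    (h0 : P' * P = 0) : tr (P * D) = 0 := by
  have h1 : P * D = P * (D * P') := by
    rw [← hD, ← mul_assoc, hP]
  have h2 : P * (D * P') = (P * D) * P' := by rw [mul_assoc]
  rw [h1, h2, htr, ← mul_assoc, h0, zero_mul, map_zero]

/-- Three places permuted cyclically (the `L` side): `tr D = 2 tr (e₀ e₁ e₂ D)` on the common
kernel of the three central elements. -/
theorem trace_eq_two_mul_cyc {e w : Fin 3 → A} {D : A}
    (he : ∀ i, e i * e i = e i) (hw : ∀ i, w i * w i = 1)
    (h0 : ∀ i, e i * w i * e i = 0) (h1 : ∀ i, e i + w i * e i * w i = 1)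
    (hee : ∀ i j, i ≠ j → e i * e j = e j * e i) (hew : ∀ i j, i ≠ j → e i * w j = w j * e i)
    (hww : ∀ i j, i ≠ j → w i * w j = w j * w i)
    (hDe : ∀ i, D * e i = e (i + 1) * D) (hDw : ∀ i, D * w i = w (i + 1) * D) :
    tr D = 2 * tr (e 0 * e 1 * e 2 * D) := by
  -- the complementary idempotents
  set f : Fin 3 → A := fun i => w i * e i * w i with hf
  have hff : ∀ i, f i * f i = f i := by
    intro i
    have : f i * f i = w i * e i * (w i * w i) * e i * w i := by rw [hf]; noncomm_ring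
    rw [this, hw, mul_one, mul_assoc (w i) (e i) (e i), he]
  have hef : ∀ i, e i * f i = 0 := by
    intro i
    have : e i * f i = e i * w i * e i * w i := by rw [hf]; noncomm_ring
    rw [this, h0, zero_mul]
  have hfe : ∀ i, f i * e i = 0 := by
    intro i
    have : f i * e i = w i * (e i * w i * e i) := by rw [hf]; noncomm_ring
    rw [this, h0, mul_zero]
  have hfcomm : ∀ i j, i ≠ j → ∀ a, (a * e j = e j * a) → (a * w j = w j * a) →
      a * f j = f j * a := by
    intro i j _ a hae haw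
    have : a * f j = a * w j * e j * w j := by rw [hf]; noncomm_ring
    rw [this, haw, mul_assoc (w j) a (e j), hae, mul_assoc (w j) (e j * a) (w j),
      mul_assoc (e j) a (w j), haw, hf]
    noncomm_ring
  have hef' : ∀ i j, i ≠ j → e i * f j = f j * e i := fun i j hij =>
    hfcomm i j hij _ (hee i j hij) (hew i j hij)
  have hwf : ∀ i j, i ≠ j → w i * f j = f j * w i := fun i j hij =>
    hfcomm i j hij _ (hew j i hij.symm).symm (hww i j hij)
  have hff' : ∀ i j, i ≠ j → f i * f j = f j * f i := by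
    intro i j hij
    have e1 := hef' i j hij
    have e2 := hwf i j hij
    have : f i * f j = w i * (e i * (w i * f j)) := by rw [hf]; noncomm_ring
    rw [this, e2, ← mul_assoc (e i), e1, mul_assoc (f j), ← mul_assoc (w i), e2]
    simp only [hf]
    noncomm_ring
  have hDf : ∀ i, D * f i = f (i + 1) * D := by
    intro i
    have : D * f i = D * w i * e i * w i := by rw [hf]; noncomm_ring
    rw [this, hDw, mul_assoc (w (i + 1)) D (e i), hDe, mul_assoc (w (i + 1)) _ (w i),
      mul_assoc (e (i + 1)) D (w i), hDw]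
    simp only [hf]
    noncomm_ring
  -- uniform notation
  obtain ⟨g, hgt, hgf⟩ : ∃ g : Bool → Fin 3 → A, g true = e ∧ g false = f :=
    ⟨fun b => bif b then e else f, rfl, rfl⟩
  have hgg : ∀ b i, g b i * g b i = g b i := by
    rintro (_ | _) i
    · rw [hgf]; exact hff i
    · rw [hgt]; exact he i
  have hg0 : ∀ b c i, b ≠ c → g b i * g c i = 0 := by
    rintro (_ | _) (_ | _) i hbc
    · exact absurd rfl hbc
    · rw [hgf, hgt]; exact hfe i
    · rw [hgf, hgt]; exact hef i
    · exact absurd rfl hbc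
  have hgc : ∀ b c i j, i ≠ j → g b i * g c j = g c j * g b i := by
    rintro (_ | _) (_ | _) i j hij
    · rw [hgf]; exact hff' i j hij
    · rw [hgf, hgt]; exact (hef' j i hij.symm).symm
    · rw [hgf, hgt]; exact hef' i j hij
    · rw [hgt]; exact hee i j hij
  have hDg : ∀ b i, D * g b i = g b (i + 1) * D := by
    rintro (_ | _) i
    · rw [hgf]; exact hDf i
    · rw [hgt]; exact hDe i
  have hsum : ∀ i, g true i + g false i = 1 := by
    intro i
    rw [hgt, hgf]; exact h1 i
  have hprod : ∀ b₀ b₁ b₂ c₀ c₁ c₂, (g b₀ 0 * g b₁ 1 * g b₂ 2) * (g c₀ 0 * g c₁ 1 * g c₂ 2) =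
      (g b₀ 0 * g c₀ 0) * (g b₁ 1 * g c₁ 1) * (g b₂ 2 * g c₂ 2) := by
    intro b₀ b₁ b₂ c₀ c₁ c₂
    have e1 := hgc b₁ c₀ 1 0 (by decide)
    have e2 := hgc b₂ c₀ 2 0 (by decide)
    have e3 := hgc b₂ c₁ 2 1 (by decide)
    calc (g b₀ 0 * g b₁ 1 * g b₂ 2) * (g c₀ 0 * g c₁ 1 * g c₂ 2)
        = g b₀ 0 * g b₁ 1 * (g b₂ 2 * g c₀ 0) * g c₁ 1 * g c₂ 2 := by noncomm_ring
      _ = g b₀ 0 * (g b₁ 1 * g c₀ 0) * (g b₂ 2 * g c₁ 1) * g c₂ 2 := by rw [e2]; noncomm_ring
      _ = _ := by rw [e1, e3]; noncomm_ring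
  have hPD : ∀ b₀ b₁ b₂, (g b₀ 0 * g b₁ 1 * g b₂ 2) * D = D * (g b₁ 0 * g b₂ 1 * g b₀ 2) := by
    intro b₀ b₁ b₂
    have d0 := hDg b₁ 0
    have d1 := hDg b₂ 1
    have d2 := hDg b₀ 2
    have z1 : (0 : Fin 3) + 1 = 1 := rfl
    have z2 : (1 : Fin 3) + 1 = 2 := rfl
    have z3 : (2 : Fin 3) + 1 = 0 := rfl
    rw [z1] at d0
    rw [z2] at d1
    rw [z3] at d2
    calc (g b₀ 0 * g b₁ 1 * g b₂ 2) * D = g b₀ 0 * (g b₁ 1 * g b₂ 2) * D := by noncomm_ring
      _ = g b₁ 1 * g b₂ 2 * (g b₀ 0 * D) := by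
        have e1 := hgc b₀ b₁ 0 1 (by decide)
        have e2 := hgc b₀ b₂ 0 2 (by decide)
        calc g b₀ 0 * (g b₁ 1 * g b₂ 2) * D = (g b₀ 0 * g b₁ 1) * g b₂ 2 * D := by noncomm_ring
          _ = g b₁ 1 * (g b₀ 0 * g b₂ 2) * D := by rw [e1]; noncomm_ring
          _ = _ := by rw [e2]; noncomm_ring
      _ = g b₁ 1 * (g b₂ 2 * D) * g b₀ 2 := by rw [← d2]; noncomm_ring
      _ = g b₁ 1 * D * g b₂ 1 * g b₀ 2 := by rw [← d1]; noncomm_ring
      _ = _ := by rw [← d0]; noncomm_ring
  have hzero : ∀ b₀ b₁ b₂, (b₁ ≠ b₀ ∨ b₂ ≠ b₁) → tr (g b₀ 0 * g b₁ 1 * g b₂ 2 * D) = 0 := by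
    intro b₀ b₁ b₂ hb
    refine trace_eq_zero_of_orth tr htr (P' := g b₁ 0 * g b₂ 1 * g b₀ 2) ?_ (hPD _ _ _) ?_
    · rw [hprod, hgg, hgg, hgg]
    · rw [hprod]
      rcases hb with hb | hb
      · rw [hg0 _ _ _ hb, zero_mul, zero_mul]
      · rw [hg0 _ _ 1 hb, mul_zero, zero_mul]
  have hexp : tr D = ∑ b₀ : Bool, ∑ b₁ : Bool, ∑ b₂ : Bool,
      tr (g b₀ 0 * g b₁ 1 * g b₂ 2 * D) := by
    have h5 : D = (g true 0 + g false 0) * (g true 1 + g false 1) * (g true 2 + g false 2) * D := by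
      rw [hsum, hsum, hsum]; noncomm_ring
    conv_lhs => rw [h5]
    simp only [Fintype.sum_bool, add_mul, mul_add, map_add]
    abel
  have hall : tr (g false 0 * g false 1 * g false 2 * D) = tr (g true 0 * g true 1 * g true 2 * D) := by
    have hwD : w 0 * w 1 * w 2 * D = D * (w 0 * w 1 * w 2) := by
      have d0 : D * w 0 = w 1 * D := hDw 0
      have d1 : D * w 1 = w 2 * D := hDw 1
      have d2 : D * w 2 = w 0 * D := hDw 2
      calc w 0 * w 1 * w 2 * D = (w 0 * w 1) * w 2 * D := rfl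
        _ = w 1 * (w 0 * w 2) * D := by rw [hww 0 1 (by decide)]; noncomm_ring
        _ = w 1 * (w 2 * (w 0 * D)) := by rw [hww 0 2 (by decide)]; noncomm_ring
        _ = w 1 * (w 2 * D) * w 2 := by rw [← d2]; noncomm_ring
        _ = w 1 * D * w 1 * w 2 := by rw [← d1]; noncomm_ring
        _ = _ := by rw [← d0]; noncomm_ring
    have hff3 : f 0 * f 1 * f 2 =
        (w 0 * w 1 * w 2) * (e 0 * e 1 * e 2) * (w 0 * w 1 * w 2) := by
      have c1 : w 1 * e 0 = e 0 * w 1 := (hew 0 1 (by decide)).symm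
      have c2 : w 2 * e 0 = e 0 * w 2 := (hew 0 2 (by decide)).symm
      have c3 : w 2 * e 1 = e 1 * w 2 := (hew 1 2 (by decide)).symm
      have c4 : e 1 * w 0 = w 0 * e 1 := hew 1 0 (by decide)
      have c5 : e 2 * w 0 = w 0 * e 2 := hew 2 0 (by decide)
      have c6 : e 2 * w 1 = w 1 * e 2 := hew 2 1 (by decide)
      have c7 : w 1 * w 0 = w 0 * w 1 := hww 1 0 (by decide)
      have c8 : w 2 * w 0 = w 0 * w 2 := hww 2 0 (by decide)
      have c9 : w 2 * w 1 = w 1 * w 2 := hww 2 1 (by decide)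
      have s1 : (w 0 * w 1 * w 2) * (e 0 * e 1 * e 2) = (w 0 * e 0) * (w 1 * e 1) * (w 2 * e 2) := by
        calc (w 0 * w 1 * w 2) * (e 0 * e 1 * e 2)
            = w 0 * w 1 * (w 2 * e 0) * e 1 * e 2 := by noncomm_ring
          _ = w 0 * (w 1 * e 0) * (w 2 * e 1) * e 2 := by rw [c2]; noncomm_ring
          _ = _ := by rw [c1, c3]; noncomm_ring
      rw [s1]
      calc f 0 * f 1 * f 2 = (w 0 * e 0) * w 0 * ((w 1 * e 1) * w 1) * ((w 2 * e 2) * w 2) := by
            simp only [hf]
        _ = (w 0 * e 0) * (w 0 * w 1) * e 1 * w 1 * w 2 * e 2 * w 2 := by noncomm_ring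
        _ = (w 0 * e 0) * w 1 * (w 0 * e 1) * w 1 * w 2 * e 2 * w 2 := by rw [← c7]; noncomm_ring
        _ = (w 0 * e 0) * w 1 * e 1 * (w 0 * (w 1 * w 2)) * e 2 * w 2 := by rw [← c4]; noncomm_ring
        _ = (w 0 * e 0) * w 1 * e 1 * (w 2 * (w 0 * w 1)) * e 2 * w 2 := by
            have : w 0 * (w 1 * w 2) = w 2 * (w 0 * w 1) := by
              rw [← c9, ← mul_assoc, ← c8, mul_assoc]
            rw [this]
        _ = (w 0 * e 0) * (w 1 * e 1) * w 2 * (w 0 * (w 1 * e 2)) * w 2 := by noncomm_ring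
        _ = (w 0 * e 0) * (w 1 * e 1) * (w 2 * ((w 0 * e 2) * (w 1 * w 2))) := by
            rw [← c6]; noncomm_ring
        _ = _ := by rw [← c5]; noncomm_ring
    rw [hgt, hgf]
    have hww3 : (w 0 * w 1 * w 2) * (w 0 * w 1 * w 2) = 1 := by
      have c7 : w 1 * w 0 = w 0 * w 1 := hww 1 0 (by decide)
      have c8 : w 2 * w 0 = w 0 * w 2 := hww 2 0 (by decide)
      have c9 : w 2 * w 1 = w 1 * w 2 := hww 2 1 (by decide)
      calc (w 0 * w 1 * w 2) * (w 0 * w 1 * w 2) = w 0 * w 1 * (w 2 * w 0) * w 1 * w 2 := by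
            noncomm_ring
        _ = w 0 * (w 1 * w 0) * (w 2 * w 1) * w 2 := by rw [c8]; noncomm_ring
        _ = (w 0 * w 0) * (w 1 * w 1) * (w 2 * w 2) := by rw [c7, c9]; noncomm_ring
        _ = 1 := by rw [hw, hw, hw, one_mul, one_mul]
    rw [hff3]
    set W := w 0 * w 1 * w 2
    set E := e 0 * e 1 * e 2
    have h6 : W * E * W * D = W * (E * (W * D)) := by noncomm_ring
    rw [h6, htr, hwD]
    have h7 : E * (D * W) * W = E * D * (W * W) := by noncomm_ring
    rw [h7, hww3, mul_one]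
  rw [hexp]
  simp only [Fintype.sum_bool]
  rw [hzero true true false (by simp), hzero true false true (by simp),
    hzero true false false (by simp), hzero false true true (by simp),
    hzero false true false (by simp), hzero false false true (by simp), hall, hgt]
  ring

end Trace

end Fermat.Agent.LT
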