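import Fermat.Agent.LT.Regular
import Fermat.Agent.LT.IsoAlg
import Fermat.Agent.LT.Level.Defs

/-!
# The coset space of the Iwahori subgroup at one place

`F` is any field with a valuation `v` (no completeness): `G = GL₂(F)`, `I' = Fˣ I`, `K' = Fˣ K`.
The set `D = G ⧸ I'` carries the operators `e` (average over the `K'`-coset), `ω` (Atkin-Lehner) and
`U = T ω`, `T = (q + 1) e - 1`.
-/

set_option autoImplicit false

open Matrix

namespace Fermat.Agent.LT.Iwa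

open Fermat.Agent.LT.Lvl

variable {F : Type*} [Field F] {Γ₀ : Type*} [LinearOrderedCommGroupWithZero Γ₀]

/-! ### The groups -/

theorem _root_.Fermat.Agent.LT.IsIwahori.inv {v : Valuation F Γ₀} {k : Matrix (Fin 2) (Fin 2) F}
    (hk : IsIwahori v k) : IsIwahori v k⁻¹ := by
  have hd := hk.det
  have hinv : v (k.det)⁻¹ = 1 := by rw [map_inv₀, hd, inv_one]
  have h : k⁻¹ = (k.det)⁻¹ • !![k 1 1, -k 0 1; -k 1 0, k 0 0] := by
    rw [Matrix.inv_def, Matrix.adjugate_fin_two, Ring.inverse_eq_inv']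
  constructor
  · rw [h]; simp [hd, hk.h11]
  · rw [h]; simp [hd, hk.h00]
  · rw [h]; simpa [hd] using hk.h01
  · rw [h]; simpa [hd] using hk.h10

theorem _root_.Fermat.Agent.LT.IsHyper.inv {v : Valuation F Γ₀} {k : Matrix (Fin 2) (Fin 2) F}
    (hk : IsHyper v k) : IsHyper v k⁻¹ := by
  have hd := hk.hdet
  have h : k⁻¹ = (k.det)⁻¹ • !![k 1 1, -k 0 1; -k 1 0, k 0 0] := by
    rw [Matrix.inv_def, Matrix.adjugate_fin_two, Ring.inverse_eq_inv']
  refine ⟨fun i j => ?_, ?_⟩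
  · rw [h]
    fin_cases i <;> fin_cases j
    · simpa [hd] using hk.h 1 1
    · simpa [hd] using hk.h 0 1
    · simpa [hd] using hk.h 1 0
    · simpa [hd] using hk.h 0 0
  · rw [Matrix.det_nonsing_inv, Ring.inverse_eq_inv', map_inv₀, hd, inv_one]

variable (v : Valuation F Γ₀)

/-- the Iwahori subgroup -/
def Iw : Subgroup (GL (Fin 2) F) where
  carrier := {g | IsIwahori v (g : Matrix (Fin 2) (Fin 2) F)}
  one_mem' := IsIwahori.one
  mul_mem' := fun hg hh => hg.mul hh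
  inv_mem' := fun {g} hg => by
    have h := IsIwahori.inv hg
    rwa [← Matrix.coe_units_inv] at h

/-- the Iwahori subgroup modulo the centre -/
abbrev iwa : Subgroup (GL (Fin 2) F) := Iw v ⊔ Subgroup.center (GL (Fin 2) F)

/-- the maximal compact subgroup modulo the centre -/
abbrev hyp : Subgroup (GL (Fin 2) F) := GLO v ⊔ Subgroup.center (GL (Fin 2) F)

variable {v}

theorem mem_Iw {g : GL (Fin 2) F} : g ∈ Iw v ↔ IsIwahori v (g : Matrix (Fin 2) (Fin 2) F) :=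
  Iff.rfl

theorem mem_GLO_iff_isHyper {g : GL (Fin 2) F} :
    g ∈ GLO v ↔ IsHyper v (g : Matrix (Fin 2) (Fin 2) F) :=
  ⟨fun h => ⟨h.1, h.2⟩, fun h => ⟨h.h, h.hdet⟩⟩

theorem Iw_le_GLO : Iw v ≤ GLO v := fun _ h => mem_GLO_iff_isHyper.mpr (mem_Iw.mp h).isHyper

theorem mem_sup_center_iff {H : Subgroup (GL (Fin 2) F)} {g : GL (Fin 2) F}
    {p : Matrix (Fin 2) (Fin 2) F → Prop} (hp : ∀ k : GL (Fin 2) F, k ∈ H ↔ p k) :
    g ∈ H ⊔ Subgroup.center (GL (Fin 2) F) ↔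
      ∃ z : F, z ≠ 0 ∧ p (z • (g : Matrix (Fin 2) (Fin 2) F)) := by
  have hsc : ∀ (z : Fˣ) (k : GL (Fin 2) F),
      ((GeneralLinearGroup.scalar (Fin 2) z * k : GL (Fin 2) F) : Matrix (Fin 2) (Fin 2) F) =
        (z : F) • (k : Matrix (Fin 2) (Fin 2) F) := by
    intro z k
    rw [GeneralLinearGroup.coe_mul, GeneralLinearGroup.coe_scalar]
    ext i j
    simp [Matrix.scalar_apply, Matrix.diagonal_mul]
  rw [mem_sup_center]
  constructor
  · rintro ⟨z, k, hk, rfl⟩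
    refine ⟨((z⁻¹ : Fˣ) : F), Units.ne_zero _, ?_⟩
    rw [hsc, smul_smul, ← Units.val_mul, inv_mul_cancel, Units.val_one, one_smul]
    exact (hp k).mp hk
  · rintro ⟨z, hz, h⟩
    refine ⟨(Units.mk0 z hz)⁻¹, GeneralLinearGroup.scalar (Fin 2) (Units.mk0 z hz) * g, ?_, ?_⟩
    · rw [hp, hsc]
      exact h
    · rw [← mul_assoc, ← map_mul, inv_mul_cancel, map_one, one_mul]

theorem mem_iwa {g : GL (Fin 2) F} :
    g ∈ iwa v ↔ ∃ z : F, z ≠ 0 ∧ IsIwahori v (z • (g : Matrix (Fin 2) (Fin 2) F)) :=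
  mem_sup_center_iff fun _ => mem_Iw

theorem mem_hyp {g : GL (Fin 2) F} :
    g ∈ hyp v ↔ ∃ z : F, z ≠ 0 ∧ IsHyper v (z • (g : Matrix (Fin 2) (Fin 2) F)) :=
  mem_sup_center_iff fun _ => mem_GLO_iff_isHyper

theorem iwa_le_hyp : iwa v ≤ hyp v := sup_le_sup_right Iw_le_GLO _

theorem mem_iwa_of {g : GL (Fin 2) F} (h : IsIwahori v (g : Matrix (Fin 2) (Fin 2) F)) :
    g ∈ iwa v := mem_iwa.mpr ⟨1, one_ne_zero, by rwa [one_smul]⟩

theorem mem_hyp_of {g : GL (Fin 2) F} (h : IsHyper v (g : Matrix (Fin 2) (Fin 2) F)) :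
    g ∈ hyp v := mem_hyp.mpr ⟨1, one_ne_zero, by rwa [one_smul]⟩

/-- an invertible matrix from its entries -/
def gl2 (a b c d : F) (h : a * d - b * c ≠ 0) : GL (Fin 2) F :=
  GeneralLinearGroup.mkOfDetNeZero !![a, b; c, d] (by rwa [Matrix.det_fin_two_of])

@[simp] theorem coe_gl2 (a b c d : F) (h : a * d - b * c ≠ 0) :
    ((gl2 a b c d h : GL (Fin 2) F) : Matrix (Fin 2) (Fin 2) F) = !![a, b; c, d] := rfl

theorem gl2_mul (a b c d a' b' c' d' : F) (h h') :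
    gl2 a b c d h * gl2 a' b' c' d' h' = gl2 (a * a' + b * c') (a * b' + b * d') (c * a' + d * c')
      (c * b' + d * d') (by
        have : (a * a' + b * c') * (c * b' + d * d') - (a * b' + b * d') * (c * a' + d * c') =
          (a * d - b * c) * (a' * d' - b' * c') := by ring
        rw [this]; exact mul_ne_zero h h') := by
  ext i j
  rw [GeneralLinearGroup.coe_mul, coe_gl2, coe_gl2, coe_gl2]
  fin_cases i <;> fin_cases j <;> simp [Matrix.mul_apply, Fin.sum_univ_two]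

theorem gl2_mem_iwa {a b c d : F} (h) (ha : v a = 1) (hd : v d = 1) (hb : v b ≤ 1) (hc : v c < 1) :
    gl2 a b c d h ∈ iwa v := mem_iwa_of ⟨by simpa using ha, by simpa using hd, by simpa using hb,
      by simpa using hc⟩

/-- uniformizer and residue representatives -/
structure Datum (v : Valuation F Γ₀) where
  ϖ : F
  ϖ_ne : ϖ ≠ 0
  ϖ_lt : v ϖ < 1
  le_of_lt : ∀ x, v x < 1 → v x ≤ v ϖ
  B : Finset F
  B_le : ∀ b ∈ B, v b ≤ 1
  B_ex : ∀ x, v x ≤ 1 → ∃ b ∈ B, v (x - b) < 1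
  B_uniq : ∀ b ∈ B, ∀ b' ∈ B, v (b - b') < 1 → b = b'

namespace Datum

variable (𝔡 : Datum v)

/-- the number of residue classes -/
def q : ℕ := 𝔡.B.card

/-- the element `(ϖⁿ, b; 0, 1)` -/
def nt (n : ℕ) (b : F) : GL (Fin 2) F :=
  gl2 (𝔡.ϖ ^ n) b 0 1 (by simpa using pow_ne_zero n 𝔡.ϖ_ne)

/-- the Atkin-Lehner element -/
def wel : GL (Fin 2) F := gl2 0 1 𝔡.ϖ 0 (by simpa using 𝔡.ϖ_ne)

end Datum

/-- representatives of the other cosets of `I` in `K` -/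
def kb (b : F) : GL (Fin 2) F := gl2 b 1 1 0 (by simp)

namespace Datum

variable (𝔡 : Datum v)

theorem kb_mul_wel (b : F) : kb b * 𝔡.wel = 𝔡.nt 1 b := by
  rw [kb, wel, gl2_mul, nt]
  congr 1 <;> simp

theorem nt_mul_nt (n m : ℕ) (b c : F) : 𝔡.nt n b * 𝔡.nt m c = 𝔡.nt (n + m) (b + 𝔡.ϖ ^ n * c) := by
  rw [nt, nt, gl2_mul, nt]
  congr 1
  · simp [pow_add]
  · ring
  · simp
  · simp

end Datum

/-- the coset space -/
abbrev D (v : Valuation F Γ₀) : Type _ := Cos (Iw v)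

/-- equality of cosets -/
theorem mk_eq_mk_of {g h k : GL (Fin 2) F} (hk : k ∈ iwa v) (e : h = g * k) :
    (g : D v) = (h : D v) := by
  rw [QuotientGroup.eq, e, inv_mul_cancel_left]
  exact hk

theorem exists_of_mk_eq {g h : GL (Fin 2) F} (e : (g : D v) = (h : D v)) :
    ∃ k ∈ iwa v, h = g * k :=
  ⟨g⁻¹ * h, QuotientGroup.eq.mp e, by rw [mul_inv_cancel_left]⟩

theorem gl2_unip_mem_iwa {c : F} (h) (hc : gl2 1 c 0 1 h ∈ iwa v) : v c ≤ 1 := by
  obtain ⟨z, hz, hI⟩ := mem_iwa.mp hc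
  have h1 : v z = 1 := by simpa using hI.h00
  have h2 : v (z * c) ≤ 1 := by simpa using hI.h01
  rwa [map_mul, h1, one_mul] at h2

theorem gl2_lower_mem_iwa {c : F} (h) (hc : gl2 1 0 c 1 h ∈ iwa v) : v c < 1 := by
  obtain ⟨z, hz, hI⟩ := mem_iwa.mp hc
  have h1 : v z = 1 := by simpa using hI.h00
  have h2 : v (z * c) < 1 := by simpa using hI.h10
  rwa [map_mul, h1, one_mul] at h2

theorem kb_notMem_iwa (b : F) : kb b ∉ iwa v := by
  intro hk
  obtain ⟨z, hz, hI⟩ := mem_iwa.mp hk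
  have h1 : v (z * 0) = 1 := by simpa [kb] using hI.h11
  simp at h1

theorem kb_mem_hyp {b : F} (hb : v b ≤ 1) : kb b ∈ hyp v := by
  refine mem_hyp_of ⟨fun i j => ?_, ?_⟩
  · fin_cases i <;> fin_cases j
    · simpa [kb] using hb
    · simp [kb]
    · simp [kb]
    · simp [kb]
  · simp [kb, Matrix.det_fin_two_of]

theorem kb_mul_lower (b b' : F) (h) : kb b * gl2 1 0 (b' - b) 1 h = kb b' := by
  rw [kb, gl2_mul, kb]
  congr 1 <;> simp

/-- **Coset representatives of `I` in `K`.** -/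
theorem Datum.hyp_cases (𝔡 : Datum v) {k : GL (Fin 2) F} (hk : k ∈ hyp v) :
    k ∈ iwa v ∨ ∃ b ∈ 𝔡.B, ∃ k' ∈ iwa v, k = kb b * k' := by
  obtain ⟨z, hz, hK⟩ := mem_hyp.mp hk
  set κ : Matrix (Fin 2) (Fin 2) F := z • (k : Matrix (Fin 2) (Fin 2) F) with hκ
  have hdet : κ.det = κ 0 0 * κ 1 1 - κ 0 1 * κ 1 0 := Matrix.det_fin_two κ
  have hd1 := hK.hdet
  rcases lt_or_eq_of_le (hK.h 1 0) with hc | hc
  · -- lower left entry in the maximal ideal
    left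
    have h1 : v (κ 0 1 * κ 1 0) < 1 := by
      rw [map_mul]; exact gz_mul_lt_one_right (hK.h 0 1) hc
    have h2 : v (κ 0 0 * κ 1 1) = 1 := by
      have : κ 0 0 * κ 1 1 = κ.det + κ 0 1 * κ 1 0 := by rw [hdet]; ring
      rw [this]
      exact v_add_eq_one hd1 h1
    rw [map_mul] at h2
    have h00 : v (κ 0 0) = 1 := by
      refine le_antisymm (hK.h 0 0) ?_
      rw [← h2]
      exact mul_le_of_le_one_right' (hK.h 1 1)
    have h11 : v (κ 1 1) = 1 := by rwa [h00, one_mul] at h2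
    exact mem_iwa.mpr ⟨z, hz, ⟨h00, h11, hK.h 0 1, hc⟩⟩
  · right
    have hc0 : κ 1 0 ≠ 0 := by
      intro h
      rw [h, map_zero] at hc
      exact zero_ne_one hc
    obtain ⟨b, hbB, hb⟩ := 𝔡.B_ex (κ 0 0 / κ 1 0) (by
      rw [map_div₀, hc, div_one]; exact hK.h 0 0)
    have hb1 := 𝔡.B_le b hbB
    refine ⟨b, hbB, (kb b)⁻¹ * k, ?_, by rw [mul_inv_cancel_left]⟩
    have hinv : ((kb b)⁻¹ : GL (Fin 2) F) = gl2 0 1 1 (-b) (by simp) := by
      rw [inv_eq_iff_mul_eq_one, kb, gl2_mul]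
      ext i j
      rw [coe_gl2]
      fin_cases i <;> fin_cases j <;> simp
    have hval : z • (((kb b)⁻¹ * k : GL (Fin 2) F) : Matrix (Fin 2) (Fin 2) F) =
        !![0, 1; 1, -b] * κ := by
      rw [hinv, GeneralLinearGroup.coe_mul, coe_gl2, hκ, Matrix.mul_smul]
    have h00 : (!![0, 1; 1, -b] * κ) 0 0 = κ 1 0 := by
      simp [Matrix.mul_apply, Fin.sum_univ_two]
    have h01 : (!![0, 1; 1, -b] * κ) 0 1 = κ 1 1 := by
      simp [Matrix.mul_apply, Fin.sum_univ_two]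
    have h10 : (!![0, 1; 1, -b] * κ) 1 0 = κ 0 0 - b * κ 1 0 := by
      simp [Matrix.mul_apply, Fin.sum_univ_two]; ring
    have h11 : (!![0, 1; 1, -b] * κ) 1 1 = κ 0 1 - b * κ 1 1 := by
      simp [Matrix.mul_apply, Fin.sum_univ_two]; ring
    have hlow : v (κ 0 0 - b * κ 1 0) < 1 := by
      have : κ 0 0 - b * κ 1 0 = (κ 0 0 / κ 1 0 - b) * κ 1 0 := by field_simp
      rw [this, map_mul, hc, mul_one]
      exact hb
    refine mem_iwa.mpr ⟨z, hz, ?_⟩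
    rw [hval]
    have hdet' : v (!![0, 1; 1, -b] * κ).det = 1 := by
      rw [Matrix.det_mul, map_mul, hd1, mul_one, Matrix.det_fin_two_of]
      simp
    have hentry : v ((!![0, 1; 1, -b] * κ) 1 1) = 1 := by
      have hle : v ((!![0, 1; 1, -b] * κ) 1 1) ≤ 1 := by
        rw [h11]
        refine (Valuation.map_sub v _ _).trans (max_le (hK.h 0 1) ?_)
        rw [map_mul]
        exact mul_le_one' hb1 (hK.h 1 1)
      rw [Matrix.det_fin_two] at hdet'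
      rw [h00, h01, h10] at hdet'
      have h3 : v (κ 1 1 * (κ 0 0 - b * κ 1 0)) < 1 := by
        rw [map_mul]; exact gz_mul_lt_one_right (hK.h 1 1) hlow
      have h4 : v (κ 1 0 * (!![0, 1; 1, -b] * κ) 1 1) = 1 := by
        have : κ 1 0 * (!![0, 1; 1, -b] * κ) 1 1 = (κ 1 0 * (!![0, 1; 1, -b] * κ) 1 1 -
          κ 1 1 * (κ 0 0 - b * κ 1 0)) + κ 1 1 * (κ 0 0 - b * κ 1 0) := by ring
        rw [this]
        exact v_add_eq_one hdet' h3
      rwa [map_mul, hc, one_mul] at h4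
    exact ⟨by rw [h00]; exact hc, hentry, by rw [h01]; exact hK.h 1 1, by rw [h10]; exact hlow⟩

namespace Datum

variable (𝔡 : Datum v)

/-! ### The Atkin-Lehner element normalises `I` -/

theorem exists_mul_wel {k : GL (Fin 2) F} (hk : k ∈ iwa v) :
    ∃ k' ∈ iwa v, k * 𝔡.wel = 𝔡.wel * k' := by
  obtain ⟨z, hz, hI⟩ := mem_iwa.mp hk
  have hdet : (k : Matrix (Fin 2) (Fin 2) F).det ≠ 0 := by
    have := Matrix.isUnits_det_units k
    exact this.ne_zero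
  rw [Matrix.det_fin_two] at hdet
  have hϖ := 𝔡.ϖ_ne
  set K := (k : Matrix (Fin 2) (Fin 2) F) with hKdef
  have hd' : K 1 1 * K 0 0 - K 1 0 / 𝔡.ϖ * (𝔡.ϖ * K 0 1) ≠ 0 := by
    have : K 1 1 * K 0 0 - K 1 0 / 𝔡.ϖ * (𝔡.ϖ * K 0 1) = K 0 0 * K 1 1 - K 0 1 * K 1 0 := by
      field_simp
    rwa [this]
  refine ⟨gl2 (K 1 1) (K 1 0 / 𝔡.ϖ) (𝔡.ϖ * K 0 1) (K 0 0) hd', mem_iwa.mpr ⟨z, hz, ?_⟩, ?_⟩
  · have h00 : v (z * K 0 0) = 1 := by simpa using hI.h00
    have h11 : v (z * K 1 1) = 1 := by simpa using hI.h11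
    have h01 : v (z * K 0 1) ≤ 1 := by simpa using hI.h01
    have h10 : v (z * K 1 0) < 1 := by simpa using hI.h10
    constructor
    · simpa using h11
    · simpa using h00
    · have h1 := 𝔡.le_of_lt _ h10
      have h2 : v (z * (K 1 0 / 𝔡.ϖ)) ≤ 1 := by
        rw [← mul_div_assoc, map_div₀]
        exact div_le_one_of_le₀ h1 zero_le
      simpa using h2
    · have h2 : v (z * (𝔡.ϖ * K 0 1)) < 1 := by
        rw [mul_left_comm, map_mul]
        exact gz_mul_lt_one_left 𝔡.ϖ_lt h01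
      simpa using h2
  · apply Units.ext
    rw [GeneralLinearGroup.coe_mul, GeneralLinearGroup.coe_mul, wel, coe_gl2, coe_gl2, ← hKdef]
    ext i j
    fin_cases i <;> fin_cases j <;> simp [Matrix.mul_apply, Fin.sum_univ_two] <;> field_simp

/-- the Atkin-Lehner involution on the coset space -/
def wD (d : D v) : D v :=
  Quotient.liftOn' d (fun g => ((g * 𝔡.wel : GL (Fin 2) F) : D v)) (by
    intro g h hgh
    rw [QuotientGroup.leftRel_apply] at hgh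
    obtain ⟨k', hk', e⟩ := 𝔡.exists_mul_wel hgh
    refine mk_eq_mk_of hk' ?_
    have : h = g * (g⁻¹ * h) := by rw [mul_inv_cancel_left]
    conv_lhs => rw [this]
    rw [mul_assoc, e, mul_assoc])

@[simp] theorem wD_mk (g : GL (Fin 2) F) : 𝔡.wD (g : D v) = ((g * 𝔡.wel : GL (Fin 2) F) : D v) :=
  rfl

theorem wel_mul_wel_mem : 𝔡.wel * 𝔡.wel ∈ iwa v := by
  refine mem_iwa.mpr ⟨𝔡.ϖ⁻¹, inv_ne_zero 𝔡.ϖ_ne, ?_⟩
  have hϖ := 𝔡.ϖ_ne
  have h : 𝔡.ϖ⁻¹ • ((𝔡.wel * 𝔡.wel : GL (Fin 2) F) : Matrix (Fin 2) (Fin 2) F) = 1 := by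
    rw [wel, gl2_mul, coe_gl2]
    ext i j
    fin_cases i <;> fin_cases j <;> simp [hϖ]
  rw [h]
  exact IsIwahori.one

@[simp] theorem wD_wD (d : D v) : 𝔡.wD (𝔡.wD d) = d := by
  obtain ⟨g, rfl⟩ := QuotientGroup.mk_surjective d
  rw [wD_mk, wD_mk]
  exact (mk_eq_mk_of 𝔡.wel_mul_wel_mem (mul_assoc _ _ _)).symm

theorem wD_injective : Function.Injective 𝔡.wD :=
  Function.LeftInverse.injective 𝔡.wD_wD

theorem wD_smul (γ : GL (Fin 2) F) (d : D v) : 𝔡.wD (γ • d) = γ • 𝔡.wD d := by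
  obtain ⟨g, rfl⟩ := QuotientGroup.mk_surjective d
  change 𝔡.wD ((γ * g : GL (Fin 2) F) : D v) = ((γ * (g * 𝔡.wel) : GL (Fin 2) F) : D v)
  rw [wD_mk, mul_assoc]

end Datum

/-! ### The fibres over the vertices -/

/-- the vertices -/
abbrev Vx (v : Valuation F Γ₀) : Type _ := Cos (GLO v)

/-- the origin of an edge -/
def pr (d : D v) : Vx v := Cos.map Iw_le_GLO d

@[simp] theorem pr_mk (g : GL (Fin 2) F) : pr (g : D v) = (g : Vx v) := rfl

theorem pr_smul (γ : GL (Fin 2) F) (d : D v) : pr (γ • d) = γ • pr d := by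
  obtain ⟨g, rfl⟩ := QuotientGroup.mk_surjective d
  rfl

theorem pr_eq_iff {g h : GL (Fin 2) F} : (g : Vx v) = (h : Vx v) ↔ ∃ k ∈ hyp v, h = g * k := by
  rw [QuotientGroup.eq]
  constructor
  · intro hk
    exact ⟨_, hk, by rw [mul_inv_cancel_left]⟩
  · rintro ⟨k, hk, rfl⟩
    rwa [inv_mul_cancel_left]

namespace Datum

variable (𝔡 : Datum v)

open Classical in
/-- the edges with the same origin -/
noncomputable def fib (d : D v) : Finset (D v) :=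
  insert d (𝔡.B.image fun b => ((d.out * kb b : GL (Fin 2) F) : D v))

theorem mem_fib_mk {g : GL (Fin 2) F} {d' : D v} :
    pr d' = (g : Vx v) ↔ d' = (g : D v) ∨ ∃ b ∈ 𝔡.B, d' = ((g * kb b : GL (Fin 2) F) : D v) := by
  constructor
  · obtain ⟨h, rfl⟩ := QuotientGroup.mk_surjective d'
    intro e
    rw [pr_mk] at e
    obtain ⟨k, hk, rfl⟩ := pr_eq_iff.mp e.symm
    rcases 𝔡.hyp_cases hk with hk | ⟨b, hb, k', hk', rfl⟩
    · exact Or.inl (mk_eq_mk_of hk rfl).symm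
    · exact Or.inr ⟨b, hb, (mk_eq_mk_of hk' (mul_assoc _ _ _).symm).symm⟩
  · rintro (rfl | ⟨b, hb, rfl⟩)
    · rfl
    · rw [pr_mk]
      exact (pr_eq_iff.mpr ⟨kb b, kb_mem_hyp (𝔡.B_le b hb), rfl⟩).symm

theorem mem_fib {d d' : D v} : d' ∈ 𝔡.fib d ↔ pr d' = pr d := by
  classical
  have h : pr d = ((d.out : GL (Fin 2) F) : Vx v) := by
    conv_lhs => rw [← QuotientGroup.out_eq' d]
    rfl
  rw [h, 𝔡.mem_fib_mk, fib, Finset.mem_insert, Finset.mem_image]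
  rw [QuotientGroup.out_eq']
  constructor
  · rintro (h | ⟨b, hb, h⟩)
    · exact Or.inl h
    · exact Or.inr ⟨b, hb, h.symm⟩
  · rintro (h | ⟨b, hb, h⟩)
    · exact Or.inl h
    · exact Or.inr ⟨b, hb, h.symm⟩

theorem self_mem_fib (d : D v) : d ∈ 𝔡.fib d := 𝔡.mem_fib.mpr rfl

theorem fib_eq {d d' : D v} (h : d' ∈ 𝔡.fib d) : 𝔡.fib d' = 𝔡.fib d := by
  ext x
  rw [mem_fib, mem_fib, 𝔡.mem_fib.mp h]

theorem mk_kb_inj {g : GL (Fin 2) F} {b b' : F} (hb : b ∈ 𝔡.B) (hb' : b' ∈ 𝔡.B)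
    (h : ((g * kb b : GL (Fin 2) F) : D v) = ((g * kb b' : GL (Fin 2) F) : D v)) : b = b' := by
  obtain ⟨k, hk, e⟩ := exists_of_mk_eq h
  have e2 : kb b * gl2 1 0 (b' - b) 1 (by simp) = kb b * k := by
    rw [kb_mul_lower]
    rw [mul_assoc] at e
    exact mul_left_cancel e
  have e3 := mul_left_cancel e2
  rw [← e3] at hk
  have h1 := gl2_lower_mem_iwa _ hk
  exact (𝔡.B_uniq b' hb' b hb h1).symm

theorem mk_ne_mk_kb {g : GL (Fin 2) F} {b : F} :
    ((g : GL (Fin 2) F) : D v) ≠ ((g * kb b : GL (Fin 2) F) : D v) := by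
  intro h
  obtain ⟨k, hk, e⟩ := exists_of_mk_eq h
  have e' : kb b = k := mul_left_cancel e
  rw [← e'] at hk
  exact kb_notMem_iwa b hk

theorem card_fib (d : D v) : (𝔡.fib d).card = 𝔡.q + 1 := by
  classical
  rw [fib, Finset.card_insert_of_notMem, Finset.card_image_of_injOn, q]
  · intro b hb b' hb' h
    exact 𝔡.mk_kb_inj hb hb' h
  · rw [Finset.mem_image]
    rintro ⟨b, hb, h⟩
    refine mk_ne_mk_kb (v := v) (g := d.out) (b := b) ?_
    rw [h, QuotientGroup.out_eq']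

theorem smul_mem_fib {γ : GL (Fin 2) F} {d d' : D v} :
    γ • d' ∈ 𝔡.fib (γ • d) ↔ d' ∈ 𝔡.fib d := by
  rw [mem_fib, mem_fib, pr_smul, pr_smul, smul_left_cancel_iff]

/-! ### The neighbours -/

open Classical in
/-- the row of `U` -/
noncomputable def nbr (d : D v) : Finset (D v) := ((𝔡.fib d).erase d).image 𝔡.wD

theorem mem_nbr_mk {g : GL (Fin 2) F} {d' : D v} :
    d' ∈ 𝔡.nbr (g : D v) ↔ ∃ b ∈ 𝔡.B, d' = ((g * 𝔡.nt 1 b : GL (Fin 2) F) : D v) := by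
  classical
  rw [nbr, Finset.mem_image]
  constructor
  · rintro ⟨x, hx, rfl⟩
    rw [Finset.mem_erase, mem_fib, pr_mk, 𝔡.mem_fib_mk] at hx
    obtain ⟨hne, h | ⟨b, hb, rfl⟩⟩ := hx
    · exact absurd h hne
    · exact ⟨b, hb, by rw [wD_mk, mul_assoc, kb_mul_wel]⟩
  · rintro ⟨b, hb, rfl⟩
    refine ⟨((g * kb b : GL (Fin 2) F) : D v), ?_, by rw [wD_mk, mul_assoc, kb_mul_wel]⟩
    rw [Finset.mem_erase]
    exact ⟨(mk_ne_mk_kb (v := v)).symm, 𝔡.mem_fib.mpr (𝔡.mem_fib_mk.mpr (Or.inr ⟨b, hb, rfl⟩))⟩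

theorem smul_mem_nbr {γ : GL (Fin 2) F} {d d' : D v} :
    γ • d' ∈ 𝔡.nbr (γ • d) ↔ d' ∈ 𝔡.nbr d := by
  obtain ⟨g, rfl⟩ := QuotientGroup.mk_surjective d
  have h : γ • ((g : GL (Fin 2) F) : D v) = ((γ * g : GL (Fin 2) F) : D v) := rfl
  rw [h, mem_nbr_mk, mem_nbr_mk]
  constructor
  · rintro ⟨b, hb, e⟩
    refine ⟨b, hb, ?_⟩
    rw [mul_assoc] at e
    exact smul_left_cancel γ e
  · rintro ⟨b, hb, rfl⟩
    refine ⟨b, hb, ?_⟩
    rw [mul_assoc]
    rfl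

/-- `d' ∈ d · I tⁿ I` -/
def Reach (n : ℕ) (d d' : D v) : Prop :=
  ∃ (g : GL (Fin 2) F) (b : F), v b ≤ 1 ∧ d = (g : D v) ∧ d' = ((g * 𝔡.nt n b : GL (Fin 2) F) : D v)

theorem reach_of_mem_nbr {d d' : D v} (h : d' ∈ 𝔡.nbr d) : 𝔡.Reach 1 d d' := by
  obtain ⟨g, rfl⟩ := QuotientGroup.mk_surjective d
  obtain ⟨b, hb, rfl⟩ := 𝔡.mem_nbr_mk.mp h
  exact ⟨g, b, 𝔡.B_le b hb, rfl, rfl⟩

theorem nt_zero_mem {b : F} (hb : v b ≤ 1) : 𝔡.nt 0 b ∈ iwa v := by
  refine gl2_mem_iwa _ ?_ ?_ hb ?_ <;> simp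

theorem reach_zero {d d' : D v} : 𝔡.Reach 0 d d' ↔ d' = d := by
  constructor
  · rintro ⟨g, b, hb, rfl, rfl⟩
    exact (mk_eq_mk_of (𝔡.nt_zero_mem hb) rfl).symm
  · rintro rfl
    obtain ⟨g, rfl⟩ := QuotientGroup.mk_surjective d'
    refine ⟨g, 0, by simp, rfl, ?_⟩
    exact mk_eq_mk_of (𝔡.nt_zero_mem (by simp)) rfl

/-- `I (ϖⁿ, b; 0, 1) ⊆ ⋃ (ϖⁿ, b'; 0, 1) I` -/
theorem exists_mul_nt {k : GL (Fin 2) F} (hk : k ∈ iwa v) (n : ℕ) {b : F} (hb : v b ≤ 1) :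
    ∃ b', v b' ≤ 1 ∧ ∃ k' ∈ iwa v, k * 𝔡.nt n b = 𝔡.nt n b' * k' := by
  obtain ⟨z, hz, hI⟩ := mem_iwa.mp hk
  set K := (k : Matrix (Fin 2) (Fin 2) F) with hKdef
  have hdet : K.det ≠ 0 := (Matrix.isUnits_det_units k).ne_zero
  rw [Matrix.det_fin_two] at hdet
  have h00 : v (z * K 0 0) = 1 := by simpa using hI.h00
  have h11 : v (z * K 1 1) = 1 := by simpa using hI.h11
  have h01 : v (z * K 0 1) ≤ 1 := by simpa using hI.h01
  have h10 : v (z * K 1 0) < 1 := by simpa using hI.h10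
  -- the denominator
  have hden : v (z * (K 1 0 * b + K 1 1)) = 1 := by
    have : z * (K 1 0 * b + K 1 1) = z * K 1 1 + z * K 1 0 * b := by ring
    rw [this]
    refine v_add_eq_one h11 ?_
    rw [map_mul]
    exact gz_mul_lt_one_left h10 hb
  have hden0 : K 1 0 * b + K 1 1 ≠ 0 := by
    intro h
    rw [h, mul_zero, map_zero] at hden
    exact zero_ne_one hden
  have hnum : v (z * (K 0 0 * b + K 0 1)) ≤ 1 := by
    have : z * (K 0 0 * b + K 0 1) = z * K 0 0 * b + z * K 0 1 := by ring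
    rw [this]
    refine Valuation.map_add_le _ ?_ h01
    rw [map_mul, h00, one_mul]
    exact hb
  set b' := (K 0 0 * b + K 0 1) / (K 1 0 * b + K 1 1) with hb'def
  have hb' : v b' ≤ 1 := by
    have : b' = (z * (K 0 0 * b + K 0 1)) / (z * (K 1 0 * b + K 1 1)) := by
      rw [hb'def, mul_div_mul_left _ _ hz]
    rw [this, map_div₀, hden, div_one]
    exact hnum
  have hb'mul : b' * (K 1 0 * b + K 1 1) = K 0 0 * b + K 0 1 := div_mul_cancel₀ _ hden0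
  have hd' : (K 0 0 - b' * K 1 0) * (K 1 0 * b + K 1 1) - 0 * (𝔡.ϖ ^ n * K 1 0) ≠ 0 := by
    have : (K 0 0 - b' * K 1 0) * (K 1 0 * b + K 1 1) - 0 * (𝔡.ϖ ^ n * K 1 0) =
        K 0 0 * K 1 1 - K 0 1 * K 1 0 := by
      linear_combination (-K 1 0) * hb'mul
    rwa [this]
  refine ⟨b', hb', gl2 (K 0 0 - b' * K 1 0) 0 (𝔡.ϖ ^ n * K 1 0) (K 1 0 * b + K 1 1) hd',
    mem_iwa.mpr ⟨z, hz, ?_⟩, ?_⟩
  · constructor
    · have : v (z * (K 0 0 - b' * K 1 0)) = 1 := by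
        have e : z * (K 0 0 - b' * K 1 0) = z * K 0 0 + -(b' * (z * K 1 0)) := by ring
        rw [e]
        refine v_add_eq_one h00 ?_
        rw [Valuation.map_neg, map_mul]
        exact gz_mul_lt_one_right hb' h10
      simpa using this
    · simpa using hden
    · simp
    · have : v (z * (𝔡.ϖ ^ n * K 1 0)) < 1 := by
        rw [mul_left_comm, map_mul, map_pow]
        exact gz_mul_lt_one_right (pow_le_one' 𝔡.ϖ_lt.le n) h10
      simpa using this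
  · apply Units.ext
    rw [GeneralLinearGroup.coe_mul, GeneralLinearGroup.coe_mul, nt, nt, coe_gl2, coe_gl2, coe_gl2,
      ← hKdef]
    ext i j
    fin_cases i <;> fin_cases j <;> simp [Matrix.mul_apply, Fin.sum_univ_two]
    · ring
    · rw [hb'mul]
    · ring

theorem Reach.succ {n : ℕ} {d d' d'' : D v} (h : 𝔡.Reach 1 d d') (h' : 𝔡.Reach n d' d'') :
    𝔡.Reach (n + 1) d d'' := by
  obtain ⟨g, b, hb, rfl, rfl⟩ := h
  obtain ⟨g', b', hb', e, rfl⟩ := h'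
  obtain ⟨k, hk, rfl⟩ := exists_of_mk_eq e
  obtain ⟨c, hc, k', hk', e'⟩ := 𝔡.exists_mul_nt hk n hb'
  refine ⟨g, b + 𝔡.ϖ ^ 1 * c, ?_, rfl, ?_⟩
  · refine Valuation.map_add_le _ hb ?_
    rw [map_mul, pow_one]
    exact mul_le_one' 𝔡.ϖ_lt.le hc
  · refine (mk_eq_mk_of hk' ?_).symm
    rw [add_comm n 1, ← nt_mul_nt, mul_assoc, mul_assoc, mul_assoc, e', mul_assoc]

/-- **Support of the regular function.** -/
theorem Reach.v_jinv {n : ℕ} (hn : n ≠ 0) {d : D v} {γ : GL (Fin 2) F}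
    (h : 𝔡.Reach n d (γ • d)) :
    v (jinv (γ : Matrix (Fin 2) (Fin 2) F)) = (v 𝔡.ϖ)⁻¹ ^ n := by
  obtain ⟨g, b, hb, rfl, e⟩ := h
  have e1 : ((γ * g : GL (Fin 2) F) : D v) = ((g * 𝔡.nt n b : GL (Fin 2) F) : D v) := e
  obtain ⟨k, hk, e2⟩ := exists_of_mk_eq e1.symm
  obtain ⟨z, hz, hI⟩ := mem_iwa.mp hk
  have e3 : γ = g * (𝔡.nt n b * k) * g⁻¹ := by
    rw [← mul_assoc, ← e2, mul_inv_cancel_right]
  have h1 : jinv (γ : Matrix (Fin 2) (Fin 2) F) =
      jinv ((𝔡.nt n b * k : GL (Fin 2) F) : Matrix (Fin 2) (Fin 2) F) := by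
    rw [e3]
    have := jinv_conj_units (g⁻¹) (𝔡.nt n b * k)
    rw [inv_inv] at this
    exact this
  have h2 : z • ((𝔡.nt n b * k : GL (Fin 2) F) : Matrix (Fin 2) (Fin 2) F) =
      !![1, b; 0, 1] * Matrix.diagonal ![𝔡.ϖ ^ n, 1] *
        (z • (k : Matrix (Fin 2) (Fin 2) F)) := by
    rw [GeneralLinearGroup.coe_mul, Matrix.mul_smul]
    congr 2
    rw [nt, coe_gl2]
    ext i j
    fin_cases i <;> fin_cases j <;> simp [Matrix.mul_apply, Fin.sum_univ_two]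
  rw [h1, ← jinv_smul hz, h2]
  refine IsIwahori.v_jinv_pow ⟨by simp, by simp, by simpa using hb, by simp⟩ hI 𝔡.ϖ_lt hn

/-! ### The operators -/

section Op

variable {M : Type*} [AddCommGroup M] [Module ℂ M]

/-- average over the edges with the same origin -/
noncomputable def opE : Module.End ℂ (D v → M) where
  toFun f d := ((𝔡.q : ℂ) + 1)⁻¹ • ∑ d' ∈ 𝔡.fib d, f d'
  map_add' f g := by
    funext d
    simp only [Pi.add_apply, Finset.sum_add_distrib, smul_add]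
  map_smul' c f := by
    funext d
    simp only [Pi.smul_apply, RingHom.id_apply, ← Finset.smul_sum]
    rw [smul_comm]

/-- the Atkin-Lehner operator -/
noncomputable def opW : Module.End ℂ (D v → M) where
  toFun f d := f (𝔡.wD d)
  map_add' _ _ := rfl
  map_smul' _ _ := rfl

@[simp] theorem opE_apply (f : D v → M) (d : D v) :
    𝔡.opE f d = ((𝔡.q : ℂ) + 1)⁻¹ • ∑ d' ∈ 𝔡.fib d, f d' := rfl

@[simp] theorem opW_apply (f : D v → M) (d : D v) : 𝔡.opW f d = f (𝔡.wD d) := rfl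

theorem q_add_one_ne : (𝔡.q : ℂ) + 1 ≠ 0 := Nat.cast_add_one_ne_zero 𝔡.q

theorem iwaRel : IwaRel (𝔡.opE (M := M)) 𝔡.opW where
  e_sq := by
    refine LinearMap.ext fun f => funext fun d => ?_
    rw [Module.End.mul_apply, opE_apply]
    have h : ∀ d' ∈ 𝔡.fib d, 𝔡.opE f d' = 𝔡.opE f d := by
      intro d' hd'
      rw [opE_apply, opE_apply, 𝔡.fib_eq hd']
    rw [Finset.sum_congr rfl h, Finset.sum_const, card_fib, ← Nat.cast_smul_eq_nsmul ℂ, smul_smul]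
    push_cast
    rw [inv_mul_cancel₀ 𝔡.q_add_one_ne, one_smul]
  w_sq := by
    refine LinearMap.ext fun f => funext fun d => ?_
    rw [Module.End.mul_apply, opW_apply, opW_apply, wD_wD]
    rfl

/-- **`U` is the sum over the neighbours.** -/
theorem opU_apply (f : D v → M) (d : D v) :
    opU (𝔡.q : ℂ) (𝔡.opE (M := M)) 𝔡.opW f d = ∑ d' ∈ 𝔡.nbr d, f d' := by
  classical
  rw [opU, Module.End.mul_apply, LinearMap.sub_apply, LinearMap.smul_apply, Module.End.one_apply,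
    Pi.sub_apply, Pi.smul_apply, opE_apply, smul_smul, mul_inv_cancel₀ 𝔡.q_add_one_ne, one_smul,
    nbr, Finset.sum_image (fun x _ y _ h => 𝔡.wD_injective h),
    ← Finset.add_sum_erase _ _ (𝔡.self_mem_fib d)]
  simp

/-- the number of paths of length `n` -/
noncomputable def cnt : ℕ → D v → D v → ℕ
  | 0, d, d' => by classical exact if d' = d then 1 else 0
  | n + 1, d, d'' => ∑ d' ∈ 𝔡.nbr d, cnt n d' d''

theorem cnt_zero (d d' : D v) [Decidable (d' = d)] : 𝔡.cnt 0 d d' = if d' = d then 1 else 0 := by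
  rw [cnt]
  split_ifs <;> rfl

theorem cnt_succ (n : ℕ) (d d'' : D v) : 𝔡.cnt (n + 1) d d'' = ∑ d' ∈ 𝔡.nbr d, 𝔡.cnt n d' d'' :=
  rfl

/-- **The support of the kernel of `Uⁿ`.** -/
theorem reach_of_cnt_ne_zero {n : ℕ} {d d' : D v} (h : 𝔡.cnt n d d' ≠ 0) : 𝔡.Reach n d d' := by
  classical
  induction n generalizing d with
  | zero =>
    rw [cnt_zero] at h
    rw [reach_zero]
    by_contra hne
    exact h (if_neg hne)
  | succ n ih =>
    rw [cnt_succ] at h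
    obtain ⟨x, hx, hne⟩ := Finset.exists_ne_zero_of_sum_ne_zero h
    exact (𝔡.reach_of_mem_nbr hx).succ 𝔡 (ih hne)

theorem v_jinv_of_cnt_ne_zero {n : ℕ} (hn : n ≠ 0) {d : D v} {γ : GL (Fin 2) F}
    (h : 𝔡.cnt n d (γ • d) ≠ 0) :
    v (jinv (γ : Matrix (Fin 2) (Fin 2) F)) = (v 𝔡.ϖ)⁻¹ ^ n :=
  Reach.v_jinv 𝔡 hn (𝔡.reach_of_cnt_ne_zero h)

open Classical in
/-- the finite set of points at distance `n` -/
noncomputable def ball : ℕ → D v → Finset (D v)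
  | 0, d => {d}
  | n + 1, d => (𝔡.nbr d).biUnion (ball n)

theorem cnt_eq_zero {n : ℕ} {d d' : D v} (h : d' ∉ 𝔡.ball n d) : 𝔡.cnt n d d' = 0 := by
  classical
  induction n generalizing d with
  | zero =>
    rw [ball, Finset.mem_singleton] at h
    rw [cnt_zero, if_neg h]
  | succ n ih =>
    rw [cnt_succ]
    refine Finset.sum_eq_zero fun x hx => ih fun hx' => h ?_
    rw [ball, Finset.mem_biUnion]
    exact ⟨x, hx, hx'⟩

/-- **The kernel of `Uⁿ`.** -/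
theorem opU_pow_apply (n : ℕ) (f : D v → M) (d : D v) {s : Finset (D v)} (hs : 𝔡.ball n d ⊆ s) :
    ((opU (𝔡.q : ℂ) (𝔡.opE (M := M)) 𝔡.opW) ^ n) f d =
      ∑ d' ∈ s, (𝔡.cnt n d d' : ℂ) • f d' := by
  classical
  induction n generalizing d s with
  | zero =>
    rw [pow_zero, Module.End.one_apply]
    rw [Finset.sum_eq_single_of_mem d (hs (by rw [ball]; exact Finset.mem_singleton_self d))]
    · rw [cnt_zero, if_pos rfl, Nat.cast_one, one_smul]
    · intro x _ hx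
      rw [cnt_zero, if_neg hx, Nat.cast_zero, zero_smul]
  | succ n ih =>
    rw [pow_succ', Module.End.mul_apply, opU_apply]
    have h1 : ∀ x ∈ 𝔡.nbr d, ((opU (𝔡.q : ℂ) (𝔡.opE (M := M)) 𝔡.opW) ^ n) f x =
        ∑ d' ∈ s, (𝔡.cnt n x d' : ℂ) • f d' := by
      intro x hx
      refine ih x (Finset.Subset.trans ?_ hs)
      rw [ball]
      exact Finset.subset_biUnion_of_mem (𝔡.ball n) hx
    rw [Finset.sum_congr rfl h1, Finset.sum_comm]
    refine Finset.sum_congr rfl fun x _ => ?_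
    rw [cnt_succ, Nat.cast_sum, Finset.sum_smul]

theorem cnt_smul (n : ℕ) (γ : GL (Fin 2) F) (d d' : D v) :
    𝔡.cnt n (γ • d) (γ • d') = 𝔡.cnt n d d' := by
  classical
  induction n generalizing d with
  | zero =>
    rw [cnt_zero, cnt_zero]
    simp only [smul_left_cancel_iff]
  | succ n ih =>
    rw [cnt_succ, cnt_succ]
    have h : 𝔡.nbr (γ • d) = (𝔡.nbr d).image (γ • ·) := by
      ext x
      rw [Finset.mem_image]
      constructor
      · intro hx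
        refine ⟨γ⁻¹ • x, ?_, smul_inv_smul γ x⟩
        rw [← 𝔡.smul_mem_nbr (γ := γ), smul_inv_smul]
        exact hx
      · rintro ⟨y, hy, rfl⟩
        exact 𝔡.smul_mem_nbr.mpr hy
    rw [h, Finset.sum_image (fun x _ y _ h => smul_left_cancel γ h)]
    exact Finset.sum_congr rfl fun x _ => ih x

end Op

end Datum

end Fermat.Agent.LT.Iwa
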