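import Fermat.Agent.LT.LevDown
import Fermat.Agent.LT.IwaCoset

/-!
# The Iwahori subgroups at the places over `v`
-/

set_option autoImplicit false

noncomputable section

open IsDedekindDomain NumberField Matrix WithZero
open scoped WithZero Topology Pointwise

namespace Fermat.Agent.LT.Ext

open Fermat.Agent.LT.Lvl Fermat.Agent.LT.Iwa

theorem mem_Iw_map_iff {E E' : Type*} [Field E] [Field E'] {w : Valuation E ℤᵐ⁰}
    {w' : Valuation E' ℤᵐ⁰} (f : E →+* E') {e : ℕ} (he : e ≠ 0) (hf : ∀ x, w' (f x) = w x ^ e)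
    (g : GL (Fin 2) E) : GeneralLinearGroup.map f g ∈ Iw w' ↔ g ∈ Iw w := by
  have h1 : ∀ i j, (GeneralLinearGroup.map f g).1 i j = f (g.1 i j) := fun i j => rfl
  have he' : ∀ x, w' (f x) = 1 ↔ w x = 1 := fun x => by
    rw [hf, pow_eq_one_iff, or_iff_left he]
  rw [mem_Iw, mem_Iw]
  constructor
  · rintro ⟨a, b, c, d⟩
    rw [h1] at a b c d
    exact ⟨(he' _).mp a, (he' _).mp b, (val_le_one_iff_of_pow f he hf _).mp c,
      (val_lt_one_iff_of_pow f he hf _).mp d⟩
  · rintro ⟨a, b, c, d⟩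
    exact ⟨by rw [h1]; exact (he' _).mpr a, by rw [h1]; exact (he' _).mpr b,
      by rw [h1]; exact (val_le_one_iff_of_pow f he hf _).mpr c,
      by rw [h1]; exact (val_lt_one_iff_of_pow f he hf _).mpr d⟩

section Stable

variable {L : Type*} [Field L] [NumberField L] {G : Type*} [Group G] [MulSemiringAction G L]

theorem mem_Iw_glExt_iff {g : G} {w w' : HeightOneSpectrum (𝓞 L)} (h : g • w = w')
    (x : GL (Fin 2) (w.adicCompletion L)) : glExt h x ∈ Iw (vF w') ↔ x ∈ Iw (vF w) :=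
  mem_Iw_map_iff (compat_of_smul_eq (L := L) h).ext one_ne_zero (valued_ext_smul h) x

end Stable

section Down

variable {K L : Type*} [Field K] [Field L] [NumberField K] [NumberField L] [Algebra K L]

theorem mem_Iw_glBase_iff (v : HeightOneSpectrum (𝓞 K)) (w : HeightOneSpectrum (𝓞 L))
    [w.asIdeal.LiesOver v.asIdeal] (x : GL (Fin 2) (v.adicCompletion K)) :
    glBase v w x ∈ Iw (vF w) ↔ x ∈ Iw (vF v) :=
  mem_Iw_map_iff _ (ramE_ne_zero v w) (valued_ext_liesOver v w) x

theorem comap_Iw (v : HeightOneSpectrum (𝓞 K)) (w : HeightOneSpectrum (𝓞 L))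
    [w.asIdeal.LiesOver v.asIdeal] : (Iw (vF w)).comap (glBase v w) = Iw (vF v) := by
  ext x
  exact mem_Iw_glBase_iff v w x

variable {G : Type*} [Group G] [Finite G] [MulSemiringAction G L] [IsGaloisGroup G K L]
  {U : Lev L}

theorem levDown_eq_Iw (hU : GStable G U.U) {v : HeightOneSpectrum (𝓞 K)} {w : Above L v}
    (h : U.U w.1 = Iw (vF w.1)) : (levDown K U).U v = Iw (vF v) := by
  rw [levDown_U hU w, h, comap_Iw]

end Down

end Fermat.Agent.LT.Ext
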