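import Fermat.Agent.LT.Match
import Fermat.Agent.LT.TauD
import Fermat.Agent.LT.Tr.Dict

/-!
# Kernels on the part of `D U` over a place `v` of `K`; matching at the places which split
-/

set_option autoImplicit false

noncomputable section

open IsDedekindDomain NumberField Matrix Function Set
open scoped WithZero Topology Pointwise

namespace Fermat.Agent.LT.Ext

open Fermat.Agent.LT.Lvl Fermat.Agent.CFT.SUnits

/-! ### Kernels over a place of `K` -/

section Kernel

variable {K L : Type*} [Field K] [Field L] [NumberField K] [NumberField L] [Algebra K L]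
  {U : Lev L} {R : Type*} [CommSemiring R]

/-- the product of the kernels `f w` over the places `w ∣ v` -/
def kA (f : ∀ w : HeightOneSpectrum (𝓞 L), Lvl.Dv U w → Lvl.Dv U w → R)
    (v : HeightOneSpectrum (𝓞 K)) (x y : DA U v) : R :=
  ∏ᶠ w : Above L v, f w.1 (x w) (y w)

variable {f : ∀ w : HeightOneSpectrum (𝓞 L), Lvl.Dv U w → Lvl.Dv U w → R}

theorem kA_eq_ite {v : HeightOneSpectrum (𝓞 K)} [DecidableEq (DA U v)]
    (h : ∀ w : Above L v, ∀ x y, f w.1 x y = open Classical in if x = y then 1 else 0)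
    (x y : DA U v) : kA f v x y = if x = y then 1 else 0 := by
  classical
  rw [kA]
  split_ifs with hxy
  · refine finprod_eq_one_of_forall_eq_one fun w => ?_
    rw [h w, hxy, if_pos rfl]
  · obtain ⟨w, hw⟩ : ∃ w, x w ≠ y w := by
      by_contra hn
      push Not at hn
      exact hxy (funext hn)
    haveI := Fintype.ofFinite (Above L v)
    rw [finprod_eq_prod_of_fintype]
    refine Finset.prod_eq_zero (Finset.mem_univ w) ?_
    rw [h w, if_neg hw]

theorem kA_ne_zero {v : HeightOneSpectrum (𝓞 K)} {x y : DA U v} (h : kA f v x y ≠ 0)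
    (w : Above L v) : f w.1 (x w) (y w) ≠ 0 := by
  intro h0
  refine h ?_
  haveI := Fintype.ofFinite (Above L v)
  rw [kA, finprod_eq_prod_of_fintype]
  exact Finset.prod_eq_zero (Finset.mem_univ w) h0

theorem kadm_kA (hf : RProd.KAdm f) :
    RProd.KAdm (kA f : ∀ v : HeightOneSpectrum (𝓞 K), DA U v → DA U v → R) where
  row v x := by
    refine (Set.Finite.pi' fun w : Above L v => hf.row w.1 (x w)).subset fun y hy w => ?_
    exact kA_ne_zero hy w
  col v y := by
    refine (Set.Finite.pi' fun w : Above L v => hf.col w.1 (y w)).subset fun x hx w => ?_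
    exact kA_ne_zero hx w
  ind := by
    classical
    refine (hf.ind.image fun w => under K w).subset fun v hv => ?_
    by_contra h
    refine hv ?_
    funext x y
    have h1 : ∀ w : Above L v, ∀ x y, f w.1 x y =
        open Classical in if x = y then 1 else 0 := by
      intro w x y
      by_contra h'
      refine h ⟨w.1, fun he => h' ?_, (under_eq_iff K w.1 v).mpr w.2⟩
      have he' : f w.1 = fun x y => open Classical in if x = y then 1 else 0 := by
        convert he
      rw [he']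
    rw [kA_eq_ite h1]

variable (K) in
/-- The places of `L` over `v`, two descriptions. -/
def fibEquiv (v : HeightOneSpectrum (𝓞 K)) :
    {w : HeightOneSpectrum (𝓞 L) // under K w = v} ≃ Above L v :=
  Equiv.subtypeEquivRight fun w => under_eq_iff K w v

/-- **Product kernels and regrouping.** -/
theorem kprod_regroup (hf : RProd.KAdm f) (x y : D U) :
    RProd.kprod (kA f) (regroup K U x) (regroup K U y) = RProd.kprod f x y := by
  rw [RProd.kprod, RProd.kprod, RProd.finprod_fiber (fun w => under K w) (hf.base_eq x y)]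
  refine finprod_congr fun v => ?_
  rw [kA]
  exact (finprod_comp_equiv (fibEquiv K v) (f := fun w : Above L v => f w.1 (x w.1) (y w.1))).symm

/-- A product kernel at `(x, δ τ x)`. -/
theorem kprod_twist {G : Type*} [Group G] [Finite G] [MulSemiringAction G L]
    [IsGaloisGroup G K L] (hf : RProd.KAdm f) (hU : GStable G U.U) (g : G) (δ : GL (Fin 2) L)
    (x : D U) : RProd.kprod f x (δ • tauD hU g x) =
      RProd.fprod (fun v (y : DA U v) => kA f v y (δ • (vAct hU g y : DA U v)))
        (regroup K U x) := by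
  rw [← kprod_regroup (K := K) hf]
  rfl

end Kernel

/-! ### Cubic extensions -/

section Three

variable {G : Type*} [Group G]

open Classical in
theorem IsThree.finprod {τ : G} (h : IsThree τ) {M : Type*} [CommMonoid M] (φ : G → M) :
    ∏ᶠ g, φ g = φ 1 * φ τ⁻¹ * φ (τ⁻¹ * τ⁻¹) := by
  rw [finprod_eq_prod_of_mulSupport_subset (s := {1, τ⁻¹, τ⁻¹ * τ⁻¹}),
    Finset.prod_insert, Finset.prod_insert, Finset.prod_singleton, mul_assoc]
  · rw [Finset.mem_singleton, h.inv_mul_inv]
    exact fun h' => h.inv_ne_self h'.symm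
  · rw [Finset.mem_insert, Finset.mem_singleton, h.inv_mul_inv, not_or]
    exact ⟨fun h' => h.inv_ne_one h'.symm, fun h' => h.ne_one h'.symm⟩
  · intro g _
    rcases h.cases g with rfl | rfl | rfl <;> simp

variable {K L : Type*} [Field K] [Field L] [Algebra K L]

theorem isThree_of_cyc3 [FiniteDimensional K L] {τ : L ≃ₐ[K] L} (h : Cyc3 τ) :
    IsThree τ where
  ne_one h1 := by
    obtain ⟨x, hx⟩ := h.ne
    exact hx (by rw [h1]; rfl)
  cube := by
    ext x
    exact h.cube x
  all g := by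
    have h1 : IntermediateField.fixedField (Subgroup.zpowers τ) = ⊥ := by
      rw [eq_bot_iff]
      intro x hx
      rw [IntermediateField.mem_fixedField_iff] at hx
      obtain ⟨y, hy⟩ := h.fix x (hx τ (Subgroup.mem_zpowers τ))
      rw [IntermediateField.mem_bot]
      exact ⟨y, hy⟩
    have h2 := IntermediateField.fixingSubgroup_fixedField (Subgroup.zpowers τ)
    rw [h1, IntermediateField.fixingSubgroup_bot] at h2
    have h3 : g ∈ Subgroup.zpowers τ := by
      rw [← h2]
      exact Subgroup.mem_top g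
    obtain ⟨n, rfl⟩ := Subgroup.mem_zpowers_iff.mp h3
    have hc : τ ^ (3 : ℤ) = 1 := by
      ext x
      exact h.cube x
    have h4 : τ ^ n = τ ^ (n % 3) := by
      conv_lhs => rw [← Int.mul_ediv_add_emod n 3, _root_.zpow_add, _root_.zpow_mul, hc, _root_.one_zpow, one_mul]
    have h5 : n % 3 = 0 ∨ n % 3 = 1 ∨ n % 3 = 2 := by omega
    rw [h4]
    rcases h5 with h5 | h5 | h5
    · left
      rw [h5, zpow_zero]
    · right; left
      rw [h5, zpow_one]
    · right; right
      rw [h5, zpow_two]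

end Three

/-! ### Split places -/

section Split

variable {K L : Type*} [Field K] [Field L] [NumberField K] [NumberField L] [Algebra K L]
  {v : HeightOneSpectrum (𝓞 K)}
  {G : Type*} [Group G] [Finite G] [MulSemiringAction G L] [IsGaloisGroup G K L]
  {U : Lev L} {UK : Subgroup (GL (Fin 2) (v.adicCompletion K))} {R : Type*} [CommSemiring R]

/-- the kernel `f w` as a kernel on `GL₂(K_v)/(U_v Z)` -/
def kS (hB : BaseLevel UK U.U)
    (f : ∀ w : HeightOneSpectrum (𝓞 L), Lvl.Dv U w → Lvl.Dv U w → R) (w : Above L v)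
    (x y : Cos UK) : R :=
  f w.1 (dvBase (hB.le w) x) (dvBase (hB.le w) y)

variable {f : ∀ w : HeightOneSpectrum (𝓞 L), Lvl.Dv U w → Lvl.Dv U w → R}

theorem kS_smul (hB : BaseLevel UK U.U) (w : Above L v)
    (hf : ∀ (g : GL (Fin 2) (w.1.adicCompletion L)) x y, f w.1 (g • x) (g • y) = f w.1 x y)
    (g : GL (Fin 2) (v.adicCompletion K)) (x y : Cos UK) :
    kS hB f w (g • x) (g • y) = kS hB f w x y := by
  rw [kS, kS, dvBase_smul, dvBase_smul, hf]

theorem kS_row (hB : BaseLevel UK U.U) {w : Above L v} (hw : MulAction.stabilizer G w.1 = ⊥)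
    (hf : ∀ x, (support (f w.1 x)).Finite) (x : Cos UK) : (support (kS hB f w x)).Finite :=
  (hf (dvBase (hB.le w) x)).preimage fun _ _ _ _ h => dvBase_inj hB w hw h

theorem kS_col (hB : BaseLevel UK U.U) {w : Above L v} (hw : MulAction.stabilizer G w.1 = ⊥)
    (hf : ∀ y, (support fun x => f w.1 x y).Finite) (y : Cos UK) :
    (support fun x => kS hB f w x y).Finite :=
  (hf (dvBase (hB.le w) y)).preimage fun _ _ _ _ h => dvBase_inj hB w hw h

open Classical in
theorem kS_eq_ite (hB : BaseLevel UK U.U) {w : Above L v}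
    (hw : MulAction.stabilizer G w.1 = ⊥)
    (hf : ∀ x y, f w.1 x y = if x = y then 1 else 0) (x y : Cos UK) :
    kS hB f w x y = if x = y then 1 else 0 := by
  rw [kS, hf]
  by_cases h : x = y
  · rw [if_pos h, h, if_pos rfl]
  · rw [if_neg h, if_neg fun h' => h (dvBase_inj hB w hw h')]

variable {τ : G} (h3 : IsThree τ) (hU : GStable G U.U) (hB : BaseLevel UK U.U) {w₀ : Above L v}
  (hw : MulAction.stabilizer G w₀.1 = ⊥)

include h3 hw in
/-- The kernel over `v` in the coordinates of `splitThree`. -/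
theorem kA_split (x y : DA U v) : kA f v x y =
    kS hB f ((1 : G) • w₀) (splitThree h3 hB hw x).1 (splitThree h3 hB hw y).1 *
      kS hB f (τ⁻¹ • w₀) (splitThree h3 hB hw x).2.1 (splitThree h3 hB hw y).2.1 *
      kS hB f ((τ⁻¹ * τ⁻¹) • w₀) (splitThree h3 hB hw x).2.2 (splitThree h3 hB hw y).2.2 := by
  rw [kA, ← finprod_comp_equiv (aboveEquiv hw), h3.finprod]
  have key : ∀ g : G, f (aboveEquiv hw g).1 (x (aboveEquiv hw g)) (y (aboveEquiv hw g)) =
      kS hB f (g • w₀) (splitEquiv hB hw x g) (splitEquiv hB hw y g) := by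
    intro g
    rw [kS, dvBase_splitEquiv, dvBase_splitEquiv]
    rfl
  rw [key, key, key]
  rfl

open RProd in
/-- the composition of the three kernels -/
def kK (f : ∀ w : HeightOneSpectrum (𝓞 L), Lvl.Dv U w → Lvl.Dv U w → R) (τ : G)
    (hB : BaseLevel UK U.U) (w₀ : Above L v) : Cos UK → Cos UK → R :=
  dcomp (dcomp (kS hB f ((1 : G) • w₀)) (kS hB f (τ⁻¹ • w₀))) (kS hB f ((τ⁻¹ * τ⁻¹) • w₀))

theorem dcomp_dcomp {A : Type*} {k₁ k₂ k₃ : A → A → R} (h₁ : ∀ x, (support (k₁ x)).Finite)
    (h₂ : ∀ x, (support (k₂ x)).Finite) (x x' : A) :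
    ∑ᶠ y, ∑ᶠ z, k₁ x y * k₂ y z * k₃ z x' = RProd.dcomp (RProd.dcomp k₁ k₂) k₃ x x' := by
  classical
  set s := (h₁ x).toFinset with hs
  set t := s.biUnion fun y => (h₂ y).toFinset with ht
  have hs' : ∀ y, k₁ x y ≠ 0 → y ∈ s := fun y hy => by simpa [hs] using hy
  have ht' : ∀ y z, k₁ x y ≠ 0 → k₂ y z ≠ 0 → z ∈ t := fun y z hy hz => by
    rw [ht, Finset.mem_biUnion]
    exact ⟨y, hs' y hy, by simpa using hz⟩
  have e1 : ∀ z, ∑ᶠ y, k₁ x y * k₂ y z = ∑ y ∈ s, k₁ x y * k₂ y z := fun z =>
    finsum_eq_sum_of_support_subset _ fun y hy => hs' y (left_ne_zero_of_mul hy)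
  have e2 : ∀ y, ∑ᶠ z, k₁ x y * k₂ y z * k₃ z x' = ∑ z ∈ t, k₁ x y * k₂ y z * k₃ z x' := fun y =>
    finsum_eq_sum_of_support_subset _ fun z hz =>
      ht' y z (left_ne_zero_of_mul (left_ne_zero_of_mul hz))
        (right_ne_zero_of_mul (left_ne_zero_of_mul hz))
  simp only [RProd.dcomp, e1, e2]
  rw [finsum_eq_sum_of_support_subset (s := s), finsum_eq_sum_of_support_subset (s := t),
    Finset.sum_comm]
  · exact Finset.sum_congr rfl fun z _ => (Finset.sum_mul _ _ _).symm
  · intro z hz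
    rw [mem_support] at hz
    obtain ⟨y, -, hy⟩ := Finset.exists_ne_zero_of_sum_ne_zero (left_ne_zero_of_mul hz)
    exact ht' y z (left_ne_zero_of_mul hy) (right_ne_zero_of_mul hy)
  · intro y hy
    rw [mem_support] at hy
    obtain ⟨z, -, hz⟩ := Finset.exists_ne_zero_of_sum_ne_zero hy
    exact hs' y (left_ne_zero_of_mul (left_ne_zero_of_mul hz))

include hU in
/-- **Matching at a place which splits.** -/
theorem isPush_v {T : Type*} [Group T] [MulAction T (DA U v)] [MulAction T (Cos UK)]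
    (hT : ∀ t : T, ∃ g : GL (Fin 2) K,
      (∀ x : DA U v, t • x = GeneralLinearGroup.map (algebraMap K L) g • x) ∧
        ∀ y : Cos UK, t • y = gmap v g • y)
    (hf : ∀ (w : Above L v) (g : GL (Fin 2) (w.1.adicCompletion L)) x y,
      f w.1 (g • x) (g • y) = f w.1 x y)
    (hrow : ∀ (w : Above L v) x, (support (f w.1 x)).Finite) (δ : GL (Fin 2) L) :
    IsPush T (fun x : DA U v => (splitThree h3 hB hw x).1)
      (fun x => kA f v x (δ • (vAct hU τ x : DA U v)))
      (fun y => kK f τ hB w₀ y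
        ((comp hw 1 δ * comp hw τ⁻¹ δ * comp hw (τ⁻¹ * τ⁻¹) δ) • y)) := by
  classical
  have hrow' : ∀ (g : G) x, (support (kS hB f (g • w₀) x)).Finite := fun g =>
    kS_row hB (stabilizer_above_eq_bot hw _) (hrow _)
  have hinv : ∀ (g : G) (a : GL (Fin 2) (v.adicCompletion K)) x y,
      kS hB f (g • w₀) (a • x) (a • y) = kS hB f (g • w₀) x y := fun g a x y =>
    kS_smul hB _ (hf _) a x y
  have h := isPush_split (T := T) (f₁ := kS hB f ((1 : G) • w₀)) (f₂ := kS hB f (τ⁻¹ • w₀))
    (f₃ := kS hB f ((τ⁻¹ * τ⁻¹) • w₀)) (MulAction.toPerm (comp hw 1 δ))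
    (MulAction.toPerm (comp hw τ⁻¹ δ)) (MulAction.toPerm (comp hw (τ⁻¹ * τ⁻¹) δ))
    (fun x y => hinv _ _ x y) (fun x y => by
      simp only [MulAction.toPerm_apply]
      rw [hinv, hinv]) (hrow' _) (hrow' _)
  refine (h.comp_equiv' (splitThree h3 hB hw) fun t x _ => ?_).congr (fun x => ?_) fun y => ?_
  · obtain ⟨g, hg, hg'⟩ := hT t
    have e1 : (splitThree h3 hB hw (t • x)).1 =
        comp hw 1 (GeneralLinearGroup.map (algebraMap K L) g) • (splitThree h3 hB hw x).1 := by
      rw [hg]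
      exact (Prod.ext_iff.mp (splitThree_vGl h3 hB hw
        (GeneralLinearGroup.map (algebraMap K L) g) x)).1
    rw [e1, comp_base, hg']
  · have e1 : splitThree h3 hB hw (δ • (vAct hU τ x : DA U v)) =
        (comp hw 1 δ • (splitThree h3 hB hw x).2.1,
          comp hw τ⁻¹ δ • (splitThree h3 hB hw x).2.2,
          comp hw (τ⁻¹ * τ⁻¹) δ • (splitThree h3 hB hw x).1) := by
      refine (splitThree_vGl h3 hB hw δ (vAct hU τ x)).trans ?_
      rw [splitThree_vAct]
    rw [kA_split h3 hB hw, e1]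
    rfl
  · rw [kK, ← dcomp_dcomp (hrow' _) (hrow' _)]
    have e1 : (comp hw 1 δ * comp hw τ⁻¹ δ * comp hw (τ⁻¹ * τ⁻¹) δ) • y =
        comp hw 1 δ • comp hw τ⁻¹ δ • comp hw (τ⁻¹ * τ⁻¹) δ • y := by
      rw [mul_smul, mul_smul]
    rw [e1]
    rfl

theorem dcomp_row {A : Type*} {k k' : A → A → R} (h : ∀ x, (support (k x)).Finite)
    (h' : ∀ x, (support (k' x)).Finite) (x : A) : (support (RProd.dcomp k k' x)).Finite := by
  refine ((h x).biUnion fun y _ => h' y).subset fun z hz => ?_
  obtain ⟨y, hy⟩ : ∃ y, k x y * k' y z ≠ 0 := by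
    by_contra hn
    push Not at hn
    exact hz ((finsum_congr hn).trans finsum_zero)
  exact mem_biUnion (left_ne_zero_of_mul hy) (right_ne_zero_of_mul hy)

theorem dcomp_col {A : Type*} {k k' : A → A → R} (h : ∀ y, (support fun x => k x y).Finite)
    (h' : ∀ y, (support fun x => k' x y).Finite) (z : A) :
    (support fun x => RProd.dcomp k k' x z).Finite := by
  refine ((h' z).biUnion fun y _ => h y).subset fun x hx => ?_
  obtain ⟨y, hy⟩ : ∃ y, k x y * k' y z ≠ 0 := by
    by_contra hn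
    push Not at hn
    exact hx ((finsum_congr hn).trans finsum_zero)
  exact mem_biUnion (right_ne_zero_of_mul hy) (left_ne_zero_of_mul hy)

theorem dcomp_smul {A M : Type*} [Group M] [MulAction M A] {k k' : A → A → R} (m : M)
    (h : ∀ x y, k (m • x) (m • y) = k x y) (h' : ∀ x y, k' (m • x) (m • y) = k' x y) (x z : A) :
    RProd.dcomp k k' (m • x) (m • z) = RProd.dcomp k k' x z := by
  rw [RProd.dcomp, ← finsum_comp_equiv (MulAction.toPerm m : Equiv.Perm A)]
  refine finsum_congr fun y => ?_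
  rw [MulAction.toPerm_apply, h, h']

theorem dcomp_ite {A : Type*} [DecidableEq A] {k k' : A → A → R} (h : ∀ x y, k x y = if x = y then 1 else 0)
    (x z : A) : RProd.dcomp k k' x z = k' x z := by
  rw [RProd.dcomp, finsum_eq_single _ x]
  · rw [h, if_pos rfl, one_mul]
  · intro y hy
    rw [h, if_neg hy.symm, zero_mul]

section

include hw

theorem kK_smul (hf : ∀ (w : Above L v) (g : GL (Fin 2) (w.1.adicCompletion L)) x y,
      f w.1 (g • x) (g • y) = f w.1 x y) (g : GL (Fin 2) (v.adicCompletion K)) (x y : Cos UK) :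
    kK f τ hB w₀ (g • x) (g • y) = kK f τ hB w₀ x y :=
  dcomp_smul g (dcomp_smul g (kS_smul hB _ (hf _) g) (kS_smul hB _ (hf _) g))
    (kS_smul hB _ (hf _) g) x y

theorem kK_row (hf : ∀ (w : Above L v) x, (support (f w.1 x)).Finite) (x : Cos UK) :
    (support (kK f τ hB w₀ x)).Finite :=
  dcomp_row (dcomp_row (kS_row hB (stabilizer_above_eq_bot hw _) (hf _))
    (kS_row hB (stabilizer_above_eq_bot hw _) (hf _)))
    (kS_row hB (stabilizer_above_eq_bot hw _) (hf _)) x

theorem kK_col (hf : ∀ (w : Above L v) y, (support fun x => f w.1 x y).Finite) (y : Cos UK) :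
    (support fun x => kK f τ hB w₀ x y).Finite :=
  dcomp_col (dcomp_col (kS_col hB (stabilizer_above_eq_bot hw _) (hf _))
    (kS_col hB (stabilizer_above_eq_bot hw _) (hf _)))
    (kS_col hB (stabilizer_above_eq_bot hw _) (hf _)) y

open Classical in
theorem kK_eq_ite (hf : ∀ w : Above L v, ∀ x y, f w.1 x y = if x = y then 1 else 0)
    (x y : Cos UK) : kK f τ hB w₀ x y = if x = y then 1 else 0 := by
  have h1 : ∀ (g : G) x y, kS hB f (g • w₀) x y = if x = y then 1 else 0 := fun g =>
    kS_eq_ite hB (stabilizer_above_eq_bot hw _) (hf _)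
  rw [kK, dcomp_ite (fun x y => by rw [dcomp_ite (h1 _), h1]), h1]

end

include h3 in
/-- The clause for almost all places. -/
theorem split_base {δ : GL (Fin 2) L} (hf : ∀ w : Above L v, ∀ x y, f w.1 x y =
      open Classical in if x = y then 1 else 0)
    (hδ : ∀ w : Above L v, δ • Lvl.base U w.1 = Lvl.base U w.1) :
    kA f v (baseA U v) (δ • (vAct hU τ (baseA U v) : DA U v)) = 1 ∧
      ∀ x : DA U v, kA f v x (δ • (vAct hU τ x : DA U v)) ≠ 0 →
        (splitThree h3 hB hw x).1 = Cos.mk UK 1 → x = baseA U v := by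
  classical
  have hb : δ • (vAct hU τ (baseA U v) : DA U v) = baseA U v := by
    funext w
    show δ • dvMap hU (inv_smul_above τ w) (Lvl.base U (τ⁻¹ • w).1) = Lvl.base U w.1
    rw [show dvMap hU (inv_smul_above τ w) (Lvl.base U (τ⁻¹ • w).1) = Lvl.base U w.1 from
      dvMap_one hU (inv_smul_above τ w), hδ]
  have hc : ∀ g : G, comp hw g δ • Cos.mk UK 1 = Cos.mk UK 1 := by
    intro g
    apply dvBase_inj hB (g • w₀) (stabilizer_above_eq_bot hw _)
    rw [dvBase_smul, glBase_comp]
    have h1 : dvBase (hB.le (g • w₀)) (Cos.mk UK 1) = Lvl.base U (g • w₀).1 :=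
      dvBase_one (hB.le (g • w₀))
    rw [h1]
    exact hδ (g • w₀)
  have hite := kA_eq_ite (f := f) hf
  refine ⟨?_, fun x hx hx1 => ?_⟩
  · rw [hite, if_pos hb.symm]
  · rw [hite] at hx
    have h1 : x = δ • (vAct hU τ x : DA U v) := by
      by_contra hn
      exact hx (if_neg hn)
    have h2 : splitThree h3 hB hw x =
        (comp hw 1 δ • (splitThree h3 hB hw x).2.1,
          comp hw τ⁻¹ δ • (splitThree h3 hB hw x).2.2,
          comp hw (τ⁻¹ * τ⁻¹) δ • (splitThree h3 hB hw x).1) := by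
      conv_lhs => rw [h1]
      refine (splitThree_vGl h3 hB hw δ (vAct hU τ x)).trans ?_
      rw [splitThree_vAct]
    rw [Prod.ext_iff, Prod.ext_iff] at h2
    obtain ⟨-, h3', h4⟩ := h2
    simp only at h3' h4
    rw [hx1, hc] at h4
    rw [h4, hc] at h3'
    apply (splitThree h3 hB hw).injective
    refine Eq.trans ?_ (splitThree_one h3 hB hw).symm
    exact Prod.ext hx1 (Prod.ext h3' h4)

omit [Finite G] [NumberField K] [NumberField L] [Algebra K L] [MulSemiringAction G L]
  [IsGaloisGroup G K L] in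
theorem Cos.center_smul {E : Type*} [Field E] {H : Subgroup (GL (Fin 2) E)} {z : GL (Fin 2) E}
    (hz : z ∈ Subgroup.center (GL (Fin 2) E)) (y : Cos H) : z • y = y := by
  rw [GeneralLinearGroup.center_eq_range_scalar] at hz
  obtain ⟨u, rfl⟩ := hz
  exact Cos.scalar_smul u y

theorem comp_mem_center {g : G} {z : GL (Fin 2) L} (hz : z ∈ Subgroup.center (GL (Fin 2) L)) :
    comp hw g z ∈ Subgroup.center (GL (Fin 2) (v.adicCompletion K)) := by
  have h1 := Dict.map_center_le (algebraMap L ((g • w₀).1.adicCompletion L)) hz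
  rw [Subgroup.mem_comap, ← glBase_comp hw] at h1
  rw [Subgroup.mem_center_iff]
  intro y
  apply glBase_injective v (g • w₀).1
  rw [map_mul, map_mul]
  exact Subgroup.mem_center_iff.mp h1 _

end Split

section PGL

open Dict

variable {K L : Type*} [Field K] [Field L] [NumberField K] [NumberField L] [Algebra K L]
  [IsGalois K L] {v : HeightOneSpectrum (𝓞 K)} {U : Lev L}
  {UK : Subgroup (GL (Fin 2) (v.adicCompletion K))} {R : Type*} [CommSemiring R]
  {f : ∀ w : HeightOneSpectrum (𝓞 L), Lvl.Dv U w → Lvl.Dv U w → R}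
  {τ : L ≃ₐ[K] L} (h3 : IsThree τ) (hU : GStable (L ≃ₐ[K] L) U.U) (hB : BaseLevel UK U.U)
  {w₀ : Above L v} (hw : MulAction.stabilizer (L ≃ₐ[K] L) w₀.1 = ⊥)

/-- The product of the three components of `δ` acts as `γ` if `N δ = γ` in `PGL₂`. -/
theorem comp_smul_of_pnm {δ : GL (Fin 2) L} {g : GL (Fin 2) K}
    (h : pnm τ (pmk δ) = pup L (pmk g)) (y : Cos UK) :
    (comp hw 1 δ * comp hw τ⁻¹ δ * comp hw (τ⁻¹ * τ⁻¹) δ) • y = g • y := by
  have h1 : (gup L g)⁻¹ * gnm τ δ ∈ Subgroup.center (GL (Fin 2) L) := by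
    rw [← QuotientGroup.eq]
    exact h.symm
  have h2 : gnm τ δ = gup L g * ((gup L g)⁻¹ * gnm τ δ) := (mul_inv_cancel_left _ _).symm
  have h3' : comp hw 1 (gnm τ δ) =
      comp hw 1 δ * comp hw τ⁻¹ δ * comp hw (τ⁻¹ * τ⁻¹) δ := comp_norm hw δ
  rw [← h3', h2, map_mul, mul_smul, Cos.center_smul (comp_mem_center hw h1)]
  have h4 : comp hw 1 (gup L g) = gmap v g := comp_base hw 1 g
  rw [h4]
  rfl

include hU in
/-- **Matching at a place which splits** for a pair `N δ = γ` in `PGL₂`; `T` acts through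
`PGL₂(K)`. -/
theorem isPush_split_pg {T : Type*} [Group T] [MulAction T (DA U v)] [MulAction T (Cos UK)]
    (hT : ∀ t : T, ∃ g : GL (Fin 2) K,
      (∀ x : DA U v, t • x = gup L g • x) ∧ ∀ y : Cos UK, t • y = g • y)
    (hf : ∀ (w : Above L v) (g : GL (Fin 2) (w.1.adicCompletion L)) x y,
      f w.1 (g • x) (g • y) = f w.1 x y)
    (hrow : ∀ (w : Above L v) x, (support (f w.1 x)).Finite) {δ : GL (Fin 2) L}
    {g : GL (Fin 2) K} (h : pnm τ (pmk δ) = pup L (pmk g)) :
    IsPush T (fun x : DA U v => (splitThree h3 hB hw x).1)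
      (fun x => kA f v x (δ • (vAct hU τ x : DA U v)))
      (fun y => kK f τ hB w₀ y (g • y)) :=
  (isPush_v h3 hU hB hw hT hf hrow δ).congr (fun _ => rfl) fun y => by
    rw [comp_smul_of_pnm hw h]

/-- The base point. -/
theorem splitThree_baseA : (splitThree h3 hB hw (baseA U v)).1 = Cos.mk UK 1 := by
  have h := splitThree_one h3 hB hw
  exact congrArg Prod.fst h

end PGL

end Fermat.Agent.LT.Ext
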