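import Mathlib

/-!
# Poisson summation in several variables
-/

set_option autoImplicit false

noncomputable section

open MeasureTheory Set Filter TopologicalSpace Complex UnitAddTorus
open scoped Real ContinuousMap

namespace Fermat.Agent.LT.Poisson

variable {ι : Type*} [Fintype ι]

local instance : MeasureSpace UnitAddCircle := ⟨AddCircle.haarAddCircle⟩

local instance : Measure.IsAddHaarMeasure (volume : Measure UnitAddCircle) :=
  inferInstanceAs (Measure.IsAddHaarMeasure AddCircle.haarAddCircle)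

local instance : IsProbabilityMeasure (volume : Measure UnitAddCircle) :=
  inferInstanceAs (IsProbabilityMeasure AddCircle.haarAddCircle)

/-! ### The unit cube -/

/-- the cast `ℤ^ι → ℝ^ι` -/
def zc (ι : Type*) : (ι → ℤ) →+ (ι → ℝ) where
  toFun n i := n i
  map_zero' := by ext; simp
  map_add' m n := by ext; simp

omit [Fintype ι] in
@[simp] theorem zc_apply (n : ι → ℤ) (i : ι) : zc ι n i = n i := rfl

omit [Fintype ι] in
theorem zc_injective : Function.Injective (zc ι) := fun m n h => by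
  ext i
  have := congrFun h i
  simpa using this

/-- the half open unit cube -/
def cube (ι : Type*) : Set (ι → ℝ) := {x | ∀ i, x i ∈ Ioc (0 : ℝ) 1}

theorem measurableSet_cube : MeasurableSet (cube ι) :=
  MeasurableSet.univ_pi' fun _ => measurableSet_Ioc

theorem volume_cube : volume (cube ι) = 1 := by
  have : cube ι = Set.pi univ fun _ : ι => Ioc (0 : ℝ) 1 := by
    ext x
    simp [cube]
  rw [this, Real.volume_pi_Ioc]
  simp

/-- the lattice `ℤ^ι` in `ℝ^ι` -/
abbrev lat (ι : Type*) : AddSubgroup (ι → ℝ) := (zc ι).range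

instance : Countable (lat ι) := (Set.countable_range (zc ι)).to_subtype

/-- `ℤ^ι ≃ lat`. -/
def latEquiv (ι : Type*) : (ι → ℤ) ≃ lat ι :=
  Equiv.ofBijective (fun n => ⟨zc ι n, n, rfl⟩)
    ⟨fun _ _ h => zc_injective (congrArg Subtype.val h), fun ⟨_, n, hn⟩ => ⟨n, Subtype.ext hn⟩⟩

omit [Fintype ι] in
@[simp] theorem coe_latEquiv (n : ι → ℤ) : ((latEquiv ι n : lat ι) : ι → ℝ) = zc ι n := rfl

theorem isAddFundamentalDomain_cube :
    IsAddFundamentalDomain (lat ι) (cube ι) (volume : Measure (ι → ℝ)) := by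
  refine IsAddFundamentalDomain.mk' measurableSet_cube.nullMeasurableSet fun x => ?_
  have key : ∀ y : ℝ, ∃! n : ℤ, y + n ∈ Ioc (0 : ℝ) 1 := by
    intro y
    obtain ⟨n, hn, hu⟩ := existsUnique_add_zsmul_mem_Ioc (a := (1 : ℝ)) one_pos y 0
    refine ⟨n, by simpa using hn, fun m hm => hu m (by simpa using hm)⟩
  choose n hn hu using key
  refine ⟨latEquiv ι fun i => n (x i), fun i => ?_, ?_⟩
  · have : x i + (n (x i) : ℝ) ∈ Ioc (0 : ℝ) 1 := hn (x i)
    rw [add_comm] at this
    exact this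
  · rintro ⟨_, m, rfl⟩ hm
    refine Subtype.ext ?_
    have : m = fun i => n (x i) := by
      ext i
      refine hu (x i) (m i) ?_
      have := hm i
      simpa [AddSubgroup.vadd_def, add_comm] using this
    rw [this]
    rfl

theorem integral_eq_tsum_cube {E : Type*} [NormedAddCommGroup E] [NormedSpace ℝ E]
    {f : (ι → ℝ) → E} (hf : Integrable f) :
    ∫ x, f x = ∑' n : ι → ℤ, ∫ x in cube ι, f (x + zc ι n) := by
  rw [isAddFundamentalDomain_cube.integral_eq_tsum'' f hf, ← (latEquiv ι).tsum_eq]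
  refine tsum_congr fun n => ?_
  refine integral_congr_ae (Eventually.of_forall fun x => ?_)
  simp [AddSubgroup.vadd_def, add_comm]

/-! ### Periodization -/

/-- The Fourier transform at an integral point, as a plain integral. -/
def fc (f : (ι → ℝ) → ℂ) (m : ι → ℤ) : ℂ :=
  ∫ x : ι → ℝ, cexp (-(2 * π * I * ∑ i, (m i : ℂ) * x i)) * f x

/-- the character `x ↦ e(<m, x>)` -/
def ee (m : ι → ℤ) (x : ι → ℝ) : ℂ := cexp (2 * π * I * ∑ i, (m i : ℂ) * x i)

theorem mFourier_coe (m : ι → ℤ) (x : ι → ℝ) :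
    mFourier m (fun i => (x i : UnitAddCircle)) = ee m x := by
  simp only [mFourier, ContinuousMap.coe_mk, ee, Finset.mul_sum, Complex.exp_sum]
  refine Finset.prod_congr rfl fun i _ => ?_
  rw [fourier_coe_apply]
  congr 1
  push_cast
  ring

theorem ee_add_int (m : ι → ℤ) (x : ι → ℝ) (n : ι → ℤ) : ee m (x + zc ι n) = ee m x := by
  rw [← mFourier_coe, ← mFourier_coe]
  congr 1
  ext i
  simp

theorem norm_ee (m : ι → ℤ) (x : ι → ℝ) : ‖ee m x‖ = 1 := by
  have : 2 * π * I * ∑ i, (m i : ℂ) * x i = ((2 * π * ∑ i, (m i : ℝ) * x i : ℝ) : ℂ) * I := by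
    push_cast
    ring
  rw [ee, this, Complex.norm_exp_ofReal_mul_I]

theorem continuous_ee (m : ι → ℤ) : Continuous (ee m) := by
  unfold ee
  fun_prop

theorem fc_eq (f : (ι → ℝ) → ℂ) (m : ι → ℤ) : fc f m = ∫ x, ee (-m) x * f x := by
  unfold fc ee
  refine integral_congr_ae (Eventually.of_forall fun x => ?_)
  simp [Finset.sum_neg_distrib]

/-- local uniform summability of the translates -/
def Perable (f : (ι → ℝ) → ℂ) : Prop :=
  ∀ R : ℝ, ∃ u : (ι → ℤ) → ℝ, Summable u ∧ ∀ n x, ‖x‖ ≤ R → ‖f (x + zc ι n)‖ ≤ u n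

theorem norm_le_of_mem_cube {x : ι → ℝ} (hx : x ∈ cube ι) : ‖x‖ ≤ 1 := by
  rw [pi_norm_le_iff_of_nonneg zero_le_one]
  intro i
  rw [Real.norm_eq_abs, abs_of_pos (hx i).1]
  exact (hx i).2

theorem Perable.integrable {f : (ι → ℝ) → ℂ} (hc : Continuous f) (hf : Perable f) :
    Integrable f := by
  obtain ⟨u, hu, hfu⟩ := hf 1
  have hu0 : ∀ n, 0 ≤ u n := fun n => (norm_nonneg _).trans (hfu n 0 (by simp))
  refine ⟨hc.aestronglyMeasurable, ?_⟩
  rw [HasFiniteIntegral, isAddFundamentalDomain_cube.lintegral_eq_tsum'' (fun x => ‖f x‖ₑ),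
    ← (latEquiv ι).tsum_eq]
  have h1 : ∀ n, ∫⁻ x in cube ι, ‖f ((latEquiv ι n) +ᵥ x)‖ₑ ≤ ENNReal.ofReal (u n) := by
    intro n
    calc ∫⁻ x in cube ι, ‖f ((latEquiv ι n) +ᵥ x)‖ₑ ≤ ∫⁻ x in cube ι, ENNReal.ofReal (u n) := by
          refine setLIntegral_mono measurable_const fun x hx => ?_
          rw [← ofReal_norm]
          refine ENNReal.ofReal_le_ofReal ?_
          have := hfu n x (norm_le_of_mem_cube hx)
          simpa [AddSubgroup.vadd_def, add_comm] using this
      _ = ENNReal.ofReal (u n) := by simp [volume_cube]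
  refine lt_of_le_of_lt (ENNReal.tsum_le_tsum h1) ?_
  rw [← ENNReal.ofReal_tsum_of_nonneg hu0 hu]
  exact ENNReal.ofReal_lt_top

/-- the periodization -/
def per (f : (ι → ℝ) → ℂ) (x : ι → ℝ) : ℂ := ∑' n : ι → ℤ, f (x + zc ι n)

omit [Fintype ι] in
theorem per_add_int (f : (ι → ℝ) → ℂ) (x : ι → ℝ) (m : ι → ℤ) :
    per f (x + zc ι m) = per f x := by
  unfold per
  rw [← (Equiv.addRight m).tsum_eq (fun n => f (x + zc ι n))]
  refine tsum_congr fun n => ?_
  rw [Equiv.coe_addRight, map_add, add_assoc, add_comm (zc ι m)]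

theorem Perable.summable {f : (ι → ℝ) → ℂ} (hf : Perable f) (x : ι → ℝ) :
    Summable fun n : ι → ℤ => f (x + zc ι n) := by
  obtain ⟨u, hu, hfu⟩ := hf ‖x‖
  exact Summable.of_norm_bounded hu fun n => hfu n x le_rfl

theorem Perable.continuous_per {f : (ι → ℝ) → ℂ} (hc : Continuous f) (hf : Perable f) :
    Continuous (per f) := by
  rw [continuous_iff_continuousAt]
  intro x
  obtain ⟨u, hu, hfu⟩ := hf (‖x‖ + 1)
  have h : ContinuousOn (per f) (Metric.ball 0 (‖x‖ + 1)) := by
    refine continuousOn_tsum (fun n => (by fun_prop : Continuous fun y => f (y + zc ι n)).continuousOn)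
      hu fun n y hy => hfu n y ?_
    simpa using (mem_ball_zero_iff.mp hy).le
  refine h.continuousAt (Metric.isOpen_ball.mem_nhds ?_)
  simp

/-- projection to the torus -/
def proj (ι : Type*) (x : ι → ℝ) : UnitAddTorus ι := fun i => (x i : UnitAddCircle)

omit [Fintype ι] in
theorem isOpenQuotientMap_proj : IsOpenQuotientMap (proj ι) :=
  IsOpenQuotientMap.piMap fun _ => QuotientAddGroup.isOpenQuotientMap_mk

omit [Fintype ι] in
theorem exists_of_proj_eq {x y : ι → ℝ} (h : proj ι x = proj ι y) : ∃ n, y = x + zc ι n := by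
  have : ∀ i, ∃ n : ℤ, y i = x i + n := by
    intro i
    have h1 : ((x i : ℝ) : UnitAddCircle) = (y i : UnitAddCircle) := congrFun h i
    have h2 : ((y i - x i : ℝ) : UnitAddCircle) = 0 := by
      rw [AddCircle.coe_sub, h1, sub_self]
    obtain ⟨n, hn⟩ := AddCircle.coe_eq_zero_iff (p := (1 : ℝ)) |>.mp h2
    refine ⟨n, ?_⟩
    rw [zsmul_one] at hn
    linarith
  choose n hn using this
  exact ⟨n, funext hn⟩

/-- the periodization as a function on the torus -/
def lift (f : (ι → ℝ) → ℂ) (t : UnitAddTorus ι) : ℂ :=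
  per f (Function.surjInv isOpenQuotientMap_proj.surjective t)

omit [Fintype ι] in
theorem lift_proj (f : (ι → ℝ) → ℂ) (x : ι → ℝ) : lift f (proj ι x) = per f x := by
  obtain ⟨n, hn⟩ := exists_of_proj_eq
    (Function.surjInv_eq isOpenQuotientMap_proj.surjective (proj ι x))
  rw [lift]
  conv_rhs => rw [hn]
  rw [per_add_int]

theorem Perable.continuous_lift {f : (ι → ℝ) → ℂ} (hc : Continuous f) (hf : Perable f) :
    Continuous (lift f) := by
  rw [← isOpenQuotientMap_proj.continuous_comp_iff]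
  convert hf.continuous_per hc using 1
  ext x
  exact lift_proj f x

theorem mFourier_proj (m : ι → ℤ) (x : ι → ℝ) : mFourier m (proj ι x) = ee m x :=
  mFourier_coe m x

theorem Perable.mFourierCoeff_lift {f : (ι → ℝ) → ℂ} (hc : Continuous f) (hf : Perable f)
    (m : ι → ℤ) : mFourierCoeff (lift f) m = fc f m := by
  obtain ⟨u, hu, hfu⟩ := hf 1
  have hint : Integrable fun x => ee (-m) x * f x := by
    refine (hf.integrable hc).bdd_mul (c := 1) (continuous_ee _).aestronglyMeasurable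
      (Eventually.of_forall fun x => (norm_ee _ _).le)
  rw [mFourierCoeff_eq_integral _ _ 0, fc_eq, integral_eq_tsum_cube hint]
  have hset : {x : ι → ℝ | ∀ i, x i ∈ Ioc ((0 : ι → ℝ) i) ((0 : ι → ℝ) i + 1)} = cube ι := by
    ext x
    simp [cube]
  rw [hset]
  have h1 : ∀ x : ι → ℝ, mFourier (-m) (fun i => (x i : UnitAddCircle)) •
      lift f (fun i => (x i : UnitAddCircle)) = ∑' n : ι → ℤ, ee (-m) (x + zc ι n) * f (x + zc ι n) := by
    intro x
    rw [mFourier_coe]
    change ee (-m) x • lift f (proj ι x) = _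
    rw [lift_proj, smul_eq_mul, per, ← tsum_mul_left]
    simp_rw [ee_add_int]
  simp_rw [h1]
  symm
  refine (hasSum_integral_of_dominated_convergence (fun n _ => u n) ?_ ?_ ?_ ?_ ?_).tsum_eq
  · intro n
    exact (((continuous_ee (-m)).mul hc).comp (continuous_add_const _)).aestronglyMeasurable
  · intro n
    rw [ae_restrict_iff' measurableSet_cube]
    refine Eventually.of_forall fun x hx => ?_
    rw [norm_mul, norm_ee, one_mul]
    exact hfu n x (norm_le_of_mem_cube hx)
  · exact Eventually.of_forall fun x => hu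
  · exact integrableOn_const (by simp [volume_cube]) (by simp)
  · refine Eventually.of_forall fun x => ?_
    refine Summable.hasSum ?_
    simp_rw [ee_add_int]
    exact (hf.summable x).mul_left _

/-- **Poisson summation** for `ℤ^ι` in `ℝ^ι`. -/
theorem hasSum_poisson {f : (ι → ℝ) → ℂ} (hc : Continuous f) (hf : Perable f)
    (hs : Summable (fc f)) (x : ι → ℝ) :
    HasSum (fun m : ι → ℤ => fc f m * ee m x) (∑' n : ι → ℤ, f (x + zc ι n)) := by
  let F : C(UnitAddTorus ι, ℂ) := ⟨lift f, hf.continuous_lift hc⟩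
  have hF : mFourierCoeff F = fc f := funext fun m => hf.mFourierCoeff_lift hc m
  have := hasSum_mFourier_series_apply_of_summable (f := F) (hF ▸ hs) (proj ι x)
  rw [hF] at this
  simp_rw [mFourier_proj, smul_eq_mul] at this
  have h2 : F (proj ι x) = ∑' n : ι → ℤ, f (x + zc ι n) := lift_proj f x
  rwa [h2] at this

/-! ### A decay criterion -/

theorem summable_one_add_norm {b : ℝ} (hb : (Fintype.card ι : ℝ) < b) :
    Summable fun n : ι → ℤ => (1 + ‖zc ι n‖) ^ (-b) := by
  classical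
  let L : Submodule ℤ (ι → ℝ) := Submodule.span ℤ (range (Pi.basisFun ℝ ι))
  have hrank : Module.finrank ℤ L = Fintype.card ι := by
    rw [ZLattice.rank ℝ L]
    simp
  have h0 : Summable fun z : L => ‖z‖ ^ (-b) :=
    ZLattice.summable_norm_rpow L (-b) (by rw [hrank]; linarith)
  have hmem : ∀ n : ι → ℤ, zc ι n ∈ L := by
    intro n
    have : zc ι n = ∑ i, n i • Pi.basisFun ℝ ι i := by
      ext j
      simp [Finset.sum_apply, Pi.single_apply]
    rw [this]
    exact Submodule.sum_mem _ fun i _ => Submodule.smul_mem _ _ (Submodule.subset_span ⟨i, rfl⟩)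
  let j : (ι → ℤ) → L := fun n => ⟨zc ι n, hmem n⟩
  have hj : Function.Injective j := fun m n h => zc_injective (congrArg Subtype.val h)
  have h1 := h0.comp_injective hj
  refine Summable.of_norm_bounded_eventually h1 ?_
  refine (Set.finite_singleton (0 : ι → ℤ)).subset fun n hn => ?_
  by_contra hn0
  refine hn ?_
  have hpos : 0 < ‖zc ι n‖ := by
    rw [norm_pos_iff]
    intro h
    exact hn0 (zc_injective (h.trans (map_zero _).symm))
  have hb0 : 0 < b := lt_of_le_of_lt (Nat.cast_nonneg _) hb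
  change ‖(1 + ‖zc ι n‖) ^ (-b)‖ ≤ ‖zc ι n‖ ^ (-b)
  rw [Real.norm_of_nonneg (by positivity)]
  exact Real.rpow_le_rpow_of_nonpos hpos (by linarith) (by linarith)

theorem perable_of_decay {f : (ι → ℝ) → ℂ} {b C : ℝ} (hb : (Fintype.card ι : ℝ) < b)
    (hf : ∀ x, ‖f x‖ ≤ C * (1 + ‖x‖) ^ (-b)) : Perable f := by
  intro R
  have hb0 : 0 < b := lt_of_le_of_lt (Nat.cast_nonneg _) hb
  have hC : 0 ≤ C := by simpa using (norm_nonneg _).trans (hf 0)
  refine ⟨fun n => C * (1 + |R|) ^ b * (1 + ‖zc ι n‖) ^ (-b), (summable_one_add_norm hb).mul_left _,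
    fun n x hx => (hf _).trans ?_⟩
  change C * _ ≤ C * (1 + |R|) ^ b * (1 + ‖zc ι n‖) ^ (-b)
  rw [mul_assoc]
  refine mul_le_mul_of_nonneg_left ?_ hC
  have h1 : 1 + ‖zc ι n‖ ≤ (1 + |R|) * (1 + ‖x + zc ι n‖) := by
    have h2 : ‖zc ι n‖ ≤ ‖x + zc ι n‖ + ‖x‖ := by
      have := norm_sub_le (x + zc ι n) x
      simpa using this
    have h3 : ‖x‖ ≤ |R| := hx.trans (le_abs_self R)
    nlinarith [norm_nonneg (x + zc ι n), abs_nonneg R]
  have hp : 0 < 1 + ‖x + zc ι n‖ := by positivity
  have hq : 0 < 1 + ‖zc ι n‖ := by positivity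
  have hr : 0 < 1 + |R| := by positivity
  rw [Real.rpow_neg hp.le, Real.rpow_neg hq.le, ← div_eq_mul_inv, le_div_iff₀ (by positivity),
    inv_mul_le_iff₀ (by positivity), mul_comm, ← Real.mul_rpow hr.le hp.le]
  exact Real.rpow_le_rpow hq.le h1 hb0.le

end Fermat.Agent.LT.Poisson
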