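import Mathlib
import Fermat.Agent.LT.Poisson

/-!
# Poisson summation for lattices in a finite dimensional real vector space
-/

set_option autoImplicit false

noncomputable section

open MeasureTheory Set Filter TopologicalSpace Complex Module
open scoped Real FourierTransform SchwartzMap

namespace Fermat.Agent.LT.Poisson

variable {ι : Type*} [Fintype ι]
variable {V : Type*} [NormedAddCommGroup V] [NormedSpace ℝ V]

/-- the parametrisation of `V` by a basis, as a continuous linear equivalence -/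
def cv (b : Basis ι ℝ V) : (ι → ℝ) ≃L[ℝ] V := b.equivFunL.symm

theorem cv_apply (b : Basis ι ℝ V) (x : ι → ℝ) : cv b x = ∑ i, x i • b i :=
  b.equivFun_symm_apply x

@[simp] theorem repr_cv (b : Basis ι ℝ V) (x : ι → ℝ) (i : ι) : b.repr (cv b x) i = x i := by
  have : b.equivFun (cv b x) = x := b.equivFun.apply_symm_apply x
  exact congrFun this i

/-- the integral covector `Σ m_j b_j^*` -/
def co (b : Basis ι ℝ V) (m : ι → ℤ) (v : V) : ℝ := ∑ i, m i * b.repr v i

theorem co_cv (b : Basis ι ℝ V) (m : ι → ℤ) (x : ι → ℝ) : co b m (cv b x) = ∑ i, m i * x i := by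
  simp [co]

theorem cexp_co_cv (b : Basis ι ℝ V) (m : ι → ℤ) (x : ι → ℝ) :
    cexp (2 * π * I * (co b m (cv b x) : ℝ)) = ee m x := by
  rw [co_cv, ee]
  push_cast
  rfl

theorem cexp_neg_co_cv (b : Basis ι ℝ V) (m : ι → ℤ) (x : ι → ℝ) :
    cexp (-(2 * π * I * (co b m (cv b x) : ℝ))) = ee (-m) x := by
  rw [co_cv, ee]
  push_cast
  congr 1
  simp [Finset.sum_neg_distrib]

section Measure

variable [MeasurableSpace V] [BorelSpace V]

theorem eq_smul_map_cv (μ : Measure V) [μ.IsAddHaarMeasure] (b : Basis ι ℝ V) :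
    μ = μ (parallelepiped b) • Measure.map (cv b) volume := by
  have : FiniteDimensional ℝ V := b.finiteDimensional_of_finite
  have hν : (Measure.map (cv b) (volume : Measure (ι → ℝ))).IsAddHaarMeasure :=
    (cv b).isAddHaarMeasure_map volume
  have h1 := Measure.addHaarMeasure_unique (Measure.map (cv b) (volume : Measure (ι → ℝ)))
    b.parallelepiped
  have h2 := Measure.addHaarMeasure_unique μ b.parallelepiped
  have h3 : (Measure.map (cv b) (volume : Measure (ι → ℝ))) b.parallelepiped = 1 := by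
    have he : MeasurableEmbedding (cv b) := (cv b).toHomeomorph.measurableEmbedding
    rw [he.map_apply]
    have : (cv b) ⁻¹' (b.parallelepiped : Set V) = Set.Icc (0 : ι → ℝ) 1 := by
      ext x
      simp only [Basis.coe_parallelepiped, parallelepiped_basis_eq, mem_preimage, mem_ofPred_eq,
        repr_cv]
      constructor
      · intro h
        exact ⟨fun i => (h i).1, fun i => (h i).2⟩
      · intro h i
        exact ⟨h.1 i, h.2 i⟩
    rw [this, Real.volume_Icc_pi]
    simp
  rw [h3, one_smul] at h1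
  rw [h1]
  exact h2

theorem integral_cv (μ : Measure V) [μ.IsAddHaarMeasure] (b : Basis ι ℝ V)
    {E : Type*} [NormedAddCommGroup E] [NormedSpace ℝ E] (g : V → E) :
    ∫ v, g v ∂μ = μ.real (parallelepiped b) • ∫ x : ι → ℝ, g (cv b x) := by
  have he : MeasurableEmbedding (cv b) := (cv b).toHomeomorph.measurableEmbedding
  conv_lhs => rw [eq_smul_map_cv μ b]
  rw [integral_smul_measure, he.integral_map]
  rfl

omit [BorelSpace V] in
theorem parallelepiped_real_pos (μ : Measure V) [μ.IsAddHaarMeasure] (b : Basis ι ℝ V) :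
    0 < μ.real (parallelepiped b) := by
  have : FiniteDimensional ℝ V := b.finiteDimensional_of_finite
  refine ENNReal.toReal_pos ?_ ?_
  · have := b.parallelepiped.interior_nonempty
    exact (IsOpen.measure_pos μ isOpen_interior this).ne' ∘ fun h =>
      measure_mono_null interior_subset h
  · exact b.parallelepiped.isCompact.measure_lt_top.ne

/-- the Fourier transform of `f` at the integral covector `m` of the basis `b` -/
def fb (μ : Measure V) (b : Basis ι ℝ V) (f : V → ℂ) (m : ι → ℤ) : ℂ :=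
  ∫ v, cexp (-(2 * π * I * (co b m v : ℝ))) * f v ∂μ

theorem fb_eq (μ : Measure V) [μ.IsAddHaarMeasure] (b : Basis ι ℝ V) (f : V → ℂ) (m : ι → ℤ) :
    fb μ b f m = μ.real (parallelepiped b) * fc (f ∘ cv b) m := by
  rw [fb, integral_cv μ b, fc_eq]
  simp_rw [cexp_neg_co_cv]
  simp

/-- **Poisson summation**, any basis. -/
theorem hasSum_poisson_basis (μ : Measure V) [μ.IsAddHaarMeasure] (b : Basis ι ℝ V) {f : V → ℂ}
    (hc : Continuous f) (hf : Perable (f ∘ cv b)) (hs : Summable (fb μ b f)) (x : V) :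
    HasSum (fun m : ι → ℤ => (μ.real (parallelepiped b) : ℂ)⁻¹ * fb μ b f m *
      cexp (2 * π * I * (co b m x : ℝ))) (∑' n : ι → ℤ, f (x + cv b (zc ι n))) := by
  have hv : (μ.real (parallelepiped b) : ℂ) ≠ 0 := by
    exact_mod_cast (parallelepiped_real_pos μ b).ne'
  have h1 : fc (f ∘ cv b) = fun m => (μ.real (parallelepiped b) : ℂ)⁻¹ * fb μ b f m := by
    ext m
    rw [fb_eq, inv_mul_cancel_left₀ hv]
  obtain ⟨y, rfl⟩ := (cv b).surjective x
  have h2 := hasSum_poisson (hc.comp (cv b).continuous) hf (h1 ▸ hs.mul_left _) y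
  rw [h1] at h2
  simp_rw [cexp_co_cv]
  simpa using h2

end Measure

/-! ### Decay -/

theorem perable_cv_of_decay (b : Basis ι ℝ V) {f : V → ℂ} {β C : ℝ}
    (hβ : (Fintype.card ι : ℝ) < β) (hf : ∀ v, ‖f v‖ ≤ C * (1 + ‖v‖) ^ (-β)) :
    Perable (f ∘ cv b) := by
  set A : ℝ := ‖((cv b).symm : V →L[ℝ] (ι → ℝ))‖ with hA
  have hA0 : 0 ≤ A := norm_nonneg _
  have hβ0 : 0 < β := lt_of_le_of_lt (Nat.cast_nonneg _) hβ
  have hC : 0 ≤ C := by simpa using (norm_nonneg _).trans (hf 0)
  refine perable_of_decay (b := β) (C := C * (1 + A) ^ β) hβ fun x => (hf _).trans ?_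
  rw [mul_assoc]
  refine mul_le_mul_of_nonneg_left ?_ hC
  have h1 : 1 + ‖x‖ ≤ (1 + A) * (1 + ‖cv b x‖) := by
    have h2 : ‖x‖ ≤ A * ‖cv b x‖ := by
      have := ((cv b).symm : V →L[ℝ] (ι → ℝ)).le_opNorm (cv b x)
      simpa using this
    nlinarith [norm_nonneg (cv b x)]
  have hp : 0 < 1 + ‖cv b x‖ := by positivity
  have hq : 0 < 1 + ‖x‖ := by positivity
  have hr : 0 < 1 + A := by positivity
  rw [Real.rpow_neg hp.le, Real.rpow_neg hq.le, ← div_eq_mul_inv, le_div_iff₀ (by positivity),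
    inv_mul_le_iff₀ (by positivity), mul_comm, ← Real.mul_rpow hr.le hp.le]
  exact Real.rpow_le_rpow hq.le h1 hβ0.le

theorem schwartz_decay (f : 𝓢(V, ℂ)) (k : ℕ) :
    ∃ C : ℝ, ∀ v, ‖f v‖ ≤ C * (1 + ‖v‖) ^ (-(k : ℝ)) := by
  refine ⟨2 ^ k * (Finset.Iic (k, 0)).sup (fun m => SchwartzMap.seminorm ℝ m.1 m.2) f,
    fun v => ?_⟩
  have h := SchwartzMap.one_add_le_sup_seminorm_apply (𝕜 := ℝ) (m := (k, 0)) (k := k) (n := 0)
    le_rfl le_rfl f v
  rw [norm_iteratedFDeriv_zero] at h
  have hp : 0 < 1 + ‖v‖ := by positivity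
  rw [Real.rpow_neg hp.le, ← div_eq_mul_inv, le_div_iff₀ (by positivity), Real.rpow_natCast,
    mul_comm]
  exact h

theorem perable_schwartz (b : Basis ι ℝ V) (f : 𝓢(V, ℂ)) : Perable (f ∘ cv b) := by
  obtain ⟨C, hC⟩ := schwartz_decay f (Fintype.card ι + 1)
  refine perable_cv_of_decay b (β := ((Fintype.card ι + 1 : ℕ) : ℝ)) (by push_cast; linarith) hC

theorem fc_eq_fourier (f : (ι → ℝ) → ℂ) (m : ι → ℤ) :
    fc f m = 𝓕 (fun y : EuclideanSpace ℝ ι => f (WithLp.ofLp y)) (WithLp.toLp 2 (zc ι m)) := by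
  rw [Real.fourier_eq', fc]
  have h := (EuclideanSpace.volume_preserving_symm_measurableEquiv_toLp ι).integral_comp
    (MeasurableEquiv.measurableEmbedding _)
    (fun x : ι → ℝ => cexp (-(2 * π * I * ∑ i, (m i : ℂ) * x i)) * f x)
  rw [← h]
  refine integral_congr_ae (Eventually.of_forall fun y => ?_)
  simp only [smul_eq_mul]
  congr 2
  rw [PiLp.inner_apply]
  push_cast
  simp only [RCLike.inner_apply, conj_trivial, Complex.ofReal_mul, zc_apply,
    Complex.ofReal_intCast]
  change -(2 * π * I * ∑ i, (m i : ℂ) * (y i : ℂ)) = _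
  ring

/-- the Fourier transform of a Schwartz function is summable over the integral covectors -/
theorem summable_fc_schwartz (f : 𝓢((ι → ℝ), ℂ)) : Summable (fc f) := by
  let e : EuclideanSpace ℝ ι ≃L[ℝ] (ι → ℝ) := EuclideanSpace.equiv ι ℝ
  let g : 𝓢(EuclideanSpace ℝ ι, ℂ) := SchwartzMap.compCLMOfContinuousLinearEquiv ℂ e f
  obtain ⟨C, hC⟩ := schwartz_decay (𝓕 g) (Fintype.card ι + 1)
  have h1 : ∀ m : ι → ℤ, fc f m = (𝓕 g) (WithLp.toLp 2 (zc ι m)) := by
    intro m
    rw [SchwartzMap.fourier_coe]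
    exact fc_eq_fourier f m
  have hC0 : 0 ≤ C := by simpa using (norm_nonneg _).trans (hC 0)
  refine Summable.of_norm_bounded
    ((summable_one_add_norm (ι := ι) (b := ((Fintype.card ι + 1 : ℕ) : ℝ))
      (by push_cast; linarith)).mul_left C) fun m => ?_
  rw [h1]
  refine (hC _).trans (mul_le_mul_of_nonneg_left ?_ hC0)
  have h2 : ‖zc ι m‖ ≤ ‖(WithLp.toLp 2 (zc ι m) : EuclideanSpace ℝ ι)‖ := by
    rw [pi_norm_le_iff_of_nonneg (norm_nonneg _)]
    intro i
    exact PiLp.norm_apply_le (WithLp.toLp 2 (zc ι m) : EuclideanSpace ℝ ι) i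
  exact Real.rpow_le_rpow_of_nonpos (by positivity) (by linarith)
    (by simp only [Nat.cast_add, Nat.cast_one, neg_add_rev]; linarith [Nat.cast_nonneg (α := ℝ) (Fintype.card ι)])

section Schwartz

variable [MeasurableSpace V] [BorelSpace V]

theorem summable_fb_schwartz (μ : Measure V) [μ.IsAddHaarMeasure] (b : Basis ι ℝ V) (f : 𝓢(V, ℂ)) :
    Summable (fb μ b f) := by
  have h1 := summable_fc_schwartz (SchwartzMap.compCLMOfContinuousLinearEquiv ℂ (cv b) f)
  have h2 : fb μ b f = fun m => (μ.real (parallelepiped b) : ℂ) *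
      fc (SchwartzMap.compCLMOfContinuousLinearEquiv ℂ (cv b) f) m := by
    ext m
    rw [fb_eq]
    rfl
  rw [h2]
  exact h1.mul_left _

/-- **Poisson summation** for Schwartz functions, any basis. -/
theorem hasSum_poisson_schwartz (μ : Measure V) [μ.IsAddHaarMeasure] (b : Basis ι ℝ V)
    (f : 𝓢(V, ℂ)) (x : V) :
    HasSum (fun m : ι → ℤ => (μ.real (parallelepiped b) : ℂ)⁻¹ * fb μ b f m *
      cexp (2 * π * I * (co b m x : ℝ))) (∑' n : ι → ℤ, f (x + cv b (zc ι n))) :=
  hasSum_poisson_basis μ b f.continuous (perable_schwartz b f) (summable_fb_schwartz μ b f) x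

end Schwartz

/-! ### Lattices and bilinear forms -/

/-- the coordinates of a lattice given by a basis -/
def spanEquiv (b : Basis ι ℝ V) : (ι → ℤ) ≃ Submodule.span ℤ (range b) :=
  Equiv.ofBijective
    (fun n => ⟨cv b (zc ι n), by
      rw [cv_apply]
      exact Submodule.sum_mem _ fun i _ => by
        rw [zc_apply, Int.cast_smul_eq_zsmul]
        exact Submodule.smul_mem _ _ (Submodule.subset_span ⟨i, rfl⟩)⟩)
    ⟨fun m n h => zc_injective ((cv b).injective (congrArg Subtype.val h)), fun ⟨v, hv⟩ => by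
      obtain ⟨n, rfl⟩ := (Submodule.mem_span_range_iff_exists_fun ℤ).mp hv
      refine ⟨n, Subtype.ext ?_⟩
      change cv b (zc ι n) = _
      rw [cv_apply]
      exact Finset.sum_congr rfl fun i _ => Int.cast_smul_eq_zsmul ℝ (n i) (b i)⟩

@[simp] theorem coe_spanEquiv (b : Basis ι ℝ V) (n : ι → ℤ) :
    (spanEquiv b n : V) = cv b (zc ι n) := rfl

/-- the Fourier transform with respect to a bilinear form -/
def fB [MeasurableSpace V] (μ : Measure V) (B : LinearMap.BilinForm ℝ V) (f : V → ℂ) (w : V) : ℂ :=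
  ∫ v, cexp (-(2 * π * I * (B w v : ℝ))) * f v ∂μ

theorem bilin_dual [DecidableEq ι] {B : LinearMap.BilinForm ℝ V} (hB : B.Nondegenerate)
    (b : Basis ι ℝ V) (m : ι → ℤ) (v : V) :
    B (cv (B.dualBasis hB b) (zc ι m)) v = co b m v := by
  rw [cv_apply, map_sum, LinearMap.sum_apply, co]
  refine Finset.sum_congr rfl fun i _ => ?_
  rw [map_smul, LinearMap.smul_apply, smul_eq_mul, zc_apply]
  congr 1
  conv_lhs => rw [← b.sum_repr v]
  rw [map_sum, Finset.sum_eq_single i]
  · rw [map_smul, LinearMap.BilinForm.apply_dualBasis_left]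
    simp
  · intro j _ hj
    rw [map_smul, LinearMap.BilinForm.apply_dualBasis_left]
    simp [hj]
  · simp

section Lattice

variable [FiniteDimensional ℝ V] [MeasurableSpace V] [BorelSpace V]

open Classical in
/-- **Poisson summation** for a lattice and its dual with respect to a nondegenerate bilinear
form. -/
theorem hasSum_poisson_lattice (μ : Measure V) [μ.IsAddHaarMeasure] {B : LinearMap.BilinForm ℝ V}
    (hB : B.Nondegenerate) (L : Submodule ℤ V) [DiscreteTopology L] [IsZLattice ℝ L]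
    (f : 𝓢(V, ℂ)) (x : V) :
    HasSum (fun m : B.dualSubmodule L => (ZLattice.covolume L μ : ℂ)⁻¹ * fB μ B f m *
      cexp (2 * π * I * (B m x : ℝ))) (∑' l : L, f (x + l)) := by
  have : Module.Free ℤ L := ZLattice.module_free ℝ L
  have : Module.Finite ℤ L := ZLattice.module_finite ℝ L
  let b₀ := Module.Free.chooseBasis ℤ L
  let b := b₀.ofZLatticeBasis ℝ L
  have hL : L = Submodule.span ℤ (range b) := (b₀.ofZLatticeBasis_span ℝ L).symm
  have hcov : ZLattice.covolume L μ = μ.real (parallelepiped b) := by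
    rw [ZLattice.covolume_eq_measure_fundamentalDomain L μ (ZLattice.isAddFundamentalDomain b₀ μ)]
    exact measureReal_congr (ZSpan.fundamentalDomain_ae_parallelepiped b μ)
  have h := hasSum_poisson_schwartz μ b f x
  have h1 : ∑' n : Module.Free.ChooseBasisIndex ℤ L → ℤ, f (x + cv b (zc _ n)) =
      ∑' l : L, f (x + l) := by
    rw [← ((spanEquiv b).trans (LinearEquiv.ofEq _ _ hL.symm).toEquiv).tsum_eq
      (fun l : L => f (x + l))]
    rfl
  rw [h1, ← hcov] at h
  have hD : B.dualSubmodule L = Submodule.span ℤ (range (B.dualBasis hB b)) := by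
    conv_lhs => rw [hL]
    exact B.dualSubmodule_span_of_basis hB b
  rw [← ((spanEquiv (B.dualBasis hB b)).trans (LinearEquiv.ofEq _ _ hD.symm).toEquiv).hasSum_iff]
  convert h using 1
  ext m
  change (ZLattice.covolume L μ : ℂ)⁻¹ * fB μ B f (cv (B.dualBasis hB b) (zc _ m)) *
      cexp (2 * π * I * (B (cv (B.dualBasis hB b) (zc _ m)) x : ℝ)) = _
  rw [fB, fb]
  simp_rw [bilin_dual]

end Lattice

end Fermat.Agent.LT.Poisson
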