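import Mathlib
import Fermat.Agent.LT.PoissonV

/-!
# Theta inversion for (indefinite) quadratic forms, and Poisson summation with periodic weights
-/

set_option autoImplicit false

noncomputable section

open MeasureTheory Set Filter TopologicalSpace Complex Module
open scoped Real FourierTransform SchwartzMap

namespace Fermat.Agent.LT.Poisson

variable {ι : Type*} [Fintype ι]
variable {V : Type*} [NormedAddCommGroup V] [NormedSpace ℝ V]

/-! ### Summability over lattices -/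

theorem summable_span_of_decay (b : Basis ι ℝ V) {g : V → ℂ} {β C : ℝ}
    (hβ : (Fintype.card ι : ℝ) < β) (hg : ∀ v, ‖g v‖ ≤ C * (1 + ‖v‖) ^ (-β)) :
    Summable fun l : Submodule.span ℤ (range b) => g l := by
  rw [← (spanEquiv b).summable_iff]
  have h := (perable_cv_of_decay b hβ hg).summable 0
  simpa [Function.comp_def] using h

theorem summable_span_add_of_decay (b : Basis ι ℝ V) {g : V → ℂ} {β C : ℝ}
    (hβ : (Fintype.card ι : ℝ) < β) (hg : ∀ v, ‖g v‖ ≤ C * (1 + ‖v‖) ^ (-β)) (x : V) :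
    Summable fun l : Submodule.span ℤ (range b) => g (x + l) := by
  rw [← (spanEquiv b).summable_iff]
  have h := (perable_cv_of_decay b hβ hg).summable ((cv b).symm x)
  simpa [Function.comp_def] using h

section Lattice

variable [FiniteDimensional ℝ V]

/-- the real basis of a lattice -/
theorem exists_basis (L : Submodule ℤ V) [DiscreteTopology L] [IsZLattice ℝ L] :
    ∃ b : Basis (Fin (finrank ℝ V)) ℝ V, L = Submodule.span ℤ (range b) ∧
      ∀ [MeasurableSpace V] [BorelSpace V] (μ : Measure V) [μ.IsAddHaarMeasure],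
        ZLattice.covolume L μ = μ.real (parallelepiped b) := by
  have : Module.Free ℤ L := ZLattice.module_free ℝ L
  have : Module.Finite ℤ L := ZLattice.module_finite ℝ L
  let b₀ : Basis (Fin (finrank ℝ V)) ℤ L :=
    (Module.finBasis ℤ L).reindex (finCongr (ZLattice.rank ℝ L))
  refine ⟨b₀.ofZLatticeBasis ℝ L, (b₀.ofZLatticeBasis_span ℝ L).symm, ?_⟩
  intro _ _ μ _
  rw [ZLattice.covolume_eq_measure_fundamentalDomain L μ (ZLattice.isAddFundamentalDomain b₀ μ)]
  exact measureReal_congr (ZSpan.fundamentalDomain_ae_parallelepiped _ μ)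

theorem summable_lattice_of_decay (L : Submodule ℤ V) [DiscreteTopology L] [IsZLattice ℝ L]
    {g : V → ℂ} {β C : ℝ} (hβ : (finrank ℝ V : ℝ) < β)
    (hg : ∀ v, ‖g v‖ ≤ C * (1 + ‖v‖) ^ (-β)) (x : V) : Summable fun l : L => g (x + l) := by
  obtain ⟨b, hL, -⟩ := exists_basis L
  rw [← (LinearEquiv.ofEq _ _ hL.symm).toEquiv.summable_iff]
  exact summable_span_add_of_decay b (by simpa using hβ) hg x

theorem summable_dual_of_decay {B : LinearMap.BilinForm ℝ V} (hB : B.Nondegenerate)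
    (L : Submodule ℤ V) [DiscreteTopology L] [IsZLattice ℝ L]
    {g : V → ℂ} {β C : ℝ} (hβ : (finrank ℝ V : ℝ) < β)
    (hg : ∀ v, ‖g v‖ ≤ C * (1 + ‖v‖) ^ (-β)) (x : V) :
    Summable fun l : B.dualSubmodule L => g (x + l) := by
  obtain ⟨b, hL, -⟩ := exists_basis L
  have hD : B.dualSubmodule L = Submodule.span ℤ (range (B.dualBasis hB b)) := by
    conv_lhs => rw [hL]
    exact B.dualSubmodule_span_of_basis hB b
  rw [← (LinearEquiv.ofEq _ _ hD.symm).toEquiv.summable_iff]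
  exact summable_span_add_of_decay (B.dualBasis hB b) (by simpa using hβ) hg x

variable [MeasurableSpace V] [BorelSpace V]

/-- **Poisson summation** for a lattice and its dual with respect to a nondegenerate bilinear
form; `f` continuous with decay, `Σ F` summable. -/
theorem hasSum_poisson_lattice_of_decay (μ : Measure V) [μ.IsAddHaarMeasure]
    {B : LinearMap.BilinForm ℝ V} (hB : B.Nondegenerate) (L : Submodule ℤ V) [DiscreteTopology L]
    [IsZLattice ℝ L] {f : V → ℂ} (hc : Continuous f) {β C : ℝ} (hβ : (finrank ℝ V : ℝ) < β)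
    (hf : ∀ v, ‖f v‖ ≤ C * (1 + ‖v‖) ^ (-β))
    (hs : Summable fun m : B.dualSubmodule L => fB μ B f m) (x : V) :
    HasSum (fun m : B.dualSubmodule L => (ZLattice.covolume L μ : ℂ)⁻¹ * fB μ B f m *
      cexp (2 * π * I * (B m x : ℝ))) (∑' l : L, f (x + l)) := by
  obtain ⟨b, hL, hcov⟩ := exists_basis L
  have hD : B.dualSubmodule L = Submodule.span ℤ (range (B.dualBasis hB b)) := by
    conv_lhs => rw [hL]
    exact B.dualSubmodule_span_of_basis hB b
  have hs' : Summable (fb μ b f) := by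
    rw [← ((spanEquiv (B.dualBasis hB b)).trans
      (LinearEquiv.ofEq _ _ hD.symm).toEquiv).summable_iff] at hs
    convert hs using 1
    ext m
    change fb μ b f m = fB μ B f (cv (B.dualBasis hB b) (zc _ m))
    rw [fB, fb]
    simp_rw [bilin_dual]
  have h := hasSum_poisson_basis μ b hc (perable_cv_of_decay b (by simpa using hβ) hf) hs' x
  have h1 : ∑' n : Fin (finrank ℝ V) → ℤ, f (x + cv b (zc _ n)) = ∑' l : L, f (x + l) := by
    rw [← ((spanEquiv b).trans (LinearEquiv.ofEq _ _ hL.symm).toEquiv).tsum_eq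
      (fun l : L => f (x + l))]
    rfl
  rw [h1, ← hcov μ] at h
  rw [← ((spanEquiv (B.dualBasis hB b)).trans (LinearEquiv.ofEq _ _ hD.symm).toEquiv).hasSum_iff]
  convert h using 1
  ext m
  change (ZLattice.covolume L μ : ℂ)⁻¹ * fB μ B f (cv (B.dualBasis hB b) (zc _ m)) *
      cexp (2 * π * I * (B (cv (B.dualBasis hB b) (zc _ m)) x : ℝ)) = _
  rw [fB, fb]
  simp_rw [bilin_dual]

end Lattice

/-! ### Gaussians -/

/-- the Gaussian `exp(-π Σ a_i v_i²)` in the coordinates of the basis `e` -/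
def gau (e : Basis ι ℝ V) (a : ι → ℂ) (v : V) : ℂ :=
  cexp (-(π * ∑ i, a i * (e.repr v i : ℂ) ^ 2))

theorem continuous_gau (e : Basis ι ℝ V) (a : ι → ℂ) : Continuous (gau e a) := by
  have h : ∀ i, Continuous fun v => e.repr v i := fun i =>
    (continuous_apply i).comp (cv e).symm.continuous
  unfold gau
  fun_prop

theorem norm_gau (e : Basis ι ℝ V) (a : ι → ℂ) (v : V) :
    ‖gau e a v‖ = Real.exp (-(π * ∑ i, (a i).re * e.repr v i ^ 2)) := by
  rw [gau, Complex.norm_exp]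
  congr 1
  rw [Complex.neg_re, Complex.re_ofReal_mul, Complex.re_sum]
  congr 2
  refine Finset.sum_congr rfl fun i _ => ?_
  rw [← Complex.ofReal_pow, Complex.re_mul_ofReal]

theorem exists_pos_le (a : ι → ℝ) (ha : ∀ i, 0 < a i) : ∃ c : ℝ, 0 < c ∧ ∀ i, c ≤ a i := by
  have h0 : ∀ i, 0 ≤ (a i)⁻¹ := fun i => (inv_pos.mpr (ha i)).le
  have h1 : 0 < 1 + ∑ i, (a i)⁻¹ := by
    have := Finset.sum_nonneg (s := Finset.univ) fun i _ => h0 i
    linarith
  refine ⟨(1 + ∑ i, (a i)⁻¹)⁻¹, inv_pos.mpr h1, fun i => ?_⟩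
  rw [inv_le_comm₀ h1 (ha i)]
  have := Finset.single_le_sum (f := fun i => (a i)⁻¹) (fun i _ => h0 i) (Finset.mem_univ i)
  linarith

theorem pow_mul_exp_le {δ : ℝ} (hδ : 0 < δ) (k : ℕ) :
    ∃ C : ℝ, ∀ t : ℝ, 0 ≤ t → Real.exp (-(δ * t ^ 2)) ≤ C * (1 + t) ^ (-(k : ℝ)) := by
  refine ⟨k.factorial * Real.exp (1 + 1 / (4 * δ)), fun t ht => ?_⟩
  have hp : 0 < 1 + t := by positivity
  rw [Real.rpow_neg hp.le, ← div_eq_mul_inv, le_div_iff₀ (by positivity), Real.rpow_natCast]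
  have h1 : (1 + t) ^ k ≤ k.factorial * Real.exp (1 + t) := by
    have := Real.pow_div_factorial_le_exp (1 + t) hp.le k
    rwa [div_le_iff₀ (by positivity), mul_comm] at this
  calc Real.exp (-(δ * t ^ 2)) * (1 + t) ^ k
      ≤ Real.exp (-(δ * t ^ 2)) * (k.factorial * Real.exp (1 + t)) := by gcongr
    _ = k.factorial * Real.exp (-(δ * t ^ 2) + (1 + t)) := by
        rw [Real.exp_add (-(δ * t ^ 2)) (1 + t)]
        ring
    _ ≤ k.factorial * Real.exp (1 + 1 / (4 * δ)) := by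
        refine mul_le_mul_of_nonneg_left (Real.exp_le_exp.mpr ?_) (by positivity)
        have : 0 ≤ (2 * δ * t - 1) ^ 2 / (4 * δ) := by positivity
        have h2 : (2 * δ * t - 1) ^ 2 / (4 * δ) = δ * t ^ 2 - t + 1 / (4 * δ) := by
          field_simp
          ring
        linarith

theorem gau_decay (e : Basis ι ℝ V) {a : ι → ℂ} (ha : ∀ i, 0 < (a i).re) (k : ℕ) :
    ∃ C : ℝ, ∀ v, ‖gau e a v‖ ≤ C * (1 + ‖v‖) ^ (-(k : ℝ)) := by
  obtain ⟨c, hc, hca⟩ := exists_pos_le (fun i => (a i).re) ha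
  set A : ℝ := 1 + ‖((cv e) : (ι → ℝ) →L[ℝ] V)‖ with hA
  have hA0 : 0 < A := by positivity
  obtain ⟨C, hC⟩ := pow_mul_exp_le (δ := π * c / A ^ 2) (by positivity) k
  refine ⟨C, fun v => le_trans ?_ (hC ‖v‖ (norm_nonneg _))⟩
  rw [norm_gau, Real.exp_le_exp, neg_le_neg_iff]
  have h1 : ‖v‖ ≤ A * ‖(cv e).symm v‖ := by
    have := ((cv e) : (ι → ℝ) →L[ℝ] V).le_opNorm ((cv e).symm v)
    rw [ContinuousLinearEquiv.coe_coe, ContinuousLinearEquiv.apply_symm_apply] at this
    nlinarith [norm_nonneg ((cv e).symm v)]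
  have h2 : ‖(cv e).symm v‖ ^ 2 ≤ ∑ i, e.repr v i ^ 2 := by
    have h3 : ‖(cv e).symm v‖ ≤ √(∑ i, e.repr v i ^ 2) := by
      rw [pi_norm_le_iff_of_nonneg (Real.sqrt_nonneg _)]
      intro i
      change ‖e.repr v i‖ ≤ _
      rw [Real.norm_eq_abs, ← Real.sqrt_sq_eq_abs]
      exact Real.sqrt_le_sqrt (Finset.single_le_sum (f := fun i => e.repr v i ^ 2)
        (fun i _ => sq_nonneg _) (Finset.mem_univ i))
    calc ‖(cv e).symm v‖ ^ 2 ≤ √(∑ i, e.repr v i ^ 2) ^ 2 := by gcongr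
      _ = _ := Real.sq_sqrt (Finset.sum_nonneg fun i _ => sq_nonneg _)
  calc π * c / A ^ 2 * ‖v‖ ^ 2 ≤ π * c / A ^ 2 * (A * ‖(cv e).symm v‖) ^ 2 := by gcongr
    _ = π * (c * ‖(cv e).symm v‖ ^ 2) := by field_simp
    _ ≤ π * (c * ∑ i, e.repr v i ^ 2) := by gcongr
    _ ≤ π * ∑ i, (a i).re * e.repr v i ^ 2 := by
        rw [Finset.mul_sum]
        gcongr with i _
        exact hca i

section Fourier

variable [MeasurableSpace V] [BorelSpace V]

/-- The Fourier transform of a Gaussian for a form which is diagonal with entries `±1`. -/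
theorem fB_gau (μ : Measure V) [μ.IsAddHaarMeasure] {B : LinearMap.BilinForm ℝ V}
    (e : Basis ι ℝ V) {ε : ι → ℝ} (hε : ∀ i, ε i ^ 2 = 1)
    (hBe : ∀ w v, B w v = ∑ i, ε i * e.repr w i * e.repr v i)
    {a : ι → ℂ} (ha : ∀ i, 0 < (a i).re) (w : V) :
    fB μ B (gau e a) w = μ.real (parallelepiped e) * (∏ i, ((a i)⁻¹) ^ (1 / 2 : ℂ)) *
      gau e (fun i => (a i)⁻¹) w := by
  have ha0 : ∀ i, a i ≠ 0 := fun i h => by simpa [h] using ha i
  rw [fB, integral_cv μ e]
  have h1 : ∀ x : ι → ℝ, cexp (-(2 * π * I * (B w (cv e x) : ℝ))) * gau e a (cv e x) =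
      cexp (-∑ i, (π * a i) * (x i : ℂ) ^ 2 + ∑ i, (-(2 * π * I * (ε i * e.repr w i : ℝ))) * x i) := by
    intro x
    rw [gau, ← Complex.exp_add, hBe]
    congr 1
    simp only [repr_cv]
    push_cast
    rw [Finset.mul_sum, Finset.mul_sum, ← Finset.sum_neg_distrib, add_comm, ← Finset.sum_neg_distrib]
    congr 1
    · rw [← Finset.sum_neg_distrib]
      refine Finset.sum_congr rfl fun i _ => ?_
      ring
    · refine Finset.sum_congr rfl fun i _ => ?_
      ring
  have hπ : (π : ℂ) ≠ 0 := by exact_mod_cast Real.pi_ne_zero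
  have h4 : ∏ i, ((π : ℂ) / (π * a i)) ^ (1 / 2 : ℂ) = ∏ i, ((a i)⁻¹) ^ (1 / 2 : ℂ) := by
    refine Finset.prod_congr rfl fun i _ => ?_
    congr 1
    field_simp
  have h5 : ∏ i, cexp ((-(2 * π * I * (ε i * e.repr w i : ℝ))) ^ 2 / (4 * (π * a i))) =
      gau e (fun i => (a i)⁻¹) w := by
    rw [gau, ← Complex.exp_sum]
    congr 1
    rw [Finset.mul_sum, ← Finset.sum_neg_distrib]
    refine Finset.sum_congr rfl fun i _ => ?_
    have h2 : ((ε i : ℝ) : ℂ) ^ 2 = 1 := by exact_mod_cast hε i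
    have h3 := ha0 i
    push_cast
    have : (-(2 * (π : ℂ) * I * (↑(ε i) * ↑((e.repr w) i)))) ^ 2 =
        4 * (π : ℂ) ^ 2 * I ^ 2 * ((ε i : ℝ) : ℂ) ^ 2 * (e.repr w i : ℂ) ^ 2 := by ring
    rw [this, h2, Complex.I_sq]
    field_simp
  simp_rw [h1]
  rw [GaussianFourier.integral_cexp_neg_sum_mul_add (fun i => by
    rw [Complex.re_ofReal_mul]
    exact mul_pos Real.pi_pos (ha i)), Finset.prod_mul_distrib, h4, h5, Complex.real_smul, mul_assoc]

/-- `f_a` for the signature `ε` is the Fourier transform of `f_{1/a}`; theta inversion for any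
lattice and any nondegenerate quadratic form. -/
theorem theta_inversion [FiniteDimensional ℝ V] (μ : Measure V) [μ.IsAddHaarMeasure]
    {B : LinearMap.BilinForm ℝ V} (hB : B.Nondegenerate) (e : Basis ι ℝ V) {ε : ι → ℝ}
    (hε : ∀ i, ε i ^ 2 = 1) (hBe : ∀ w v, B w v = ∑ i, ε i * e.repr w i * e.repr v i)
    {a : ι → ℂ} (ha : ∀ i, 0 < (a i).re) (L : Submodule ℤ V) [DiscreteTopology L] [IsZLattice ℝ L]
    (x : V) :
    HasSum (fun m : B.dualSubmodule L => (μ.real (parallelepiped e) / ZLattice.covolume L μ : ℂ) *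
      (∏ i, ((a i)⁻¹) ^ (1 / 2 : ℂ)) * gau e (fun i => (a i)⁻¹) m *
      cexp (2 * π * I * (B m x : ℝ))) (∑' l : L, gau e a (x + l)) := by
  have ha' : ∀ i, 0 < ((a i)⁻¹).re := fun i => by
    rw [Complex.inv_re]
    exact div_pos (ha i) (Complex.normSq_pos.mpr fun h => by simpa [h] using ha i)
  obtain ⟨C, hC⟩ := gau_decay e ha (finrank ℝ V + 1)
  obtain ⟨C', hC'⟩ := gau_decay e ha' (finrank ℝ V + 1)
  have hβ : (finrank ℝ V : ℝ) < ((finrank ℝ V + 1 : ℕ) : ℝ) := by push_cast; linarith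
  have hs : Summable fun m : B.dualSubmodule L => fB μ B (gau e a) m := by
    simp_rw [fB_gau μ e hε hBe ha]
    have := summable_dual_of_decay hB L hβ hC' 0
    simp only [zero_add] at this
    exact this.mul_left _
  have h := hasSum_poisson_lattice_of_decay μ hB L (continuous_gau e a) hβ hC hs x
  simp_rw [fB_gau μ e hε hBe ha] at h
  convert h using 1
  ext m
  ring

end Fourier

/-! ### Weights -/

/-- `R × L₀ → L` -/
def repMap {W : Type*} [AddCommGroup W] {L L₀ : Submodule ℤ W} (h : L₀ ≤ L)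
    {R : Finset W} (hRL : ∀ r ∈ R, r ∈ L) (p : R × L₀) : L :=
  ⟨(p.1 : W) + (p.2 : W), add_mem (hRL _ p.1.2) (h p.2.2)⟩

theorem repMap_bijective {W : Type*} [AddCommGroup W] {L L₀ : Submodule ℤ W} (h : L₀ ≤ L)
    {R : Finset W} (hRL : ∀ r ∈ R, r ∈ L) (hR : ∀ l ∈ L, ∃! r, r ∈ R ∧ l - r ∈ L₀) :
    Function.Bijective (repMap h hRL) := by
  constructor
  · rintro ⟨r, l⟩ ⟨r', l'⟩ he
    have he' : (r : W) + l = r' + l' := congrArg Subtype.val he
    have hu := (hR (r + l) (add_mem (hRL r r.2) (h l.2))).unique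
      (y₁ := r) (y₂ := r') ⟨r.2, by simp⟩ ⟨r'.2, by rw [he']; simp⟩
    have h1 : r = r' := Subtype.ext hu
    have h2 : l = l' := by
      refine Subtype.ext ?_
      rw [hu] at he'
      exact add_left_cancel he'
    rw [h1, h2]
  · intro l
    obtain ⟨r, ⟨hr, hlr⟩, -⟩ := hR l l.2
    exact ⟨⟨⟨r, hr⟩, ⟨l - r, hlr⟩⟩, Subtype.ext (add_sub_cancel r (l : W))⟩

theorem tsum_eq_sum_reps {W : Type*} [AddCommGroup W] {L L₀ : Submodule ℤ W} (h : L₀ ≤ L)
    {R : Finset W} (hRL : ∀ r ∈ R, r ∈ L)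
    (hR : ∀ l ∈ L, ∃! r, r ∈ R ∧ l - r ∈ L₀) {g : W → ℂ} (hg : Summable fun l : L => g l) :
    ∑' l : L, g l = ∑ r ∈ R, ∑' l : L₀, g (r + l) := by
  have h2 : Summable fun p : R × L₀ => g ((p.1 : W) + (p.2 : W)) :=
    hg.comp_injective (repMap_bijective h hRL hR).1
  have h1 : ∑' p : R × L₀, g ((p.1 : W) + (p.2 : W)) = ∑' l : L, g l :=
    (Equiv.ofBijective (repMap h hRL) (repMap_bijective h hRL hR)).tsum_eq (fun l : L => g l)
  rw [← h1, h2.tsum_prod, tsum_fintype]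
  exact Finset.sum_coe_sort R (fun r => ∑' l : L₀, g (r + l))

section Weight

variable [FiniteDimensional ℝ V]

/-- representatives of `L / L₀` -/
theorem exists_reps {L L₀ : Submodule ℤ V} [DiscreteTopology L] [IsZLattice ℝ L]
    [DiscreteTopology L₀] [IsZLattice ℝ L₀] (h : L₀ ≤ L) :
    ∃ R : Finset V, (∀ r ∈ R, r ∈ L) ∧ ∀ l ∈ L, ∃! r, r ∈ R ∧ l - r ∈ L₀ := by
  classical
  have : Module.Free ℤ L := ZLattice.module_free ℝ L
  have : Module.Finite ℤ L := ZLattice.module_finite ℝ L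
  have hfin : Finite (L ⧸ L₀.submoduleOf L) := by
    refine Submodule.finiteQuotientOfFreeOfRankEq _ ?_
    rw [(Submodule.submoduleOfEquivOfLe h).finrank_eq, ZLattice.rank ℝ L, ZLattice.rank ℝ L₀]
  have : Fintype (L ⧸ L₀.submoduleOf L) := Fintype.ofFinite _
  have key : ∀ x y : L, (Submodule.Quotient.mk x : L ⧸ L₀.submoduleOf L) =
      Submodule.Quotient.mk y ↔ (x : V) - y ∈ L₀ := by
    intro x y
    rw [Submodule.Quotient.eq]
    rfl
  refine ⟨Finset.univ.image fun q : L ⧸ L₀.submoduleOf L => (q.out : V), ?_, ?_⟩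
  · intro r hr
    obtain ⟨q, -, rfl⟩ := Finset.mem_image.mp hr
    exact q.out.2
  · intro l hl
    refine ⟨((Submodule.Quotient.mk ⟨l, hl⟩ : L ⧸ L₀.submoduleOf L).out : V),
      ⟨Finset.mem_image.mpr ⟨_, Finset.mem_univ _, rfl⟩, ?_⟩, ?_⟩
    · rw [← key ⟨l, hl⟩]
      exact (Quotient.out_eq' _).symm
    · rintro r ⟨hr, hlr⟩
      obtain ⟨q, -, rfl⟩ := Finset.mem_image.mp hr
      have h1 := (key ⟨l, hl⟩ q.out).mpr hlr
      have h2 : (Submodule.Quotient.mk q.out : L ⧸ L₀.submoduleOf L) = q := Quotient.out_eq' q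
      rw [h1, h2]

variable [MeasurableSpace V] [BorelSpace V]

/-- **Poisson summation with a weight** `c` which is periodic modulo `L₀`. -/
theorem hasSum_poisson_weight (μ : Measure V) [μ.IsAddHaarMeasure]
    {B : LinearMap.BilinForm ℝ V} (hB : B.Nondegenerate) {L L₀ : Submodule ℤ V}
    [DiscreteTopology L] [IsZLattice ℝ L] [DiscreteTopology L₀] [IsZLattice ℝ L₀] (h : L₀ ≤ L)
    {R : Finset V} (hRL : ∀ r ∈ R, r ∈ L) (hR : ∀ l ∈ L, ∃! r, r ∈ R ∧ l - r ∈ L₀)
    {c : V → ℂ} (hc : ∀ l ∈ L, ∀ l₀ ∈ L₀, c (l + l₀) = c l)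
    {f : V → ℂ} (hf0 : Continuous f) {β C : ℝ} (hβ : (finrank ℝ V : ℝ) < β)
    (hf : ∀ v, ‖f v‖ ≤ C * (1 + ‖v‖) ^ (-β))
    (hs : Summable fun m : B.dualSubmodule L₀ => fB μ B f m) (x : V) :
    HasSum (fun m : B.dualSubmodule L₀ => (ZLattice.covolume L₀ μ : ℂ)⁻¹ *
      (∑ r ∈ R, c r * cexp (2 * π * I * (B m r : ℝ))) * fB μ B f m *
        cexp (2 * π * I * (B m x : ℝ))) (∑' l : L, c l * f (x + l)) := by
  have hcb : ∀ l ∈ L, ‖c l‖ ≤ ∑ r ∈ R, ‖c r‖ := by
    intro l hl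
    obtain ⟨r, ⟨hr, hlr⟩, -⟩ := hR l hl
    have : c l = c r := by
      have := hc r (hRL r hr) (l - r) hlr
      rwa [add_sub_cancel] at this
    rw [this]
    exact Finset.single_le_sum (f := fun r => ‖c r‖) (fun _ _ => norm_nonneg _) hr
  have hg : Summable fun l : L => c l * f (x + l) := by
    have h1 := (summable_lattice_of_decay L hβ hf x).norm.mul_left (∑ r ∈ R, ‖c r‖)
    refine Summable.of_norm_bounded h1 fun l => ?_
    rw [norm_mul]
    exact mul_le_mul_of_nonneg_right (hcb l l.2) (norm_nonneg _)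
  rw [tsum_eq_sum_reps h hRL hR (g := fun l => c l * f (x + l)) hg]
  have h2 : ∀ r ∈ R, ∑' l : L₀, c (r + l) * f (x + (r + l)) =
      c r * ∑' l : L₀, f ((x + r) + l) := by
    intro r hr
    rw [← tsum_mul_left]
    refine tsum_congr fun l => ?_
    rw [hc r (hRL r hr) l l.2, add_assoc]
  rw [Finset.sum_congr rfl h2]
  have h3 := hasSum_sum (s := R) (fun r _ =>
    (hasSum_poisson_lattice_of_decay μ hB L₀ hf0 hβ hf hs (x + r)).mul_left (c r))
  refine (congrArg (fun F => HasSum F _) (funext fun m => ?_)).mpr h3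
  rw [Finset.mul_sum, Finset.sum_mul, Finset.sum_mul]
  refine Finset.sum_congr rfl fun r _ => ?_
  rw [map_add]
  push_cast
  rw [mul_add (2 * π * I), Complex.exp_add]
  ring

end Weight

end Fermat.Agent.LT.Poisson
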