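import Fermat.Agent.LT.DegOne
import Fermat.Agent.LT.Ray

/-!
# A ray character which vanishes on the places of degree one vanishes
-/

set_option autoImplicit false

namespace Fermat.Agent.LT.NV

open IsDedekindDomain NumberField WithZero
open Fermat.Agent.CFT.SUnits Fermat.Agent.CFT.Global

variable {F : Type*} [Field F] [NumberField F]

/-- a prime dividing the norm of `w` lies in `w` -/
theorem natCast_mem_of_dvd_absNorm (w : HeightOneSpectrum (𝓞 F)) {q : ℕ} (hq : q.Prime)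
    (h : q ∣ Ideal.absNorm w.asIdeal) : (q : 𝓞 F) ∈ w.asIdeal := by
  classical
  have hmax : w.asIdeal.IsMaximal := w.isMaximal
  have hfin : Finite (𝓞 F ⧸ w.asIdeal) := Ideal.finiteQuotientOfFreeOfNeBot _ w.ne_bot
  rw [Ideal.absNorm_apply, Submodule.cardQuot_apply] at h
  have := Fact.mk hq
  have := Fintype.ofFinite (𝓞 F ⧸ w.asIdeal)
  rw [Nat.card_eq_fintype_card] at h
  obtain ⟨x, hx⟩ := exists_prime_addOrderOf_dvd_card q h
  have hx0 : x ≠ 0 := by
    rintro rfl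
    rw [addOrderOf_zero] at hx
    exact hq.one_lt.ne hx
  have h1 : (q : 𝓞 F ⧸ w.asIdeal) * x = 0 := by
    rw [← nsmul_eq_mul, ← hx]
    exact addOrderOf_nsmul_eq_zero x
  have h2 : ((q : ℕ) : 𝓞 F ⧸ w.asIdeal) = 0 := by
    rcases mul_eq_zero.mp h1 with h | h
    · exact h
    · exact absurd h hx0
  rw [← Ideal.Quotient.eq_zero_iff_mem, map_natCast]
  exact h2

theorem coprime_absNorm {N : ℕ} (w : HeightOneSpectrum (𝓞 F)) (hw : (N : 𝓞 F) ∉ w.asIdeal) :
    (Ideal.absNorm w.asIdeal).Coprime N := by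
  rw [Nat.coprime_iff_gcd_eq_one]
  by_contra hcon
  obtain ⟨q, hq, hd⟩ := Nat.exists_prime_and_dvd hcon
  have h1 := natCast_mem_of_dvd_absNorm w hq (hd.trans (Nat.gcd_dvd_left _ _))
  obtain ⟨c, hc⟩ := hd.trans (Nat.gcd_dvd_right (Ideal.absNorm w.asIdeal) N)
  apply hw
  rw [hc]
  push_cast
  exact w.asIdeal.mul_mem_right _ h1

/-- a multiple of a large power of `N` is small at the places dividing `N` -/
theorem mem_cong_of_dvd {N n : ℕ} {v : HeightOneSpectrum (𝓞 F)} (hv : (N : 𝓞 F) ∈ v.asIdeal)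
    {α : 𝓞 F} (hα : (N : 𝓞 F) ^ (n + 1) ∣ α - 1) {u : Fˣ} (hu : (u : F) = α) :
    u ∈ cong v n := by
  rw [mem_cong, hu]
  have h1 : α - 1 ∈ v.asIdeal ^ (n + 1) := by
    obtain ⟨c, hc⟩ := hα
    rw [hc]
    exact Ideal.mul_mem_right _ _ (Ideal.pow_mem_pow hv _)
  have h2 := (v.intValuation_le_pow_iff_mem (α - 1) (n + 1)).mpr h1
  have h3 : v.valuation F (algebraMap (𝓞 F) F (α - 1)) = v.intValuation (α - 1) :=
    v.valuation_of_algebraMap _
  rw [show ((α : F) - 1) = algebraMap (𝓞 F) F (α - 1) by simp, h3]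
  exact_mod_cast h2

/-- every place prime to `N` is equivalent, modulo a ray, to a product of places of degree one,
which avoid a given finite set. -/
theorem exists_elem_degOne {N : ℕ} (hN : N ≠ 0) (h2 : 2 ∣ N)
    (hd : ∀ p : ℕ, p.Prime → p ≤ Module.finrank ℚ F → p ∣ N) (w : HeightOneSpectrum (𝓞 F))
    (hw : (N : 𝓞 F) ∉ w.asIdeal) (n k : ℕ) (hk : k ≠ 0) :
    ∃ α : Fˣ, (∀ v : HeightOneSpectrum (𝓞 F), (N : 𝓞 F) ∈ v.asIdeal → α ∈ cong v n) ∧
      ord w α = 1 ∧ ∀ v : HeightOneSpectrum (𝓞 F), v ≠ w → ord v α ≠ 0 →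
        0 < ord v α ∧ (Ideal.absNorm v.asIdeal).Prime ∧ (k : 𝓞 F) ∉ v.asIdeal ∧
          (N : 𝓞 F) ∉ v.asIdeal := by
  classical
  set b := Ideal.absNorm w.asIdeal with hb
  set k₁ : ℕ := ∏ q ∈ k.primeFactors.filter (fun q => ¬ q ∣ b), q with hk₁
  have hk₁0 : k₁ ≠ 0 := Finset.prod_ne_zero_iff.mpr fun q hq =>
    (Nat.prime_of_mem_primeFactors (Finset.mem_filter.mp hq).1).ne_zero
  set m : ℕ := N ^ (n + 1) * k₁ with hm
  have hm0 : m ≠ 0 := mul_ne_zero (pow_ne_zero _ hN) hk₁0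
  have hcop : b.Coprime m := by
    refine Nat.Coprime.mul_right ((coprime_absNorm w hw).pow_right _) ?_
    refine Nat.Coprime.prod_right fun q hq => ?_
    obtain ⟨h1, h3⟩ := Finset.mem_filter.mp hq
    exact ((Nat.Prime.coprime_iff_not_dvd (Nat.prime_of_mem_primeFactors h1)).mpr h3).symm
  have hNm : N ∣ m := (dvd_pow_self N n.succ_ne_zero).mul_right _
  obtain ⟨α, 𝔠, hα0, hα1, hα𝔠, hq⟩ := DegOne.exists_degOne m hm0 (h2.trans hNm)
    (fun p hp hle => (hd p hp hle).trans hNm) w.asIdeal w.ne_bot hcop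
  have hαF : (α : F) ≠ 0 := by
    simpa using hα0
  have hb𝔠 : ¬ 𝔠 ≤ w.asIdeal := fun h => (hq _ w.isPrime h).2.1 (Ideal.absNorm_mem w.asIdeal)
  have hval : ∀ v : HeightOneSpectrum (𝓞 F), v.valuation F (α : F) = v.intValuation α :=
    fun v => v.valuation_of_algebraMap α
  refine ⟨Units.mk0 (α : F) hαF, fun v hv => ?_, ?_, fun v hvw hv => ?_⟩
  · refine mem_cong_of_dvd hv (α := α) ?_ rfl
    refine Dvd.dvd.trans ?_ hα1
    rw [hm]
    push_cast
    exact Dvd.intro _ rfl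
  · have h1 : α ∈ w.asIdeal ^ 1 := by
      rw [pow_one]
      have h3 : Ideal.span {α} ≤ w.asIdeal := by rw [hα𝔠]; exact Ideal.mul_le_left
      exact h3 (Ideal.mem_span_singleton_self α)
    have h4 : α ∉ w.asIdeal ^ 2 := by
      intro h
      have h3 : w.asIdeal * 𝔠 ≤ w.asIdeal * w.asIdeal := by
        rw [← hα𝔠, ← pow_two]
        exact (Ideal.span_singleton_le_iff_mem _).mpr h
      apply hb𝔠
      rw [← Ideal.dvd_iff_le] at h3 ⊢
      exact (mul_dvd_mul_iff_left w.ne_bot).mp h3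
    have e1 := (w.intValuation_le_pow_iff_mem α 1).mpr h1
    have e2 : ¬ w.intValuation α ≤ exp (-((2 : ℕ) : ℤ)) := fun h =>
      h4 ((w.intValuation_le_pow_iff_mem α 2).mp h)
    have e3 := valuation_eq_exp_neg_ord (K := F) w (Units.mk0 (α : F) hαF)
    rw [Units.val_mk0, hval] at e3
    rw [e3] at e1 e2
    rw [exp_le_exp] at e1 e2
    push_cast at e1 e2
    omega
  · have hnn : 0 ≤ ord v (Units.mk0 (α : F) hαF) := by
      rw [ord_nonneg_iff, Units.val_mk0, hval]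
      exact v.intValuation_le_one α
    have hαv : α ∈ v.asIdeal := by
      by_contra hcon
      apply hv
      rw [ord_eq_zero_iff, Units.val_mk0, hval]
      by_contra h1
      have h3 := (v.intValuation_le_one α).lt_of_ne h1
      exact hcon ((v.intValuation_lt_one_iff_mem α).mp h3)
    have hle : w.asIdeal * 𝔠 ≤ v.asIdeal := by
      rw [← hα𝔠]
      exact (Ideal.span_singleton_le_iff_mem _).mpr hαv
    rcases v.isPrime.mul_le.mp hle with h | h
    · exfalso
      apply hvw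
      apply HeightOneSpectrum.ext
      exact (w.isMaximal.eq_of_le v.isPrime.ne_top h).symm
    · obtain ⟨h3, h4, h5⟩ := hq _ v.isPrime h
      have h6 : ∀ c : ℕ, c ∣ m → (c : 𝓞 F) ∉ v.asIdeal := by
        rintro c ⟨d, hd⟩ hc
        apply h5
        rw [hd]
        push_cast
        exact v.asIdeal.mul_mem_right _ hc
      refine ⟨lt_of_le_of_ne hnn (Ne.symm hv), h3, fun hkv => ?_, h6 N hNm⟩
      have hprod : (k : 𝓞 F) = ((k.primeFactorsList.prod : ℕ) : 𝓞 F) := by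
        rw [Nat.prod_primeFactorsList hk]
      rw [hprod] at hkv
      push_cast at hkv
      obtain ⟨x, hx, hxv⟩ := (Ideal.IsPrime.multiset_prod_mem_iff_exists_mem v.isPrime
        ((k.primeFactorsList.map (Nat.cast : ℕ → 𝓞 F) : List (𝓞 F)) : Multiset (𝓞 F))).mp
          (by simpa using hkv)
      rw [Multiset.mem_coe, List.mem_map] at hx
      obtain ⟨q, hq1, rfl⟩ := hx
      by_cases hqb : q ∣ b
      · obtain ⟨c, hc⟩ := hqb
        apply h4
        rw [← hb, hc]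
        push_cast
        exact v.asIdeal.mul_mem_right _ hxv
      · refine h6 q ?_ hxv
        refine Dvd.dvd.mul_left ?_ _
        exact Finset.dvd_prod_of_mem (fun q : ℕ => q) (Finset.mem_filter.mpr
          ⟨List.mem_toFinset.mpr hq1, hqb⟩)

variable {A : Type*} [AddCommGroup A]

/-- **A ray character which vanishes on almost all places of degree one vanishes.** -/
theorem _root_.Fermat.Agent.LT.IsRay.eq_zero_of_degOne {N : ℕ} (hN : N ≠ 0) (h2 : 2 ∣ N)
    (hd : ∀ p : ℕ, p.Prime → p ≤ Module.finrank ℚ F → p ∣ N)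
    {S : Finset (HeightOneSpectrum (𝓞 F))} (hS : ∀ v, v ∈ S ↔ (N : 𝓞 F) ∈ v.asIdeal) {n : ℕ}
    {η : HeightOneSpectrum (𝓞 F) → A} (hη : IsRay S n η) {k : ℕ} (hk : k ≠ 0)
    (h : ∀ v ∉ S, (Ideal.absNorm v.asIdeal).Prime → (k : 𝓞 F) ∉ v.asIdeal → η v = 0)
    {w : HeightOneSpectrum (𝓞 F)} (hw : w ∉ S) : η w = 0 := by
  classical
  obtain ⟨α, hα, hwα, hv⟩ := exists_elem_degOne hN h2 hd w (fun h' => hw ((hS w).mpr h')) n k hk
  have h1 : (rayVal S η α).toAdd = 0 :=
    toAdd_eq_zero.mpr (hη α fun v hv => hα v ((hS v).mp hv))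
  rw [toAdd_rayVal_eq_sum S {w} η α, Finset.sum_singleton, if_neg hw, hwα, one_smul] at h1
  · exact h1
  · intro v hvw hvS
    rw [Finset.mem_singleton] at hvw
    by_cases h0 : ord v α = 0
    · rw [h0, zero_smul]
    · obtain ⟨-, h3, h4, -⟩ := hv v hvw h0
      rw [h v hvS h3 h4, smul_zero]

end Fermat.Agent.LT.NV
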