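import Fermat.Agent.LT.CT
import Fermat.Agent.LT.Level.IsLevel
import Fermat.Agent.LT.H3.Spherical
import Fermat.Agent.LT.Theta11.SRings

/-!
# Automorphic forms on `X_∞ × D U` and on `X_∞ × GL₂(F)`: the objects at the junctions

* `Nbr U v d d'`, `IsForm F U S a f`: a cuspidal eigenform `f` on `X_∞ × D U` (`D U = G(𝔸_f)/U`),
  spherical outside `S`, with `T_v`-eigenvalue `√(Nv) a_v` for `v ∉ S` and `ν = 0` at every
  infinite place (output of (A) over `L`, of the descent over `K`);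
* `IsFormA F N m x Φ`: the theta lift of block B11, on `X_∞ × GL₂(F)`.
-/

set_option autoImplicit false

open Matrix NumberField MeasureTheory IsDedekindDomain WithZero
open scoped WithZero

noncomputable section

namespace Fermat.Agent.LT

open H3 Lvl

open Classical in
/-- Replace the coordinate at the infinite place `w`. -/
def Xi.upd {F : Type*} [Field F] (x : Xi F) (w : InfinitePlace F) (Q : H3) : Xi F :=
  fun w' => if w' = w then Q else x w'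

variable (F : Type*) [Field F] [NumberField F]

variable {F} in
/-- `d'` is a neighbour of `d` in the tree at `v`. -/
def Nbr (U : Lev F) (v : HeightOneSpectrum (𝓞 F)) (d d' : D U) : Prop :=
  (∀ w, w ≠ v → d' w = d w) ∧
    ∃ g h : GL (Fin 2) (v.adicCompletion F),
      (∃ ϖ : v.adicCompletion F, Valued.v ϖ = exp (-1 : ℤ) ∧
        (h : Matrix (Fin 2) (Fin 2) (v.adicCompletion F)) = !![ϖ, 0; 0, 1]) ∧
      d v = Cos.mk (U.U v) g ∧ d' v = Cos.mk (U.U v) (g * h)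

/-- A cuspidal eigenform on `X_∞ × D U`, spherical outside `S`, with `T_v`-eigenvalues
`√(Nv) a_v` and `ν = 0`. -/
structure IsForm [IsTotallyComplex F] (U : Lev F) (S : Set (HeightOneSpectrum (𝓞 F)))
    (a : HeightOneSpectrum (𝓞 F) → ℝ) (f : Xi F × D U → ℂ) : Prop where
  fin : S.Finite
  lev : ∀ v, v ∉ S → U.U v = GLO (Valued.v : Valuation (v.adicCompletion F) ℤᵐ⁰)
  cont : ∀ d, Continuous fun x => f (x, d)
  inv : ∀ (g : GL (Fin 2) F) (z : Xi F × D U), f (g • z) = f z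
  bdd : ∃ B : ℝ, ∀ z, ‖f z‖ ≤ B
  cusp : IsCusp f
  hecke : ∀ v, v ∉ S → ∀ z : Xi F × D U, ∑ᶠ (d' : D U) (_ : Nbr U v z.2 d'), f (z.1, d') =
    ((√(Ideal.absNorm v.asIdeal) * a v : ℝ) : ℂ) * f z
  radial : ∀ (w : InfinitePlace F) (k : ℝ → ℂ), IsKer k → ∀ z : Xi F × D U,
    ∫ Q : H3, k (cu (z.1 w) Q) * f (z.1.upd w Q, z.2) = sph 0 k * f z
  ne : ∃ z, f z ≠ 0

/-- `IsForm` without boundedness and cuspidality, but with moderate growth: the output of the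
strong approximation step on an `IsFormA`. -/
structure IsForm0 [IsTotallyComplex F] (U : Lev F) (S : Set (HeightOneSpectrum (𝓞 F)))
    (a : HeightOneSpectrum (𝓞 F) → ℝ) (f : Xi F × D U → ℂ) : Prop where
  fin : S.Finite
  lev : ∀ v, v ∉ S → U.U v = GLO (Valued.v : Valuation (v.adicCompletion F) ℤᵐ⁰)
  cont : ∀ d, Continuous fun x => f (x, d)
  inv : ∀ (g : GL (Fin 2) F) (z : Xi F × D U), f (g • z) = f z
  growth : ∀ d, ∃ (C : ℝ) (A : ℕ), ∀ x, ‖f (x, d)‖ ≤ C * ∏ w, cu (x w) j ^ A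
  hecke : ∀ v, v ∉ S → ∀ z : Xi F × D U, ∑ᶠ (d' : D U) (_ : Nbr U v z.2 d'), f (z.1, d') =
    ((√(Ideal.absNorm v.asIdeal) * a v : ℝ) : ℂ) * f z
  radial : ∀ (w : InfinitePlace F) (k : ℝ → ℂ), IsKer k → ∀ z : Xi F × D U,
    ∫ Q : H3, k (cu (z.1 w) Q) * f (z.1.upd w Q, z.2) = sph 0 k * f z
  ne : ∃ z, f z ≠ 0

variable {F} in
/-- `IsForm` = `IsForm0` + bounded + cuspidal. -/
theorem IsForm0.isForm [IsTotallyComplex F] {U : Lev F} {S : Set (HeightOneSpectrum (𝓞 F))}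
    {a : HeightOneSpectrum (𝓞 F) → ℝ} {f : Xi F × D U → ℂ} (h : IsForm0 F U S a f)
    (hb : ∃ B : ℝ, ∀ z, ‖f z‖ ≤ B) (hc : IsCusp f) : IsForm F U S a f :=
  ⟨h.fin, h.lev, h.cont, h.inv, hb, hc, h.hecke, h.radial, h.ne⟩

/-- Representatives of `π R` in `R`. -/
def IsReps {F : Type*} [Field F] (R : Subring F) (π : F) (B : Finset F) : Prop :=
  (∀ b ∈ B, b ∈ R) ∧ (∀ x ∈ R, ∃! b, b ∈ B ∧ ∃ t ∈ R, x - b = π * t)

/-- The form of block B11: a function on `X_∞ × GL₂(F)`; `R = 𝓞 F [1/N]`, `A` = the elements of `F`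
integral at `N`. Neither cuspidality nor boundedness is part of it. -/
structure IsFormA (N m : ℕ) (x : HeightOneSpectrum (𝓞 F) → ℝ)
    (Φ : Xi F → GL (Fin 2) F → ℂ) : Prop where
  N_ne : N ≠ 0
  left : ∀ γ : GL (Fin 2) F, (∀ i j, γ i j ∈ SAd.RS F N) → (∀ i j, γ⁻¹ i j ∈ SAd.RS F N) →
    ∀ P g, Φ (γ • P) (γ * g) = Φ P g
  right : ∀ κ : GL (Fin 2) F,
    (∀ i j, ∃ t ∈ SAd.AS F N, κ i j - (1 : Matrix (Fin 2) (Fin 2) F) i j = (N : F) ^ m * t) →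
    (∀ i j, ∃ t ∈ SAd.AS F N, κ⁻¹ i j - (1 : Matrix (Fin 2) (Fin 2) F) i j = (N : F) ^ m * t) →
    ∀ P g, Φ P (g * κ) = Φ P g
  center : ∀ (z : Fˣ) P g, Φ P (GeneralLinearGroup.scalar (Fin 2) z * g) = Φ P g
  cont : ∀ g, Continuous fun P => Φ P g
  growth : ∀ g, ∃ (C : ℝ) (A : ℕ), ∀ P, ‖Φ P g‖ ≤ C * ∏ w, cu (P w) j ^ A
  hecke : ∀ v : HeightOneSpectrum (𝓞 F), (N : 𝓞 F) ∉ v.asIdeal →
    ∀ (π : F) (hπ : π ≠ 0), (∀ t ∈ SAd.RS F N, (∃ t' ∈ SAd.RS F N, t = π * t') ↔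
        v.valuation F t < 1) → π ∈ SAd.RS F N →
    ∀ B : Finset F, IsReps (SAd.RS F N) π B → ∀ P g,
      (∑ b ∈ B, Φ (GeneralLinearGroup.mkOfDetNeZero !![1, b; 0, π] (by simpa using hπ) • P)
        (GeneralLinearGroup.mkOfDetNeZero !![1, b; 0, π] (by simpa using hπ) * g)) +
      Φ (GeneralLinearGroup.mkOfDetNeZero !![π, 0; 0, 1] (by simpa using hπ) • P)
        (GeneralLinearGroup.mkOfDetNeZero !![π, 0; 0, 1] (by simpa using hπ) * g) =
      ((√(Ideal.absNorm v.asIdeal) * x v : ℝ) : ℂ) * Φ P g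
  radial : ∀ (w : InfinitePlace F) (k : ℝ → ℂ), IsKer k → ∀ P g,
    ∫ Q : H3, k (cu (P w) Q) * Φ (P.upd w Q) g = sph 0 k * Φ P g
  ne : ∃ P g, Φ P g ≠ 0

end Fermat.Agent.LT

end
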