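import Fermat.Agent.LT.CompExt

/-!
# The integers of a completion: adically complete, Henselian
-/

set_option autoImplicit false

open IsDedekindDomain NumberField IsLocalRing
open scoped WithZero Topology

namespace Fermat.Agent.LT.Ext

section AdicInt

variable {R K : Type*} [CommRing R] [IsDedekindDomain R] [Field K] [Algebra R K]
  [IsFractionRing R K] (v : HeightOneSpectrum R)

variable (K) in
theorem exists_uniformizer : ∃ ϖ : v.adicCompletionIntegers K,
    Valued.v (ϖ : v.adicCompletion K) = WithZero.exp (-1 : ℤ) := by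
  obtain ⟨x, hx⟩ := surjective_v' (v := v) (K := K) (WithZero.exp (-1 : ℤ))
  refine ⟨⟨x, ?_⟩, hx⟩
  rw [HeightOneSpectrum.mem_adicCompletionIntegers, hx, ← WithZero.exp_zero, WithZero.exp_le_exp]
  omega

variable {v}

theorem mem_maximalIdeal (x : v.adicCompletionIntegers K) :
    x ∈ maximalIdeal (v.adicCompletionIntegers K) ↔
      Valued.v (x : v.adicCompletion K) < 1 := by
  rw [IsLocalRing.mem_maximalIdeal, mem_nonunits_iff,
    HeightOneSpectrum.adicCompletionIntegers.isUnit_iff_valued_eq_one]
  exact ⟨fun h => lt_of_le_of_ne x.2 h, fun h => h.ne⟩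

theorem dvd_iff {x y : v.adicCompletionIntegers K} :
    x ∣ y ↔ Valued.v (y : v.adicCompletion K) ≤ Valued.v (x : v.adicCompletion K) := by
  constructor
  · rintro ⟨z, rfl⟩
    rw [show ((x * z : v.adicCompletionIntegers K) : v.adicCompletion K) = x * z from rfl, map_mul]
    exact mul_le_of_le_one_right zero_le z.2
  · intro h
    rcases eq_or_ne (x : v.adicCompletion K) 0 with hx | hx
    · rw [hx, map_zero, le_zero_iff, Valuation.zero_iff] at h
      rw [show x = 0 from Subtype.ext hx, show y = 0 from Subtype.ext h]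
    · refine ⟨⟨y / x, ?_⟩, Subtype.ext ?_⟩
      · rw [HeightOneSpectrum.mem_adicCompletionIntegers, map_div₀]
        exact (div_le_one₀ (zero_lt_iff.mpr ((Valuation.ne_zero_iff _).mpr hx))).mpr h
      · change (y : v.adicCompletion K) = x * (y / x)
        field_simp

theorem maximalIdeal_eq_span {ϖ : v.adicCompletionIntegers K}
    (hϖ : Valued.v (ϖ : v.adicCompletion K) = WithZero.exp (-1 : ℤ)) :
    maximalIdeal (v.adicCompletionIntegers K) = Ideal.span {ϖ} := by
  ext x
  rw [mem_maximalIdeal, Ideal.mem_span_singleton, dvd_iff, hϖ]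
  rcases eq_or_ne (Valued.v (x : v.adicCompletion K)) 0 with h | h
  · rw [h]
    simp
  · rw [← WithZero.exp_log h, ← WithZero.exp_zero, WithZero.exp_lt_exp, WithZero.exp_le_exp]
    omega

theorem mem_maximalIdeal_pow (n : ℕ) (x : v.adicCompletionIntegers K) :
    x ∈ maximalIdeal (v.adicCompletionIntegers K) ^ n ↔
      Valued.v (x : v.adicCompletion K) ≤ WithZero.exp (-(n : ℤ)) := by
  obtain ⟨ϖ, hϖ⟩ := exists_uniformizer K v
  rw [maximalIdeal_eq_span hϖ, Ideal.span_singleton_pow, Ideal.mem_span_singleton, dvd_iff,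
    show ((ϖ ^ n : v.adicCompletionIntegers K) : v.adicCompletion K) = ϖ ^ n from rfl, map_pow, hϖ,
    ← WithZero.exp_nsmul]
  simp

theorem exists_exp_le {γ : ℤᵐ⁰} (hγ : γ ≠ 0) : ∃ n : ℕ, WithZero.exp (-(n : ℤ)) < γ := by
  refine ⟨(-(WithZero.log γ) + 1).toNat, ?_⟩
  conv_rhs => rw [← WithZero.exp_log hγ]
  rw [WithZero.exp_lt_exp]
  have := Int.self_le_toNat (-(WithZero.log γ) + 1)
  omega

instance isTopologicalRing_integers : IsTopologicalRing (v.adicCompletionIntegers K) :=
  inferInstanceAs (IsTopologicalRing (v.adicCompletionIntegers K).toSubring)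

instance isUniformAddGroup_integers : IsUniformAddGroup (v.adicCompletionIntegers K) :=
  inferInstanceAs (IsUniformAddGroup (v.adicCompletionIntegers K).toSubring.toAddSubgroup)

theorem isAdic_maximalIdeal : IsAdic (maximalIdeal (v.adicCompletionIntegers K)) := by
  rw [isAdic_iff]
  constructor
  · intro n
    rw [isOpen_iff_mem_nhds]
    intro x hx
    rw [nhds_subtype_eq_comap, Filter.mem_comap]
    refine ⟨_, mem_nhds_adic.mpr ⟨WithZero.exp (-(n : ℤ)), WithZero.exp_ne_zero, subset_rfl⟩,
      fun y hy => ?_⟩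
    have h1 : y - x ∈ maximalIdeal (v.adicCompletionIntegers K) ^ n := by
      rw [mem_maximalIdeal_pow]
      exact le_of_lt hy
    have := Ideal.add_mem _ h1 hx
    rwa [sub_add_cancel] at this
  · intro s hs
    rw [nhds_subtype_eq_comap, Filter.mem_comap] at hs
    obtain ⟨t, ht, hts⟩ := hs
    obtain ⟨γ, hγ, h⟩ := mem_nhds_adic.mp ht
    obtain ⟨n, hn⟩ := exists_exp_le hγ
    refine ⟨n, fun x hx => hts (h ?_)⟩
    rw [Set.mem_ofPred_eq]
    have := (mem_maximalIdeal_pow n x).mp hx
    change Valued.v ((x : v.adicCompletion K) - 0) < γ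
    rw [sub_zero]
    exact this.trans_lt hn

instance completeSpace_integers : CompleteSpace (v.adicCompletionIntegers K) :=
  (Valued.isClosed_integer (v.adicCompletion K)).completeSpace_coe

instance isAdicComplete_maximalIdeal : IsAdicComplete (maximalIdeal (v.adicCompletionIntegers K))
    (v.adicCompletionIntegers K) :=
  isAdic_maximalIdeal.isAdicComplete_iff.mpr ⟨inferInstance, inferInstance⟩

instance henselianLocalRing : HenselianLocalRing (v.adicCompletionIntegers K) where
  is_henselian f hf a₀ h₁ h₂ :=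
    (inferInstance : HenselianRing (v.adicCompletionIntegers K)
      (maximalIdeal (v.adicCompletionIntegers K))).is_henselian f hf a₀ h₁
      (h₂.map (Ideal.Quotient.mk _))

end AdicInt

end Fermat.Agent.LT.Ext
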