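import Fermat.Agent.LT.RiemannSum

set_option autoImplicit false

/-!
# Integrals of periodic functions of mean zero against a slowly varying kernel
-/

open MeasureTheory Set Metric
open scoped Pointwise

namespace Fermat.Agent.LT

section Lattice

variable {E : Type*} [NormedAddCommGroup E] [NormedSpace ℝ E] [MeasurableSpace E] [BorelSpace E]
  [FiniteDimensional ℝ E] (L : Submodule ℤ E) [DiscreteTopology L] [IsZLattice ℝ L]
  (μ : Measure E) [μ.IsAddHaarMeasure] {ι : Type*} [Finite ι] (b : Module.Basis ι ℤ L)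

omit [MeasurableSpace E] [BorelSpace E] [IsZLattice ℝ L] in
/-- Only finitely many translates of a bounded set meet a bounded set. -/
theorem finite_translates (A B : Set E) (hA : Bornology.IsBounded A) (hB : Bornology.IsBounded B) :
    {ξ : L | ∃ x ∈ A, (ξ : E) + x ∈ B}.Finite := by
  have : ProperSpace E := FiniteDimensional.proper ℝ E
  have h1 : ((B - A) ∩ (L : Set E)).Finite := by
    have : DiscreteTopology L.toAddSubgroup := (inferInstance : DiscreteTopology L)
    exact Metric.finite_isBounded_inter_isClosed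
      (DiscreteTopology.isDiscrete (s := (L.toAddSubgroup : Set E))) (hB.sub hA)
      (AddSubgroup.isClosed_of_discrete (H := L.toAddSubgroup))
  refine Set.Finite.of_finite_image (f := ((↑) : L → E)) (h1.subset ?_)
    Subtype.val_injective.injOn
  rintro _ ⟨ξ, ⟨x, hx, hξ⟩, rfl⟩
  exact ⟨⟨_, hξ, x, hx, by simp⟩, ξ.2⟩

/-- Unfolding: the integral of `k f` with `f` periodic. -/
theorem integral_mul_periodic {k f : E → ℂ} (hk : Continuous k) (hks : HasCompactSupport k)
    (hf : Measurable f) {M : ℝ} (hM : ∀ x, ‖f x‖ ≤ M) (hper : ∀ ξ : L, ∀ x, f (ξ + x) = f x) :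
    ∃ T : Finset L, (∀ x ∈ ZSpan.fundamentalDomain (b.ofZLatticeBasis ℝ), ∀ ξ : L,
        k (ξ + x) ≠ 0 → ξ ∈ T) ∧
      ∫ x, k x * f x ∂μ =
        ∫ x in ZSpan.fundamentalDomain (b.ofZLatticeBasis ℝ), (∑ ξ ∈ T, k (ξ + x)) * f x ∂μ := by
  have : MeasurableVAdd L E := (inferInstance : MeasurableVAdd L.toAddSubgroup E)
  have : VAddInvariantMeasure L E μ := (inferInstance : VAddInvariantMeasure L.toAddSubgroup E μ)
  set s := ZSpan.fundamentalDomain (b.ofZLatticeBasis ℝ) with hs
  have h := ZLattice.isAddFundamentalDomain b μ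
  have hbd : Bornology.IsBounded s := ZSpan.fundamentalDomain_isBounded _
  have hsm : MeasurableSet s := ZSpan.fundamentalDomain_measurableSet _
  have hfin := finite_translates L s (tsupport k) hbd hks.isCompact.isBounded
  refine ⟨hfin.toFinset, fun x hx ξ hξ => ?_, ?_⟩
  · rw [Set.Finite.mem_toFinset]
    exact ⟨x, hx, subset_tsupport _ hξ⟩
  have hki : Integrable k μ := hk.integrable_of_hasCompactSupport hks
  have hint : Integrable (fun x => k x * f x) μ :=
    hki.mul_bdd hf.aestronglyMeasurable (Filter.Eventually.of_forall hM)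
  have h1 := hasSum_integral_vadd (G := L) h hint
  have h2 : ∀ ξ : L, ξ ∉ hfin.toFinset → ∫ x in s, k (ξ +ᵥ x) * f (ξ +ᵥ x) ∂μ = 0 := by
    intro ξ hξ
    rw [Set.Finite.mem_toFinset] at hξ
    refine setIntegral_eq_zero_of_forall_eq_zero fun x hx => ?_
    have : k ((ξ : E) + x) = 0 := by
      by_contra h3
      exact hξ ⟨x, hx, subset_tsupport _ h3⟩
    change k ((ξ : E) + x) * _ = 0
    rw [this, zero_mul]
  rw [← h1.tsum_eq, tsum_eq_sum h2]
  simp only [Finset.sum_mul]
  rw [integral_finsetSum]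
  · refine Finset.sum_congr rfl fun ξ _ => ?_
    refine setIntegral_congr_fun hsm fun x _ => ?_
    change k ((ξ : E) + x) * f (ξ + x) = _
    rw [hper]
  · intro ξ _
    have h4 : IntegrableOn (fun x => k (ξ +ᵥ x) * f (ξ +ᵥ x)) s μ :=
      (((measurePreserving_vadd ξ μ).integrable_comp_emb
        (measurableEmbedding_const_vadd ξ)).2 hint).integrableOn
    refine h4.congr_fun (fun x _ => ?_) hsm
    change k ((ξ : E) + x) * f (ξ + x) = _
    rw [hper]

/-- **Mean zero periodic function against a Lipschitz kernel.** -/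
theorem norm_integral_mul_periodic_le {δ : ℝ}
    (hδ : ∀ u ∈ ZSpan.fundamentalDomain (b.ofZLatticeBasis ℝ), ‖u‖ ≤ δ)
    {k f : E → ℂ} {K : ℝ} (hK0 : 0 ≤ K) (hK : ∀ x y, ‖k x - k y‖ ≤ K * ‖x - y‖) {c₀ : E} {R : ℝ}
    (hR : ∀ x, k x ≠ 0 → ‖x - c₀‖ ≤ R) (hf : Measurable f) {M : ℝ} (hM : ∀ x, ‖f x‖ ≤ M)
    (hper : ∀ ξ : L, ∀ x, f (ξ + x) = f x)
    (hmean : ∫ x in ZSpan.fundamentalDomain (b.ofZLatticeBasis ℝ), f x ∂μ = 0) :
    ‖∫ x, k x * f x ∂μ‖ ≤ K * δ * μ.real (closedBall (0 : E) (R + δ)) * M := by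
  have : ProperSpace E := FiniteDimensional.proper ℝ E
  set s := ZSpan.fundamentalDomain (b.ofZLatticeBasis ℝ) with hs
  have h := ZLattice.isAddFundamentalDomain b μ
  have hbd : Bornology.IsBounded s := ZSpan.fundamentalDomain_isBounded _
  have hsm : MeasurableSet s := ZSpan.fundamentalDomain_measurableSet _
  have hs0 : μ s ≠ ⊤ := hbd.measure_lt_top.ne
  have hcov : ZLattice.covolume L μ = μ.real s :=
    ZLattice.covolume_eq_measure_fundamentalDomain L μ h
  have hcov0 : 0 < ZLattice.covolume L μ := ZLattice.covolume_pos L μ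
  have hkc : Continuous k := by
    refine LipschitzWith.continuous (K := ⟨K, hK0⟩) ?_
    refine LipschitzWith.of_dist_le_mul fun x y => ?_
    rw [dist_eq_norm, dist_eq_norm]
    exact hK x y
  have hks : HasCompactSupport k := by
    refine HasCompactSupport.intro (isCompact_closedBall c₀ R) fun x hx => ?_
    by_contra h1
    exact hx (by rw [mem_closedBall, dist_eq_norm]; exact hR x h1)
  obtain ⟨T, hT, hI⟩ := integral_mul_periodic L μ b hkc hks hf hM hper
  have hfs : IntegrableOn f s μ := by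
    have h1 : IntegrableOn (fun _ : E => (1 : ℂ)) s μ := integrableOn_const hs0 enorm_ne_top
    have h2 : IntegrableOn (fun x : E => (1 : ℂ) * f x) s μ :=
      h1.mul_bdd hf.aestronglyMeasurable (Filter.Eventually.of_forall hM)
    simpa using h2
  set J : ℂ := (((ZLattice.covolume L μ)⁻¹ : ℝ) : ℂ) * ∫ x, k x ∂μ with hJ
  set Err : ℝ := K * δ * μ.real (closedBall (0 : E) (R + δ)) with hErr
  have hpt : ∀ x ∈ s, ‖(∑ ξ ∈ T, k (ξ + x)) - J‖ ≤ (ZLattice.covolume L μ)⁻¹ * Err := by
    intro x hx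
    have h1 := norm_covolume_smul_tsum_sub_integral_le L μ b hδ (f := fun u => k (u + x)) hK0
      (fun u v => by
        have := hK (u + x) (v + x)
        rwa [add_sub_add_right_eq_sub] at this) (c₀ := c₀ - x) (R := R)
      (fun u hu => by
        have := hR _ hu
        rwa [sub_sub_eq_add_sub])
    rw [integral_add_right_eq_self (μ := μ) k x] at h1
    have h2 : ∑' ξ : L, k (ξ + x) = ∑ ξ ∈ T, k (ξ + x) := by
      refine tsum_eq_sum fun ξ hξ => ?_
      by_contra h3
      exact hξ (hT x hx ξ h3)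
    rw [h2] at h1
    have h3 : μ.real (closedBall (c₀ - x) (R + δ)) = μ.real (closedBall (0 : E) (R + δ)) := by
      rw [measureReal_def, measureReal_def, Measure.addHaar_closedBall_center]
    rw [h3] at h1
    have h4 : (∑ ξ ∈ T, k (ξ + x)) - J = (((ZLattice.covolume L μ)⁻¹ : ℝ) : ℂ) *
        (ZLattice.covolume L μ • ∑ ξ ∈ T, k (ξ + x) - ∫ x, k x ∂μ) := by
      rw [hJ, mul_sub, Complex.real_smul, ← mul_assoc, ← Complex.ofReal_mul,
        inv_mul_cancel₀ hcov0.ne', Complex.ofReal_one, one_mul]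
    rw [h4, norm_mul, Complex.norm_real, Real.norm_of_nonneg (inv_nonneg.2 hcov0.le)]
    exact mul_le_mul_of_nonneg_left h1 (inv_nonneg.2 hcov0.le)
  have h5 : ∫ x, k x * f x ∂μ = ∫ x in s, ((∑ ξ ∈ T, k (ξ + x)) - J) * f x ∂μ := by
    rw [hI]
    have h6 : ∫ x in s, J * f x ∂μ = 0 := by
      rw [integral_const_mul, hmean, mul_zero]
    have h7 : IntegrableOn (fun x => (∑ ξ ∈ T, k (ξ + x)) * f x) s μ := by
      have h8 : Continuous fun x : E => ∑ ξ ∈ T, k (ξ + x) := by fun_prop
      have h9 : IntegrableOn (fun x : E => ∑ ξ ∈ T, k (ξ + x)) s μ :=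
        (h8.continuousOn.integrableOn_compact hbd.isCompact_closure).mono_set subset_closure
      exact h9.mul_bdd hf.aestronglyMeasurable (Filter.Eventually.of_forall hM)
    simp only [sub_mul]
    rw [integral_sub h7 (hfs.const_mul J), h6, sub_zero]
  have hM0 : 0 ≤ M := (norm_nonneg _).trans (hM 0)
  rw [h5]
  have h10 := norm_setIntegral_le_of_norm_le_const (μ := μ) (s := s) (lt_top_iff_ne_top.2 hs0)
    (C := (ZLattice.covolume L μ)⁻¹ * Err * M)
    (f := fun x => ((∑ ξ ∈ T, k (ξ + x)) - J) * f x) (fun x hx => by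
      rw [norm_mul]
      exact mul_le_mul (hpt x hx) (hM x) (norm_nonneg _)
        ((norm_nonneg _).trans (hpt x hx)))
  refine h10.trans (le_of_eq ?_)
  rw [← hcov]
  field_simp

end Lattice

end Fermat.Agent.LT
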