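import Mathlib

/-!
# Heights of points with respect to vectors, and the cusp lemma (S47A, blocks B3 / B6)

A point `x` of the symmetric space of `PGL₂` over a number field `K` gives at every place `w` a function
`q_w(x, ·)` on `K²` ("square of the norm of `v g_w` divided by `|det g_w|`").  We only record the properties
of these functions (`PointNorms`), so nothing depends on the model chosen for the space.

* `height P v = ∏_w q_w(v)⁻¹`, invariant under `v ↦ c v`, `c ∈ Kˣ` (product formula);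
* `height P v * height P v' ≤ 1` for independent `v, v'` (Hadamard at every place + product formula);
* the cusp lemma: if `height P e ≤ C * height (δ P') e` and `height P e * height P' e > C` then `δ` fixes the
  line of `e = (0, 1)`, i.e. `δ` is upper triangular.
-/

set_option autoImplicit false

namespace Fermat.Agent.LT

open scoped BigOperators
open NumberField

section Defs

variable (K : Type*) [Field K] [NumberField K]

/-- The functions `q_w` attached to a point: square of the norm of `v g_w` over `|det g_w|`. -/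
structure PointNorms where
  qf : FinitePlace K → (Fin 2 → K) → ℝ
  qi : InfinitePlace K → (Fin 2 → K) → ℝ
  qf_pos : ∀ w v, v ≠ 0 → 0 < qf w v
  qi_pos : ∀ w v, v ≠ 0 → 0 < qi w v
  qf_smul : ∀ w (c : K) v, qf w (c • v) = w c ^ 2 * qf w v
  qi_smul : ∀ w (c : K) v, qi w (c • v) = w c ^ 2 * qi w v
  qf_had : ∀ w v v', w (v 0 * v' 1 - v 1 * v' 0) ^ 2 ≤ qf w v * qf w v'
  qi_had : ∀ w v v', w (v 0 * v' 1 - v 1 * v' 0) ^ 2 ≤ qi w v * qi w v'
  qf_fin : ∀ v, v ≠ 0 → (Function.mulSupport fun w => qf w v).Finite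

end Defs

namespace PointNorms

variable {K : Type*} [Field K] [NumberField K]

/-- The height of the point `P` with respect to the vector `v`. -/
noncomputable def height (P : PointNorms K) (v : Fin 2 → K) : ℝ :=
  ((∏ w : InfinitePlace K, P.qi w v ^ w.mult) * ∏ᶠ w : FinitePlace K, P.qf w v)⁻¹

theorem prod_pos_inf (P : PointNorms K) {v : Fin 2 → K} (hv : v ≠ 0) :
    0 < ∏ w : InfinitePlace K, P.qi w v ^ w.mult :=
  Finset.prod_pos fun w _ => pow_pos (P.qi_pos w v hv) _

theorem prod_pos_fin (P : PointNorms K) {v : Fin 2 → K} (hv : v ≠ 0) :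
    0 < ∏ᶠ w : FinitePlace K, P.qf w v :=
  finprod_induction (p := fun x : ℝ => 0 < x) one_pos (fun _ _ => mul_pos) fun w => P.qf_pos w v hv

theorem height_pos (P : PointNorms K) {v : Fin 2 → K} (hv : v ≠ 0) : 0 < P.height v :=
  inv_pos.2 (mul_pos (P.prod_pos_inf hv) (P.prod_pos_fin hv))

/-- The height only depends on the line. -/
theorem height_smul (P : PointNorms K) {c : K} (hc : c ≠ 0) {v : Fin 2 → K} (hv : v ≠ 0) :
    P.height (c • v) = P.height v := by
  unfold height
  congr 1
  have h1 : (∏ w : InfinitePlace K, P.qi w (c • v) ^ w.mult)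
      = (∏ w : InfinitePlace K, w c ^ w.mult) ^ 2 * ∏ w : InfinitePlace K, P.qi w v ^ w.mult := by
    rw [← Finset.prod_pow, ← Finset.prod_mul_distrib]
    refine Finset.prod_congr rfl fun w _ => ?_
    rw [P.qi_smul, mul_pow, ← pow_mul, ← pow_mul, mul_comm 2]
  have hfc : (Function.mulSupport fun w : FinitePlace K => w c).Finite :=
    FinitePlace.hasFiniteMulSupport hc
  have hfc2 : (Function.mulSupport fun w : FinitePlace K => w c ^ 2).Finite := by
    refine hfc.subset fun w hw => ?_
    rw [Function.mem_mulSupport] at hw ⊢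
    intro h
    exact hw (by rw [h, one_pow])
  have h2 : ∏ᶠ w : FinitePlace K, P.qf w (c • v)
      = (∏ᶠ w : FinitePlace K, w c) ^ 2 * ∏ᶠ w : FinitePlace K, P.qf w v := by
    rw [finprod_pow hfc, ← finprod_mul_distrib hfc2 (P.qf_fin v hv)]
    exact finprod_congr fun w => P.qf_smul w c v
  rw [h1, h2]
  have hpf := prod_abs_eq_one hc
  calc (∏ w : InfinitePlace K, w c ^ w.mult) ^ 2 * (∏ w : InfinitePlace K, P.qi w v ^ w.mult)
        * ((∏ᶠ w : FinitePlace K, w c) ^ 2 * ∏ᶠ w : FinitePlace K, P.qf w v)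
      = ((∏ w : InfinitePlace K, w c ^ w.mult) * ∏ᶠ w : FinitePlace K, w c) ^ 2
        * ((∏ w : InfinitePlace K, P.qi w v ^ w.mult) * ∏ᶠ w : FinitePlace K, P.qf w v) := by ring
    _ = _ := by rw [hpf, one_pow, one_mul]

/-- Two independent vectors cannot both have large height. -/
theorem height_mul_height_le_one (P : PointNorms K) {v v' : Fin 2 → K}
    (h : v 0 * v' 1 - v 1 * v' 0 ≠ 0) : P.height v * P.height v' ≤ 1 := by
  have hv : v ≠ 0 := by
    rintro rfl
    simp at h
  have hv' : v' ≠ 0 := by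
    rintro rfl
    simp at h
  set d := v 0 * v' 1 - v 1 * v' 0 with hd
  have hfd : (Function.mulSupport fun w : FinitePlace K => w d).Finite :=
    FinitePlace.hasFiniteMulSupport h
  have hpf := prod_abs_eq_one h
  have h1 : (∏ w : InfinitePlace K, w d ^ w.mult) ^ 2
      ≤ (∏ w : InfinitePlace K, P.qi w v ^ w.mult) * ∏ w : InfinitePlace K, P.qi w v' ^ w.mult := by
    rw [← Finset.prod_pow, ← Finset.prod_mul_distrib]
    refine Finset.prod_le_prod (fun w _ => by positivity) fun w _ => ?_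
    rw [← mul_pow, ← pow_mul, mul_comm w.mult 2, pow_mul]
    exact pow_le_pow_left₀ (by positivity) (P.qi_had w v v') _
  -- finite places: pass to a common finite set
  have h2 : (∏ᶠ w : FinitePlace K, w d) ^ 2
      ≤ (∏ᶠ w : FinitePlace K, P.qf w v) * ∏ᶠ w : FinitePlace K, P.qf w v' := by
    classical
    set T : Finset (FinitePlace K) :=
      hfd.toFinset ∪ ((P.qf_fin v hv).toFinset ∪ (P.qf_fin v' hv').toFinset) with hT
    have e1 : ∏ᶠ w : FinitePlace K, w d = ∏ w ∈ T, w d := by
      apply finprod_eq_prod_of_mulSupport_subset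
      intro w hw
      rw [hT, Finset.coe_union, Set.Finite.coe_toFinset]
      exact Or.inl hw
    have e2 : ∏ᶠ w : FinitePlace K, P.qf w v = ∏ w ∈ T, P.qf w v := by
      apply finprod_eq_prod_of_mulSupport_subset
      intro w hw
      rw [hT, Finset.coe_union, Finset.coe_union, Set.Finite.coe_toFinset, Set.Finite.coe_toFinset]
      exact Or.inr (Or.inl hw)
    have e3 : ∏ᶠ w : FinitePlace K, P.qf w v' = ∏ w ∈ T, P.qf w v' := by
      apply finprod_eq_prod_of_mulSupport_subset
      intro w hw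
      rw [hT, Finset.coe_union, Finset.coe_union, Set.Finite.coe_toFinset, Set.Finite.coe_toFinset,
        Set.Finite.coe_toFinset]
      exact Or.inr (Or.inr hw)
    rw [e1, e2, e3, ← Finset.prod_pow, ← Finset.prod_mul_distrib]
    exact Finset.prod_le_prod (fun w _ => by positivity) fun w _ => P.qf_had w v v'
  unfold height
  rw [← mul_inv]
  apply inv_le_one_of_one_le₀
  have hA := P.prod_pos_inf hv
  have hA' := P.prod_pos_inf hv'
  calc (1 : ℝ) = (∏ w : InfinitePlace K, w d ^ w.mult) ^ 2 * (∏ᶠ w : FinitePlace K, w d) ^ 2 := by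
        rw [← mul_pow, hpf, one_pow]
    _ ≤ ((∏ w : InfinitePlace K, P.qi w v ^ w.mult) * ∏ w : InfinitePlace K, P.qi w v' ^ w.mult)
        * ((∏ᶠ w : FinitePlace K, P.qf w v) * ∏ᶠ w : FinitePlace K, P.qf w v') := by
        apply mul_le_mul h1 h2 (by positivity) (by positivity)
    _ = _ := by ring

/-- Translate of the norms by an invertible matrix: `q_w(g x, v) = q_w(x, v g) / |det g|_w`. -/
def IsTranslate (g : Matrix (Fin 2) (Fin 2) K) (P P' : PointNorms K) : Prop :=
  (∀ w v, P'.qf w v = P.qf w (Matrix.vecMul v g) / w g.det) ∧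
  (∀ w v, P'.qi w v = P.qi w (Matrix.vecMul v g) / w g.det)

omit [NumberField K] in
theorem vecMul_ne_zero {g : Matrix (Fin 2) (Fin 2) K} (hg : g.det ≠ 0) {v : Fin 2 → K} (hv : v ≠ 0) :
    Matrix.vecMul v g ≠ 0 := by
  intro h
  apply hv
  have hu : IsUnit g.det := isUnit_iff_ne_zero.2 hg
  calc v = Matrix.vecMul v (g * g⁻¹) := by rw [Matrix.mul_nonsing_inv _ hu, Matrix.vecMul_one]
    _ = Matrix.vecMul (Matrix.vecMul v g) g⁻¹ := by rw [Matrix.vecMul_vecMul]
    _ = 0 := by rw [h, Matrix.zero_vecMul]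

theorem height_translate {g : Matrix (Fin 2) (Fin 2) K} (hg : g.det ≠ 0) {P P' : PointNorms K}
    (h : IsTranslate g P P') {v : Fin 2 → K} (hv : v ≠ 0) :
    P'.height v = P.height (Matrix.vecMul v g) := by
  unfold height
  congr 1
  have hvg := vecMul_ne_zero hg hv
  have h1 : (∏ w : InfinitePlace K, P'.qi w v ^ w.mult)
      = (∏ w : InfinitePlace K, P.qi w (Matrix.vecMul v g) ^ w.mult)
        / ∏ w : InfinitePlace K, w g.det ^ w.mult := by
    rw [← Finset.prod_div_distrib]
    refine Finset.prod_congr rfl fun w _ => ?_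
    rw [h.2, div_pow]
  have hfd : (Function.mulSupport fun w : FinitePlace K => w g.det).Finite :=
    FinitePlace.hasFiniteMulSupport hg
  have h2 : ∏ᶠ w : FinitePlace K, P'.qf w v
      = (∏ᶠ w : FinitePlace K, P.qf w (Matrix.vecMul v g)) / ∏ᶠ w : FinitePlace K, w g.det := by
    rw [← finprod_div_distrib (P.qf_fin _ hvg) hfd]
    exact finprod_congr fun w => h.1 w v
  rw [h1, h2, div_mul_div_comm, prod_abs_eq_one hg, div_one]

/-- The vector `(0, 1)`, fixed (up to scalars) by the upper triangular matrices acting from the right. -/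
def eVec : Fin 2 → K := ![0, 1]

theorem eVec_ne_zero : (eVec : Fin 2 → K) ≠ 0 := by
  intro h
  have := congrFun h 1
  simp [eVec] at this

/-- **The cusp lemma.** `P, P'` two points, `δ P'` the translate.  If `height P e ≤ C * height (δ P') e` and the
product of the heights of `P` and `P'` exceeds `C`, then `δ` is upper triangular. -/
theorem cusp_lemma {C : ℝ} {δ : Matrix (Fin 2) (Fin 2) K} (hδ : δ.det ≠ 0)
    {P P' δP' : PointNorms K} (ht : IsTranslate δ P' δP')
    (hC : P.height eVec ≤ C * δP'.height eVec) (hC0 : 0 ≤ C)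
    (hbig : C < P.height eVec * P'.height eVec) : δ 1 0 = 0 := by
  by_contra h10
  have hdet : (Matrix.vecMul eVec δ) 0 * (eVec : Fin 2 → K) 1 - (Matrix.vecMul eVec δ) 1 *
      (eVec : Fin 2 → K) 0 ≠ 0 := by
    simpa [eVec, Matrix.vecMul, dotProduct, Fin.sum_univ_two] using h10
  have h1 := P'.height_mul_height_le_one hdet
  rw [← height_translate hδ ht eVec_ne_zero] at h1
  have h2 : 0 < P'.height eVec := P'.height_pos eVec_ne_zero
  have h3 : P.height eVec * P'.height eVec ≤ C * (δP'.height eVec * P'.height eVec) := by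
    have := mul_le_mul_of_nonneg_right hC h2.le
    linarith
  have h4 : C * (δP'.height eVec * P'.height eVec) ≤ C * 1 := mul_le_mul_of_nonneg_left h1 hC0
  linarith

/-- Comparison of heights from local comparisons: if `q_w(P', v) ≤ c_w q_w(P, v)` with `c_w = 1` for almost all
`w`, then `height P v ≤ (∏ c_w) * height P' v`. -/
theorem height_le_of_local {P P' : PointNorms K} {v : Fin 2 → K} (hv : v ≠ 0)
    (cf : FinitePlace K → ℝ) (ci : InfinitePlace K → ℝ)
    (hfin : (Function.mulSupport cf).Finite)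
    (hf : ∀ w, P'.qf w v ≤ cf w * P.qf w v) (hi : ∀ w, P'.qi w v ≤ ci w * P.qi w v) :
    P.height v ≤ ((∏ w : InfinitePlace K, ci w ^ w.mult) * ∏ᶠ w : FinitePlace K, cf w)
      * P'.height v := by
  classical
  have hcf : ∀ w, 0 < cf w := by
    intro w
    have h1 := P'.qf_pos w v hv
    have h2 := P.qf_pos w v hv
    by_contra h
    have := mul_nonpos_of_nonpos_of_nonneg (not_lt.1 h) h2.le
    linarith [hf w]
  have hci : ∀ w, 0 < ci w := by
    intro w
    have h1 := P'.qi_pos w v hv
    have h2 := P.qi_pos w v hv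
    by_contra h
    have := mul_nonpos_of_nonpos_of_nonneg (not_lt.1 h) h2.le
    linarith [hi w]
  have h1 : (∏ w : InfinitePlace K, P'.qi w v ^ w.mult)
      ≤ (∏ w : InfinitePlace K, ci w ^ w.mult) * ∏ w : InfinitePlace K, P.qi w v ^ w.mult := by
    rw [← Finset.prod_mul_distrib]
    refine Finset.prod_le_prod (fun w _ => (pow_pos (P'.qi_pos w v hv) _).le) fun w _ => ?_
    rw [← mul_pow]
    exact pow_le_pow_left₀ (P'.qi_pos w v hv).le (hi w) _
  have h2 : ∏ᶠ w : FinitePlace K, P'.qf w v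
      ≤ (∏ᶠ w : FinitePlace K, cf w) * ∏ᶠ w : FinitePlace K, P.qf w v := by
    set T : Finset (FinitePlace K) :=
      hfin.toFinset ∪ ((P.qf_fin v hv).toFinset ∪ (P'.qf_fin v hv).toFinset) with hT
    have e1 : ∏ᶠ w : FinitePlace K, cf w = ∏ w ∈ T, cf w := by
      apply finprod_eq_prod_of_mulSupport_subset
      intro w hw
      rw [hT, Finset.coe_union, Set.Finite.coe_toFinset]
      exact Or.inl hw
    have e2 : ∏ᶠ w : FinitePlace K, P.qf w v = ∏ w ∈ T, P.qf w v := by
      apply finprod_eq_prod_of_mulSupport_subset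
      intro w hw
      rw [hT, Finset.coe_union, Finset.coe_union, Set.Finite.coe_toFinset, Set.Finite.coe_toFinset]
      exact Or.inr (Or.inl hw)
    have e3 : ∏ᶠ w : FinitePlace K, P'.qf w v = ∏ w ∈ T, P'.qf w v := by
      apply finprod_eq_prod_of_mulSupport_subset
      intro w hw
      rw [hT, Finset.coe_union, Finset.coe_union, Set.Finite.coe_toFinset, Set.Finite.coe_toFinset,
        Set.Finite.coe_toFinset]
      exact Or.inr (Or.inr hw)
    rw [e1, e2, e3, ← Finset.prod_mul_distrib]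
    exact Finset.prod_le_prod (fun w _ => (P'.qf_pos w v hv).le) fun w _ => hf w
  have p1 := P.prod_pos_inf hv
  have p2 := P.prod_pos_fin hv
  have p1' := P'.prod_pos_inf hv
  have p2' := P'.prod_pos_fin hv
  have key : (∏ w : InfinitePlace K, P'.qi w v ^ w.mult) * (∏ᶠ w : FinitePlace K, P'.qf w v)
      ≤ ((∏ w : InfinitePlace K, ci w ^ w.mult) * ∏ᶠ w : FinitePlace K, cf w)
        * ((∏ w : InfinitePlace K, P.qi w v ^ w.mult) * ∏ᶠ w : FinitePlace K, P.qf w v) := by
    have hcI : 0 < ∏ w : InfinitePlace K, ci w ^ w.mult :=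
      Finset.prod_pos fun w _ => pow_pos (hci w) _
    calc _ ≤ ((∏ w : InfinitePlace K, ci w ^ w.mult) * ∏ w : InfinitePlace K, P.qi w v ^ w.mult)
          * ((∏ᶠ w : FinitePlace K, cf w) * ∏ᶠ w : FinitePlace K, P.qf w v) :=
          mul_le_mul h1 h2 p2'.le (mul_pos hcI p1).le
      _ = _ := by ring
  unfold height
  rw [← div_eq_mul_inv, inv_eq_one_div, div_le_div_iff₀ (mul_pos p1 p2) (mul_pos p1' p2'), one_mul]
  exact key

end PointNorms

section Local

/-- Archimedean Hadamard inequality in the coordinates of hyperbolic 3-space: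
`q(c, d) = (|c z + d|² + |c|² y²) / y`. -/
noncomputable def qH3 (z : ℂ) (y : ℝ) (c d : ℂ) : ℝ :=
  (‖c * z + d‖ ^ 2 + ‖c‖ ^ 2 * y ^ 2) / y

theorem norm_det_sq_le (a b c d : ℂ) :
    ‖a * d - b * c‖ ^ 2 ≤ (‖a‖ ^ 2 + ‖b‖ ^ 2) * (‖c‖ ^ 2 + ‖d‖ ^ 2) := by
  have h : ‖a * d - b * c‖ ≤ ‖a‖ * ‖d‖ + ‖b‖ * ‖c‖ := by
    refine (norm_sub_le _ _).trans ?_
    rw [norm_mul, norm_mul]
  have h0 := norm_nonneg (a * d - b * c)
  have h1 : ‖a * d - b * c‖ ^ 2 ≤ (‖a‖ * ‖d‖ + ‖b‖ * ‖c‖) ^ 2 := pow_le_pow_left₀ h0 h 2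
  nlinarith [sq_nonneg (‖a‖ * ‖c‖ - ‖b‖ * ‖d‖)]

theorem qH3_had {z : ℂ} {y : ℝ} (hy : 0 < y) (c d c' d' : ℂ) :
    ‖c * d' - d * c'‖ ^ 2 ≤ qH3 z y c d * qH3 z y c' d' := by
  unfold qH3
  rw [div_mul_div_comm, le_div_iff₀ (mul_pos hy hy)]
  have h := norm_det_sq_le ((y : ℂ) * c) (c * z + d) ((y : ℂ) * c') (c' * z + d')
  have e : (y : ℂ) * c * (c' * z + d') - (c * z + d) * ((y : ℂ) * c') = (y : ℂ) * (c * d' - d * c') := by
    ring
  rw [e, norm_mul, norm_mul, norm_mul, Complex.norm_real, Real.norm_of_nonneg hy.le] at h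
  nlinarith [h]

theorem qH3_pos {z : ℂ} {y : ℝ} (hy : 0 < y) {c d : ℂ} (h : c ≠ 0 ∨ d ≠ 0) : 0 < qH3 z y c d := by
  unfold qH3
  apply div_pos _ hy
  by_cases hc : c = 0
  · subst hc
    have hd : d ≠ 0 := by simpa using h
    have := norm_pos_iff.2 hd
    simp only [zero_mul, zero_add, norm_zero]
    positivity
  · have := norm_pos_iff.2 hc
    positivity

theorem qH3_smul (z : ℂ) (y : ℝ) (t c d : ℂ) : qH3 z y (t * c) (t * d) = ‖t‖ ^ 2 * qH3 z y c d := by
  unfold qH3
  have : t * c * z + t * d = t * (c * z + d) := by ring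
  rw [this, norm_mul, norm_mul]
  ring

/-- Nonarchimedean Hadamard inequality. -/
theorem nonarch_det_le {F : Type*} [Field F] {v : AbsoluteValue F ℝ} (hv : IsNonarchimedean v)
    (a b c d : F) : v (a * d - b * c) ≤ max (v a) (v b) * max (v c) (v d) := by
  have h1 : v (a * d - b * c) ≤ max (v (a * d)) (v (b * c)) := by
    rw [sub_eq_add_neg]
    refine (hv _ _).trans ?_
    rw [v.map_neg]
  refine h1.trans (max_le ?_ ?_)
  · rw [map_mul]
    exact mul_le_mul (le_max_left _ _) (le_max_right _ _) (v.nonneg _)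
      ((v.nonneg a).trans (le_max_left _ _))
  · rw [map_mul]
    exact mul_le_mul (le_max_right _ _) (le_max_left _ _) (v.nonneg _)
      ((v.nonneg a).trans (le_max_left _ _))

end Local

end Fermat.Agent.LT
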