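import Mathlib
import Fermat.Agent.LT.Cusp

/-!
# Minkowski's theorem for the norms of points of `(H³)ⁿ` (S47A, block B3)
-/

set_option autoImplicit false

namespace Fermat.Agent.LT

open NumberField MeasureTheory Module

section General

variable {E : Type*} [NormedAddCommGroup E] [NormedSpace ℝ E] [MeasurableSpace E] [BorelSpace E]
  [FiniteDimensional ℝ E] [Nontrivial E]

/-- Minkowski's theorem, uniformly over all volume preserving linear maps. -/
theorem exists_ne_zero_of_measurePreserving (μ : Measure E) [μ.IsAddHaarMeasure] {ι : Type*}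
    [Fintype ι] (b : Basis ι ℝ E) : ∃ R : ℝ, 0 < R ∧ ∀ g : E →ₗ[ℝ] E, MeasurePreserving g μ μ →
      ∃ v ∈ Submodule.span ℤ (Set.range b), v ≠ 0 ∧ ‖g v‖ ≤ R := by
  classical
  set F := ZSpan.fundamentalDomain b with hF
  have hfin : μ F * 2 ^ finrank ℝ E < ⊤ := by
    apply ENNReal.mul_lt_top
    · exact (ZSpan.fundamentalDomain_isBounded b).measure_lt_top
    · exact ENNReal.pow_lt_top ENNReal.ofNat_lt_top
  have huniv : μ (Set.univ : Set E) = ⊤ := measure_univ_of_isAddLeftInvariant μ
  have hU : (Set.univ : Set E) = ⋃ n : ℕ, Metric.ball (0 : E) (n : ℝ) := (Metric.iUnion_ball_nat 0).symm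
  rw [hU, (monotone_nat_of_le_succ fun n => Metric.ball_subset_ball (by
    push_cast; linarith)).measure_iUnion] at huniv
  have hlt : μ F * 2 ^ finrank ℝ E < ⨆ n : ℕ, μ (Metric.ball (0 : E) (n : ℝ)) := by
    rw [huniv]; exact hfin
  obtain ⟨n, hn⟩ := lt_iSup_iff.1 hlt
  refine ⟨n + 1, by positivity, fun g hg => ?_⟩
  have hmeas : μ (g ⁻¹' Metric.ball (0 : E) (n : ℝ)) = μ (Metric.ball (0 : E) (n : ℝ)) :=
    hg.measure_preimage Metric.isOpen_ball.measurableSet.nullMeasurableSet
  have fund := ZSpan.isAddFundamentalDomain b μ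
  have : Countable (Submodule.span ℤ (Set.range b)).toAddSubgroup := by
    have : Countable (Submodule.span ℤ (Set.range b)) := inferInstance
    exact this
  obtain ⟨x, hx0, hx⟩ := exists_ne_zero_mem_lattice_of_measure_mul_two_pow_lt_measure
    (μ := μ) (L := (Submodule.span ℤ (Set.range b)).toAddSubgroup) (s := g ⁻¹' Metric.ball (0 : E) n)
    (F := F) fund
    (fun x hx => by
      rw [Set.mem_preimage, map_neg, mem_ball_zero_iff, norm_neg]
      exact mem_ball_zero_iff.1 hx)
    ((convex_ball (0 : E) (n : ℝ)).linear_preimage g)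
    (by rw [hmeas]; exact hn)
  refine ⟨x, x.2, fun h => hx0 (Subtype.ext h), ?_⟩
  have := mem_ball_zero_iff.1 hx
  linarith

end General

section Place

instance instHaarCC : (volume : Measure (ℂ × ℂ)).IsAddHaarMeasure :=
  Measure.prod.instIsAddHaarMeasure _ _

instance instHaarPiCC {ι : Type*} [Fintype ι] : (volume : Measure (ι → ℂ × ℂ)).IsAddHaarMeasure :=
  Measure.pi.isAddHaarMeasure _

/-- The linear map `(c, d) ↦ (√y c, (c z + d) / √y)` of `ℂ²`. -/
noncomputable def gMap (z : ℂ) (y : ℝ) : (ℂ × ℂ) →ₗ[ℂ] (ℂ × ℂ) :=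
  LinearMap.prod (((Real.sqrt y : ℝ) : ℂ) • LinearMap.fst ℂ ℂ ℂ)
    ((((Real.sqrt y : ℝ) : ℂ)⁻¹) • (z • LinearMap.fst ℂ ℂ ℂ + LinearMap.snd ℂ ℂ ℂ))

theorem gMap_apply (z : ℂ) (y : ℝ) (v : ℂ × ℂ) :
    gMap z y v = (((Real.sqrt y : ℝ) : ℂ) * v.1, ((Real.sqrt y : ℝ) : ℂ)⁻¹ * (z * v.1 + v.2)) := rfl

theorem qH3_eq_gMap {z : ℂ} {y : ℝ} (hy : 0 < y) (v : ℂ × ℂ) :
    qH3 z y v.1 v.2 = ‖(gMap z y v).1‖ ^ 2 + ‖(gMap z y v).2‖ ^ 2 := by
  rw [gMap_apply]
  simp only [norm_mul, norm_inv, Complex.norm_real, Real.norm_eq_abs, abs_of_nonneg (Real.sqrt_nonneg y)]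
  unfold qH3
  rw [mul_pow, mul_pow, inv_pow, Real.sq_sqrt hy.le, mul_comm z v.1]
  field_simp
  ring

theorem det_gMap {z : ℂ} {y : ℝ} (hy : 0 < y) : LinearMap.det (gMap z y) = 1 := by
  have hs : ((Real.sqrt y : ℝ) : ℂ) ≠ 0 := by
    exact_mod_cast (Real.sqrt_pos.2 hy).ne'
  rw [← LinearMap.det_toMatrix (Basis.finTwoProd ℂ)]
  rw [Matrix.det_fin_two]
  simp only [LinearMap.toMatrix_apply, Basis.finTwoProd_zero, Basis.finTwoProd_one, gMap_apply]
  simp
  field_simp

theorem measurePreserving_gMap {z : ℂ} {y : ℝ} (hy : 0 < y) :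
    MeasurePreserving (gMap z y) (volume : Measure (ℂ × ℂ)) volume := by
  have hdet : LinearMap.det ((gMap z y).restrictScalars ℝ) = 1 := by
    rw [LinearMap.det_restrictScalars, det_gMap hy, map_one]
  have hc : Continuous (gMap z y) := (gMap z y).continuous_of_finiteDimensional
  refine ⟨hc.measurable, ?_⟩
  have := Measure.map_linearMap_addHaar_eq_smul_addHaar (volume : Measure (ℂ × ℂ))
    (f := (gMap z y).restrictScalars ℝ) (by rw [hdet]; exact one_ne_zero)
  rw [hdet] at this
  simpa using this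

end Place

section Field

variable (F : Type*) [Field F] [NumberField F] [IsTotallyComplex F]

/-- The identification of two copies of the mixed space with `∏_w ℂ²`. -/
noncomputable def mixedSq : (mixedEmbedding.mixedSpace F × mixedEmbedding.mixedSpace F) ≃ₗ[ℝ]
    (InfinitePlace F → ℂ × ℂ) where
  toFun x w := (x.1.2 ⟨w, IsTotallyComplex.isComplex w⟩, x.2.2 ⟨w, IsTotallyComplex.isComplex w⟩)
  map_add' x y := rfl
  map_smul' t x := rfl
  invFun v := ((0, fun w => (v w.1).1), (0, fun w => (v w.1).2))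
  left_inv x := by
    have : IsEmpty {w : InfinitePlace F // w.IsReal} :=
      ⟨fun w => (InfinitePlace.not_isReal_iff_isComplex.2 (IsTotallyComplex.isComplex w.1)) w.2⟩
    refine Prod.ext (Prod.ext (Subsingleton.elim _ _) rfl) (Prod.ext (Subsingleton.elim _ _) rfl)
  right_inv v := rfl

open scoped Classical in
/-- **Minkowski**: for every point of `(H³)ⁿ` there is a nonzero vector of `𝓞_F²` all of whose local norms are
bounded by a constant depending only on `F`. -/
theorem exists_short_vector : ∃ C : ℝ, 0 < C ∧ ∀ (z : InfinitePlace F → ℂ) (y : InfinitePlace F → ℝ),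
    (∀ w, 0 < y w) → ∃ c d : 𝓞 F, (c ≠ 0 ∨ d ≠ 0) ∧
      ∀ w : InfinitePlace F, qH3 (z w) (y w) (w.embedding c) (w.embedding d) ≤ C := by
  set b := ((mixedEmbedding.latticeBasis F).prod (mixedEmbedding.latticeBasis F)).map (mixedSq F)
    with hb
  have hne : Nonempty (InfinitePlace F) := inferInstance
  obtain ⟨R, hR, h⟩ := exists_ne_zero_of_measurePreserving
    (volume : Measure (InfinitePlace F → ℂ × ℂ)) b
  refine ⟨2 * R ^ 2, by positivity, fun z y hy => ?_⟩
  set g : (InfinitePlace F → ℂ × ℂ) →ₗ[ℝ] (InfinitePlace F → ℂ × ℂ) :=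
    LinearMap.pi fun w => ((gMap (z w) (y w)).restrictScalars ℝ).comp (LinearMap.proj w) with hg
  have hgm : MeasurePreserving g volume volume :=
    volume_preserving_pi fun w => measurePreserving_gMap (z := z w) (hy w)
  obtain ⟨v, hv, hv0, hvR⟩ := h g hgm
  -- elements of the lattice
  have hmem : ∀ v ∈ Submodule.span ℤ (Set.range b), ∃ c d : 𝓞 F,
      v = fun w : InfinitePlace F => (w.embedding (c : F), w.embedding (d : F)) := by
    intro v hv
    induction hv using Submodule.span_induction with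
    | mem v hv =>
      obtain ⟨i, rfl⟩ := hv
      have key : ∀ (k : Free.ChooseBasisIndex ℤ (𝓞 F)) (w : InfinitePlace F),
          (mixedEmbedding.latticeBasis F k).2 ⟨w, IsTotallyComplex.isComplex w⟩
            = w.embedding ((RingOfIntegers.basis F k : 𝓞 F) : F) := by
        intro k w
        rw [mixedEmbedding.latticeBasis_apply, integralBasis_apply]
        rfl
      rcases i with i | i
      · refine ⟨RingOfIntegers.basis F i, 0, ?_⟩
        funext w
        rw [← key i w]
        simp [hb, mixedSq]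
      · refine ⟨0, RingOfIntegers.basis F i, ?_⟩
        funext w
        rw [← key i w]
        simp [hb, mixedSq]
    | zero => exact ⟨0, 0, by funext w; simp [Prod.ext_iff]⟩
    | add x y _ _ hx hy =>
      obtain ⟨c, d, rfl⟩ := hx
      obtain ⟨c', d', rfl⟩ := hy
      exact ⟨c + c', d + d', by funext w; simp⟩
    | smul n x _ hx =>
      obtain ⟨c, d, rfl⟩ := hx
      exact ⟨n • c, n • d, by funext w; simp⟩
  obtain ⟨c, d, rfl⟩ := hmem v hv
  refine ⟨c, d, ?_, fun w => ?_⟩
  · by_contra hcd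
    push Not at hcd
    apply hv0
    funext w
    rw [hcd.1, hcd.2]
    simp
  · have h1 := (norm_le_pi_norm (g fun w : InfinitePlace F => (w.embedding (c : F), w.embedding (d : F))) w).trans hvR
    have h2 := qH3_eq_gMap (z := z w) (hy w) (w.embedding (c : F), w.embedding (d : F))
    have h3 : g (fun w : InfinitePlace F => (w.embedding (c : F), w.embedding (d : F))) w
        = gMap (z w) (y w) (w.embedding (c : F), w.embedding (d : F)) := rfl
    rw [h3, Prod.norm_def] at h1
    have h4 := (le_max_left _ _).trans h1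
    have h5 := (le_max_right _ _).trans h1
    have h6 := pow_le_pow_left₀ (norm_nonneg _) h4 2
    have h7 := pow_le_pow_left₀ (norm_nonneg _) h5 2
    simp only at h2
    rw [h2]
    linarith

end Field

end Fermat.Agent.LT
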