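import Mathlib
import Fermat.Agent.LT.SLattice

/-!
# The additive character of `F_S / O_S` (helper99)

`F` a totally complex number field, `S` a finite set of finite places, `O_S` the ring of
`S`-integers, `R_f = ∏_{v ∈ S} F_v`, `R_∞ = ℂ^I`, where `φ : I → (F →+* ℂ)` is a half system of
complex embeddings (`IsHalf φ`: every embedding is `φ i` or its conjugate, in exactly one way).
-/

set_option autoImplicit false

open NumberField IsDedekindDomain HeightOneSpectrum WithZero
open scoped WithZero FourierTransform nonZeroDivisors ComplexConjugate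

noncomputable section

namespace Fermat.Agent.LT.Chr

open Fermat.Agent.LT.Loc

/-! ### the character `𝐞` -/

theorem fc_int (n : ℤ) : 𝐞 (n : ℝ) = 1 := by
  rw [Real.fourierChar_apply', Circle.exp_two_pi_mul_int]

theorem fc_eq_one_iff {r : ℝ} : 𝐞 r = 1 ↔ ∃ n : ℤ, r = n := by
  rw [Real.fourierChar_apply', Circle.exp_eq_one]
  have hpi : (2 * Real.pi) ≠ 0 := by positivity
  constructor
  · rintro ⟨n, hn⟩
    refine ⟨n, ?_⟩
    have : (2 * Real.pi) * r = (2 * Real.pi) * n := by rw [hn]; ring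
    exact mul_left_cancel₀ hpi this
  · rintro ⟨n, rfl⟩
    exact ⟨n, by ring⟩

section Infinite

variable {F : Type*} [Field F] {I : Type*}

/-- a half system of complex embeddings. -/
def IsHalf (φ : I → F →+* ℂ) : Prop :=
  Function.Bijective (Sum.elim φ (fun i => ComplexEmbedding.conjugate (φ i)))

/-- the trace form `∑ 2 Re x_i` on `ℂ^I`. -/
def trI [Fintype I] (x : I → ℂ) : ℝ := ∑ i, 2 * (x i).re

/-- the diagonal embedding `F → ℂ^I`. -/
def diagI (φ : I → F →+* ℂ) : F →+* (I → ℂ) := RingHom.pi φ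

@[simp] theorem diagI_apply (φ : I → F →+* ℂ) (a : F) (i : I) : diagI φ a i = φ i a := rfl

variable [Fintype I]

theorem trI_add (x y : I → ℂ) : trI (x + y) = trI x + trI y := by
  simp [trI, mul_add, Finset.sum_add_distrib]

theorem trI_sub (x y : I → ℂ) : trI (x - y) = trI x - trI y := by
  simp [trI, mul_sub, Finset.sum_sub_distrib]

theorem trI_zero : trI (0 : I → ℂ) = 0 := by simp [trI]

theorem trI_smul (r : ℝ) (x : I → ℂ) : trI (r • x) = r * trI x := by
  simp only [trI, Pi.smul_apply, Complex.real_smul, Complex.re_ofReal_mul, Finset.mul_sum]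
  exact Finset.sum_congr rfl fun i _ => by ring

theorem continuous_trI : Continuous (trI : (I → ℂ) → ℝ) := by
  unfold trI
  fun_prop

/-- the sum over all the embeddings in terms of a half system. -/
theorem sum_embeddings [Fintype (F →+* ℂ)] {φ : I → F →+* ℂ} (hφ : IsHalf φ)
    (f : (F →+* ℂ) → ℂ) :
    ∑ ψ, f ψ = ∑ i, (f (φ i) + f (ComplexEmbedding.conjugate (φ i))) := by
  rw [← (Equiv.ofBijective _ hφ).sum_comp f, Fintype.sum_sum_type, Finset.sum_add_distrib]
  rfl

theorem trI_diagI [NumberField F] {φ : I → F →+* ℂ} (hφ : IsHalf φ) (a : F) :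
    trI (diagI φ a) = (Algebra.trace ℚ F a : ℝ) := by
  classical
  have h1 : ((Algebra.trace ℚ F a : ℚ) : ℂ) = ∑ ψ : F →+* ℂ, ψ a := by
    have := trace_eq_sum_embeddings (K := ℚ) (L := F) ℂ (x := a)
    rw [eq_ratCast] at this
    rw [this]
    exact Fintype.sum_equiv (RingHom.equivRatAlgHom F ℂ).symm _ _ fun _ => rfl
  rw [sum_embeddings hφ] at h1
  have h2 : ((trI (diagI φ a) : ℝ) : ℂ) = ((Algebra.trace ℚ F a : ℚ) : ℂ) := by
    rw [h1, trI, Complex.ofReal_sum]
    refine Finset.sum_congr rfl fun i _ => ?_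
    rw [ComplexEmbedding.conjugate_coe_eq, Complex.add_conj]
    rfl
  exact_mod_cast h2

/-- the trace form is nondegenerate: a vector orthogonal to `𝓞 F` vanishes. -/
theorem eq_zero_of_trI [NumberField F] {φ : I → F →+* ℂ} (hφ : IsHalf φ) {y : I → ℂ}
    (h : ∀ a : 𝓞 F, trI (diagI φ (a : F) * y) = 0) : y = 0 := by
  classical
  -- extend `y` to all embeddings
  set e := Equiv.ofBijective _ hφ with he
  set Y : (F →+* ℂ) → ℂ := fun ψ => Sum.elim y (fun i => conj (y i)) (e.symm ψ) with hY
  have hY1 : ∀ i, Y (φ i) = y i := fun i => by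
    have : e.symm (φ i) = Sum.inl i := by
      rw [Equiv.symm_apply_eq]; rfl
    rw [hY]
    simp only [this, Sum.elim_inl]
  have hY2 : ∀ i, Y (ComplexEmbedding.conjugate (φ i)) = conj (y i) := fun i => by
    have : e.symm (ComplexEmbedding.conjugate (φ i)) = Sum.inr i := by
      rw [Equiv.symm_apply_eq]; rfl
    rw [hY]
    simp only [this, Sum.elim_inr]
  -- the functional
  let ℓ : ((F →+* ℂ) → ℂ) →ₗ[ℂ] ℂ := ∑ ψ : F →+* ℂ, (Y ψ) • LinearMap.proj ψ
  have hℓ : ∀ f, ℓ f = ∑ ψ, Y ψ * f ψ := fun f => by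
    simp only [ℓ, LinearMap.sum_apply, LinearMap.smul_apply, LinearMap.proj_apply, smul_eq_mul]
  have h0 : ℓ = 0 := by
    refine (canonicalEmbedding.latticeBasis F).ext fun i => ?_
    rw [canonicalEmbedding.latticeBasis_apply, hℓ, LinearMap.zero_apply, sum_embeddings hφ]
    have h1 := h (RingOfIntegers.basis F i)
    rw [show ((RingOfIntegers.basis F i : 𝓞 F) : F) = integralBasis F i from
      (integralBasis_apply F i).symm] at h1
    have h2 : (((trI (diagI φ (integralBasis F i) * y) : ℝ)) : ℂ) = 0 := by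
      rw [h1]; simp
    rw [trI, Complex.ofReal_sum] at h2
    rw [← h2]
    refine Finset.sum_congr rfl fun j _ => ?_
    rw [hY1, hY2, canonicalEmbedding.apply_at, canonicalEmbedding.apply_at,
      ComplexEmbedding.conjugate_coe_eq, ← map_mul, Complex.add_conj, Pi.mul_apply, diagI_apply,
      mul_comm (y j)]
  funext i
  have h3 : ℓ (Pi.single (φ i) 1) = 0 := by rw [h0]; rfl
  rw [hℓ, Finset.sum_eq_single (φ i) (fun ψ _ hψ => by simp [Pi.single_eq_of_ne hψ])
    (fun h => absurd (Finset.mem_univ _) h), Pi.single_eq_same, mul_one, hY1] at h3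
  exact h3

/-- a vector of `ℂ^I` whose trace pairing with `𝓞 F` is integral is in the (diagonal image of
the) inverse different. -/
theorem exists_of_int [NumberField F] {φ : I → F →+* ℂ} (hφ : IsHalf φ) {x : I → ℂ}
    (h : ∀ a : 𝓞 F, ∃ n : ℤ, trI (diagI φ (a : F) * x) = n) :
    ∃ c : F, x = diagI φ c ∧ ∀ a : 𝓞 F, ∃ n : ℤ, Algebra.trace ℚ F ((a : F) * c) = n := by
  classical
  choose n hn using h
  set b := integralBasis F
  set B := Algebra.traceForm ℚ F with hB
  have hnd : B.Nondegenerate := traceForm_nondegenerate ℚ F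
  set c : F := ∑ i, (n (RingOfIntegers.basis F i) : ℚ) • B.dualBasis hnd b i with hc
  have hcb : ∀ j, Algebra.trace ℚ F (b j * c) = n (RingOfIntegers.basis F j) := by
    intro j
    have h1 : B c (b j) = n (RingOfIntegers.basis F j) := by
      rw [hc, map_sum, LinearMap.sum_apply, Finset.sum_eq_single j]
      · rw [map_smul, LinearMap.smul_apply, LinearMap.BilinForm.apply_dualBasis_left, if_pos rfl,
          smul_eq_mul, mul_one]
      · intro i _ hi
        rw [map_smul, LinearMap.smul_apply, LinearMap.BilinForm.apply_dualBasis_left,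
          if_neg (Ne.symm hi), smul_zero]
      · exact fun h => absurd (Finset.mem_univ _) h
    rw [hB, Algebra.traceForm_apply] at h1
    rw [mul_comm, h1]
  have hx : x = diagI φ c := by
    have key : ∀ a : 𝓞 F, trI (diagI φ (a : F) * (x - diagI φ c)) = 0 := by
      intro a
      have h2 : (a : F) = ∑ i, ((RingOfIntegers.basis F).repr a i : ℤ) • b i := by
        have h3 := (RingOfIntegers.basis F).sum_repr a
        conv_lhs => rw [← h3]
        rw [show ((∑ i, (RingOfIntegers.basis F).repr a i • RingOfIntegers.basis F i : 𝓞 F) : F) =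
          algebraMap (𝓞 F) F (∑ i, (RingOfIntegers.basis F).repr a i • RingOfIntegers.basis F i)
          from rfl, map_sum]
        refine Finset.sum_congr rfl fun i _ => ?_
        rw [zsmul_eq_mul, map_mul, map_intCast, ← zsmul_eq_mul]
        congr 1
        exact (integralBasis_apply F i).symm
      have h4 : ∀ i, trI (diagI φ (b i) * (x - diagI φ c)) = 0 := by
        intro i
        have h5 : b i = ((RingOfIntegers.basis F i : 𝓞 F) : F) := integralBasis_apply F i
        rw [mul_sub, trI_sub, ← map_mul, trI_diagI hφ, hcb, h5, hn]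
        simp
      rw [h2, map_sum, Finset.sum_mul]
      have h6 : ∀ (s : Finset _) , trI (∑ i ∈ s, diagI φ (((RingOfIntegers.basis F).repr a i : ℤ) • b i)
          * (x - diagI φ c)) = 0 := by
        intro s
        induction s using Finset.induction_on with
        | empty => simp [trI_zero]
        | insert j s hj ih =>
          rw [Finset.sum_insert hj, trI_add, ih, add_zero, zsmul_eq_mul, map_mul, map_intCast,
            mul_assoc]
          have h7 : ((((RingOfIntegers.basis F).repr a j : ℤ) : I → ℂ)) *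
            (diagI φ (b j) * (x - diagI φ c)) = (((RingOfIntegers.basis F).repr a j : ℤ) : ℝ) •
              (diagI φ (b j) * (x - diagI φ c)) := by
            funext i
            simp [Pi.intCast_apply]
          rw [h7, trI_smul, h4, mul_zero]
      exact h6 _
    have := eq_zero_of_trI hφ key
    exact sub_eq_zero.mp this
  refine ⟨c, hx, fun a => ⟨n a, ?_⟩⟩
  have h8 := hn a
  rw [hx, ← map_mul, trI_diagI hφ] at h8
  exact_mod_cast h8

end Infinite

section HalfSystems

variable {F : Type*} [Field F] [NumberField F]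

omit [NumberField F] in
/-- the embeddings of the infinite places form a half system, for `F` totally complex. -/
theorem isHalf_infinitePlace [IsTotallyComplex F] :
    IsHalf (fun w : InfinitePlace F => w.embedding) := by
  have hne : ∀ w : InfinitePlace F, ComplexEmbedding.conjugate w.embedding ≠ w.embedding := by
    intro w h
    have h1 := IsTotallyComplex.isComplex w
    rw [InfinitePlace.isComplex_iff] at h1
    exact h1 h
  constructor
  · rintro (w | w) (w' | w') h
    · simp only [Sum.elim_inl] at h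
      rw [← InfinitePlace.mk_embedding w, h, InfinitePlace.mk_embedding]
    · exfalso
      simp only [Sum.elim_inl, Sum.elim_inr] at h
      have h2 : w = w' := by
        rw [← InfinitePlace.mk_embedding w, h, InfinitePlace.mk_conjugate_eq,
          InfinitePlace.mk_embedding]
      subst h2
      exact hne w h.symm
    · exfalso
      simp only [Sum.elim_inl, Sum.elim_inr] at h
      have h2 : w = w' := by
        rw [← InfinitePlace.mk_embedding w', ← h, InfinitePlace.mk_conjugate_eq,
          InfinitePlace.mk_embedding]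
      subst h2
      exact hne w h
    · simp only [Sum.elim_inr] at h
      have h2 : w = w' := by
        rw [← InfinitePlace.mk_embedding w, ← InfinitePlace.mk_conjugate_eq, h,
          InfinitePlace.mk_conjugate_eq, InfinitePlace.mk_embedding]
      rw [h2]
  · intro ψ
    rcases InfinitePlace.mk_eq_iff.mp (InfinitePlace.mk_embedding (InfinitePlace.mk ψ)) with h | h
    · exact ⟨Sum.inl (InfinitePlace.mk ψ), h⟩
    · exact ⟨Sum.inr (InfinitePlace.mk ψ), h⟩

end HalfSystems

section HalfAlg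

variable {K F : Type*} [Field K] [Field F] [Algebra K F] [Algebra K ℂ]

/-- `K` imaginary quadratic with a fixed embedding in `ℂ`: the `K`-embeddings of `F` form a half
system. -/
theorem isHalf_algHom (hK : ∀ ψ : K →+* ℂ, ψ = algebraMap K ℂ ∨
      ψ = ComplexEmbedding.conjugate (algebraMap K ℂ))
    (hK' : ComplexEmbedding.conjugate (algebraMap K ℂ) ≠ algebraMap K ℂ) :
    IsHalf (fun f : F →ₐ[K] ℂ => (f : F →+* ℂ)) := by
  have h1 : ∀ f : F →ₐ[K] ℂ, (f : F →+* ℂ).comp (algebraMap K F) = algebraMap K ℂ := fun f =>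
    f.comp_algebraMap
  have h2 : ∀ f : F →ₐ[K] ℂ, (ComplexEmbedding.conjugate (f : F →+* ℂ)).comp (algebraMap K F) =
      ComplexEmbedding.conjugate (algebraMap K ℂ) := fun f => by
    rw [← h1 f]; rfl
  constructor
  · rintro (f | f) (g | g) h
    · simp only [Sum.elim_inl] at h
      rw [AlgHom.coe_ringHom_injective h]
    · exfalso
      simp only [Sum.elim_inl, Sum.elim_inr] at h
      have := h1 f
      rw [h, h2] at this
      exact hK' this
    · exfalso
      simp only [Sum.elim_inl, Sum.elim_inr] at h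
      have := h1 g
      rw [← h, h2] at this
      exact hK' this
    · simp only [Sum.elim_inr] at h
      have h3 : (f : F →+* ℂ) = (g : F →+* ℂ) := by
        have h4 := congrArg ComplexEmbedding.conjugate h
        rwa [ComplexEmbedding.involutive_conjugate, ComplexEmbedding.involutive_conjugate] at h4
      rw [AlgHom.coe_ringHom_injective h3]
  · intro ψ
    rcases hK (ψ.comp (algebraMap K F)) with h | h
    · refine ⟨Sum.inl { ψ with commutes' := fun r => ?_ }, ?_⟩
      · exact RingHom.congr_fun h r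
      · rfl
    · refine ⟨Sum.inr { ComplexEmbedding.conjugate ψ with commutes' := fun r => ?_ }, ?_⟩
      · have h3 := RingHom.congr_fun h r
        have h4 := congrArg (starRingEnd ℂ) h3
        rw [ComplexEmbedding.conjugate_coe_eq, Complex.conj_conj] at h4
        exact h4
      · exact ComplexEmbedding.involutive_conjugate F ψ

end HalfAlg

section Finite

variable {F : Type*} [Field F] [NumberField F]

/-- the discriminant form of the hypothesis on `S`. -/
theorem dvd_different_of_discr {S : Finset (HeightOneSpectrum (𝓞 F))}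
    (hS : ∀ v : HeightOneSpectrum (𝓞 F), ((discr F : ℤ) : 𝓞 F) ∈ v.asIdeal → v ∈ S)
    (v : HeightOneSpectrum (𝓞 F)) (hv : v.asIdeal ∣ differentIdeal ℤ (𝓞 F)) : v ∈ S := by
  refine hS v ?_
  have h1 : ((Ideal.absNorm (differentIdeal ℤ (𝓞 F)) : ℕ) : 𝓞 F) ∈ v.asIdeal :=
    Ideal.dvd_iff_le.mp hv (Ideal.absNorm_mem _)
  rw [absNorm_differentIdeal F (𝒪 := 𝓞 F)] at h1
  rcases Int.natAbs_eq (discr F) with h | h
  · have h2 : ((discr F : ℤ) : 𝓞 F) = (((discr F).natAbs : ℕ) : 𝓞 F) := by
      conv_lhs => rw [h]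
      rw [Int.cast_natCast]
    rw [h2]
    exact h1
  · have h2 : ((discr F : ℤ) : 𝓞 F) = -(((discr F).natAbs : ℕ) : 𝓞 F) := by
      conv_lhs => rw [h]
      rw [Int.cast_neg, Int.cast_natCast]
    rw [h2]
    exact v.asIdeal.neg_mem h1

theorem trace_int (a : 𝓞 F) : ∃ n : ℤ, Algebra.trace ℚ F (a : F) = n :=
  ⟨Algebra.trace ℤ _ a, (Algebra.coe_trace_int a).symm⟩

/-- the different kills the inverse different. -/
theorem different_mul {c : F}
    (hc : ∀ a : 𝓞 F, ∃ n : ℤ, Algebra.trace ℚ F ((a : F) * c) = n)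
    {d : 𝓞 F} (hd : d ∈ differentIdeal ℤ (𝓞 F)) : ∃ b : 𝓞 F, (b : F) = d * c := by
  have h1 : algebraMap (𝓞 F) F d ∈
      IsLocalization.coeSubmodule F (differentIdeal ℤ (𝓞 F)) :=
    ⟨d, hd, rfl⟩
  rw [coeSubmodule_differentIdeal ℤ ℚ, Submodule.mem_div_iff_forall_mul_mem] at h1
  have h2 : c ∈ Submodule.traceDual ℤ ℚ (1 : Submodule (𝓞 F) F) := by
    rw [Submodule.mem_traceDual]
    rintro y hy
    obtain ⟨a, rfl⟩ := Submodule.mem_one.mp hy
    obtain ⟨n, hn⟩ := hc a
    rw [Algebra.traceForm_apply, mul_comm]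
    exact ⟨n, by rw [hn]; simp⟩
  obtain ⟨b, hb⟩ := Submodule.mem_one.mp (h1 c h2)
  exact ⟨b, hb⟩

theorem val_le_one_of_trace {c : F}
    (hc : ∀ a : 𝓞 F, ∃ n : ℤ, Algebra.trace ℚ F ((a : F) * c) = n)
    {v : HeightOneSpectrum (𝓞 F)} (hv : ¬ v.asIdeal ∣ differentIdeal ℤ (𝓞 F)) :
    v.valuation F c ≤ 1 := by
  rw [Ideal.dvd_iff_le, SetLike.not_le_iff_exists] at hv
  obtain ⟨d, hd, hdv⟩ := hv
  obtain ⟨b, hb⟩ := different_mul hc hd
  have h1 : v.valuation F (d : F) = 1 := by
    rw [valuation_eq_one_iff_notMem]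
    exact hdv
  calc v.valuation F c = v.valuation F ((d : F) * c) := by rw [map_mul, h1, one_mul]
    _ ≤ 1 := by rw [← hb]; exact v.valuation_le_one b

variable (S : Finset (HeightOneSpectrum (𝓞 F)))

/-- `∏_{v ∈ S} F_v`. -/
abbrev Rf : Type _ := ∀ v : S, v.1.adicCompletion F

/-- the diagonal embedding `F → ∏_{v ∈ S} F_v`. -/
def diagF : F →+* Rf S := RingHom.pi fun v => ι v.1

@[simp] theorem diagF_apply (a : F) (v : S) : diagF S a v = ι v.1 a := rfl

/-- `∏_{v ∈ S} O_v`. -/
def intF : Subring (Rf S) where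
  carrier := {x | ∀ v, Valued.v (x v) ≤ 1}
  mul_mem' {x y} hx hy v := by
    rw [Pi.mul_apply, map_mul]; exact mul_le_one' (hx v) (hy v)
  one_mem' v := by rw [Pi.one_apply, map_one]
  add_mem' {x y} hx hy v := (Valued.v.map_add _ _).trans (max_le (hx v) (hy v))
  zero_mem' v := by rw [Pi.zero_apply, map_zero]; exact zero_le
  neg_mem' {x} hx v := by rw [Pi.neg_apply, Valuation.map_neg]; exact hx v

variable {S}

theorem mem_intF {x : Rf S} : x ∈ intF S ↔ ∀ v, Valued.v (x v) ≤ 1 := Iff.rfl

theorem diagF_mem_intF (a : 𝓞 F) : diagF S (a : F) ∈ intF S := fun v => by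
  rw [diagF_apply, v_ι]
  exact v.1.valuation_le_one a

theorem exists_int_of_mem {c : F} (hc : c ∈ OS S) (h : diagF S c ∈ intF S) :
    ∃ a : 𝓞 F, (a : F) = c := by
  refine HeightOneSpectrum.mem_integers_of_valuation_le_one F _ fun v => ?_
  by_cases hv : v ∈ S
  · have := h ⟨v, hv⟩
    rwa [diagF_apply, v_ι] at this
  · exact hc v hv

variable (S) in
theorem exists_approx (x : Rf S) : ∃ a ∈ OS S, x - diagF S a ∈ intF S := by
  obtain ⟨a, ha, h⟩ := exists_OS_approx S x one_ne_zero
  refine ⟨a, ha, fun v => ?_⟩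
  rw [Pi.sub_apply, diagF_apply, Valuation.map_sub_swap]
  exact (h v).le

theorem isOpen_intF : IsOpen (intF S : Set (Rf S)) := by
  have h1 : (intF S : Set (Rf S)) = ⋂ v : S, (fun x : Rf S => x v) ⁻¹'
      {z : v.1.adicCompletion F | Valued.v z ≤ 1} := by
    ext x
    simp [mem_intF]
  rw [h1]
  refine isOpen_iInter_of_finite fun v => IsOpen.preimage (continuous_apply v) ?_
  exact Valued.isOpen_valuationSubring (v.1.adicCompletion F)

/-- `thetaF` as a function: `e(-Tr a)` for any `a ∈ O_S` with `x - a` integral. -/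
def thetaAux (x : Rf S) : Circle :=
  𝐞 (-((Algebra.trace ℚ F (exists_approx S x).choose : ℚ) : ℝ))

theorem thetaAux_eq {x : Rf S} {a : F} (ha : a ∈ OS S) (hx : x - diagF S a ∈ intF S) :
    thetaAux x = 𝐞 (-((Algebra.trace ℚ F a : ℚ) : ℝ)) := by
  obtain ⟨hb, hbx⟩ := (exists_approx S x).choose_spec
  set b := (exists_approx S x).choose with hbdef
  obtain ⟨c, hc⟩ := exists_int_of_mem (S := S) (Subalgebra.sub_mem _ ha hb) (by
    rw [map_sub, show diagF S a - diagF S b = (x - diagF S b) - (x - diagF S a) by ring]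
    exact Subring.sub_mem _ hbx hx)
  obtain ⟨n, hn⟩ := trace_int c
  rw [thetaAux, ← hbdef, show (-((Algebra.trace ℚ F b : ℚ) : ℝ)) =
    -((Algebra.trace ℚ F a : ℚ) : ℝ) + ((n : ℤ) : ℝ) by
      rw [hc, map_sub] at hn
      have : (Algebra.trace ℚ F b : ℚ) = Algebra.trace ℚ F a - n := by linarith
      rw [this]; push_cast; ring, AddChar.map_add_eq_mul, fc_int, mul_one]

variable (S) in
/-- the additive character of `∏_{v ∈ S} F_v`, trivial on `∏ O_v`. -/
def thetaF : AddChar (Rf S) Circle where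
  toFun := thetaAux
  map_zero_eq_one' := by
    rw [thetaAux_eq (a := 0) (Subalgebra.zero_mem _) (by simp)]
    simp
  map_add_eq_mul' x y := by
    obtain ⟨a, ha, hax⟩ := exists_approx S x
    obtain ⟨b, hb, hby⟩ := exists_approx S y
    rw [thetaAux_eq ha hax, thetaAux_eq hb hby, thetaAux_eq (a := a + b)
      (Subalgebra.add_mem _ ha hb), ← AddChar.map_add_eq_mul, map_add]
    · congr 1
      push_cast
      ring
    · rw [map_add, show x + y - (diagF S a + diagF S b) = (x - diagF S a) + (y - diagF S b) by ring]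
      exact Subring.add_mem _ hax hby

theorem thetaF_eq {x : Rf S} {a : F} (ha : a ∈ OS S) (hx : x - diagF S a ∈ intF S) :
    thetaF S x = 𝐞 (-((Algebra.trace ℚ F a : ℚ) : ℝ)) := thetaAux_eq ha hx

theorem thetaF_diagF {a : F} (ha : a ∈ OS S) :
    thetaF S (diagF S a) = 𝐞 (-((Algebra.trace ℚ F a : ℚ) : ℝ)) :=
  thetaF_eq ha (by rw [sub_self]; exact Subring.zero_mem _)

theorem thetaF_eq_one {x : Rf S} (hx : x ∈ intF S) : thetaF S x = 1 := by
  rw [thetaF_eq (a := 0) (Subalgebra.zero_mem _) (by rwa [map_zero, sub_zero])]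
  simp

theorem isLocallyConstant_thetaF : IsLocallyConstant (thetaF S) := by
  rw [IsLocallyConstant.iff_eventually_eq]
  intro x
  have h1 : {y | y - x ∈ intF S} ∈ nhds x := by
    have h2 : IsOpen {y : Rf S | y - x ∈ intF S} :=
      isOpen_intF.preimage (continuous_id.sub continuous_const)
    refine h2.mem_nhds ?_
    show x - x ∈ intF S
    rw [sub_self]
    exact Subring.zero_mem _
  filter_upwards [h1] with y hy
  rw [show y = x + (y - x) by ring, AddChar.map_add_eq_mul, thetaF_eq_one hy, mul_one]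

theorem continuous_thetaF : Continuous (thetaF S) := isLocallyConstant_thetaF.continuous

/-- elements of `F` with integral components outside `v`, at which the trace is not integral. -/
theorem exists_trace_not_int (v : HeightOneSpectrum (𝓞 F)) :
    ∃ a : F, (∀ w : HeightOneSpectrum (𝓞 F), w ≠ v → w.valuation F a ≤ 1) ∧
      ∀ n : ℤ, Algebra.trace ℚ F a ≠ n := by
  classical
  by_contra hcon
  push Not at hcon
  -- the module of all such elements is contained in the inverse different
  obtain ⟨d, hd, hd0⟩ := Submodule.exists_mem_ne_zero_of_ne_bot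
    (differentIdeal_ne_bot (A := ℤ) (B := 𝓞 F))
  obtain ⟨u, hu⟩ := CFT.SUnits.exists_div_eq_single F v
  have hu1 : ∀ w, CFT.SUnits.ord w u = if w = v then (classNumber F : ℤ) else 0 := by
    intro w
    have := DFunLike.congr_fun hu w
    rw [CFT.SUnits.div_apply, Finsupp.single_apply] at this
    rw [this]
    simp only [eq_comm]
  have hcl : (0 : ℤ) < (classNumber F : ℤ) := by exact_mod_cast classNumber_pos F
  have hd0' : (d : F) ≠ 0 := by simpa using hd0
  set du : Fˣ := Units.mk0 (d : F) hd0'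
  have key : ∀ n : ℕ, 0 ≤ CFT.SUnits.ord v (du * u⁻¹ ^ n) := by
    intro n
    have h1 : ∀ a : 𝓞 F, ∃ m : ℤ, Algebra.trace ℚ F ((a : F) * ((u⁻¹ ^ n : Fˣ) : F)) = m := by
      intro a
      refine hcon _ fun w hw => ?_
      rw [map_mul]
      refine mul_le_one' (w.valuation_le_one a) ?_
      rw [← CFT.SUnits.ord_nonneg_iff, CFT.SUnits.ord_pow, CFT.SUnits.ord_inv, hu1, if_neg hw]
      simp
    obtain ⟨b, hb⟩ := different_mul h1 hd
    rw [CFT.SUnits.ord_nonneg_iff, Units.val_mul]
    show v.valuation F ((d : F) * _) ≤ 1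
    rw [← hb]
    exact v.valuation_le_one b
  have h2 := key (CFT.SUnits.ord v du).toNat.succ
  rw [CFT.SUnits.ord_mul, CFT.SUnits.ord_pow, CFT.SUnits.ord_inv, hu1, if_pos rfl] at h2
  have h3 := Int.self_le_toNat (CFT.SUnits.ord v du)
  have h4 : ((CFT.SUnits.ord v du).toNat.succ : ℤ) ≤
    ((CFT.SUnits.ord v du).toNat.succ : ℤ) * (classNumber F : ℤ) := by nlinarith
  push_cast at h2 h4
  nlinarith

/-- `thetaF` is non-degenerate on `∏ F_v`. -/
theorem eq_zero_of_thetaF {y : Rf S} (h : ∀ z : Rf S, thetaF S (z * y) = 1) : y = 0 := by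
  classical
  by_contra hy
  obtain ⟨v, hv⟩ := Function.ne_iff.mp hy
  rw [Pi.zero_apply] at hv
  obtain ⟨a, ha, hna⟩ := exists_trace_not_int v.1
  have h1 : (Pi.single v (ι v.1 a / y v) : Rf S) * y = Pi.single v (ι v.1 a) := by
    funext w
    rw [Pi.mul_apply]
    by_cases hw : w = v
    · subst hw
      rw [Pi.single_eq_same, Pi.single_eq_same, div_mul_cancel₀ _ hv]
    · rw [Pi.single_eq_of_ne hw, Pi.single_eq_of_ne hw, zero_mul]
  have haS : a ∈ OS S := fun w hw => ha w (fun e => hw (e ▸ v.2))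
  have h2 : (Pi.single v (ι v.1 a) : Rf S) - diagF S a ∈ intF S := by
    intro w
    rw [Pi.sub_apply, diagF_apply]
    by_cases hw : w = v
    · subst hw
      rw [Pi.single_eq_same, sub_self, map_zero]
      exact zero_le
    · rw [Pi.single_eq_of_ne hw, zero_sub, Valuation.map_neg, v_ι]
      exact ha w.1 (fun e => hw (Subtype.ext e))
  have h3 := h (Pi.single v (ι v.1 a / y v))
  rw [h1, thetaF_eq haS h2, fc_eq_one_iff] at h3
  obtain ⟨n, hn⟩ := h3
  refine hna (-n) ?_
  have : ((Algebra.trace ℚ F a : ℚ) : ℝ) = ((-n : ℤ) : ℝ) := by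
    push_cast
    linarith
  exact_mod_cast this

theorem eq_zero_of_thetaF_OS {y : Rf S} (h : ∀ a ∈ OS S, thetaF S (diagF S a * y) = 1) :
    y = 0 := by
  refine eq_zero_of_thetaF fun z => ?_
  have hcl : IsClosed {z : Rf S | thetaF S (z * y) = 1} :=
    isClosed_eq (continuous_thetaF.comp (continuous_id.mul continuous_const)) continuous_const
  have hd : Dense {z : Rf S | thetaF S (z * y) = 1} :=
    (denseRange_OS S).mono (by
      rintro _ ⟨a, rfl⟩
      exact h a.1 a.2)
  have := hcl.closure_eq ▸ hd.closure_eq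
  exact (Set.eq_univ_iff_forall.mp this) z

/-! ### the conductor -/

variable (S) in
/-- the local inverse different `{x | θ(x O) = 1}`. -/
def condF : AddSubgroup (Rf S) where
  carrier := {x | ∀ y ∈ intF S, thetaF S (x * y) = 1}
  add_mem' {x x'} hx hx' y hy := by
    rw [add_mul, AddChar.map_add_eq_mul, hx y hy, hx' y hy, mul_one]
  zero_mem' y _ := by rw [zero_mul, AddChar.map_zero_eq_one]
  neg_mem' {x} hx y hy := by rw [neg_mul, AddChar.map_neg_eq_inv, hx y hy, inv_one]

theorem mem_condF {x : Rf S} : x ∈ condF S ↔ ∀ y ∈ intF S, thetaF S (x * y) = 1 := Iff.rfl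

theorem mul_mem_condF {x y : Rf S} (hx : x ∈ condF S) (hy : y ∈ intF S) : x * y ∈ condF S :=
  fun z hz => by rw [mul_assoc]; exact hx _ (Subring.mul_mem _ hy hz)

theorem intF_le_condF {x : Rf S} (hx : x ∈ intF S) : x ∈ condF S := fun _ hy =>
  thetaF_eq_one (Subring.mul_mem _ hx hy)

theorem thetaF_eq_one_of_condF {x : Rf S} (hx : x ∈ condF S) : thetaF S x = 1 := by
  have := hx 1 (Subring.one_mem _)
  rwa [mul_one] at this

/-- the local inverse different is generated by the global one. -/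
theorem exists_of_mem_condF {x : Rf S} (hx : x ∈ condF S) : ∃ c ∈ OS S,
    x - diagF S c ∈ intF S ∧ ∀ a : 𝓞 F, ∃ n : ℤ, Algebra.trace ℚ F ((a : F) * c) = n := by
  obtain ⟨c, hc, hcx⟩ := exists_approx S x
  refine ⟨c, hc, hcx, fun a => ?_⟩
  have h1 : thetaF S (diagF S ((a : F) * c)) = 1 := by
    have h2 : diagF S ((a : F) * c) = x * diagF S (a : F) - (x - diagF S c) * diagF S (a : F) := by
      rw [map_mul]; ring
    rw [h2, sub_eq_add_neg, AddChar.map_add_eq_mul, hx _ (diagF_mem_intF a), one_mul,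
      thetaF_eq_one (Subring.neg_mem _ (Subring.mul_mem _ hcx (diagF_mem_intF a)))]
  rw [thetaF_diagF (Subalgebra.mul_mem _ (fun v _ => v.valuation_le_one a) hc),
    fc_eq_one_iff] at h1
  obtain ⟨n, hn⟩ := h1
  refine ⟨-n, ?_⟩
  have : ((Algebra.trace ℚ F ((a : F) * c) : ℚ) : ℝ) = ((-n : ℤ) : ℝ) := by
    push_cast
    linarith
  exact_mod_cast this

variable (S) in
/-- a non-zero algebraic integer kills the local inverse different. -/
theorem exists_mul_mem_intF : ∃ d : 𝓞 F, d ≠ 0 ∧
    ∀ x ∈ condF S, diagF S (d : F) * x ∈ intF S := by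
  obtain ⟨d, hd, hd0⟩ := Submodule.exists_mem_ne_zero_of_ne_bot
    (differentIdeal_ne_bot (A := ℤ) (B := 𝓞 F))
  refine ⟨d, hd0, fun x hx => ?_⟩
  obtain ⟨c, hc, hcx, htr⟩ := exists_of_mem_condF hx
  obtain ⟨b, hb⟩ := different_mul htr hd
  have h1 : diagF S (d : F) * x = diagF S (d : F) * (x - diagF S c) + diagF S (b : F) := by
    rw [hb, map_mul]; ring
  rw [h1]
  exact Subring.add_mem _ (Subring.mul_mem _ (diagF_mem_intF d) hcx) (diagF_mem_intF b)

/-- a power of any `N` divisible by all places of `S` maps the local inverse different into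
`∏ O_v`. -/
theorem exists_pow_mul_mem_intF (N : 𝓞 F) (hN : ∀ v ∈ S, v.valuation F (N : F) < 1) :
    ∃ j : ℕ, ∀ x ∈ condF S, diagF S (N : F) ^ j * x ∈ intF S := by
  obtain ⟨d, hd0, hd⟩ := exists_mul_mem_intF S
  have hd0' : (d : F) ≠ 0 := by simpa using hd0
  obtain ⟨j, hj⟩ := exists_pow_mul_le S N hN (fun v => ι v.1 ((d : F)⁻¹)) one_ne_zero
  refine ⟨j, fun x hx => ?_⟩
  have h1 : diagF S (N : F) ^ j * x =
      (diagF S (N : F) ^ j * diagF S ((d : F)⁻¹)) * (diagF S (d : F) * x) := by
    have : diagF S ((d : F)⁻¹) * diagF S (d : F) = 1 := by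
      rw [← map_mul, inv_mul_cancel₀ hd0', map_one]
    calc diagF S (N : F) ^ j * x = diagF S (N : F) ^ j *
          (diagF S ((d : F)⁻¹) * diagF S (d : F)) * x := by rw [this, mul_one]
      _ = _ := by ring
  rw [h1]
  exact Subring.mul_mem _ (fun v => hj v) (hd x hx)

/-- an element of the inverse different is in the local inverse different. -/
theorem diagF_mem_condF {c : F} (hc : c ∈ OS S)
    (htr : ∀ a : 𝓞 F, ∃ n : ℤ, Algebra.trace ℚ F ((a : F) * c) = n) : diagF S c ∈ condF S := by
  intro y hy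
  have h1 : ∀ v : S, ∃ n : ℕ, Valued.v (ι v.1 c) * exp (-(n : ℤ)) ≤ 1 := by
    intro v
    by_cases h0 : Valued.v (ι v.1 c) = 0
    · exact ⟨0, by rw [h0, zero_mul]; exact zero_le⟩
    · obtain ⟨m, hm⟩ : ∃ m : ℤ, Valued.v (ι v.1 c) = exp m := ⟨_, (exp_log h0).symm⟩
      refine ⟨m.toNat, ?_⟩
      rw [hm, ← exp_add, ← exp_zero, exp_le_exp]
      have := Int.self_le_toNat m
      omega
  choose n hn using h1
  obtain ⟨b, hb⟩ := exists_int_approx S y hy
    (γ := exp (-((Finset.univ.sup n : ℕ) : ℤ))) exp_ne_zero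
  have h2 : diagF S c * y - diagF S ((b : F) * c) ∈ intF S := by
    intro v
    rw [map_mul, Pi.sub_apply, Pi.mul_apply, Pi.mul_apply, diagF_apply, diagF_apply,
      show ι v.1 c * y v - ι v.1 (b : F) * ι v.1 c = -(ι v.1 c * (ι v.1 (b : F) - y v)) by ring,
      Valuation.map_neg, map_mul]
    refine le_trans (mul_le_mul' le_rfl ((hb v).le.trans ?_)) (hn v)
    rw [exp_le_exp]
    have := Finset.le_sup (f := n) (Finset.mem_univ v)
    omega
  obtain ⟨m, hm⟩ := htr b
  rw [thetaF_eq (Subalgebra.mul_mem _ (fun v _ => v.valuation_le_one b) hc) h2, hm,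
    fc_eq_one_iff]
  exact ⟨-m, by push_cast; ring⟩

/-- the local inverse different is generated by a generator of the global one. -/
theorem mem_condF_iff {δ : F} (hδ0 : δ ≠ 0) (hδS : δ ∈ OS S)
    (hδ : ∀ c : F, (∀ a : 𝓞 F, ∃ n : ℤ, Algebra.trace ℚ F ((a : F) * c) = n) ↔
      ∃ b : 𝓞 F, c = δ * b) {x : Rf S} :
    x ∈ condF S ↔ diagF S δ⁻¹ * x ∈ intF S := by
  have hinv : diagF S δ⁻¹ * diagF S δ = 1 := by
    rw [← map_mul, inv_mul_cancel₀ hδ0, map_one]
  have hinv' : diagF S δ * diagF S δ⁻¹ = 1 := by rw [mul_comm]; exact hinv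
  have hδc : diagF S δ ∈ condF S := diagF_mem_condF hδS ((hδ δ).mpr ⟨1, by simp⟩)
  constructor
  · intro hx
    obtain ⟨c, hc, hcx, htr⟩ := exists_of_mem_condF hx
    obtain ⟨b, rfl⟩ := (hδ c).mp htr
    -- the inverse of `δ` is integral
    obtain ⟨b1, hb1⟩ := (hδ 1).mp (fun a => by rw [mul_one]; exact trace_int a)
    have h1 : δ⁻¹ = (b1 : F) := by
      refine inv_eq_of_mul_eq_one_right ?_
      exact hb1.symm
    have h2 : diagF S δ⁻¹ * x = diagF S δ⁻¹ * (x - diagF S (δ * b)) + diagF S (b : F) := by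
      rw [map_mul, mul_sub, ← mul_assoc, hinv, one_mul]
      ring
    rw [h2, h1]
    exact Subring.add_mem _ (Subring.mul_mem _ (diagF_mem_intF b1) hcx) (diagF_mem_intF b)
  · intro hx
    have h1 : x = diagF S δ * (diagF S δ⁻¹ * x) := by rw [← mul_assoc, hinv', one_mul]
    rw [h1]
    exact mul_mem_condF hδc hx

end Finite

/-! ### the global character -/

section Global

variable {F : Type*} [Field F] [NumberField F] {I : Type*} [Fintype I] (φ : I → F →+* ℂ)
  (S : Finset (HeightOneSpectrum (𝓞 F)))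

/-- the diagonal embedding `F → ℂ^I × ∏_{v ∈ S} F_v`. -/
def diag : F →+* (I → ℂ) × Rf S := (diagI φ).prod (diagF S)

omit [Fintype I] in
@[simp] theorem diag_fst (a : F) : (diag φ S a).1 = diagI φ a := rfl
omit [Fintype I] in
@[simp] theorem diag_snd (a : F) : (diag φ S a).2 = diagF S a := rfl

/-- the additive character of `ℂ^I × ∏_{v ∈ S} F_v` modulo `O_S`. -/
def theta : AddChar ((I → ℂ) × Rf S) Circle where
  toFun x := 𝐞 (trI x.1) * thetaF S x.2
  map_zero_eq_one' := by
    rw [Prod.fst_zero, Prod.snd_zero, trI_zero, AddChar.map_zero_eq_one, AddChar.map_zero_eq_one,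
      mul_one]
  map_add_eq_mul' x y := by
    rw [Prod.fst_add, Prod.snd_add, trI_add, AddChar.map_add_eq_mul, AddChar.map_add_eq_mul,
      mul_mul_mul_comm]

variable {S}

theorem theta_apply (x : (I → ℂ) × Rf S) : theta S x = 𝐞 (trI x.1) * thetaF S x.2 := rfl

theorem theta_inl (x : I → ℂ) : theta S (x, 0) = 𝐞 (trI x) := by
  rw [theta_apply]; simp

theorem theta_inr (x : Rf S) : theta (I := I) S (0, x) = thetaF S x := by
  rw [theta_apply]; simp [trI_zero]

theorem continuous_theta : Continuous (theta (I := I) S) := by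
  have h1 : Continuous fun x : (I → ℂ) × Rf S => 𝐞 (trI x.1) * thetaF S x.2 :=
    (Real.continuous_fourierChar.comp (continuous_trI.comp continuous_fst)).mul
      (continuous_thetaF.comp continuous_snd)
  exact h1

variable {φ}

theorem theta_diag (hφ : IsHalf φ) {a : F} (ha : a ∈ OS S) : theta S (diag φ S a) = 1 := by
  rw [theta_apply, diag_fst, diag_snd, trI_diagI hφ, thetaF_diagF ha, ← AddChar.map_add_eq_mul,
    add_neg_cancel, AddChar.map_zero_eq_one]

theorem theta_diag_mul (hφ : IsHalf φ) {a b : F} (ha : a ∈ OS S) (hb : b ∈ OS S) :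
    theta S (diag φ S a * diag φ S b) = 1 := by
  rw [← map_mul]
  exact theta_diag hφ (Subalgebra.mul_mem _ ha hb)

/-- **perfectness**: `O_S` is its own orthogonal. -/
theorem theta_perfect (hφ : IsHalf φ)
    (hS : ∀ v : HeightOneSpectrum (𝓞 F), v.asIdeal ∣ differentIdeal ℤ (𝓞 F) → v ∈ S)
    (x : (I → ℂ) × Rf S) (h : ∀ a ∈ OS S, theta S (diag φ S a * x) = 1) :
    ∃ a ∈ OS S, diag φ S a = x := by
  -- reduce to `x.2` integral
  obtain ⟨b, hb, hbx⟩ := exists_approx S x.2
  set y := x - diag φ S b with hy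
  have hy1 : ∀ a ∈ OS S, theta S (diag φ S a * y) = 1 := fun a ha => by
    rw [hy, mul_sub, sub_eq_add_neg, AddChar.map_add_eq_mul, h a ha, one_mul,
      AddChar.map_neg_eq_inv, theta_diag_mul hφ ha hb, inv_one]
  have hy2 : y.2 ∈ intF S := hbx
  -- the infinite component
  obtain ⟨c, hc, htr⟩ := exists_of_int hφ (x := y.1) (fun a => by
    have h1 := hy1 (a : F) (fun v _ => v.valuation_le_one a)
    rw [theta_apply, Prod.fst_mul, Prod.snd_mul, diag_fst, diag_snd,
      thetaF_eq_one (Subring.mul_mem _ (diagF_mem_intF a) hy2), mul_one, fc_eq_one_iff] at h1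
    exact h1)
  have hcS : c ∈ OS S := fun v hv => val_le_one_of_trace htr (fun h => hv (hS v h))
  -- the finite component
  have hz : y.2 - diagF S c = 0 := by
    refine eq_zero_of_thetaF_OS fun a ha => ?_
    have h1 := hy1 a ha
    have h2 := theta_diag_mul hφ ha hcS
    rw [theta_apply, Prod.fst_mul, Prod.snd_mul, diag_fst, diag_snd] at h1 h2
    rw [diag_fst, diag_snd] at h2
    rw [hc] at h1
    rw [mul_sub, sub_eq_add_neg, AddChar.map_add_eq_mul, AddChar.map_neg_eq_inv]
    rw [← h1] at h2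
    rw [mul_left_cancel h2]
    exact mul_inv_cancel _
  refine ⟨b + c, Subalgebra.add_mem _ hb hcS, ?_⟩
  have h3 : y = diag φ S c := Prod.ext hc (sub_eq_zero.mp hz)
  rw [map_add, ← h3, hy]
  ring

theorem theta_perfect_iff (hφ : IsHalf φ)
    (hS : ∀ v : HeightOneSpectrum (𝓞 F), v.asIdeal ∣ differentIdeal ℤ (𝓞 F) → v ∈ S)
    (x : (I → ℂ) × Rf S) :
    (∀ a ∈ OS S, theta S (diag φ S a * x) = 1) ↔ ∃ a ∈ OS S, diag φ S a = x := by
  refine ⟨theta_perfect hφ hS x, ?_⟩
  rintro ⟨b, hb, rfl⟩ a ha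
  exact theta_diag_mul hφ ha hb

/-- perfectness for the character `x ↦ θ(δ x)`, `δ` a unit of `O_S`. -/
theorem theta_twist_perfect_iff (hφ : IsHalf φ)
    (hS : ∀ v : HeightOneSpectrum (𝓞 F), v.asIdeal ∣ differentIdeal ℤ (𝓞 F) → v ∈ S)
    {δ : F} (hδ0 : δ ≠ 0) (hδ : δ ∈ OS S) (hδ' : δ⁻¹ ∈ OS S) (x : (I → ℂ) × Rf S) :
    (∀ a ∈ OS S, theta S (diag φ S δ * (diag φ S a * x)) = 1) ↔
      ∃ a ∈ OS S, diag φ S a = x := by
  rw [← theta_perfect_iff hφ hS]
  refine ⟨fun h a ha => ?_, fun h a ha => ?_⟩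
  · have := h (δ⁻¹ * a) (Subalgebra.mul_mem _ hδ' ha)
    rwa [← mul_assoc, ← map_mul, mul_inv_cancel_left₀ hδ0] at this
  · rw [← mul_assoc, ← map_mul]
    exact h _ (Subalgebra.mul_mem _ hδ ha)

end Global

/-! ### equivariance -/

section Equivariance

variable {F F' : Type*} [Field F] [NumberField F] [Field F'] [NumberField F']
  {S : Finset (HeightOneSpectrum (𝓞 F))} {S' : Finset (HeightOneSpectrum (𝓞 F'))}

theorem trace_ringEquiv (σ : F ≃+* F') (a : F) :
    Algebra.trace ℚ F' (σ a) = Algebra.trace ℚ F a :=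
  Algebra.trace_eq_of_algEquiv (AlgEquiv.ofRingEquiv (f := σ) fun q => by simp) a

/-- an additive map `T` which extends an isomorphism `σ` of the number fields (with
`σ O_S ⊆ O_S'`) and preserves integrality is compatible with the characters. -/
theorem thetaF_map (σ : F ≃+* F') (hσ : ∀ a ∈ OS S, σ a ∈ OS S') (T : Rf S →+ Rf S')
    (hT : ∀ a : F, T (diagF S a) = diagF S' (σ a)) (hT' : ∀ x ∈ intF S, T x ∈ intF S')
    (x : Rf S) : thetaF S' (T x) = thetaF S x := by
  obtain ⟨a, ha, hax⟩ := exists_approx S x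
  rw [thetaF_eq ha hax, thetaF_eq (hσ a ha), trace_ringEquiv]
  rw [← hT, ← map_sub]
  exact hT' _ hax

theorem trI_perm {I I' : Type*} [Fintype I] [Fintype I'] (π : I' ≃ I) (x : I → ℂ) :
    trI (x ∘ π) = trI x := by
  unfold trI
  exact Fintype.sum_equiv π _ _ fun i => rfl

end Equivariance

end Fermat.Agent.LT.Chr
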