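import Fermat.Agent.LT.MatchSplit
import Fermat.Agent.LT.HK.Basic

/-!
# Split places: Hecke kernels at `w ∣ v` as Hecke kernels at `v`
-/

set_option autoImplicit false

noncomputable section

open IsDedekindDomain NumberField Matrix Function Set
open scoped WithZero Topology Pointwise

namespace Fermat.Agent.LT.Ext

open Fermat.Agent.LT.Lvl

variable {K L : Type*} [Field K] [Field L] [NumberField K] [NumberField L] [Algebra K L]
  {v : HeightOneSpectrum (𝓞 K)}
  {G : Type*} [Group G] [Finite G] [MulSemiringAction G L] [IsGaloisGroup G K L]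
  {U : Lev L} {UK : Subgroup (GL (Fin 2) (v.adicCompletion K))}

theorem dvBaseEquiv_symm_smul (hB : BaseLevel UK U.U) (w : Above L v)
    (hw : MulAction.stabilizer G w.1 = ⊥) (g : GL (Fin 2) (v.adicCompletion K))
    (x : Lvl.Dv U w.1) : (dvBaseEquiv hB w hw).symm (glBase v w.1 g • x) =
      g • (dvBaseEquiv hB w hw).symm x := by
  rw [Equiv.symm_apply_eq, dvBaseEquiv_apply, dvBase_smul, ← dvBaseEquiv_apply hB w hw,
    Equiv.apply_symm_apply]

/-- The Hecke kernels at `w` as Hecke kernels at `v`. -/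
def hkBase (hB : BaseLevel UK U.U) (w : Above L v) (hw : MulAction.stabilizer G w.1 = ⊥) :
    HK (GL (Fin 2) (w.1.adicCompletion L)) (Lvl.Dv U w.1) →ₐ[ℂ]
      HK (GL (Fin 2) (v.adicCompletion K)) (Cos UK) :=
  HK.map (dvBaseEquiv hB w hw).symm fun g =>
    ⟨glBase v w.1 g, dvBaseEquiv_symm_smul hB w hw g⟩

theorem ker_hkBase (hB : BaseLevel UK U.U) (w : Above L v)
    (hw : MulAction.stabilizer G w.1 = ⊥)
    (a : ∀ w : HeightOneSpectrum (𝓞 L), HK (GL (Fin 2) (w.adicCompletion L)) (Lvl.Dv U w))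
    (x y : Cos UK) :
    (hkBase hB w hw (a w.1)).ker x y = kS hB (fun w => (a w).ker) w x y :=
  HK.ker_map _ _ _ _ _

theorem hkBase_star (hB : BaseLevel UK U.U) (w : Above L v)
    (hw : MulAction.stabilizer G w.1 = ⊥)
    (a : HK (GL (Fin 2) (w.1.adicCompletion L)) (Lvl.Dv U w.1)) :
    hkBase hB w hw (star a) = star (hkBase hB w hw a) :=
  HK.map_star _ _ a

/-- The kernel at `v` is the product of the three kernels. -/
theorem kK_ker {τ : G} (hB : BaseLevel UK U.U) {w₀ : Above L v}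
    (hw : MulAction.stabilizer G w₀.1 = ⊥)
    (a : ∀ w : HeightOneSpectrum (𝓞 L), HK (GL (Fin 2) (w.adicCompletion L)) (Lvl.Dv U w))
    (x y : Cos UK) :
    kK (fun w => (a w).ker) τ hB w₀ x y =
      (hkBase hB ((1 : G) • w₀) (stabilizer_above_eq_bot hw _) (a ((1 : G) • w₀).1) *
        hkBase hB (τ⁻¹ • w₀) (stabilizer_above_eq_bot hw _) (a (τ⁻¹ • w₀).1) *
        hkBase hB ((τ⁻¹ * τ⁻¹) • w₀) (stabilizer_above_eq_bot hw _)
          (a ((τ⁻¹ * τ⁻¹) • w₀).1)).ker x y := by
  rw [HK.ker_mul]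
  refine finsum_congr fun z => ?_
  rw [HK.ker_mul, ker_hkBase hB _ _ a]
  refine congrArg (· * _) (finsum_congr fun t => ?_)
  rw [ker_hkBase hB _ _ a, ker_hkBase hB _ _ a]

end Fermat.Agent.LT.Ext
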