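import Fermat.Agent.LT.RegSupport
import Fermat.Agent.LT.TauD
import Fermat.Agent.LT.TauXi

/-!
# Regularity of the test functions (S47A, block B6)

`exists_regular_K` (over `K`) and `exists_regular_L` (twisted, over `L`): if the relative position of a point
`z = (x, d)` of `Z = X_∞ × D U` and of `δ τ z` is bounded at all places (bound `C v = 1` for almost all `v`),
equal to `I t^n I` at `u` (and trivial at the other conjugates of `u`) then, for `n ≥ n₀(C, R)`, the norm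
`δ τ(δ) τ²(δ)` has non-zero trace and no eigenvalue in the field.
-/

set_option autoImplicit false

open Matrix NumberField IsDedekindDomain WithZero
open scoped WithZero Pointwise

noncomputable section

namespace Fermat.Agent.LT.Pos

open Fermat.Agent.LT Fermat.Agent.LT.Lvl Fermat.Agent.LT.Iwa Fermat.Agent.LT.H3 Fermat.Agent.LT.Ext

section Basic

variable {F : Type*} [Field F] [NumberField F]

/-- `tr ≠ 0` and no eigenvalue in `F`. -/
def EllTr (g : Matrix (Fin 2) (Fin 2) F) : Prop :=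
  g.trace ≠ 0 ∧ ∀ x : F, x ^ 2 - g.trace * x + g.det ≠ 0

omit [NumberField F] in
theorem EllTr.c_ne_zero {g : Matrix (Fin 2) (Fin 2) F} (h : EllTr g) : g 1 0 ≠ 0 := by
  intro h0
  refine h.2 (g 0 0) ?_
  rw [Matrix.trace_fin_two, Matrix.det_fin_two, h0]
  ring

theorem valuation_jinv (v : HeightOneSpectrum (𝓞 F)) (g : GL (Fin 2) F) :
    v.valuation F (jinv (g : Matrix (Fin 2) (Fin 2) F)) =
      (Valued.v : Valuation (v.adicCompletion F) ℤᵐ⁰)
        (jinv ((gmap v g : GL (Fin 2) (v.adicCompletion F)) :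
          Matrix (Fin 2) (Fin 2) (v.adicCompletion F))) := by
  have h := jinv_map (algebraMap F (v.adicCompletion F)) (g : Matrix (Fin 2) (Fin 2) F)
  have h2 : jinv ((gmap v g : GL (Fin 2) (v.adicCompletion F)) :
      Matrix (Fin 2) (Fin 2) (v.adicCompletion F)) =
      algebraMap F (v.adicCompletion F) (jinv (g : Matrix (Fin 2) (Fin 2) F)) := h
  rw [h2]
  exact (HeightOneSpectrum.valuedAdicCompletion_eq_valuation' v _).symm

variable (U : Lev F)

/-- The size of the relative position at the place `v`. -/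
abbrev posv (v : HeightOneSpectrum (𝓞 F)) (d d' : Dv U v) : ℤᵐ⁰ :=
  pos (Valued.v : Valuation (v.adicCompletion F) ℤᵐ⁰) d d'

variable {U}

theorem posv_smul (v : HeightOneSpectrum (𝓞 F)) (g : GL (Fin 2) F) (d d' : D U) :
    posv U v ((g • d) v) ((g • d') v) = posv U v (d v) (d' v) :=
  pos_smul (U.le v) _ _ _

theorem rv_smul {v : HeightOneSpectrum (𝓞 F)} {γ : ℤᵐ⁰} {d d' : D U}
    (h : RV (Valued.v : Valuation (v.adicCompletion F) ℤᵐ⁰) γ (d v) (d' v)) (g : GL (Fin 2) F) :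
    RV (Valued.v : Valuation (v.adicCompletion F) ℤᵐ⁰) γ ((g • d) v) ((g • d') v) :=
  RV.smul h _

/-- **Regularity from bounded relative positions**, general form: `T` odd set of places of the same norm. -/
theorem exists_ell [IsTotallyComplex F] (T : Finset (HeightOneSpectrum (𝓞 F))) (hT : Odd T.card)
    {q : ℕ} (hq : ∀ u ∈ T, Ideal.absNorm u.asIdeal = q)
    (hIw : ∀ u ∈ T, U.U u ≤ Iw (Valued.v : Valuation (u.adicCompletion F) ℤᵐ⁰))
    (C : HeightOneSpectrum (𝓞 F) → ℤᵐ⁰) (hC : {v | C v ≠ 1}.Finite) (R : ℝ) :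
    ∃ n0 : ℕ, ∀ n ≥ n0, ∀ (γ : GL (Fin 2) F) (x : Xi F) (d : D U),
      (∀ w, cu (x w) ((γ • x) w) ≤ R) →
      (∀ u ∈ T, RV (Valued.v : Valuation (u.adicCompletion F) ℤᵐ⁰) (exp (-(n : ℤ))) (d u)
        ((γ • d) u)) →
      (∀ v ∉ T, posv U v (d v) ((γ • d) v) ≤ C v) →
      EllTr (γ : Matrix (Fin 2) (Fin 2) F) := by
  classical
  obtain ⟨n0, hn0⟩ := exists_elliptic_val (K := F) T hT hq hC.toFinset C (4 * R)
  refine ⟨max n0 1, fun n hn γ x d hx hT' hv => ?_⟩
  refine hn0 n ((le_max_left _ _).trans hn) _ (Matrix.GeneralLinearGroup.det γ).ne_zero ?_ ?_ ?_ ?_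
  · intro u hu
    have h1 := (hT' u hu)
    have h2 : RV (Valued.v : Valuation (u.adicCompletion F) ℤᵐ⁰) (exp (-(n : ℤ))) (d u)
        (gmap u γ • d u) := h1
    have hlt : (exp (-(n : ℤ)) : ℤᵐ⁰) < 1 := by
      rw [← exp_zero, exp_lt_exp]
      have := (le_max_right n0 1).trans hn
      omega
    rw [valuation_jinv, h2.jinv (hIw u hu) hlt, WithZero.exp_neg, inv_inv]
  · intro v _ hvT
    rw [valuation_jinv]
    exact (w_jinv_le_pos (U.le v) (gmap v γ) (d v)).trans (hv v hvT)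
  · intro v hvS hvT
    rw [valuation_jinv]
    refine (w_jinv_le_pos (U.le v) (gmap v γ) (d v)).trans ((hv v hvT).trans (le_of_eq ?_))
    rw [Set.Finite.mem_toFinset] at hvS
    by_contra h
    exact hvS h
  · exact fun w => place_jinv_le (hx w)

/-- **Regularity over `K`.** -/
theorem exists_regular_K [IsTotallyComplex F] (u : HeightOneSpectrum (𝓞 F))
    (hIw : U.U u ≤ Iw (Valued.v : Valuation (u.adicCompletion F) ℤᵐ⁰))
    (C : HeightOneSpectrum (𝓞 F) → ℤᵐ⁰) (hC : {v | C v ≠ 1}.Finite) (R : ℝ) :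
    ∃ n0 : ℕ, ∀ n ≥ n0, ∀ (γ : GL (Fin 2) F) (x : Xi F) (d : D U),
      (∀ w, cu (x w) ((γ • x) w) ≤ R) →
      RV (Valued.v : Valuation (u.adicCompletion F) ℤᵐ⁰) (exp (-(n : ℤ))) (d u) ((γ • d) u) →
      (∀ v ≠ u, posv U v (d v) ((γ • d) v) ≤ C v) →
      EllTr (γ : Matrix (Fin 2) (Fin 2) F) := by
  obtain ⟨n0, hn0⟩ := exists_ell (U := U) {u} (by simp) (q := Ideal.absNorm u.asIdeal)
    (by simp) (by simpa using hIw) C hC R
  refine ⟨n0, fun n hn γ x d hx hu hv => hn0 n hn γ x d hx ?_ ?_⟩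
  · intro v hv'
    rw [Finset.mem_singleton] at hv'
    subst hv'
    exact hu
  · intro v hv'
    rw [Finset.mem_singleton] at hv'
    exact hv v hv'

end Basic

section Twisted

variable {L : Type*} [Field L] [NumberField L] {G : Type*} [Group G] [MulSemiringAction G L]
  {U : Lev L} (hU : GStable G U.U) (σ : G)

theorem posv_tauD (v : HeightOneSpectrum (𝓞 L)) (d d' : D U) :
    posv U v (tauD hU σ d v) (tauD hU σ d' v) = posv U (σ⁻¹ • v) (d (σ⁻¹ • v)) (d' (σ⁻¹ • v)) := by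
  rw [tauD_apply hU σ d (smul_inv_smul σ v), tauD_apply hU σ d' (smul_inv_smul σ v)]
  refine pos_cosetMap _ (fun x => ?_) (U.le _) (U.le _) _ _ _
  rw [(compat_of_smul_eq (L := L) (smul_inv_smul σ v)).valued_ext, pow_one]

theorem rv_tauD {v : HeightOneSpectrum (𝓞 L)} {γ : ℤᵐ⁰} {d d' : D U}
    (h : RV (Valued.v : Valuation ((σ⁻¹ • v).adicCompletion L) ℤᵐ⁰) γ (d (σ⁻¹ • v))
      (d' (σ⁻¹ • v))) :
    RV (Valued.v : Valuation (v.adicCompletion L) ℤᵐ⁰) γ (tauD hU σ d v) (tauD hU σ d' v) := by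
  rw [tauD_apply hU σ d (smul_inv_smul σ v), tauD_apply hU σ d' (smul_inv_smul σ v)]
  refine RV.map_coset _ (fun x => ?_) h _
  rw [(compat_of_smul_eq (L := L) (smul_inv_smul σ v)).valued_ext, pow_one]

theorem tauD_eq_of_eq {v : HeightOneSpectrum (𝓞 L)} {d d' : D U}
    (h : d (σ⁻¹ • v) = d' (σ⁻¹ • v)) : tauD hU σ d v = tauD hU σ d' v := by
  rw [tauD_apply hU σ d (smul_inv_smul σ v), tauD_apply hU σ d' (smul_inv_smul σ v), h]

/-- The matrix `σ(δ)`. -/
abbrev gσ (σ : G) (δ : GL (Fin 2) L) : GL (Fin 2) L :=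
  GeneralLinearGroup.map (MulSemiringAction.toRingHom G L σ) δ

/-- The norm `δ σ(δ) σ²(δ)`. -/
def nmG (σ : G) (δ : GL (Fin 2) L) : GL (Fin 2) L := δ * gσ σ δ * gσ σ (gσ σ δ)

omit [NumberField L] in
theorem c_eq_zero_nmG {δ : GL (Fin 2) L} (h : δ 1 0 = 0) : (nmG σ δ) 1 0 = 0 := by
  have e : ∀ i j, (gσ σ δ) i j = σ • δ i j := fun _ _ => rfl
  have e' : ∀ i j, (gσ σ (gσ σ δ)) i j = σ • σ • δ i j := fun _ _ => rfl
  unfold nmG
  rw [Units.val_mul, Matrix.mul_apply, Fin.sum_univ_two, Units.val_mul, Matrix.mul_apply,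
    Matrix.mul_apply, Fin.sum_univ_two, Fin.sum_univ_two]
  simp only [e, e', h, smul_zero, zero_mul, mul_zero, add_zero, zero_add]

theorem absNorm_smul (u : HeightOneSpectrum (𝓞 L)) :
    Ideal.absNorm (σ • u).asIdeal = Ideal.absNorm u.asIdeal := by
  rw [asIdeal_smul, Ideal.absNorm_apply, Ideal.absNorm_apply, Submodule.cardQuot_apply,
    Submodule.cardQuot_apply]
  refine Nat.card_congr (Ideal.quotientEquiv _ _ (MulSemiringAction.toRingEquiv G (𝓞 L) σ) ?_).symm.toEquiv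
  rfl

/-- **Regularity over `L`, twisted form.** `σ³ = 1`; the relative position of `z = (x, d)` and `δ σ z` is
`I t^n I` at `u`, trivial at `σ u`, `σ² u` and bounded by `C` elsewhere (`C = 1` almost everywhere). -/
theorem exists_regular_L [IsTotallyComplex L] (hσ : σ ^ 3 = 1) (u : HeightOneSpectrum (𝓞 L))
    (hu1 : σ • u ≠ u)
    (hIw : ∀ i : ℕ, U.U (σ ^ i • u) ≤
      Iw (Valued.v : Valuation ((σ ^ i • u).adicCompletion L) ℤᵐ⁰))
    (C : HeightOneSpectrum (𝓞 L) → ℤᵐ⁰) (hC : {v | C v ≠ 1}.Finite) (R : ℝ) :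
    ∃ n0 : ℕ, ∀ n ≥ n0, ∀ (δ : GL (Fin 2) L) (x : Xi L) (d : D U),
      (∀ w, cu (x w) ((δ • Xi.tau (MulSemiringAction.toRingEquiv G L σ) x) w) ≤ R) →
      RV (Valued.v : Valuation (u.adicCompletion L) ℤᵐ⁰) (exp (-(n : ℤ))) (d u)
        ((δ • tauD hU σ d) u) →
      (δ • tauD hU σ d) (σ • u) = d (σ • u) →
      (δ • tauD hU σ d) (σ • σ • u) = d (σ • σ • u) →
      (∀ v, v ≠ u → v ≠ σ • u → v ≠ σ • σ • u →
        posv U v (d v) ((δ • tauD hU σ d) v) ≤ C v) →
      EllTr (nmG σ δ : Matrix (Fin 2) (Fin 2) L) ∧ δ 1 0 ≠ 0 := by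
  classical
  -- the three places
  have hs3 : σ * σ * σ = 1 := by
    rw [← hσ, pow_succ, pow_two]
  have h3u : σ • σ • σ • u = u := by
    rw [← mul_smul, ← mul_smul, hs3, one_smul]
  have h02 : σ • σ • u ≠ u := by
    intro h
    apply hu1
    have := congrArg (fun v => σ • v) h
    simp only [h3u] at this
    exact this.symm
  have h12 : σ • σ • u ≠ σ • u := by
    intro h
    exact hu1 (smul_left_cancel σ h)
  have i1 : σ⁻¹ • σ • u = u := inv_smul_smul σ u
  have i2 : σ⁻¹ • σ • σ • u = σ • u := inv_smul_smul σ _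
  have i0 : σ⁻¹ • u = σ • σ • u := by
    rw [inv_smul_eq_iff, h3u]
  set T : Finset (HeightOneSpectrum (𝓞 L)) := {u, σ • u, σ • σ • u} with hT
  have hTc : T.card = 3 := by
    rw [hT, Finset.card_insert_of_notMem, Finset.card_insert_of_notMem, Finset.card_singleton]
    · rw [Finset.mem_singleton]
      exact fun h => h12 h.symm
    · rw [Finset.mem_insert, Finset.mem_singleton]
      rintro (h | h)
      · exact hu1 h.symm
      · exact h02 h.symm
  have hTodd : Odd T.card := by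
    rw [hTc]
    decide
  have hq : ∀ v ∈ T, Ideal.absNorm v.asIdeal = Ideal.absNorm u.asIdeal := by
    intro v hv
    rw [hT, Finset.mem_insert, Finset.mem_insert, Finset.mem_singleton] at hv
    rcases hv with rfl | rfl | rfl
    · rfl
    · exact absNorm_smul σ u
    · rw [absNorm_smul, absNorm_smul]
  have hIwT : ∀ v ∈ T, U.U v ≤ Iw (Valued.v : Valuation (v.adicCompletion L) ℤᵐ⁰) := by
    intro v hv
    rw [hT, Finset.mem_insert, Finset.mem_insert, Finset.mem_singleton] at hv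
    rcases hv with rfl | rfl | rfl
    · have := hIw 0
      rwa [pow_zero, one_smul] at this
    · have := hIw 1
      rwa [pow_one] at this
    · have := hIw 2
      rwa [pow_two, mul_smul] at this
  -- membership in `T` is stable
  have hTst : ∀ v, v ∉ T → σ⁻¹ • v ∉ T := by
    intro v hv hv'
    apply hv
    rw [hT, Finset.mem_insert, Finset.mem_insert, Finset.mem_singleton] at hv' ⊢
    rcases hv' with h | h | h
    · exact Or.inr (Or.inl (inv_smul_eq_iff.1 h))
    · exact Or.inr (Or.inr (inv_smul_eq_iff.1 h))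
    · left
      rw [inv_smul_eq_iff.1 h, h3u]
  -- the bounds for the norm
  have hC' : {v | C v * (C (σ⁻¹ • v) * C (σ⁻¹ • σ⁻¹ • v)) ≠ 1}.Finite := by
    have hf1 : {v : HeightOneSpectrum (𝓞 L) | C (σ⁻¹ • v) ≠ 1}.Finite :=
      hC.preimage (MulAction.injective σ⁻¹).injOn
    have hf2 : {v : HeightOneSpectrum (𝓞 L) | C (σ⁻¹ • σ⁻¹ • v) ≠ 1}.Finite :=
      hf1.preimage (MulAction.injective σ⁻¹).injOn
    refine ((hC.union hf1).union hf2).subset fun v hv => ?_
    by_contra h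
    simp only [Set.mem_union, not_or, Set.mem_ofPred_eq, not_not] at h
    exact hv (by rw [h.1.1, h.1.2, h.2, one_mul, one_mul])
  obtain ⟨n0, hn0⟩ := exists_ell (U := U) T hTodd hq hIwT
    (fun v => C v * (C (σ⁻¹ • v) * C (σ⁻¹ • σ⁻¹ • v))) hC' (2 * (R * (2 * (R * R))))
  refine ⟨n0, fun n hn δ x d hx hdu hd1 hd2 hv => ?_⟩
  set τ : L ≃+* L := MulSemiringAction.toRingEquiv G L σ with hτ
  -- the chain of points
  set x1 : Xi L := δ • Xi.tau τ x with hx1
  set x2 : Xi L := δ • Xi.tau τ x1 with hx2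
  set x3 : Xi L := δ • Xi.tau τ x2 with hx3
  set d1 : D U := δ • tauD hU σ d with hd1'
  set d2 : D U := δ • tauD hU σ d1 with hd2'
  set d3 : D U := δ • tauD hU σ d2 with hd3'
  have hdN : d3 = nmG σ δ • d := by
    rw [hd3', hd2', hd1', tauD_smul, tauD_smul, tauD_smul, ← tauD_mul, ← tauD_mul, hs3,
      tauD_one, smul_smul, smul_smul]
    rfl
  have hττ : ∀ y : Xi L, Xi.tau τ (Xi.tau τ (Xi.tau τ y)) = y := by
    intro y
    rw [← Xi.tau_trans, ← Xi.tau_trans]
    have : τ.trans (τ.trans τ) = RingEquiv.refl L := by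
      ext a
      show σ • σ • σ • a = a
      rw [← mul_smul, ← mul_smul, hs3, one_smul]
    rw [this, Xi.tau_refl]
  have hxN : x3 = nmG σ δ • x := by
    rw [hx3, hx2, hx1, Xi.tau_smul, Xi.tau_smul, Xi.tau_smul, hττ, smul_smul, smul_smul]
    rfl
  -- infinite places
  have c1 : ∀ w, cu (x w) (x1 w) ≤ R := hx
  have c2 : ∀ w, cu (x1 w) (x2 w) ≤ R := by
    intro w
    have h := c1 (w.comap (τ : L →+* L))
    rw [← Xi.cu_tau τ x x1 w] at h
    rw [hx1, hx2, Xi.smul_apply, Xi.smul_apply, cu_smul]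
    exact h
  have c3 : ∀ w, cu (x2 w) (x3 w) ≤ R := by
    intro w
    have h := c2 (w.comap (τ : L →+* L))
    rw [← Xi.cu_tau τ x1 x2 w] at h
    rw [hx3]
    nth_rewrite 1 [hx2]
    rw [Xi.smul_apply, Xi.smul_apply, cu_smul]
    exact h
  have hR : ∀ w : InfinitePlace L, 0 ≤ R := fun w => (cu_pos _ _).le.trans (c1 w)
  have c13 : ∀ w, cu (x w) (x3 w) ≤ 2 * (R * (2 * (R * R))) := by
    intro w
    have h1 := cu_triangle (x w) (x1 w) (x3 w)
    have h2 := cu_triangle (x1 w) (x2 w) (x3 w)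
    have h0 := hR w
    have h3 : cu (x1 w) (x2 w) * cu (x2 w) (x3 w) ≤ R * R :=
      mul_le_mul (c2 w) (c3 w) (cu_pos _ _).le h0
    have h4 : cu (x1 w) (x3 w) ≤ 2 * (R * R) := by linarith
    have h5 : cu (x w) (x1 w) * cu (x1 w) (x3 w) ≤ R * (2 * (R * R)) :=
      mul_le_mul (c1 w) h4 (cu_pos _ _).le h0
    linarith
  -- transport of positions along `z ↦ δ σ z`
  have st_pos : ∀ (v : HeightOneSpectrum (𝓞 L)) (a b : D U),
      posv U v ((δ • tauD hU σ a) v) ((δ • tauD hU σ b) v) =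
        posv U (σ⁻¹ • v) (a (σ⁻¹ • v)) (b (σ⁻¹ • v)) := fun v a b => by
    rw [posv_smul, posv_tauD]
  have st_eq : ∀ (v : HeightOneSpectrum (𝓞 L)) (a b : D U), a (σ⁻¹ • v) = b (σ⁻¹ • v) →
      (δ • tauD hU σ a) v = (δ • tauD hU σ b) v := fun v a b h => by
    rw [RProd.smul_apply, RProd.smul_apply, tauD_eq_of_eq hU σ h]
  have st_rv : ∀ (v : HeightOneSpectrum (𝓞 L)) (a b : D U),
      RV (Valued.v : Valuation ((σ⁻¹ • v).adicCompletion L) ℤᵐ⁰) (exp (-(n : ℤ)))
        (a (σ⁻¹ • v)) (b (σ⁻¹ • v)) →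
      RV (Valued.v : Valuation (v.adicCompletion L) ℤᵐ⁰) (exp (-(n : ℤ)))
        ((δ • tauD hU σ a) v) ((δ • tauD hU σ b) v) := fun v a b h =>
    rv_smul (rv_tauD hU σ h) δ
  -- equalities and positions at the three places
  have e01 : d1 (σ • u) = d (σ • u) := hd1
  have e02 : d1 (σ • σ • u) = d (σ • σ • u) := hd2
  -- step 1 -> 2
  have e10 : d2 u = d1 u := by
    refine (st_eq u d d1 ?_).symm
    rw [i0]
    exact e02.symm
  have r11 : RV (Valued.v : Valuation ((σ • u).adicCompletion L) ℤᵐ⁰) (exp (-(n : ℤ)))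
      (d1 (σ • u)) (d2 (σ • u)) := by
    refine st_rv (σ • u) d d1 ?_
    rw [i1]
    exact hdu
  have e12 : d2 (σ • σ • u) = d1 (σ • σ • u) := by
    refine (st_eq _ d d1 ?_).symm
    rw [i2]
    exact e01.symm
  -- step 2 -> 3
  have e20 : d3 u = d2 u := by
    refine (st_eq u d1 d2 ?_).symm
    rw [i0]
    exact e12.symm
  have e21 : d3 (σ • u) = d2 (σ • u) := by
    refine (st_eq _ d1 d2 ?_).symm
    rw [i1]
    exact e10.symm
  have r22 : RV (Valued.v : Valuation ((σ • σ • u).adicCompletion L) ℤᵐ⁰) (exp (-(n : ℤ)))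
      (d2 (σ • σ • u)) (d3 (σ • σ • u)) := by
    refine st_rv (σ • σ • u) d1 d2 ?_
    rw [i2]
    exact r11
  have hell := hn0 n hn (nmG σ δ) x d (fun w => by rw [← hxN]; exact c13 w) ?_ ?_
  · refine ⟨hell, fun h => hell.c_ne_zero (c_eq_zero_nmG σ h)⟩
  · intro v hv'
    rw [← hdN]
    rw [hT, Finset.mem_insert, Finset.mem_insert, Finset.mem_singleton] at hv'
    rcases hv' with rfl | rfl | rfl
    · rw [e20, e10]
      exact hdu
    · rw [e21, ← e01]
      exact r11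
    · rw [← e02, ← e12]
      exact r22
  · intro v hv'
    have hb : ∀ v, v ∉ T → posv U v (d v) (d1 v) ≤ C v := by
      intro v hv'
      rw [hT, Finset.mem_insert, Finset.mem_insert, Finset.mem_singleton, not_or, not_or] at hv'
      exact hv v hv'.1 hv'.2.1 hv'.2.2
    rw [← hdN]
    have p1 := hb v hv'
    have p2 : posv U v (d1 v) (d2 v) ≤ C (σ⁻¹ • v) := by
      rw [st_pos v d d1]
      exact hb _ (hTst v hv')
    have p3 : posv U v (d2 v) (d3 v) ≤ C (σ⁻¹ • σ⁻¹ • v) := by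
      rw [st_pos v d1 d2, st_pos (σ⁻¹ • v) d d1]
      exact hb _ (hTst _ (hTst v hv'))
    calc posv U v (d v) (d3 v) ≤ posv U v (d v) (d1 v) * posv U v (d1 v) (d3 v) :=
          pos_triangle (U.le v) _ _ _
      _ ≤ posv U v (d v) (d1 v) * (posv U v (d1 v) (d2 v) * posv U v (d2 v) (d3 v)) :=
          mul_le_mul' le_rfl (pos_triangle (U.le v) _ _ _)
      _ ≤ _ := mul_le_mul' p1 (mul_le_mul' p2 p3)

end Twisted

end Fermat.Agent.LT.Pos
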