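import Fermat.Agent.LT.CompCor
import Fermat.Agent.CFT.Global.Approx

/-!
# Local `p`-th powers through the completion, and split primes

* `mem_locPow_of_completion`: `a = y ^ p` with `y ∈ K_v` implies `a ∈ locPow p v`;
* `mem_locPow_of_stabilizer`: if `w | v` has a trivial decomposition group and `a` is a `p`-th power
  in `L`, then `a ∈ locPow p v`.
-/

set_option autoImplicit false

noncomputable section

namespace Fermat.Agent.LT

open IsDedekindDomain NumberField WithZero
open Fermat.Agent.CFT.SUnits Fermat.Agent.CFT.Global Fermat.Agent.LT.Ext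

section Val

variable {F : Type*} [Field F] {Γ₀ : Type*} [LinearOrderedCommGroupWithZero Γ₀]
  (v : Valuation F Γ₀)

theorem val_pow_sub_one_le {x : F} {r : Γ₀} (hr : r ≤ 1) (h : v (x - 1) ≤ r) (p : ℕ) :
    v (x ^ p - 1) ≤ r := by
  have hx : v x ≤ 1 := by
    have h1 : x = (x - 1) + 1 := by ring
    rw [h1]
    exact (v.map_add _ _).trans (max_le (h.trans hr) (map_one v).le)
  induction p with
  | zero => simp
  | succ n ih =>
    have h1 : x ^ (n + 1) - 1 = (x ^ n - 1) * x + (x - 1) := by ring
    rw [h1]
    refine (v.map_add _ _).trans (max_le ?_ h)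
    rw [map_mul]
    exact (mul_le_of_le_one_right' hx).trans ih

end Val

section Comp

variable {K : Type*} [Field K] [NumberField K] {v : HeightOneSpectrum (𝓞 K)}

theorem mem_locPow_of_completion {p : ℕ} {a : Kˣ} {y : v.adicCompletion K}
    (hy : y ^ p = algebraMap K (v.adicCompletion K) a) (hp : p ≠ 0) : a ∈ locPow p v := by
  have ha0 : algebraMap K (v.adicCompletion K) (a : K) ≠ 0 := by simp
  have hy0 : y ≠ 0 := by
    rintro rfl
    rw [zero_pow hp] at hy
    exact ha0 hy.symm
  have hvy : Valued.v y ≠ (0 : ℤᵐ⁰) := (Valuation.ne_zero_iff _).mpr hy0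
  rw [mem_locPow]
  intro n
  obtain ⟨k, hk⟩ := exists_sub_lt (v := v) y (γ := Valued.v y * exp (-((n : ℤ) + 1)))
    (mul_ne_zero hvy exp_ne_zero)
  have hlt : Valued.v (algebraMap K (v.adicCompletion K) k - y) < Valued.v y := by
    refine hk.trans_le (mul_le_of_le_one_right' ?_)
    rw [← exp_zero, exp_le_exp]
    omega
  have hvk : Valued.v (algebraMap K (v.adicCompletion K) k) = Valued.v y := by
    have h1 : algebraMap K (v.adicCompletion K) k =
      (algebraMap K (v.adicCompletion K) k - y) + y := by ring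
    rw [h1, Valuation.map_add_eq_of_lt_right _ hlt]
  have hk0 : k ≠ 0 := by
    rintro rfl
    rw [map_zero, map_zero] at hvk
    exact hvy hvk.symm
  have hk0' : algebraMap K (v.adicCompletion K) k ≠ 0 := by simpa using hk0
  refine ⟨Units.mk0 k hk0, ?_⟩
  have h1 : v.valuation K (((a / Units.mk0 k hk0 ^ p : Kˣ) : K) - 1) =
      Valued.v ((y / algebraMap K (v.adicCompletion K) k) ^ p - 1) := by
    rw [← v_algebraMap, map_sub, map_one, Units.val_div_eq_div_val, Units.val_pow_eq_pow_val,
      Units.val_mk0, map_div₀, map_pow, ← hy, _root_.div_pow]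
  rw [h1]
  refine val_pow_sub_one_le _ ?_ ?_ p
  · rw [← exp_zero, exp_le_exp]
    omega
  · have h2 : y / algebraMap K (v.adicCompletion K) k - 1 =
        -(algebraMap K (v.adicCompletion K) k - y) / algebraMap K (v.adicCompletion K) k := by
      field_simp
      ring
    rw [h2, map_div₀, Valuation.map_neg, hvk, div_le_iff₀ (zero_lt_iff.mpr hvy), mul_comm]
    exact hk.le

variable {L : Type*} [Field L] [NumberField L] [Algebra K L]

/-- Split primes: `a` is a local `p`-th power. -/
theorem mem_locPow_of_stabilizer (w : HeightOneSpectrum (𝓞 L)) [w.asIdeal.LiesOver v.asIdeal]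
    (G : Type*) [Group G] [Finite G] [MulSemiringAction G L] [IsGaloisGroup G K L]
    (h : MulAction.stabilizer G w = ⊥) {p : ℕ} (hp : p ≠ 0) {a : Kˣ} {α : L}
    (hα : α ^ p = algebraMap K L a) : a ∈ locPow p v := by
  obtain ⟨y, hy⟩ := (bijective_ext_of_stabilizer v w G h).2 (algebraMap L (w.adicCompletion L) α)
  refine mem_locPow_of_completion (y := y) ?_ hp
  apply (bijective_ext_of_stabilizer v w G h).1
  rw [map_pow, hy, ← map_pow, hα]
  exact ((compat_liesOver (K := K) (L := L) v w).ext_algebraMap _).symm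

end Comp

end Fermat.Agent.LT

end
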