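import Fermat.Agent.LT.TwLoc
import Fermat.Agent.LT.TwSplit
import Fermat.Agent.LT.Level.Defs
import Fermat.Agent.LT.Tr.ClassSum

/-!
# Classes which are not norms do not contribute

The kernel `kprod f` on `D = G(𝔸_f)/U`, at `(x, γ x)`, vanishes if `γ` is elliptic and not a norm.
-/

set_option autoImplicit false

noncomputable section

namespace Fermat.Agent.LT

open Matrix IsDedekindDomain NumberField WithZero Lvl
open Fermat.Agent.CFT.SUnits Fermat.Agent.CFT.Global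
open scoped WithZero

section Rel

variable {E : Type*} [Field E] {H : Subgroup (GL (Fin 2) E)} {R : Type*} [Zero R]

/-- The kernel `f` on `GL₂(E)/(H E^×)` is supported in relative position `E^× S`. -/
def RelIn (f : Cos H → Cos H → R) (S : Set (GL (Fin 2) E)) : Prop :=
  ∀ x y : GL (Fin 2) E, f (Cos.mk H x) (Cos.mk H y) ≠ 0 →
    ∃ z : Eˣ, ∃ k ∈ S, y = GeneralLinearGroup.scalar (Fin 2) z * (x * k)

theorem RelIn.mono {f : Cos H → Cos H → R} {S S' : Set (GL (Fin 2) E)} (h : RelIn f S)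
    (hS : S ⊆ S') : RelIn f S' := by
  intro x y hxy
  obtain ⟨z, k, hk, e⟩ := h x y hxy
  exact ⟨z, k, hS hk, e⟩

open Classical in
/-- the identity kernel -/
theorem relIn_one [One R] : RelIn (fun x y : Cos H => if x = y then (1 : R) else 0)
    (H : Set (GL (Fin 2) E)) := by
  intro x y h
  by_cases hxy : Cos.mk H x = Cos.mk H y
  · exact Cos.mk_eq_iff.mp hxy
  · exact absurd (if_neg hxy) h

theorem scalar_mul_coe (z : Eˣ) (g : GL (Fin 2) E) :
    ((GeneralLinearGroup.scalar (Fin 2) z * g : GL (Fin 2) E) : M2 E) = (z : E) • (g : M2 E) := by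
  rw [GeneralLinearGroup.coe_mul, GeneralLinearGroup.coe_scalar, Matrix.scalar_apply,
    ← Matrix.smul_eq_diagonal_mul]

/-- If `f (x, γ x) ≠ 0` then `γ` is conjugate, modulo scalars, to an element of `S`. -/
theorem RelIn.exists_pconj {f : Cos H → Cos H → R} {S : Set (GL (Fin 2) E)} (h : RelIn f S)
    {γ : GL (Fin 2) E} {x : Cos H} (hx : f x (γ • x) ≠ 0) :
    ∃ k ∈ S, PConj (γ : M2 E) (k : M2 E) := by
  obtain ⟨g, rfl⟩ := Cos.mk_surjective x
  rw [Cos.smul_mk] at hx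
  obtain ⟨z, k, hk, e⟩ := h _ _ hx
  refine ⟨k, hk, z, (g : M2 E), z.ne_zero, Dict.det_coe_ne_zero g, ?_⟩
  have h1 : ((γ * g : GL (Fin 2) E) : M2 E) =
      ((GeneralLinearGroup.scalar (Fin 2) z * (g * k) : GL (Fin 2) E) : M2 E) := by rw [e]
  rw [scalar_mul_coe] at h1
  exact h1

end Rel

section Global

variable {K : Type} [Field K] [NumberField K]

theorem coe_gmap (v : HeightOneSpectrum (𝓞 K)) (γ : GL (Fin 2) K) :
    ((gmap v γ : GL (Fin 2) (v.adicCompletion K)) : M2 (v.adicCompletion K)) =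
      (γ : M2 K).map (algebraMap K (v.adicCompletion K)) := rfl

/-- near the identity -/
theorem jinv_of_relIn_near {v : HeightOneSpectrum (𝓞 K)}
    {H : Subgroup (GL (Fin 2) (v.adicCompletion K))} {R : Type*} [Zero R] {f : Cos H → Cos H → R}
    {r : ℤᵐ⁰} (hr : r < 1)
    (hf : RelIn f {k | Bd (Valued.v : Valuation (v.adicCompletion K) ℤᵐ⁰)
      ((k : M2 (v.adicCompletion K)) - 1) r})
    {γ : GL (Fin 2) K} {x : Cos H} (hx : f x (gmap v γ • x) ≠ 0) :
    v.valuation K (jinv (γ : M2 K) - 4) ≤ r ^ 2 := by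
  obtain ⟨k, hk, hp⟩ := hf.exists_pconj hx
  have hk' : ∀ i j, Valued.v (((k : M2 (v.adicCompletion K)) - 1) i j) ≤ r := hk
  rw [coe_gmap] at hp
  have hp' : PConj ((γ : M2 K).map (algebraMap K (v.adicCompletion K)))
      (1 + ((k : M2 (v.adicCompletion K)) - 1)) := by
    rwa [add_sub_cancel]
  exact valuation_jinv_sub_le v hp' hr hk'

/-- integral -/
theorem jinv_of_relIn_GLO {v : HeightOneSpectrum (𝓞 K)}
    {H : Subgroup (GL (Fin 2) (v.adicCompletion K))} {R : Type*} [Zero R] {f : Cos H → Cos H → R}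
    (hf : RelIn f (GLO (Valued.v : Valuation (v.adicCompletion K) ℤᵐ⁰) :
      Set (GL (Fin 2) (v.adicCompletion K))))
    {γ : GL (Fin 2) K} {x : Cos H} (hx : f x (gmap v γ • x) ≠ 0) :
    v.valuation K (jinv (γ : M2 K)) ≤ 1 := by
  obtain ⟨k, hk, hp⟩ := hf.exists_pconj hx
  have hk1 : ∀ i j, Valued.v ((k : M2 (v.adicCompletion K)) i j) ≤ 1 := hk.1
  have hk2 : Valued.v (k : M2 (v.adicCompletion K)).det = 1 := hk.2
  rw [coe_gmap] at hp
  exact valuation_jinv_le_one v hp hk1 hk2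

/-- **The local condition on the kernel at `v`**: `v` splits in `L = K(∛a)`, or the support is near
the identity, or `v` is good and the support is in `K_v^× GL₂(O_v)`. -/
def GoodAt (a : Kˣ) {U : Lev K} {R : Type*} [Zero R] (v : HeightOneSpectrum (𝓞 K))
    (f : Dv U v → Dv U v → R) : Prop :=
  a ∈ locPow 3 v ∨
  (∃ r : ℤᵐ⁰, r < 1 ∧ r ^ 2 < v.valuation K 81 ∧
    RelIn f {k | Bd (Valued.v : Valuation (v.adicCompletion K) ℤᵐ⁰)
      ((k : M2 (v.adicCompletion K)) - 1) r}) ∨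
  (((3 : ℕ) : 𝓞 K) ∉ v.asIdeal ∧ ord v a = 0 ∧
    RelIn f (GLO (Valued.v : Valuation (v.adicCompletion K) ℤᵐ⁰) :
      Set (GL (Fin 2) (v.adicCompletion K))))

variable [IsTotallyComplex K] {ζ : K} (hζ : IsPrimitiveRoot ζ 3)
  {L : Type*} [Field L] [Algebra K L] {τ : L ≃ₐ[K] L} (hτ : Cyc3 τ)
  (h3 : Module.finrank K L = 3) {a : Kˣ} {α : L} (hα : α ^ 3 = algebraMap K L a)
  (hL : IntermediateField.adjoin K {α} = ⊤)
include hζ hτ h3 hα hL

/-- If `f_v (x, γ x) ≠ 0` for some `x` at every `v`, then `γ` is a norm. -/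
theorem isNm_of_forall_exists {U : Lev K} {R : Type*} [Zero R]
    {f : ∀ v, Dv U v → Dv U v → R} (hf : ∀ v, GoodAt a v (f v)) {γ : GL (Fin 2) K}
    (hγ : Ell (γ : M2 K)) (h : ∀ v, ∃ x : Dv U v, f v x (γ • x) ≠ 0) : IsNm τ (γ : M2 K) := by
  refine isNm_of_local hζ hτ h3 hα hL hγ fun v => ?_
  obtain ⟨x, hx⟩ := h v
  rw [smulF_def] at hx
  rcases hf v with h1 | ⟨r, hr, hr2, h1⟩ | ⟨h1, h2, h4⟩
  · exact Or.inl h1
  · exact Or.inr (Or.inl ((jinv_of_relIn_near hr h1 hx).trans_lt hr2))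
  · exact Or.inr (Or.inr ⟨h1, h2, jinv_of_relIn_GLO h4 hx⟩)

/-- **Classes which are not norms do not contribute.** -/
theorem kprod_eq_zero_of_not_isNm {U : Lev K} {R : Type*} [CommSemiring R]
    {f : ∀ v, Dv U v → Dv U v → R} (hadm : RProd.KAdm f) (hf : ∀ v, GoodAt a v (f v))
    {γ : GL (Fin 2) K} (hγ : Ell (γ : M2 K)) (hn : ¬ IsNm τ (γ : M2 K)) (x : D U) :
    RProd.kprod f x (γ • x) = 0 := by
  by_contra hx
  exact hn (isNm_of_forall_exists hζ hτ h3 hα hL hf hγ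
    fun v => ⟨x v, hadm.ne_zero hx v⟩)

/-- The same in group language. -/
theorem kprod_eq_zero_of_not_isPNorm {U : Lev K} {R : Type*} [CommSemiring R]
    {f : ∀ v, Dv U v → Dv U v → R} (hadm : RProd.KAdm f) (hf : ∀ v, GoodAt a v (f v))
    {γ : PG K} (hγ : Dict.PEll γ) (hn : ¬ Dict.IsPNorm τ γ) (x : D U) :
    RProd.kprod f x (γ • x) = 0 := by
  obtain ⟨g, rfl⟩ := Dict.pmk_surjective γ
  rw [Dict.pmk_smul]
  refine kprod_eq_zero_of_not_isNm hζ hτ h3 hα hL hadm hf (Dict.pell_pmk.mp hγ).1 ?_ x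
  intro h
  exact hn (Dict.isNm_iff_exists_isConj.mp h)

end Global

end Fermat.Agent.LT

end
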