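import Fermat.Agent.LT.TauSplit
import Fermat.Agent.LT.Near.Inst

/-!
# Places with one place above: `∏_{w ∣ v} GL₂(L_w)/U_w = GL₂(L_w₀)/U_w₀`

The analogue of `TauSplit` for a place `v` with `stabilizer G w₀ = ⊤`, and the dictionary between
`glExt`, `glBase` and the matrices of `Near` (`tM (tauW σ h)`, `incl K w v`).
-/

set_option autoImplicit false

open IsDedekindDomain NumberField Matrix
open scoped WithZero Topology Pointwise

namespace Fermat.Agent.LT.Ext

open Fermat.Agent.LT.Near

section Dict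

variable {K L : Type*} [Field K] [Field L] [NumberField K] [NumberField L] [Algebra K L]
  {G : Type*} [Group G] [MulSemiringAction G L]

/-- `glExt` at a fixed place is the map induced by `tauW`. -/
theorem coe_glExt {w : HeightOneSpectrum (𝓞 L)} {g : G} (h : g • w = w)
    (x : GL (Fin 2) (w.adicCompletion L)) :
    ((glExt h x : GL (Fin 2) (w.adicCompletion L)) :
      Matrix (Fin 2) (Fin 2) (w.adicCompletion L)) = tM (tauW g h) x := rfl

theorem glExt_eq_map {w : HeightOneSpectrum (𝓞 L)} {g : G} (h : g • w = w) :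
    (glExt h : GL (Fin 2) (w.adicCompletion L) →* GL (Fin 2) (w.adicCompletion L)) =
      GeneralLinearGroup.map (tauW g h : w.adicCompletion L →+* w.adicCompletion L) := rfl

theorem glExt_scalar {w w' : HeightOneSpectrum (𝓞 L)} {g : G} (h : g • w = w')
    (z : (w.adicCompletion L)ˣ) :
    glExt h (GeneralLinearGroup.scalar (Fin 2) z) = GeneralLinearGroup.scalar (Fin 2)
      (Units.map ((compat_of_smul_eq (L := L) h).ext : w.adicCompletion L →* w'.adicCompletion L)
        z) := by
  refine Units.ext (Matrix.ext fun i j => ?_)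
  change (compat_of_smul_eq (L := L) h).ext (GeneralLinearGroup.scalar (Fin 2) z i j) = _
  rw [GeneralLinearGroup.coe_scalar, GeneralLinearGroup.coe_scalar]
  fin_cases i <;> fin_cases j <;> simp

variable (v : HeightOneSpectrum (𝓞 K)) (w : HeightOneSpectrum (𝓞 L))
  [w.asIdeal.LiesOver v.asIdeal]

theorem coe_glBase (x : GL (Fin 2) (v.adicCompletion K)) :
    ((glBase v w x : GL (Fin 2) (w.adicCompletion L)) :
      Matrix (Fin 2) (Fin 2) (w.adicCompletion L)) =
      (incl K w v).mapMatrix (x : Matrix (Fin 2) (Fin 2) (v.adicCompletion K)) := rfl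

theorem glBase_scalar (z : (v.adicCompletion K)ˣ) :
    glBase v w (GeneralLinearGroup.scalar (Fin 2) z) = GeneralLinearGroup.scalar (Fin 2)
      (Units.map (incl K w v : v.adicCompletion K →* w.adicCompletion L) z) := by
  refine Units.ext (Matrix.ext fun i j => ?_)
  rw [glBase_apply, GeneralLinearGroup.coe_scalar, GeneralLinearGroup.coe_scalar]
  fin_cases i <;> fin_cases j <;> simp [incl]

variable {v w}

/-- the fixed points of `τ` in `GL₂(L_w)` -/
theorem glExt_eq_self_iff [IsGaloisGroup G K L] (hG : Nat.card G = 3) {σ : G} (hσ : σ ≠ 1)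
    (h : σ • w = w) (x : GL (Fin 2) (w.adicCompletion L)) :
    glExt h x = x ↔ ∃ g : GL (Fin 2) (v.adicCompletion K), glBase v w g = x := by
  rw [Units.ext_iff, coe_glExt, tM_eq_iff_GL (v := v) hG hσ h _ x.isUnit]
  constructor
  · rintro ⟨g, hg⟩
    exact ⟨g, Units.ext hg⟩
  · rintro ⟨g, rfl⟩
    exact ⟨g, rfl⟩

/-- the fixed units of `τ` in `L_w` -/
theorem exists_unit_incl [IsGaloisGroup G K L] (hG : Nat.card G = 3) {σ : G} (hσ : σ ≠ 1)
    (h : σ • w = w) {c : w.adicCompletion L} (hc : c ≠ 0) (hcτ : tauW σ h c = c) :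
    ∃ a : (v.adicCompletion K)ˣ, incl K w v a = c := by
  obtain ⟨a, rfl⟩ := (mem_range_iff_three (v := v) hG hσ h c).mp hcτ
  exact ⟨Units.mk0 a fun h0 => hc (by rw [h0, map_zero]), rfl⟩

end Dict

section NonSplit

variable {K L : Type*} [Field K] [Field L] [NumberField K] [NumberField L] [Algebra K L]
  {v : HeightOneSpectrum (𝓞 K)}
  {G : Type*} [Group G] [Finite G] [MulSemiringAction G L] [IsGaloisGroup G K L]
  {U : ∀ w : HeightOneSpectrum (𝓞 L), Subgroup (GL (Fin 2) (w.adicCompletion L))}

theorem smul_eq_of_top {w : HeightOneSpectrum (𝓞 L)} (hw : MulAction.stabilizer G w = ⊤)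
    (g : G) : g • w = w := by
  have : g ∈ MulAction.stabilizer G w := by rw [hw]; trivial
  exact this

theorem above_eq {w₀ : Above L v} (hw : MulAction.stabilizer G w₀.1 = ⊤) (w : Above L v) :
    w = w₀ := by
  obtain ⟨g, hg⟩ := exists_smul_above (K := K) (G := G) w₀ w
  apply Subtype.ext
  rw [← hg, smul_eq_of_top hw]

/-- there is one place above `v` -/
@[reducible] def uniqueAbove {w₀ : Above L v} (hw : MulAction.stabilizer G w₀.1 = ⊤) :
    Unique (Above L v) where
  default := w₀
  uniq := above_eq hw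

variable (U) in
/-- **The coset space at a non-split place.** -/
def nonSplitEquiv {w₀ : Above L v} (hw : MulAction.stabilizer G w₀.1 = ⊤) :
    (∀ w : Above L v, Dv U w.1) ≃ Dv U w₀.1 :=
  letI := uniqueAbove hw
  Equiv.piUnique (fun w : Above L v => Dv U w.1)

@[simp] theorem nonSplitEquiv_apply {w₀ : Above L v} (hw : MulAction.stabilizer G w₀.1 = ⊤)
    (d : ∀ w : Above L v, Dv U w.1) : nonSplitEquiv U hw d = d w₀ := rfl

@[simp] theorem nonSplitEquiv_symm_apply {w₀ : Above L v}
    (hw : MulAction.stabilizer G w₀.1 = ⊤) (x : Dv U w₀.1) :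
    (nonSplitEquiv U hw).symm x w₀ = x :=
  (nonSplitEquiv U hw).apply_symm_apply x

theorem nonSplitEquiv_vAct (hU : GStable G U) {w₀ : Above L v}
    (hw : MulAction.stabilizer G w₀.1 = ⊤) (g : G) (d : ∀ w : Above L v, Dv U w.1) :
    nonSplitEquiv U hw (vAct hU g d) =
      dvMap hU (smul_eq_of_top hw g) (nonSplitEquiv U hw d) :=
  vAct_apply_smul hU g d (smul_eq_of_top hw g)

theorem nonSplitEquiv_vGl {w₀ : Above L v} (hw : MulAction.stabilizer G w₀.1 = ⊤)
    (γ : GL (Fin 2) L) (d : ∀ w : Above L v, Dv U w.1) :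
    nonSplitEquiv U hw (vGl U γ d) =
      GeneralLinearGroup.map (algebraMap L (w₀.1.adicCompletion L)) γ • nonSplitEquiv U hw d :=
  rfl

theorem nonSplitEquiv_one {w₀ : Above L v} (hw : MulAction.stabilizer G w₀.1 = ⊤) :
    nonSplitEquiv U hw (fun w => ((1 : GL (Fin 2) (w.1.adicCompletion L)) : Dv U w.1)) =
      ((1 : GL (Fin 2) (w₀.1.adicCompletion L)) : Dv U w₀.1) := rfl

/-- `[L : K] = 3`: a place is split (all stabilisers trivial) or has one place above. -/
theorem split_or_nonSplit (hG : Nat.card G = 3) (w₀ : Above L v) :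
    MulAction.stabilizer G w₀.1 = ⊥ ∨ MulAction.stabilizer G w₀.1 = ⊤ :=
  stabilizer_eq_bot_or_top w₀.1 G (by rw [hG]; exact Nat.prime_three)

/-- the norm of a matrix over `L`, in the completion: `δ τ(δ) τ²(δ)` -/
theorem map_norm {w : HeightOneSpectrum (𝓞 L)} {τ : G} (h : τ • w = w) (δ : GL (Fin 2) L) :
    GeneralLinearGroup.map (algebraMap L (w.adicCompletion L))
      (δ * GeneralLinearGroup.map (MulSemiringAction.toRingHom G L τ) δ *
        GeneralLinearGroup.map (MulSemiringAction.toRingHom G L τ)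
          (GeneralLinearGroup.map (MulSemiringAction.toRingHom G L τ) δ)) =
      GeneralLinearGroup.map (algebraMap L (w.adicCompletion L)) δ *
        glExt h (GeneralLinearGroup.map (algebraMap L (w.adicCompletion L)) δ) *
        glExt h (glExt h (GeneralLinearGroup.map (algebraMap L (w.adicCompletion L)) δ)) := by
  rw [map_mul, map_mul, glExt_map, glExt_map]

end NonSplit

end Fermat.Agent.LT.Ext
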