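import Fermat.Agent.LT.UnitMat
import Fermat.Agent.LT.TauNonSplit
import Fermat.Agent.LT.AdicInt
import Fermat.Agent.LT.Local
import Fermat.Agent.LT.Level.Local

/-!
# The completion at an unramified non-split place satisfies `Unr`
-/

set_option autoImplicit false

open IsDedekindDomain NumberField Matrix IsLocalRing
open scoped WithZero Topology Pointwise

noncomputable section

namespace Fermat.Agent.LT.Ext

open Fermat.Agent.LT.Near

section Integers

variable {L : Type*} [Field L] [NumberField L] {G : Type*} [Group G] [MulSemiringAction G L]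
  {w : HeightOneSpectrum (𝓞 L)}

theorem tauW_symm_valued (σ : G) (h : σ • w = w) (x : w.adicCompletion L) :
    Valued.v ((tauW σ h).symm x) = Valued.v x := by
  rw [← valued_tauW σ h, RingEquiv.apply_symm_apply]

/-- the automorphism of `O_w` attached to `σ` -/
def tauO (σ : G) (h : σ • w = w) : w.adicCompletionIntegers L ≃+* w.adicCompletionIntegers L where
  toFun x := ⟨tauW σ h x, by
    rw [HeightOneSpectrum.mem_adicCompletionIntegers, valued_tauW]; exact x.2⟩
  invFun x := ⟨(tauW σ h).symm x, by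
    rw [HeightOneSpectrum.mem_adicCompletionIntegers, tauW_symm_valued]; exact x.2⟩
  left_inv x := Subtype.ext ((tauW σ h).symm_apply_apply _)
  right_inv x := Subtype.ext ((tauW σ h).apply_symm_apply _)
  map_mul' x y := Subtype.ext (map_mul (tauW σ h) _ _)
  map_add' x y := Subtype.ext (map_add (tauW σ h) _ _)

@[simp] theorem coe_tauO (σ : G) (h : σ • w = w) (x : w.adicCompletionIntegers L) :
    ((tauO σ h x : w.adicCompletionIntegers L) : w.adicCompletion L) = tauW σ h x := rfl

theorem finite_quotient_span {ϖ : w.adicCompletionIntegers L}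
    (hϖ : Valued.v (ϖ : w.adicCompletion L) = WithZero.exp (-1 : ℤ)) :
    Finite (w.adicCompletionIntegers L ⧸ Ideal.span {ϖ}) := by
  rw [← maximalIdeal_eq_span hϖ]
  exact Loc.finite_residueField w

theorem exists_zpow_mul_unit {ϖ : w.adicCompletionIntegers L}
    (hϖ : Valued.v (ϖ : w.adicCompletion L) = WithZero.exp (-1 : ℤ))
    {x : w.adicCompletion L} (hx : x ≠ 0) : ∃ (n : ℤ) (u : (w.adicCompletionIntegers L)ˣ),
      x = (ϖ : w.adicCompletion L) ^ n * ((u : w.adicCompletionIntegers L) :
        w.adicCompletion L) := by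
  have hϖ0 : (ϖ : w.adicCompletion L) ≠ 0 := by
    intro h
    rw [h, map_zero] at hϖ
    exact WithZero.exp_ne_zero hϖ.symm
  have hvx : Valued.v x ≠ 0 := (Valuation.ne_zero_iff _).mpr hx
  obtain ⟨m, hm⟩ : ∃ m : ℤ, Valued.v x = WithZero.exp m := ⟨_, (WithZero.exp_log hvx).symm⟩
  have hz := zpow_ne_zero m hϖ0
  have h1 : Valued.v ((ϖ : w.adicCompletion L) ^ m * x) = 1 := by
    rw [map_mul, map_zpow₀, hϖ, hm, ← WithZero.exp_zsmul, ← WithZero.exp_add, ← WithZero.exp_zero]
    congr 1
    simp
  have h2 : Valued.v ((ϖ : w.adicCompletion L) ^ m * x)⁻¹ = 1 := by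
    rw [map_inv₀, h1, inv_one]
  have h3 : (ϖ : w.adicCompletion L) ^ m * x ≠ 0 := mul_ne_zero hz hx
  refine ⟨-m, ⟨⟨_, h1.le⟩, ⟨_, h2.le⟩, Subtype.ext (mul_inv_cancel₀ h3),
    Subtype.ext (inv_mul_cancel₀ h3)⟩, ?_⟩
  change x = (ϖ : w.adicCompletion L) ^ (-m) * ((ϖ : w.adicCompletion L) ^ m * x)
  rw [_root_.zpow_neg, inv_mul_cancel_left₀ hz]

/-- `GL₂(O_w)` in the two notations -/
theorem gu_eq_GLO : GU (w.adicCompletionIntegers L) =
    Lvl.GLO (Valued.v : Valuation (w.adicCompletion L) ℤᵐ⁰) := by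
  ext g
  rw [mem_GU, Lvl.mem_GLO_iff]
  rfl

end Integers

section Unram

variable {K L : Type*} [Field K] [Field L] [NumberField K] [NumberField L] [Algebra K L]
  {v : HeightOneSpectrum (𝓞 K)} {w : HeightOneSpectrum (𝓞 L)} [w.asIdeal.LiesOver v.asIdeal]
  {G : Type*} [Group G] [MulSemiringAction G L]

theorem comap_integers : (w.adicCompletionIntegers L).comap (incl K w v) =
    v.adicCompletionIntegers K := by
  ext x
  rw [ValuationSubring.mem_comap, HeightOneSpectrum.mem_adicCompletionIntegers,
    HeightOneSpectrum.mem_adicCompletionIntegers]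
  exact (compat_liesOver (K := K) (L := L) v w).valued_ext_le_one_iff x

/-- At an unramified place a non-trivial automorphism is non-trivial on the residue field. -/
theorem exists_smul_sub_notMem [Finite G] [IsGaloisGroup G K L] {σ : G} (hσ : σ ≠ 1)
    (he : v.asIdeal.ramificationIdx' w.asIdeal = 1) : ∃ x : 𝓞 L, σ • x - x ∉ w.asIdeal := by
  by_contra hcon
  push Not at hcon
  have h2 : Nat.card (w.asIdeal.inertia G) = 1 := by
    rw [Ideal.card_inertia_eq_ramificationIdxIn v.asIdeal w.asIdeal,
      Ideal.ramificationIdxIn_eq_ramificationIdx v.asIdeal w.asIdeal G,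
      ← Ideal.ramificationIdx'_eq_ramificationIdx v.asIdeal w.asIdeal v.ne_bot, he]
  have h3 := Subgroup.card_eq_one.mp h2
  have h1 : σ ∈ w.asIdeal.inertia G := hcon
  rw [h3, Subgroup.mem_bot] at h1
  exact hσ h1

theorem resData_of_unramified [Finite G] [IsGaloisGroup G K L] {σ : G} (hσ : σ ≠ 1)
    (hσ3 : σ ^ 3 = 1) (h : σ • w = w) (he : v.asIdeal.ramificationIdx' w.asIdeal = 1)
    {ϖ : w.adicCompletionIntegers L}
    (hϖ : Valued.v (ϖ : w.adicCompletion L) = WithZero.exp (-1 : ℤ))
    (hfix : tauW σ h ϖ = ϖ) : ResData (tauO σ h) ϖ where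
  cube x := Subtype.ext (tauW_pow_three h hσ3 x)
  fix := Subtype.ext hfix
  complete := by
    rw [← maximalIdeal_eq_span hϖ]
    infer_instance
  maximal := by
    rw [← maximalIdeal_eq_span hϖ]
    infer_instance
  finite := finite_quotient_span hϖ
  ne := by
    obtain ⟨x, hx⟩ := exists_smul_sub_notMem (K := K) (v := v) (w := w) hσ he
    refine ⟨algebraMap (𝓞 L) (w.adicCompletionIntegers L) x, fun hmem => hx ?_⟩
    rw [← maximalIdeal_eq_span hϖ, mem_maximalIdeal] at hmem
    have h1 : ((tauO σ h (algebraMap (𝓞 L) (w.adicCompletionIntegers L) x) -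
        algebraMap (𝓞 L) (w.adicCompletionIntegers L) x : w.adicCompletionIntegers L) :
        w.adicCompletion L) = algebraMap L (w.adicCompletion L)
          (algebraMap (𝓞 L) L (σ • x - x)) := by
      rw [map_sub, map_sub]
      change tauW σ h (algebraMap L (w.adicCompletion L) (algebraMap (𝓞 L) L x)) -
        algebraMap L (w.adicCompletion L) (algebraMap (𝓞 L) L x) = _
      rw [tauW_algebraMap]
      congr 2
    rw [h1, v_algebraMap, HeightOneSpectrum.valuation_lt_one_iff_mem] at hmem
    exact hmem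

theorem valued_incl_of_unramified (he : v.asIdeal.ramificationIdx' w.asIdeal = 1)
    (x : v.adicCompletion K) : Valued.v (incl K w v x) = Valued.v x := by
  rw [(compat_liesOver (K := K) (L := L) v w).valued_ext, he, pow_one]

variable (K v w) in
theorem exists_uniformizer_incl (he : v.asIdeal.ramificationIdx' w.asIdeal = 1) :
    ∃ (a : v.adicCompletion K) (ϖ : w.adicCompletionIntegers L),
      (ϖ : w.adicCompletion L) = incl K w v a ∧
      Valued.v (ϖ : w.adicCompletion L) = WithZero.exp (-1 : ℤ) := by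
  obtain ⟨a, ha⟩ := exists_uniformizer K v
  have hval : Valued.v (incl K w v (a : v.adicCompletion K)) = WithZero.exp (-1 : ℤ) := by
    rw [valued_incl_of_unramified he, ha]
  refine ⟨a, ⟨incl K w v (a : v.adicCompletion K), ?_⟩, rfl, hval⟩
  rw [HeightOneSpectrum.mem_adicCompletionIntegers, hval, ← WithZero.exp_zero,
    WithZero.exp_le_exp]
  omega

/-- **The instance.** -/
theorem unr_of_unramified [IsGaloisGroup G K L] (hG : Nat.card G = 3) {σ : G} (hσ : σ ≠ 1)
    (h : σ • w = w) (he : v.asIdeal.ramificationIdx' w.asIdeal = 1) :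
    Nonempty (Unr (incl K w v) (tauW σ h) (w.adicCompletionIntegers L)) := by
  have hfin : Finite G := Nat.finite_of_card_ne_zero (by rw [hG]; norm_num)
  obtain ⟨a, ϖ, hϖa, hϖ⟩ := exists_uniformizer_incl K v w he
  have hfix : tauW σ h ϖ = ϖ := by rw [hϖa]; exact tauW_incl σ h a
  exact ⟨{
    cube := tauW_pow_three h (pow_three_eq_one hG σ)
    map_f := tauW_incl σ h
    exists_f := fun x hx => (mem_range_iff_three hG hσ h x).mp hx
    s := tauO σ h
    coe_s := coe_tauO σ h
    ϖ := ϖ
    res := resData_of_unramified (v := v) hσ (pow_three_eq_one hG σ) h he hϖ hfix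
    ϖ_ne := fun h0 => by
      rw [h0] at hϖ
      have h1 : Valued.v ((0 : w.adicCompletionIntegers L) : w.adicCompletion L) = 0 := by
        rw [ZeroMemClass.coe_zero, map_zero]
      rw [h1] at hϖ
      exact WithZero.exp_ne_zero hϖ.symm
    unif := fun x hx => exists_zpow_mul_unit hϖ hx }⟩

end Unram

end Fermat.Agent.LT.Ext
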