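import Mathlib.MeasureTheory.Group.Action
import Mathlib.MeasureTheory.Integral.DominatedConvergence
import Mathlib.MeasureTheory.Integral.Bochner.Set
import Mathlib.MeasureTheory.Integral.Prod
import Mathlib.MeasureTheory.Measure.WithDensity
import Mathlib.MeasureTheory.Function.L2Space
import Mathlib.Topology.Algebra.InfiniteSum.Module

/-!
# Quotient measures by weights: unfolding, orbit decomposition, kernels

A countable group `G` acts on a measure space `(X, μ)` with invariant measure. Instead of a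
fundamental domain we use a weight: a function `ρ ≥ 0` with `∑_g ρ (g x) = 1`. Stabilisers are
allowed. The integral over the quotient of an invariant function `f` is `∫ ρ f dμ`.
-/

set_option autoImplicit false
set_option linter.unusedSectionVars false

noncomputable section

open MeasureTheory
open scoped ENNReal

namespace Fermat.Agent.LT

/-- `ρ` is a weight for the action of `G` on `X`, over the subset `S`. -/
structure WtOn (G : Type*) {X : Type*} [Group G] [MulAction G X] [MeasurableSpace X]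
    (S : Set X) (ρ : X → ℝ) : Prop where
  meas : Measurable ρ
  nonneg : ∀ x, 0 ≤ ρ x
  sum : ∀ x ∈ S, HasSum (fun g : G => ρ (g • x)) 1

/-- weights over the whole space -/
abbrev Wt (G : Type*) {X : Type*} [Group G] [MulAction G X] [MeasurableSpace X]
    (ρ : X → ℝ) : Prop := WtOn G (Set.univ : Set X) ρ

section basic

variable {G X : Type*} [Group G] [MulAction G X] [MeasurableSpace X] {S S' : Set X} {ρ ρ' : X → ℝ}

theorem WtOn.mono (h : WtOn G S ρ) (hS : S' ⊆ S) : WtOn G S' ρ :=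
  ⟨h.meas, h.nonneg, fun x hx => h.sum x (hS hx)⟩

theorem Wt.on (h : Wt G ρ) (S : Set X) : WtOn G S ρ := h.mono (Set.subset_univ S)

theorem WtOn.sum_inv (h : WtOn G S ρ) {x : X} (hx : x ∈ S) :
    HasSum (fun g : G => ρ (g⁻¹ • x)) 1 :=
  (Equiv.inv G).hasSum_iff.mpr (h.sum x hx)

theorem WtOn.le_one (h : WtOn G S ρ) {x : X} (hx : x ∈ S) (g : G) : ρ (g • x) ≤ 1 :=
  le_hasSum (h.sum x hx) g fun _ _ => h.nonneg _

theorem WtOn.le_one' (h : WtOn G S ρ) {x : X} (hx : x ∈ S) : ρ x ≤ 1 := by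
  simpa using h.le_one hx 1

theorem WtOn.tsum_ofReal (h : WtOn G S ρ) {x : X} (hx : x ∈ S) :
    ∑' g : G, ENNReal.ofReal (ρ (g • x)) = 1 := by
  rw [← ENNReal.ofReal_tsum_of_nonneg (fun g => h.nonneg _) (h.sum x hx).summable,
    (h.sum x hx).tsum_eq, ENNReal.ofReal_one]

theorem WtOn.tsum_ofReal_inv (h : WtOn G S ρ) {x : X} (hx : x ∈ S) :
    ∑' g : G, ENNReal.ofReal (ρ (g⁻¹ • x)) = 1 := by
  rw [← ENNReal.ofReal_tsum_of_nonneg (fun g => h.nonneg _) (h.sum_inv hx).summable,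
    (h.sum_inv hx).tsum_eq, ENNReal.ofReal_one]

theorem WtOn.exists_ne_zero (h : WtOn G S ρ) {x : X} (hx : x ∈ S) : ∃ g : G, ρ (g • x) ≠ 0 := by
  by_contra hcon
  push Not at hcon
  have h1 := h.sum x hx
  simp only [hcon] at h1
  exact zero_ne_one (hasSum_zero.unique h1)

end basic

section unfold

variable {G X : Type*} [Group G] [Countable G] [MulAction G X] [MeasurableSpace X]
  [MeasurableConstSMul G X] {μ : Measure X} [SMulInvariantMeasure G X μ]
  {S S' : Set X} {ρ ρ' : X → ℝ}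

omit [Countable G] in
theorem lintegral_smul_eq {f : X → ℝ≥0∞} (g : G) : ∫⁻ x, f (g • x) ∂μ = ∫⁻ x, f x ∂μ :=
  (measurePreserving_smul g μ).lintegral_comp_emb (measurableEmbedding_const_smul g) f

/-- **Unfolding**, nonnegative functions. -/
theorem WtOn.lintegral_unfold (h : WtOn G S ρ) {f : X → ℝ≥0∞} (hf : AEMeasurable f μ)
    (hS : ∀ x, x ∉ S → f x = 0) :
    ∫⁻ x, ENNReal.ofReal (ρ x) * ∑' g : G, f (g • x) ∂μ = ∫⁻ x, f x ∂μ := by
  have hfg : ∀ g : G, AEMeasurable (fun x => f (g • x)) μ := fun g =>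
    hf.comp_quasiMeasurePreserving (measurePreserving_smul g μ).quasiMeasurePreserving
  calc ∫⁻ x, ENNReal.ofReal (ρ x) * ∑' g : G, f (g • x) ∂μ
      = ∫⁻ x, ∑' g : G, ENNReal.ofReal (ρ x) * f (g • x) ∂μ := by
        simp_rw [ENNReal.tsum_mul_left]
    _ = ∑' g : G, ∫⁻ x, ENNReal.ofReal (ρ x) * f (g • x) ∂μ :=
        lintegral_tsum fun g => (h.meas.ennreal_ofReal.aemeasurable).mul (hfg g)
    _ = ∑' g : G, ∫⁻ x, ENNReal.ofReal (ρ (g⁻¹ • x)) * f x ∂μ := by
        refine tsum_congr fun g => ?_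
        rw [← lintegral_smul_eq (μ := μ) (f := fun x => ENNReal.ofReal (ρ (g⁻¹ • x)) * f x) g]
        simp only [inv_smul_smul]
    _ = ∫⁻ x, ∑' g : G, ENNReal.ofReal (ρ (g⁻¹ • x)) * f x ∂μ :=
        (lintegral_tsum fun g => ((h.meas.comp (measurable_const_smul g⁻¹)).ennreal_ofReal
          |>.aemeasurable).mul hf).symm
    _ = ∫⁻ x, f x ∂μ := by
        refine lintegral_congr fun x => ?_
        rw [ENNReal.tsum_mul_right]
        by_cases hx : x ∈ S
        · rw [h.tsum_ofReal_inv hx, one_mul]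
        · rw [hS x hx, mul_zero]

variable {E : Type*} [NormedAddCommGroup E] [NormedSpace ℝ E]

omit [MeasurableSpace X] in
theorem integrable_tsum {ι : Type*} [Countable ι] {mX : MeasurableSpace X} {μ : Measure X}
    [CompleteSpace E] {F : ι → X → E} (hF : ∀ i, AEStronglyMeasurable (F i) μ)
    (h : ∑' i, ∫⁻ x, ‖F i x‖ₑ ∂μ ≠ ∞) : Integrable (fun x => ∑' i, F i x) μ := by
  rw [← lintegral_tsum fun i => (hF i).enorm] at h
  have h1 : ∀ᵐ x ∂μ, ∑' i, ‖F i x‖ₑ < ∞ :=
    ae_lt_top' (AEMeasurable.tsum fun i => (hF i).enorm) h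
  have h2 : ∀ᵐ x ∂μ, Summable fun i => F i x := by
    filter_upwards [h1] with x hx
    have h5 : Summable fun i => ‖F i x‖₊ := by
      rw [← ENNReal.tsum_coe_ne_top_iff_summable]
      exact hx.ne
    exact (NNReal.summable_coe.mpr h5).of_norm
  refine ⟨?_, ?_⟩
  · refine aestronglyMeasurable_of_tendsto_ae (Filter.atTop : Filter (Finset ι))
      (f := fun s x => ∑ i ∈ s, F i x) (fun s => ?_) ?_
    · exact Finset.aestronglyMeasurable_fun_sum s fun i _ => hF i
    · filter_upwards [h2] with x hx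
      exact hx.hasSum
  · refine lt_of_le_of_lt (lintegral_mono_ae ?_) (lt_top_iff_ne_top.mpr h)
    exact Filter.Eventually.of_forall fun x => enorm_tsum_le_tsum_enorm

theorem WtOn.tsum_lintegral_ne_top (h : WtOn G S ρ) {f : X → E} (hf : Integrable f μ)
    (hS : ∀ x, x ∉ S → f x = 0) :
    ∑' g : G, ∫⁻ x, ‖ρ x • f (g • x)‖ₑ ∂μ ≠ ∞ := by
  have h1 := h.lintegral_unfold (f := fun x => ‖f x‖ₑ) hf.1.enorm (fun x hx => by
    rw [hS x hx, enorm_zero])
  have h2 : ∑' g : G, ∫⁻ x, ‖ρ x • f (g • x)‖ₑ ∂μ =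
      ∫⁻ x, ENNReal.ofReal (ρ x) * ∑' g : G, ‖f (g • x)‖ₑ ∂μ := by
    have hfg : ∀ g : G, AEMeasurable (fun x => ‖f (g • x)‖ₑ) μ := fun g =>
      hf.1.enorm.comp_quasiMeasurePreserving (measurePreserving_smul g μ).quasiMeasurePreserving
    simp_rw [← ENNReal.tsum_mul_left]
    refine Eq.trans ?_ (lintegral_tsum fun g =>
      (h.meas.ennreal_ofReal.aemeasurable).mul (hfg g)).symm
    refine tsum_congr fun g => lintegral_congr fun x => ?_
    rw [enorm_smul, Real.enorm_of_nonneg (h.nonneg x)]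
    rfl
  rw [h2, h1]
  exact hf.2.ne

/-- the sums over the orbits of an integrable function converge almost everywhere -/
theorem WtOn.ae_summable (h : WtOn G S ρ) {f : X → E} (hf : Integrable f μ)
    (hS : ∀ x, x ∉ S → f x = 0) :
    ∀ᵐ x ∂μ, ρ x ≠ 0 → Summable fun g : G => ‖f (g • x)‖ := by
  have h1 := h.lintegral_unfold (f := fun x => ‖f x‖ₑ) hf.1.enorm (fun x hx => by
    rw [hS x hx, enorm_zero])
  have hfg : ∀ g : G, AEMeasurable (fun x => ‖f (g • x)‖ₑ) μ := fun g =>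
    hf.1.enorm.comp_quasiMeasurePreserving (measurePreserving_smul g μ).quasiMeasurePreserving
  have h2 : ∀ᵐ x ∂μ, ENNReal.ofReal (ρ x) * ∑' g : G, ‖f (g • x)‖ₑ < ∞ := by
    refine ae_lt_top' ((h.meas.ennreal_ofReal.aemeasurable).mul
      (AEMeasurable.tsum hfg)) ?_
    rw [h1]
    exact hf.2.ne
  filter_upwards [h2] with x hx hρ
  have h3 : ENNReal.ofReal (ρ x) ≠ 0 := by
    rw [Ne, ENNReal.ofReal_eq_zero, not_le]
    exact lt_of_le_of_ne (h.nonneg x) (Ne.symm hρ)
  have h4 : ∑' g : G, ‖f (g • x)‖ₑ ≠ ∞ := by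
    intro h5
    rw [h5, ENNReal.mul_top h3] at hx
    exact lt_irrefl _ hx
  have h5 : Summable fun g : G => ‖f (g • x)‖₊ := by
    rw [← ENNReal.tsum_coe_ne_top_iff_summable]
    exact h4
  exact NNReal.summable_coe.mpr h5

/-- **Unfolding**. -/
theorem WtOn.integral_unfold (h : WtOn G S ρ) {f : X → E} (hf : Integrable f μ)
    (hS : ∀ x, x ∉ S → f x = 0) :
    ∫ x, ρ x • ∑' g : G, f (g • x) ∂μ = ∫ x, f x ∂μ := by
  have hfg : ∀ g : G, AEStronglyMeasurable (fun x => f (g • x)) μ := fun g =>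
    hf.1.comp_quasiMeasurePreserving (measurePreserving_smul g μ).quasiMeasurePreserving
  have hfin := h.tsum_lintegral_ne_top hf hS
  have hemb : ∀ (g : G) (F : X → E), ∫ x, F (g • x) ∂μ = ∫ x, F x ∂μ := fun g F =>
    (measurePreserving_smul g μ).integral_comp (measurableEmbedding_const_smul g) F
  have hstep : ∀ g : G, ∫⁻ x, ‖ρ (g⁻¹ • x) • f x‖ₑ ∂μ = ∫⁻ x, ‖ρ x • f (g • x)‖ₑ ∂μ := by
    intro g
    rw [← lintegral_smul_eq (μ := μ) (f := fun x => ‖ρ (g⁻¹ • x) • f x‖ₑ) g]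
    simp only [inv_smul_smul]
  calc ∫ x, ρ x • ∑' g : G, f (g • x) ∂μ
      = ∫ x, ∑' g : G, ρ x • f (g • x) ∂μ := by
        refine integral_congr_ae (Filter.Eventually.of_forall fun x => ?_)
        exact (tsum_const_smul'' (ρ x)).symm
    _ = ∑' g : G, ∫ x, ρ x • f (g • x) ∂μ :=
        integral_tsum (fun g => h.meas.aestronglyMeasurable.smul (hfg g)) hfin
    _ = ∑' g : G, ∫ x, ρ (g⁻¹ • x) • f x ∂μ := by
        refine tsum_congr fun g => ?_
        rw [← hemb g fun x => ρ (g⁻¹ • x) • f x]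
        simp only [inv_smul_smul]
    _ = ∫ x, ∑' g : G, ρ (g⁻¹ • x) • f x ∂μ := by
        refine (integral_tsum (fun g => ?_) ?_).symm
        · exact (h.meas.comp (measurable_const_smul g⁻¹)).aestronglyMeasurable.smul hf.1
        · simp_rw [hstep]
          exact hfin
    _ = ∫ x, f x ∂μ := by
        refine integral_congr_ae (Filter.Eventually.of_forall fun x => ?_)
        by_cases hx : x ∈ S
        · exact (((h.sum_inv hx).smul_const (f x)).tsum_eq).trans (one_smul _ _)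
        · simp [hS x hx]

theorem WtOn.integrable_unfold (h : WtOn G S ρ) {f : X → E} (hf : Integrable f μ)
    (hS : ∀ x, x ∉ S → f x = 0) [CompleteSpace E] :
    Integrable (fun x => ρ x • ∑' g : G, f (g • x)) μ := by
  have hfg : ∀ g : G, AEStronglyMeasurable (fun x => f (g • x)) μ := fun g =>
    hf.1.comp_quasiMeasurePreserving (measurePreserving_smul g μ).quasiMeasurePreserving
  have h0 : (fun x => ρ x • ∑' g : G, f (g • x)) = fun x => ∑' g : G, ρ x • f (g • x) := by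
    funext x; exact (tsum_const_smul'' (ρ x)).symm
  rw [h0]
  exact integrable_tsum (fun g => h.meas.aestronglyMeasurable.smul (hfg g))
    (h.tsum_lintegral_ne_top hf hS)

/-- **Independence of the weight.** -/
theorem WtOn.integral_eq (h : WtOn G S ρ) (h' : WtOn G S' ρ') {f : X → E}
    (hinv : ∀ (g : G) x, f (g • x) = f x) (hS : ∀ x, x ∉ S → f x = 0)
    (hS' : ∀ x, x ∉ S' → f x = 0) (hi : Integrable (fun x => ρ x • f x) μ) :
    ∫ x, ρ x • f x ∂μ = ∫ x, ρ' x • f x ∂μ := by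
  rw [← h'.integral_unfold hi (fun x hx => by rw [hS' x hx, smul_zero])]
  refine integral_congr_ae (Filter.Eventually.of_forall fun x => ?_)
  dsimp only
  simp_rw [hinv]
  by_cases hx : x ∈ S
  · rw [((h.sum x hx).smul_const (f x)).tsum_eq, one_smul]
  · simp [hS x hx]

theorem WtOn.lintegral_eq (h : WtOn G S ρ) (h' : WtOn G S' ρ') {f : X → ℝ≥0∞}
    (hf : AEMeasurable f μ)
    (hinv : ∀ (g : G) x, f (g • x) = f x) (hS : ∀ x, x ∉ S → f x = 0)
    (hS' : ∀ x, x ∉ S' → f x = 0) :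
    ∫⁻ x, ENNReal.ofReal (ρ x) * f x ∂μ = ∫⁻ x, ENNReal.ofReal (ρ' x) * f x ∂μ := by
  rw [← h'.lintegral_unfold (f := fun x => ENNReal.ofReal (ρ x) * f x)
    (h.meas.ennreal_ofReal.aemeasurable.mul hf) (fun x hx => by rw [hS' x hx, mul_zero])]
  refine lintegral_congr fun x => ?_
  simp_rw [hinv]
  rw [ENNReal.tsum_mul_right]
  by_cases hx : x ∈ S
  · rw [h.tsum_ofReal hx, one_mul]
  · rw [hS x hx, mul_zero, mul_zero]

end unfold

/-! ### Weights for subgroups -/

section sub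

variable {G X : Type*} [Group G] [MulAction G X]

/-- `(c, h) ↦ c.out * h` -/
def cosetEq (H : Subgroup G) : (G ⧸ H) × H ≃ G where
  toFun p := p.1.out * p.2
  invFun g := ((g : G ⧸ H), ⟨((g : G ⧸ H)).out⁻¹ * g, by
    rw [← QuotientGroup.eq, QuotientGroup.out_eq']⟩)
  left_inv := by
    rintro ⟨q, s, hs⟩
    have h1 : ((q.out * s : G) : G ⧸ H) = q := by
      rw [QuotientGroup.mk_mul_of_mem _ hs, QuotientGroup.out_eq']
    ext
    · exact h1
    · simp only [h1]
      group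
  right_inv := by
    intro g
    simp

@[simp] theorem cosetEq_apply (H : Subgroup G) (p : (G ⧸ H) × H) :
    cosetEq H p = p.1.out * p.2 := rfl

omit [MulAction G X] in
theorem countable_quot [Countable G] (H : Subgroup G) : Countable (G ⧸ H) :=
  (QuotientGroup.mk_surjective (s := H)).countable

/-- the weight of a subgroup deduced from a weight of the group -/
def subWt (H : Subgroup G) (ρ : X → ℝ) (x : X) : ℝ := ∑' c : G ⧸ H, ρ (c.out • x)

variable [MeasurableSpace X] {S S' : Set X} {ρ ρ' : X → ℝ}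

theorem out_injective' (H : Subgroup G) : Function.Injective fun c : G ⧸ H => c.out :=
  fun a b h => by
    have h1 : ((a.out : G) : G ⧸ H) = ((b.out : G) : G ⧸ H) := congrArg _ h
    rwa [QuotientGroup.out_eq', QuotientGroup.out_eq'] at h1

theorem WtOn.summable_out (h : WtOn G S ρ) (H : Subgroup G) {x : X} (hx : x ∈ S) :
    Summable fun c : G ⧸ H => ρ (c.out • x) :=
  (h.sum x hx).summable.comp_injective (out_injective' H)

/-- the subgroup weight in `ℝ≥0∞` -/
theorem WtOn.ofReal_subWt (h : WtOn G S ρ) (H : Subgroup G) {x : X} (hx : x ∈ S) :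
    ENNReal.ofReal (subWt H ρ x) = ∑' c : G ⧸ H, ENNReal.ofReal (ρ (c.out • x)) := by
  unfold subWt
  exact ENNReal.ofReal_tsum_of_nonneg (fun _ => h.nonneg _) (h.summable_out H hx)

omit [MeasurableSpace X] in
theorem subWt_smul (H : Subgroup G) {x : X} (a : G)
    (hs : Summable fun c : G ⧸ H => ρ ((c.out * a) • x)) :
    HasSum (fun c : G ⧸ H => ρ ((c.out * a) • x)) (subWt H ρ (a • x)) := by
  have h4 : (fun c : G ⧸ H => ρ ((c.out * a) • x)) = fun c : G ⧸ H => ρ (c.out • (a • x)) := by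
    funext c
    rw [smul_smul]
  rw [h4] at hs ⊢
  exact hs.hasSum

theorem WtOn.hasSum_prod (h : WtOn G S ρ) (H : Subgroup G) {x : X} (hx : x ∈ S) :
    HasSum (fun p : H × (G ⧸ H) => ρ ((p.2.out * p.1) • x)) 1 := by
  have h0 := h.sum x hx
  rw [← ((Equiv.prodComm H (G ⧸ H)).trans (cosetEq H)).hasSum_iff] at h0
  have h1 : (fun g : G => ρ (g • x)) ∘ ((Equiv.prodComm H (G ⧸ H)).trans (cosetEq H)) =
      fun p : H × (G ⧸ H) => ρ ((p.2.out * p.1) • x) := by
    funext p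
    simp only [Function.comp_apply, Equiv.trans_apply, Equiv.prodComm_apply, Prod.swap,
      cosetEq_apply]
  rw [h1] at h0
  exact h0

theorem WtOn.subWt_sum (h : WtOn G S ρ) (H : Subgroup G) {x : X} (hx : x ∈ S) :
    HasSum (fun a : H => subWt H ρ ((a : G) • x)) 1 := by
  have h2 := h.hasSum_prod H hx
  refine HasSum.prod_fiberwise h2 fun a => subWt_smul H a ?_
  exact h2.summable.comp_injective (i := fun c : G ⧸ H => (a, c))
    fun c c' hc => (Prod.ext_iff.mp hc).2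

theorem WtOn.sub [Countable G] [MeasurableConstSMul G X] (h : WtOn G S ρ) (H : Subgroup G) :
    WtOn H S (subWt H ρ) where
  meas := by
    have : Countable (G ⧸ H) := countable_quot H
    exact Measurable.tsum fun c => h.meas.comp (measurable_const_smul _)
  nonneg x := tsum_nonneg fun _ => h.nonneg _
  sum x hx := h.subWt_sum H hx

end sub

/-! ### Decomposition into classes -/

section classes

variable {G X : Type*} [Group G] [Countable G] [MulAction G X] [MeasurableSpace X]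
  [MeasurableConstSMul G X] {μ : Measure X} [SMulInvariantMeasure G X μ]
  {S S' : Set X} {ρ ρ' w : X → ℝ} {D : Type*} [MulAction G D]

theorem tsum_orbit {M : Type*} [AddCommMonoid M] [TopologicalSpace M] (d₀ : D) (f : D → M) :
    ∑' d : MulAction.orbit G d₀, f d =
      ∑' c : G ⧸ MulAction.stabilizer G d₀, f (c.out • d₀) := by
  rw [← (MulAction.orbitEquivQuotientStabilizer G d₀).symm.tsum_eq]
  refine tsum_congr fun c => ?_
  conv_lhs => rw [← QuotientGroup.out_eq' c]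
  rw [MulAction.orbitEquivQuotientStabilizer_symm_apply]

theorem smul_tsum_orbit {M : Type*} [AddCommMonoid M] [TopologicalSpace M] {F : D → X → M}
    (hF : ∀ (g : G) d x, F (g • d) (g • x) = F d x) (d₀ : D) (x : X) :
    ∑' d : MulAction.orbit G d₀, F d x =
      ∑' c : G ⧸ MulAction.stabilizer G d₀, F d₀ ((c.out)⁻¹ • x) := by
  rw [tsum_orbit d₀ fun d => F d x]
  refine tsum_congr fun c => ?_
  rw [← hF c.out d₀ (c.out⁻¹ • x), smul_inv_smul]

theorem inv_of_stab {M : Type*} {F : D → X → M}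
    (hF : ∀ (g : G) d x, F (g • d) (g • x) = F d x) (d₀ : D)
    (h : MulAction.stabilizer G d₀) (x : X) : F d₀ (h • x) = F d₀ x := by
  have h1 := hF h d₀ x
  rw [h.2] at h1
  exact h1

/-- **One class**, nonnegative functions. -/
theorem WtOn.lintegral_orbit (h : WtOn G S ρ) {F : D → X → ℝ≥0∞} (d₀ : D)
    (hF : ∀ (g : G) d x, F (g • d) (g • x) = F d x) (hm : AEMeasurable (F d₀) μ)
    (hw : WtOn (MulAction.stabilizer G d₀) S' w)
    (hS : ∀ x, x ∉ S → F d₀ x = 0) (hS' : ∀ x, x ∉ S' → F d₀ x = 0) :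
    ∫⁻ x, ENNReal.ofReal (ρ x) * ∑' d : MulAction.orbit G d₀, F d x ∂μ =
      ∫⁻ x, ENNReal.ofReal (w x) * F d₀ x ∂μ := by
  have : Countable (G ⧸ MulAction.stabilizer G d₀) := countable_quot _
  have hFg : ∀ g : G, AEMeasurable (fun x => F d₀ (g • x)) μ := fun g =>
    hm.comp_quasiMeasurePreserving (measurePreserving_smul g μ).quasiMeasurePreserving
  have hρ : ∀ g : G, AEMeasurable (fun x => ENNReal.ofReal (ρ (g • x))) μ := fun g =>
    (h.meas.comp (measurable_const_smul g)).ennreal_ofReal.aemeasurable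
  have e1 : ∫⁻ x, ENNReal.ofReal (ρ x) * ∑' d : MulAction.orbit G d₀, F d x ∂μ =
      ∫⁻ x, ∑' c : G ⧸ MulAction.stabilizer G d₀,
        ENNReal.ofReal (ρ x) * F d₀ ((c.out)⁻¹ • x) ∂μ := by
    refine lintegral_congr fun x => ?_
    rw [smul_tsum_orbit hF, ENNReal.tsum_mul_left]
  have e2 : ∫⁻ x, ∑' c : G ⧸ MulAction.stabilizer G d₀,
        ENNReal.ofReal (ρ x) * F d₀ ((c.out)⁻¹ • x) ∂μ =
      ∑' c : G ⧸ MulAction.stabilizer G d₀,
        ∫⁻ x, ENNReal.ofReal (ρ x) * F d₀ ((c.out)⁻¹ • x) ∂μ :=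
    lintegral_tsum fun c => (h.meas.ennreal_ofReal.aemeasurable).mul (hFg _)
  have e3 : ∀ c : G ⧸ MulAction.stabilizer G d₀,
      ∫⁻ x, ENNReal.ofReal (ρ x) * F d₀ ((c.out)⁻¹ • x) ∂μ =
        ∫⁻ x, ENNReal.ofReal (ρ (c.out • x)) * F d₀ x ∂μ := by
    intro c
    rw [← lintegral_smul_eq (μ := μ)
      (f := fun x => ENNReal.ofReal (ρ x) * F d₀ ((c.out)⁻¹ • x)) c.out]
    simp only [inv_smul_smul]
  have e4 : ∫⁻ x, ∑' c : G ⧸ MulAction.stabilizer G d₀,
        ENNReal.ofReal (ρ (c.out • x)) * F d₀ x ∂μ =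
      ∑' c : G ⧸ MulAction.stabilizer G d₀,
        ∫⁻ x, ENNReal.ofReal (ρ (c.out • x)) * F d₀ x ∂μ :=
    lintegral_tsum fun c => (hρ c.out).mul hm
  have e5 : ∫⁻ x, ∑' c : G ⧸ MulAction.stabilizer G d₀,
        ENNReal.ofReal (ρ (c.out • x)) * F d₀ x ∂μ =
      ∫⁻ x, ENNReal.ofReal (subWt (MulAction.stabilizer G d₀) ρ x) * F d₀ x ∂μ := by
    refine lintegral_congr fun x => ?_
    rw [ENNReal.tsum_mul_right]
    by_cases hx : x ∈ S
    · rw [h.ofReal_subWt _ hx]
    · rw [hS x hx, mul_zero, mul_zero]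
  have e6 : ∫⁻ x, ENNReal.ofReal (subWt (MulAction.stabilizer G d₀) ρ x) * F d₀ x ∂μ =
      ∫⁻ x, ENNReal.ofReal (w x) * F d₀ x ∂μ :=
    WtOn.lintegral_eq (G := MulAction.stabilizer G d₀) (h.sub _) hw hm
      (fun g x => inv_of_stab hF d₀ g x) hS hS'
  rw [e1, e2, tsum_congr e3, ← e4, e5, e6]

variable {E : Type*} [NormedAddCommGroup E] [NormedSpace ℝ E]

theorem WtOn.tsum_lintegral_orbit_ne_top (h : WtOn G S ρ) {F : D → X → E} (d₀ : D)
    (hF : ∀ (g : G) d x, F (g • d) (g • x) = F d x) (hm : AEStronglyMeasurable (F d₀) μ)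
    (hw : WtOn (MulAction.stabilizer G d₀) S' w)
    (hS : ∀ x, x ∉ S → F d₀ x = 0) (hS' : ∀ x, x ∉ S' → F d₀ x = 0)
    (hi : Integrable (fun x => w x • F d₀ x) μ) :
    ∑' c : G ⧸ MulAction.stabilizer G d₀, ∫⁻ x, ‖ρ x • F d₀ ((c.out)⁻¹ • x)‖ₑ ∂μ ≠ ∞ := by
  have hFg : ∀ g : G, AEMeasurable (fun x => ‖F d₀ (g • x)‖ₑ) μ := fun g =>
    hm.enorm.comp_quasiMeasurePreserving (measurePreserving_smul g μ).quasiMeasurePreserving
  have : Countable (G ⧸ MulAction.stabilizer G d₀) := countable_quot _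
  have h1 := h.lintegral_orbit (F := fun d x => ‖F d x‖ₑ) (w := w) d₀
    (fun g d x => by rw [hF]) hm.enorm hw (fun x hx => by rw [hS x hx, enorm_zero])
    (fun x hx => by rw [hS' x hx, enorm_zero])
  have h2 : ∑' c : G ⧸ MulAction.stabilizer G d₀,
      ∫⁻ x, ‖ρ x • F d₀ ((c.out)⁻¹ • x)‖ₑ ∂μ =
      ∫⁻ x, ENNReal.ofReal (ρ x) * ∑' d : MulAction.orbit G d₀, ‖F d x‖ₑ ∂μ := by
    have h3 : ∀ x, ∑' d : MulAction.orbit G d₀, ‖F d x‖ₑ =
        ∑' c : G ⧸ MulAction.stabilizer G d₀, ‖F d₀ ((c.out)⁻¹ • x)‖ₑ := fun x =>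
      smul_tsum_orbit (F := fun d x => ‖F d x‖ₑ) (fun g d x => by rw [hF]) d₀ x
    simp_rw [h3, ← ENNReal.tsum_mul_left]
    refine Eq.trans ?_ (lintegral_tsum fun c =>
      (h.meas.ennreal_ofReal.aemeasurable).mul (hFg _)).symm
    refine tsum_congr fun c => lintegral_congr fun x => ?_
    rw [enorm_smul, Real.enorm_of_nonneg (h.nonneg x)]
    rfl
  rw [h2, h1]
  have h3 : ∀ x, ENNReal.ofReal (w x) * ‖F d₀ x‖ₑ = ‖w x • F d₀ x‖ₑ := fun x => by
    rw [enorm_smul, Real.enorm_of_nonneg (hw.nonneg x)]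
  simp_rw [h3]
  exact hi.2.ne

/-- **One class.** -/
theorem WtOn.integral_orbit (h : WtOn G S ρ) {F : D → X → E} (d₀ : D)
    (hF : ∀ (g : G) d x, F (g • d) (g • x) = F d x) (hm : AEStronglyMeasurable (F d₀) μ)
    (hw : WtOn (MulAction.stabilizer G d₀) S' w)
    (hS : ∀ x, x ∉ S → F d₀ x = 0) (hS' : ∀ x, x ∉ S' → F d₀ x = 0)
    (hi : Integrable (fun x => w x • F d₀ x) μ) :
    ∫ x, ρ x • ∑' d : MulAction.orbit G d₀, F d x ∂μ = ∫ x, w x • F d₀ x ∂μ := by
  set H := MulAction.stabilizer G d₀ with hH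
  have : Countable (G ⧸ H) := countable_quot H
  have hFg : ∀ g : G, AEStronglyMeasurable (fun x => F d₀ (g • x)) μ := fun g =>
    hm.comp_quasiMeasurePreserving (measurePreserving_smul g μ).quasiMeasurePreserving
  have hfin := h.tsum_lintegral_orbit_ne_top d₀ hF hm hw hS hS' hi
  have hemb : ∀ (g : G) (F : X → E), ∫ x, F (g • x) ∂μ = ∫ x, F x ∂μ := fun g F =>
    (measurePreserving_smul g μ).integral_comp (measurableEmbedding_const_smul g) F
  have hstep : ∀ c : G ⧸ H, ∫⁻ x, ‖ρ (c.out • x) • F d₀ x‖ₑ ∂μ =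
      ∫⁻ x, ‖ρ x • F d₀ ((c.out)⁻¹ • x)‖ₑ ∂μ := by
    intro c
    rw [← lintegral_smul_eq (μ := μ) (f := fun x => ‖ρ x • F d₀ ((c.out)⁻¹ • x)‖ₑ) c.out]
    simp only [inv_smul_smul]
  have hiw : Integrable (fun x => subWt H ρ x • F d₀ x) μ := by
    refine ⟨(h.sub H).meas.aestronglyMeasurable.smul hm, ?_⟩
    have h1 := (h.sub H).lintegral_eq (μ := μ) (f := fun x => ‖F d₀ x‖ₑ) hw hm.enorm
      (fun g x => by rw [inv_of_stab hF d₀ g x]) (fun x hx => by rw [hS x hx, enorm_zero])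
      (fun x hx => by rw [hS' x hx, enorm_zero])
    have h2 := hi.2
    unfold HasFiniteIntegral at h2 ⊢
    have h3 : ∀ x, ‖w x • F d₀ x‖ₑ = ENNReal.ofReal (w x) * ‖F d₀ x‖ₑ := fun x => by
      rw [enorm_smul, Real.enorm_of_nonneg (hw.nonneg x)]
    have h4 : ∀ x, ‖subWt H ρ x • F d₀ x‖ₑ = ENNReal.ofReal (subWt H ρ x) * ‖F d₀ x‖ₑ :=
      fun x => by rw [enorm_smul, Real.enorm_of_nonneg ((h.sub H).nonneg x)]
    simp_rw [h3] at h2
    simp_rw [h4]
    rw [h1]
    exact h2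
  calc ∫ x, ρ x • ∑' d : MulAction.orbit G d₀, F d x ∂μ
      = ∫ x, ∑' c : G ⧸ H, ρ x • F d₀ ((c.out)⁻¹ • x) ∂μ := by
        refine integral_congr_ae (Filter.Eventually.of_forall fun x => ?_)
        dsimp only
        rw [smul_tsum_orbit hF]
        exact (tsum_const_smul'' (ρ x)).symm
    _ = ∑' c : G ⧸ H, ∫ x, ρ x • F d₀ ((c.out)⁻¹ • x) ∂μ :=
        integral_tsum (fun c => h.meas.aestronglyMeasurable.smul (hFg _)) hfin
    _ = ∑' c : G ⧸ H, ∫ x, ρ (c.out • x) • F d₀ x ∂μ := by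
        refine tsum_congr fun c => ?_
        rw [← hemb c.out fun x => ρ x • F d₀ ((c.out)⁻¹ • x)]
        simp only [inv_smul_smul]
    _ = ∫ x, ∑' c : G ⧸ H, ρ (c.out • x) • F d₀ x ∂μ := by
        refine (integral_tsum (fun c => ?_) ?_).symm
        · exact (h.meas.comp (measurable_const_smul c.out)).aestronglyMeasurable.smul hm
        · simp_rw [hstep]
          exact hfin
    _ = ∫ x, subWt H ρ x • F d₀ x ∂μ := by
        refine integral_congr_ae (Filter.Eventually.of_forall fun x => ?_)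
        by_cases hx : x ∈ S
        · exact ((h.summable_out H hx).hasSum.smul_const (F d₀ x)).tsum_eq
        · simp [hS x hx]
    _ = ∫ x, w x • F d₀ x ∂μ :=
        (h.sub H).integral_eq hw (fun g x => inv_of_stab hF d₀ g x) hS hS' hiw

theorem WtOn.integrable_orbit [CompleteSpace E] (h : WtOn G S ρ) {F : D → X → E} (d₀ : D)
    (hF : ∀ (g : G) d x, F (g • d) (g • x) = F d x) (hm : AEStronglyMeasurable (F d₀) μ)
    (hw : WtOn (MulAction.stabilizer G d₀) S' w)
    (hS : ∀ x, x ∉ S → F d₀ x = 0) (hS' : ∀ x, x ∉ S' → F d₀ x = 0)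
    (hi : Integrable (fun x => w x • F d₀ x) μ) :
    Integrable (fun x => ρ x • ∑' d : MulAction.orbit G d₀, F d x) μ := by
  have : Countable (G ⧸ MulAction.stabilizer G d₀) := countable_quot _
  have hFg : ∀ g : G, AEStronglyMeasurable (fun x => F d₀ (g • x)) μ := fun g =>
    hm.comp_quasiMeasurePreserving (measurePreserving_smul g μ).quasiMeasurePreserving
  have h0 : (fun x => ρ x • ∑' d : MulAction.orbit G d₀, F d x) = fun x =>
      ∑' c : G ⧸ MulAction.stabilizer G d₀, ρ x • F d₀ ((c.out)⁻¹ • x) := by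
    funext x
    rw [smul_tsum_orbit hF]
    exact (tsum_const_smul'' (ρ x)).symm
  rw [h0]
  exact integrable_tsum (fun c => h.meas.aestronglyMeasurable.smul (hFg _))
    (h.tsum_lintegral_orbit_ne_top d₀ hF hm hw hS hS' hi)

theorem WtOn.ae_summable_orbit (h : WtOn G S ρ) {F : D → X → E} (d₀ : D)
    (hF : ∀ (g : G) d x, F (g • d) (g • x) = F d x) (hm : AEStronglyMeasurable (F d₀) μ)
    (hw : WtOn (MulAction.stabilizer G d₀) S' w)
    (hS : ∀ x, x ∉ S → F d₀ x = 0) (hS' : ∀ x, x ∉ S' → F d₀ x = 0)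
    (hi : Integrable (fun x => w x • F d₀ x) μ) :
    ∀ᵐ x ∂μ, ρ x ≠ 0 → Summable fun d : MulAction.orbit G d₀ => ‖F d x‖ := by
  have : Countable (G ⧸ MulAction.stabilizer G d₀) := countable_quot _
  have hcd : Countable (MulAction.orbit G d₀) :=
    (MulAction.orbitEquivQuotientStabilizer G d₀).injective.countable
  have h1 := h.lintegral_orbit (F := fun d x => ‖F d x‖ₑ) (w := w) d₀
    (fun g d x => by rw [hF]) hm.enorm hw (fun x hx => by rw [hS x hx, enorm_zero])
    (fun x hx => by rw [hS' x hx, enorm_zero])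
  have h3 : ∀ x, ENNReal.ofReal (w x) * ‖F d₀ x‖ₑ = ‖w x • F d₀ x‖ₑ := fun x => by
    rw [enorm_smul, Real.enorm_of_nonneg (hw.nonneg x)]
  simp_rw [h3] at h1
  have hmd : ∀ d : MulAction.orbit G d₀, AEMeasurable (fun x => ‖F d x‖ₑ) μ := by
    rintro ⟨_, g, rfl⟩
    have h4 : (fun x => ‖F (g • d₀) x‖ₑ) = fun x => ‖F d₀ (g⁻¹ • x)‖ₑ := by
      funext x
      rw [← hF g d₀ (g⁻¹ • x), smul_inv_smul]
    show AEMeasurable (fun x => ‖F (g • d₀) x‖ₑ) μ
    rw [h4]
    exact hm.enorm.comp_quasiMeasurePreserving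
      (measurePreserving_smul g⁻¹ μ).quasiMeasurePreserving
  have h2 : ∀ᵐ x ∂μ, ENNReal.ofReal (ρ x) * ∑' d : MulAction.orbit G d₀, ‖F d x‖ₑ < ∞ := by
    refine ae_lt_top' ((h.meas.ennreal_ofReal.aemeasurable).mul (AEMeasurable.tsum hmd)) ?_
    rw [h1]
    exact hi.2.ne
  filter_upwards [h2] with x hx hρ
  have h3 : ENNReal.ofReal (ρ x) ≠ 0 := by
    rw [Ne, ENNReal.ofReal_eq_zero, not_le]
    exact lt_of_le_of_ne (h.nonneg x) (Ne.symm hρ)
  have h4 : ∑' d : MulAction.orbit G d₀, ‖F d x‖ₑ ≠ ∞ := by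
    intro h5
    rw [h5, ENNReal.mul_top h3] at hx
    exact lt_irrefl _ hx
  have h5 : Summable fun d : MulAction.orbit G d₀ => ‖F d x‖₊ := by
    rw [← ENNReal.tsum_coe_ne_top_iff_summable]
    exact h4
  exact NNReal.summable_coe.mpr h5

/-- **Decomposition into classes**, finitely many classes with representatives `T`. -/
theorem WtOn.integral_classes [CompleteSpace E] (h : WtOn G S ρ) {F : D → X → E}
    (hF : ∀ (g : G) d x, F (g • d) (g • x) = F d x)
    (hS : ∀ d x, x ∉ S → F d x = 0)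
    (T : Finset D) (hT : ∀ d ∈ T, ∀ d' ∈ T, d' ∈ MulAction.orbit G d → d = d')
    (hcov : ∀ d x, F d x ≠ 0 → ∃ d₀ ∈ T, d ∈ MulAction.orbit G d₀)
    (hm : ∀ d ∈ T, AEStronglyMeasurable (F d) μ) (w : D → X → ℝ)
    (hw : ∀ d ∈ T, WtOn (MulAction.stabilizer G d) S (w d))
    (hi : ∀ d ∈ T, Integrable (fun x => w d x • F d x) μ) :
    Integrable (fun x => ρ x • ∑' d, F d x) μ ∧
    ∫ x, ρ x • ∑' d, F d x ∂μ = ∑ d ∈ T, ∫ x, w d x • F d x ∂μ := by
  classical
  have hae : ∀ᵐ x ∂μ, ∀ d ∈ T, ρ x ≠ 0 →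
      Summable fun d' : MulAction.orbit G d => ‖F d' x‖ := by
    refine (Filter.eventually_all_finset T).mpr ?_
    intro d hd
    exact h.ae_summable_orbit d hF (hm d hd) (hw d hd) (hS d) (hS d) (hi d hd)
  have hkey : (fun x => ρ x • ∑' d, F d x) =ᵐ[μ] fun x =>
      ∑ d ∈ T, ρ x • ∑' d' : MulAction.orbit G d, F d' x := by
    filter_upwards [hae] with x hx
    by_cases hρ : ρ x = 0
    · simp [hρ]
    · rw [← Finset.smul_sum]
      congr 1
      have h1 : ∀ d ∈ T, HasSum (fun d' : D => (MulAction.orbit G d).indicator (fun d' => F d' x) d')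
          (∑' d' : MulAction.orbit G d, F d' x) := by
        intro d hd
        rw [← hasSum_subtype_iff_indicator]
        exact ((hx d hd hρ).of_norm).hasSum
      have h2 := hasSum_sum h1
      have h3 : (fun d' : D => ∑ d ∈ T, (MulAction.orbit G d).indicator (fun d' => F d' x) d') =
          fun d' => F d' x := by
        funext d'
        by_cases h0 : F d' x = 0
        · rw [h0]
          refine Finset.sum_eq_zero fun d _ => ?_
          by_cases hd' : d' ∈ MulAction.orbit G d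
          · rw [Set.indicator_of_mem hd', h0]
          · rw [Set.indicator_of_notMem hd']
        · obtain ⟨d₀, hd₀, hd₀'⟩ := hcov d' x h0
          rw [Finset.sum_eq_single_of_mem d₀ hd₀, Set.indicator_of_mem hd₀']
          intro d hd hne
          refine Set.indicator_of_notMem (fun hmem => hne (hT d hd d₀ hd₀ ?_)) _
          rw [MulAction.mem_orbit_symm] at hd₀'
          rw [← MulAction.orbit_eq_iff.mpr hmem]
          exact hd₀'
      rw [h3] at h2
      exact h2.tsum_eq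
  have hint : ∀ d ∈ T, Integrable (fun x => ρ x • ∑' d' : MulAction.orbit G d, F d' x) μ :=
    fun d hd => h.integrable_orbit d hF (hm d hd) (hw d hd) (hS d) (hS d) (hi d hd)
  refine ⟨(integrable_finsetSum T hint).congr hkey.symm, ?_⟩
  rw [integral_congr_ae hkey, integral_finsetSum T hint]
  exact Finset.sum_congr rfl fun d hd =>
    h.integral_orbit d hF (hm d hd) (hw d hd) (hS d) (hS d) (hi d hd)

end classes

end Fermat.Agent.LT
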