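import Fermat.Agent.LT.Unfold
import Fermat.Agent.LT.Quot

/-!
# Automorphic kernels

`G` countable, acting on `(Z, μ)`; `k : Z → Z → ℂ` with `k (g x) (g y) = k x y`;
`aut G k x y = ∑_g k x (g y)`. With a weight `w` and `ν = μ.withDensity w`:

* `IsWeight.integral_tsum_smul` : `∫ ∑_g f (g z) dν = ∫ f dμ`;
* `IsWeight.integral_aut_mul` : `∫ aut k x y * f y dν = ∫ k x y * f y dμ` for `f` invariant;
* `IsWeight.aut_comp` : `aut (k₁ * k₂) x z = ∫ aut k₁ x y * aut k₂ y z dν`, for all `x`, `z`;
* `isWeight_of_cover` : the weight of a covering set of finite multiplicity;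
* `integral_push` : comparison of two quotient integrals by an equivariant map.
-/

set_option autoImplicit false
set_option linter.unusedSectionVars false

noncomputable section

open MeasureTheory
open scoped ENNReal

namespace Fermat.Agent.LT

section conv

variable {G Z : Type*} [Group G] [MeasurableSpace Z] [MulAction G Z] {w w' : Z → ℝ≥0∞}

/-- real weights from weights -/
theorem IsWeight.wt (h : IsWeight G w) : Wt G (fun z => (w z).toReal) where
  meas := h.meas.ennreal_toReal
  nonneg z := ENNReal.toReal_nonneg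
  sum z _ := by
    have h1 : ∑' g : G, w (g • z) ≠ ∞ := by rw [h.sum_eq z]; exact ENNReal.one_ne_top
    have h2 := ENNReal.hasSum_toReal h1
    rw [← ENNReal.tsum_toReal_eq fun g => h.ne_top _, h.sum_eq z] at h2
    simpa using h2

theorem IsWeight.ofReal_toReal (h : IsWeight G w) (z : Z) :
    ENNReal.ofReal (w z).toReal = w z := ENNReal.ofReal_toReal (h.ne_top z)

variable {μ : Measure Z} {E : Type*} [NormedAddCommGroup E] [NormedSpace ℝ E]

theorem IsWeight.integral_eq_smul (h : IsWeight G w) (f : Z → E) :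
    ∫ z, f z ∂μ.withDensity w = ∫ z, (w z).toReal • f z ∂μ :=
  integral_withDensity_eq_integral_toReal_smul h.meas
    (Filter.Eventually.of_forall fun z => h.lt_top z) f

theorem IsWeight.integrable_iff_smul (h : IsWeight G w) {f : Z → E} :
    Integrable f (μ.withDensity w) ↔ Integrable (fun z => (w z).toReal • f z) μ :=
  integrable_withDensity_iff_integrable_smul' h.meas
    (Filter.Eventually.of_forall fun z => h.lt_top z)

end conv

section unfold

variable {G Z : Type*} [Group G] [Countable G] [MeasurableSpace Z] [MulAction G Z]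
  [MeasurableConstSMul G Z] {μ : Measure Z} [SMulInvariantMeasure G Z μ] {w w' : Z → ℝ≥0∞}
  {E : Type*} [NormedAddCommGroup E] [NormedSpace ℝ E]

/-- **Unfolding** of the sum over the orbits. -/
theorem IsWeight.integral_tsum_smul (h : IsWeight G w) {f : Z → E} (hf : Integrable f μ) :
    ∫ z, ∑' g : G, f (g • z) ∂μ.withDensity w = ∫ z, f z ∂μ := by
  rw [h.integral_eq_smul]
  exact h.wt.integral_unfold hf fun x hx => absurd (Set.mem_univ x) hx

theorem IsWeight.integrable_tsum_smul [CompleteSpace E] (h : IsWeight G w) {f : Z → E}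
    (hf : Integrable f μ) : Integrable (fun z => ∑' g : G, f (g • z)) (μ.withDensity w) := by
  rw [h.integrable_iff_smul]
  exact h.wt.integrable_unfold hf fun x hx => absurd (Set.mem_univ x) hx

theorem IsWeight.lintegral_tsum_smul (h : IsWeight G w) {f : Z → ℝ≥0∞} (hf : Measurable f) :
    ∫⁻ z, ∑' g : G, f (g • z) ∂μ.withDensity w = ∫⁻ z, f z ∂μ := by
  have hm : Measurable fun z => ∑' g : G, f (g • z) :=
    Measurable.tsum fun g => hf.comp (measurable_const_smul g)
  rw [lintegral_withDensity_eq_lintegral_mul _ h.meas hm,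
    ← h.wt.lintegral_unfold hf.aemeasurable fun x hx => absurd (Set.mem_univ x) hx]
  refine lintegral_congr fun z => ?_
  rw [Pi.mul_apply, h.ofReal_toReal]

end unfold

/-! ### Automorphic kernels -/

section kernel

variable (G : Type*) {Z : Type*} [Group G] [MulAction G Z]

/-- the automorphic kernel of a point pair invariant -/
def aut (k : Z → Z → ℂ) (x y : Z) : ℂ := ∑' g : G, k x (g • y)

variable {G} {k k₁ k₂ : Z → Z → ℂ}

theorem aut_smul_right (k : Z → Z → ℂ) (g : G) (x y : Z) : aut G k x (g • y) = aut G k x y := by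
  unfold aut
  rw [← (Equiv.mulRight g).tsum_eq fun g' => k x (g' • y)]
  refine tsum_congr fun g' => ?_
  rw [Equiv.coe_mulRight, mul_smul]

theorem aut_smul_left (hk : ∀ (g : G) x y, k (g • x) (g • y) = k x y) (g : G) (x y : Z) :
    aut G k (g • x) y = aut G k x y := by
  unfold aut
  rw [← (Equiv.mulLeft g).tsum_eq fun g' => k (g • x) (g' • y)]
  refine tsum_congr fun g' => ?_
  rw [Equiv.coe_mulLeft, mul_smul, hk]

variable [Countable G] [MeasurableSpace Z] [MeasurableConstSMul G Z] {μ : Measure Z}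
  [SMulInvariantMeasure G Z μ] {w : Z → ℝ≥0∞}

/-- The operator on invariant functions defined by a kernel. -/
theorem IsWeight.integral_aut_mul (h : IsWeight G w) {f : Z → ℂ}
    (hf : ∀ (g : G) x, f (g • x) = f x) {x : Z} (hi : Integrable (fun y => k x y * f y) μ) :
    ∫ y, aut G k x y * f y ∂μ.withDensity w = ∫ y, k x y * f y ∂μ := by
  rw [← h.integral_tsum_smul hi]
  refine integral_congr_ae (Filter.Eventually.of_forall fun y => ?_)
  dsimp only
  simp_rw [hf]
  rw [tsum_mul_right]
  rfl

theorem IsWeight.integrable_aut_mul (h : IsWeight G w) {f : Z → ℂ}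
    (hf : ∀ (g : G) x, f (g • x) = f x) {x : Z} (hi : Integrable (fun y => k x y * f y) μ) :
    Integrable (fun y => aut G k x y * f y) (μ.withDensity w) := by
  refine (h.integrable_tsum_smul hi).congr (Filter.Eventually.of_forall fun y => ?_)
  dsimp only
  simp_rw [hf]
  rw [tsum_mul_right]
  rfl

/-- composition of kernels -/
def kcomp (μ : Measure Z) (k₁ k₂ : Z → Z → ℂ) (x z : Z) : ℂ := ∫ y, k₁ x y * k₂ y z ∂μ

omit [Countable G] in
theorem kcomp_smul (hk₁ : ∀ (g : G) x y, k₁ (g • x) (g • y) = k₁ x y)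
    (hk₂ : ∀ (g : G) x y, k₂ (g • x) (g • y) = k₂ x y) (g : G) (x z : Z) :
    kcomp μ k₁ k₂ (g • x) (g • z) = kcomp μ k₁ k₂ x z := by
  unfold kcomp
  rw [← (measurePreserving_smul g μ).integral_comp (measurableEmbedding_const_smul g)]
  simp only [hk₁, hk₂]

/-- **Composition of automorphic kernels.** -/
theorem IsWeight.aut_comp (h : IsWeight G w)
    (hk₂ : ∀ (g : G) x y, k₂ (g • x) (g • y) = k₂ x y) {x z : Z}
    (hm₁ : AEStronglyMeasurable (fun y => k₁ x y) μ)
    (hm₂ : ∀ z', AEStronglyMeasurable (fun y => k₂ y z') μ)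
    (hfin : ∑' g : G, ∫⁻ y, ‖k₁ x y * k₂ y (g • z)‖ₑ ∂μ ≠ ∞) :
    aut G (kcomp μ k₁ k₂) x z = ∫ y, aut G k₁ x y * aut G k₂ y z ∂μ.withDensity w := by
  have hi : Integrable (fun y => k₁ x y * aut G k₂ y z) μ := by
    have h1 := integrable_tsum (μ := μ) (F := fun (g : G) y => k₁ x y * k₂ y (g • z))
      (fun g => hm₁.mul (hm₂ _)) hfin
    refine h1.congr (Filter.Eventually.of_forall fun y => ?_)
    dsimp only
    rw [tsum_mul_left]
    rfl
  rw [h.integral_aut_mul (f := fun y => aut G k₂ y z) (fun g y => aut_smul_left hk₂ g y z) hi]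
  have h2 : ∫ y, k₁ x y * aut G k₂ y z ∂μ = ∫ y, ∑' g : G, k₁ x y * k₂ y (g • z) ∂μ := by
    refine integral_congr_ae (Filter.Eventually.of_forall fun y => ?_)
    dsimp only
    rw [tsum_mul_left]
    rfl
  have h3 := integral_tsum (μ := μ) (f := fun (g : G) y => k₁ x y * k₂ y (g • z))
    (fun g => hm₁.mul (hm₂ _)) hfin
  rw [h2, h3]
  rfl

end kernel

/-! ### The weight of a covering set -/

section cover

variable {G Z : Type*} [Group G] [MulAction G Z] {F : Set Z}

variable (G) in
/-- number of group elements moving `z` into `F` -/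
def coverMult (F : Set Z) (z : Z) : ℝ≥0∞ := ∑' g : G, F.indicator 1 (g • z)

theorem coverMult_smul (g : G) (z : Z) : coverMult G F (g • z) = coverMult G F z := by
  unfold coverMult
  rw [← (Equiv.mulRight g).tsum_eq (fun g' => F.indicator (1 : Z → ℝ≥0∞) (g' • z))]
  refine tsum_congr fun g' => ?_
  rw [Equiv.coe_mulRight, mul_smul]

theorem one_le_coverMult (hcov : ∀ z, ∃ g : G, g • z ∈ F) (z : Z) : 1 ≤ coverMult G F z := by
  obtain ⟨g, hg⟩ := hcov z
  have h1 : F.indicator (1 : Z → ℝ≥0∞) (g • z) ≤ coverMult G F z := ENNReal.le_tsum g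
  rwa [Set.indicator_of_mem hg, Pi.one_apply] at h1

theorem coverMult_ne_top (hfin : ∀ z, {g : G | g • z ∈ F}.Finite) (z : Z) : coverMult G F z ≠ ∞ := by
  unfold coverMult
  have h0 : ∀ g ∉ (hfin z).toFinset, F.indicator (1 : Z → ℝ≥0∞) (g • z) = 0 := fun g hg => by
    have hg' : g • z ∉ F := fun h => hg ((hfin z).mem_toFinset.mpr h)
    exact Set.indicator_of_notMem hg' (1 : Z → ℝ≥0∞)
  rw [tsum_eq_sum h0]
  refine ENNReal.sum_ne_top.mpr fun g _ => ?_
  by_cases h : g • z ∈ F
  · rw [Set.indicator_of_mem h]; exact ENNReal.one_ne_top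
  · rw [Set.indicator_of_notMem h]; exact ENNReal.zero_ne_top

variable (G) in
/-- the weight of a covering set -/
def coverWeight (F : Set Z) (z : Z) : ℝ≥0∞ := F.indicator 1 z * (coverMult G F z)⁻¹

variable [MeasurableSpace Z]

/-- **The weight of a covering set** of finite multiplicity. -/
theorem isWeight_of_cover [Countable G] [MeasurableConstSMul G Z] (hF : MeasurableSet F)
    (hcov : ∀ z, ∃ g : G, g • z ∈ F) (hfin : ∀ z, {g : G | g • z ∈ F}.Finite) :
    IsWeight G (coverWeight G F) where
  meas := (measurable_one.indicator hF).mul (Measurable.inv (Measurable.tsum fun g =>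
    (measurable_one.indicator hF).comp (measurable_const_smul g)))
  sum_eq z := by
    have h1 : ∀ g : G, coverWeight G F (g • z) =
        F.indicator 1 (g • z) * (coverMult G F z)⁻¹ := fun g => by
      rw [coverWeight, coverMult_smul]
    rw [tsum_congr h1, ENNReal.tsum_mul_right]
    have h2 := one_le_coverMult hcov z
    exact ENNReal.mul_inv_cancel (fun h => by
      rw [show (∑' g : G, F.indicator (1 : Z → ℝ≥0∞) (g • z)) = coverMult G F z from rfl] at h
      rw [h] at h2; simp at h2) (coverMult_ne_top hfin z)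

theorem coverWeight_le (hcov : ∀ z, ∃ g : G, g • z ∈ F) (z : Z) :
    coverWeight G F z ≤ F.indicator 1 z := by
  unfold coverWeight
  calc F.indicator (1 : Z → ℝ≥0∞) z * (coverMult G F z)⁻¹ ≤ F.indicator 1 z * 1 := by
        gcongr
        exact ENNReal.inv_le_one.mpr (one_le_coverMult hcov z)
    _ = F.indicator 1 z := mul_one _

/-- the volume of the quotient is at most the volume of a covering set -/
theorem coverWeight_univ_le (hF : MeasurableSet F) (hcov : ∀ z, ∃ g : G, g • z ∈ F)
    (μ : Measure Z) : (μ.withDensity (coverWeight G F)) Set.univ ≤ μ F := by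
  rw [withDensity_apply _ MeasurableSet.univ, Measure.restrict_univ,
    ← lintegral_indicator_one hF]
  exact lintegral_mono fun z => coverWeight_le hcov z

end cover

/-! ### Push-forward along equivariant maps -/

section push

variable {T Z Z' : Type*} [Group T] [Countable T] [MeasurableSpace Z] [MeasurableSpace Z']
  [MulAction T Z] [MulAction T Z'] [MeasurableConstSMul T Z] {μ : Measure Z} {μ' : Measure Z'}
  [SMulInvariantMeasure T Z μ] {w : Z → ℝ≥0∞} {w' : Z' → ℝ≥0∞}
  {E : Type*} [NormedAddCommGroup E] [NormedSpace ℝ E]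

/-- **Comparison of two quotient integrals.** `Φ` is an invariant function on `Z` with support in
`S`, `p` is equivariant on `S`, and the push-forward of `Φ μ` by `p` is `Φ' μ'`, tested against the
weight `w'`. -/
theorem integral_push (hw : IsWeight T w) (hw' : IsWeight T w') {S : Set Z} {p : Z → Z'}
    (hp : Measurable p) (hpS : ∀ (t : T), ∀ z ∈ S, p (t • z) = t • p z) {Φ : Z → E} {Φ' : Z' → E}
    (hΦ : ∀ (t : T) z, Φ (t • z) = Φ z) (hS : ∀ z, z ∉ S → Φ z = 0)
    (hi : Integrable Φ (μ.withDensity w))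
    (hpush : ∫ z, (w' (p z)).toReal • Φ z ∂μ = ∫ z, (w' z).toReal • Φ' z ∂μ') :
    ∫ z, Φ z ∂μ.withDensity w = ∫ z, Φ' z ∂μ'.withDensity w' := by
  rw [hw.integral_eq_smul, hw'.integral_eq_smul, ← hpush]
  have h1 : WtOn T S (fun z => (w' (p z)).toReal) := by
    refine ⟨hw'.meas.ennreal_toReal.comp hp, fun z => ENNReal.toReal_nonneg, fun z hz => ?_⟩
    have h2 := hw'.wt.sum (p z) (Set.mem_univ _)
    simp only [hpS _ z hz]
    exact h2
  exact (hw.wt).integral_eq h1 hΦ (fun x hx => absurd (Set.mem_univ x) hx) hS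
    (hw.integrable_iff_smul.mp hi)

end push

end Fermat.Agent.LT
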