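import Fermat.Agent.LT.RProd
import Fermat.Agent.LT.Kernel

/-!
# Matching of functions on two discrete sets with an action

`IsPush T p Φ Ψ` : the map `p : A → B` is `T`-equivariant on the support of `Φ` and pushes `Φ`
forward to `Ψ`.

* `IsPush.rprod` : restricted products.
* `isPush_split` : three factors permuted cyclically (a place which splits).
* `integral_split` : the same for measure spaces.
* `orb_eq` : equality of the orbital integrals.
-/

set_option autoImplicit false

noncomputable section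

open Function Set MeasureTheory
open scoped ENNReal

namespace Fermat.Agent.LT

open Classical in
/-- `p` is equivariant on the support of `Φ` and pushes `Φ` forward to `Ψ`. -/
structure IsPush (T : Type*) {A B R : Type*} [Group T] [MulAction T A] [MulAction T B]
    [CommSemiring R] (p : A → B) (Φ : A → R) (Ψ : B → R) : Prop where
  equiv : ∀ (t : T) (a : A), Φ a ≠ 0 → p (t • a) = t • p a
  fin : ∀ b, {a | Φ a ≠ 0 ∧ p a = b}.Finite
  sum : ∀ b, ∑ᶠ a, (if p a = b then Φ a else 0) = Ψ b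

open Classical in
/-- The fibre sums of `Φ` along `p : A → B` are the values of `Ψ` (`IsPush` without a group). -/
structure FibSum {A B R : Type*} [CommSemiring R] (p : A → B) (Φ : A → R) (Ψ : B → R) :
    Prop where
  fin : ∀ b, {a | Φ a ≠ 0 ∧ p a = b}.Finite
  sum : ∀ b, ∑ᶠ a, (if p a = b then Φ a else 0) = Ψ b

/-! ### Fibre sums of restricted products -/

section RprodFib

variable {R : Type*} [CommSemiring R] {ι : Type*} {A B : ι → Type*} {a₀ : ∀ v, A v}
  {b₀ : ∀ v, B v} {p : ∀ v, A v → B v} {Φ : ∀ v, A v → R} {Ψ : ∀ v, B v → R}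

/-- **Restricted products.** For almost all `v`: `p v` maps the base point to the base point, the
value of `Φ v` at the base point is `1` and no other point of the support of `Φ v` is mapped to the
base point. -/
theorem FibSum.rprod (hp : {v | p v (a₀ v) ≠ b₀ v}.Finite) (h : ∀ v, FibSum (p v) (Φ v) (Ψ v))
    (h1 : {v | ¬ (Φ v (a₀ v) = 1 ∧ ∀ x, Φ v x ≠ 0 → p v x = b₀ v → x = a₀ v)}.Finite) :
    FibSum (RProd.map p hp) (RProd.fprod Φ : RProd A a₀ → R)
      (RProd.fprod Ψ : RProd B b₀ → R) := by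
  classical
  have hadm : ∀ y : RProd B b₀,
      RProd.Adm a₀ fun v x => if p v x = y v then Φ v x else 0 := by
    intro y
    constructor
    · intro v
      refine ((h v).fin (y v)).subset fun x hx => ?_
      by_cases h2 : p v x = y v
      · rw [mem_support, if_pos h2] at hx
        exact ⟨hx, h2⟩
      · rw [mem_support, if_neg h2] at hx
        exact absurd rfl hx
    · refine ((hp.union h1).union y.fin).subset fun v hv => ?_
      by_contra h0
      simp only [mem_union, mem_ofPred_eq, not_or, not_not] at h0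
      refine hv ?_
      funext x
      rw [h0.2]
      by_cases hx : x = a₀ v
      · rw [if_pos hx, hx, if_pos h0.1.1, h0.1.2.1]
      · rw [if_neg hx]
        by_cases h2 : p v x = b₀ v
        · rw [if_pos h2]
          by_contra h3
          exact hx (h0.1.2.2 x h3 h2)
        · rw [if_neg h2]
  have hf : ∀ (y : RProd B b₀) (x : RProd A a₀),
      RProd.fprod (fun v x => if p v x = y v then Φ v x else 0) x =
        if RProd.map p hp x = y then RProd.fprod Φ x else 0 := by
    intro y x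
    split_ifs with hxy
    · refine finprod_congr fun v => ?_
      beta_reduce
      rw [if_pos]
      rw [← hxy]
      rfl
    · by_contra h0
      refine hxy (RProd.ext' fun v => ?_)
      have := RProd.ne_zero_of_fprod_ne_zero
        (f := fun v x => if p v x = y v then Φ v x else 0) (hadm y).base_eq h0 v
      by_contra h2
      exact this (if_neg h2)
  refine ⟨fun y => ?_, fun y => ?_⟩
  · refine (hadm y).finite_support.subset fun x hx => ?_
    rw [mem_support, hf y x, if_pos hx.2]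
    exact hx.1
  · rw [← finsum_congr (hf y), (hadm y).finsum_fprod]
    exact finprod_congr fun v => (h v).sum (y v)

end RprodFib

namespace IsPush

variable {T : Type*} [Group T] {R : Type*} [CommSemiring R]

theorem fibSum {A B : Type*} [MulAction T A] [MulAction T B] {p : A → B} {Φ : A → R} {Ψ : B → R}
    (h : IsPush T p Φ Ψ) : FibSum p Φ Ψ := ⟨h.fin, h.sum⟩

theorem of_fibSum {A B : Type*} [MulAction T A] [MulAction T B] {p : A → B} {Φ : A → R}
    {Ψ : B → R} (h : FibSum p Φ Ψ)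
    (he : ∀ (t : T) (a : A), Φ a ≠ 0 → p (t • a) = t • p a) : IsPush T p Φ Ψ := ⟨he, h.fin, h.sum⟩

section Basic

variable {A B A' : Type*} [MulAction T A] [MulAction T B] [MulAction T A'] {p : A → B}
  {Φ : A → R} {Ψ : B → R}

/-- Transport along a bijection `A' ≃ A`. -/
theorem comp_equiv (h : IsPush T p Φ Ψ) (e : A' ≃ A)
    (he : ∀ (t : T) a', Φ (e a') ≠ 0 → e (t • a') = t • e a') :
    IsPush T (p ∘ e) (Φ ∘ e) Ψ where
  equiv t a' ha := by
    show p (e (t • a')) = t • p (e a')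
    rw [he t a' ha, h.equiv t _ ha]
  fin b := (h.fin b).preimage e.injective.injOn
  sum b := by
    classical
    rw [← h.sum b]
    exact finsum_comp_equiv e (f := fun a => if p a = b then Φ a else 0)

/-- Transport along a bijection `A' ≃ A`, only `p ∘ e` is equivariant. -/
theorem comp_equiv' (h : IsPush T p Φ Ψ) (e : A' ≃ A)
    (he : ∀ (t : T) a', Φ (e a') ≠ 0 → p (e (t • a')) = t • p (e a')) :
    IsPush T (p ∘ e) (Φ ∘ e) Ψ where
  equiv t a' ha := he t a' ha
  fin b := (h.fin b).preimage e.injective.injOn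
  sum b := by
    classical
    rw [← h.sum b]
    exact finsum_comp_equiv e (f := fun a => if p a = b then Φ a else 0)

/-- Transport along a bijection `B ≃ B'`. -/
theorem comp_equiv_right {B' : Type*} [MulAction T B'] (h : IsPush T p Φ Ψ) (e : B ≃ B')
    (he : ∀ (t : T) b, e (t • b) = t • e b) :
    IsPush T (e ∘ p) Φ (Ψ ∘ e.symm) where
  equiv t a ha := by
    show e (p (t • a)) = t • e (p a)
    rw [h.equiv t a ha, he]
  fin b := (h.fin (e.symm b)).subset fun a ha => ⟨ha.1, by rw [← ha.2]; simp⟩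
  sum b := by
    classical
    show _ = Ψ (e.symm b)
    rw [← h.sum (e.symm b)]
    refine finsum_congr fun a => ?_
    have : (e ∘ p) a = b ↔ p a = e.symm b := by
      rw [comp_apply, Equiv.eq_symm_apply]
    by_cases h1 : p a = e.symm b
    · rw [if_pos h1, if_pos (this.mpr h1)]
    · rw [if_neg h1, if_neg fun h => h1 (this.mp h)]

/-- Change of the functions. -/
theorem congr (h : IsPush T p Φ Ψ) {Φ' : A → R} {Ψ' : B → R} (h1 : ∀ a, Φ' a = Φ a)
    (h2 : ∀ b, Ψ' b = Ψ b) : IsPush T p Φ' Ψ' := by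
  obtain rfl : Φ' = Φ := funext h1
  obtain rfl : Ψ' = Ψ := funext h2
  exact h

/-- Change of the group. -/
theorem comp_hom {T' : Type*} [Group T'] [MulAction T' A] [MulAction T' B]
    (h : IsPush T p Φ Ψ) (φ : T' → T) (hA : ∀ (t : T') (a : A), t • a = φ t • a)
    (hB : ∀ (t : T') (b : B), t • b = φ t • b) : IsPush T' p Φ Ψ where
  equiv t a ha := by rw [hA, hB, h.equiv _ a ha]
  fin := h.fin
  sum := h.sum

/-- The case of a bijection of the supports. -/
theorem of_bij (hequiv : ∀ (t : T) (a : A), Φ a ≠ 0 → p (t • a) = t • p a)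
    (hval : ∀ a, Φ a ≠ 0 → Ψ (p a) = Φ a) (hinj : InjOn p (support Φ))
    (hsurj : ∀ b, Ψ b ≠ 0 → ∃ a, Φ a ≠ 0 ∧ p a = b) : IsPush T p Φ Ψ where
  equiv := hequiv
  fin b := by
    refine Set.Subsingleton.finite fun a ha a' ha' => ?_
    exact hinj ha.1 ha'.1 (ha.2.trans ha'.2.symm)
  sum b := by
    classical
    by_cases hb : ∃ a, Φ a ≠ 0 ∧ p a = b
    · obtain ⟨a, ha, rfl⟩ := hb
      rw [finsum_eq_single _ a, if_pos rfl, hval a ha]
      intro a' ha'
      by_contra h
      by_cases h1 : p a' = p a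
      · rw [if_pos h1] at h
        exact ha' (hinj h ha h1)
      · rw [if_neg h1] at h
        exact h rfl
    · have h0 : Ψ b = 0 := by
        by_contra h
        exact hb (hsurj b h)
      rw [h0]
      refine finsum_eq_zero_of_forall_eq_zero fun a => ?_
      by_contra h
      by_cases h1 : p a = b
      · rw [if_pos h1] at h
        exact hb ⟨a, h, h1⟩
      · rw [if_neg h1] at h
        exact h rfl

theorem exists_of_ne_zero (h : IsPush T p Φ Ψ) {b : B} (hb : Ψ b ≠ 0) :
    ∃ a, Φ a ≠ 0 ∧ p a = b := by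
  classical
  by_contra hn
  push Not at hn
  refine hb ?_
  rw [← h.sum b]
  refine finsum_eq_zero_of_forall_eq_zero fun a => ?_
  by_cases h1 : p a = b
  · rw [if_pos h1]
    by_contra h2
    exact hn a h2 h1
  · rw [if_neg h1]

/-- scaling -/
theorem const_mul (h : IsPush T p Φ Ψ) (c : R) :
    IsPush T p (fun a => c * Φ a) (fun b => c * Ψ b) where
  equiv t a ha := h.equiv t a fun h0 => ha (by rw [h0, mul_zero])
  fin b := (h.fin b).subset fun a ha => ⟨fun h0 => ha.1 (by
    show c * Φ a = 0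
    rw [h0, mul_zero]), ha.2⟩
  sum b := by
    classical
    rw [← h.sum b, mul_finsum']
    · refine finsum_congr fun a => ?_
      rw [mul_ite, mul_zero]
    · refine (h.fin b).subset fun a ha => ?_
      by_cases h1 : p a = b
      · exact ⟨fun h0 => ha (by simp [h0]), h1⟩
      · exact absurd (if_neg h1) ha

end Basic

/-! ### Restricted products -/

section Rprod

variable {ι : Type*} {A B : ι → Type*} {a₀ : ∀ v, A v} {b₀ : ∀ v, B v}
  [∀ v, MulAction T (A v)] [∀ v, MulAction T (B v)] [RProd.BaseFix a₀ T] [RProd.BaseFix b₀ T]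
  {p : ∀ v, A v → B v} {Φ : ∀ v, A v → R} {Ψ : ∀ v, B v → R}

/-- **Restricted products.** For almost all `v`: `p v` maps the base point to the base point, the
value of `Φ v` at the base point is `1` and no other point of the support of `Φ v` is mapped to the
base point. -/
theorem rprod (hp : {v | p v (a₀ v) ≠ b₀ v}.Finite) (h : ∀ v, IsPush T (p v) (Φ v) (Ψ v))
    (h1 : {v | ¬ (Φ v (a₀ v) = 1 ∧ ∀ x, Φ v x ≠ 0 → p v x = b₀ v → x = a₀ v)}.Finite) :
    IsPush T (RProd.map p hp) (RProd.fprod Φ : RProd A a₀ → R)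
      (RProd.fprod Ψ : RProd B b₀ → R) := by
  have hΦ1 : {v | Φ v (a₀ v) ≠ 1}.Finite := h1.subset fun v hv hc => hv hc.1
  exact of_fibSum (FibSum.rprod hp (fun v => (h v).fibSum) h1) fun t x hx =>
    RProd.ext' fun v => (h v).equiv t _ (RProd.ne_zero_of_fprod_ne_zero hΦ1 hx v)

end Rprod

/-! ### Binary products -/

section Prod

variable {A B A' B' : Type*} [MulAction T A] [MulAction T B] [MulAction T A'] [MulAction T B']
  {p : A → B} {p' : A' → B'} {Φ : A → R} {Ψ : B → R} {Φ' : A' → R} {Ψ' : B' → R}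

theorem prod (h : IsPush T p Φ Ψ) (h' : IsPush T p' Φ' Ψ') :
    IsPush T (Prod.map p p') (fun x : A × A' => Φ x.1 * Φ' x.2)
      (fun y : B × B' => Ψ y.1 * Ψ' y.2) := by
  classical
  have hfin : ∀ b b', ({x : A × A' | Φ x.1 * Φ' x.2 ≠ 0 ∧ Prod.map p p' x = (b, b')}).Finite :=
    fun b b' => ((h.fin b).prod (h'.fin b')).subset fun x hx => by
      obtain ⟨hx1, hx2⟩ := hx
      rw [Prod.ext_iff] at hx2
      exact ⟨⟨fun h0 => hx1 (by rw [h0, zero_mul]), hx2.1⟩,
        ⟨fun h0 => hx1 (by rw [h0, mul_zero]), hx2.2⟩⟩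
  refine ⟨fun t x hx => ?_, fun b => hfin b.1 b.2, fun b => ?_⟩
  · exact Prod.ext (h.equiv t _ fun h0 => hx (by rw [h0, zero_mul]))
      (h'.equiv t _ fun h0 => hx (by rw [h0, mul_zero]))
  · obtain ⟨b, b'⟩ := b
    have e1 : ∀ x : A × A', (if Prod.map p p' x = (b, b') then Φ x.1 * Φ' x.2 else 0) =
        (if p x.1 = b then Φ x.1 else 0) * (if p' x.2 = b' then Φ' x.2 else 0) := by
      intro x
      by_cases h1 : p x.1 = b <;> by_cases h2 : p' x.2 = b' <;>
        simp [Prod.map, h1, h2]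
    refine Eq.trans (b := ∑ᶠ x : A × A', (if p x.1 = b then Φ x.1 else 0) *
      (if p' x.2 = b' then Φ' x.2 else 0)) (finsum_congr fun x => ?_) ?_
    · rw [← e1]
      congr
    have hs : (support fun x : A × A' => (if p x.1 = b then Φ x.1 else 0) *
        (if p' x.2 = b' then Φ' x.2 else 0)).Finite := by
      refine (hfin b b').subset fun x hx => ?_
      rw [mem_support, ← e1] at hx
      by_cases h1 : Prod.map p p' x = (b, b')
      · rw [if_pos h1] at hx
        exact ⟨hx, h1⟩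
      · rw [if_neg h1] at hx
        exact absurd rfl hx
    have hsA : (support fun a => if p a = b then Φ a else 0).Finite :=
      (h.fin b).subset fun a ha => by
        by_cases h1 : p a = b
        · rw [mem_support, if_pos h1] at ha
          exact ⟨ha, h1⟩
        · rw [mem_support, if_neg h1] at ha
          exact absurd rfl ha
    have hsA' : (support fun a => if p' a = b' then Φ' a else 0).Finite :=
      (h'.fin b').subset fun a ha => by
        by_cases h1 : p' a = b'
        · rw [mem_support, if_pos h1] at ha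
          exact ⟨ha, h1⟩
        · rw [mem_support, if_neg h1] at ha
          exact absurd rfl ha
    rw [finsum_curry _ hs]
    show _ = Ψ b * Ψ' b'
    rw [← h.sum b, ← h'.sum b', finsum_mul' _ _ hsA]
    refine finsum_congr fun a => ?_
    rw [mul_finsum' _ _ hsA']

end Prod

end IsPush

/-! ### Split places -/

section Split

variable {T : Type*} [Group T] {R : Type*} [CommSemiring R] {X : Type*} [MulAction T X]

/-- **A place which splits.** -/
theorem isPush_split {f₁ f₂ f₃ : X → X → R} (g₁ g₂ g₃ : Equiv.Perm X)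
    (h₂ : ∀ x y, f₂ (g₁ x) (g₁ y) = f₂ x y)
    (h₃ : ∀ x y, f₃ (g₁ (g₂ x)) (g₁ (g₂ y)) = f₃ x y)
    (r₁ : ∀ x, (support (f₁ x)).Finite) (r₂ : ∀ x, (support (f₂ x)).Finite) :
    IsPush T (fun x : X × X × X => x.1)
      (fun x => f₁ x.1 (g₁ x.2.1) * f₂ x.2.1 (g₂ x.2.2) * f₃ x.2.2 (g₃ x.1))
      (fun x => ∑ᶠ y, ∑ᶠ z, f₁ x y * f₂ y z * f₃ z (g₁ (g₂ (g₃ x)))) := by
  classical
  have hfin : ∀ x : X, (support fun yz : X × X => f₁ x yz.1 * f₂ yz.1 yz.2 *
      f₃ yz.2 (g₁ (g₂ (g₃ x)))).Finite := by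
    intro x
    refine ((r₁ x).biUnion fun y _ => ((r₂ y).image (Prod.mk y))).subset fun yz h => ?_
    simp only [mem_iUnion]
    exact ⟨yz.1, fun h0 => h (by simp only; rw [h0, zero_mul, zero_mul]),
      ⟨yz.2, fun h0 => h (by simp only; rw [h0, mul_zero, zero_mul]), rfl⟩⟩
  have key : ∀ x y z, f₁ x (g₁ y) * f₂ y (g₂ z) * f₃ z (g₃ x) =
      f₁ x (g₁ y) * f₂ (g₁ y) (g₁ (g₂ z)) * f₃ (g₁ (g₂ z)) (g₁ (g₂ (g₃ x))) := by
    intro x y z
    rw [h₂, h₃]
  let e : X × X ≃ X × X := Equiv.prodCongr g₁ (g₂.trans g₁)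
  have he : ∀ yz, e yz = (g₁ yz.1, g₁ (g₂ yz.2)) := fun yz => rfl
  refine ⟨fun t a _ => rfl, fun x => ?_, fun x => ?_⟩
  · refine (((hfin x).preimage e.injective.injOn).image (Prod.mk x)).subset fun a ha => ?_
    obtain ⟨ha1, rfl⟩ := ha
    refine ⟨a.2, ?_, rfl⟩
    rw [mem_preimage, mem_support, he, ← key]
    exact ha1
  · have h1 : ∑ᶠ a : X × X × X, (if a.1 = x then
        f₁ a.1 (g₁ a.2.1) * f₂ a.2.1 (g₂ a.2.2) * f₃ a.2.2 (g₃ a.1) else 0) =
        ∑ᶠ yz : X × X, f₁ x (g₁ yz.1) * f₂ yz.1 (g₂ yz.2) * f₃ yz.2 (g₃ x) := by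
      have hinj : Injective (Prod.mk x : X × X → X × X × X) := fun a b h => (Prod.ext_iff.mp h).2
      rw [← finsum_mem_univ, ← finsum_mem_inter_support]
      rw [← finsum_mem_univ (f := fun yz : X × X => f₁ x (g₁ yz.1) * f₂ yz.1 (g₂ yz.2) *
        f₃ yz.2 (g₃ x))]
      rw [univ_inter, ← finsum_mem_image (g := Prod.mk x) hinj.injOn
        (f := fun a : X × X × X => f₁ a.1 (g₁ a.2.1) * f₂ a.2.1 (g₂ a.2.2) * f₃ a.2.2 (g₃ a.1)),
        ← finsum_mem_inter_support (s := Prod.mk x '' univ)]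
      refine finsum_mem_congr ?_ ?_
      · ext a
        simp only [mem_support, mem_inter_iff, mem_image, mem_univ, true_and]
        constructor
        · intro ha
          by_cases h1 : a.1 = x
          · rw [if_pos h1] at ha
            exact ⟨⟨a.2, by rw [← h1]⟩, ha⟩
          · rw [if_neg h1] at ha
            exact absurd rfl ha
        · rintro ⟨⟨yz, rfl⟩, ha⟩
          rw [if_pos rfl]
          exact ha
      · rintro a ⟨⟨yz, -, rfl⟩, -⟩
        rw [if_pos rfl]
    rw [h1, finsum_congr fun yz : X × X => key x yz.1 yz.2]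
    refine (finsum_comp_equiv e (f := fun yz : X × X => f₁ x yz.1 * f₂ yz.1 yz.2 *
      f₃ yz.2 (g₁ (g₂ (g₃ x))))).trans ?_
    rw [finsum_curry _ (hfin x)]

end Split

/-! ### Integrals -/

section Inf

variable {H : Type*} [MeasurableSpace H] {μ : Measure H} [SFinite μ]

/-- The value of a product of three kernels. -/
def kcomp3 (μ : Measure H) (f₁ f₂ f₃ : H → H → ℂ) (x x' : H) : ℂ :=
  ∫ yz : H × H, f₁ x yz.1 * f₂ yz.1 yz.2 * f₃ yz.2 x' ∂(μ.prod μ)

/-- **Archimedean places**: the push-forward of the product of three kernels. -/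
theorem integral_split {f₁ f₂ f₃ : H → H → ℂ} (g₁ g₂ g₃ : H ≃ᵐ H)
    (hg₁ : MeasurePreserving g₁ μ μ) (hg₂ : MeasurePreserving g₂ μ μ)
    (h₂ : ∀ x y, f₂ (g₁ x) (g₁ y) = f₂ x y)
    (h₃ : ∀ x y, f₃ (g₁ (g₂ x)) (g₁ (g₂ y)) = f₃ x y) (F : H → ℝ)
    (hi : Integrable (fun x : H × H × H => F x.1 •
      (f₁ x.1 (g₁ x.2.1) * f₂ x.2.1 (g₂ x.2.2) * f₃ x.2.2 (g₃ x.1))) (μ.prod (μ.prod μ))) :
    ∫ x : H × H × H, F x.1 •
      (f₁ x.1 (g₁ x.2.1) * f₂ x.2.1 (g₂ x.2.2) * f₃ x.2.2 (g₃ x.1)) ∂(μ.prod (μ.prod μ)) =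
    ∫ x, F x • kcomp3 μ f₁ f₂ f₃ x (g₁ (g₂ (g₃ x))) ∂μ := by
  rw [integral_prod _ hi]
  refine integral_congr_ae (Filter.Eventually.of_forall fun x => ?_)
  show (∫ y : H × H, F x • (f₁ x (g₁ y.1) * f₂ y.1 (g₂ y.2) * f₃ y.2 (g₃ x)) ∂μ.prod μ) =
    F x • kcomp3 μ f₁ f₂ f₃ x (g₁ (g₂ (g₃ x)))
  rw [integral_smul]
  congr 1
  let e : H × H ≃ᵐ H × H := MeasurableEquiv.prodCongr g₁ (g₂.trans g₁)
  have he : MeasurePreserving e (μ.prod μ) (μ.prod μ) := hg₁.prod (hg₁.comp hg₂)
  rw [kcomp3]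
  refine Eq.trans ?_ (he.integral_comp' (f := e)
    (fun yz => f₁ x yz.1 * f₂ yz.1 yz.2 * f₃ yz.2 (g₁ (g₂ (g₃ x)))))
  refine integral_congr_ae (Filter.Eventually.of_forall fun yz => ?_)
  show f₁ x (g₁ yz.1) * f₂ yz.1 (g₂ yz.2) * f₃ yz.2 (g₃ x) =
    f₁ x (g₁ yz.1) * f₂ (g₁ yz.1) (g₁ (g₂ yz.2)) * f₃ (g₁ (g₂ yz.2)) (g₁ (g₂ (g₃ x)))
  rw [h₂, h₃]

open Classical in
/-- `(i ↦ x i) ↦ (x (e 0), x (e 1), x (e 2))` -/
def pi3 {ι : Type*} [Fintype ι] (e : Fin 3 ≃ ι) : (ι → H) ≃ᵐ H × H × H :=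
  (MeasurableEquiv.piCongrLeft (fun _ => H) e).symm.trans
    ((MeasurableEquiv.piFinSuccAbove (fun _ => H) 0).trans
      (MeasurableEquiv.prodCongr (MeasurableEquiv.refl _) MeasurableEquiv.finTwoArrow))

theorem pi3_apply {ι : Type*} [Fintype ι] (e : Fin 3 ≃ ι) (x : ι → H) :
    pi3 e x = (x (e 0), x (e 1), x (e 2)) := rfl

theorem measurePreserving_pi3 {ι : Type*} [Fintype ι] (e : Fin 3 ≃ ι) (μ : Measure H)
    [SigmaFinite μ] : MeasurePreserving (pi3 e) (Measure.pi fun _ => μ) (μ.prod (μ.prod μ)) := by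
  have h1 : MeasurePreserving (MeasurableEquiv.piCongrLeft (fun _ : ι => H) e).symm
      (Measure.pi fun _ => μ) (Measure.pi fun _ => μ) :=
    (measurePreserving_piCongrLeft (fun _ : ι => μ) e).symm
  have h2 : MeasurePreserving (MeasurableEquiv.piFinSuccAbove (fun _ : Fin 3 => H) 0)
      (Measure.pi fun _ => μ) (μ.prod (Measure.pi fun _ => μ)) :=
    measurePreserving_piFinSuccAbove (fun _ : Fin 3 => μ) 0
  have h3 : MeasurePreserving (MeasurableEquiv.finTwoArrow (α := H)) (Measure.pi fun _ => μ)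
      (μ.prod μ) := measurePreserving_finTwoArrow μ
  exact (((MeasurePreserving.id μ).prod h3).comp h2).comp h1

/-- **Archimedean places**, in coordinates: `κ` has one element and `ι` three elements; `c` is the
identification of the factor `e 0` with the factor below. -/
theorem push_inf {ι κ : Type*} [Fintype ι] [Unique κ] (e : Fin 3 ≃ ι) (μ : Measure H)
    [SigmaFinite μ] {f₁ f₂ f₃ : H → H → ℂ} (g₁ g₂ g₃ c : H ≃ᵐ H)
    (hg₁ : MeasurePreserving g₁ μ μ) (hg₂ : MeasurePreserving g₂ μ μ)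
    (hc : MeasurePreserving c μ μ)
    (h₂ : ∀ x y, f₂ (g₁ x) (g₁ y) = f₂ x y)
    (h₃ : ∀ x y, f₃ (g₁ (g₂ x)) (g₁ (g₂ y)) = f₃ x y) (F : (κ → H) → ℝ)
    (hi : Integrable (fun x : ι → H => F (fun _ => c (x (e 0))) •
      (f₁ (x (e 0)) (g₁ (x (e 1))) * f₂ (x (e 1)) (g₂ (x (e 2))) *
        f₃ (x (e 2)) (g₃ (x (e 0))))) (Measure.pi fun _ => μ)) :
    ∫ x : ι → H, F (fun _ => c (x (e 0))) •
      (f₁ (x (e 0)) (g₁ (x (e 1))) * f₂ (x (e 1)) (g₂ (x (e 2))) *
        f₃ (x (e 2)) (g₃ (x (e 0)))) ∂(Measure.pi fun _ => μ) =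
    ∫ x : κ → H, F x • kcomp3 μ f₁ f₂ f₃ (c.symm (x default))
      (g₁ (g₂ (g₃ (c.symm (x default))))) ∂(Measure.pi fun _ => μ) := by
  have hm := measurePreserving_pi3 e μ
  set G : H × H × H → ℂ := fun x => F (fun _ => c x.1) •
      (f₁ x.1 (g₁ x.2.1) * f₂ x.2.1 (g₂ x.2.2) * f₃ x.2.2 (g₃ x.1)) with hG
  have e1 : ∀ x : ι → H, F (fun _ => c (x (e 0))) •
      (f₁ (x (e 0)) (g₁ (x (e 1))) * f₂ (x (e 1)) (g₂ (x (e 2))) *
        f₃ (x (e 2)) (g₃ (x (e 0)))) = G (pi3 e x) := fun x => rfl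
  simp only [e1] at hi ⊢
  rw [hm.integral_comp']
  have hi' : Integrable G (μ.prod (μ.prod μ)) :=
    (hm.integrable_comp_emb (pi3 e).measurableEmbedding).mp hi
  rw [integral_split g₁ g₂ g₃ hg₁ hg₂ h₂ h₃ (fun x => F fun _ => c x) hi']
  have hu : MeasurePreserving (MeasurableEquiv.funUnique κ H) (Measure.pi fun _ => μ) μ :=
    measurePreserving_funUnique μ κ
  set G' : H → ℂ := fun x => F (fun _ => x) • kcomp3 μ f₁ f₂ f₃ (c.symm x)
      (g₁ (g₂ (g₃ (c.symm x)))) with hG'
  have e2 : ∀ x : κ → H, F x • kcomp3 μ f₁ f₂ f₃ (c.symm (x default))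
      (g₁ (g₂ (g₃ (c.symm (x default))))) = G' (MeasurableEquiv.funUnique κ H x) := fun x => by
    have : x = fun _ => x default := funext fun i => by rw [Unique.eq_default i]
    show _ = F (fun _ => x default) • _
    rw [← this]
    rfl
  simp only [e2]
  rw [hu.integral_comp']
  refine Eq.trans ?_ (hc.integral_comp' (f := c) G')
  refine integral_congr_ae (Filter.Eventually.of_forall fun x => ?_)
  show _ = F (fun _ => c x) • kcomp3 μ f₁ f₂ f₃ (c.symm (c x)) (g₁ (g₂ (g₃ (c.symm (c x)))))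
  rw [MeasurableEquiv.symm_apply_apply]

end Inf

section Count

variable {X : Type*} [MeasurableSpace X] {μ : Measure X} [SFinite μ]
  {A : Type*} [Countable A] [MeasurableSpace A] [DiscreteMeasurableSpace A]

omit [DiscreteMeasurableSpace A] in
theorem integrable_prod_count {f : X × A → ℂ} (hf : Integrable f (μ.prod Measure.count)) (a : A) :
    Integrable (fun x => f (x, a)) μ := by
  have h := hf.prod_left_ae
  rw [Measure.ae_count_iff] at h
  exact h a

theorem hasSum_integral_prod_count {f : X × A → ℂ} (hf : Integrable f (μ.prod Measure.count)) :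
    HasSum (fun a => ∫ x, f (x, a) ∂μ) (∫ z, f z ∂(μ.prod Measure.count)) := by
  have h1 : Integrable (fun a => ∫ x, f (x, a) ∂μ) (Measure.count : Measure A) :=
    hf.integral_prod_right
  rw [integral_prod_symm _ hf, integral_countable h1]
  simp only [Measure.real, Measure.count_singleton, ENNReal.toReal_one, one_smul]
  exact (integrable_count_iff.mp h1).of_norm.hasSum

end Count

/-- summation over the fibres of a map -/
theorem hasSum_fiber {A B : Type*} {T : Type*} [Group T] [MulAction T A] [MulAction T B]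
    {p : A → B} {Φ : A → ℂ} {Ψ : B → ℂ} (h : IsPush T p Φ Ψ) {J : B → ℂ} {S : ℂ}
    (hs : HasSum (fun a => Φ a * J (p a)) S) : HasSum (fun b => Ψ b * J b) S := by
  classical
  have h1 := hs.tsum_fiberwise p
  have h2 : ∀ b, ∑' a : p ⁻¹' {b}, Φ a * J (p a) = Ψ b * J b := by
    intro b
    have e1 : ∀ a : p ⁻¹' {b}, Φ a * J (p a) = Φ a * J b := fun a => by
      rw [show p a = b from a.2]
    rw [tsum_congr e1, tsum_mul_right, tsum_subtype (p ⁻¹' {b}) Φ]
    congr 1
    have e2 : (p ⁻¹' {b}).indicator Φ = fun a => if p a = b then Φ a else 0 := by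
      funext a
      by_cases ha : p a = b
      · rw [if_pos ha, indicator_of_mem (show a ∈ p ⁻¹' {b} from ha)]
      · rw [if_neg ha, indicator_of_notMem (show a ∉ p ⁻¹' {b} from ha)]
    rw [e2, tsum_eq_finsum, h.sum b]
    refine (h.fin b).subset fun a ha => ?_
    by_cases h1 : p a = b
    · rw [mem_support, if_pos h1] at ha
      exact ⟨ha, h1⟩
    · rw [mem_support, if_neg h1] at ha
      exact absurd rfl ha
  simpa only [h2] using h1

section Orb

variable {T X X' A B : Type*} [Group T] [Countable T] [MeasurableSpace X] [MeasurableSpace X']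
  [MulAction T X] [MulAction T X'] [MulAction T A] [MulAction T B] [Countable A] [Countable B]
  [MeasurableSpace A] [DiscreteMeasurableSpace A] [MeasurableSpace B] [DiscreteMeasurableSpace B]
  {μ : Measure X} [SFinite μ] {μ' : Measure X'} [SFinite μ'] [MeasurableConstSMul T (X × A)]
  [SMulInvariantMeasure T (X × A) (μ.prod Measure.count)]

/-- **Equality of the orbital integrals.** `q` is the archimedean push-forward and `p` the push-
forward on the discrete part. -/
theorem orb_eq {w : X × A → ℝ≥0∞} {w' : X' × B → ℝ≥0∞} (hw : IsWeight T w)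
    (hw' : IsWeight T w') {q : X → X'} (hq : Measurable q) {f : X → ℂ} {f' : X' → ℂ}
    (hf : Measurable f) (hqe : ∀ (t : T) x, f x ≠ 0 → q (t • x) = t • q x)
    (hpush : ∀ F : X' → ℝ, Measurable F → (∀ x, 0 ≤ F x ∧ F x ≤ 1) →
      Integrable (fun x => F (q x) • f x) μ →
      ∫ x, F (q x) • f x ∂μ = ∫ x, F x • f' x ∂μ')
    {p : A → B} {Φ : A → ℂ} {Ψ : B → ℂ} (hp : IsPush T p Φ Ψ)
    (hinv : ∀ (t : T) (z : X × A), f (t • z.1) * Φ (t • z.2) = f z.1 * Φ z.2)
    (hi : Integrable (fun z : X × A => f z.1 * Φ z.2) ((μ.prod Measure.count).withDensity w))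
    (hi' : Integrable (fun z : X' × B => f' z.1 * Ψ z.2)
      ((μ'.prod Measure.count).withDensity w')) :
    ∫ z, f z.1 * Φ z.2 ∂(μ.prod Measure.count).withDensity w =
      ∫ z, f' z.1 * Ψ z.2 ∂(μ'.prod Measure.count).withDensity w' := by
  have hw1 : ∀ z, 0 ≤ (w' z).toReal ∧ (w' z).toReal ≤ 1 := fun z =>
    ⟨ENNReal.toReal_nonneg, ENNReal.toReal_le_of_le_ofReal zero_le_one
      (by rw [ENNReal.ofReal_one]; exact hw'.le_one z)⟩
  have hP : Measurable (Prod.map q p) := hq.prodMap (Measurable.of_discrete)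
  have hΦm : Measurable (fun z : X × A => f z.1 * Φ z.2) :=
    (hf.comp measurable_fst).mul ((Measurable.of_discrete (f := Φ)).comp measurable_snd)
  have hPS : ∀ (t : T), ∀ z ∈ {z : X × A | f z.1 * Φ z.2 ≠ 0},
      Prod.map q p (t • z) = t • Prod.map q p z := fun t z hz =>
    Prod.ext (hqe t _ fun h => hz (by rw [h, zero_mul]))
      (hp.equiv t _ fun h => hz (by rw [h, mul_zero]))
  have hS : ∀ z, z ∉ {z : X × A | f z.1 * Φ z.2 ≠ 0} → f z.1 * Φ z.2 = 0 := fun z hz => by
    by_contra h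
    exact hz h
  refine integral_push hw hw' (S := {z | f z.1 * Φ z.2 ≠ 0}) (p := Prod.map q p) hP hPS
    (Φ := fun z => f z.1 * Φ z.2) (Φ' := fun z => f' z.1 * Ψ z.2) hinv hS hi ?_
  -- integrability of the left-hand side
  have h1 : WtOn T {z : X × A | f z.1 * Φ z.2 ≠ 0}
      (fun z => (w' (Prod.map q p z)).toReal) := by
    refine ⟨hw'.meas.ennreal_toReal.comp hP, fun z => ENNReal.toReal_nonneg, fun z hz => ?_⟩
    have h2 := hw'.wt.sum (Prod.map q p z) (Set.mem_univ _)
    simp only [hPS _ z hz]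
    exact h2
  have hI : Integrable (fun z : X × A => (w' (Prod.map q p z)).toReal • (f z.1 * Φ z.2))
      (μ.prod Measure.count) := by
    refine ⟨((hw'.meas.comp hP).ennreal_toReal.smul hΦm).aestronglyMeasurable, ?_⟩
    have h2 := hw.wt.lintegral_eq (μ := μ.prod Measure.count) h1
      (f := fun z => ‖f z.1 * Φ z.2‖ₑ) hΦm.enorm.aemeasurable
      (fun t z => by
        show ‖f (t • z.1) * Φ (t • z.2)‖ₑ = _
        rw [hinv t z])
      (fun z hz => absurd (Set.mem_univ z) hz)
      (fun z hz => by rw [hS z hz, enorm_zero])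
    have h3 := (hw.integrable_iff_smul.mp hi).2
    rw [HasFiniteIntegral] at h3 ⊢
    have e1 : ∀ (c : ℝ) (z : ℂ), 0 ≤ c → ‖c • z‖ₑ = ENNReal.ofReal c * ‖z‖ₑ := fun c z hc => by
      rw [enorm_smul, Real.enorm_of_nonneg hc]
    simp only [e1 _ _ ENNReal.toReal_nonneg] at h3 ⊢
    rw [← h2]
    exact h3
  have hI' : Integrable (fun z : X' × B => (w' z).toReal • (f' z.1 * Ψ z.2))
      (μ'.prod Measure.count) := hw'.integrable_iff_smul.mp hi'
  have hs := hasSum_integral_prod_count hI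
  have hs' := hasSum_integral_prod_count hI'
  set J : B → ℂ := fun b => ∫ x, (w' (x, b)).toReal • f' x ∂μ' with hJ
  have e2 : ∀ a, ∫ x, (w' (Prod.map q p (x, a))).toReal • (f x * Φ a) ∂μ = Φ a * J (p a) := by
    intro a
    by_cases ha : Φ a = 0
    · simp [ha]
    · have h3 := integrable_prod_count hI a
      have e3 : ∀ x, (w' (Prod.map q p (x, a))).toReal • (f x * Φ a) =
          Φ a * ((w' (q x, p a)).toReal • f x) := fun x => by
        show (w' (q x, p a)).toReal • (f x * Φ a) = _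
        rw [mul_comm, mul_smul_comm]
      simp only [e3] at h3 ⊢
      rw [integral_const_mul]
      congr 1
      refine hpush (fun x => (w' (x, p a)).toReal)
        (hw'.meas.comp measurable_prodMk_right).ennreal_toReal (fun x => hw1 _) ?_
      exact (integrable_const_mul_iff (IsUnit.mk0 _ ha) _).mp h3
  have e4 : ∀ b, ∫ x, (w' (x, b)).toReal • (f' x * Ψ b) ∂μ' = Ψ b * J b := by
    intro b
    rw [hJ, ← integral_const_mul]
    refine integral_congr_ae (Filter.Eventually.of_forall fun x => ?_)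
    beta_reduce
    rw [mul_comm (f' x), mul_smul_comm]
  simp only [e2] at hs
  simp only [e4] at hs'
  exact (hasSum_fiber hp hs).unique hs'

end Orb

end Fermat.Agent.LT

end
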