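import Fermat.Agent.LT.UnitMat
import Fermat.Agent.LT.Match
import Fermat.Agent.LT.Level.Defs

/-!
# The unit places: `IsPush` on the coset spaces
-/

set_option autoImplicit false

noncomputable section

namespace Fermat.Agent.LT

open Matrix

section Good

variable {F : Type*} [Field F]

theorem InO.of_int {O : ValuationSubring F} {m g : Matrix (Fin 2) (Fin 2) F}
    (hm : IsInt O m) (hg : IsInt O g) (h : g * m = m * g)
    (hns : IsU O (m 0 1) ∧ m 0 1 ≠ 0 ∨ IsU O (m 1 0) ∧ m 1 0 ≠ 0 ∨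
      IsU O (m 0 0 - m 1 1) ∧ m 0 0 - m 1 1 ≠ 0) : InO O m g := by
  have hns' : NonSc m := by
    rcases hns with h | h | h
    · exact Or.inl h.2
    · exact Or.inr (Or.inl h.2)
    · exact Or.inr (Or.inr (sub_ne_zero.mp h.2))
  obtain ⟨z, hz⟩ := exists_rho hns' h
  rw [rho_apply] at hz
  have h00 := congrFun (congrFun hz 0) 0
  have h01 := congrFun (congrFun hz 0) 1
  have h10 := congrFun (congrFun hz 1) 0
  have h11 := congrFun (congrFun hz 1) 1
  simp [Matrix.add_apply, Matrix.smul_apply] at h00 h01 h10 h11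
  have him : z.im ∈ O := by
    rcases hns with h | h | h
    · have h1 : z.im = g 0 1 * (m 0 1)⁻¹ := by
        rw [← h01, mul_assoc, mul_inv_cancel₀ h.2, mul_one]
      rw [h1]
      exact O.mul_mem _ _ (hg 0 1) h.1.2
    · have h1 : z.im = g 1 0 * (m 1 0)⁻¹ := by
        rw [← h10, mul_assoc, mul_inv_cancel₀ h.2, mul_one]
      rw [h1]
      exact O.mul_mem _ _ (hg 1 0) h.1.2
    · have h1 : z.im = (g 0 0 - g 1 1) * (m 0 0 - m 1 1)⁻¹ := by
        rw [← h00, ← h11]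
        have h2 : z.re + z.im * m 0 0 - (z.re + z.im * m 1 1) = z.im * (m 0 0 - m 1 1) := by ring
        rw [h2, mul_assoc, mul_inv_cancel₀ h.2, mul_one]
      rw [h1]
      exact O.mul_mem _ _ (O.sub_mem (hg 0 0) (hg 1 1)) h.1.2
  have hre : z.re ∈ O := by
    have h1 : z.re = g 0 0 - z.im * m 0 0 := by rw [← h00]; ring
    rw [h1]
    exact O.sub_mem (hg 0 0) (O.mul_mem _ _ him (hm 0 0))
  exact ⟨z.re, hre, z.im, him, hz.symm⟩

end Good

section Main

variable {K F : Type*} [Field K] [Field F] {f : K →+* F} {τ : F ≃+* F} {O : ValuationSubring F}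
  (U : Unr f τ O) {δ : GL (Fin 2) F} {γ : GL (Fin 2) K}

/-- `m` is not scalar modulo the maximal ideal -/
def NonScMod (O : ValuationSubring F) (m : Matrix (Fin 2) (Fin 2) F) : Prop :=
  IsU O (m 0 1) ∧ m 0 1 ≠ 0 ∨ IsU O (m 1 0) ∧ m 1 0 ≠ 0 ∨
      IsU O (m 0 0 - m 1 1) ∧ m 0 0 - m 1 1 ≠ 0

namespace Unr

include U

/-- **good case**: `c = 1` -/
theorem unit_place_good (hδ : δ ∈ GU O) (hns : NonScMod O (fG f γ : Matrix (Fin 2) (Fin 2) F))
    (hcomm : δ * fG f γ = fG f γ * δ) (hN : δ * tG τ δ * tG τ (tG τ δ) = fG f γ)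
    (x : GL (Fin 2) F) : PU O (x⁻¹ * δ * tG τ x) ↔
        ∃ y : GL (Fin 2) K, PU (O.comap f) (y⁻¹ * γ * y) ∧ PU O (x⁻¹ * (1 * fG f y)) := by
  have hγ : fG f γ ∈ GU O := by
    rw [← hN]
    exact (GU O).mul_mem ((GU O).mul_mem hδ (U.mem_GU_tG hδ)) (U.mem_GU_tG (U.mem_GU_tG hδ))
  have hu : InO O (fG f γ : Matrix (Fin 2) (Fin 2) F) (δ : Matrix (Fin 2) (Fin 2) F) :=
    InO.of_int hγ.1 hδ.1 (congrArg Units.val hcomm) hns
  have hcomm' : δ⁻¹ * fG f γ = fG f γ * δ⁻¹ := by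
    rw [inv_mul_eq_iff_eq_mul, ← mul_assoc, hcomm, mul_assoc, mul_inv_cancel, mul_one]
  have hu' : InO O (fG f γ : Matrix (Fin 2) (Fin 2) F)
      ((δ⁻¹ : GL (Fin 2) F) : Matrix (Fin 2) (Fin 2) F) :=
    InO.of_int hγ.1 hδ.2 (congrArg Units.val hcomm') hns
  have hc : (1 : GL (Fin 2) F) * fG f γ = fG f γ * 1 := by rw [one_mul, mul_one]
  have huc : δ * tG τ 1 = δ * 1 := by rw [map_one]
  have hdγ : IsU (O.comap f) ((γ : Matrix (Fin 2) (Fin 2) K).det) :=
    isU_det (mem_GU_fG.mp hγ)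
  constructor
  · intro hx
    have hx' := hx.mem (U.det_conj_isU x (isU_det hδ))
    obtain ⟨y, hy, hxy⟩ := U.exists_of_fix hN hu hu' hc huc hx'
    exact ⟨y, PU.of_mem hy, PU.of_mem hxy⟩
  · rintro ⟨y, hy, hxy⟩
    exact U.fix_of_exists hu hu' hc huc (hy.mem (det_conj_isU' y hdγ)) hxy

omit U in
theorem fG_comm {c : GL (Fin 2) F} {a b : F} (hc : (c : Matrix (Fin 2) (Fin 2) F) =
      a • (1 : Matrix (Fin 2) (Fin 2) F) + b • (fG f γ : Matrix (Fin 2) (Fin 2) F))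
    {t : GL (Fin 2) K} (ht : t * γ = γ * t) : fG f t * c = c * fG f t := by
  apply Units.ext
  have h1 : (fG f t : Matrix (Fin 2) (Fin 2) F) * (fG f γ : Matrix (Fin 2) (Fin 2) F) =
      (fG f γ : Matrix (Fin 2) (Fin 2) F) * (fG f t : Matrix (Fin 2) (Fin 2) F) := by
    have := congrArg (fun g => (fG f g : Matrix (Fin 2) (Fin 2) F)) ht
    simpa only [map_mul, GeneralLinearGroup.coe_mul] using this
  rw [Units.val_mul, Units.val_mul, hc]
  simp only [add_mul, mul_add, Matrix.smul_mul, Matrix.mul_smul, one_mul, mul_one, h1]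

/-- both cases of the local theorem at once -/
theorem unit_place_all (hns : NonSc (γ : Matrix (Fin 2) (Fin 2) K))
    (hcomm : δ * fG f γ = fG f γ * δ) (hN : δ * tG τ δ * tG τ (tG τ δ) = fG f γ) :
    ∃ c : GL (Fin 2) F, (∃ a b : F, (c : Matrix (Fin 2) (Fin 2) F) =
        a • (1 : Matrix (Fin 2) (Fin 2) F) + b • (fG f γ : Matrix (Fin 2) (Fin 2) F)) ∧
      (δ ∈ GU O → NonScMod O (fG f γ : Matrix (Fin 2) (Fin 2) F) → c = 1) ∧
      ∀ x : GL (Fin 2) F, PU O (x⁻¹ * δ * tG τ x) ↔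
        ∃ y : GL (Fin 2) K, PU (O.comap f) (y⁻¹ * γ * y) ∧ PU O (x⁻¹ * (c * fG f y)) := by
  by_cases hg : δ ∈ GU O ∧ NonScMod O (fG f γ : Matrix (Fin 2) (Fin 2) F)
  · exact ⟨1, ⟨1, 0, by simp⟩, fun _ _ => rfl, U.unit_place_good hg.1 hg.2 hcomm hN⟩
  · by_cases h : (∃ x, PU O (x⁻¹ * δ * tG τ x)) ∨ ∃ y, PU (O.comap f) (y⁻¹ * γ * y)
    · obtain ⟨c, hc, hx⟩ := U.unit_place hns hcomm hN h
      exact ⟨c, hc, fun h1 h2 => absurd ⟨h1, h2⟩ hg, hx⟩
    · refine ⟨1, ⟨1, 0, by simp⟩, fun _ _ => rfl, fun x => ⟨fun hx => ?_, ?_⟩⟩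
      · exact absurd (Or.inl ⟨x, hx⟩) h
      · rintro ⟨y, hy, -⟩
        exact absurd (Or.inr ⟨y, hy⟩) h

variable {N' : Subgroup (GL (Fin 2) F)} {N : Subgroup (GL (Fin 2) K)}

/-- **the correspondence of the fixed points** in the coset spaces -/
theorem exists_push (hN' : ∀ g, g ∈ N' ↔ PU O g) (hNK : ∀ g, g ∈ N ↔ PU (O.comap f) g)
    {tC : GL (Fin 2) F ⧸ N' → GL (Fin 2) F ⧸ N'}
    (htC : ∀ x : GL (Fin 2) F, tC (x : GL (Fin 2) F ⧸ N') = (tG τ x : GL (Fin 2) F))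
    (hns : NonSc (γ : Matrix (Fin 2) (Fin 2) K))
    (hcomm : δ * fG f γ = fG f γ * δ) (hN : δ * tG τ δ * tG τ (tG τ δ) = fG f γ) :
    ∃ p : GL (Fin 2) F ⧸ N' → GL (Fin 2) K ⧸ N,
      (∀ t : GL (Fin 2) K, t * γ = γ * t → ∀ a, δ • tC a = a → p (fG f t • a) = t • p a) ∧
      (∀ a, δ • tC a = a → γ • p a = p a) ∧
      (∀ a a', δ • tC a = a → δ • tC a' = a' → p a = p a' → a = a') ∧
      (∀ b, γ • b = b → ∃ a, δ • tC a = a ∧ p a = b) ∧
      (δ ∈ GU O → NonScMod O (fG f γ : Matrix (Fin 2) (Fin 2) F) →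
        p ((1 : GL (Fin 2) F) : GL (Fin 2) F ⧸ N') = ((1 : GL (Fin 2) K) : GL (Fin 2) K ⧸ N)) := by
  classical
  obtain ⟨c, ⟨a₀, b₀, hc⟩, hgood, hx⟩ := U.unit_place_all hns hcomm hN
  have hNle : N ≤ N'.comap (fG f) := fun g hg =>
    (hN' _).mpr (U.PU_fG.mpr ((hNK g).mp hg))
  have hNle' : N'.comap (fG f) ≤ N := fun g hg =>
    (hNK g).mpr (U.PU_fG.mp ((hN' _).mp hg))
  let j : GL (Fin 2) K ⧸ N → GL (Fin 2) F ⧸ N' :=
    Quotient.map' (fG f) fun a b hab => by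
      rw [QuotientGroup.leftRel_apply] at hab ⊢
      rw [← map_inv, ← map_mul]
      exact hNle hab
  have hj : ∀ y : GL (Fin 2) K, j (y : GL (Fin 2) K ⧸ N) = (fG f y : GL (Fin 2) F) := fun y => rfl
  have hjinj : Function.Injective j := by
    intro a b h
    induction a using QuotientGroup.induction_on with
    | H a =>
    induction b using QuotientGroup.induction_on with
    | H b =>
    rw [hj, hj, QuotientGroup.eq] at h
    rw [QuotientGroup.eq]
    apply hNle'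
    rw [Subgroup.mem_comap, map_mul, map_inv]
    exact h
  have hjsmul : ∀ (t : GL (Fin 2) K) b, j (t • b) = fG f t • j b := by
    intro t b
    induction b using QuotientGroup.induction_on with
    | H b =>
    change j ((t * b : GL (Fin 2) K) : GL (Fin 2) K ⧸ N) = _
    rw [hj, hj, map_mul]
    rfl
  -- the fixed points
  have hfix : ∀ a, δ • tC a = a ↔ ∃ b, γ • b = b ∧ a = c • j b := by
    intro a
    induction a using QuotientGroup.induction_on with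
    | H x =>
    rw [htC]
    have h1 : δ • ((tG τ x : GL (Fin 2) F) : GL (Fin 2) F ⧸ N') =
        ((δ * tG τ x : GL (Fin 2) F) : GL (Fin 2) F ⧸ N') := rfl
    rw [h1, eq_comm, QuotientGroup.eq, ← mul_assoc, hN', hx]
    constructor
    · rintro ⟨y, hy, hxy⟩
      refine ⟨(y : GL (Fin 2) K ⧸ N), ?_, ?_⟩
      · have h2 : γ • (y : GL (Fin 2) K ⧸ N) = ((γ * y : GL (Fin 2) K) : GL (Fin 2) K ⧸ N) := rfl
        rw [h2, eq_comm, QuotientGroup.eq, ← mul_assoc, hNK]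
        exact hy
      · have h2 : c • j (y : GL (Fin 2) K ⧸ N) =
            ((c * fG f y : GL (Fin 2) F) : GL (Fin 2) F ⧸ N') := rfl
        rw [h2, QuotientGroup.eq, hN']
        exact hxy
    · rintro ⟨b, hb, hxb⟩
      induction b using QuotientGroup.induction_on with
      | H y =>
      refine ⟨y, ?_, ?_⟩
      · have h2 : γ • (y : GL (Fin 2) K ⧸ N) = ((γ * y : GL (Fin 2) K) : GL (Fin 2) K ⧸ N) := rfl
        rw [h2, eq_comm, QuotientGroup.eq, ← mul_assoc, hNK] at hb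
        exact hb
      · have h2 : c • j (y : GL (Fin 2) K ⧸ N) =
            ((c * fG f y : GL (Fin 2) F) : GL (Fin 2) F ⧸ N') := rfl
        rw [h2, QuotientGroup.eq, hN'] at hxb
        exact hxb
  let p : GL (Fin 2) F ⧸ N' → GL (Fin 2) K ⧸ N := fun a =>
    if h : ∃ b, γ • b = b ∧ a = c • j b then h.choose else ((1 : GL (Fin 2) K) : GL (Fin 2) K ⧸ N)
  have hcj : Function.Injective fun b => c • j b := fun b b' h =>
    hjinj (MulAction.injective c h)
  have hp : ∀ a, δ • tC a = a → γ • p a = p a ∧ a = c • j (p a) := by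
    intro a ha
    have h := (hfix a).mp ha
    have h1 : p a = h.choose := dif_pos h
    rw [h1]
    exact h.choose_spec
  have hp' : ∀ a b, γ • b = b → a = c • j b → p a = b := by
    intro a b hb hab
    have ha := (hfix a).mpr ⟨b, hb, hab⟩
    apply hcj
    change c • j (p a) = c • j b
    rw [← (hp a ha).2, hab]
  refine ⟨p, ?_, fun a ha => (hp a ha).1, ?_, ?_, ?_⟩
  · intro t ht a ha
    obtain ⟨h1, h2⟩ := hp a ha
    apply hp'
    · rw [smul_smul, ← ht, mul_smul, h1]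
    · conv_lhs => rw [h2]
      rw [hjsmul, smul_smul, smul_smul, fG_comm hc ht]
  · intro a a' ha ha' h
    rw [(hp a ha).2, (hp a' ha').2, h]
  · intro b hb
    exact ⟨c • j b, (hfix _).mpr ⟨b, hb, rfl⟩, hp' _ b hb rfl⟩
  · intro h1 h2
    have hc1 := hgood h1 h2
    apply hp'
    · have h3 : γ • ((1 : GL (Fin 2) K) : GL (Fin 2) K ⧸ N) =
          ((γ * 1 : GL (Fin 2) K) : GL (Fin 2) K ⧸ N) := rfl
      rw [h3, eq_comm, QuotientGroup.eq, inv_one, one_mul, mul_one, hNK, ← U.PU_fG, ← hN]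
      exact PU.of_mem ((GU O).mul_mem ((GU O).mul_mem h1 (U.mem_GU_tG h1))
        (U.mem_GU_tG (U.mem_GU_tG h1)))
    · rw [hc1, one_smul, hj, map_one]

open Classical in
/-- **IsPush at the unit places** -/
theorem exists_isPush (hN' : ∀ g, g ∈ N' ↔ PU O g) (hNK : ∀ g, g ∈ N ↔ PU (O.comap f) g)
    {tC : GL (Fin 2) F ⧸ N' → GL (Fin 2) F ⧸ N'}
    (htC : ∀ x : GL (Fin 2) F, tC (x : GL (Fin 2) F ⧸ N') = (tG τ x : GL (Fin 2) F))
    (hns : NonSc (γ : Matrix (Fin 2) (Fin 2) K))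
    (hcomm : δ * fG f γ = fG f γ * δ) (hN : δ * tG τ δ * tG τ (tG τ δ) = fG f γ)
    {R : Type*} [CommSemiring R] [Nontrivial R] :
    ∃ p : GL (Fin 2) F ⧸ N' → GL (Fin 2) K ⧸ N,
      (δ ∈ GU O → NonScMod O (fG f γ : Matrix (Fin 2) (Fin 2) F) →
        p ((1 : GL (Fin 2) F) : GL (Fin 2) F ⧸ N') = ((1 : GL (Fin 2) K) : GL (Fin 2) K ⧸ N)) ∧
      (∀ a a', δ • tC a = a → δ • tC a' = a' → p a = p a' → a = a') ∧
      ∀ (T : Type*) [Group T] [MulAction T (GL (Fin 2) F ⧸ N')] [MulAction T (GL (Fin 2) K ⧸ N)]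
        (_ : ∀ t : T, ∃ g : GL (Fin 2) K, g * γ = γ * g ∧
          (∀ a : GL (Fin 2) F ⧸ N', t • a = fG f g • a) ∧
          ∀ b : GL (Fin 2) K ⧸ N, t • b = g • b),
        IsPush T p (fun a => if δ • tC a = a then (1 : R) else 0)
          (fun b => if γ • b = b then (1 : R) else 0) := by
  obtain ⟨p, h1, h2, h3, h4, h5⟩ := U.exists_push hN' hNK htC hns hcomm hN
  refine ⟨p, h5, h3, ?_⟩
  intro T _ _ _ hT
  have hne : ∀ a, (if δ • tC a = a then (1 : R) else 0) ≠ 0 ↔ δ • tC a = a := by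
    intro a
    by_cases h : δ • tC a = a
    · simp [h]
    · simp [h]
  refine IsPush.of_bij ?_ ?_ ?_ ?_
  · intro t a ha
    rw [hne] at ha
    obtain ⟨g, hg, hA, hB⟩ := hT t
    rw [hA, hB]
    exact h1 g hg a ha
  · intro a ha
    rw [hne] at ha
    simp only [if_pos (h2 a ha), if_pos ha]
  · intro a ha a' ha' h
    rw [Function.mem_support, hne] at ha ha'
    exact h3 a a' ha ha' h
  · intro b hb
    have hb' : γ • b = b := by
      by_contra h
      exact hb (if_neg h)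
    obtain ⟨a, ha, hab⟩ := h4 b hb'
    exact ⟨a, (hne a).mpr ha, hab⟩

end Unr

end Main

end Fermat.Agent.LT

end
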