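import Fermat.Agent.LT.B8.NonSplit
import Fermat.Agent.LT.B8.Almost
import Fermat.Agent.LT.UnitPush
import Fermat.Agent.LT.UnitInst

/-!
# The local comparison at the good places with one place above

`locPush_unit`, `locPush₁_unit` : at an unramified place `v` of `K` with one place of `L` above,
levels `GL₂(O)` and identity kernels.
-/

set_option autoImplicit false

noncomputable section

open IsDedekindDomain NumberField Function Set Matrix
open scoped WithZero

namespace Fermat.Agent.LT.B8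

open Fermat.Agent.LT.Ext Fermat.Agent.LT.Lvl Fermat.Agent.LT.Near

section Unit

variable {K L : Type*} [Field K] [Field L] [NumberField K] [NumberField L] [Algebra K L]
  {G : Type*} [Group G] [Finite G] [MulSemiringAction G L] [IsGaloisGroup G K L]
  {U : Lev L} (hU : GStable G U.U) (UK : Lev K) {τ : G}
  {v : HeightOneSpectrum (𝓞 K)} {δ : GL (Fin 2) L} {g : GL (Fin 2) K}

theorem mem_sup_center_iff_PU {F : Type*} [Field F] [NumberField F]
    {w : HeightOneSpectrum (𝓞 F)} {H : Subgroup (GL (Fin 2) (w.adicCompletion F))}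
    (hH : H = GLO (Valued.v : Valuation (w.adicCompletion F) ℤᵐ⁰))
    (x : GL (Fin 2) (w.adicCompletion F)) :
    x ∈ H ⊔ Subgroup.center (GL (Fin 2) (w.adicCompletion F)) ↔
      PU (w.adicCompletionIntegers F) x := by
  rw [mem_sup_center, hH, ← gu_eq_GLO]
  rfl

theorem isU_iff_valued {F : Type*} [Field F] [NumberField F] {w : HeightOneSpectrum (𝓞 F)}
    {x : w.adicCompletion F} (hx : Valued.v x = 1) : IsU (w.adicCompletionIntegers F) x := by
  refine ⟨hx.le, ?_⟩
  rw [HeightOneSpectrum.mem_adicCompletionIntegers, map_inv₀, hx, inv_one]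

variable (τ) in
/-- `τ` on `GL₂(L)` -/
abbrev gtau : GL (Fin 2) L →* GL (Fin 2) L :=
  GeneralLinearGroup.map (MulSemiringAction.toRingHom G L τ)

/-- the image of the norm equation in the completion -/
theorem norm_local {w₀ : Above L v} (h : τ • w₀.1 = w₀.1)
    (hN : δ * gtau τ δ * gtau τ (gtau τ δ) = gup L g) :
    gmap w₀.1 δ * glExt h (gmap w₀.1 δ) * glExt h (glExt h (gmap w₀.1 δ)) =
      glBase v w₀.1 (gmap v g) := by
  rw [← gmap_gup, ← hN]
  exact (map_norm h δ).symm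

theorem comm_local (w₀ : Above L v) (hcomm : δ * gup L g = gup L g * δ) :
    gmap w₀.1 δ * glBase v w₀.1 (gmap v g) = glBase v w₀.1 (gmap v g) * gmap w₀.1 δ := by
  rw [← gmap_gup, ← map_mul, hcomm, map_mul]

theorem nonSc_local {v : HeightOneSpectrum (𝓞 K)}
    (hns : NonSc (g : Matrix (Fin 2) (Fin 2) K)) :
    NonSc ((gmap v g : GL (Fin 2) (v.adicCompletion K)) :
      Matrix (Fin 2) (Fin 2) (v.adicCompletion K)) := by
  have hinj := (algebraMap K (v.adicCompletion K)).injective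
  rcases hns with h | h | h
  · exact Or.inl fun h0 => h (hinj (by rw [map_zero]; exact h0))
  · exact Or.inr (Or.inl fun h0 => h (hinj (by rw [map_zero]; exact h0)))
  · exact Or.inr (Or.inr fun h0 => h (hinj h0))

/-- **The correspondence of fixed points.** -/
theorem exists_push_unit (hG : Nat.card G = 3) (hτ : τ ≠ 1) {w₀ : Above L v}
    (hw : MulAction.stabilizer G w₀.1 = ⊤) (he : v.asIdeal.ramificationIdx' w₀.1.asIdeal = 1)
    (hL : U.U w₀.1 = GLO (Valued.v : Valuation (w₀.1.adicCompletion L) ℤᵐ⁰))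
    (hK : UK.U v = GLO (Valued.v : Valuation (v.adicCompletion K) ℤᵐ⁰))
    (hN : δ * gtau τ δ * gtau τ (gtau τ δ) = gup L g)
    (hcomm : δ * gup L g = gup L g * δ) (hns : NonSc (g : Matrix (Fin 2) (Fin 2) K)) :
    ∃ p : Lvl.Dv U w₀.1 → Lvl.Dv UK v,
      (∀ t : GL (Fin 2) (v.adicCompletion K), t * gmap v g = gmap v g * t →
        ∀ x, gmap w₀.1 δ • dvMap hU (smul_eq_of_top hw τ) x = x →
          p (glBase v w₀.1 t • x) = t • p x) ∧
      (∀ x, gmap w₀.1 δ • dvMap hU (smul_eq_of_top hw τ) x = x → gmap v g • p x = p x) ∧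
      (∀ x x', gmap w₀.1 δ • dvMap hU (smul_eq_of_top hw τ) x = x →
        gmap w₀.1 δ • dvMap hU (smul_eq_of_top hw τ) x' = x' → p x = p x' → x = x') ∧
      (∀ b, gmap v g • b = b →
        ∃ x, gmap w₀.1 δ • dvMap hU (smul_eq_of_top hw τ) x = x ∧ p x = b) ∧
      (gmap w₀.1 δ ∈ GLO (Valued.v : Valuation (w₀.1.adicCompletion L) ℤᵐ⁰) →
        (Valued.v (gmap v g 0 1) = 1 ∨ Valued.v (gmap v g 1 0) = 1 ∨
          Valued.v (gmap v g 0 0 - gmap v g 1 1) = 1) → p (base U w₀.1) = base UK v) := by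
  obtain ⟨V⟩ := unr_of_unramified (v := v) (w := w₀.1) hG hτ (smul_eq_of_top hw τ) he
  have hcomap : (w₀.1.adicCompletionIntegers L).comap (incl K w₀.1 v) =
    v.adicCompletionIntegers K := comap_integers
  obtain ⟨p, h1, h2, h3, h4, h5⟩ := V.exists_push
    (N' := U.U w₀.1 ⊔ Subgroup.center _) (N := UK.U v ⊔ Subgroup.center _)
    (fun x => mem_sup_center_iff_PU hL x)
    (fun x => by rw [hcomap]; exact mem_sup_center_iff_PU hK x)
    (tC := dvMap hU (smul_eq_of_top hw τ)) (fun x => rfl)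
    (nonSc_local hns) (comm_local w₀ hcomm)
    (norm_local (smul_eq_of_top hw τ) hN)
  refine ⟨p, h1, h2, h3, h4, fun hδ hm => h5 (by rw [gu_eq_GLO]; exact hδ) ?_⟩
  have key : ∀ x : v.adicCompletion K, Valued.v x = 1 →
      IsU (w₀.1.adicCompletionIntegers L) (incl K w₀.1 v x) ∧ incl K w₀.1 v x ≠ 0 := by
    intro x hx
    have h6 : Valued.v (incl K w₀.1 v x) = 1 := by rw [valued_incl_of_unramified he, hx]
    refine ⟨isU_iff_valued h6, fun h0 => ?_⟩
    rw [h0, map_zero] at h6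
    exact zero_ne_one h6
  rcases hm with hm | hm | hm
  · exact Or.inl (key _ hm)
  · exact Or.inr (Or.inl (key _ hm))
  · refine Or.inr (Or.inr ?_)
    have h7 := key _ hm
    rw [map_sub] at h7
    exact h7

/-- fibre sums of a bijection of fixed point sets -/
theorem fibSum_idK {A B : Type*} {p : A → B} {S : A → A} {T : B → B}
    (h2 : ∀ x, S x = x → T (p x) = p x) (h3 : ∀ x x', S x = x → S x' = x' → p x = p x' → x = x')
    (h4 : ∀ b, T b = b → ∃ x, S x = x ∧ p x = b) :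
    FibSum p (fun x => idK x (S x)) (fun e => idK e (T e)) where
  fin b := by
    refine Set.Subsingleton.finite fun a ha a' ha' => h3 a a' ?_ ?_ (ha.2.trans ha'.2.symm)
    · by_contra h
      exact ha.1 (if_neg fun h' => h h'.symm)
    · by_contra h
      exact ha'.1 (if_neg fun h' => h h'.symm)
  sum b := by
    by_cases hb : T b = b
    · obtain ⟨a, ha, rfl⟩ := h4 b hb
      rw [finsum_eq_single _ a, if_pos rfl]
      · unfold idK
        rw [if_pos ha.symm, if_pos hb.symm]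
      · intro a' ha'
        by_contra h
        by_cases h1 : p a' = p a
        · rw [if_pos h1] at h
          refine ha' (h3 a' a ?_ ha h1)
          by_contra h'
          exact h (if_neg fun h'' => h' h''.symm)
        · rw [if_neg h1] at h
          exact h rfl
    · have h0 : idK b (T b) = 0 := if_neg fun h' => hb h'.symm
      rw [h0]
      refine finsum_eq_zero_of_forall_eq_zero fun a => ?_
      by_contra h
      by_cases h1 : p a = b
      · rw [if_pos h1] at h
        have h5 : S a = a := by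
          by_contra h'
          exact h (if_neg fun h'' => h' h''.symm)
        exact hb (h1 ▸ h2 a h5)
      · rw [if_neg h1] at h
        exact h rfl

theorem eq_of_idK_ne_zero {A : Type*} {x y : A} (h : idK x y ≠ 0) : x = y := by
  by_contra h'
  exact h (if_neg h')

/-- **`LocPush` at a good place with one place above.** -/
theorem locPush_unit (hG : Nat.card G = 3) (hτ : τ ≠ 1) {w₀ : Above L v}
    (hw : MulAction.stabilizer G w₀.1 = ⊤) (he : v.asIdeal.ramificationIdx' w₀.1.asIdeal = 1)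
    (hL : U.U w₀.1 = GLO (Valued.v : Valuation (w₀.1.adicCompletion L) ℤᵐ⁰))
    (hK : UK.U v = GLO (Valued.v : Valuation (v.adicCompletion K) ℤᵐ⁰))
    (hN : δ * gtau τ δ * gtau τ (gtau τ δ) = gup L g)
    (hcomm : δ * gup L g = gup L g * δ) (hns : NonSc (g : Matrix (Fin 2) (Fin 2) K)) :
    LocPush hU UK τ v δ g idK idK := by
  obtain ⟨p, h1, h2, h3, h4, -⟩ := exists_push_unit hU UK hG hτ hw he hL hK hN hcomm hns
  exact ⟨_, isLocPush_of_local hU UK τ δ g hw (idK_nonSplit hw)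
    (fun t ht x hx => h1 t ht x (eq_of_idK_ne_zero hx).symm) (fibSum_idK h2 h3 h4)⟩

/-- **`LocPush₁` at a good place with one place above.** -/
theorem locPush₁_unit (hG : Nat.card G = 3) (hτ : τ ≠ 1) {w₀ : Above L v}
    (hw : MulAction.stabilizer G w₀.1 = ⊤) (he : v.asIdeal.ramificationIdx' w₀.1.asIdeal = 1)
    (hL : U.U w₀.1 = GLO (Valued.v : Valuation (w₀.1.adicCompletion L) ℤᵐ⁰))
    (hK : UK.U v = GLO (Valued.v : Valuation (v.adicCompletion K) ℤᵐ⁰))
    (hN : δ * gtau τ δ * gtau τ (gtau τ δ) = gup L g)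
    (hcomm : δ * gup L g = gup L g * δ) (hns : NonSc (g : Matrix (Fin 2) (Fin 2) K))
    (hδ : gmap w₀.1 δ ∈ GLO (Valued.v : Valuation (w₀.1.adicCompletion L) ℤᵐ⁰))
    (hm : Valued.v (gmap v g 0 1) = 1 ∨ Valued.v (gmap v g 1 0) = 1 ∨
      Valued.v (gmap v g 0 0 - gmap v g 1 1) = 1) :
    LocPush₁ hU UK τ v δ g idK idK := by
  obtain ⟨p, h1, h2, h3, h4, h5⟩ := exists_push_unit hU UK hG hτ hw he hL hK hN hcomm hns
  have hbase : gmap w₀.1 δ • dvMap hU (smul_eq_of_top hw τ) (base U w₀.1) = base U w₀.1 := by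
    have e1 : dvMap hU (smul_eq_of_top hw τ) (base U w₀.1) = base U w₀.1 :=
      dvMap_one hU (smul_eq_of_top hw τ)
    rw [e1, Cos.smul_mk, mul_one]
    exact Cos.mk_eq_one_iff.mpr ⟨1, _, by rw [hL]; exact hδ, by rw [map_one, one_mul]⟩
  exact ⟨_, isLocPush₁_of_local hU UK τ δ g hw (idK_nonSplit hw)
    (fun t ht x hx => h1 t ht x (eq_of_idK_ne_zero hx).symm) (fibSum_idK h2 h3 h4)
    (h5 hδ hm) (if_pos hbase.symm)
    (fun x hx hp => h3 x _ (eq_of_idK_ne_zero hx).symm hbase (by rw [hp, h5 hδ hm]))⟩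

end Unit

/-! ### With `Rep` and `GoodAt` -/

section Rep

variable {K L : Type*} [Field K] [Field L] [NumberField K] [NumberField L] [Algebra K L]
  [IsGaloisGroup (L ≃ₐ[K] L) K L]
  {U : Lev L} (hU : GStable (L ≃ₐ[K] L) U.U) (UK : Lev K) {τ : L ≃ₐ[K] L}
  {v : HeightOneSpectrum (𝓞 K)} {δ : GL (Fin 2) L} {g : GL (Fin 2) K}

omit [NumberField K] in
theorem nonSc_of_ell (hg : Ell (g : M2 K)) : NonSc (g : Matrix (Fin 2) (Fin 2) K) := by
  by_contra h
  simp only [NonSc, not_or, not_not, ne_eq] at h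
  obtain ⟨h01, h10, h00⟩ := h
  refine hg ((g : M2 K) 0 0) ?_
  rw [Matrix.trace_fin_two, Matrix.det_fin_two, h01, ← h00]
  ring

theorem Rep.locPush_unit (hr : Rep τ δ g) (hG : Nat.card (L ≃ₐ[K] L) = 3) (hτ : τ ≠ 1)
    {w₀ : Above L v} (hw : MulAction.stabilizer (L ≃ₐ[K] L) w₀.1 = ⊤)
    (he : v.asIdeal.ramificationIdx' w₀.1.asIdeal = 1)
    (hL : U.U w₀.1 = GLO (Valued.v : Valuation (w₀.1.adicCompletion L) ℤᵐ⁰))
    (hK : UK.U v = GLO (Valued.v : Valuation (v.adicCompletion K) ℤᵐ⁰)) :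
    LocPush hU UK τ v δ g idK idK :=
  B8.locPush_unit hU UK hG hτ hw he hL hK hr.norm hr.comm (nonSc_of_ell hr.ell)

theorem Rep.locPush₁_unit (hr : Rep τ δ g) (hG : Nat.card (L ≃ₐ[K] L) = 3) (hτ : τ ≠ 1)
    {w₀ : Above L v} (hw : MulAction.stabilizer (L ≃ₐ[K] L) w₀.1 = ⊤)
    {φ : ∀ v : HeightOneSpectrum (𝓞 K), DA U v → DA U v → ℂ}
    {f : ∀ v : HeightOneSpectrum (𝓞 K), Dv UK v → Dv UK v → ℂ}
    (hv : GoodAt U UK φ f δ g v) : LocPush₁ hU UK τ v δ g (φ v) (f v) := by
  rw [hv.kerL, hv.kerK]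
  exact B8.locPush₁_unit hU UK hG hτ hw (hv.unr w₀) (hv.levL w₀) hv.levK hr.norm hr.comm
    (nonSc_of_ell hr.ell) (hv.del w₀) hv.nsc

end Rep

end Fermat.Agent.LT.B8

end
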