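import Fermat.Agent.LT.RegTau
import Fermat.Agent.LT.Level.Dense
import Fermat.Agent.LT.B8.Global

/-!
# Regularity of the test functions, kernel form (S47A, block B6)

* `exists_posv_le` : the support of an invariant row finite kernel is bounded.
* `exists_pell_K`, `exists_pell_L` : only the classes with elliptic norm of non-zero trace contribute, if the
  exponent `n` at the place `u` is large.
-/

set_option autoImplicit false

open Matrix NumberField IsDedekindDomain WithZero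
open scoped WithZero Pointwise

noncomputable section

namespace Fermat.Agent.LT.Pos

open Fermat.Agent.LT Fermat.Agent.LT.Lvl Fermat.Agent.LT.Iwa Fermat.Agent.LT.H3 Fermat.Agent.LT.Ext
  Fermat.Agent.LT.Dict Fermat.Agent.LT.B8 Fermat.Agent.CFT.SUnits

section Ell

variable {F : Type*} [Field F]

theorem EllTr.pell {g : GL (Fin 2) F} (h : EllTr (g : Matrix (Fin 2) (Fin 2) F)) :
    PEll (pmk g) := pell_pmk.mpr ⟨h.2, h.1⟩

theorem c_ne_zero_of_pell {g : GL (Fin 2) F} (h : PEll (pmk g)) : g 1 0 ≠ 0 := by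
  rw [pell_pmk] at h
  exact EllTr.c_ne_zero ⟨h.2, h.1⟩

end Ell

section Bound

variable {F : Type*} [Field F] [NumberField F] {U : Lev F}

theorem posv_smulF (v : HeightOneSpectrum (𝓞 F)) (g : GL (Fin 2) F) (d d' : Dv U v) :
    posv U v (g • d) (g • d') = posv U v d d' := by
  rw [smulF_def, smulF_def]
  exact pos_smul (U.le v) _ _ _

/-- The support of an invariant kernel with a finite row is bounded (transitive action). -/
theorem exists_posv_le {X : Type*} [MulAction (GL (Fin 2) F) X] {b : X}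
    (hb : ∀ x : X, ∃ γ : GL (Fin 2) F, γ • b = x) {k : X → X → ℂ}
    (hinv : ∀ (g : GL (Fin 2) F) x y, k (g • x) (g • y) = k x y)
    (hfin : {y | k b y ≠ 0}.Finite) {ι : Type*} [Finite ι] (pl : ι → HeightOneSpectrum (𝓞 F))
    (p : ∀ i, X → Dv U (pl i)) (hp : ∀ i (g : GL (Fin 2) F) x, p i (g • x) = g • p i x) :
    ∃ C : ℤᵐ⁰, ∀ x y, k x y ≠ 0 → ∀ i, posv U (pl i) (p i x) (p i y) ≤ C := by
  obtain ⟨C, hC⟩ := (((Set.finite_univ (α := ι)).prod hfin).image
    (fun q : ι × X => posv U (pl q.1) (p q.1 b) (p q.1 q.2))).bddAbove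
  refine ⟨C, fun x y hxy i => ?_⟩
  obtain ⟨γ, rfl⟩ := hb x
  have h1 : k b (γ⁻¹ • y) ≠ 0 := by
    rwa [← hinv γ, smul_inv_smul]
  have h2 : posv U (pl i) (p i (γ • b)) (p i y) = posv U (pl i) (p i b) (p i (γ⁻¹ • y)) := by
    conv_lhs => rw [← smul_inv_smul γ y]
    rw [hp, hp, posv_smulF]
  rw [h2]
  exact hC ⟨(i, γ⁻¹ • y), ⟨Set.mem_univ _, h1⟩, rfl⟩

end Bound

section K

variable {F : Type*} [Field F] [NumberField F] {U : Lev F}

/-- Local supports are bounded, trivial almost everywhere. -/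
theorem exists_bound_K {f : ∀ v, Dv U v → Dv U v → ℂ} (hf : RProd.KAdm f)
    (hinv : ∀ (g : GL (Fin 2) F) v d d', f v (g • d) (g • d') = f v d d') :
    ∃ C : HeightOneSpectrum (𝓞 F) → ℤᵐ⁰, {v | C v ≠ 1}.Finite ∧
      ∀ v d d', f v d d' ≠ 0 → posv U v d d' ≤ C v := by
  classical
  have h : ∀ v, ∃ c : ℤᵐ⁰, (f v = (fun x y => if x = y then 1 else 0) → c = 1) ∧
      ∀ d d', f v d d' ≠ 0 → posv U v d d' ≤ c := by
    intro v
    by_cases hv : f v = fun x y => if x = y then 1 else 0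
    · refine ⟨1, fun _ => rfl, fun d d' hd => ?_⟩
      rw [hv] at hd
      by_cases hdd : d = d'
      · subst hdd
        rw [posv, pos_self (U.le v)]
      · simp [hdd] at hd
    · obtain ⟨C, hC⟩ := exists_posv_le (U := U) (X := Dv U v) (b := base U v)
        (fun x => by
          obtain ⟨γ, -, hγ⟩ := exists_smul_base U {v} (Function.update (base U) v x)
          refine ⟨γ, ?_⟩
          have := hγ v (Finset.mem_singleton_self v)
          rwa [Function.update_self] at this)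
        (k := f v) (fun g x y => hinv g v x y) (hf.row v (base U v)) (ι := Unit) (fun _ => v)
        (fun _ => id) (fun _ _ _ => rfl)
      exact ⟨C, fun h => absurd h hv, fun d d' hd => hC d d' hd ()⟩
  choose C hC1 hC2 using h
  refine ⟨C, hf.ind.subset fun v hv h => hv (hC1 v ?_), fun v => hC2 v⟩
  rw [h]
  funext x y
  congr

/-- **Regularity over `K`, kernel form.** -/
theorem exists_pell_K [IsTotallyComplex F] (u : HeightOneSpectrum (𝓞 F))
    (hIw : U.U u ≤ Iw (Valued.v : Valuation (u.adicCompletion F) ℤᵐ⁰))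
    {f : ∀ v, Dv U v → Dv U v → ℂ} (hf : RProd.KAdm f)
    (hinv : ∀ (g : GL (Fin 2) F) v d d', f v (g • d) (g • d') = f v d d') (R : ℝ) :
    ∃ n0 : ℕ, ∀ n ≥ n0, ∀ f' : ∀ v, Dv U v → Dv U v → ℂ, RProd.KAdm f' →
      (∀ v ≠ u, ∀ d d', f' v d d' ≠ 0 → f v d d' ≠ 0) →
      (∀ d d', f' u d d' ≠ 0 →
        RV (Valued.v : Valuation (u.adicCompletion F) ℤᵐ⁰) (exp (-(n : ℤ))) d d') →
      ∀ (γ : PG F) (x : Xi F) (d : D U), (∀ w, cu (x w) ((γ • x) w) ≤ R) →
        RProd.kprod f' d (γ • d) ≠ 0 → PEll γ := by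
  obtain ⟨C, hC, hC'⟩ := exists_bound_K hf hinv
  obtain ⟨n0, hn0⟩ := exists_regular_K u hIw C hC R
  refine ⟨n0, fun n hn f' hf' h1 h2 γ x d hx hd => ?_⟩
  obtain ⟨g, rfl⟩ := pmk_surjective γ
  rw [pmk_smul] at hd
  have hne := fun v => hf'.ne_zero hd v
  exact (hn0 n hn g x d hx (h2 _ _ (hne u)) fun v hv => hC' v _ _ (h1 v hv _ _ (hne v))).pell

end K

section L

variable {K L : Type*} [Field K] [Field L] [NumberField K] [NumberField L] [Algebra K L]
  {U : Lev L}

/-- Local supports are bounded, trivial almost everywhere. -/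
theorem exists_bound_L {φ : ∀ v : HeightOneSpectrum (𝓞 K), DA U v → DA U v → ℂ}
    (hφ : RProd.KAdm φ)
    (hinv : ∀ (g : GL (Fin 2) L) v d d', φ v (g • d) (g • d') = φ v d d') :
    ∃ C : HeightOneSpectrum (𝓞 L) → ℤᵐ⁰, {v | C v ≠ 1}.Finite ∧
      ∀ v d d', φ v d d' ≠ 0 → ∀ w : Above L v, posv U w.1 (d w) (d' w) ≤ C w.1 := by
  classical
  have h : ∀ v : HeightOneSpectrum (𝓞 K), ∃ c : ℤᵐ⁰,
      (φ v = (fun x y => if x = y then 1 else 0) → c = 1) ∧
      ∀ d d', φ v d d' ≠ 0 → ∀ w : Above L v, posv U w.1 (d w) (d' w) ≤ c := by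
    intro v
    by_cases hv : φ v = fun x y => if x = y then 1 else 0
    · refine ⟨1, fun _ => rfl, fun d d' hd w => ?_⟩
      rw [hv] at hd
      by_cases hdd : d = d'
      · subst hdd
        rw [posv, pos_self (U.le w.1)]
      · simp [hdd] at hd
    · obtain ⟨C, hC⟩ := exists_posv_le (U := U) (X := DA U v) (b := baseA U v)
        (fun x => by
          have := Fintype.ofFinite (Above L v)
          obtain ⟨γ, -, hγ⟩ := exists_smul_base U (Finset.univ.image fun w : Above L v => w.1)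
            (fun w => if h : w.asIdeal.LiesOver v.asIdeal then x ⟨w, h⟩ else base U w)
          refine ⟨γ, funext fun w => ?_⟩
          have := hγ w.1 (Finset.mem_image_of_mem _ (Finset.mem_univ w))
          rwa [dif_pos w.2] at this)
        (k := φ v) (fun g x y => hinv g v x y) (hφ.row v (baseA U v)) (ι := Above L v)
        (fun w => w.1) (fun w d => d w) (fun _ _ _ => rfl)
      exact ⟨C, fun h => absurd h hv, fun d d' hd => hC d d' hd⟩
  choose c hc1 hc2 using h
  refine ⟨fun w => c (under K w), ?_, fun v d d' hd w => ?_⟩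
  · have h2 : {v | c v ≠ 1}.Finite := hφ.ind.subset fun v hv h => hv (hc1 v (by
      rw [h]))
    have h3 : (⋃ v ∈ {v | c v ≠ 1}, Set.range fun w : Above L v => w.1).Finite :=
      h2.biUnion fun v _ => Set.finite_range _
    refine h3.subset fun w hw => ?_
    simp only [Set.mem_iUnion, Set.mem_range]
    exact ⟨under K w, hw, ⟨w, liesOver_under K w⟩, rfl⟩
  · have e : under K w.1 = v := (under_eq_iff K w.1 v).mpr w.2
    show _ ≤ c (under K w.1)
    rw [e]
    exact hc2 v d d' hd w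

omit [NumberField K] [NumberField L] in
theorem cyc3_pow_three {τ : L ≃ₐ[K] L} (hτ : Cyc3 τ) : τ ^ 3 = 1 :=
  AlgEquiv.ext fun x => hτ.cube x

theorem liesOver_smul [IsGaloisGroup (L ≃ₐ[K] L) K L] (σ : L ≃ₐ[K] L)
    (w : HeightOneSpectrum (𝓞 L)) : (σ • w).asIdeal.LiesOver (under K w).asIdeal :=
  (σ • (⟨w, liesOver_under K w⟩ : Above L (under K w))).2

/-- **Regularity over `L`, kernel form.** The kernel at the place of `K` below `u` is `I t^n I` at `u`, the
identity at the conjugates of `u`. -/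
theorem exists_pell_L [IsTotallyComplex L] [IsGaloisGroup (L ≃ₐ[K] L) K L] (hU : GStable (L ≃ₐ[K] L) U.U) {τ : L ≃ₐ[K] L}
    (hτ : Cyc3 τ) (u : HeightOneSpectrum (𝓞 L)) (hu : τ • u ≠ u)
    (hIw : ∀ w : Above L (under K u),
      U.U w.1 ≤ Iw (Valued.v : Valuation (w.1.adicCompletion L) ℤᵐ⁰))
    {φ : ∀ v : HeightOneSpectrum (𝓞 K), DA U v → DA U v → ℂ} (hφ : RProd.KAdm φ)
    (hinv : ∀ (g : GL (Fin 2) L) v d d', φ v (g • d) (g • d') = φ v d d') (R : ℝ) :
    ∃ n0 : ℕ, ∀ n ≥ n0, ∀ φ' : ∀ v : HeightOneSpectrum (𝓞 K), DA U v → DA U v → ℂ,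
      RProd.KAdm φ' →
      (∀ v ≠ under K u, ∀ d d', φ' v d d' ≠ 0 → φ v d d' ≠ 0) →
      (∀ d d', φ' (under K u) d d' ≠ 0 →
        RV (Valued.v : Valuation (u.adicCompletion L) ℤᵐ⁰) (exp (-(n : ℤ)))
          (d ⟨u, liesOver_under K u⟩) (d' ⟨u, liesOver_under K u⟩) ∧
        ∀ w : Above L (under K u), w.1 ≠ u → d' w = d w) →
      ∀ (δ : PG L) (x : Xi L) (d : D U),
        (∀ w, cu (x w) ((δ • Xi.tau (τ : L ≃+* L) x) w) ≤ R) →
        kerL φ' d (δ • tauD hU τ d) ≠ 0 →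
        PEll (pnm τ δ) ∧ ∀ g : GL (Fin 2) L, pmk g = δ → g 1 0 ≠ 0 := by
  obtain ⟨C, hC, hC'⟩ := exists_bound_L hφ hinv
  have hcu : ∀ σ : L ≃ₐ[K] L, (σ • u).asIdeal.LiesOver (under K u).asIdeal := fun σ =>
    liesOver_smul σ u
  have hC1 : {v | max 1 (C v) ≠ 1}.Finite := hC.subset fun v hv h => hv (by
    rw [show C v = 1 from h, max_self])
  obtain ⟨n0, hn0⟩ := exists_regular_L hU τ (cyc3_pow_three hτ) u hu
    (fun i => hIw ⟨τ ^ i • u, hcu _⟩) (fun v => max 1 (C v)) hC1 R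
  refine ⟨n0, fun n hn φ' hφ' h1 h2 δ x d hx hd => ?_⟩
  have h02 : τ • τ • u ≠ u := by
    intro h
    apply hu
    have h3 : τ • τ • τ • u = u := by
      rw [← mul_smul, ← mul_smul, show τ * τ * τ = 1 by
        rw [← cyc3_pow_three hτ, pow_succ, pow_two], one_smul]
    rw [h] at h3
    exact h3
  have key : ∀ g : GL (Fin 2) L, pmk g = δ → PEll (pnm τ δ) ∧ g 1 0 ≠ 0 := by
    rintro g rfl
    rw [pmk_smul] at hd
    have hne := fun v => hφ'.ne_zero hd v
    obtain ⟨hu1, hu2⟩ := h2 _ _ (hne (under K u))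
    have h := hn0 n hn g x d hx hu1 (hu2 ⟨τ • u, hcu _⟩ hu)
      (hu2 ⟨τ • τ • u, by rw [← mul_smul]; exact hcu _⟩ h02) ?_
    · refine ⟨?_, h.2⟩
      rw [pnm_pmk]
      exact h.1.pell
    · intro v hv0 hv1 hv2
      by_cases hv : under K v = under K u
      · have := hu2 ⟨v, (under_eq_iff K _ _).mp hv⟩ hv0
        have e : (g • tauD hU τ d) v = d v := this
        rw [e, posv, pos_self (U.le v)]
        exact le_max_left _ _
      · exact (hC' (under K v) _ _ (h1 _ hv _ _ (hne _)) ⟨v, liesOver_under K v⟩).trans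
          (le_max_right _ _)
  obtain ⟨g, hg⟩ := pmk_surjective δ
  exact ⟨(key g hg).1, fun g' hg' => (key g' hg').2⟩

end L

end Fermat.Agent.LT.Pos
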