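import Fermat.Agent.LT.TauXi
import Fermat.Agent.LT.H3.Pi

/-!
# `Xi L = (Xi K)³` for a cyclic cubic extension `L / K` of totally complex fields (helper18)
-/

set_option autoImplicit false

noncomputable section

open Complex MeasureTheory Matrix NumberField
open scoped ComplexConjugate MatrixGroups ENNReal

namespace Fermat.Agent.LT.Xi3

open H3

/-! ### currying preserves the product measure -/

theorem measurePreserving_curry_symm (ι κ X : Type*) [Fintype ι] [Fintype κ] [MeasureSpace X]
    [SigmaFinite (volume : Measure X)] :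
    MeasurePreserving (MeasurableEquiv.curry ι κ X).symm volume volume := by
  refine ⟨(MeasurableEquiv.curry ι κ X).symm.measurable, ?_⟩
  refine (Measure.pi_eq fun s hs => ?_).symm
  rw [MeasurableEquiv.map_apply]
  have h1 : (MeasurableEquiv.curry ι κ X).symm ⁻¹' Set.univ.pi s =
      Set.univ.pi fun i => Set.univ.pi fun j => s (i, j) := by
    ext x
    simp only [Set.mem_preimage, Set.mem_univ_pi, MeasurableEquiv.coe_curry_symm, Prod.forall]
    rfl
  rw [h1]
  change (Measure.pi fun _ : ι => (Measure.pi fun _ : κ => (volume : Measure X))) _ = _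
  rw [Measure.pi_pi]
  simp only [Measure.pi_pi]
  rw [Fintype.prod_prod_type]

theorem measurePreserving_curry (ι κ X : Type*) [Fintype ι] [Fintype κ] [MeasureSpace X]
    [SigmaFinite (volume : Measure X)] :
    MeasurePreserving (MeasurableEquiv.curry ι κ X) volume volume :=
  (measurePreserving_curry_symm ι κ X).symm

/-! ### the places of `L` -/

variable {K L : Type*} [Field K] [Field L] [NumberField K] [NumberField L] [Algebra K L]

/-- the group consists of the powers of `τ`. -/
theorem bijective_pow [IsGalois K L] (h3 : Module.finrank K L = 3) {τ : L ≃ₐ[K] L} (hτ : τ ≠ 1) :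
    Function.Bijective fun i : Fin 3 => τ ^ (i : ℕ) := by
  have hcard : Nat.card (L ≃ₐ[K] L) = 3 := by
    rw [IsGalois.card_aut_eq_finrank, h3]
  have hord : orderOf τ = 3 := by
    have h1 : orderOf τ ∣ 3 := hcard ▸ orderOf_dvd_natCard τ
    rcases (Nat.dvd_prime Nat.prime_three).mp h1 with h2 | h2
    · exact absurd (orderOf_eq_one_iff.mp h2) hτ
    · exact h2
  have hinj : Function.Injective fun i : Fin 3 => τ ^ (i : ℕ) := by
    intro i j h
    have h1 : (i : ℕ) = (j : ℕ) :=
      pow_injOn_Iio_orderOf (by simp [hord]) (by simp [hord]) h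
    exact Fin.ext h1
  rw [Fintype.bijective_iff_injective_and_card]
  refine ⟨hinj, ?_⟩
  rw [Fintype.card_fin, ← Nat.card_eq_fintype_card, hcard]

variable [IsGalois K L] [IsTotallyComplex K]

omit [NumberField K] [NumberField L] in
/-- the places of `L` in terms of the places of `K` and the Galois group. -/
theorem bijective_comap {s : InfinitePlace K → InfinitePlace L}
    (hs : Xi.IsAbove (algebraMap K L) s) :
    Function.Bijective fun p : (L ≃ₐ[K] L) × InfinitePlace K =>
      (s p.2).comap ((p.1 : L ≃+* L) : L →+* L) := by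
  constructor
  · rintro ⟨σ, v⟩ ⟨σ', v'⟩ h
    simp only at h
    have hrw : ∀ (σ : L ≃ₐ[K] L) (w : InfinitePlace L),
        (w.comap ((σ : L ≃+* L) : L →+* L)).comap (algebraMap K L) = w.comap (algebraMap K L) := by
      intro σ w
      rw [← InfinitePlace.comap_comp]
      congr 1
      ext a
      simp
    have hv : v = v' := by
      have h1 := congrArg (fun w => w.comap (algebraMap K L)) h
      simp only [hrw] at h1
      rwa [hs v, hs v'] at h1
    subst hv
    have hun : (s v).IsUnramified K :=
      InfinitePlace.isUnramified_iff.mpr (Or.inr (IsTotallyComplex.isComplex _))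
    have hst := InfinitePlace.isUnramified_iff_stabilizer_eq_bot.mp hun
    have h2 : σ⁻¹ • s v = σ'⁻¹ • s v := h
    have h3 : σ * σ'⁻¹ ∈ MulAction.stabilizer (L ≃ₐ[K] L) (s v) := by
      rw [MulAction.mem_stabilizer_iff, mul_smul, ← h2, smul_inv_smul]
    rw [hst, Subgroup.mem_bot, mul_inv_eq_one] at h3
    rw [h3]
  · intro w
    obtain ⟨σ, hσ⟩ := InfinitePlace.exists_smul_eq_of_comap_eq (k := K)
      (w := s (w.comap (algebraMap K L))) (w' := w) (hs _)
    exact ⟨(σ⁻¹, w.comap (algebraMap K L)), hσ⟩

variable (h3 : Module.finrank K L = 3) {τ : L ≃ₐ[K] L} (hτ : τ ≠ 1)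
  {s : InfinitePlace K → InfinitePlace L} (hs : Xi.IsAbove (algebraMap K L) s)

/-- the place `(i, v)` of `L`. -/
def pl (τ : L ≃ₐ[K] L) (s : InfinitePlace K → InfinitePlace L) (p : Fin 3 × InfinitePlace K) :
    InfinitePlace L :=
  (s p.2).comap (((τ ^ (p.1 : ℕ) : L ≃ₐ[K] L) : L ≃+* L) : L →+* L)

include h3 hτ hs in
theorem bijective_pl : Function.Bijective (pl τ s) :=
  (bijective_comap hs).comp (Function.Bijective.prodMap (bijective_pow h3 hτ) Function.bijective_id)

/-- the equivalence `Fin 3 × {places of K} ≃ {places of L}`. -/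
def plEquiv : Fin 3 × InfinitePlace K ≃ InfinitePlace L :=
  Equiv.ofBijective (pl τ s) (bijective_pl h3 hτ hs)

/-! ### the value at an embedding -/

section At

variable {E E' : Type*} [Field E] [Field E']

/-- the value of `x : Xi E` at an arbitrary complex embedding. -/
def at' (x : Xi E) (φ : E →+* ℂ) : H3 :=
  cmp φ (InfinitePlace.mk φ).embedding (x (InfinitePlace.mk φ))

theorem at'_of_mk {x : Xi E} {φ : E →+* ℂ} {w : InfinitePlace E} (h : InfinitePlace.mk φ = w) :
    at' x φ = cmp φ w.embedding (x w) := by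
  subst h
  rfl

theorem at'_embedding (x : Xi E) (w : InfinitePlace E) : at' x w.embedding = x w := by
  rw [at'_of_mk (InfinitePlace.mk_embedding w), cmp_self]

theorem at'_smul (g : GL (Fin 2) E) (x : Xi E) (φ : E →+* ℂ) :
    at' (g • x) φ = GeneralLinearGroup.map (n := Fin 2) φ g • at' x φ := by
  unfold at'
  rw [Xi.smul_apply, cmp_smul (by rw [InfinitePlace.mk_embedding])]

theorem cu_at' (x x' : Xi E) (φ : E →+* ℂ) : cu (at' x φ) (at' x' φ) =
    cu (x (InfinitePlace.mk φ)) (x' (InfinitePlace.mk φ)) := cu_cmp _ _ _ _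

theorem y_at' (x : Xi E) (φ : E →+* ℂ) : (at' x φ).y = (x (InfinitePlace.mk φ)).y := y_cmp _ _ _

theorem at'_res [IsTotallyComplex E] (f : E →+* E') (x : Xi E) (φ : E' →+* ℂ) :
    at' (Xi.res f x) φ = at' x (φ.comp f) := by
  have h1 : InfinitePlace.mk (φ.comp f) = (InfinitePlace.mk φ).comap f :=
    (InfinitePlace.comap_mk φ f).symm
  rw [at'_of_mk h1]
  unfold at'
  rw [Xi.res_apply, Xi.cmp_eq_cmp_comp f (by rw [InfinitePlace.mk_embedding])
    (IsTotallyComplex.isComplex _), cmp_cmp]
  · rw [← InfinitePlace.comap_mk, ← InfinitePlace.comap_mk, InfinitePlace.mk_embedding]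
  · rw [← InfinitePlace.comap_mk, InfinitePlace.mk_embedding, InfinitePlace.mk_embedding]

theorem at'_tau [IsTotallyComplex E] (σ : E ≃+* E) (x : Xi E) (φ : E →+* ℂ) :
    at' (Xi.tau σ x) φ = at' x (φ.comp (σ : E →+* E)) := at'_res _ x φ

end At

/-! ### the distinguished embeddings of `L` -/

open scoped Classical in
/-- the embedding of `L` at the place `s v` which extends the distinguished embedding of `v`. -/
def psi (s : InfinitePlace K → InfinitePlace L) (v : InfinitePlace K) : L →+* ℂ :=
  if (s v).embedding.comp (algebraMap K L) = v.embedding then (s v).embedding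
  else ComplexEmbedding.conjugate (s v).embedding

omit [NumberField K] [NumberField L] [IsGalois K L] [IsTotallyComplex K] in
theorem mk_psi (s : InfinitePlace K → InfinitePlace L) (v : InfinitePlace K) :
    InfinitePlace.mk (psi s v) = s v := by
  unfold psi
  split_ifs
  · exact InfinitePlace.mk_embedding _
  · rw [InfinitePlace.mk_conjugate_eq, InfinitePlace.mk_embedding]

omit [NumberField K] [NumberField L] [IsGalois K L] [IsTotallyComplex K] in
include hs in
theorem psi_comp (v : InfinitePlace K) : (psi s v).comp (algebraMap K L) = v.embedding := by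
  unfold psi
  split_ifs with h
  · exact h
  · have h1 := Xi.mk_embedding_eq hs v
    rcases InfinitePlace.mk_eq_iff.mp h1 with h2 | h2
    · exact absurd h2.symm h
    · have h3 : ComplexEmbedding.conjugate ((s v).embedding.comp (algebraMap K L)) =
          v.embedding := by
        rw [← h2]
        exact ComplexEmbedding.involutive_conjugate K v.embedding
      exact h3

omit [NumberField K] [NumberField L] [IsGalois K L] in
include hs in
/-- the projection is the value at the distinguished embeddings. -/
theorem pr_eq_at' (x : Xi L) (v : InfinitePlace K) :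
    Xi.pr (algebraMap K L) s x v = at' x (psi s v) := by
  rw [at'_of_mk (mk_psi s v), Xi.pr_apply, Xi.cmp_eq_cmp_comp (algebraMap K L)
    (by rw [mk_psi, InfinitePlace.mk_embedding]) (IsTotallyComplex.isComplex _), psi_comp hs]

/-! ### coordinates -/

/-- the embedding of `L` with index `(i, v)`. -/
def em (τ : L ≃ₐ[K] L) (s : InfinitePlace K → InfinitePlace L) (i : Fin 3) (v : InfinitePlace K) :
    L →+* ℂ :=
  (psi s v).comp (((τ ^ (i : ℕ) : L ≃ₐ[K] L) : L ≃+* L) : L →+* L)

omit [NumberField K] [NumberField L] [IsGalois K L] [IsTotallyComplex K] in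
theorem mk_em (τ : L ≃ₐ[K] L) (s : InfinitePlace K → InfinitePlace L) (i : Fin 3)
    (v : InfinitePlace K) : InfinitePlace.mk (em τ s i v) = pl τ s (i, v) := by
  rw [em, ← InfinitePlace.comap_mk, mk_psi]
  rfl

/-- the coordinates of a point of `Xi L`. -/
def co (τ : L ≃ₐ[K] L) (s : InfinitePlace K → InfinitePlace L) (x : Xi L) : Fin 3 → Xi K :=
  fun i v => at' x (em τ s i v)

omit [NumberField K] [NumberField L] [IsGalois K L] in
include hs in
theorem co_zero (x : Xi L) : co τ s x 0 = Xi.pr (algebraMap K L) s x := by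
  funext v
  rw [pr_eq_at' hs]
  have : em τ s 0 v = psi s v := by
    ext a
    simp [em]
  rw [co, this]

omit [NumberField K] [NumberField L] [IsGalois K L] [IsTotallyComplex K] in
theorem em_comp (hs : Xi.IsAbove (algebraMap K L) s) (i : Fin 3) (v : InfinitePlace K) :
    (em τ s i v).comp (algebraMap K L) = v.embedding := by
  rw [← psi_comp hs v]
  ext a
  change psi s v ((τ ^ (i : ℕ)) (algebraMap K L a)) = psi s v (algebraMap K L a)
  rw [AlgEquiv.commutes]

omit [NumberField K] [NumberField L] [IsGalois K L] [IsTotallyComplex K] in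
theorem co_smul (g : GL (Fin 2) L) (x : Xi L) (i : Fin 3) (v : InfinitePlace K) :
    co τ s (g • x) i v = GeneralLinearGroup.map (n := Fin 2) (em τ s i v) g • co τ s x i v :=
  at'_smul _ _ _

omit [NumberField K] [NumberField L] [IsGalois K L] [IsTotallyComplex K] in
/-- equivariance for `GL₂(K)`. -/
theorem co_map_smul (hs : Xi.IsAbove (algebraMap K L) s) (g : GL (Fin 2) K) (x : Xi L)
    (i : Fin 3) :
    co τ s (GeneralLinearGroup.map (n := Fin 2) (algebraMap K L) g • x) i = g • co τ s x i := by
  funext v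
  rw [co_smul, Xi.smul_apply]
  have h1 : GeneralLinearGroup.map (n := Fin 2) (em τ s i v)
      (GeneralLinearGroup.map (n := Fin 2) (algebraMap K L) g) =
        GeneralLinearGroup.map (n := Fin 2) v.embedding g := by
    rw [← em_comp (τ := τ) hs i v]
    rfl
  rw [h1]

omit [IsTotallyComplex K] in
include h3 in
theorem pow_three : τ ^ 3 = 1 := by
  have hcard : Nat.card (L ≃ₐ[K] L) = 3 := by
    rw [IsGalois.card_aut_eq_finrank, h3]
  rw [← hcard, pow_card_eq_one']

omit [IsTotallyComplex K] in
include h3 in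
theorem pow_add_one (i : Fin 3) : τ ^ ((i + 1 : Fin 3) : ℕ) = τ ^ (i : ℕ) * τ := by
  rw [← pow_succ]
  fin_cases i
  · rfl
  · rfl
  · exact (pow_three h3).symm

omit [IsTotallyComplex K] in
include h3 in
theorem co_tau [IsTotallyComplex L] (x : Xi L) (i : Fin 3) :
    co τ s (Xi.tau (τ : L ≃+* L) x) i = co τ s x (i + 1) := by
  funext v
  have h1 : (em τ s i v).comp (((τ : L ≃+* L)) : L →+* L) = em τ s (i + 1) v := by
    ext a
    simp only [em, RingHom.comp_apply]
    rw [pow_add_one h3]
    rfl
  unfold co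
  rw [at'_tau, h1]

omit [IsTotallyComplex K] in
include h3 in
theorem co_smul_tau [IsTotallyComplex L] (g : GL (Fin 2) L) (x : Xi L) (i : Fin 3)
    (v : InfinitePlace K) :
    co τ s (g • Xi.tau (τ : L ≃+* L) x) i v =
      GeneralLinearGroup.map (n := Fin 2) (em τ s i v) g • co τ s x (i + 1) v := by
  rw [co_smul, co_tau h3]

/-- the three elements `δ_i` of `∏_v GL₂(ℂ)` attached to `δ ∈ GL₂(L)`. -/
def dl (τ : L ≃ₐ[K] L) (s : InfinitePlace K → InfinitePlace L) (g : GL (Fin 2) L) (i : Fin 3) :
    InfinitePlace K → GL (Fin 2) ℂ :=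
  fun v => GeneralLinearGroup.map (n := Fin 2) (em τ s i v) g

omit [NumberField K] [NumberField L] [IsGalois K L] [IsTotallyComplex K] in
/-- the product of the `δ_i` is the image of the norm. -/
theorem dl_mul (hs : Xi.IsAbove (algebraMap K L) s) {g : GL (Fin 2) L} {γ : GL (Fin 2) K}
    (h : g * GeneralLinearGroup.map (n := Fin 2) ((τ : L ≃+* L) : L →+* L) g *
      GeneralLinearGroup.map (n := Fin 2) ((τ : L ≃+* L) : L →+* L)
        (GeneralLinearGroup.map (n := Fin 2) ((τ : L ≃+* L) : L →+* L) g) =
      GeneralLinearGroup.map (n := Fin 2) (algebraMap K L) γ) (v : InfinitePlace K) :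
    dl τ s g 0 v * dl τ s g 1 v * dl τ s g 2 v =
      GeneralLinearGroup.map (n := Fin 2) v.embedding γ := by
  have h1 := congrArg (GeneralLinearGroup.map (n := Fin 2) (psi s v)) h
  rw [map_mul, map_mul] at h1
  have h2 : GeneralLinearGroup.map (n := Fin 2) (psi s v)
      (GeneralLinearGroup.map (n := Fin 2) (algebraMap K L) γ) =
        GeneralLinearGroup.map (n := Fin 2) v.embedding γ := by
    rw [← psi_comp hs v]
    rfl
  rw [← h2, ← h1]
  congr 2

/-! ### kernels -/

include h3 hτ hs in
/-- a product over the places of `L` as a product over `Fin 3 × {places of K}`. -/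
theorem prod_places {M : Type*} [CommMonoid M] (f : InfinitePlace L → M) :
    ∏ w, f w = ∏ i : Fin 3, ∏ v : InfinitePlace K, f (pl τ s (i, v)) := by
  rw [← Fintype.prod_prod_type', ← (plEquiv h3 hτ hs).prod_comp f]
  rfl

include h3 hτ hs in
/-- product kernels in coordinates. -/
theorem pk_eq (k : InfinitePlace L → ℝ → ℂ) (x x' : Xi L) :
    pk k x x' = ∏ i : Fin 3, pk (fun v => k (pl τ s (i, v))) (co τ s x i) (co τ s x' i) := by
  unfold pk
  rw [prod_places h3 hτ hs]
  refine Finset.prod_congr rfl fun i _ => Finset.prod_congr rfl fun v _ => ?_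
  rw [co, co, cu_at', mk_em]

/-! ### measure -/

/-- `cmp` as a measurable equivalence. -/
def cmpEquiv {E : Type*} [Field E] (φ ψ : E →+* ℂ) : H3 ≃ᵐ H3 where
  toFun := H3.cmp φ ψ
  invFun := H3.cmp φ ψ
  left_inv P := by
    unfold H3.cmp
    split_ifs
    · rfl
    · exact cj_cj P
  right_inv P := by
    unfold H3.cmp
    split_ifs
    · rfl
    · exact cj_cj P
  measurable_toFun := (continuous_cmp φ ψ).measurable
  measurable_invFun := (continuous_cmp φ ψ).measurable

/-- **`Xi L ≃ᵐ (Xi K)³`**. -/
def coEquiv : Xi L ≃ᵐ (Fin 3 → Xi K) :=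
  ((MeasurableEquiv.piCongrLeft (fun _ : InfinitePlace L => H3) (plEquiv h3 hτ hs)).symm.trans
    (MeasurableEquiv.piCongrRight fun p : Fin 3 × InfinitePlace K =>
      cmpEquiv (em τ s p.1 p.2) (pl τ s p).embedding)).trans
    (MeasurableEquiv.curry (Fin 3) (InfinitePlace K) H3)

theorem coEquiv_apply (x : Xi L) : coEquiv h3 hτ hs x = co τ s x := by
  funext i v
  change H3.cmp (em τ s i v) (pl τ s (i, v)).embedding
    ((MeasurableEquiv.piCongrLeft (fun _ : InfinitePlace L => H3) (plEquiv h3 hτ hs)).symm x
      (i, v)) = _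
  rw [co, at'_of_mk (mk_em τ s i v)]
  rfl

theorem measurePreserving_coEquiv :
    MeasurePreserving (coEquiv h3 hτ hs) (volume : Measure (Xi L)) volume := by
  have h1 : MeasurePreserving
      (MeasurableEquiv.piCongrLeft (fun _ : InfinitePlace L => H3) (plEquiv h3 hτ hs)).symm
      (volume : Measure (InfinitePlace L → H3)) volume :=
    (volume_measurePreserving_piCongrLeft (fun _ : InfinitePlace L => H3)
      (plEquiv h3 hτ hs)).symm
  have h2 : MeasurePreserving (MeasurableEquiv.piCongrRight fun p : Fin 3 × InfinitePlace K =>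
      cmpEquiv (em τ s p.1 p.2) (pl τ s p).embedding) volume volume :=
    volume_preserving_pi (ι := Fin 3 × InfinitePlace K) (α' := fun _ => H3) (β' := fun _ => H3)
      (f := fun p => H3.cmp (em τ s p.1 p.2) (pl τ s p).embedding)
      fun p => measurePreserving_cmp _ _
  exact ((measurePreserving_curry (Fin 3) (InfinitePlace K) H3).comp h2).comp h1

include h3 hτ hs in
theorem measurePreserving_co :
    MeasurePreserving (co τ s : Xi L → Fin 3 → Xi K) volume volume := by
  have h : (co τ s : Xi L → Fin 3 → Xi K) = coEquiv h3 hτ hs :=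
    funext fun x => (coEquiv_apply h3 hτ hs x).symm
  rw [h]
  exact measurePreserving_coEquiv h3 hτ hs

end Fermat.Agent.LT.Xi3
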