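import Fermat.Agent.LT.TauD
import Fermat.Agent.LT.Level.Change

/-!
# The level of `K` under a Galois stable level of `L`

* `valued_ext_le`, `mem_Kn_glExt_iff`, `comap_Kn` : principal congruence subgroups;
* `gstable_replace`, `gstable_cong` : Galois stable levels;
* `levDown hU : Lev K`, `levDown_U : (levDown hU).U v = (U.U w).comap (glBase v w)` for every
  `w ∣ v`, `baseLevel_levDown`;
* `upD : D (levDown hU) → D U`.
-/

set_option autoImplicit false

noncomputable section

open IsDedekindDomain NumberField Matrix WithZero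
open scoped WithZero Topology Pointwise

namespace Fermat.Agent.LT.Ext

open Fermat.Agent.LT.Lvl

/-! ### Congruence subgroups and maps -/

section Isometry

variable {E E' : Type*} [Field E] [Field E'] {w : Valuation E ℤᵐ⁰} {w' : Valuation E' ℤᵐ⁰}
  (f : E →+* E') {e : ℕ}

theorem val_le_one_iff_of_pow (he : e ≠ 0) (hf : ∀ x, w' (f x) = w x ^ e) (x : E) :
    w' (f x) ≤ 1 ↔ w x ≤ 1 := by
  rw [hf, pow_le_one_iff he]

theorem val_lt_one_iff_of_pow (he : e ≠ 0) (hf : ∀ x, w' (f x) = w x ^ e) (x : E) :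
    w' (f x) < 1 ↔ w x < 1 := by
  rw [hf, pow_lt_one_iff he]

theorem bd_map_iff (he : e ≠ 0) (hf : ∀ x, w' (f x) = w x ^ e)
    (A : Matrix (Fin 2) (Fin 2) E) (γ : ℤᵐ⁰) : Bd w' (A.map f) (γ ^ e) ↔ Bd w A γ := by
  refine forall₂_congr fun i j => ?_
  rw [Matrix.map_apply, hf]
  exact pow_le_pow_iff_left₀ zero_le zero_le he

theorem coe_map_sub_one (g : GL (Fin 2) E) :
    ((GeneralLinearGroup.map f g).1 - 1 : Matrix (Fin 2) (Fin 2) E') = (g.1 - 1).map f := by
  have h1 : (GeneralLinearGroup.map f g).1 = f.mapMatrix g.1 := rfl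
  have h2 : (g.1 - 1).map f = f.mapMatrix (g.1 - 1) := rfl
  rw [h1, h2, map_sub, map_one]

theorem mem_Kn_map_iff (he : e ≠ 0) (hf : ∀ x, w' (f x) = w x ^ e) (γ : ℤᵐ⁰)
    (g : GL (Fin 2) E) : GeneralLinearGroup.map f g ∈ Kn w' (γ ^ e) ↔ g ∈ Kn w γ := by
  rw [mem_Kn, mem_Kn, mem_GLO_map_iff f (val_le_one_iff_of_pow f he hf), coe_map_sub_one,
    bd_map_iff f he hf]

end Isometry

section Stable

variable {L : Type*} [Field L] [NumberField L] {G : Type*} [Group G] [MulSemiringAction G L]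

theorem valued_ext_smul {g : G} {w w' : HeightOneSpectrum (𝓞 L)} (h : g • w = w')
    (x : w.adicCompletion L) : vF w' ((compat_of_smul_eq (L := L) h).ext x) = vF w x ^ 1 :=
  (compat_of_smul_eq (L := L) h).valued_ext x

theorem mem_Kn_glExt_iff {g : G} {w w' : HeightOneSpectrum (𝓞 L)} (h : g • w = w') (γ : ℤᵐ⁰)
    (x : GL (Fin 2) (w.adicCompletion L)) :
    glExt h x ∈ Kn (vF w') γ ↔ x ∈ Kn (vF w) γ := by
  have := mem_Kn_map_iff (compat_of_smul_eq (L := L) h).ext one_ne_zero (valued_ext_smul h) γ x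
  rwa [pow_one] at this

open Classical in
/-- A Galois stable level changed at a Galois stable finite set of places. -/
theorem gstable_replace {U : Lev L} (hU : GStable G U.U) {S : Finset (HeightOneSpectrum (𝓞 L))}
    {V : ∀ w : HeightOneSpectrum (𝓞 L), Subgroup (GL (Fin 2) (w.adicCompletion L))}
    {hV : ∀ w ∈ S, V w ≤ GLO (vF w)}
    {hV' : ∀ w ∈ S, ∃ n : ℕ, ∀ g : GL (Fin 2) (w.adicCompletion L),
      Bd (vF w) (g.1 - 1) (exp (-(n : ℤ))) → g ∈ V w}
    (hS : ∀ (g : G) w, w ∈ S → g • w ∈ S)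
    (hVS : ∀ (g : G) (w w' : HeightOneSpectrum (𝓞 L)) (h : g • w = w'), w ∈ S →
      ∀ x ∈ V w, glExt h x ∈ V w') :
    GStable G (U.replace S V hV hV').U := by
  intro g w w' h x hx
  have hS' : w ∈ S ↔ w' ∈ S := by
    refine ⟨fun hw => h ▸ hS g w hw, fun hw => ?_⟩
    have := hS g⁻¹ w' hw
    rwa [← h, inv_smul_smul] at this
  by_cases hw : w ∈ S
  · rw [Lev.replace_mem hw] at hx
    rw [Lev.replace_mem (hS'.mp hw)]
    exact hVS g w w' h hw x hx
  · rw [Lev.replace_notMem hw] at hx
    rw [Lev.replace_notMem fun h' => hw (hS'.mpr h')]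
    exact hU g w w' h hx

theorem gstable_full : GStable G (Lev.full L).U := gstable_GLO

theorem gstable_cong {S : Finset (HeightOneSpectrum (𝓞 L))} (n : ℕ)
    (hS : ∀ (g : G) w, w ∈ S → g • w ∈ S) : GStable G (Lev.cong S n).U :=
  gstable_replace gstable_full hS fun _ _ _ h _ _ hx => (mem_Kn_glExt_iff h _ _).mpr hx

end Stable

/-! ### The level of `K` -/

section Down

variable {K L : Type*} [Field K] [Field L] [NumberField K] [NumberField L] [Algebra K L]

/-- the ramification index of `w` over `v` -/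
abbrev ramE (v : HeightOneSpectrum (𝓞 K)) (w : HeightOneSpectrum (𝓞 L)) : ℕ :=
  v.asIdeal.ramificationIdx' w.asIdeal

theorem ramE_ne_zero (v : HeightOneSpectrum (𝓞 K)) (w : HeightOneSpectrum (𝓞 L))
    [w.asIdeal.LiesOver v.asIdeal] : ramE v w ≠ 0 :=
  (compat_liesOver (K := K) (L := L) v w).ne

theorem valued_ext_liesOver (v : HeightOneSpectrum (𝓞 K)) (w : HeightOneSpectrum (𝓞 L))
    [w.asIdeal.LiesOver v.asIdeal] (x : v.adicCompletion K) :
    vF w ((compat_liesOver (K := K) (L := L) v w).ext x) = vF v x ^ ramE v w :=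
  (compat_liesOver (K := K) (L := L) v w).valued_ext x

/-- **Principal congruence subgroups.** -/
theorem mem_Kn_glBase_iff (v : HeightOneSpectrum (𝓞 K)) (w : HeightOneSpectrum (𝓞 L))
    [w.asIdeal.LiesOver v.asIdeal] (γ : ℤᵐ⁰) (x : GL (Fin 2) (v.adicCompletion K)) :
    glBase v w x ∈ Kn (vF w) (γ ^ ramE v w) ↔ x ∈ Kn (vF v) γ :=
  mem_Kn_map_iff _ (ramE_ne_zero v w) (valued_ext_liesOver v w) γ x

theorem comap_Kn (v : HeightOneSpectrum (𝓞 K)) (w : HeightOneSpectrum (𝓞 L))
    [w.asIdeal.LiesOver v.asIdeal] (γ : ℤᵐ⁰) :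
    (Kn (vF w) (γ ^ ramE v w)).comap (glBase v w) = Kn (vF v) γ := by
  ext x
  exact mem_Kn_glBase_iff v w γ x

theorem comap_Kn_exp (v : HeightOneSpectrum (𝓞 K)) (w : HeightOneSpectrum (𝓞 L))
    [w.asIdeal.LiesOver v.asIdeal] (n : ℕ) :
    (Kn (vF w) (exp (-((ramE v w * n : ℕ) : ℤ)))).comap (glBase v w) =
      Kn (vF v) (exp (-(n : ℤ))) := by
  have h : (exp (-((ramE v w * n : ℕ) : ℤ)) : ℤᵐ⁰) = exp (-(n : ℤ)) ^ ramE v w := by
    rw [← WithZero.exp_nsmul, nsmul_eq_mul]
    congr 1
    push_cast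
    ring
  rw [h, comap_Kn]

theorem comap_GLO (v : HeightOneSpectrum (𝓞 K)) (w : HeightOneSpectrum (𝓞 L))
    [w.asIdeal.LiesOver v.asIdeal] : (GLO (vF w)).comap (glBase v w) = GLO (vF v) := by
  ext x
  exact mem_GLO_glBase_iff v w x

theorem map_scalar_eq {E E' : Type*} [Field E] [Field E'] (f : E →+* E') (z : Eˣ) :
    GeneralLinearGroup.map f (GeneralLinearGroup.scalar (Fin 2) z) =
      GeneralLinearGroup.scalar (Fin 2) (Units.map (f : E →* E') z) := by
  apply Units.ext
  ext i j
  have h1 : (GeneralLinearGroup.map f (GeneralLinearGroup.scalar (Fin 2) z)).1 i j =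
      f ((GeneralLinearGroup.scalar (Fin 2) z).1 i j) := rfl
  rw [h1, GeneralLinearGroup.coe_scalar, GeneralLinearGroup.coe_scalar]
  fin_cases i <;> fin_cases j <;> simp

/-- Principal congruence subgroups modulo scalars. -/
theorem comap_Kn_sup_center (v : HeightOneSpectrum (𝓞 K)) (w : HeightOneSpectrum (𝓞 L))
    [w.asIdeal.LiesOver v.asIdeal] {γ : ℤᵐ⁰} (hγ : γ < 1) :
    (Kn (vF w) γ ⊔ Subgroup.center _).comap (glBase v w) =
      (Kn (vF w) γ).comap (glBase v w) ⊔ Subgroup.center _ := by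
  set f := (compat_liesOver (K := K) (L := L) v w).ext with hf
  refine le_antisymm (fun g hg => ?_) (sup_le (Subgroup.comap_mono le_sup_left) fun g hg => ?_)
  · rw [Subgroup.mem_comap, mem_sup_center] at hg
    obtain ⟨z, k, hk, hgk⟩ := hg
    have hk1 : vF w (k.1 0 0 - 1) ≤ γ := by
      have := hk.2 0 0
      rwa [Matrix.sub_apply, Matrix.one_apply_eq] at this
    have hk0 : vF w (k.1 0 0) = 1 := by
      have h2 := Valuation.map_one_add_of_lt (v := vF w) (hk1.trans_lt hγ)
      rwa [add_sub_cancel] at h2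
    have hent : ∀ i j, f (g.1 i j) = z.1 * k.1 i j := by
      intro i j
      have h1 : (glBase v w g).1 i j = f (g.1 i j) := rfl
      rw [← h1, hgk, Units.val_mul, GeneralLinearGroup.coe_scalar,
        Matrix.scalar_apply, Matrix.diagonal_mul]
    have hk00 : k.1 0 0 ≠ 0 := by
      intro h0
      rw [h0, map_zero] at hk0
      exact zero_ne_one hk0
    have hg0 : g.1 0 0 ≠ 0 := by
      intro h0
      have := hent 0 0
      rw [h0, map_zero] at this
      exact mul_ne_zero z.ne_zero hk00 this.symm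
    rw [mem_sup_center]
    refine ⟨Units.mk0 _ hg0, (GeneralLinearGroup.scalar (Fin 2) (Units.mk0 _ hg0))⁻¹ * g, ?_,
      (mul_inv_cancel_left _ _).symm⟩
    rw [Subgroup.mem_comap]
    refine mem_Kn_of_bd hγ fun i j => ?_
    have e1 : (glBase v w ((GeneralLinearGroup.scalar (Fin 2) (Units.mk0 _ hg0))⁻¹ * g)).1 i j =
        (k.1 0 0)⁻¹ * k.1 i j := by
      have h1 : (glBase v w ((GeneralLinearGroup.scalar (Fin 2) (Units.mk0 _ hg0))⁻¹ * g)).1 i j =
          f (((GeneralLinearGroup.scalar (Fin 2) (Units.mk0 _ hg0))⁻¹ * g).1 i j) := rfl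
      rw [h1, ← map_inv, Units.val_mul, GeneralLinearGroup.coe_scalar, Matrix.scalar_apply,
        Matrix.diagonal_mul, map_mul, hent, Units.val_inv_eq_inv_val, Units.val_mk0, map_inv₀,
        hent]
      field_simp
    have e2 : ((glBase v w ((GeneralLinearGroup.scalar (Fin 2) (Units.mk0 _ hg0))⁻¹ * g)).1 - 1)
        i j = (k.1 0 0)⁻¹ * ((k.1 - 1) i j - (k.1 0 0 - 1) * (1 : Matrix (Fin 2) (Fin 2) _) i j)
        := by
      rw [Matrix.sub_apply, e1, Matrix.sub_apply]
      field_simp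
      ring
    rw [e2, map_mul, map_inv₀, hk0, inv_one, one_mul]
    refine (Valuation.map_sub _ _ _).trans (max_le (hk.2 i j) ?_)
    have h3 : vF w ((1 : Matrix (Fin 2) (Fin 2) (w.adicCompletion L)) i j) ≤ 1 := by
      by_cases hij : i = j
      · rw [hij, Matrix.one_apply_eq, map_one]
      · rw [Matrix.one_apply_ne hij, map_zero]
        exact zero_le_one
    rw [map_mul]
    exact (mul_le_mul' hk1 h3).trans_eq (mul_one _)
  · rw [GeneralLinearGroup.center_eq_range_scalar] at hg
    obtain ⟨z, rfl⟩ := hg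
    rw [Subgroup.mem_comap]
    refine Subgroup.mem_sup_right ?_
    rw [glBase, map_scalar_eq, GeneralLinearGroup.center_eq_range_scalar]
    exact ⟨_, rfl⟩

variable {G : Type*} [Group G] [Finite G] [MulSemiringAction G L] [IsGaloisGroup G K L]
  {U : Lev L} (hU : GStable G U.U)

open Fermat.Agent.CFT.SUnits

variable (K U) in
/-- **The level of `K` under a level of `L`.** -/
def levDown : Lev K where
  U v := (U.U (nonempty_above (L := L) (v := v)).some.1).comap
    (glBase v (nonempty_above (L := L) (v := v)).some.1)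
  le v x hx := (mem_GLO_glBase_iff v _ x).mp (U.le _ hx)
  isOpen v := by
    set w := (nonempty_above (L := L) (v := v)).some
    obtain ⟨n, hn⟩ := U.isOpen w.1
    refine ⟨n, fun g hg => hn _ ?_⟩
    intro i j
    have h1 : ((glBase v w.1 g).1 - 1) i j =
        (compat_liesOver (K := K) (L := L) v w.1).ext ((g.1 - 1) i j) :=
      congrFun (congrFun (coe_map_sub_one _ g) i) j
    show vF w.1 (((glBase v w.1 g).1 - 1) i j) ≤ exp (-(n : ℤ))
    rw [h1, valued_ext_liesOver]
    refine (pow_le_pow_left₀ zero_le (hg i j) _).trans ?_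
    rw [← WithZero.exp_nsmul, exp_le_exp, nsmul_eq_mul]
    have he : 1 ≤ ramE v w.1 := Nat.one_le_iff_ne_zero.mpr (ramE_ne_zero v w.1)
    have : (n : ℤ) ≤ (ramE v w.1 : ℤ) * n := by
      have h2 : (1 : ℤ) * n ≤ (ramE v w.1 : ℤ) * n :=
        mul_le_mul_of_nonneg_right (by exact_mod_cast he) (by positivity)
      rwa [one_mul] at h2
    linarith
  ae := (U.ae.image fun w => under K w).subset fun v hv => by
    by_contra h
    refine hv ?_
    set w := (nonempty_above (L := L) (v := v)).some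
    have h1 : U.U w.1 = GLO (vF w.1) := by
      by_contra h2
      exact h ⟨w.1, h2, (under_eq_iff K w.1 v).mpr w.2⟩
    rw [h1, comap_GLO]

include hU in
/-- The levels over `v` come from the level at `v`. -/
theorem baseLevel_levDown (v : HeightOneSpectrum (𝓞 K)) :
    BaseLevel ((levDown K U).U v) U.U :=
  baseLevel_of_stable (K := K) hU (nonempty_above (L := L) (v := v)).some rfl

include hU in
theorem levDown_U {v : HeightOneSpectrum (𝓞 K)} (w : Above L v) :
    (levDown K U).U v = (U.U w.1).comap (glBase v w.1) :=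
  (baseLevel_levDown hU v w).symm

include hU in
theorem levDown_eq_GLO {v : HeightOneSpectrum (𝓞 K)} {w : Above L v}
    (h : U.U w.1 = GLO (vF w.1)) : (levDown K U).U v = GLO (vF v) := by
  rw [levDown_U hU w, h, comap_GLO]

include hU in
theorem levDown_eq_Kn {v : HeightOneSpectrum (𝓞 K)} {w : Above L v} {n : ℕ}
    (h : U.U w.1 = Kn (vF w.1) (exp (-((ramE v w.1 * n : ℕ) : ℤ)))) :
    (levDown K U).U v = Kn (vF v) (exp (-(n : ℤ))) := by
  rw [levDown_U hU w, h, comap_Kn_exp]

/-- the map `Dv (levDown) v → Dv U w` -/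
def upDv {v : HeightOneSpectrum (𝓞 K)} (w : Above L v) :
    Lvl.Dv (levDown K U) v → Lvl.Dv U w.1 :=
  dvBase ((baseLevel_levDown hU v).le w)

theorem upDv_smul {v : HeightOneSpectrum (𝓞 K)} (w : Above L v)
    (g : GL (Fin 2) (v.adicCompletion K)) (x : Lvl.Dv (levDown K U) v) :
    upDv hU w (g • x) = glBase v w.1 g • upDv hU w x := dvBase_smul _ _ _

theorem upDv_base {v : HeightOneSpectrum (𝓞 K)} (w : Above L v) :
    upDv hU w (base (levDown K U) v) = base U w.1 := dvBase_one _

/-- **The map `D_K → D_L`.** -/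
def upD (d : D (levDown K U)) : D U :=
  ⟨fun w => upDv hU (v := under K w) ⟨w, liesOver_under K w⟩ (d (under K w)), by
    have h : (⋃ v ∈ {v | d.val v ≠ base (levDown K U) v},
        Set.range fun w : Above L v => w.1).Finite :=
      d.fin.biUnion fun v _ => Set.finite_range _
    refine h.subset fun w hw => ?_
    simp only [Set.mem_iUnion, Set.mem_range]
    refine ⟨under K w, fun h' => hw ?_, ⟨w, liesOver_under K w⟩, rfl⟩
    show upDv hU (v := under K w) ⟨w, liesOver_under K w⟩ (d (under K w)) = _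
    rw [show d (under K w) = base (levDown K U) (under K w) from h', upDv_base]⟩

theorem upD_apply (d : D (levDown K U)) {v : HeightOneSpectrum (𝓞 K)} (w : Above L v) :
    upD hU d w.1 = upDv hU w (d v) := by
  obtain ⟨w, hw⟩ := w
  obtain rfl : under K w = v := (under_eq_iff K w v).mpr hw
  rfl

theorem upD_base : upD hU (RProd.base : D (levDown K U)) = RProd.base :=
  RProd.ext' fun w => upDv_base hU (v := under K w) ⟨w, liesOver_under K w⟩

/-- `upD (g • d) = g • upD d` for `g ∈ GL₂(K)` -/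
theorem upD_smul (g : GL (Fin 2) K) (d : D (levDown K U)) :
    upD hU (g • d) = GeneralLinearGroup.map (algebraMap K L) g • upD hU d :=
  RProd.ext' fun w => by
    show upDv hU (v := under K w) ⟨w, liesOver_under K w⟩ (gmap (under K w) g • d (under K w)) = _
    rw [upDv_smul, glBase_map]
    rfl

/-- The image is fixed by the Galois group. -/
theorem tauD_upD (σ : G) (d : D (levDown K U)) : tauD hU σ (upD hU d) = upD hU d := by
  refine RProd.ext' fun w' => ?_
  set v := under K w' with hv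
  have hw' : w'.asIdeal.LiesOver v.asIdeal := liesOver_under K w'
  set W' : Above L v := ⟨w', hw'⟩ with hW'
  have h : σ • (σ⁻¹ • W').1 = W'.1 := inv_smul_above σ W'
  rw [tauD_apply hU σ _ h]
  show dvMap hU h (upD hU d (σ⁻¹ • W').1) = upD hU d W'.1
  rw [upD_apply, upD_apply]
  exact dvMap_dvBase hU (baseLevel_levDown hU v) h _

end Down

end Fermat.Agent.LT.Ext
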