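import Fermat.Agent.LT.BesselK

/-!
# Asymptotics of `K_ν` at infinity and bounds near zero
-/

set_option autoImplicit false

open MeasureTheory Set Filter Topology

noncomputable section

namespace Fermat.Agent.LT

/-- the rescaled integrand -/
def bkS (ν : ℂ) (y u : ℝ) : ℂ :=
  Complex.exp (ν * ((u / √y : ℝ) : ℂ) - ((y * (Real.cosh (u / √y) - 1) : ℝ) : ℂ))

theorem continuous_bkS (ν : ℂ) (y : ℝ) : Continuous (bkS ν y) := by
  unfold bkS
  fun_prop

theorem integral_bkS (ν : ℂ) {y : ℝ} (hy : 0 < y) :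
    ∫ u : ℝ, bkS ν y u = (√y * Real.exp y : ℝ) * (2 * besselK ν y) := by
  have hs : 0 < √y := Real.sqrt_pos.mpr hy
  have h1 := Measure.integral_comp_div (fun t : ℝ => bkI ν y t) (√y)
  rw [abs_of_pos hs] at h1
  rw [two_mul_besselK, Complex.ofReal_mul, mul_assoc, mul_comm (Complex.ofReal (√y)), mul_assoc,
    mul_comm _ (Complex.ofReal (√y))]
  have h2 : (√y : ℂ) * ∫ t : ℝ, bkI ν y t = ∫ u : ℝ, bkI ν y (u / √y) := by
    rw [h1, Complex.real_smul]
  rw [h2, ← integral_const_mul]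
  congr 1
  ext u
  rw [bkS, bkI, Complex.ofReal_exp, ← Complex.exp_add]
  congr 1
  push_cast
  ring

theorem norm_bkS_le (ν : ℂ) {y : ℝ} (hy : 1 ≤ y) (u : ℝ) :
    ‖bkS ν y u‖ ≤ Real.exp (|ν.re| * u - u ^ 2 / 2) + Real.exp (-(|ν.re| * u) - u ^ 2 / 2) := by
  have hy0 : 0 < y := by linarith
  have hs : 1 ≤ √y := Real.one_le_sqrt.mpr hy
  have hs0 : 0 < √y := by linarith
  have h1 : ‖bkS ν y u‖ = Real.exp (ν.re * (u / √y) - y * (Real.cosh (u / √y) - 1)) := by
    rw [bkS, Complex.norm_exp]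
    congr 1
    simp only [Complex.sub_re, Complex.mul_re, Complex.ofReal_re, Complex.ofReal_im, mul_zero,
      sub_zero]
  have h2 : u ^ 2 / 2 ≤ y * (Real.cosh (u / √y) - 1) := by
    have h3 := one_add_sq_half_le_cosh (u / √y)
    have h4 : (u / √y) ^ 2 = u ^ 2 / y := by rw [div_pow, Real.sq_sqrt hy0.le]
    rw [h4] at h3
    have h5 : y * (u ^ 2 / y / 2) ≤ y * (Real.cosh (u / √y) - 1) :=
      mul_le_mul_of_nonneg_left (by linarith) hy0.le
    have h6 : y * (u ^ 2 / y / 2) = u ^ 2 / 2 := by field_simp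
    linarith
  have h7 : ν.re * (u / √y) ≤ |ν.re| * |u| := by
    have h8 : ν.re * (u / √y) ≤ |ν.re * (u / √y)| := le_abs_self _
    rw [abs_mul, abs_div, abs_of_pos hs0] at h8
    have h9 : |u| / √y ≤ |u| := div_le_self (abs_nonneg _) hs
    exact h8.trans (mul_le_mul_of_nonneg_left h9 (abs_nonneg _))
  rw [h1]
  rcases abs_cases u with ⟨h, -⟩ | ⟨h, -⟩
  · refine le_trans (Real.exp_le_exp.mpr ?_) (le_add_of_nonneg_right (Real.exp_pos _).le)
    rw [h] at h7
    linarith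
  · refine le_trans (Real.exp_le_exp.mpr ?_) (le_add_of_nonneg_left (Real.exp_pos _).le)
    rw [h] at h7
    linarith

theorem integrable_gauss_lin (c : ℝ) :
    Integrable fun u : ℝ => Real.exp (c * u - u ^ 2 / 2) := by
  have h := (integrable_cexp_quadratic (b := (1 / 2 : ℂ)) (by norm_num) (c : ℂ) 0).norm
  refine h.congr (ae_of_all _ fun t => ?_)
  simp only [Complex.norm_exp]
  congr 1
  simp [← Complex.ofReal_pow]
  ring

theorem tendsto_bkS (ν : ℂ) (u : ℝ) :
    Tendsto (fun y : ℝ => bkS ν y u) atTop (𝓝 (Complex.exp (-((u ^ 2 / 2 : ℝ) : ℂ)))) := by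
  have hs : Tendsto (fun y : ℝ => √y) atTop atTop := Real.tendsto_sqrt_atTop
  have hi : Tendsto (fun y : ℝ => (√y)⁻¹) atTop (𝓝[≠] 0) := by
    refine tendsto_nhdsWithin_iff.mpr ⟨tendsto_inv_atTop_zero.comp hs, ?_⟩
    filter_upwards [eventually_gt_atTop 0] with y hy
    exact (inv_pos.mpr (Real.sqrt_pos.mpr hy)).ne'
  -- `√y sinh (u / (2 √y)) → u / 2`
  have h1 : Tendsto (fun h : ℝ => h⁻¹ * Real.sinh (u / 2 * h)) (𝓝[≠] 0) (𝓝 (u / 2)) := by
    have hd : HasDerivAt (fun h : ℝ => Real.sinh (u / 2 * h)) (u / 2) 0 := by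
      have h2 : HasDerivAt (fun h : ℝ => u / 2 * h) (u / 2) 0 := by
        simpa using (hasDerivAt_id (0 : ℝ)).const_mul (u / 2)
      have h3 := h2.sinh
      simpa using h3
    have h4 := hd.tendsto_slope_zero
    refine h4.congr fun h => ?_
    simp
  have h2 := h1.comp hi
  have h3 : Tendsto (fun y : ℝ => y * (Real.cosh (u / √y) - 1)) atTop (𝓝 (u ^ 2 / 2)) := by
    have h4 := (h2.pow 2).const_mul 2
    have h5 : 2 * (u / 2) ^ 2 = u ^ 2 / 2 := by ring
    rw [h5] at h4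
    refine h4.congr' ?_
    filter_upwards [eventually_gt_atTop 0] with y hy
    have hs0 : 0 < √y := Real.sqrt_pos.mpr hy
    have h6 : Real.cosh (u / √y) - 1 = 2 * Real.sinh (u / 2 * (√y)⁻¹) ^ 2 := by
      have h7 := Real.cosh_two_mul (u / 2 * (√y)⁻¹)
      rw [show 2 * (u / 2 * (√y)⁻¹) = u / √y by field_simp] at h7
      rw [h7, Real.cosh_sq]
      ring
    simp only [Function.comp]
    rw [h6, inv_inv, mul_pow, Real.sq_sqrt hy.le]
    ring
  have h4 : Tendsto (fun y : ℝ => u / √y) atTop (𝓝 0) := by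
    have := (tendsto_inv_atTop_zero.comp hs).const_mul u
    simpa [div_eq_mul_inv] using this
  have h5 : Tendsto (fun y : ℝ => ν * ((u / √y : ℝ) : ℂ) -
      ((y * (Real.cosh (u / √y) - 1) : ℝ) : ℂ)) atTop (𝓝 (ν * ((0 : ℝ) : ℂ) -
        ((u ^ 2 / 2 : ℝ) : ℂ))) :=
    (((Complex.continuous_ofReal.tendsto 0).comp h4).const_mul ν).sub
      ((Complex.continuous_ofReal.tendsto _).comp h3)
  have h6 := (Complex.continuous_exp.tendsto _).comp h5
  convert! h6 using 2
  simp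

/-- `K_ν(y) ~ √(π / 2y) e^{-y}` -/
theorem tendsto_besselK (ν : ℂ) :
    Tendsto (fun y : ℝ => ((√y * Real.exp y : ℝ) : ℂ) * (2 * besselK ν y)) atTop
      (𝓝 ((√(2 * Real.pi) : ℝ) : ℂ)) := by
  have h1 : ∫ u : ℝ, Complex.exp (-((u ^ 2 / 2 : ℝ) : ℂ)) = ((√(2 * Real.pi) : ℝ) : ℂ) := by
    have h2 := integral_gaussian (1 / 2)
    rw [show Real.pi / (1 / 2) = 2 * Real.pi by ring] at h2
    rw [← h2, ← integral_complex_ofReal]
    congr 1
    ext u
    rw [Complex.ofReal_exp]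
    congr 1
    push_cast
    ring
  rw [← h1]
  have h3 := tendsto_integral_filter_of_dominated_convergence (μ := volume) (l := atTop)
    (F := fun y : ℝ => bkS ν y) (f := fun u : ℝ => Complex.exp (-((u ^ 2 / 2 : ℝ) : ℂ)))
    (fun u : ℝ => Real.exp (|ν.re| * u - u ^ 2 / 2) + Real.exp (-|ν.re| * u - u ^ 2 / 2))
    (Eventually.of_forall fun y => (continuous_bkS ν y).aestronglyMeasurable)
    (by
      filter_upwards [eventually_ge_atTop 1] with y hy
      refine ae_of_all _ fun u => ?_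
      have := norm_bkS_le ν hy u
      rwa [neg_mul])
    ((integrable_gauss_lin _).add (integrable_gauss_lin _))
    (ae_of_all _ fun u => tendsto_bkS ν u)
  refine h3.congr' ?_
  filter_upwards [eventually_gt_atTop 0] with y hy
  exact integral_bkS ν hy

theorem eventually_besselK_ne_zero (ν : ℂ) : ∀ᶠ y : ℝ in atTop, besselK ν y ≠ 0 := by
  have h0 : ((√(2 * Real.pi) : ℝ) : ℂ) ≠ 0 := by
    rw [Ne, Complex.ofReal_eq_zero]
    exact (Real.sqrt_pos.mpr (by positivity)).ne'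
  filter_upwards [(tendsto_besselK ν).eventually_ne h0] with y hy h
  rw [h] at hy
  simp at hy

/-! ### bounds near zero -/

theorem rpow_mul_exp_neg_le {s : ℝ} (hs : 0 ≤ s) : ∃ C : ℝ, 0 < C ∧ ∀ x : ℝ, 0 < x →
    Real.exp (-x) ≤ C * x ^ (-s) := by
  obtain ⟨n, hn⟩ := exists_nat_ge s
  refine ⟨1 + n.factorial, by positivity, fun x hx => ?_⟩
  have h1 : x ^ s ≤ 1 + x ^ n := by
    rcases le_total x 1 with h | h
    · have := Real.rpow_le_one hx.le h hs
      have h2 : 0 ≤ x ^ n := by positivity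
      linarith
    · have := Real.rpow_le_rpow_of_exponent_le h hn
      rw [Real.rpow_natCast] at this
      linarith
  have h2 : x ^ n ≤ n.factorial * Real.exp x := by
    have := Real.pow_div_factorial_le_exp x hx.le n
    rwa [div_le_iff₀' (by positivity)] at this
  have h3 : 1 ≤ Real.exp x := Real.one_le_exp hx.le
  have h4 : x ^ s ≤ (1 + n.factorial) * Real.exp x := by linarith
  rw [Real.exp_neg, Real.rpow_neg hx.le, ← div_eq_mul_inv, le_div_iff₀ (Real.rpow_pos_of_pos hx s),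
    inv_mul_le_iff₀ (Real.exp_pos x)]
  linarith

theorem integrable_exp_neg_mul_abs {ε : ℝ} (hε : 0 < ε) :
    Integrable fun t : ℝ => Real.exp (-(ε * |t|)) := by
  have h1 : IntegrableOn (fun t : ℝ => Real.exp (-(ε * |t|))) (Ioi 0) := by
    refine (integrableOn_exp_mul_Ioi (a := -ε) (by linarith) 0).congr_fun (fun t ht => ?_)
      measurableSet_Ioi
    simp only [abs_of_pos (show (0 : ℝ) < t from ht), neg_mul]
  have h2 : IntegrableOn (fun t : ℝ => Real.exp (-(ε * |t|))) (Iic 0) := by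
    refine (integrableOn_exp_mul_Iic (a := ε) hε 0).congr_fun (fun t ht => ?_)
      measurableSet_Iic
    simp only [abs_of_nonpos (show t ≤ (0 : ℝ) from ht), mul_neg, neg_neg]
  rw [← integrableOn_univ, ← Iic_union_Ioi (a := (0 : ℝ))]
  exact h2.union h1

/-- bound near zero: `K_ν(y) = O(y^(-s))` for `s > |Re ν|`, uniformly on `(0, ∞)` -/
theorem exists_bkR_le {σ s : ℝ} (hs : |σ| < s) : ∃ C : ℝ, 0 < C ∧ ∀ y : ℝ, 0 < y →
    bkR σ y ≤ C * y ^ (-s) := by
  have hs0 : 0 < s := (abs_nonneg σ).trans_lt hs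
  obtain ⟨C, hC, h⟩ := rpow_mul_exp_neg_le hs0.le
  have hint := integrable_exp_neg_mul_abs (sub_pos.mpr hs)
  have hpos : 0 ≤ ∫ t : ℝ, Real.exp (-((s - |σ|) * |t|)) :=
    integral_nonneg fun t => (Real.exp_pos _).le
  refine ⟨C * 2 ^ s * (∫ t : ℝ, Real.exp (-((s - |σ|) * |t|))) + 1, by positivity,
    fun y hy => ?_⟩
  have key : ∀ t : ℝ, bkr σ y t ≤ (C * 2 ^ s * y ^ (-s)) * Real.exp (-((s - |σ|) * |t|)) := by
    intro t
    have h1 : bkr σ y t ≤ Real.exp (|σ| * |t|) * Real.exp (-(y * (Real.exp |t| / 2))) := by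
      rw [← Real.exp_add]
      refine Real.exp_le_exp.mpr ?_
      have h2 : σ * t ≤ |σ| * |t| := (le_abs_self _).trans (abs_mul σ t).le
      have h3 := mul_le_mul_of_nonneg_left (exp_abs_half_le_cosh t) hy.le
      linarith
    have h2 := h (y * (Real.exp |t| / 2)) (by positivity)
    have h3 : (y * (Real.exp |t| / 2)) ^ (-s) = 2 ^ s * y ^ (-s) * Real.exp (-(s * |t|)) := by
      rw [Real.mul_rpow hy.le (by positivity), Real.div_rpow (Real.exp_pos _).le (by norm_num),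
        ← Real.exp_mul, Real.rpow_neg (by norm_num : (0 : ℝ) ≤ 2)]
      have : |t| * -s = -(s * |t|) := by ring
      rw [this]
      have h2s : (0 : ℝ) < 2 ^ s := Real.rpow_pos_of_pos (by norm_num) s
      field_simp
    rw [h3] at h2
    calc bkr σ y t ≤ Real.exp (|σ| * |t|) * Real.exp (-(y * (Real.exp |t| / 2))) := h1
      _ ≤ Real.exp (|σ| * |t|) * (C * (2 ^ s * y ^ (-s) * Real.exp (-(s * |t|)))) :=
        mul_le_mul_of_nonneg_left h2 (Real.exp_pos _).le
      _ = (C * 2 ^ s * y ^ (-s)) * (Real.exp (|σ| * |t|) * Real.exp (-(s * |t|))) := by ring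
      _ = (C * 2 ^ s * y ^ (-s)) * Real.exp (-((s - |σ|) * |t|)) := by
        rw [← Real.exp_add]; congr 2; ring
  have h4 : bkR σ y ≤ (C * 2 ^ s * y ^ (-s)) * ∫ t : ℝ, Real.exp (-((s - |σ|) * |t|)) := by
    rw [bkR, ← integral_const_mul]
    exact integral_mono (integrable_bkr σ hy) (hint.const_mul _) key
  have h5 : 0 < y ^ (-s) := Real.rpow_pos_of_pos hy _
  nlinarith

theorem exists_norm_besselK_le {ν : ℂ} {s : ℝ} (hs : |ν.re| < s) : ∃ C : ℝ, 0 < C ∧ ∀ y : ℝ,
    0 < y → ‖besselK ν y‖ ≤ C * y ^ (-s) := by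
  obtain ⟨C, hC, h⟩ := exists_bkR_le hs
  refine ⟨C / 2, half_pos hC, fun y hy => (norm_besselK_le ν y).trans ?_⟩
  have := h y hy
  linarith

end Fermat.Agent.LT
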