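import Fermat.Agent.LT.BesselK

/-!
# Joint continuity of `K_ν(y)` in `(ν, y)`
-/

set_option autoImplicit false

open MeasureTheory Set Filter Topology

noncomputable section

namespace Fermat.Agent.LT

theorem bkr_le_add {σ s y y' : ℝ} (hs : |σ| ≤ s) (hy : y' ≤ y) (t : ℝ) :
    bkr σ y t ≤ bkr s y' t + bkr (-s) y' t := by
  have h1 : σ * t ≤ s * |t| :=
    ((le_abs_self _).trans (abs_mul σ t).le).trans (mul_le_mul_of_nonneg_right hs (abs_nonneg t))
  have h2 : y' * Real.cosh t ≤ y * Real.cosh t :=
    mul_le_mul_of_nonneg_right hy (Real.cosh_pos t).le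
  have h3 : bkr σ y t ≤ Real.exp (s * |t| - y' * Real.cosh t) :=
    Real.exp_le_exp.mpr (by linarith)
  rcases abs_choice t with h | h
  · rw [h] at h3
    exact h3.trans (le_add_of_nonneg_right (bkr_pos _ _ _).le)
  · rw [h] at h3
    refine h3.trans ?_
    have : Real.exp (s * -t - y' * Real.cosh t) = bkr (-s) y' t := by
      rw [bkr]
      congr 1
      ring
    rw [this]
    exact le_add_of_nonneg_left (bkr_pos _ _ _).le

theorem bkR_le_two_mul {σ s : ℝ} (hs : |σ| ≤ s) {y : ℝ} (hy : 0 < y) : bkR σ y ≤ 2 * bkR s y := by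
  have h1 : bkR σ y ≤ bkR s y + bkR (-s) y := by
    rw [bkR, bkR, bkR, ← integral_add (integrable_bkr s hy) (integrable_bkr (-s) hy)]
    exact integral_mono (integrable_bkr σ hy)
      ((integrable_bkr s hy).add (integrable_bkr (-s) hy)) fun t => bkr_le_add hs le_rfl t
  rw [bkR_neg] at h1
  linarith

theorem continuousAt_besselK_joint {ν : ℂ} {y : ℝ} (hy : 0 < y) :
    ContinuousAt (fun p : ℂ × ℝ => besselK p.1 p.2) (ν, y) := by
  have hint : Integrable fun t => bkr (|ν.re| + 1) (y / 2) t + bkr (-(|ν.re| + 1)) (y / 2) t :=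
    (integrable_bkr _ (half_pos hy)).add (integrable_bkr _ (half_pos hy))
  have h1 : ContinuousAt (fun p : ℂ × ℝ => ∫ t : ℝ, bkI p.1 p.2 t) (ν, y) := by
    refine continuousAt_of_dominated (bound := fun t =>
      bkr (|ν.re| + 1) (y / 2) t + bkr (-(|ν.re| + 1)) (y / 2) t) ?_ ?_ hint ?_
    · exact Eventually.of_forall fun p => (continuous_bkI p.1 p.2).aestronglyMeasurable
    · have e1 : ∀ᶠ p : ℂ × ℝ in 𝓝 (ν, y), |p.1.re| < |ν.re| + 1 := by
        have hc : Continuous fun p : ℂ × ℝ => |p.1.re| := by fun_prop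
        exact hc.continuousAt.eventually_lt continuousAt_const (by simp)
      have e2 : ∀ᶠ p : ℂ × ℝ in 𝓝 (ν, y), y / 2 < p.2 :=
        continuousAt_const.eventually_lt continuous_snd.continuousAt (by simp; linarith)
      filter_upwards [e1, e2] with p hp1 hp2
      refine ae_of_all _ fun t => ?_
      rw [norm_bkI]
      exact bkr_le_add hp1.le hp2.le t
    · refine ae_of_all _ fun t => ?_
      have : Continuous fun p : ℂ × ℝ => bkI p.1 p.2 t := by
        unfold bkI
        fun_prop
      exact this.continuousAt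
  exact h1.div_const 2

theorem continuousOn_besselK_joint :
    ContinuousOn (fun p : ℂ × ℝ => besselK p.1 p.2) {p | 0 < p.2} :=
  fun _ hp => (continuousAt_besselK_joint hp).continuousWithinAt

theorem continuous_besselK_comp {X : Type*} [TopologicalSpace X] {f : X → ℂ} {g : X → ℝ}
    (hf : Continuous f) (hg : Continuous g) (h : ∀ x, 0 < g x) :
    Continuous fun x => besselK (f x) (g x) := by
  rw [continuous_iff_continuousAt]
  intro x
  exact ContinuousAt.comp (f := fun x => (f x, g x)) (continuousAt_besselK_joint (h x))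
    (hf.prodMk hg).continuousAt

end Fermat.Agent.LT
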