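import Fermat.Agent.LT.BesselUnique

/-!
# Whittaker functions on hyperbolic 3-space

The equation `y² h'' - y h' = (c² y² + ν² - 1) h` of the Fourier coefficients of an eigenfunction of
the Laplacian on `ℍ³`; its solutions of moderate growth are the multiples of `y K_ν(c y)`.
-/

set_option autoImplicit false

open MeasureTheory Set Filter Topology Asymptotics

noncomputable section

namespace Fermat.Agent.LT

variable {ν : ℂ} {W W' h h' : ℝ → ℂ} {c : ℝ}

/-- uniqueness, hypothesis in the form of a Landau symbol -/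
theorem IsBessel.eq_mul_of_isBigO (hW : IsBessel ν W W') (hc : c < 1)
    (hb : W =O[atTop] fun y => Real.exp (c * y)) :
    ∃ a : ℂ, ∀ y : ℝ, 0 < y → W y = a * besselK ν y := by
  obtain ⟨C₁, hC₁⟩ := hb.bound
  obtain ⟨Y, hY⟩ := eventually_atTop.mp hC₁
  have hcont : ContinuousOn (fun y : ℝ => W y * (Real.exp (-(c * y)) : ℝ)) (Icc 1 Y) := by
    refine ContinuousOn.mul (fun y hy => ?_) (by fun_prop)
    exact (hW.hasDerivAt y (zero_lt_one.trans_le hy.1)).continuousAt.continuousWithinAt
  obtain ⟨C₂, hC₂⟩ := isCompact_Icc.exists_bound_of_continuousOn hcont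
  refine hW.eq_mul (C := max C₁ C₂) hc fun y hy => ?_
  rcases le_total Y y with h | h
  · have := hY y h
    rw [Real.norm_of_nonneg (Real.exp_pos _).le] at this
    exact this.trans (mul_le_mul_of_nonneg_right (le_max_left _ _) (Real.exp_pos _).le)
  · have := hC₂ y ⟨hy, h⟩
    rw [norm_mul, Complex.norm_real, Real.norm_of_nonneg (Real.exp_pos _).le, Real.exp_neg,
      mul_inv_le_iff₀ (Real.exp_pos _)] at this
    exact this.trans (mul_le_mul_of_nonneg_right (le_max_right _ _) (Real.exp_pos _).le)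

/-- solutions of `y² h'' - y h' = (c² y² + ν² - 1) h` -/
structure IsWhit (ν : ℂ) (c : ℝ) (h h' : ℝ → ℂ) : Prop where
  hasDerivAt : ∀ y : ℝ, 0 < y → HasDerivAt h (h' y) y
  hasDerivAt' : ∀ y : ℝ, 0 < y →
    HasDerivAt h' (h' y / y + (c ^ 2 + (ν ^ 2 - 1) / y ^ 2) * h y) y

theorem IsWhit.isBessel (hc : 0 < c) (H : IsWhit ν c h h') :
    IsBessel ν (fun x => h (x / c) * (c / x)) (fun x => h' (x / c) / x - h (x / c) * (c / x ^ 2))
    where
  hasDerivAt x hx := by
    have hx' : (x : ℂ) ≠ 0 := by exact_mod_cast hx.ne'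
    have hc' : (c : ℂ) ≠ 0 := by exact_mod_cast hc.ne'
    have h1 : HasDerivAt (fun x : ℝ => x / c) (1 / c) x := (hasDerivAt_id x).div_const c
    have h2 := (H.hasDerivAt (x / c) (div_pos hx hc)).scomp x h1
    have h3 : HasDerivAt (fun x : ℝ => (c : ℂ) / x) (-(c : ℂ) / x ^ 2) x := by
      have := (hasDerivAt_ofReal x).inv hx'
      convert! this.const_mul (c : ℂ) using 1
      ring
    convert! h2.mul h3 using 1
    simp only [Complex.real_smul, Function.comp_apply]
    push_cast
    field_simp
    ring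
  hasDerivAt' x hx := by
    have hx' : (x : ℂ) ≠ 0 := by exact_mod_cast hx.ne'
    have hc' : (c : ℂ) ≠ 0 := by exact_mod_cast hc.ne'
    have h1 : HasDerivAt (fun x : ℝ => x / c) (1 / c) x := (hasDerivAt_id x).div_const c
    have h2 := (H.hasDerivAt (x / c) (div_pos hx hc)).scomp x h1
    have h2' := (H.hasDerivAt' (x / c) (div_pos hx hc)).scomp x h1
    have h3 : HasDerivAt (fun x : ℝ => (x : ℂ)⁻¹) (-1 / x ^ 2) x :=
      (hasDerivAt_ofReal x).inv hx'
    have h4 : HasDerivAt (fun x : ℝ => (c : ℂ) * ((x : ℂ)⁻¹ * (x : ℂ)⁻¹)) (-2 * (c : ℂ) / x ^ 3) x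
        := by
      convert! (h3.mul h3).const_mul (c : ℂ) using 1
      field_simp
      ring
    convert! (h2'.mul h3).sub (h2.mul h4) using 1
    · ext x
      simp only [Pi.sub_apply, Pi.mul_apply, Function.comp_apply]
      ring
    simp only [Complex.real_smul, Function.comp_apply]
    push_cast
    field_simp
    ring

/-- **Uniqueness of the Whittaker function on `ℍ³`.** -/
theorem IsWhit.eq_mul_of_isBigO (hc : 0 < c) (H : IsWhit ν c h h') {d : ℝ} (hd : d < c)
    (hb : h =O[atTop] fun y => Real.exp (d * y)) :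
    ∃ a : ℂ, ∀ y : ℝ, 0 < y → h y = a * (y * besselK ν (c * y)) := by
  have hc' : (c : ℂ) ≠ 0 := by exact_mod_cast hc.ne'
  obtain ⟨a, ha⟩ := (H.isBessel hc).eq_mul_of_isBigO (c := d / c) ((div_lt_one hc).mpr hd) (by
    have h1 : Tendsto (fun x : ℝ => x / c) atTop atTop := tendsto_id.atTop_div_const hc
    have h2 := hb.comp_tendsto h1
    have h3 : (fun x : ℝ => (c : ℂ) / x) =O[atTop] fun _ => (1 : ℝ) := by
      refine IsBigO.of_bound c ?_
      filter_upwards [eventually_ge_atTop 1] with x hx
      rw [norm_div, Complex.norm_real, Complex.norm_real, Real.norm_of_nonneg hc.le,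
        Real.norm_of_nonneg (zero_le_one.trans hx)]
      simp only [norm_one, mul_one]
      exact div_le_self hc.le hx
    have h4 := h2.mul h3
    refine h4.congr_right fun x => ?_
    simp only [Function.comp_apply, mul_one]
    congr 1
    ring)
  refine ⟨a, fun y hy => ?_⟩
  have hy' : (y : ℂ) ≠ 0 := by exact_mod_cast hy.ne'
  have h1 := ha (c * y) (mul_pos hc hy)
  rw [mul_div_cancel_left₀ y hc.ne'] at h1
  push_cast at h1
  rw [div_mul_cancel_left₀ hc'] at h1
  field_simp at h1
  rw [h1]
  ring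

theorem isWhit_besselK (ν : ℂ) (hc : 0 < c) :
    IsWhit ν c (fun y => y * besselK ν (c * y))
      (fun y => besselK ν (c * y) + y * (c * besselK' ν (c * y))) where
  hasDerivAt y hy := by
    have h1 : HasDerivAt (fun x : ℝ => c * x) c y := by
      simpa using (hasDerivAt_id y).const_mul c
    have h2 := ((isBessel_besselK ν).hasDerivAt _ (mul_pos hc hy)).scomp y h1
    convert! (hasDerivAt_ofReal y).mul h2 using 1
    simp only [Complex.real_smul, Function.comp_apply]
    ring
  hasDerivAt' y hy := by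
    have hy' : (y : ℂ) ≠ 0 := by exact_mod_cast hy.ne'
    have hc' : (c : ℂ) ≠ 0 := by exact_mod_cast hc.ne'
    have h1 : HasDerivAt (fun x : ℝ => c * x) c y := by
      simpa using (hasDerivAt_id y).const_mul c
    have h2 := ((isBessel_besselK ν).hasDerivAt _ (mul_pos hc hy)).scomp y h1
    have h3 := ((isBessel_besselK ν).hasDerivAt' _ (mul_pos hc hy)).scomp y h1
    convert! h2.add ((hasDerivAt_ofReal y).mul (h3.const_mul (c : ℂ))) using 1
    simp only [Complex.real_smul, Function.comp_apply]
    push_cast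
    field_simp
    ring

end Fermat.Agent.LT
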