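import Fermat.Agent.LT.BesselAsymp

/-!
# Integrals of `K_ν`

* the substitution `u = e^t`;
* `∫_{u>0} exp (-(a u + b / u)) u^(ν-1) du = 2 (b/a)^(ν/2) K_ν (2 √(a b))`;
* the Mellin transform of `K_ν`: `2^(s-2) Γ((s-ν)/2) Γ((s+ν)/2)`;
* convergence, holomorphy and positivity of the Mellin transforms of `K_ν`, `K_ν K_μ`.
-/

set_option autoImplicit false

open MeasureTheory Set Filter Topology Asymptotics

noncomputable section

namespace Fermat.Agent.LT

/-! ### the exponential substitution -/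

section subst

variable {E : Type*} [NormedAddCommGroup E] [NormedSpace ℝ E]

theorem exp_image_univ : Real.exp '' univ = Ioi 0 := by
  rw [image_univ, Real.range_exp]

theorem integral_Ioi_eq_integral_exp (g : ℝ → E) :
    ∫ u in Ioi (0 : ℝ), g u = ∫ t : ℝ, Real.exp t • g (Real.exp t) := by
  have h := integral_image_eq_integral_abs_deriv_smul (s := univ) (f := Real.exp)
    (f' := Real.exp) MeasurableSet.univ (fun x _ => (Real.hasDerivAt_exp x).hasDerivWithinAt)
    Real.exp_injective.injOn g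
  rw [exp_image_univ, setIntegral_univ] at h
  rw [h]
  simp only [Real.abs_exp]

theorem integrableOn_Ioi_iff_integrable_exp (g : ℝ → E) :
    IntegrableOn g (Ioi (0 : ℝ)) ↔ Integrable fun t : ℝ => Real.exp t • g (Real.exp t) := by
  have h := integrableOn_image_iff_integrableOn_abs_deriv_smul (s := univ) (f := Real.exp)
    (f' := Real.exp) MeasurableSet.univ (fun x _ => (Real.hasDerivAt_exp x).hasDerivWithinAt)
    Real.exp_injective.injOn g
  rw [exp_image_univ, integrableOn_univ] at h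
  rw [h]
  simp only [Real.abs_exp]

end subst

theorem ofReal_exp_cpow (t : ℝ) (z : ℂ) : ((Real.exp t : ℝ) : ℂ) ^ z = Complex.exp (t * z) := by
  rw [Complex.cpow_def_of_ne_zero (by exact_mod_cast (Real.exp_pos t).ne'),
    ← Complex.ofReal_log (Real.exp_pos t).le, Real.log_exp]

theorem shift_identity {a b : ℝ} (ha : 0 < a) (hb : 0 < b) (t : ℝ) :
    a * Real.exp (t + Real.log (b / a) / 2) + b / Real.exp (t + Real.log (b / a) / 2) =
      2 * √(a * b) * Real.cosh t := by
  have h1 : Real.exp (Real.log (b / a) / 2) = √b / √a := by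
    rw [← Real.sqrt_div' _ ha.le, Real.exp_half, Real.exp_log (div_pos hb ha)]
  have hsa : 0 < √a := Real.sqrt_pos.mpr ha
  have hsb : 0 < √b := Real.sqrt_pos.mpr hb
  have h2 : √a * √a = a := Real.mul_self_sqrt ha.le
  have h3 : √b * √b = b := Real.mul_self_sqrt hb.le
  rw [Real.exp_add, h1, Real.sqrt_mul ha.le, Real.cosh_eq, Real.exp_neg]
  have h4 := Real.exp_pos t
  have e1 : a * (Real.exp t * (√b / √a)) = √a * √b * Real.exp t := by
    calc a * (Real.exp t * (√b / √a)) = (√a * √a) * (Real.exp t * (√b / √a)) := by rw [h2]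
      _ = _ := by field_simp
  have e2 : b / (Real.exp t * (√b / √a)) = √a * √b * (Real.exp t)⁻¹ := by
    calc b / (Real.exp t * (√b / √a)) = (√b * √b) / (Real.exp t * (√b / √a)) := by rw [h3]
      _ = _ := by field_simp
  rw [e1, e2]
  ring

/-- `∫_{u>0} exp (-(a u + b / u)) u^(ν-1) du = 2 (b/a)^(ν/2) K_ν (2 √(a b))` -/
theorem integral_exp_add_inv (ν : ℂ) {a b : ℝ} (ha : 0 < a) (hb : 0 < b) :
    ∫ u in Ioi (0 : ℝ), Complex.exp (-((a * u + b / u : ℝ) : ℂ)) * (u : ℂ) ^ (ν - 1) =
      2 * ((b / a : ℝ) : ℂ) ^ (ν / 2) * besselK ν (2 * √(a * b)) := by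
  rw [integral_Ioi_eq_integral_exp, ← integral_add_right_eq_self _ (Real.log (b / a) / 2)]
  have h1 : ∀ t : ℝ, Real.exp (t + Real.log (b / a) / 2) •
      (Complex.exp (-((a * Real.exp (t + Real.log (b / a) / 2) +
        b / Real.exp (t + Real.log (b / a) / 2) : ℝ) : ℂ)) *
        ((Real.exp (t + Real.log (b / a) / 2) : ℝ) : ℂ) ^ (ν - 1)) =
      ((b / a : ℝ) : ℂ) ^ (ν / 2) * bkI ν (2 * √(a * b)) t := by
    intro t
    rw [shift_identity ha hb, ofReal_exp_cpow, Complex.real_smul, Complex.ofReal_exp, bkI,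
      ← Complex.exp_add, ← Complex.exp_add,
      Complex.cpow_def_of_ne_zero (by exact_mod_cast (div_pos hb ha).ne'),
      ← Complex.ofReal_log (div_pos hb ha).le, ← Complex.exp_add]
    congr 1
    push_cast
    ring
  simp_rw [h1]
  rw [integral_const_mul, ← two_mul_besselK]
  ring

theorem integrableOn_exp_add_inv (ν : ℂ) {a b : ℝ} (ha : 0 < a) (hb : 0 < b) :
    IntegrableOn (fun u : ℝ => Complex.exp (-((a * u + b / u : ℝ) : ℂ)) * (u : ℂ) ^ (ν - 1))
      (Ioi 0) := by
  rw [integrableOn_Ioi_iff_integrable_exp]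
  have h2 := ((integrable_bkI ν (y := 2 * √(a * b)) (by positivity)).const_mul
    (((b / a : ℝ) : ℂ) ^ (ν / 2))).comp_sub_right (Real.log (b / a) / 2)
  refine h2.congr (ae_of_all _ fun t => ?_)
  have h3 := shift_identity ha hb (t - Real.log (b / a) / 2)
  rw [sub_add_cancel] at h3
  simp only
  rw [h3, ofReal_exp_cpow, Complex.real_smul, Complex.ofReal_exp, bkI,
    ← Complex.exp_add, ← Complex.exp_add,
    Complex.cpow_def_of_ne_zero (by exact_mod_cast (div_pos hb ha).ne'),
    ← Complex.ofReal_log (div_pos hb ha).le, ← Complex.exp_add]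
  congr 1
  push_cast
  ring

/-- the real form for `ν = 0` -/
theorem integral_exp_add_inv_zero {a b : ℝ} (ha : 0 < a) (hb : 0 < b) :
    ∫ u in Ioi (0 : ℝ), Real.exp (-(a * u + b / u)) * u⁻¹ = bkR 0 (2 * √(a * b)) := by
  rw [integral_Ioi_eq_integral_exp, ← integral_add_right_eq_self _ (Real.log (b / a) / 2), bkR]
  refine integral_congr_ae (ae_of_all _ fun t => ?_)
  simp only [smul_eq_mul]
  rw [shift_identity ha hb, bkr]
  have := Real.exp_pos (t + Real.log (b / a) / 2)
  field_simp
  congr 1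
  ring

/-! ### the Mellin transform -/

theorem locallyIntegrableOn_besselK (ν : ℂ) : LocallyIntegrableOn (besselK ν) (Ioi 0) :=
  (continuousOn_besselK ν).locallyIntegrableOn measurableSet_Ioi

theorem besselK_isBigO_top (ν : ℂ) : besselK ν =O[atTop] fun t : ℝ => Real.exp (-1 * t) := by
  refine IsBigO.of_bound (Real.exp 1 * (bkR ν.re 1 / 2)) ?_
  filter_upwards [eventually_ge_atTop 1] with y hy
  refine (norm_besselK_le_exp ν zero_lt_one hy).trans (le_of_eq ?_)
  rw [Real.norm_of_nonneg (Real.exp_pos _).le, mul_right_comm, ← Real.exp_add]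
  congr 2
  ring

theorem besselK_isBigO_zero {ν : ℂ} {s : ℝ} (hs : |ν.re| < s) :
    besselK ν =O[𝓝[>] 0] fun y : ℝ => y ^ (-s) := by
  obtain ⟨C, -, h⟩ := exists_norm_besselK_le hs
  refine IsBigO.of_bound C ?_
  filter_upwards [self_mem_nhdsWithin] with y hy
  have hy' : 0 < y := hy
  rw [Real.norm_of_nonneg (Real.rpow_pos_of_pos hy' _).le]
  exact h y hy'

theorem mellinConvergent_besselK {ν s : ℂ} (hs : |ν.re| < s.re) :
    MellinConvergent (besselK ν) s := by
  obtain ⟨b, hb, hb'⟩ := exists_between hs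
  exact mellinConvergent_of_isBigO_rpow_exp zero_lt_one (locallyIntegrableOn_besselK ν)
    (besselK_isBigO_top ν) (besselK_isBigO_zero hb) hb'

theorem differentiableAt_mellin_besselK {ν s : ℂ} (hs : |ν.re| < s.re) :
    DifferentiableAt ℂ (mellin (besselK ν)) s := by
  obtain ⟨b, hb, hb'⟩ := exists_between hs
  exact mellin_differentiableAt_of_isBigO_rpow_exp zero_lt_one (locallyIntegrableOn_besselK ν)
    (besselK_isBigO_top ν) (besselK_isBigO_zero hb) hb'

theorem besselK_mul_aux {ν μ : ℂ} {r : ℝ} (hs : |ν.re| + |μ.re| < r) :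
    ∃ b : ℝ, b < r ∧ LocallyIntegrableOn (fun y => besselK ν y * besselK μ y) (Ioi 0) ∧
      (fun y => besselK ν y * besselK μ y) =O[atTop] (fun t : ℝ => Real.exp (-2 * t)) ∧
      (fun y => besselK ν y * besselK μ y) =O[𝓝[>] 0] fun y : ℝ => y ^ (-b) := by
  set ε := (r - (|ν.re| + |μ.re|)) / 3 with hε
  have hε0 : 0 < ε := by rw [hε]; linarith
  refine ⟨(|ν.re| + ε) + (|μ.re| + ε), by linarith,
    ((continuousOn_besselK ν).mul (continuousOn_besselK μ)).locallyIntegrableOn measurableSet_Ioi,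
    ?_, ?_⟩
  · refine ((besselK_isBigO_top ν).mul (besselK_isBigO_top μ)).congr_right fun t => ?_
    rw [← Real.exp_add]
    congr 1
    ring
  · refine ((besselK_isBigO_zero (s := |ν.re| + ε) (by linarith)).mul
      (besselK_isBigO_zero (s := |μ.re| + ε) (by linarith))).congr' EventuallyEq.rfl ?_
    filter_upwards [self_mem_nhdsWithin] with y hy
    have hy' : 0 < y := hy
    rw [← Real.rpow_add hy']
    congr 1
    ring

theorem mellinConvergent_besselK_mul {ν μ s : ℂ} (hs : |ν.re| + |μ.re| < s.re) :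
    MellinConvergent (fun y => besselK ν y * besselK μ y) s := by
  obtain ⟨b, hb, h1, h2, h3⟩ := besselK_mul_aux hs
  exact mellinConvergent_of_isBigO_rpow_exp two_pos h1 h2 h3 hb

theorem differentiableAt_mellin_besselK_mul {ν μ s : ℂ} (hs : |ν.re| + |μ.re| < s.re) :
    DifferentiableAt ℂ (mellin fun y => besselK ν y * besselK μ y) s := by
  obtain ⟨b, hb, h1, h2, h3⟩ := besselK_mul_aux hs
  exact mellin_differentiableAt_of_isBigO_rpow_exp two_pos h1 h2 h3 hb

/-- positivity of a real Mellin transform of a positive function -/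
theorem mellin_pos_of_pos {f : ℝ → ℂ} {g : ℝ → ℝ} (hf : ∀ y, 0 < y → f y = g y)
    (hg : ∀ y, 0 < y → 0 < g y) {s : ℝ} (hs : MellinConvergent f (s : ℂ)) :
    ∃ r : ℝ, 0 < r ∧ mellin f s = r := by
  have h1 : EqOn (fun t : ℝ => (t : ℂ) ^ ((s : ℂ) - 1) • f t)
      (fun t => ((t ^ (s - 1) * g t : ℝ) : ℂ)) (Ioi 0) := by
    intro t ht
    have ht' : 0 < t := ht
    simp only [smul_eq_mul]
    rw [hf t ht']
    push_cast
    rw [Complex.ofReal_cpow ht'.le]
    push_cast
    ring
  refine ⟨∫ t in Ioi (0 : ℝ), t ^ (s - 1) * g t, ?_, ?_⟩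
  · have h2 : IntegrableOn (fun t : ℝ => t ^ (s - 1) * g t) (Ioi 0) := by
      have h3 := (IntegrableOn.congr_fun hs h1 measurableSet_Ioi).re
      simp only [RCLike.re_eq_complex_re, Complex.ofReal_re] at h3
      exact h3
    rw [setIntegral_pos_iff_support_of_nonneg_ae _ h2]
    · have : (Function.support fun t : ℝ => t ^ (s - 1) * g t) ∩ Ioi 0 = Ioi 0 := by
        refine inter_eq_right.mpr fun t ht => ?_
        exact (mul_pos (Real.rpow_pos_of_pos ht _) (hg t ht)).ne'
      rw [this]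
      simp
    · filter_upwards [self_mem_ae_restrict measurableSet_Ioi] with t ht
      exact (mul_pos (Real.rpow_pos_of_pos ht _) (hg t ht)).le
  · rw [mellin, setIntegral_congr_fun measurableSet_Ioi h1, integral_complex_ofReal]

theorem mellin_besselK_ofReal_pos {σ s : ℝ} (hs : |σ| < s) :
    ∃ r : ℝ, 0 < r ∧ mellin (besselK σ) s = r :=
  mellin_pos_of_pos (g := fun y => bkR σ y / 2) (fun y _ => besselK_ofReal σ y)
    (fun _ hy => half_pos (bkR_pos σ hy)) (mellinConvergent_besselK (by simpa using hs))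

theorem mellin_besselK_sq_pos {σ s : ℝ} (hs : 2 * |σ| < s) :
    ∃ r : ℝ, 0 < r ∧ mellin (fun y => besselK σ y * besselK σ y) s = r :=
  mellin_pos_of_pos (g := fun y => (bkR σ y / 2) * (bkR σ y / 2))
    (fun y _ => by rw [besselK_ofReal]; push_cast; ring)
    (fun _ hy => mul_pos (half_pos (bkR_pos σ hy)) (half_pos (bkR_pos σ hy)))
    (mellinConvergent_besselK_mul (by simpa [two_mul] using hs))

/-! ### the explicit Mellin transform -/

theorem rpow_neg_cosh_le {s : ℝ} (hs : 0 ≤ s) (t : ℝ) :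
    Real.cosh t ^ (-s) ≤ 2 ^ s * Real.exp (-(s * |t|)) := by
  have h1 := exp_abs_half_le_cosh t
  have h2 : Real.cosh t ^ (-s) ≤ (Real.exp |t| / 2) ^ (-s) :=
    Real.rpow_le_rpow_of_nonpos (by positivity) h1 (by linarith)
  refine h2.trans (le_of_eq ?_)
  rw [Real.div_rpow (Real.exp_pos _).le two_pos.le, ← Real.exp_mul,
    Real.rpow_neg two_pos.le, div_inv_eq_mul, mul_comm]
  congr 2
  ring

theorem mellin_besselK_eq_integral {ν s : ℂ} (hs : |ν.re| < s.re) :
    2 * mellin (besselK ν) s =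
      Complex.Gamma s * ∫ t : ℝ, Complex.exp (ν * t) * ((1 / Real.cosh t : ℝ) : ℂ) ^ s := by
  have hs0 : 0 < s.re := (abs_nonneg _).trans_lt hs
  set F : ℝ → ℝ → ℂ := fun y t => (y : ℂ) ^ (s - 1) * bkI ν y t with hF
  have hmeas : AEStronglyMeasurable (Function.uncurry F)
      ((volume.restrict (Ioi 0)).prod volume) := by
    have h1 : Measurable fun p : ℝ × ℝ => (p.1 : ℂ) ^ (s - 1) :=
      (Complex.measurable_ofReal.comp measurable_fst).pow_const _
    have h2 : Measurable fun p : ℝ × ℝ => bkI ν p.1 p.2 := by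
      have : Continuous fun p : ℝ × ℝ => bkI ν p.1 p.2 := by
        unfold bkI
        fun_prop
      exact this.measurable
    exact (h1.mul h2).aestronglyMeasurable
  have hnorm : ∀ y t : ℝ, 0 < y → ‖F y t‖ =
      Real.exp (ν.re * t) * (y ^ (s.re - 1) * Real.exp (-(Real.cosh t * y))) := by
    intro y t hy
    rw [hF]
    simp only
    rw [norm_mul, norm_bkI, Complex.norm_cpow_eq_rpow_re_of_pos hy, bkr, mul_left_comm,
      ← Real.exp_add]
    congr 2
    ring
  have hint : Integrable (Function.uncurry F) ((volume.restrict (Ioi 0)).prod volume) := by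
    rw [integrable_prod_iff' hmeas]
    have hI : ∀ t : ℝ, IntegrableOn
        (fun y : ℝ => Real.exp (ν.re * t) * (y ^ (s.re - 1) * Real.exp (-(Real.cosh t * y))))
        (Ioi 0) := by
      intro t
      have h := integrableOn_rpow_mul_exp_neg_mul_rpow (p := 1) (s := s.re - 1)
        (b := Real.cosh t) (by linarith) one_pos (Real.cosh_pos t)
      simp only [Real.rpow_one, neg_mul] at h
      exact h.const_mul _
    constructor
    · refine ae_of_all _ fun t => ?_
      refine (integrable_norm_iff ?_).mp ?_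
      · have h1 : Measurable fun y : ℝ => (y : ℂ) ^ (s - 1) :=
          Complex.measurable_ofReal.pow_const _
        have h2 : Measurable fun y : ℝ => bkI ν y t := by
          have : Continuous fun y : ℝ => bkI ν y t := by
            unfold bkI
            fun_prop
          exact this.measurable
        exact (h1.mul h2).aestronglyMeasurable
      · exact (hI t).congr_fun (fun y hy => (hnorm y t hy).symm) measurableSet_Ioi
    · have h1 : ∀ t : ℝ, ∫ y in Ioi (0 : ℝ), ‖Function.uncurry F (y, t)‖ =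
          Real.exp (ν.re * t) * ((1 / Real.cosh t) ^ s.re * Real.Gamma s.re) := by
        intro t
        rw [← Real.integral_rpow_mul_exp_neg_mul_Ioi hs0 (Real.cosh_pos t),
          ← integral_const_mul]
        exact setIntegral_congr_fun measurableSet_Ioi fun y hy => hnorm y t hy
      simp_rw [h1]
      have h2 := (integrable_exp_neg_mul_abs (sub_pos.mpr hs)).const_mul
        (2 ^ s.re * Real.Gamma s.re)
      have hcont : Continuous fun t : ℝ =>
          Real.exp (ν.re * t) * ((1 / Real.cosh t) ^ s.re * Real.Gamma s.re) := by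
        refine (by fun_prop : Continuous fun t : ℝ => Real.exp (ν.re * t)).mul
          (Continuous.mul ?_ continuous_const)
        refine Continuous.rpow_const ?_ fun _ => Or.inr hs0.le
        exact continuous_const.div Real.continuous_cosh fun t => (Real.cosh_pos t).ne'
      refine h2.mono' hcont.aestronglyMeasurable (ae_of_all _ fun t => ?_)
      have hG : 0 < Real.Gamma s.re := Real.Gamma_pos_of_pos hs0
      have h3 := rpow_neg_cosh_le hs0.le t
      have h4 : (1 / Real.cosh t) ^ s.re = Real.cosh t ^ (-s.re) := by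
        rw [one_div, Real.inv_rpow (Real.cosh_pos t).le, Real.rpow_neg (Real.cosh_pos t).le]
      have h5 : 0 < Real.cosh t ^ (-s.re) := Real.rpow_pos_of_pos (Real.cosh_pos t) _
      rw [h4, Real.norm_of_nonneg (by positivity)]
      have h6 : Real.exp (ν.re * t) ≤ Real.exp (|ν.re| * |t|) :=
        Real.exp_le_exp.mpr ((le_abs_self _).trans (abs_mul _ t).le)
      calc Real.exp (ν.re * t) * (Real.cosh t ^ (-s.re) * Real.Gamma s.re)
          ≤ Real.exp (|ν.re| * |t|) *
            ((2 ^ s.re * Real.exp (-(s.re * |t|))) * Real.Gamma s.re) := by gcongr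
        _ = 2 ^ s.re * Real.Gamma s.re *
            (Real.exp (|ν.re| * |t|) * Real.exp (-(s.re * |t|))) := by ring
        _ = _ := by
          rw [← Real.exp_add]
          congr 2
          ring
  have h1 : ∀ t : ℝ, ∫ y in Ioi (0 : ℝ), F y t =
      Complex.Gamma s * (Complex.exp (ν * t) * ((1 / Real.cosh t : ℝ) : ℂ) ^ s) := by
    intro t
    have h := Complex.integral_cpow_mul_exp_neg_mul_Ioi hs0 (Real.cosh_pos t)
    calc ∫ y in Ioi (0 : ℝ), F y t = ∫ y in Ioi (0 : ℝ), Complex.exp (ν * t) *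
          ((y : ℂ) ^ (s - 1) * Complex.exp (-((Real.cosh t : ℝ) * y))) := by
          refine setIntegral_congr_fun measurableSet_Ioi fun y _ => ?_
          simp only [hF]
          rw [bkI, mul_left_comm, ← Complex.exp_add]
          congr 2
          ring
      _ = _ := by
          rw [integral_const_mul, h]
          push_cast
          ring
  calc 2 * mellin (besselK ν) s = ∫ y in Ioi (0 : ℝ), ∫ t : ℝ, F y t := by
        rw [mellin, ← integral_const_mul]
        refine setIntegral_congr_fun measurableSet_Ioi fun y hy => ?_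
        simp only [smul_eq_mul, hF]
        rw [integral_const_mul, ← two_mul_besselK]
        ring
    _ = ∫ t : ℝ, ∫ y in Ioi (0 : ℝ), F y t := integral_integral_swap hint
    _ = _ := by
        simp_rw [h1]
        rw [integral_const_mul]

theorem sigmoid_eq (x : ℝ) :
    Real.sigmoid x = Real.exp (x / 2) * (1 / (2 * Real.cosh (x / 2))) := by
  have h1 := Real.exp_pos (x / 2)
  have h2 : Real.exp (-x) = (Real.exp (x / 2))⁻¹ * (Real.exp (x / 2))⁻¹ := by
    rw [← Real.exp_neg, ← Real.exp_add]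
    congr 1
    ring
  have h3 : 2 * Real.cosh (x / 2) = Real.exp (x / 2) + (Real.exp (x / 2))⁻¹ := by
    rw [Real.cosh_eq, Real.exp_neg]
    ring
  rw [Real.sigmoid_def, h2, h3]
  field_simp

theorem one_sub_sigmoid_eq (x : ℝ) :
    1 - Real.sigmoid x = Real.exp (-(x / 2)) * (1 / (2 * Real.cosh (x / 2))) := by
  rw [← Real.sigmoid_neg, sigmoid_eq, neg_div, Real.cosh_neg]

theorem betaIntegral_eq_integral (p q : ℂ) : Complex.betaIntegral p q =
    2 * ∫ t : ℝ, Complex.exp ((p - q) * t) * ((1 / (2 * Real.cosh t) : ℝ) : ℂ) ^ (p + q) := by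
  have himg : Real.sigmoid '' univ = Ioo (0 : ℝ) 1 := by
    rw [image_univ, Real.range_sigmoid]
  have h1 := integral_image_eq_integral_abs_deriv_smul (s := univ) (f := Real.sigmoid)
    (f' := fun x => Real.sigmoid x * (1 - Real.sigmoid x)) MeasurableSet.univ
    (fun x _ => (Real.hasDerivAt_sigmoid x).hasDerivWithinAt)
    Real.sigmoid_injective.injOn (fun x : ℝ => (x : ℂ) ^ (p - 1) * (1 - (x : ℂ)) ^ (q - 1))
  rw [himg, setIntegral_univ] at h1
  rw [Complex.betaIntegral, intervalIntegral.integral_of_le zero_le_one,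
    integral_Ioc_eq_integral_Ioo, h1]
  have h2 := Measure.integral_comp_div
    (fun t : ℝ => Complex.exp ((p - q) * t) * ((1 / (2 * Real.cosh t) : ℝ) : ℂ) ^ (p + q)) 2
  rw [abs_of_pos (two_pos : (0 : ℝ) < 2), Complex.real_smul] at h2
  push_cast at h2 ⊢
  rw [← h2]
  refine integral_congr_ae (ae_of_all _ fun x => ?_)
  have hs0 := Real.sigmoid_pos x
  have hs1 : 0 < 1 - Real.sigmoid x := sub_pos.mpr (Real.sigmoid_lt_one x)
  have hc : 0 < 1 / (2 * Real.cosh (x / 2)) := by
    have := Real.cosh_pos (x / 2)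
    positivity
  have hs0' : (Real.sigmoid x : ℂ) ≠ 0 := by exact_mod_cast hs0.ne'
  have hs1' : ((1 - Real.sigmoid x : ℝ) : ℂ) ≠ 0 := by exact_mod_cast hs1.ne'
  have hc' : ((1 / (2 * Real.cosh (x / 2)) : ℝ) : ℂ) ≠ 0 := by exact_mod_cast hc.ne'
  have e1 : (1 - (Real.sigmoid x : ℂ)) = ((1 - Real.sigmoid x : ℝ) : ℂ) := by push_cast; ring
  have e2 : |Real.sigmoid x * (1 - Real.sigmoid x)| •
      ((Real.sigmoid x : ℂ) ^ (p - 1) * (1 - (Real.sigmoid x : ℂ)) ^ (q - 1)) =
      (Real.sigmoid x : ℂ) ^ p * ((1 - Real.sigmoid x : ℝ) : ℂ) ^ q := by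
    rw [e1, abs_of_pos (mul_pos hs0 hs1), Complex.real_smul, Complex.ofReal_mul,
      Complex.cpow_sub _ _ hs0', Complex.cpow_sub _ _ hs1', Complex.cpow_one, Complex.cpow_one]
    field_simp
  beta_reduce
  rw [e2, one_sub_sigmoid_eq, sigmoid_eq, Complex.ofReal_mul, Complex.ofReal_mul,
    Complex.mul_cpow_ofReal_nonneg (Real.exp_pos _).le hc.le,
    Complex.mul_cpow_ofReal_nonneg (Real.exp_pos _).le hc.le, ofReal_exp_cpow, ofReal_exp_cpow]
  have e3 : ((1 / (2 * Real.cosh (x / 2)) : ℝ) : ℂ) = 1 / (2 * Complex.cosh (x / 2)) := by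
    push_cast
    rfl
  rw [e3] at hc' ⊢
  rw [Complex.cpow_add _ _ hc']
  have e4 : Complex.exp ((p - q) * (x / 2)) =
      Complex.exp (((x / 2 : ℝ) : ℂ) * p) * Complex.exp (((-(x / 2) : ℝ) : ℂ) * q) := by
    rw [← Complex.exp_add]
    congr 1
    push_cast
    ring
  rw [e4]
  ring

/-- **The Mellin transform of `K_ν`.** -/
theorem mellin_besselK {ν s : ℂ} (hs : |ν.re| < s.re) :
    mellin (besselK ν) s =
      2 ^ (s - 2) * Complex.Gamma ((s + ν) / 2) * Complex.Gamma ((s - ν) / 2) := by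
  have h1 := abs_lt.mp hs
  have hp : 0 < ((s + ν) / 2).re := by
    rw [show (s + ν) / 2 = ((1 / 2 : ℝ) : ℂ) * (s + ν) by push_cast; ring, Complex.re_ofReal_mul,
      Complex.add_re]
    linarith
  have hq : 0 < ((s - ν) / 2).re := by
    rw [show (s - ν) / 2 = ((1 / 2 : ℝ) : ℂ) * (s - ν) by push_cast; ring, Complex.re_ofReal_mul,
      Complex.sub_re]
    linarith
  have h2 := Complex.Gamma_mul_Gamma_eq_betaIntegral hp hq
  rw [betaIntegral_eq_integral, show (s + ν) / 2 + (s - ν) / 2 = s by ring,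
    show (s + ν) / 2 - (s - ν) / 2 = ν by ring] at h2
  have h3 : ∀ t : ℝ, Complex.exp (ν * t) * ((1 / (2 * Real.cosh t) : ℝ) : ℂ) ^ s =
      ((1 / 2 : ℝ) : ℂ) ^ s * (Complex.exp (ν * t) * ((1 / Real.cosh t : ℝ) : ℂ) ^ s) := by
    intro t
    have hc := Real.cosh_pos t
    rw [show (1 / (2 * Real.cosh t) : ℝ) = 1 / 2 * (1 / Real.cosh t) by field_simp,
      Complex.ofReal_mul, Complex.mul_cpow_ofReal_nonneg (by norm_num) (by positivity)]
    ring
  simp_rw [h3] at h2
  rw [integral_const_mul] at h2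
  have h4 := mellin_besselK_eq_integral hs
  have h5 : ((1 / 2 : ℝ) : ℂ) ^ s = (2 ^ s)⁻¹ := by
    rw [show (1 / 2 : ℝ) = (2 : ℝ)⁻¹ by norm_num, Complex.ofReal_inv, Complex.inv_cpow]
    · norm_num
    · rw [Complex.arg_ofReal_of_nonneg (by norm_num)]
      exact Real.pi_pos.ne
  have h6 : (2 : ℂ) ^ (s - 2) = 2 ^ s / 4 := by
    rw [Complex.cpow_sub _ _ two_ne_zero]
    norm_num
  have h7 : (2 : ℂ) ^ s ≠ 0 := by simp [Complex.cpow_eq_zero_iff]
  rw [h5] at h2
  rw [h6, mul_assoc, h2]
  field_simp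
  linear_combination 2 * h4

end Fermat.Agent.LT
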