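import Fermat.Agent.LT.BesselAsymp

/-!
# Uniqueness of the solution of moderate growth of the modified Bessel equation
-/

set_option autoImplicit false

open MeasureTheory Set Filter Topology

noncomputable section

namespace Fermat.Agent.LT

/-- solutions of the modified Bessel equation on `(0, ∞)` -/
structure IsBessel (ν : ℂ) (W W' : ℝ → ℂ) : Prop where
  hasDerivAt : ∀ y : ℝ, 0 < y → HasDerivAt W (W' y) y
  hasDerivAt' : ∀ y : ℝ, 0 < y → HasDerivAt W' ((1 + ν ^ 2 / y ^ 2) * W y - W' y / y) y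

theorem isBessel_besselK (ν : ℂ) : IsBessel ν (besselK ν) (besselK' ν) :=
  ⟨fun _ hy => hasDerivAt_besselK' ν hy, fun _ hy => hasDerivAt_besselK'' ν hy⟩

variable {ν : ℂ} {W W' V V' : ℝ → ℂ}

theorem IsBessel.sub (hW : IsBessel ν W W') (hV : IsBessel ν V V') :
    IsBessel ν (W - V) (W' - V') where
  hasDerivAt y hy := (hW.hasDerivAt y hy).sub (hV.hasDerivAt y hy)
  hasDerivAt' y hy := by
    convert! (hW.hasDerivAt' y hy).sub (hV.hasDerivAt' y hy) using 1
    simp only [Pi.sub_apply]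
    ring

theorem IsBessel.const_mul (hW : IsBessel ν W W') (a : ℂ) :
    IsBessel ν (fun y => a * W y) (fun y => a * W' y) where
  hasDerivAt y hy := (hW.hasDerivAt y hy).const_mul a
  hasDerivAt' y hy := by
    convert! (hW.hasDerivAt' y hy).const_mul a using 1
    ring

theorem hasDerivAt_ofReal (y : ℝ) : HasDerivAt (fun x : ℝ => (x : ℂ)) 1 y := by
  exact (hasDerivAt_id y).ofReal_comp

/-- `(y W')' = (y + ν² / y) W` -/
theorem IsBessel.hasDerivAt_mul (hW : IsBessel ν W W') {y : ℝ} (hy : 0 < y) :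
    HasDerivAt (fun x : ℝ => (x : ℂ) * W' x) ((y + ν ^ 2 / y) * W y) y := by
  have hy' : (y : ℂ) ≠ 0 := by exact_mod_cast hy.ne'
  convert! (hasDerivAt_ofReal y).mul (hW.hasDerivAt' y hy) using 1
  field_simp
  ring

/-- the Wronskian is constant -/
theorem IsBessel.wronskian (hW : IsBessel ν W W') (hV : IsBessel ν V V') {x y : ℝ} (hx : 0 < x)
    (hy : 0 < y) : W x * (x * V' x) - x * W' x * V x = W y * (y * V' y) - y * W' y * V y := by
  have hd : ∀ y : ℝ, 0 < y → HasDerivAt (fun y : ℝ => W y * ((y : ℂ) * V' y) -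
      (y : ℂ) * W' y * V y) 0 y := by
    intro y hy
    convert! ((hW.hasDerivAt y hy).mul (hV.hasDerivAt_mul hy)).sub
      ((hW.hasDerivAt_mul hy).mul (hV.hasDerivAt y hy)) using 1
    ring
  exact isOpen_Ioi.is_const_of_deriv_eq_zero (isPreconnected_Ioi)
    (fun y hy => (hd y hy).differentiableAt.differentiableWithinAt)
    (fun y hy => (hd y hy).deriv) hx hy

/-- growth of `y W'` -/
theorem IsBessel.norm_mul_le (hW : IsBessel ν W W') {C c : ℝ} (hC : 0 ≤ C) (hc : 0 ≤ c)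
    (hb : ∀ y : ℝ, 1 ≤ y → ‖W y‖ ≤ C * Real.exp (c * y)) {y : ℝ} (hy : 1 ≤ y) :
    ‖(y : ℂ) * W' y‖ ≤ ‖W' 1‖ + (y + ‖ν‖ ^ 2) * (C * Real.exp (c * y)) * (y - 1) := by
  have h1 := norm_image_sub_le_of_norm_deriv_le_segment' (f := fun x : ℝ => (x : ℂ) * W' x)
    (f' := fun x : ℝ => ((x : ℂ) + ν ^ 2 / x) * W x) (a := 1) (b := y)
    (C := (y + ‖ν‖ ^ 2) * (C * Real.exp (c * y)))
    (fun x hx => (hW.hasDerivAt_mul (by linarith [hx.1])).hasDerivWithinAt)
    (fun x hx => ?_) y (right_mem_Icc.mpr hy)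
  · have h2 : ‖(y : ℂ) * W' y‖ ≤ ‖(y : ℂ) * W' y - ((1 : ℝ) : ℂ) * W' 1‖ + ‖W' 1‖ := by
      have := norm_add_le ((y : ℂ) * W' y - ((1 : ℝ) : ℂ) * W' 1) (W' 1)
      simpa using this
    linarith
  · have hx0 : 0 < x := by linarith [hx.1]
    rw [norm_mul]
    refine mul_le_mul ?_ ?_ (norm_nonneg _) (by positivity)
    · refine (norm_add_le _ _).trans (add_le_add ?_ ?_)
      · rw [Complex.norm_real, Real.norm_of_nonneg hx0.le]
        exact hx.2.le
      · rw [norm_div, norm_pow, Complex.norm_real, Real.norm_of_nonneg hx0.le]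
        exact div_le_self (by positivity) hx.1
    · refine (hb x hx.1).trans (mul_le_mul_of_nonneg_left (Real.exp_le_exp.mpr ?_) hC)
      exact mul_le_mul_of_nonneg_left hx.2.le hc

/-- the Wronskian with `K_ν` vanishes -/
theorem IsBessel.wronskian_eq_zero (hW : IsBessel ν W W') {C c : ℝ} (hc : c < 1)
    (hb : ∀ y : ℝ, 1 ≤ y → ‖W y‖ ≤ C * Real.exp (c * y)) {x : ℝ} (hx : 0 < x) :
    W x * (x * besselK' ν x) - x * W' x * besselK ν x = 0 := by
  -- normalise the bound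
  set d := max c 0 with hd
  have hd0 : 0 ≤ d := le_max_right _ _
  have hd1 : d < 1 := max_lt hc one_pos
  have hb' : ∀ y : ℝ, 1 ≤ y → ‖W y‖ ≤ |C| * Real.exp (d * y) := by
    intro y hy
    refine (hb y hy).trans (mul_le_mul (le_abs_self C) (Real.exp_le_exp.mpr ?_)
      (Real.exp_pos _).le (abs_nonneg C))
    exact mul_le_mul_of_nonneg_right (le_max_left _ _) (by linarith)
  set A := Real.exp 1 * (bkR ν.re 1 / 2) with hA
  set B := Real.exp 1 * (bkR (ν + 1).re 1 / 2) with hB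
  have hA0 : 0 < A := by have := bkR_pos ν.re one_pos; positivity
  have hB0 : 0 < B := by have := bkR_pos (ν + 1).re one_pos; positivity
  have hK : ∀ y : ℝ, 1 ≤ y → ‖besselK ν y‖ ≤ A * Real.exp (-y) := by
    intro y hy
    refine (norm_besselK_le_exp ν one_pos hy).trans (le_of_eq ?_)
    rw [hA, show -(y - 1) = 1 + -y by ring, Real.exp_add]
    ring
  have hK1 : ∀ y : ℝ, 1 ≤ y → ‖besselK (ν + 1) y‖ ≤ B * Real.exp (-y) := by
    intro y hy
    refine (norm_besselK_le_exp (ν + 1) one_pos hy).trans (le_of_eq ?_)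
    rw [hB, show -(y - 1) = 1 + -y by ring, Real.exp_add]
    ring
  have hK' : ∀ y : ℝ, 1 ≤ y → ‖(y : ℂ) * besselK' ν y‖ ≤ y * ((‖ν‖ * A + B) * Real.exp (-y)) := by
    intro y hy
    have hy' : (y : ℂ) ≠ 0 := by exact_mod_cast (by linarith : y ≠ 0)
    have e1 : (y : ℂ) * besselK' ν y = ν * besselK ν y - y * besselK (ν + 1) y := by
      rw [besselK']; field_simp
    rw [e1]
    refine (norm_sub_le _ _).trans ?_
    rw [norm_mul, norm_mul, Complex.norm_real, Real.norm_of_nonneg (by linarith : (0 : ℝ) ≤ y)]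
    have h1 := mul_le_mul_of_nonneg_left (hK y hy) (norm_nonneg ν)
    have h2 := mul_le_mul_of_nonneg_left (hK1 y hy) (by linarith : (0 : ℝ) ≤ y)
    have h3 : ‖ν‖ * (A * Real.exp (-y)) ≤ y * (‖ν‖ * (A * Real.exp (-y))) :=
      le_mul_of_one_le_left (by positivity) hy
    nlinarith
  -- the bound for the Wronskian
  set D := |C| * (‖ν‖ * A + B) + (‖W' 1‖ + (1 + ‖ν‖ ^ 2) * |C|) * A with hD
  have hw : ∀ y : ℝ, 1 ≤ y → ‖W y * (y * besselK' ν y) - y * W' y * besselK ν y‖ ≤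
      D * (y ^ 2 * Real.exp (-((1 - d) * y))) := by
    intro y hy
    have hy2 : y ≤ y ^ 2 := by nlinarith
    have e0 : Real.exp (d * y) * Real.exp (-y) = Real.exp (-((1 - d) * y)) := by
      rw [← Real.exp_add]; congr 1; ring
    have h0 : 1 ≤ Real.exp (d * y) := Real.one_le_exp (by positivity)
    have h1 : ‖W y * (y * besselK' ν y)‖ ≤
        |C| * (‖ν‖ * A + B) * (y ^ 2 * Real.exp (-((1 - d) * y))) := by
      rw [norm_mul]
      refine (mul_le_mul (hb' y hy) (hK' y hy) (norm_nonneg _) (by positivity)).trans ?_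
      have e1 : |C| * Real.exp (d * y) * (y * ((‖ν‖ * A + B) * Real.exp (-y))) =
          |C| * (‖ν‖ * A + B) * (y * Real.exp (-((1 - d) * y))) := by rw [← e0]; ring
      rw [e1]
      refine mul_le_mul_of_nonneg_left ?_ (by positivity)
      exact mul_le_mul_of_nonneg_right hy2 (Real.exp_pos _).le
    have h2 : ‖(y : ℂ) * W' y * besselK ν y‖ ≤
        (‖W' 1‖ + (1 + ‖ν‖ ^ 2) * |C|) * A * (y ^ 2 * Real.exp (-((1 - d) * y))) := by
      rw [norm_mul]
      have h3 := hW.norm_mul_le (abs_nonneg C) hd0 hb' hy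
      have h4 : ‖W' 1‖ + (y + ‖ν‖ ^ 2) * (|C| * Real.exp (d * y)) * (y - 1) ≤
          (‖W' 1‖ + (1 + ‖ν‖ ^ 2) * |C|) * (y ^ 2 * Real.exp (d * y)) := by
        have h5 : ‖W' 1‖ ≤ ‖W' 1‖ * (y ^ 2 * Real.exp (d * y)) := by
          refine le_mul_of_one_le_right (norm_nonneg _) ?_
          nlinarith [Real.exp_pos (d * y)]
        have h6 : (y + ‖ν‖ ^ 2) * (y - 1) ≤ (1 + ‖ν‖ ^ 2) * y ^ 2 := by
          nlinarith [sq_nonneg ‖ν‖, mul_nonneg (sq_nonneg ‖ν‖) (by nlinarith : 0 ≤ y ^ 2 - y + 1)]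
        have h7 := mul_le_mul_of_nonneg_right h6
          (mul_nonneg (abs_nonneg C) (Real.exp_pos (d * y)).le)
        nlinarith
      refine (mul_le_mul (h3.trans h4) (hK y hy) (norm_nonneg _) (by positivity)).trans
        (le_of_eq ?_)
      rw [← e0]; ring
    refine (norm_sub_le _ _).trans ?_
    rw [hD]
    linarith
  have hlim : Tendsto (fun y : ℝ => D * (y ^ 2 * Real.exp (-((1 - d) * y)))) atTop (𝓝 0) := by
    have h1 := (Real.tendsto_pow_mul_exp_neg_atTop_nhds_zero 2).comp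
      (tendsto_id.const_mul_atTop (by linarith : 0 < 1 - d))
    have h2 := (h1.const_mul ((1 - d) ^ 2)⁻¹).const_mul D
    simp only [mul_zero] at h2
    refine h2.congr fun y => ?_
    simp only [Function.comp, id]
    have : (1 - d) ≠ 0 := by linarith
    field_simp
  have hconst : Tendsto (fun y : ℝ => W y * (y * besselK' ν y) - y * W' y * besselK ν y) atTop
      (𝓝 (W x * (x * besselK' ν x) - x * W' x * besselK ν x)) := by
    refine tendsto_const_nhds.congr' ?_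
    filter_upwards [eventually_gt_atTop 0] with y hy
    exact hW.wronskian (isBessel_besselK ν) hx hy
  refine tendsto_nhds_unique hconst ?_
  refine squeeze_zero_norm' ?_ hlim
  filter_upwards [eventually_ge_atTop 1] with y hy
  exact hw y hy

/-- the system associated with the Bessel equation -/
def bvec (ν : ℂ) (t : ℝ) (x : ℂ × ℂ) : ℂ × ℂ := (x.2, (1 + ν ^ 2 / t ^ 2) * x.1 - x.2 / t)

theorem lipschitz_bvec (ν : ℂ) {a t : ℝ} (ha : 0 < a) (hat : a < t) :
    LipschitzOnWith (Real.toNNReal (1 + ‖ν‖ ^ 2 / a ^ 2 + 1 / a + 1)) (bvec ν t) univ := by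
  refine LipschitzOnWith.of_dist_le_mul fun x _ y _ => ?_
  have hK : 0 ≤ 1 + ‖ν‖ ^ 2 / a ^ 2 + 1 / a + 1 := by positivity
  rw [Real.coe_toNNReal _ hK, dist_eq_norm, dist_eq_norm]
  have ht : 0 < t := ha.trans hat
  have h1 : ‖x.1 - y.1‖ ≤ ‖x - y‖ := norm_fst_le (x - y)
  have h2 : ‖x.2 - y.2‖ ≤ ‖x - y‖ := norm_snd_le (x - y)
  have h3 : ‖(1 + ν ^ 2 / t ^ 2 : ℂ)‖ ≤ 1 + ‖ν‖ ^ 2 / a ^ 2 := by
    refine (norm_add_le _ _).trans (add_le_add (by simp) ?_)
    rw [norm_div, norm_pow, norm_pow, Complex.norm_real, Real.norm_of_nonneg ht.le]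
    exact div_le_div_of_nonneg_left (by positivity) (by positivity)
      (pow_le_pow_left₀ ha.le hat.le 2)
  have h4 : ‖(x.2 - y.2) / t‖ ≤ 1 / a * ‖x - y‖ := by
    rw [norm_div, Complex.norm_real, Real.norm_of_nonneg ht.le, div_eq_mul_inv, mul_comm]
    refine mul_le_mul ?_ h2 (norm_nonneg _) (by positivity)
    rw [one_div]
    exact inv_anti₀ ha hat.le
  rw [Prod.norm_def]
  refine max_le ?_ ?_
  · have e1 : (bvec ν t x - bvec ν t y).1 = x.2 - y.2 := rfl
    rw [e1]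
    refine h2.trans (le_mul_of_one_le_left (norm_nonneg _) ?_)
    have : 0 ≤ ‖ν‖ ^ 2 / a ^ 2 + 1 / a + 1 := by positivity
    linarith
  · have e1 : (bvec ν t x - bvec ν t y).2 =
        (1 + ν ^ 2 / t ^ 2) * (x.1 - y.1) - (x.2 - y.2) / t := by
      simp only [bvec, Prod.snd_sub]
      ring
    rw [e1]
    refine (norm_sub_le _ _).trans ?_
    rw [norm_mul]
    have h5 := mul_le_mul h3 h1 (norm_nonneg _) (by positivity)
    have h6 := norm_nonneg (x - y)
    nlinarith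

/-- uniqueness for the initial value problem -/
theorem IsBessel.eq_zero (hV : IsBessel ν V V') {y₁ : ℝ} (hy₁ : 0 < y₁) (h0 : V y₁ = 0)
    (h1 : V' y₁ = 0) {y : ℝ} (hy : 0 < y) : V y = 0 := by
  set a := min y y₁ / 2 with ha
  set b := max y y₁ + 1 with hb
  have ha0 : 0 < a := half_pos (lt_min hy hy₁)
  have hmem : ∀ z : ℝ, min y y₁ ≤ z → z ≤ max y y₁ → z ∈ Ioo a b := fun z h h' =>
    ⟨by have : 0 < min y y₁ := lt_min hy hy₁
        rw [ha]; linarith, by rw [hb]; linarith⟩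
  have key := ODE_solution_unique_of_mem_Ioo (v := bvec ν) (s := fun _ => univ)
    (K := Real.toNNReal (1 + ‖ν‖ ^ 2 / a ^ 2 + 1 / a + 1)) (a := a) (b := b) (t₀ := y₁)
    (f := fun t => (V t, V' t)) (g := fun _ => (0, 0))
    (fun t ht => lipschitz_bvec ν ha0 ht.1) (hmem y₁ (min_le_right _ _) (le_max_right _ _))
    (fun t ht => ⟨?_, mem_univ _⟩) (fun t ht => ⟨?_, mem_univ _⟩) (by simp [h0, h1])
  · exact congrArg Prod.fst (key (hmem y (min_le_left _ _) (le_max_left _ _)))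
  · have ht0 : 0 < t := ha0.trans ht.1
    exact (hV.hasDerivAt t ht0).prodMk (hV.hasDerivAt' t ht0)
  · have : bvec ν t (0, 0) = 0 := by simp [bvec]
    rw [this]
    exact hasDerivAt_const t _

/-- **Uniqueness**: a solution of the modified Bessel equation which is `O(exp (c y))`, `c < 1`, at
infinity is a multiple of `K_ν`. -/
theorem IsBessel.eq_mul (hW : IsBessel ν W W') {C c : ℝ} (hc : c < 1)
    (hb : ∀ y : ℝ, 1 ≤ y → ‖W y‖ ≤ C * Real.exp (c * y)) :
    ∃ a : ℂ, ∀ y : ℝ, 0 < y → W y = a * besselK ν y := by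
  obtain ⟨y₁, hy₁, hy₁0⟩ : ∃ y₁ : ℝ, besselK ν y₁ ≠ 0 ∧ 0 < y₁ :=
    ((eventually_besselK_ne_zero ν).and (eventually_gt_atTop 0)).exists
  have hw := hW.wronskian_eq_zero hc hb hy₁0
  have hy1' : (y₁ : ℂ) ≠ 0 := by exact_mod_cast hy₁0.ne'
  refine ⟨W y₁ / besselK ν y₁, fun y hy => ?_⟩
  have hV := hW.sub ((isBessel_besselK ν).const_mul (W y₁ / besselK ν y₁))
  have h := hV.eq_zero hy₁0 (by simp [hy₁]) ?_ hy
  · simpa [sub_eq_zero] using h
  · simp only [Pi.sub_apply]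
    field_simp
    have h2 : (y₁ : ℂ) * (W y₁ * besselK' ν y₁ - W' y₁ * besselK ν y₁) = 0 := by
      linear_combination hw
    have h3 := (mul_eq_zero.mp h2).resolve_left hy1'
    linear_combination -h3

end Fermat.Agent.LT
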