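import Mathlib
import Fermat.Agent.LT.Theta

/-!
# The additive character for `K = ℚ(√-3)` (helper99)

`K` a quadratic number field, `s ∈ 𝓞 K` with `s ^ 2 = -3`: the inverse different is `s⁻¹ 𝓞 K`,
and the character `x ↦ θ(s⁻¹ x)` has conductor exactly `∏ O_v`.
-/

set_option autoImplicit false

open NumberField IsDedekindDomain HeightOneSpectrum WithZero
open scoped WithZero FourierTransform nonZeroDivisors ComplexConjugate

noncomputable section

namespace Fermat.Agent.LT.Chr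

open Fermat.Agent.LT.Loc

variable {K : Type*} [Field K] [NumberField K]

omit [NumberField K] in
theorem sq3_coe {s : 𝓞 K} (hs : s ^ 2 = -3) : (s : K) ^ 2 = -3 := by
  have := congrArg (algebraMap (𝓞 K) K) hs
  rw [map_pow, map_neg, map_ofNat] at this
  exact this

theorem sq3_ne_zero {s : 𝓞 K} (hs : s ^ 2 = -3) : (s : K) ≠ 0 := by
  intro h
  have h1 := sq3_coe hs
  rw [h] at h1
  norm_num at h1

theorem sq3_inv {s : 𝓞 K} (hs : s ^ 2 = -3) : (s : K)⁻¹ = -(s : K) / 3 := by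
  have h0 := sq3_ne_zero hs
  have h1 := sq3_coe hs
  field_simp
  linear_combination h1

theorem sq3_irr {s : 𝓞 K} (hs : s ^ 2 = -3) (q : ℚ) : (s : K) ≠ algebraMap ℚ K q := by
  intro h
  have h1 := sq3_coe hs
  rw [h] at h1
  have h2 : q ^ 2 = -3 := by
    have : algebraMap ℚ K (q ^ 2) = algebraMap ℚ K (-3) := by
      rw [map_pow, h1]; simp
    exact (algebraMap ℚ K).injective this
  nlinarith [sq_nonneg q]

/-- coordinates with respect to `1, s`. -/
theorem exists_coord (hK : Module.finrank ℚ K = 2) {s : 𝓞 K} (hs : s ^ 2 = -3) (c : K) :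
    ∃ x y : ℚ, c = algebraMap ℚ K x + algebraMap ℚ K y * (s : K) := by
  have hli : LinearIndependent ℚ ![(1 : K), (s : K)] := by
    rw [LinearIndependent.pair_iff]
    intro a b hab
    by_cases hb : b = 0
    · subst hb
      simp only [zero_smul, add_zero] at hab
      refine ⟨?_, rfl⟩
      rw [Algebra.smul_def, mul_one] at hab
      exact (map_eq_zero _).mp hab
    · exfalso
      refine sq3_irr hs (-a / b) ?_
      rw [Algebra.smul_def, Algebra.smul_def, mul_one] at hab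
      have hb' : algebraMap ℚ K b ≠ 0 := by rwa [ne_eq, map_eq_zero]
      rw [map_div₀, map_neg, eq_div_iff hb']
      linear_combination hab
  have hspan : Submodule.span ℚ (Set.range ![(1 : K), (s : K)]) = ⊤ :=
    hli.span_eq_top_of_card_eq_finrank (by rw [hK]; simp)
  have hc : c ∈ Submodule.span ℚ (Set.range ![(1 : K), (s : K)]) := by rw [hspan]; trivial
  rw [Matrix.range_cons, Matrix.range_cons, Matrix.range_empty, Set.union_empty] at hc
  rw [show ({(1 : K)} : Set K) ∪ {(s : K)} = {1, (s : K)} from rfl, Submodule.mem_span_pair] at hc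
  obtain ⟨x, y, hxy⟩ := hc
  refine ⟨x, y, ?_⟩
  rw [← hxy, Algebra.smul_def, Algebra.smul_def, mul_one]

theorem trace_s {s : 𝓞 K} (hs : s ^ 2 = -3) : Algebra.trace ℚ K (s : K) = 0 := by
  classical
  have h1 : ((Algebra.trace ℚ K (s : K) : ℚ) : ℂ) = ∑ ψ : K →ₐ[ℚ] ℂ, ψ (s : K) := by
    have := trace_eq_sum_embeddings (K := ℚ) (L := K) ℂ (x := (s : K))
    rw [eq_ratCast] at this
    exact this
  have h2 := congrArg Complex.re h1
  rw [Complex.re_sum, Finset.sum_eq_zero] at h2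
  · exact_mod_cast h2
  · intro ψ _
    have h3 : (ψ (s : K)) ^ 2 = -3 := by
      rw [← map_pow, sq3_coe hs, map_neg, map_ofNat]
    have h4 := congrArg Complex.re h3
    have h5 := congrArg Complex.im h3
    rw [sq] at h4 h5
    simp only [Complex.mul_re, Complex.mul_im, Complex.neg_re, Complex.neg_im,
      Complex.re_ofNat, Complex.im_ofNat, neg_zero] at h4 h5
    by_contra hne
    have h6 : (ψ (s : K)).im = 0 := by
      have : (ψ (s : K)).re * (ψ (s : K)).im = 0 := by linarith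
      exact (mul_eq_zero.mp this).resolve_left hne
    rw [h6] at h4
    nlinarith [mul_self_nonneg (ψ (s : K)).re]

theorem trace_coord (hK : Module.finrank ℚ K = 2) {s : 𝓞 K} (hs : s ^ 2 = -3) (x y : ℚ) :
    Algebra.trace ℚ K (algebraMap ℚ K x + algebraMap ℚ K y * (s : K)) = 2 * x := by
  rw [map_add, ← Algebra.smul_def, map_smul, trace_s hs, smul_zero, add_zero,
    Algebra.trace_algebraMap, hK]
  simp

theorem trace_coord_s (hK : Module.finrank ℚ K = 2) {s : 𝓞 K} (hs : s ^ 2 = -3) (x y : ℚ) :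
    Algebra.trace ℚ K ((algebraMap ℚ K x + algebraMap ℚ K y * (s : K)) * (s : K)) = -6 * y := by
  have h1 : (algebraMap ℚ K x + algebraMap ℚ K y * (s : K)) * (s : K) =
      algebraMap ℚ K (-3 * y) + algebraMap ℚ K x * (s : K) := by
    have := sq3_coe hs
    rw [map_mul, show algebraMap ℚ K (-3) = -3 by simp]
    linear_combination (algebraMap ℚ K y) * this
  rw [h1, trace_coord hK hs]
  ring

/-- for an algebraic integer `b`, the trace of `b s` is divisible by `3`. -/
theorem three_dvd_trace (hK : Module.finrank ℚ K = 2) {s : 𝓞 K} (hs : s ^ 2 = -3) (b : 𝓞 K) :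
    ∃ n : ℤ, Algebra.trace ℚ K ((b : K) * (s : K)) = 3 * n := by
  obtain ⟨x, y, hxy⟩ := exists_coord hK hs (b : K)
  obtain ⟨u, hu⟩ := trace_int b
  obtain ⟨w, hw⟩ := trace_int (b * s)
  have hw' : Algebra.trace ℚ K ((b : K) * (s : K)) = w := by
    rw [← hw]; simp
  rw [hxy, trace_coord hK hs] at hu
  have hwy : -6 * y = (w : ℚ) := by rw [← hw', hxy, trace_coord_s hK hs]
  -- the norm
  have h1 : IsIntegral ℤ (algebraMap ℚ K (x ^ 2 + 3 * y ^ 2)) := by
    have h2 : algebraMap ℚ K (x ^ 2 + 3 * y ^ 2) =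
        (b : K) * ((algebraMap (𝓞 K) K) ((u : ℤ) : 𝓞 K) - (b : K)) := by
      rw [map_intCast, show ((u : ℤ) : K) = algebraMap ℚ K (2 * x) by rw [hu]; simp, hxy]
      have := sq3_coe hs
      simp only [map_add, map_mul, map_pow]
      rw [show algebraMap ℚ K 3 = 3 by simp, show algebraMap ℚ K 2 = 2 by simp]
      linear_combination ((algebraMap ℚ K y) ^ 2) * this
    rw [h2]
    exact b.isIntegral_coe.mul ((RingOfIntegers.isIntegral_coe _).sub b.isIntegral_coe)
  have h3 : IsIntegral ℤ (x ^ 2 + 3 * y ^ 2 : ℚ) :=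
    (isIntegral_algebraMap_iff (algebraMap ℚ K).injective).mp h1
  obtain ⟨m, hm⟩ := IsIntegrallyClosed.isIntegral_iff.mp h3
  rw [eq_intCast] at hm
  have h4 : w ^ 2 = 3 * (4 * m - u ^ 2) := by
    have : ((w : ℚ)) ^ 2 = 3 * (4 * m - (u : ℚ) ^ 2) := by
      rw [hm, ← hwy, ← hu]; ring
    exact_mod_cast this
  have h5 : (3 : ℤ) ∣ w := Int.prime_three.dvd_of_dvd_pow (Dvd.intro _ h4.symm)
  obtain ⟨n, rfl⟩ := h5
  exact ⟨n, by rw [hw']; push_cast; ring⟩

/-- **the inverse different of `ℚ(√-3)`**. -/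
theorem trace_int_iff (hK : Module.finrank ℚ K = 2) {s : 𝓞 K} (hs : s ^ 2 = -3) (c : K) :
    (∀ a : 𝓞 K, ∃ n : ℤ, Algebra.trace ℚ K ((a : K) * c) = n) ↔
      ∃ b : 𝓞 K, c = (s : K)⁻¹ * b := by
  have hs0 := sq3_ne_zero hs
  have hs2 := sq3_coe hs
  constructor
  · intro h
    obtain ⟨x, y, hxy⟩ := exists_coord hK hs c
    obtain ⟨u, hu⟩ := h 1
    rw [show ((1 : 𝓞 K) : K) = 1 from rfl, one_mul, hxy, trace_coord hK hs] at hu
    -- the element `ω = (1 + s) / 2`
    have hω : IsIntegral ℤ ((1 + (s : K)) / 2) := by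
      refine ⟨Polynomial.X ^ 2 - Polynomial.X + 1, ?_, ?_⟩
      · have : (Polynomial.X ^ 2 - Polynomial.X + 1 : Polynomial ℤ) =
          Polynomial.X ^ 2 + (-Polynomial.X + 1) := by ring
        rw [this]
        refine Polynomial.monic_X_pow_add ?_
        refine lt_of_le_of_lt (Polynomial.degree_add_le _ _) ?_
        rw [Polynomial.degree_neg, Polynomial.degree_X, Polynomial.degree_one]
        norm_num
      · simp only [Polynomial.eval₂_add, Polynomial.eval₂_sub, Polynomial.eval₂_pow,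
          Polynomial.eval₂_X, Polynomial.eval₂_one]
        field_simp
        linear_combination hs2
    set ω : 𝓞 K := ⟨(1 + (s : K)) / 2, hω⟩ with hωdef
    have hωc : (ω : K) = (1 + (s : K)) / 2 := rfl
    obtain ⟨t, ht⟩ := h ω
    have h1 : (ω : K) * c = algebraMap ℚ K ((x - 3 * y) / 2) +
        algebraMap ℚ K ((x + y) / 2) * (s : K) := by
      rw [hωc, hxy]
      simp only [map_add, map_mul, map_sub, map_div₀]
      rw [show algebraMap ℚ K 3 = 3 by simp, show algebraMap ℚ K 2 = 2 by simp]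
      field_simp
      linear_combination (algebraMap ℚ K y) * hs2
    rw [h1, trace_coord hK hs] at ht
    refine ⟨((t - u : ℤ) : 𝓞 K) + ((u : ℤ) : 𝓞 K) * ω, ?_⟩
    rw [inv_eq_one_div, one_div_mul_eq_div, eq_div_iff hs0, hxy]
    have h2 : algebraMap (𝓞 K) K (((t - u : ℤ) : 𝓞 K) + ((u : ℤ) : 𝓞 K) * ω) =
        algebraMap ℚ K (t - u) + algebraMap ℚ K u * ((1 + (s : K)) / 2) := by
      rw [map_add, map_mul, map_intCast, map_intCast]
      simp only [map_sub, map_intCast]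
      push_cast
      rfl
    refine Eq.trans ?_ h2.symm
    rw [← ht, ← hu]
    simp only [map_mul, map_sub, map_div₀]
    rw [show algebraMap ℚ K 3 = 3 by simp, show algebraMap ℚ K 2 = 2 by simp]
    field_simp
    linear_combination (algebraMap ℚ K y) * hs2
  · rintro ⟨b, rfl⟩ a
    obtain ⟨n, hn⟩ := three_dvd_trace hK hs (a * b)
    refine ⟨-n, ?_⟩
    have h1 : (a : K) * ((s : K)⁻¹ * b) = (-1 / 3 : ℚ) • (((a * b : 𝓞 K) : K) * (s : K)) := by
      rw [sq3_inv hs, Algebra.smul_def]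
      rw [show algebraMap ℚ K (-1 / 3) = -1 / 3 by simp,
        show ((a * b : 𝓞 K) : K) = (a : K) * (b : K) from rfl]
      ring
    rw [h1, map_smul, hn, smul_eq_mul]
    push_cast
    ring

variable {S : Finset (HeightOneSpectrum (𝓞 K))}

theorem inv_mem_OS {s : 𝓞 K} (hs : s ^ 2 = -3)
    (hS : ∀ v : HeightOneSpectrum (𝓞 K), (3 : 𝓞 K) ∈ v.asIdeal → v ∈ S) :
    (s : K)⁻¹ ∈ OS S := by
  intro v hv
  have h1 : s ∉ v.asIdeal := by
    intro h
    refine hv (hS v ?_)
    have h2 : (3 : 𝓞 K) = -(s * s) := by rw [← sq, hs, neg_neg]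
    rw [h2]
    exact v.asIdeal.neg_mem (v.asIdeal.mul_mem_left _ h)
  rw [map_inv₀]
  have h3 : v.valuation K (s : K) = 1 := by
    rw [valuation_eq_one_iff_notMem]
    exact h1
  rw [h3, inv_one]

/-- **the conductor of `x ↦ θ(s⁻¹ x)` is exactly `∏ O_v`**. -/
theorem mem_intF_iff_Q3 (hK : Module.finrank ℚ K = 2) {s : 𝓞 K} (hs : s ^ 2 = -3)
    (hS : ∀ v : HeightOneSpectrum (𝓞 K), (3 : 𝓞 K) ∈ v.asIdeal → v ∈ S) {x : Rf S} :
    x ∈ intF S ↔ ∀ y ∈ intF S, thetaF S (diagF S (s : K)⁻¹ * (x * y)) = 1 := by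
  have hs0 := sq3_ne_zero hs
  have h1 := mem_condF_iff (S := S) (inv_ne_zero hs0) (inv_mem_OS hs hS)
    (trace_int_iff hK hs) (x := diagF S (s : K)⁻¹ * x)
  rw [inv_inv, ← mul_assoc, ← map_mul, mul_inv_cancel₀ hs0, map_one, one_mul, mem_condF] at h1
  rw [← h1]
  refine forall₂_congr fun y _ => ?_
  rw [mul_assoc]

/-- the places above the different are above `3`. -/
theorem three_mem_of_dvd_different (hK : Module.finrank ℚ K = 2) {s : 𝓞 K} (hs : s ^ 2 = -3)
    {v : HeightOneSpectrum (𝓞 K)} (hv : v.asIdeal ∣ differentIdeal ℤ (𝓞 K)) :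
    (3 : 𝓞 K) ∈ v.asIdeal := by
  have h1 : s ∈ differentIdeal ℤ (𝓞 K) := by
    have h2 : algebraMap (𝓞 K) K s ∈
        IsLocalization.coeSubmodule K (differentIdeal ℤ (𝓞 K)) := by
      rw [coeSubmodule_differentIdeal ℤ ℚ, Submodule.mem_div_iff_forall_mul_mem]
      intro c hc
      rw [Submodule.mem_traceDual] at hc
      obtain ⟨b, rfl⟩ := (trace_int_iff hK hs c).mp (fun a => by
        obtain ⟨n, hn⟩ := hc (a : K) (Submodule.mem_one.mpr ⟨a, rfl⟩)
        refine ⟨n, ?_⟩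
        rw [mul_comm, ← Algebra.traceForm_apply, ← hn]
        simp)
      rw [Submodule.mem_one]
      refine ⟨b, ?_⟩
      rw [← mul_assoc]
      rw [show algebraMap (𝓞 K) K s * (s : K)⁻¹ = 1 from mul_inv_cancel₀ (sq3_ne_zero hs), one_mul]
    obtain ⟨s', hs', h3⟩ := h2
    have : s' = s := IsFractionRing.injective (𝓞 K) K h3
    rwa [← this]
  have h2 : s ∈ v.asIdeal := Ideal.dvd_iff_le.mp hv h1
  have h3 : (3 : 𝓞 K) = -(s * s) := by rw [← sq, hs, neg_neg]
  rw [h3]
  exact v.asIdeal.neg_mem (v.asIdeal.mul_mem_left _ h2)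

/-- **perfectness of `x ↦ θ(s⁻¹ x)`** for `K = ℚ(√-3)`. -/
theorem theta_Q3_perfect_iff {I : Type*} [Fintype I] {φ : I → K →+* ℂ} (hφ : IsHalf φ)
    (hK : Module.finrank ℚ K = 2) {s : 𝓞 K} (hs : s ^ 2 = -3)
    (hS : ∀ v : HeightOneSpectrum (𝓞 K), (3 : 𝓞 K) ∈ v.asIdeal → v ∈ S)
    (x : (I → ℂ) × Rf S) :
    (∀ a ∈ OS S, theta S (diag φ S (s : K)⁻¹ * (diag φ S a * x)) = 1) ↔
      ∃ a ∈ OS S, diag φ S a = x :=
  theta_twist_perfect_iff hφ (fun v hv => hS v (three_mem_of_dvd_different hK hs hv))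
    (inv_ne_zero (sq3_ne_zero hs)) (inv_mem_OS hs hS)
    (by rw [inv_inv]; exact fun v _ => v.valuation_le_one s) x

end Fermat.Agent.LT.Chr
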