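import Mathlib
import Fermat.Agent.LT.SAdele
import Fermat.Agent.LT.ThetaQ3
import Fermat.Agent.LT.Kappa.Hecke

/-!
# The character of `A = F_∞ × ∏_{v ∈ S} F_v`: self-duality of `O_S` (helper99)

helper18's ring `AS S`, helper31's `SelfDual`.
-/

set_option autoImplicit false

open NumberField IsDedekindDomain HeightOneSpectrum WithZero
open scoped WithZero FourierTransform nonZeroDivisors ComplexConjugate

noncomputable section

namespace Fermat.Agent.LT.Chr

open Fermat.Agent.LT.Loc Fermat.Agent.LT.Kap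

variable {F : Type*} [Field F] [NumberField F] (S : Finset (HeightOneSpectrum (𝓞 F)))

variable {S} in
theorem algebraMap_eq_diag (a : F) :
    algebraMap F (AS S) a = diag (fun w : InfinitePlace F => w.embedding) S a := rfl

variable {S} in
theorem algebraMap_OS_eq_diag (a : OS S) :
    algebraMap (OS S) (AS S) a = diag (fun w : InfinitePlace F => w.embedding) S (a : F) := rfl

/-- the character `x ↦ θ(δ x)` of `A`. -/
def thetaA (δ : F) : AddChar (AS S) Circle :=
  (theta (I := InfinitePlace F) S).compAddMonoidHom (AddMonoidHom.mulLeft (algebraMap F (AS S) δ))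

theorem thetaA_apply (δ : F) (x : AS S) :
    thetaA S δ x = theta (I := InfinitePlace F) S (algebraMap F (AS S) δ * x) := rfl

theorem thetaA_inl (δ : F) (z : Rinf F) :
    thetaA S δ (z, 0) = 𝐞 (∑ w : InfinitePlace F, 2 * (w.embedding δ * z w).re) := by
  rw [thetaA_apply, theta_apply, Prod.fst_mul, Prod.snd_mul, mul_zero, AddChar.map_zero_eq_one,
    mul_one]
  rfl

theorem thetaA_inr (δ : F) (x : Loc.Rf S) :
    thetaA S δ (0, x) = thetaF S (diagF S δ * x) := by
  rw [thetaA_apply, theta_apply, Prod.fst_mul, Prod.snd_mul, mul_zero, trI_zero,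
    AddChar.map_zero_eq_one, one_mul]
  rfl

variable [IsTotallyComplex F]

/-- **self-duality of `O_S`**. -/
theorem selfDual_thetaA {δ : F} (hδ0 : δ ≠ 0) (hδ : δ ∈ OS S) (hδ' : δ⁻¹ ∈ OS S)
    (hS : ∀ v : HeightOneSpectrum (𝓞 F), v.asIdeal ∣ differentIdeal ℤ (𝓞 F) → v ∈ S) :
    SelfDual (OS S) (thetaA S δ) where
  cont := (continuous_theta (I := InfinitePlace F) (S := S)).comp
    (continuous_const.mul continuous_id)
  perp x := by
    have h := theta_twist_perfect_iff (S := S) isHalf_infinitePlace hS hδ0 hδ hδ' x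
    constructor
    · intro h1
      obtain ⟨a, ha, h2⟩ := h.mp fun a ha => h1 ⟨a, ha⟩
      exact ⟨⟨a, ha⟩, h2⟩
    · rintro ⟨a, h1⟩ b
      exact h.mpr ⟨a.1, a.2, h1⟩ b.1 b.2

theorem selfDual_thetaA_one
    (hS : ∀ v : HeightOneSpectrum (𝓞 F), v.asIdeal ∣ differentIdeal ℤ (𝓞 F) → v ∈ S) :
    SelfDual (OS S) (thetaA S 1) :=
  selfDual_thetaA S one_ne_zero (Subalgebra.one_mem _) (by rw [inv_one]; exact Subalgebra.one_mem _)
    hS

/-- **self-duality for `ℚ(√-3)`**, the character with conductor `∏ O_v`. -/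
theorem selfDual_thetaA_Q3 (hK : Module.finrank ℚ F = 2) {s : 𝓞 F} (hs : s ^ 2 = -3)
    (hS : ∀ v : HeightOneSpectrum (𝓞 F), (3 : 𝓞 F) ∈ v.asIdeal → v ∈ S) :
    SelfDual (OS S) (thetaA S (s : F)⁻¹) :=
  selfDual_thetaA S (inv_ne_zero (sq3_ne_zero hs)) (inv_mem_OS hs hS)
    (by rw [inv_inv]; exact fun v _ => v.valuation_le_one s)
    (fun v hv => hS v (three_mem_of_dvd_different hK hs hv))

end Fermat.Agent.LT.Chr
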