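import Fermat.Agent.LT.LocalGal
import Fermat.Agent.LT.AdicInt

/-!
# Split and non split primes, the product of the completions above a prime
-/

set_option autoImplicit false

open IsDedekindDomain NumberField
open scoped WithZero Topology Pointwise

namespace Fermat.Agent.LT.Ext

section Cor

variable {K L : Type*} [Field K] [Field L] [NumberField K] [NumberField L] [Algebra K L]
  (v : HeightOneSpectrum (𝓞 K)) (w : HeightOneSpectrum (𝓞 L)) [w.asIdeal.LiesOver v.asIdeal]
  (G : Type*) [Group G] [Finite G] [MulSemiringAction G L] [IsGaloisGroup G K L]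

/-- `[L_w : K_v]` is the order of the decomposition group. -/
theorem finrank_comp :
    letI := algebraComp (K := K) (L := L) v w
    Module.finrank (v.adicCompletion K) (w.adicCompletion L) =
      Nat.card (MulAction.stabilizer G w) := by
  letI := algebraComp (K := K) (L := L) v w
  letI := actComp (L := L) w G
  have := isGaloisGroup_comp (K := K) v w G
  exact (IsGaloisGroup.card_eq_finrank (MulAction.stabilizer G w) (v.adicCompletion K)
    (w.adicCompletion L)).symm

include G in
theorem finiteDimensional_comp :
    letI := algebraComp (K := K) (L := L) v w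
    FiniteDimensional (v.adicCompletion K) (w.adicCompletion L) := by
  letI := algebraComp (K := K) (L := L) v w
  letI := actComp (L := L) w G
  have := isGaloisGroup_comp (K := K) v w G
  exact IsGaloisGroup.finiteDimensional (MulAction.stabilizer G w) (v.adicCompletion K)
    (w.adicCompletion L)

theorem ext_one {w' : HeightOneSpectrum (𝓞 L)} (h : (1 : G) • w' = w)
    (x : ∀ w : HeightOneSpectrum (𝓞 L), w.adicCompletion L) :
    (compat_of_smul_eq (L := L) h).ext (x w') = x w := by
  rw [one_smul] at h
  subst h
  have h1 : (compat_of_smul_eq (L := L) (one_smul G w')).ext = RingHom.id _ :=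
    ((compat_of_smul_eq (L := L) (one_smul G w')).ext_unique continuous_id
      fun y => by
        change algebraMap L (w'.adicCompletion L) y = algebraMap L _ ((1 : G) • y)
        rw [one_smul]).symm
  exact congrArg (fun F : w'.adicCompletion L →+* w'.adicCompletion L => F (x w')) h1

/-- If the decomposition group is trivial, `K_v → L_w` is bijective. -/
theorem bijective_ext_of_stabilizer (h : MulAction.stabilizer G w = ⊥) :
    Function.Bijective (compat_liesOver (K := K) (L := L) v w).ext := by
  refine ⟨Compat.injective_ext _, fun x => mem_range_of_fixed v w G x fun σ => ?_⟩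
  obtain ⟨σ, hσ⟩ := σ
  obtain rfl : σ = 1 := by
    rwa [h, Subgroup.mem_bot] at hσ
  letI := actComp (L := L) w G
  exact one_smul (MulAction.stabilizer G w) x

omit [NumberField K] [NumberField L] [Algebra K L] in
theorem e_eq_one_of_surjective {R S : Type*} [CommRing R] [IsDedekindDomain R] [CommRing S]
    [IsDedekindDomain S] [Algebra R K] [IsFractionRing R K] [Algebra S L] [IsFractionRing S L]
    {v : HeightOneSpectrum R} {w : HeightOneSpectrum S} {f : K →+* L} {e : ℕ}
    (h : Compat v w f e) (hs : Function.Surjective h.ext) : e = 1 := by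
  obtain ⟨y, hy⟩ := surjective_v' (v := w) (K := L) (WithZero.exp (-1 : ℤ))
  obtain ⟨x, rfl⟩ := hs y
  rw [h.valued_ext] at hy
  have hx : Valued.v x ≠ 0 := by
    intro h0
    rw [h0, zero_pow h.ne] at hy
    exact WithZero.exp_ne_zero hy.symm
  rw [← WithZero.exp_log hx, ← WithZero.exp_nsmul] at hy
  have h1 := WithZero.exp_injective hy
  rw [nsmul_eq_mul] at h1
  have h2 : (e : ℤ) ∣ 1 := ⟨-WithZero.log (Valued.v x), by linarith⟩
  exact_mod_cast Int.eq_one_of_dvd_one (by positivity) h2

/-- In a group of prime order the decomposition group is trivial or everything. -/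
theorem stabilizer_eq_bot_or_top (hG : (Nat.card G).Prime) :
    MulAction.stabilizer G w = ⊥ ∨ MulAction.stabilizer G w = ⊤ := by
  have : Fact (Nat.card G).Prime := ⟨hG⟩
  exact Subgroup.eq_bot_or_eq_top_of_prime_card _

end Cor

section Prod

variable {K : Type*} (L : Type*) [Field K] [Field L] [NumberField K] [NumberField L] [Algebra K L]
  (v : HeightOneSpectrum (𝓞 K))

/-- The primes of `L` above `v`. -/
abbrev Above : Type _ := {w : HeightOneSpectrum (𝓞 L) // w.asIdeal.LiesOver v.asIdeal}

instance (w : Above L v) : w.1.asIdeal.LiesOver v.asIdeal := w.2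

instance finite_above : Finite (Above L v) := by
  have h := IsDedekindDomain.primesOver_finite v.asIdeal (𝓞 L)
  refine Set.Finite.to_subtype (s := {w : HeightOneSpectrum (𝓞 L) |
    w.asIdeal.LiesOver v.asIdeal}) (Set.Finite.of_finite_image (f := fun w => w.asIdeal)
      (h.subset ?_) fun w _ w' _ h => HeightOneSpectrum.ext h)
  rintro _ ⟨w, hw, rfl⟩
  exact ⟨w.isPrime, hw⟩

/-- The product of the completions above `v`. -/
abbrev LocProd : Type _ := ∀ w : Above L v, w.1.adicCompletion L

variable (G : Type*) [Group G] [Finite G] [MulSemiringAction G L] [IsGaloisGroup G K L]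

noncomputable instance : MulAction G (Above L v) where
  smul g w := ⟨g • w.1, by
    rw [asIdeal_smul]
    infer_instance⟩
  one_smul w := Subtype.ext (one_smul G w.1)
  mul_smul g h w := Subtype.ext (mul_smul g h w.1)

@[simp] theorem coe_smul_above (g : G) (w : Above L v) : (g • w).1 = g • w.1 := rfl

variable {L v G}

theorem inv_smul_above (g : G) (w : Above L v) : g • (g⁻¹ • w).1 = w.1 :=
  congrArg Subtype.val (smul_inv_smul g w)

/-- Composition of the extensions of `g` and `h`, without casts. -/
theorem ext_ext_smul {g h : G} {w₁ w₂ w₃ : HeightOneSpectrum (𝓞 L)} {w₁' : Above L v}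
    {w₁'' : Above L v} (x : LocProd L v) (e₁ : w₁'.1 = w₁) (h₁ : h • w₁'.1 = w₂) (h₂ : g • w₂ = w₃)
    (h₃ : (g * h) • w₁''.1 = w₃) :
    (compat_of_smul_eq (L := L) h₂).ext ((compat_of_smul_eq (L := L) h₁).ext (x w₁')) =
      (compat_of_smul_eq (L := L) h₃).ext (x w₁'') := by
  have h4 : w₁'' = w₁' := by
    apply Subtype.ext
    have h5 : (g * h) • w₁'.1 = w₃ := by rw [mul_smul, h₁, h₂]
    exact MulAction.injective (g * h) (h₃.trans h5.symm)
  subst h4
  have h6 : (compat_of_smul_eq (L := L) h₂).ext.comp (compat_of_smul_eq (L := L) h₁).ext =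
      (compat_of_smul_eq (L := L) h₃).ext :=
    (compat_of_smul_eq (L := L) h₃).ext_unique
      ((compat_of_smul_eq (L := L) h₂).continuous_ext.comp
        (compat_of_smul_eq (L := L) h₁).continuous_ext)
      fun y => by
        rw [RingHom.comp_apply, Compat.ext_algebraMap, Compat.ext_algebraMap]
        congr 1
        exact (mul_smul g h y).symm
  exact congrArg (fun F : w₁''.1.adicCompletion L →+* w₃.adicCompletion L => F (x w₁'')) h6

variable (L v G)

/-- The action of `G` on the product of the completions above `v`. -/
noncomputable instance actProd : MulSemiringAction G (LocProd L v) where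
  smul g x := fun w => (compat_of_smul_eq (L := L) (inv_smul_above g w)).ext (x (g⁻¹ • w))
  one_smul x := by
    funext w
    change (compat_of_smul_eq (L := L) (inv_smul_above (1 : G) w)).ext (x ((1 : G)⁻¹ • w)) = x w
    have h0 : (1 : G)⁻¹ • w = w := by rw [inv_one, one_smul]
    have key : ∀ (w' : Above L v) (h : w' = w) (h' : (1 : G) • w'.1 = w.1),
        (compat_of_smul_eq (L := L) h').ext (x w') = x w := by
      rintro w' rfl h'
      have h1 : (compat_of_smul_eq (L := L) h').ext = RingHom.id _ :=
        ((compat_of_smul_eq (L := L) h').ext_unique continuous_id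
          fun y => by
            change algebraMap L (w'.1.adicCompletion L) y = algebraMap L _ ((1 : G) • y)
            rw [one_smul]).symm
      exact congrArg (fun F : w'.1.adicCompletion L →+* w'.1.adicCompletion L => F (x w')) h1
    exact key _ h0 (inv_smul_above (1 : G) w)
  mul_smul g h x := by
    funext w
    exact (ext_ext_smul x rfl (inv_smul_above h (g⁻¹ • w)) (inv_smul_above g w)
      (inv_smul_above (g * h) w)).symm
  smul_zero g := funext fun w => map_zero _
  smul_add g x y := funext fun w => map_add _ _ _
  smul_one g := funext fun w => map_one _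
  smul_mul g x y := funext fun w => map_mul _ _ _

variable {L v G}

theorem smul_apply_prod (g : G) (x : LocProd L v) (w : Above L v) :
    (g • x) w = (compat_of_smul_eq (L := L) (inv_smul_above g w)).ext (x (g⁻¹ • w)) := rfl

/-- `(g x)_(g w) = g (x_w)` -/
theorem smul_apply_smul (g : G) (x : LocProd L v) (w w' : Above L v) (h : g • w.1 = w'.1) :
    (g • x) w' = (compat_of_smul_eq (L := L) h).ext (x w) := by
  have h1 : g⁻¹ • w' = w := by
    apply Subtype.ext
    rw [coe_smul_above, ← h, inv_smul_smul]
  subst h1
  rfl

variable (L v)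

/-- The diagonal embedding of `L`. -/
noncomputable instance : Algebra L (LocProd L v) := inferInstance

@[simp] theorem algebraMap_prod_apply (y : L) (w : Above L v) :
    algebraMap L (LocProd L v) y w = algebraMap L (w.1.adicCompletion L) y := rfl

/-- The diagonal embedding of `K_v`. -/
noncomputable instance algebraProd : Algebra (v.adicCompletion K) (LocProd L v) :=
  (RingHom.pi fun w : Above L v => (compat_liesOver (K := K) (L := L) v w.1).ext).toAlgebra

theorem algebraMap_prod_apply' (a : v.adicCompletion K) (w : Above L v) :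
    algebraMap (v.adicCompletion K) (LocProd L v) a w =
      (compat_liesOver (K := K) (L := L) v w.1).ext a := rfl

theorem smul_algebraMap_prod (g : G) (y : L) :
    g • algebraMap L (LocProd L v) y = algebraMap L (LocProd L v) (g • y) := by
  funext w
  rw [smul_apply_prod, algebraMap_prod_apply, algebraMap_prod_apply, Compat.ext_algebraMap]
  rfl

variable {L v}

/-- A continuous ring homomorphism to a completion which agrees with the inclusion on `K`. -/
theorem ext_smul_comp (g : G) (w w' : Above L v) (h : g • w.1 = w'.1) (a : v.adicCompletion K) :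
    (compat_of_smul_eq (L := L) h).ext ((compat_liesOver (K := K) (L := L) v w.1).ext a) =
      (compat_liesOver (K := K) (L := L) v w'.1).ext a := by
  refine congrFun (eq_of_eq_on ((compat_of_smul_eq (L := L) h).continuous_ext.comp
    (compat_liesOver (K := K) (L := L) v w.1).continuous_ext)
    (compat_liesOver (K := K) (L := L) v w'.1).continuous_ext fun k => ?_) a
  have := IsGaloisGroup.commutes (G := G) (A := K) (B := L)
  rw [Function.comp_apply, Compat.ext_algebraMap, Compat.ext_algebraMap, Compat.ext_algebraMap]
  congr 1
  exact smul_algebraMap g k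

theorem exists_smul_above (w w' : Above L v) : ∃ g : G, g • w.1 = w'.1 := by
  obtain ⟨g, hg⟩ := Ideal.exists_smul_eq_of_isGaloisGroup v.asIdeal w.1.asIdeal w'.1.asIdeal G
  exact ⟨g, HeightOneSpectrum.ext hg⟩

/-- The fixed points of `G` in the product of the completions above `v` are the diagonal `K_v`. -/
theorem exists_of_fixed_prod (x : LocProd L v) (hx : ∀ g : G, g • x = x) :
    ∃ a : v.adicCompletion K, algebraMap _ (LocProd L v) a = x := by
  rcases isEmpty_or_nonempty (Above L v) with he | ⟨⟨w⟩⟩
  · exact ⟨0, funext fun w => he.elim w⟩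
  have h1 : x w ∈ Set.range (compat_liesOver (K := K) (L := L) v w.1).ext := by
    refine mem_range_of_fixed v w.1 G (x w) fun σ => ?_
    have h2 := smul_apply_smul (σ : G) x w w σ.2
    rw [hx] at h2
    exact h2.symm
  obtain ⟨a, ha⟩ := h1
  refine ⟨a, funext fun w' => ?_⟩
  obtain ⟨g, hg⟩ := exists_smul_above (K := K) (G := G) w w'
  rw [algebraMap_prod_apply', ← ext_smul_comp g w w' hg a, ha, ← smul_apply_smul g x w w' hg, hx]

instance nonempty_above : Nonempty (Above L v) := by
  obtain ⟨⟨P, hP, hP'⟩⟩ := (inferInstance : Nonempty (Ideal.primesOver v.asIdeal (𝓞 L)))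
  exact ⟨⟨⟨P, hP, Ideal.ne_bot_of_mem_primesOver v.ne_bot ⟨hP, hP'⟩⟩, hP'⟩⟩

variable (L v G)

/-- `∏ L_w` is a Galois algebra over `K_v`. -/
instance isGaloisGroup_prod : IsGaloisGroup G (v.adicCompletion K) (LocProd L v) where
  faithful := ⟨fun {σ τ} h => by
    have := IsGaloisGroup.faithful (G := G) (A := K) (B := L)
    refine eq_of_smul_eq_smul (α := L) fun y => ?_
    have h1 := h (algebraMap L (LocProd L v) y)
    rw [smul_algebraMap_prod, smul_algebraMap_prod] at h1
    obtain ⟨w⟩ := nonempty_above (L := L) (v := v)
    exact (algebraMap L (w.1.adicCompletion L)).injective (congrFun h1 w)⟩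
  commutes := ⟨fun g a x => by
    rw [Algebra.smul_def, Algebra.smul_def, smul_mul']
    congr 1
    funext w
    rw [smul_apply_prod, algebraMap_prod_apply', algebraMap_prod_apply']
    exact ext_smul_comp g (g⁻¹ • w) w (inv_smul_above g w) a⟩
  isInvariant := ⟨fun x hx => exists_of_fixed_prod (G := G) x hx⟩

end Prod

end Fermat.Agent.LT.Ext
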