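import Mathlib

/-!
# Completions of an extension of number fields at finite places

`ext f` is the continuous extension `K_v → L_w` of a homomorphism `f : K → L` with
`w (f x) = v x ^ e`.
-/

set_option autoImplicit false

open IsDedekindDomain NumberField
open scoped WithZero Topology

namespace Fermat.Agent.LT.Ext

section Nhds

variable {K : Type*} [Field K] [Valued K ℤᵐ⁰]

/-- Neighbourhoods of zero in terms of elements of `ℤᵐ⁰`. -/
theorem mem_nhds_zero_iff (hs : Function.Surjective (Valued.v : K → ℤᵐ⁰)) {s : Set K} :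
    s ∈ 𝓝 (0 : K) ↔ ∃ γ : ℤᵐ⁰, γ ≠ 0 ∧ {x | Valued.v x < γ} ⊆ s := by
  rw [Valued.mem_nhds_zero]
  constructor
  · rintro ⟨γ, hγ⟩
    refine ⟨MonoidWithZeroHom.ValueGroup₀.embedding γ.1, ?_, fun x hx => hγ ?_⟩
    · rw [Ne, map_eq_zero]
      exact γ.ne_zero
    · rw [Set.mem_ofPred_eq] at hx ⊢
      exact (Valuation.restrict_lt_iff_lt_embedding _).mpr hx
  · rintro ⟨γ, hγ, h⟩
    obtain ⟨y, rfl⟩ := hs γ
    have hy : Valued.v.restrict y ≠ 0 := by
      rw [Ne, Valuation.zero_iff]
      rintro rfl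
      exact hγ (map_zero _)
    refine ⟨Units.mk0 _ hy, fun x hx => h ?_⟩
    rw [Set.mem_ofPred_eq] at hx ⊢
    exact (Valuation.restrict_lt_iff _).mp hx

theorem mem_nhds_iff' (hs : Function.Surjective (Valued.v : K → ℤᵐ⁰)) {s : Set K} {x : K} :
    s ∈ 𝓝 x ↔ ∃ γ : ℤᵐ⁰, γ ≠ 0 ∧ {y | Valued.v (y - x) < γ} ⊆ s := by
  rw [← map_add_right_nhds_zero, Filter.mem_map, mem_nhds_zero_iff hs]
  constructor
  · rintro ⟨γ, hγ, h⟩
    refine ⟨γ, hγ, fun y hy => ?_⟩
    have := h (show y - x ∈ {x | Valued.v x < γ} from hy)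
    simpa using this
  · rintro ⟨γ, hγ, h⟩
    refine ⟨γ, hγ, fun y hy => h ?_⟩
    simpa using hy

end Nhds

section Ext

variable {R S K L : Type*} [CommRing R] [IsDedekindDomain R] [CommRing S] [IsDedekindDomain S]
  [Field K] [Field L] [Algebra R K] [IsFractionRing R K] [Algebra S L] [IsFractionRing S L]
  {v : HeightOneSpectrum R} {w : HeightOneSpectrum S}

theorem surjective_v : Function.Surjective (Valued.v : WithVal (v.valuation K) → ℤᵐ⁰) := by
  intro γ
  obtain ⟨x, hx⟩ := v.valuation_surjective K γ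
  exact ⟨WithVal.toVal _ x, hx⟩

theorem surjective_v' : Function.Surjective (Valued.v : v.adicCompletion K → ℤᵐ⁰) :=
  HeightOneSpectrum.valuedAdicCompletion_surjective K v

theorem mem_nhds_adic {s : Set (v.adicCompletion K)} {x : v.adicCompletion K} :
    s ∈ 𝓝 x ↔ ∃ γ : ℤᵐ⁰, γ ≠ 0 ∧ {y | Valued.v (y - x) < γ} ⊆ s :=
  mem_nhds_iff' surjective_v'

/-- Density of `K` in `K_v`. -/
theorem exists_sub_lt (x : v.adicCompletion K) {γ : ℤᵐ⁰} (hγ : γ ≠ 0) :
    ∃ k : K, Valued.v (algebraMap K (v.adicCompletion K) k - x) < γ := by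
  have h := (v.denseRange_algebraMap K) x
  rw [mem_closure_iff_nhds] at h
  obtain ⟨_, h1, k, rfl⟩ := h _ (mem_nhds_adic.mpr ⟨γ, hγ, subset_rfl⟩)
  exact ⟨k, h1⟩

theorem v_algebraMap (k : K) : Valued.v (algebraMap K (v.adicCompletion K) k) = v.valuation K k :=
  HeightOneSpectrum.valuedAdicCompletion_eq_valuation' (v := v) k

variable (v w) in
/-- `f : K → L` multiplies the valuation by `e`. -/
structure Compat (f : K →+* L) (e : ℕ) : Prop where
  ne : e ≠ 0
  val : ∀ x, w.valuation L (f x) = v.valuation K x ^ e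

variable {f : K →+* L} {e : ℕ}

theorem Compat.continuous (h : Compat v w f e) :
    Continuous (WithVal.map (v.valuation K) (w.valuation L) f) := by
  refine continuous_of_continuousAt_zero _ ?_
  rw [ContinuousAt, map_zero, Filter.tendsto_def]
  intro s hs
  rw [mem_nhds_zero_iff surjective_v] at hs ⊢
  obtain ⟨γ, hγ, hs⟩ := hs
  refine ⟨min γ 1, ?_, fun x hx => hs ?_⟩
  · rcases min_choice γ 1 with h | h <;> rw [h]
    · exact hγ
    · exact one_ne_zero
  · rw [Set.mem_ofPred_eq, lt_min_iff] at hx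
    have h1 : Valued.v (WithVal.map (v.valuation K) (w.valuation L) f x) =
        Valued.v x ^ e := h.val x.ofVal
    rw [Set.mem_ofPred_eq, h1]
    exact (pow_le_of_le_one zero_le hx.2.le h.ne).trans_lt hx.1

/-- The extension of `f` to the completions. -/
noncomputable def Compat.ext (h : Compat v w f e) : v.adicCompletion K →+* w.adicCompletion L :=
  (HeightOneSpectrum.adicCompletion.equiv L w).symm.toRingHom.comp
    ((UniformSpace.Completion.mapRingHom (WithVal.map (v.valuation K) (w.valuation L) f)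
      h.continuous).comp (HeightOneSpectrum.adicCompletion.equiv K v).toRingHom)

theorem Compat.continuous_ext (h : Compat v w f e) : Continuous h.ext :=
  (HeightOneSpectrum.adicCompletion.continuous_ofCompletion L w).comp
    (UniformSpace.Completion.continuous_map.comp
      (HeightOneSpectrum.adicCompletion.continuous_toCompletion K v))

@[simp] theorem Compat.ext_algebraMap (h : Compat v w f e) (x : K) :
    h.ext (algebraMap K _ x) = algebraMap L _ (f x) := by
  apply HeightOneSpectrum.adicCompletion.ext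
  exact UniformSpace.Completion.mapRingHom_coe h.continuous _

/-- Two continuous maps which agree on `K` are equal. -/
theorem eq_of_eq_on {T : Type*} [TopologicalSpace T] [T2Space T] {g₁ g₂ : v.adicCompletion K → T}
    (h₁ : Continuous g₁) (h₂ : Continuous g₂)
    (h : ∀ x : K, g₁ (algebraMap K _ x) = g₂ (algebraMap K _ x)) : g₁ = g₂ :=
  (v.denseRange_algebraMap K).equalizer h₁ h₂ (funext h)

theorem Compat.ext_unique (h : Compat v w f e) {g : v.adicCompletion K →+* w.adicCompletion L}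
    (hg : Continuous g) (hx : ∀ x : K, g (algebraMap K _ x) = algebraMap L _ (f x)) :
    g = h.ext :=
  RingHom.coe_inj (eq_of_eq_on hg h.continuous_ext fun x => by rw [hx, h.ext_algebraMap])

theorem Compat.valued_ext (h : Compat v w f e) (x : v.adicCompletion K) :
    Valued.v (h.ext x) = Valued.v x ^ e := by
  rcases eq_or_ne x 0 with rfl | hx
  · rw [map_zero, map_zero, map_zero, zero_pow h.ne]
  have h1 : {y | Valued.v y = Valued.v x} ∈ 𝓝 x :=
    Valued.locally_const ((Valuation.ne_zero_iff _).mpr hx)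
  have h2 : {y | Valued.v y = Valued.v (h.ext x)} ∈ 𝓝 (h.ext x) :=
    Valued.locally_const ((Valuation.ne_zero_iff _).mpr ((map_ne_zero h.ext).mpr hx))
  have h3 := Filter.inter_mem h1 (h.continuous_ext.continuousAt h2)
  have h4 := (v.denseRange_algebraMap K) x
  rw [mem_closure_iff_nhds] at h4
  obtain ⟨_, ⟨h5, h6⟩, k, rfl⟩ := h4 _ h3
  rw [Set.mem_ofPred_eq] at h5
  have h7 : Valued.v (h.ext (algebraMap K _ k)) = Valued.v (h.ext x) := h6
  rw [← h5, ← h7, h.ext_algebraMap, v_algebraMap, v_algebraMap, h.val]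

theorem Compat.valued_ext_le_one_iff (h : Compat v w f e) (x : v.adicCompletion K) :
    Valued.v (h.ext x) ≤ 1 ↔ Valued.v x ≤ 1 := by
  rw [h.valued_ext, pow_le_one_iff h.ne]

theorem Compat.injective_ext (h : Compat v w f e) : Function.Injective h.ext :=
  h.ext.injective

theorem Compat.isInducing_ext (h : Compat v w f e) : Topology.IsInducing h.ext := by
  rw [Topology.isInducing_iff_nhds]
  intro x
  ext s
  rw [Filter.mem_comap, mem_nhds_adic]
  constructor
  · rintro ⟨γ, hγ, hs⟩
    refine ⟨_, mem_nhds_adic.mpr ⟨γ ^ e, pow_ne_zero e hγ, subset_rfl⟩, fun y hy => hs ?_⟩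
    rw [Set.mem_preimage, Set.mem_ofPred_eq, ← map_sub, h.valued_ext] at hy
    exact lt_of_pow_lt_pow_left₀ e zero_le hy
  · rintro ⟨t, ht, hs⟩
    exact mem_nhds_adic.mp (Filter.mem_of_superset (h.continuous_ext.continuousAt ht) hs)

theorem Compat.isUniformInducing_ext (h : Compat v w f e) : IsUniformInducing h.ext :=
  AddMonoidHom.isUniformInducing_of_isInducing h.isInducing_ext

theorem Compat.isClosedEmbedding_ext (h : Compat v w f e) :
    Topology.IsClosedEmbedding h.ext :=
  IsUniformEmbedding.isClosedEmbedding ⟨h.isUniformInducing_ext, h.injective_ext⟩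

theorem Compat.isClosed_range_ext (h : Compat v w f e) : IsClosed (Set.range h.ext) :=
  h.isClosedEmbedding_ext.isClosed_range

end Ext

section Comp

variable {R₁ R₂ R₃ K₁ K₂ K₃ : Type*} [CommRing R₁] [IsDedekindDomain R₁] [CommRing R₂]
  [IsDedekindDomain R₂] [CommRing R₃] [IsDedekindDomain R₃]
  [Field K₁] [Field K₂] [Field K₃] [Algebra R₁ K₁] [IsFractionRing R₁ K₁] [Algebra R₂ K₂]
  [IsFractionRing R₂ K₂] [Algebra R₃ K₃] [IsFractionRing R₃ K₃]
  {v₁ : HeightOneSpectrum R₁} {v₂ : HeightOneSpectrum R₂} {v₃ : HeightOneSpectrum R₃}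
  {f : K₁ →+* K₂} {g : K₂ →+* K₃} {e₁ e₂ e₃ : ℕ}

theorem Compat.comp (h : Compat v₁ v₂ f e₁) (h' : Compat v₂ v₃ g e₂) :
    Compat v₁ v₃ (g.comp f) (e₁ * e₂) where
  ne := mul_ne_zero h.ne h'.ne
  val x := by rw [RingHom.comp_apply, h'.val, h.val, pow_mul]

theorem Compat.ext_comp (h : Compat v₁ v₂ f e₁) (h' : Compat v₂ v₃ g e₂)
    (h'' : Compat v₁ v₃ (g.comp f) e₃) : h'.ext.comp h.ext = h''.ext :=
  h''.ext_unique (h'.continuous_ext.comp h.continuous_ext) fun x => by
    rw [RingHom.comp_apply, h.ext_algebraMap, h'.ext_algebraMap, RingHom.comp_apply]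

theorem Compat.ext_ext (h : Compat v₁ v₂ f e₁) (h' : Compat v₂ v₃ g e₂)
    (h'' : Compat v₁ v₃ (g.comp f) e₃) (x : v₁.adicCompletion K₁) :
    h'.ext (h.ext x) = h''.ext x :=
  congrArg (fun F : v₁.adicCompletion K₁ →+* v₃.adicCompletion K₃ => F x) (h.ext_comp h' h'')

theorem compat_id : Compat v₁ v₁ (RingHom.id K₁) 1 where
  ne := one_ne_zero
  val x := by rw [RingHom.id_apply, pow_one]

theorem Compat.ext_id (h : Compat v₁ v₁ (RingHom.id K₁) e₁) : h.ext = RingHom.id _ :=
  (h.ext_unique continuous_id fun _ => rfl).symm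

/-- A compatible isomorphism extends to an isomorphism of the completions. -/
noncomputable def Compat.extEquiv {f : K₁ ≃+* K₂} (h : Compat v₁ v₂ (f : K₁ →+* K₂) e₁)
    (h' : Compat v₂ v₁ (f.symm : K₂ →+* K₁) e₂) :
    v₁.adicCompletion K₁ ≃+* v₂.adicCompletion K₂ :=
  RingEquiv.ofRingHom h.ext h'.ext
    (by
      refine (eq_of_eq_on (v := v₂) (K := K₂) (h.continuous_ext.comp h'.continuous_ext)
        continuous_id ?_) |> RingHom.coe_inj
      intro x
      simp)
    (by
      refine (eq_of_eq_on (v := v₁) (K := K₁) (h'.continuous_ext.comp h.continuous_ext)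
        continuous_id ?_) |> RingHom.coe_inj
      intro x
      simp)

end Comp

end Fermat.Agent.LT.Ext
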