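import Mathlib

/-!
# Prime ideals of degree one generate the ray class groups
-/

set_option autoImplicit false

namespace Fermat.Agent.LT.DegOne

open NumberField Polynomial IntermediateField

variable {E : Type*} [Field E] [NumberField E]

/-- If `n - θ` lies in a prime `𝔮` prime to a denominator of `𝓞 E` over `ℤ[θ]`, then `𝔮` has
degree one. -/
theorem absNorm_prime_of_mem {θ : 𝓞 E} {t : ℕ}
    (ht : ∀ x : 𝓞 E, (t : 𝓞 E) * x ∈ Algebra.adjoin ℤ ({θ} : Set (𝓞 E))) {n : ℤ}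
    {𝔮 : Ideal (𝓞 E)} [h𝔮 : 𝔮.IsPrime] (h0 : 𝔮 ≠ ⊥) (hn : (n : 𝓞 E) - θ ∈ 𝔮)
    (ht𝔮 : (t : 𝓞 E) ∉ 𝔮) : (Ideal.absNorm 𝔮).Prime := by
  classical
  have hmax : 𝔮.IsMaximal := h𝔮.isMaximal h0
  let _ := Ideal.Quotient.field 𝔮
  have : Finite (𝓞 E ⧸ 𝔮) := Ideal.finiteQuotientOfFreeOfNeBot 𝔮 h0
  set p := ringChar (𝓞 E ⧸ 𝔮) with hp
  have hc : CharP (𝓞 E ⧸ 𝔮) p := ringChar.charP _
  have hpp : p.Prime := by
    rcases CharP.char_is_prime_or_zero (𝓞 E ⧸ 𝔮) p with h | h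
    · exact h
    · exfalso
      rw [h] at hc
      have := CharP.charP_to_charZero (𝓞 E ⧸ 𝔮)
      exact not_finite (𝓞 E ⧸ 𝔮)
  have := Fact.mk hpp
  have ht0 : ((t : ℕ) : 𝓞 E ⧸ 𝔮) ≠ 0 := by
    intro h
    apply ht𝔮
    rw [← Ideal.Quotient.eq_zero_iff_mem, map_natCast]
    exact h
  have hmk : Ideal.Quotient.mk 𝔮 θ = ((n : ℤ) : 𝓞 E ⧸ 𝔮) := by
    rw [← map_intCast (Ideal.Quotient.mk 𝔮), eq_comm, Ideal.Quotient.mk_eq_mk_iff_sub_mem]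
    exact hn
  have hsurj : Function.Surjective (ZMod.castHom (dvd_refl p) (𝓞 E ⧸ 𝔮)) := by
    intro x
    obtain ⟨y, rfl⟩ := Ideal.Quotient.mk_surjective x
    obtain ⟨P, hP⟩ := (Algebra.adjoin_singleton_eq_range_aeval ℤ θ ▸ ht y :
      (t : 𝓞 E) * y ∈ (Polynomial.aeval θ : ℤ[X] →ₐ[ℤ] 𝓞 E).range)
    have h1 : ((t : ℕ) : 𝓞 E ⧸ 𝔮) * Ideal.Quotient.mk 𝔮 y = ((P.eval n : ℤ) : 𝓞 E ⧸ 𝔮) := by
      have hP' : Polynomial.aeval θ P = (t : 𝓞 E) * y := hP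
      rw [← map_natCast (Ideal.Quotient.mk 𝔮), ← map_mul, ← hP', Polynomial.aeval_def, Polynomial.hom_eval₂, hmk, Polynomial.eval₂_eq_eval_map]
      rw [show ((n : ℤ) : 𝓞 E ⧸ 𝔮) = (Int.castRingHom (𝓞 E ⧸ 𝔮)) n from rfl,
        show ((Ideal.Quotient.mk 𝔮).comp (algebraMap ℤ (𝓞 E))) = Int.castRingHom (𝓞 E ⧸ 𝔮) from
          RingHom.ext_int _ _, Polynomial.eval_map, Polynomial.eval₂_hom]
      rfl
    refine ⟨((P.eval n : ℤ) : ZMod p) / ((t : ℕ) : ZMod p), ?_⟩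
    rw [map_div₀, map_intCast, map_natCast, div_eq_iff ht0, mul_comm, h1]
  have hbij : Function.Bijective (ZMod.castHom (dvd_refl p) (𝓞 E ⧸ 𝔮)) :=
    ⟨RingHom.injective _, hsurj⟩
  have hcard : Ideal.absNorm 𝔮 = p := by
    rw [Ideal.absNorm_apply, Submodule.cardQuot_apply, ← Nat.card_zmod p]
    exact (Nat.card_congr (Equiv.ofBijective _ hbij)).symm
  rw [hcard]
  exact hpp

/-- denominators of an element over `ℤ[θ]` -/
theorem exists_den_one {θ : 𝓞 E} (h : ℚ⟮(θ : E)⟯ = ⊤) (x : 𝓞 E) :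
    ∃ t : ℕ, t ≠ 0 ∧ (t : 𝓞 E) * x ∈ Algebra.adjoin ℤ ({θ} : Set (𝓞 E)) := by
  have hint : IsIntegral ℚ (θ : E) := (Algebra.IsIntegral.isIntegral (R := ℚ) (θ : E))
  have hx : (x : E) ∈ (Polynomial.aeval (θ : E) : ℚ[X] →ₐ[ℚ] E).range := by
    rw [← Algebra.adjoin_singleton_eq_range_aeval,
      ← IntermediateField.adjoin_simple_toSubalgebra_of_isAlgebraic hint.isAlgebraic, h]
    trivial
  obtain ⟨P, hP⟩ := hx
  obtain ⟨b, hb, hbP⟩ := IsLocalization.integerNormalization_spec (nonZeroDivisors ℤ) P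
  have hb0 : b ≠ 0 := nonZeroDivisors.ne_zero hb
  set R := IsLocalization.integerNormalization (nonZeroDivisors ℤ) P with hR
  have key : (b : 𝓞 E) * x = Polynomial.aeval θ R := by
    apply RingOfIntegers.ext
    have h1 : ((Polynomial.aeval θ R : 𝓞 E) : E) = Polynomial.aeval (θ : E) R :=
      (Polynomial.aeval_algebraMap_apply E θ R).symm
    rw [h1, ← Polynomial.aeval_map_algebraMap ℚ, hbP]
    have h2 : (Polynomial.aeval (θ : E)) P = (x : E) := hP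
    rw [Algebra.smul_def, map_mul, h2]
    simp
  have key2 : (b : 𝓞 E) * x ∈ Algebra.adjoin ℤ ({θ} : Set (𝓞 E)) := by
    rw [key]
    exact Polynomial.aeval_mem_adjoin_singleton ℤ θ
  refine ⟨b.natAbs, Int.natAbs_ne_zero.mpr hb0, ?_⟩
  rcases Int.natAbs_eq b with h | h
  · have : ((b.natAbs : ℕ) : 𝓞 E) = (b : 𝓞 E) := by
      rw [h]; simp
    rw [this]; exact key2
  · have : ((b.natAbs : ℕ) : 𝓞 E) = -(b : 𝓞 E) := by
      rw [h]; simp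
    rw [this, neg_mul]; exact neg_mem key2

theorem exists_den {θ : 𝓞 E} (h : ℚ⟮(θ : E)⟯ = ⊤) :
    ∃ t : ℕ, t ≠ 0 ∧ ∀ x : 𝓞 E, (t : 𝓞 E) * x ∈ Algebra.adjoin ℤ ({θ} : Set (𝓞 E)) := by
  classical
  obtain ⟨s, hs⟩ := (Module.Finite.fg_top : (⊤ : Submodule ℤ (𝓞 E)).FG)
  choose t ht0 ht using exists_den_one h
  refine ⟨∏ y ∈ s, t y, Finset.prod_ne_zero_iff.mpr fun y _ => ht0 y, fun x => ?_⟩
  have hx : x ∈ Submodule.span ℤ (s : Set (𝓞 E)) := by rw [hs]; trivial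
  induction hx using Submodule.span_induction with
  | mem y hy =>
    obtain ⟨k, hk⟩ := Finset.dvd_prod_of_mem t (Finset.mem_coe.mp hy)
    rw [hk]
    push_cast
    rw [mul_comm (t y : 𝓞 E), mul_assoc]
    exact mul_mem (natCast_mem _ k) (ht y)
  | zero => rw [mul_zero]; exact zero_mem _
  | add a b _ _ ha hb => rw [mul_add]; exact add_mem ha hb
  | smul c a _ ha => rw [mul_smul_comm]; exact (Algebra.adjoin ℤ ({θ} : Set (𝓞 E))).smul_mem ha c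

/-- primitive elements in cosets -/
theorem exists_primitive (D : ℤ) (hD : D ≠ 0) (a : 𝓞 E) :
    ∃ y : 𝓞 E, ℚ⟮((a + D * y : 𝓞 E) : E)⟯ = ⊤ := by
  classical
  obtain ⟨α, hα⟩ := Field.exists_primitive_element ℚ E
  obtain ⟨c, hc, hcα⟩ := ((IsFractionRing.isAlgebraic_iff ℤ ℚ E).mpr
    (Algebra.IsAlgebraic.isAlgebraic (R := ℚ) α)).exists_integral_multiple
  set η : 𝓞 E := ⟨c • α, hcα⟩ with hη
  have hηα : (η : E) = (c : E) * α := by simp [hη, zsmul_eq_mul]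
  have hfin : Finite (IntermediateField ℚ E) :=
    (Field.exists_primitive_element_iff_finite_intermediateField ℚ E).mp
      ⟨Algebra.IsAlgebraic.of_finite ℚ E, α, hα⟩
  obtain ⟨k, l, hkl, he⟩ := Finite.exists_ne_map_eq_of_infinite
    (fun k : ℕ => ℚ⟮((a + D * (k * η) : 𝓞 E) : E)⟯)
  refine ⟨k * η, ?_⟩
  rw [eq_top_iff, ← hα, adjoin_simple_le_iff]
  set K := ℚ⟮((a + D * (k * η) : 𝓞 E) : E)⟯ with hK
  have h1 : ((a + D * (k * η) : 𝓞 E) : E) ∈ K := mem_adjoin_simple_self _ _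
  have h2 : ((a + D * (l * η) : 𝓞 E) : E) ∈ K := by
    have h3 : ((a + D * (l * η) : 𝓞 E) : E) ∈ ℚ⟮((a + D * (l * η) : 𝓞 E) : E)⟯ :=
      mem_adjoin_simple_self _ _
    have he' : ℚ⟮((a + D * (k * η) : 𝓞 E) : E)⟯ = ℚ⟮((a + D * (l * η) : 𝓞 E) : E)⟯ := he
    rw [hK, he']; exact h3
  have h3 := sub_mem h1 h2
  have h4 : ((a + D * (k * η) : 𝓞 E) : E) - ((a + D * (l * η) : 𝓞 E) : E) =
      (D * ((k : ℤ) - l) * c : ℚ) • α := by
    have e1 : ∀ j : ℕ, ((a + D * (j * η) : 𝓞 E) : E) = (a : E) + D * (j * (c * α)) := by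
      intro j
      rw [← hηα]
      simp
    rw [e1, e1, Algebra.smul_def]
    simp
    ring
  rw [h4] at h3
  have hne : (D * ((k : ℤ) - l) * c : ℚ) ≠ 0 := by
    refine mul_ne_zero (mul_ne_zero (by exact_mod_cast hD) ?_) (by exact_mod_cast hc)
    rw [sub_ne_zero]
    exact_mod_cast hkl
  have h5 := K.smul_mem h3 (x := (D * ((k : ℤ) - l) * c : ℚ)⁻¹)
  rwa [smul_smul, inv_mul_cancel₀ hne, one_smul] at h5

/-- Chinese remainder theorem in `ℤ` -/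
theorem exists_crt (D : ℤ) (T : Finset ℕ) (hT : ∀ q ∈ T, q.Prime ∧ ¬ (q : ℤ) ∣ D) (r : ℕ → ℤ) :
    ∃ n : ℤ, D ∣ n ∧ ∀ q ∈ T, (q : ℤ) ∣ n - r q := by
  classical
  induction T using Finset.induction_on with
  | empty => exact ⟨0, dvd_zero _, by simp⟩
  | insert q T hq ih =>
    obtain ⟨n, hn, hnT⟩ := ih fun q' hq' => hT q' (Finset.mem_insert_of_mem hq')
    obtain ⟨hqp, hqD⟩ := hT q (Finset.mem_insert_self q T)
    have hqi : Prime (q : ℤ) := Nat.prime_iff_prime_int.mp hqp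
    set M : ℤ := D * ∏ q' ∈ T, (q' : ℤ) with hM
    have hqM : ¬ (q : ℤ) ∣ M := by
      intro h
      rcases hqi.dvd_or_dvd h with h | h
      · exact hqD h
      · obtain ⟨q', hq', h'⟩ := (Prime.dvd_finsetProd_iff hqi _).mp h
        have h2 : q ∣ q' := by exact_mod_cast h'
        have := (Nat.prime_dvd_prime_iff_eq hqp (hT q' (Finset.mem_insert_of_mem hq')).1).mp h2
        exact hq (this ▸ hq')
    have hcop : IsCoprime M (q : ℤ) :=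
      ((Prime.coprime_iff_not_dvd hqi).mpr hqM).symm
    obtain ⟨u, v, huv⟩ := hcop
    refine ⟨n + u * M * (r q - n), ?_, fun q' hq' => ?_⟩
    · exact dvd_add hn ⟨u * (∏ q' ∈ T, (q' : ℤ)) * (r q - n), by rw [hM]; ring⟩
    · rcases Finset.mem_insert.mp hq' with rfl | hq'
      · refine ⟨-v * (r q' - n), ?_⟩
        linear_combination (r q' - n) * huv
      · have h1 := hnT q' hq'
        have h2 : (q' : ℤ) ∣ M := (Finset.dvd_prod_of_mem (fun q' : ℕ => (q' : ℤ)) hq').mul_left D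
        have : n + u * M * (r q - n) - r q' = (n - r q') + M * (u * (r q - n)) := by ring
        rw [this]
        exact dvd_add h1 (h2.mul_right _)

/-- **Degree one primes generate the ray class groups.** -/
theorem exists_degOne (m : ℕ) (hm : m ≠ 0) (h2m : 2 ∣ m)
    (hd : ∀ p : ℕ, p.Prime → p ≤ Module.finrank ℚ E → p ∣ m) (𝔟 : Ideal (𝓞 E))
    (h𝔟 : 𝔟 ≠ ⊥) (hcop : (Ideal.absNorm 𝔟).Coprime m) :
    ∃ (α : 𝓞 E) (𝔠 : Ideal (𝓞 E)), α ≠ 0 ∧ (m : 𝓞 E) ∣ α - 1 ∧ Ideal.span {α} = 𝔟 * 𝔠 ∧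
      ∀ 𝔮 : Ideal (𝓞 E), 𝔮.IsPrime → 𝔠 ≤ 𝔮 → (Ideal.absNorm 𝔮).Prime ∧
        ((Ideal.absNorm 𝔟 : ℕ) : 𝓞 E) ∉ 𝔮 ∧ (m : 𝓞 E) ∉ 𝔮 := by
  classical
  set b := Ideal.absNorm 𝔟 with hb
  have hb0 : b ≠ 0 := by rwa [hb, Ne, Ideal.absNorm_eq_zero_iff]
  have hb𝔟 : (b : 𝓞 E) ∈ 𝔟 := Ideal.absNorm_mem 𝔟
  have hbz : ((b : ℕ) : 𝓞 E) ≠ 0 := by exact_mod_cast hb0
  have hI : 𝔟 * Ideal.span {(b : 𝓞 E)} ≠ 0 :=
    mul_ne_zero h𝔟 (by rwa [Ne, Ideal.zero_eq_bot, Ideal.span_singleton_eq_bot])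
  obtain ⟨β, hβ⟩ := IsDedekindDomain.exists_sup_span_eq (Ideal.mul_le_left :
    𝔟 * Ideal.span {(b : 𝓞 E)} ≤ 𝔟) hI
  have hβ𝔟 : β ∈ 𝔟 := by
    rw [← hβ]
    exact Ideal.mem_sup_right (Ideal.mem_span_singleton_self β)
  have hcop2 : IsCoprime (m : ℤ) ((b : ℤ) ^ 2) := by
    refine IsCoprime.pow_right ?_
    exact (Nat.isCoprime_iff_coprime.mpr hcop).symm
  obtain ⟨u, v, huv⟩ := hcop2
  set D : ℤ := m * (b : ℤ) ^ 2 with hD
  have hD0 : D ≠ 0 := mul_ne_zero (by exact_mod_cast hm) (pow_ne_zero _ (by exact_mod_cast hb0))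
  -- the element
  set a : 𝓞 E := -((v : 𝓞 E) * (b : 𝓞 E) ^ 2 + (u : 𝓞 E) * (m : 𝓞 E) * β) with ha
  obtain ⟨y, hy⟩ := exists_primitive D hD0 a
  set θ : 𝓞 E := a + D * y with hθ
  obtain ⟨t, ht0, ht⟩ := exists_den hy
  set f := minpoly ℤ θ with hf
  have hθint : IsIntegral ℤ θ := Algebra.IsIntegral.isIntegral θ
  have hfm : f.Monic := minpoly.monic hθint
  have hfdeg : f.natDegree ≤ Module.finrank ℚ E := by
    have h1 : minpoly ℚ (θ : E) = f.map (algebraMap ℤ ℚ) := by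
      rw [hf, ← RingOfIntegers.minpoly_coe]
      exact minpoly.isIntegrallyClosed_eq_field_fractions' ℚ (RingOfIntegers.isIntegral_coe θ)
    have h2 := minpoly.natDegree_le (A := ℚ) (θ : E)
    rwa [h1, hfm.natDegree_map] at h2
  -- good residues
  have hres : ∀ q : ℕ, ∃ r : ℤ, q.Prime → Module.finrank ℚ E < q → ¬ (q : ℤ) ∣ f.eval r := by
    intro q
    by_cases hq : q.Prime ∧ Module.finrank ℚ E < q
    · obtain ⟨hqp, hqd⟩ := hq
      have := Fact.mk hqp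
      set g := f.map (Int.castRingHom (ZMod q)) with hg
      have hg0 : g ≠ 0 := (hfm.map _).ne_zero
      have hcard : g.roots.toFinset.card < Fintype.card (ZMod q) := by
        rw [ZMod.card]
        calc g.roots.toFinset.card ≤ Multiset.card g.roots := Multiset.toFinset_card_le _
          _ ≤ g.natDegree := Polynomial.card_roots' g
          _ = f.natDegree := hfm.natDegree_map _
          _ ≤ Module.finrank ℚ E := hfdeg
          _ < q := hqd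
      obtain ⟨x, hx⟩ : ∃ x : ZMod q, x ∉ g.roots.toFinset := by
        by_contra hcon
        push Not at hcon
        have : g.roots.toFinset = Finset.univ := Finset.eq_univ_iff_forall.mpr hcon
        rw [this, Finset.card_univ] at hcard
        exact lt_irrefl _ hcard
      obtain ⟨r, rfl⟩ := ZMod.intCast_surjective x
      refine ⟨r, fun _ _ h => hx ?_⟩
      rw [Multiset.mem_toFinset, Polynomial.mem_roots hg0, Polynomial.IsRoot, hg,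
        Polynomial.eval_intCast_map, eq_intCast]
      exact (ZMod.intCast_zmod_eq_zero_iff_dvd _ _).mpr h
    · exact ⟨0, fun h1 h2 => absurd ⟨h1, h2⟩ hq⟩
  choose r hr using hres
  set T : Finset ℕ := t.primeFactors.filter fun q => ¬ (q : ℤ) ∣ D with hT
  obtain ⟨n, hDn, hnT⟩ := exists_crt D T (fun q hq => by
    rw [hT, Finset.mem_filter] at hq
    exact ⟨Nat.prime_of_mem_primeFactors hq.1, hq.2⟩) r
  obtain ⟨n', hn'⟩ := hDn
  set α : 𝓞 E := (n : 𝓞 E) - θ with hα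
  have hαe : α = (v : 𝓞 E) * (b : 𝓞 E) ^ 2 + (u : 𝓞 E) * (m : 𝓞 E) * β +
      (D : 𝓞 E) * ((n' : 𝓞 E) - y) := by
    rw [hα, hθ, ha, hn']; push_cast; ring
  have huv' : (u : 𝓞 E) * (m : 𝓞 E) + (v : 𝓞 E) * (b : 𝓞 E) ^ 2 = 1 := by
    exact_mod_cast congrArg (Int.cast : ℤ → 𝓞 E) huv
  have hDe : (D : 𝓞 E) = (m : 𝓞 E) * (b : 𝓞 E) ^ 2 := by rw [hD]; push_cast; ring
  have hα1 : (m : 𝓞 E) ∣ α - 1 := by
    refine ⟨(u : 𝓞 E) * (β - 1) + (b : 𝓞 E) ^ 2 * ((n' : 𝓞 E) - y), ?_⟩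
    rw [hαe, hDe]
    linear_combination huv'
  have hα0 : α ≠ 0 := by
    intro h
    rw [h, zero_sub] at hα1
    have h2 : ((2 : ℕ) : 𝓞 E) ∣ 1 := by
      have : ((2 : ℕ) : 𝓞 E) ∣ (m : 𝓞 E) := by exact_mod_cast Nat.cast_dvd_cast h2m
      exact (dvd_neg.mp (this.trans hα1))
    have h3 : IsUnit ((2 : ℕ) : 𝓞 E) := isUnit_of_dvd_one h2
    have h4 : Ideal.absNorm (Ideal.span {((2 : ℕ) : 𝓞 E)}) = 1 := by
      rw [Ideal.absNorm_eq_one_iff, Ideal.span_singleton_eq_top]; exact h3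
    rw [Ideal.absNorm_span_natCast] at h4
    have h5 : 0 < Module.finrank ℤ (𝓞 E) := by
      rw [RingOfIntegers.rank]; exact Module.finrank_pos
    exact absurd h4 (Nat.one_lt_pow h5.ne' one_lt_two).ne'
  have hαβ : α - β ∈ 𝔟 * Ideal.span {(b : 𝓞 E)} := by
    have : α - β = (b : 𝓞 E) * (((v : 𝓞 E) * (1 - β) + (m : 𝓞 E) * ((n' : 𝓞 E) - y)) *
        (b : 𝓞 E)) := by
      rw [hαe, hDe]
      linear_combination β * huv'
    rw [this]
    exact Ideal.mul_mem_mul hb𝔟 (Ideal.mem_span_singleton.mpr (Dvd.intro_left _ rfl))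
  have hα𝔟 : α ∈ 𝔟 := by
    have h1 := 𝔟.add_mem (Ideal.mul_le_left hαβ) hβ𝔟
    rwa [sub_add_cancel] at h1
  obtain ⟨𝔠, h𝔠⟩ := Ideal.dvd_iff_le.mpr ((Ideal.span_singleton_le_iff_mem 𝔟).mpr hα𝔟)
  have hsup : 𝔟 * Ideal.span {(b : 𝓞 E)} ⊔ Ideal.span {α} = 𝔟 := by
    apply le_antisymm
    · exact sup_le Ideal.mul_le_left ((Ideal.span_singleton_le_iff_mem 𝔟).mpr hα𝔟)
    · conv_lhs => rw [← hβ]
      refine sup_le le_sup_left ((Ideal.span_singleton_le_iff_mem _).mpr ?_)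
      have h1 := Ideal.sub_mem _ (Ideal.mem_sup_right (S := 𝔟 * Ideal.span {(b : 𝓞 E)})
        (Ideal.mem_span_singleton_self α)) (Ideal.mem_sup_left (T := Ideal.span {α}) hαβ)
      rwa [sub_sub_cancel] at h1
  have htop : Ideal.span {(b : 𝓞 E)} ⊔ 𝔠 = ⊤ := by
    have h1 : 𝔟 * (Ideal.span {(b : 𝓞 E)} ⊔ 𝔠) = 𝔟 * ⊤ := by
      rw [Ideal.mul_sup, ← h𝔠, hsup, Ideal.mul_top]
    exact mul_left_cancel₀ h𝔟 h1
  refine ⟨α, 𝔠, hα0, hα1, h𝔠, fun 𝔮 h𝔮 hle => ?_⟩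
  have hα𝔮 : α ∈ 𝔮 := by
    apply hle
    have h1 : Ideal.span {α} ≤ 𝔠 := by rw [h𝔠]; exact Ideal.mul_le_right
    exact h1 (Ideal.mem_span_singleton_self α)
  have h𝔮0 : 𝔮 ≠ ⊥ := by
    rintro rfl
    exact hα0 (by simpa using hα𝔮)
  have hb𝔮 : (b : 𝓞 E) ∉ 𝔮 := by
    intro h
    apply h𝔮.ne_top
    rw [eq_top_iff, ← htop]
    exact sup_le ((Ideal.span_singleton_le_iff_mem _).mpr h) hle
  have hm𝔮 : (m : 𝓞 E) ∉ 𝔮 := by
    intro h
    obtain ⟨c, hc⟩ := hα1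
    apply h𝔮.ne_top
    rw [Ideal.eq_top_iff_one]
    have h1 : (1 : 𝓞 E) = α - m * c := by rw [← hc]; ring
    rw [h1]
    exact Ideal.sub_mem _ hα𝔮 (𝔮.mul_mem_right _ h)
  refine ⟨absNorm_prime_of_mem (n := n) ht h𝔮0 hα𝔮 fun ht𝔮 => ?_, hb𝔮, hm𝔮⟩
  -- the prime below `𝔮`
  have hprod : (t : 𝓞 E) = ((t.primeFactorsList.prod : ℕ) : 𝓞 E) := by
    rw [Nat.prod_primeFactorsList ht0]
  obtain ⟨q, hqt, hq𝔮⟩ : ∃ q ∈ t.primeFactorsList, ((q : ℕ) : 𝓞 E) ∈ 𝔮 := by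
    rw [hprod] at ht𝔮
    push_cast at ht𝔮
    have h1 := (Ideal.IsPrime.multiset_prod_mem_iff_exists_mem h𝔮
      ((t.primeFactorsList.map (Nat.cast : ℕ → 𝓞 E) : List (𝓞 E)) : Multiset (𝓞 E))).mp
        (by simpa using ht𝔮)
    obtain ⟨x, hx, hx𝔮⟩ := h1
    rw [Multiset.mem_coe, List.mem_map] at hx
    obtain ⟨q, hq, rfl⟩ := hx
    exact ⟨q, hq, hx𝔮⟩
  have hqp : q.Prime := Nat.prime_of_mem_primeFactorsList hqt
  have hqD : ¬ (q : ℤ) ∣ D := by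
    intro h
    rw [hD] at h
    rcases (Nat.prime_iff_prime_int.mp hqp).dvd_or_dvd h with h | h
    · have h1 : q ∣ m := by exact_mod_cast h
      obtain ⟨k, hk⟩ := h1
      apply hm𝔮
      rw [hk]; push_cast
      exact 𝔮.mul_mem_right _ hq𝔮
    · have h1 := (Nat.prime_iff_prime_int.mp hqp).dvd_of_dvd_pow h
      have h2 : q ∣ b := by exact_mod_cast h1
      obtain ⟨k, hk⟩ := h2
      apply hb𝔮
      rw [hk]; push_cast
      exact 𝔮.mul_mem_right _ hq𝔮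
  have hqd : Module.finrank ℚ E < q := by
    by_contra hcon
    rw [not_lt] at hcon
    apply hqD
    rw [hD]
    exact Dvd.dvd.mul_right (by exact_mod_cast hd q hqp hcon) _
  have hqT : q ∈ T := by
    rw [hT, Finset.mem_filter]
    exact ⟨List.mem_toFinset.mpr hqt, hqD⟩
  -- `f n ∈ 𝔮`
  have hfn : ((f.eval n : ℤ) : 𝓞 E) ∈ 𝔮 := by
    have h1 : (Polynomial.aeval θ f : 𝓞 E) = 0 := minpoly.aeval ℤ θ
    have h2 : ((n : ℤ) : 𝓞 E) - θ ∣ (Polynomial.aeval ((n : ℤ) : 𝓞 E) f) -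
        (Polynomial.aeval θ f : 𝓞 E) := by
      rw [Polynomial.aeval_def, Polynomial.aeval_def, Polynomial.eval₂_eq_eval_map,
        Polynomial.eval₂_eq_eval_map]
      exact Polynomial.sub_dvd_eval_sub _ _ _
    rw [h1, sub_zero] at h2
    have h3 : (Polynomial.aeval ((n : ℤ) : 𝓞 E) f) = ((f.eval n : ℤ) : 𝓞 E) := by
      have := Polynomial.aeval_algebraMap_apply (𝓞 E) n f
      simpa using this
    rw [h3] at h2
    exact Ideal.mem_of_dvd _ h2 hα𝔮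
  apply hr q hqp hqd
  -- `q ∣ f (r q)`
  have h1 : (q : ℤ) ∣ f.eval n := by
    by_contra hcon
    have hcop3 : IsCoprime (q : ℤ) (f.eval n) :=
      (Prime.coprime_iff_not_dvd (Nat.prime_iff_prime_int.mp hqp)).mpr hcon
    obtain ⟨x, z, hxz⟩ := hcop3
    apply h𝔮.ne_top
    rw [Ideal.eq_top_iff_one]
    have h2 : (1 : 𝓞 E) = (x : 𝓞 E) * (q : 𝓞 E) + (z : 𝓞 E) * ((f.eval n : ℤ) : 𝓞 E) := by
      exact_mod_cast (congrArg (Int.cast : ℤ → 𝓞 E) hxz).symm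
    rw [h2]
    exact 𝔮.add_mem (𝔮.mul_mem_left _ hq𝔮) (𝔮.mul_mem_left _ hfn)
  have h2 : (q : ℤ) ∣ f.eval n - f.eval (r q) :=
    (hnT q hqT).trans (Polynomial.sub_dvd_eval_sub n (r q) f)
  have h3 := dvd_sub h1 h2
  rwa [sub_sub_cancel] at h3

end Fermat.Agent.LT.DegOne
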