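import Fermat.Agent.LT.Form
import Fermat.Agent.LT.Aleph.Eigen
import Fermat.Agent.LT.Red.KerInst
import Fermat.Agent.LT.B11.Cusp2
import Fermat.Agent.LT.Level.Meas

/-!
# Cuspidal eigenforms of moderate growth are bounded
-/

set_option autoImplicit false

open Matrix NumberField MeasureTheory IsDedekindDomain WithZero
open scoped WithZero

noncomputable section

namespace Fermat.Agent.LT

open H3 Lvl

/-! ### A kernel with non-zero eigenvalue -/

namespace H3

theorem lKer_bump (δ : ℝ) : LKer (bump δ) := by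
  refine lKer_of_lipschitz (K := 1) (fun s t _ _ => ?_) (isKer_bump δ)
  unfold bump
  rw [← Complex.ofReal_sub, Complex.norm_real, Real.norm_eq_abs, one_mul]
  refine (abs_max_sub_max_le_abs _ _ _).trans (le_of_eq ?_)
  rw [show 1 + δ - s - (1 + δ - t) = -(s - t) by ring, abs_neg]

theorem sph_zero_bump_ne {δ : ℝ} (hδ : 0 < δ) : sph 0 (bump δ) ≠ 0 := by
  have h1 := Rk_hpow (isKer_bump δ) 0 j
  have h2 : ∀ P : H3, hpow 0 P = (P.y : ℂ) := fun P => by simp [hpow]
  simp only [Rk, h2] at h1
  intro h0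
  rw [h0, zero_mul] at h1
  have h3 : ∀ Q : H3, bump δ (cu j Q) * (Q.y : ℂ) =
      ((max (1 + δ - cu j Q) 0 * Q.y : ℝ) : ℂ) := fun Q => by
    rw [bump, Complex.ofReal_mul]
  simp_rw [h3] at h1
  rw [integral_complex_ofReal, Complex.ofReal_eq_zero] at h1
  have hc : Continuous fun Q : H3 => max (1 + δ - cu j Q) 0 * Q.y :=
    ((continuous_const.sub (continuous_cu_right j)).max continuous_const).mul continuous_y
  have hs : HasCompactSupport fun Q : H3 => max (1 + δ - cu j Q) 0 * Q.y :=
    HasCompactSupport.intro (isCompact_ball j (1 + δ)) fun Q hQ => by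
      have h5 : 1 + δ < cu j Q := not_le.mp hQ
      rw [max_eq_right (by linarith), zero_mul]
  have hpos : ∀ Q : H3, 0 ≤ max (1 + δ - cu j Q) 0 * Q.y := fun Q =>
    mul_nonneg (le_max_right _ _) Q.y_pos.le
  have h4 : 0 < ∫ Q : H3, max (1 + δ - cu j Q) 0 * Q.y := by
    rw [integral_pos_iff_support_of_nonneg hpos (hc.integrable_of_hasCompactSupport hs)]
    have hmem : j ∈ Function.support fun Q : H3 => max (1 + δ - cu j Q) 0 * Q.y := by
      rw [Function.mem_support, cu_self]
      have : max (1 + δ - 1) 0 = δ := by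
        rw [add_sub_cancel_left]
        exact max_eq_left hδ.le
      rw [this]
      exact mul_ne_zero hδ.ne' j.y_pos.ne'
    exact hc.isOpen_support.measure_pos _ ⟨j, hmem⟩
  exact h4.ne' h1

end H3

/-! ### The eigenvalue equation of a product kernel -/

section Prod

variable {F : Type} [Field F]

theorem Xi.upd_eq_update [DecidableEq (InfinitePlace F)] (x : Xi F) (w : InfinitePlace F) (Q : H3) :
    x.upd w Q = (Function.update x w Q : InfinitePlace F → H3) := by
  funext w'
  unfold Xi.upd
  by_cases h : w' = w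
  · subst h
    rw [if_pos rfl, Function.update_self]
  · rw [if_neg h, Function.update_of_ne h]

variable [NumberField F] [IsTotallyComplex F] {U : Lev F} {S : Set (HeightOneSpectrum (𝓞 F))}
  {a : HeightOneSpectrum (𝓞 F) → ℝ} {f : Xi F × D U → ℂ}

/-- A product kernel acts by the product of the eigenvalues. -/
theorem IsForm0.integral_pk (h : IsForm0 F U S a f) {k : InfinitePlace F → ℝ → ℂ}
    (hk : ∀ w, IsKer (k w)) (z : Xi F × D U) :
    ∫ x' : Xi F, (∏ w, k w (cu (z.1 w) (x' w))) * f (x', z.2) = (∏ w, sph 0 (k w)) * f z := by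
  classical
  have h1 := Aleph.integral_pk_eq (ι := InfinitePlace F) (k := k) hk
    (f := fun x' : InfinitePlace F → H3 => f ((x' : Xi F), z.2)) (h.cont z.2)
    (lam := fun w => sph 0 (k w)) (fun w x => ?_) z.1
  · exact h1
  · have h2 := h.radial w (k w) (hk w) ((x : Xi F), z.2)
    simp only [Xi.upd_eq_update] at h2
    exact h2

/-- **Cuspidal forms of moderate growth are bounded.** -/
theorem IsForm0.bounded
    (h : IsForm0 F U S a f) (hc : IsCusp f) : ∃ B : ℝ, ∀ z, ‖f z‖ ≤ B := by
  obtain ⟨R, Λ, hκ⟩ := LKer.hKer (F := F) (k := fun _ => bump 1) fun _ => lKer_bump 1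
  have hl : (∏ _w : InfinitePlace F, sph 0 (bump 1)) ≠ 0 :=
    Finset.prod_ne_zero_iff.mpr fun _ _ => sph_zero_bump_ne one_pos
  obtain ⟨B, -, hB⟩ := B11.bounded_of_eigen hκ (B11.measurable_of_cont h.cont) h.inv hc h.growth hl
    (fun z => h.integral_pk (fun _ => isKer_bump 1) z)
  exact ⟨B, hB⟩

end Prod

end Fermat.Agent.LT

end
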