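import Fermat.Agent.LT.IwaVx

/-!
# Functoriality of the local coset spaces

`f : F ≃+* F'` with `v' (f x) = v x`.  `φ : D v → D v'` and `ψ : Vx v → Vx v'` are the maps of the
coset spaces, `φ (g) = (f g)` (hypothesis `IsLift`).  They commute with `wD`, `fib`, `nbr`, `cnt`,
`nbv` for arbitrary data.
-/

set_option autoImplicit false

open Matrix

namespace Fermat.Agent.LT.Iwa

open Fermat.Agent.LT.Lvl

variable {F F' : Type*} [Field F] [Field F'] {Γ₀ : Type*} [LinearOrderedCommGroupWithZero Γ₀]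
  {v : Valuation F Γ₀} {v' : Valuation F' Γ₀}

section Groups

variable (f : F ≃+* F')

/-- the map of matrices -/
abbrev gf : GL (Fin 2) F →* GL (Fin 2) F' := GeneralLinearGroup.map (f : F →+* F')

theorem gf_apply (g : GL (Fin 2) F) (i j : Fin 2) : gf f g i j = f (g i j) := rfl

theorem gf_injective : Function.Injective (gf f) := by
  intro g h e
  apply Units.ext
  ext i j
  have : gf f g i j = gf f h i j := by rw [e]
  exact f.injective this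

theorem gf_surjective : Function.Surjective (gf f) := by
  intro g
  refine ⟨gf f.symm g, ?_⟩
  apply Units.ext
  ext i j
  rw [gf_apply, gf_apply, RingEquiv.apply_symm_apply]

theorem gf_gl2 (a b c d : F) (h) (h') :
    gf f (gl2 a b c d h) = gl2 (f a) (f b) (f c) (f d) h' := by
  apply Units.ext
  ext i j
  change f ((gl2 a b c d h : GL (Fin 2) F) i j) = _
  fin_cases i <;> fin_cases j <;> rfl

variable {f}

theorem isIwahori_map (hv : ∀ x, v' (f x) = v x) (A : Matrix (Fin 2) (Fin 2) F) :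
    IsIwahori v' (A.map f) ↔ IsIwahori v A := by
  constructor
  · rintro ⟨h1, h2, h3, h4⟩
    simp only [Matrix.map_apply, hv] at h1 h2 h3 h4
    exact ⟨h1, h2, h3, h4⟩
  · rintro ⟨h1, h2, h3, h4⟩
    refine ⟨?_, ?_, ?_, ?_⟩ <;> simp only [Matrix.map_apply, hv]
    exacts [h1, h2, h3, h4]

theorem isHyper_map (hv : ∀ x, v' (f x) = v x) (A : Matrix (Fin 2) (Fin 2) F) :
    IsHyper v' (A.map f) ↔ IsHyper v A := by
  have hd : (A.map f).det = f A.det := by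
    rw [Matrix.det_fin_two, Matrix.det_fin_two]
    simp
  constructor
  · rintro ⟨h1, h2⟩
    rw [hd, hv] at h2
    exact ⟨fun i j => by rw [← hv]; exact h1 i j, h2⟩
  · rintro ⟨h1, h2⟩
    exact ⟨fun i j => by rw [Matrix.map_apply, hv]; exact h1 i j, by rw [hd, hv, h2]⟩

theorem smul_coe_gf (z : F) (g : GL (Fin 2) F) :
    f z • ((gf f g : GL (Fin 2) F') : Matrix (Fin 2) (Fin 2) F') =
      (z • (g : Matrix (Fin 2) (Fin 2) F)).map f := by
  ext i j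
  simp only [Matrix.smul_apply, smul_eq_mul, Matrix.map_apply, map_mul]
  rfl

theorem gf_mem_iwa (hv : ∀ x, v' (f x) = v x) {g : GL (Fin 2) F} :
    gf f g ∈ iwa v' ↔ g ∈ iwa v := by
  rw [mem_iwa, mem_iwa]
  constructor
  · rintro ⟨z, hz, h⟩
    obtain ⟨z, rfl⟩ := f.surjective z
    rw [smul_coe_gf, isIwahori_map hv] at h
    exact ⟨z, fun h0 => hz (by rw [h0, map_zero]), h⟩
  · rintro ⟨z, hz, h⟩
    refine ⟨f z, by simpa using hz, ?_⟩
    rw [smul_coe_gf, isIwahori_map hv]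
    exact h

theorem gf_mem_hyp (hv : ∀ x, v' (f x) = v x) {g : GL (Fin 2) F} :
    gf f g ∈ hyp v' ↔ g ∈ hyp v := by
  rw [mem_hyp, mem_hyp]
  constructor
  · rintro ⟨z, hz, h⟩
    obtain ⟨z, rfl⟩ := f.surjective z
    rw [smul_coe_gf, isHyper_map hv] at h
    exact ⟨z, fun h0 => hz (by rw [h0, map_zero]), h⟩
  · rintro ⟨z, hz, h⟩
    refine ⟨f z, by simpa using hz, ?_⟩
    rw [smul_coe_gf, isHyper_map hv]
    exact h

theorem gf_mem_Iw (hv : ∀ x, v' (f x) = v x) {g : GL (Fin 2) F} :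
    gf f g ∈ Iw v' ↔ g ∈ Iw v := by
  rw [mem_Iw, mem_Iw, ← isIwahori_map hv]
  rfl

theorem gf_mem_GLO (hv : ∀ x, v' (f x) = v x) {g : GL (Fin 2) F} :
    gf f g ∈ GLO v' ↔ g ∈ GLO v := by
  rw [mem_GLO_iff_isHyper, mem_GLO_iff_isHyper, ← isHyper_map hv]
  rfl

end Groups

/-- the transported datum -/
def Datum.map (𝔡 : Datum v) (f : F ≃+* F') (hv : ∀ x, v' (f x) = v x) : Datum v' where
  ϖ := f 𝔡.ϖ
  ϖ_ne := by simpa using 𝔡.ϖ_ne
  ϖ_lt := by rw [hv]; exact 𝔡.ϖ_lt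
  le_of_lt x hx := by
    obtain ⟨x, rfl⟩ := f.surjective x
    rw [hv] at hx ⊢
    rw [hv]
    exact 𝔡.le_of_lt x hx
  B := 𝔡.B.map f.toEquiv.toEmbedding
  B_le b hb := by
    obtain ⟨c, hc, rfl⟩ := Finset.mem_map.mp hb
    exact (hv c).trans_le (𝔡.B_le c hc)
  B_ex x hx := by
    obtain ⟨x, rfl⟩ := f.surjective x
    rw [hv] at hx
    obtain ⟨b, hb, h⟩ := 𝔡.B_ex x hx
    refine ⟨f b, Finset.mem_map_of_mem _ hb, ?_⟩
    rw [← map_sub, hv]
    exact h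
  B_uniq b hb b' hb' h := by
    obtain ⟨c, hc, rfl⟩ := Finset.mem_map.mp hb
    obtain ⟨c', hc', rfl⟩ := Finset.mem_map.mp hb'
    have h' : v' (f c - f c') < 1 := h
    rw [← map_sub, hv] at h'
    rw [𝔡.B_uniq c hc c' hc' h']

section Lift

variable (f : F ≃+* F') (hv : ∀ x, v' (f x) = v x)

/-- `φ` is the map of coset spaces induced by `f` -/
def IsLift (f : F ≃+* F') {H : Subgroup (GL (Fin 2) F)} {H' : Subgroup (GL (Fin 2) F')}
    (φ : Cos H → Cos H') : Prop :=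
  ∀ g : GL (Fin 2) F, φ (Cos.mk H g) = Cos.mk H' (gf f g)

variable {f}

theorem IsLift.smul {H : Subgroup (GL (Fin 2) F)} {H' : Subgroup (GL (Fin 2) F')}
    {φ : Cos H → Cos H'} (hφ : IsLift f φ) (g : GL (Fin 2) F) (d : Cos H) :
    φ (g • d) = gf f g • φ d := by
  obtain ⟨x, rfl⟩ := Cos.mk_surjective d
  rw [Cos.smul_mk, hφ, hφ, map_mul, Cos.smul_mk]

theorem IsLift.surjective {H : Subgroup (GL (Fin 2) F)} {H' : Subgroup (GL (Fin 2) F')}
    {φ : Cos H → Cos H'} (hφ : IsLift f φ) : Function.Surjective φ := by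
  intro d
  obtain ⟨x, rfl⟩ := Cos.mk_surjective d
  obtain ⟨y, rfl⟩ := gf_surjective f x
  exact ⟨Cos.mk H y, hφ y⟩

variable {φ : D v → D v'} {ψ : Vx v → Vx v'}

include hv

theorem IsLift.injective_D (hφ : IsLift f φ) : Function.Injective φ := by
  intro d d' e
  obtain ⟨g, rfl⟩ := Cos.mk_surjective d
  obtain ⟨g', rfl⟩ := Cos.mk_surjective d'
  rw [hφ, hφ, QuotientGroup.eq, ← map_inv, ← map_mul] at e
  exact QuotientGroup.eq.mpr ((gf_mem_iwa hv).mp e)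

theorem IsLift.injective_Vx (hψ : IsLift f ψ) : Function.Injective ψ := by
  intro d d' e
  obtain ⟨g, rfl⟩ := Cos.mk_surjective d
  obtain ⟨g', rfl⟩ := Cos.mk_surjective d'
  rw [hψ, hψ, QuotientGroup.eq, ← map_inv, ← map_mul] at e
  exact QuotientGroup.eq.mpr ((gf_mem_hyp hv).mp e)

omit hv in
theorem IsLift.pr (hφ : IsLift f φ) (hψ : IsLift f ψ) (d : D v) : pr (φ d) = ψ (pr d) := by
  obtain ⟨g, rfl⟩ := Cos.mk_surjective d
  rw [hφ, pr_mk, pr_mk]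
  exact (hψ g).symm

theorem pr_lift_eq_iff (hφ : IsLift f φ) {d d' : D v} : pr (φ d) = pr (φ d') ↔ pr d = pr d' := by
  obtain ⟨g, rfl⟩ := Cos.mk_surjective d
  obtain ⟨g', rfl⟩ := Cos.mk_surjective d'
  rw [hφ, hφ, pr_mk, pr_mk, pr_mk, pr_mk, QuotientGroup.eq, ← map_inv, ← map_mul]
  refine (gf_mem_hyp hv).trans ?_
  exact QuotientGroup.eq.symm

variable (𝔡 : Datum v) (𝔡' : Datum v')

theorem Datum.mem_fib_lift (hφ : IsLift f φ) {d d' : D v} :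
    φ d' ∈ 𝔡'.fib (φ d) ↔ d' ∈ 𝔡.fib d := by
  rw [𝔡'.mem_fib, 𝔡.mem_fib, pr_lift_eq_iff hv hφ]

open Classical in
theorem Datum.fib_lift (hφ : IsLift f φ) (d : D v) :
    𝔡'.fib (φ d) = (𝔡.fib d).image φ := by
  ext x
  obtain ⟨y, rfl⟩ := hφ.surjective x
  rw [Datum.mem_fib_lift hv 𝔡 𝔡' hφ, Finset.mem_image]
  constructor
  · intro h
    exact ⟨y, h, rfl⟩
  · rintro ⟨z, hz, e⟩
    rwa [← hφ.injective_D hv e]

theorem Datum.q_lift : 𝔡'.q = 𝔡.q := by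
  rw [𝔡'.q_eq_q (𝔡.map f hv)]
  exact Finset.card_map _

theorem Datum.wD_lift (hφ : IsLift f φ) (d : D v) : 𝔡'.wD (φ d) = φ (𝔡.wD d) := by
  obtain ⟨g, rfl⟩ := Cos.mk_surjective d
  rw [hφ, 𝔡'.wD_eq_wD (𝔡.map f hv), Datum.wD_mk, Datum.wD_mk]
  refine Eq.trans ?_ (hφ _).symm
  rw [map_mul]
  congr 2
  rw [Datum.wel, Datum.wel, gf_gl2 f _ _ _ _ _ (by simpa using 𝔡.ϖ_ne)]
  congr 1 <;> simp

open Classical in
theorem Datum.nbr_lift (hφ : IsLift f φ) (d : D v) :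
    𝔡'.nbr (φ d) = (𝔡.nbr d).image φ := by
  classical
  ext x
  obtain ⟨y, rfl⟩ := hφ.surjective x
  rw [Datum.nbr, Datum.nbr, Finset.mem_image, Finset.image_image, Finset.mem_image]
  constructor
  · rintro ⟨z, hz, e⟩
    obtain ⟨z, rfl⟩ := hφ.surjective z
    rw [Finset.mem_erase, Datum.mem_fib_lift hv 𝔡 𝔡' hφ] at hz
    refine ⟨z, Finset.mem_erase.mpr ⟨fun h => hz.1 (by rw [h]), hz.2⟩, ?_⟩
    rw [Function.comp_apply, ← Datum.wD_lift hv 𝔡 𝔡' hφ]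
    exact e
  · rintro ⟨z, hz, e⟩
    rw [Finset.mem_erase] at hz
    refine ⟨φ z, Finset.mem_erase.mpr ⟨fun h => hz.1 (hφ.injective_D hv h), ?_⟩, ?_⟩
    · rw [Datum.mem_fib_lift hv 𝔡 𝔡' hφ]
      exact hz.2
    · rw [Datum.wD_lift hv 𝔡 𝔡' hφ]
      exact e

theorem Datum.cnt_lift (hφ : IsLift f φ) (n : ℕ) (d d' : D v) :
    𝔡'.cnt n (φ d) (φ d') = 𝔡.cnt n d d' := by
  classical
  induction n generalizing d with
  | zero =>
    rw [Datum.cnt_zero, Datum.cnt_zero]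
    simp only [(hφ.injective_D hv).eq_iff]
  | succ n ih =>
    rw [Datum.cnt_succ, Datum.cnt_succ, Datum.nbr_lift hv 𝔡 𝔡' hφ,
      Finset.sum_image (fun x _ y _ h => hφ.injective_D hv h)]
    exact Finset.sum_congr rfl fun x _ => ih x

theorem Datum.mem_nbv_lift (hψ : IsLift f ψ) {x y : Vx v} :
    ψ y ∈ 𝔡'.nbv (ψ x) ↔ y ∈ 𝔡.nbv x := by
  obtain ⟨φ, hφ⟩ : ∃ φ : D v → D v', IsLift f φ := by
    refine ⟨fun d => Quotient.liftOn' d (fun g => Cos.mk (Iw v') (gf f g)) ?_, fun g => rfl⟩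
    intro g h hgh
    rw [QuotientGroup.leftRel_apply] at hgh
    refine QuotientGroup.eq.mpr ?_
    rw [← map_inv, ← map_mul]
    exact (gf_mem_iwa hv).mpr hgh
  rw [Datum.mem_nbv, Datum.mem_nbv]
  constructor
  · rintro ⟨d, hd, hd'⟩
    obtain ⟨d, rfl⟩ := hφ.surjective d
    rw [hφ.pr hψ] at hd
    rw [Datum.wD_lift hv 𝔡 𝔡' hφ, hφ.pr hψ] at hd'
    exact ⟨d, hψ.injective_Vx hv hd, hψ.injective_Vx hv hd'⟩
  · rintro ⟨d, rfl, rfl⟩
    exact ⟨φ d, hφ.pr hψ d, by rw [Datum.wD_lift hv 𝔡 𝔡' hφ, hφ.pr hψ]⟩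

open Classical in
theorem Datum.nbv_lift (hψ : IsLift f ψ) (x : Vx v) :
    𝔡'.nbv (ψ x) = (𝔡.nbv x).image ψ := by
  ext y
  obtain ⟨y, rfl⟩ := hψ.surjective y
  rw [Datum.mem_nbv_lift hv 𝔡 𝔡' hψ, Finset.mem_image]
  constructor
  · intro h
    exact ⟨y, h, rfl⟩
  · rintro ⟨z, hz, e⟩
    rwa [← hψ.injective_Vx hv e]

end Lift

end Fermat.Agent.LT.Iwa
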