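import Fermat.Agent.LT.Unfold

/-!
# Adjointness of Hecke correspondences on `Γ \ Z`

`𝒢` acts on `Z` preserving `μ`, `Γ ≤ 𝒢` is countable, `Δ ⊆ 𝒢` is a finite union of cosets `Γ α i`
and a finite union of cosets `β j Γ`. For `Γ`-invariant functions `F`, `Θ`

`∫_{Γ\Z} (∑ i, F (α i z)) Θ z = ∫_{Γ\Z} F z (∑ j, Θ ((β j)⁻¹ z))`.
-/

set_option autoImplicit false

noncomputable section

open MeasureTheory ENNReal MulAction

namespace Fermat.Agent.LT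

section Defs

variable {𝒢 : Type*} [Group 𝒢] (Γ : Subgroup 𝒢)

/-- `Δ` is the disjoint union of the left-`Γ`-cosets `Γ α i`. -/
def IsLeftReps {ι : Type*} (Δ : Set 𝒢) (α : ι → 𝒢) : Prop :=
  Set.BijOn (fun p : Γ × ι => (p.1 : 𝒢) * α p.2) Set.univ Δ

/-- `Δ` is the disjoint union of the right-`Γ`-cosets `β j Γ`. -/
def IsRightReps {ι : Type*} (Δ : Set 𝒢) (β : ι → 𝒢) : Prop :=
  Set.BijOn (fun p : Γ × ι => β p.2 * (p.1 : 𝒢)) Set.univ Δ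

variable {Γ}

/-- `Γ × ι ≃ Δ`. -/
def IsLeftReps.equiv {ι : Type*} {Δ : Set 𝒢} {α : ι → 𝒢} (h : IsLeftReps Γ Δ α) : Γ × ι ≃ Δ :=
  (Equiv.Set.univ _).symm.trans (Set.BijOn.equiv _ h)

/-- `Γ × ι ≃ Δ`. -/
def IsRightReps.equiv {ι : Type*} {Δ : Set 𝒢} {β : ι → 𝒢} (h : IsRightReps Γ Δ β) : Γ × ι ≃ Δ :=
  (Equiv.Set.univ _).symm.trans (Set.BijOn.equiv _ h)

@[simp] lemma IsLeftReps.equiv_apply {ι : Type*} {Δ : Set 𝒢} {α : ι → 𝒢} (h : IsLeftReps Γ Δ α)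
    (p : Γ × ι) : (h.equiv p : 𝒢) = (p.1 : 𝒢) * α p.2 := rfl

@[simp] lemma IsRightReps.equiv_apply {ι : Type*} {Δ : Set 𝒢} {β : ι → 𝒢} (h : IsRightReps Γ Δ β)
    (p : Γ × ι) : (h.equiv p : 𝒢) = β p.2 * (p.1 : 𝒢) := rfl

end Defs

variable {𝒢 Z : Type*} [Group 𝒢] [MeasurableSpace Z] [MulAction 𝒢 Z] [MeasurableConstSMul 𝒢 Z]
  {μ : Measure Z} [SMulInvariantMeasure 𝒢 Z μ] {Γ : Subgroup 𝒢} {w : Z → ℝ≥0∞}
  {ι ι' : Type*} [Fintype ι] [Fintype ι'] {Δ : Set 𝒢} {α : ι → 𝒢} {β : ι' → 𝒢}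

omit [MeasurableConstSMul 𝒢 Z] in
lemma tsum_leftReps_mul (hw : IsWeight Γ w) (hα : IsLeftReps Γ Δ α) {f : Z → ℝ≥0∞}
    (hf : ∀ γ ∈ Γ, ∀ z, f (γ • z) = f z) (z : Z) :
    ∑' δ : Δ, w ((δ : 𝒢) • z) * f ((δ : 𝒢) • z) = ∑ i, f (α i • z) := by
  rw [← hα.equiv.tsum_eq, ENNReal.tsum_prod', ENNReal.tsum_comm, tsum_fintype]
  refine Finset.sum_congr rfl fun i _ => ?_
  have h1 : ∀ γ : Γ, w ((hα.equiv (γ, i) : 𝒢) • z) * f ((hα.equiv (γ, i) : 𝒢) • z) =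
      w (γ • (α i • z)) * f (α i • z) := by
    intro γ
    rw [hα.equiv_apply, mul_smul, hf _ γ.2, Subgroup.smul_def]
  simp only [h1]
  rw [ENNReal.tsum_mul_right, hw.sum_eq, one_mul]

omit [MeasurableConstSMul 𝒢 Z] in
lemma tsum_rightReps_mul (hw : IsWeight Γ w) (hβ : IsRightReps Γ Δ β) {f : Z → ℝ≥0∞}
    (hf : ∀ γ ∈ Γ, ∀ z, f (γ • z) = f z) (z : Z) :
    ∑' δ : Δ, w ((δ : 𝒢)⁻¹ • z) * f ((δ : 𝒢)⁻¹ • z) = ∑ j, f ((β j)⁻¹ • z) := by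
  rw [← hβ.equiv.tsum_eq, ENNReal.tsum_prod', ENNReal.tsum_comm, tsum_fintype]
  refine Finset.sum_congr rfl fun j _ => ?_
  have h1 : ∀ γ : Γ, w ((hβ.equiv (γ, j) : 𝒢)⁻¹ • z) * f ((hβ.equiv (γ, j) : 𝒢)⁻¹ • z) =
      w (γ⁻¹ • ((β j)⁻¹ • z)) * f ((β j)⁻¹ • z) := by
    intro γ
    rw [hβ.equiv_apply, mul_inv_rev, mul_smul, hf _ (inv_mem γ.2), Subgroup.smul_def,
      InvMemClass.coe_inv]
  simp only [h1]
  rw [ENNReal.tsum_mul_right, ← (Equiv.inv Γ).tsum_eq]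
  simp only [Equiv.inv_apply, inv_inv]
  rw [hw.sum_eq, one_mul]

/-- Adjointness, non-negative functions. -/
theorem lintegral_hecke_adj (hw : IsWeight Γ w) [Countable Γ] (hα : IsLeftReps Γ Δ α)
    (hβ : IsRightReps Γ Δ β) {F Θ : Z → ℝ≥0∞} (hF : Measurable F) (hΘ : Measurable Θ)
    (hFi : ∀ γ ∈ Γ, ∀ z, F (γ • z) = F z) (hΘi : ∀ γ ∈ Γ, ∀ z, Θ (γ • z) = Θ z) :
    ∫⁻ z, w z * ((∑ i, F (α i • z)) * Θ z) ∂μ = ∫⁻ z, w z * (F z * ∑ j, Θ ((β j)⁻¹ • z)) ∂μ := by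
  have hcΔ : Countable Δ := hα.equiv.symm.injective.countable
  have hm : ∀ g : 𝒢, Measurable fun z : Z => g • z := fun g => measurable_const_smul g
  have hA : ∀ z, w z * ((∑ i, F (α i • z)) * Θ z) =
      ∑' δ : Δ, w z * (w ((δ : 𝒢) • z) * F ((δ : 𝒢) • z) * Θ z) := by
    intro z
    rw [ENNReal.tsum_mul_left, ENNReal.tsum_mul_right, tsum_leftReps_mul hw hα hFi]
  have hB : ∀ z, w z * (F z * ∑ j, Θ ((β j)⁻¹ • z)) =
      ∑' δ : Δ, w z * (F z * (w ((δ : 𝒢)⁻¹ • z) * Θ ((δ : 𝒢)⁻¹ • z))) := by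
    intro z
    rw [ENNReal.tsum_mul_left, ENNReal.tsum_mul_left, tsum_rightReps_mul hw hβ hΘi]
  simp only [hA, hB]
  rw [lintegral_tsum fun δ => ?_, lintegral_tsum fun δ => ?_]
  · refine tsum_congr fun δ => ?_
    rw [← (measurePreserving_smul (δ : 𝒢)⁻¹ μ).lintegral_comp_emb
      (measurableEmbedding_const_smul _)]
    refine lintegral_congr fun z => ?_
    rw [smul_inv_smul]
    ring
  · exact (hw.meas.mul (hF.mul ((hw.meas.comp (hm _)).mul (hΘ.comp (hm _))))).aemeasurable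
  · exact (hw.meas.mul (((hw.meas.comp (hm _)).mul (hF.comp (hm _))).mul hΘ)).aemeasurable

section Complex

/-- A sum over `Γ × ι`, `ι` finite. -/
lemma hasSum_prod_fintype {A : Type*} {f : A × ι → ℂ} {s : ι → ℂ}
    (h : ∀ i, HasSum (fun a => f (a, i)) (s i)) : HasSum f (∑ i, s i) := by
  classical
  have h1 : ∀ i ∈ (Finset.univ : Finset ι),
      HasSum (fun p : A × ι => if p.2 = i then f p else 0) (s i) := by
    intro i _
    have hinj : Function.Injective fun a : A => ((a, i) : A × ι) := fun a b hab =>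
      congrArg Prod.fst hab
    rw [← hinj.hasSum_iff]
    · have : ((fun p : A × ι => if p.2 = i then f p else 0) ∘ fun a : A => ((a, i) : A × ι)) =
          fun a => f (a, i) := by
        funext a
        simp
      rw [this]
      exact h i
    · rintro ⟨a, j⟩ hj
      have : j ≠ i := fun hji => hj ⟨a, by rw [hji]⟩
      simp [this]
  have h2 := hasSum_sum h1
  convert h2 using 1
  funext p
  simp

omit [MeasurableConstSMul 𝒢 Z] [Fintype ι] in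
lemma IsWeight.hasSum_toReal (hw : IsWeight Γ w) (z : Z) :
    HasSum (fun γ : Γ => ((w (γ • z)).toReal : ℂ)) 1 := by
  have h1 := hw.sum_eq z
  have h2 : Summable fun γ : Γ => (w (γ • z)).toReal :=
    ENNReal.summable_toReal (by rw [h1]; exact one_ne_top)
  have h3 := h2.hasSum
  rw [← ENNReal.tsum_toReal_eq (fun γ => hw.ne_top _), h1, ENNReal.toReal_one] at h3
  have h4 := h3.mapL Complex.ofRealCLM
  simpa using h4

omit [MeasurableConstSMul 𝒢 Z] in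
lemma hasSum_leftReps (hw : IsWeight Γ w) (hα : IsLeftReps Γ Δ α) {f : Z → ℂ}
    (hf : ∀ γ ∈ Γ, ∀ z, f (γ • z) = f z) (z : Z) :
    HasSum (fun δ : Δ => ((w ((δ : 𝒢) • z)).toReal : ℂ) * f ((δ : 𝒢) • z))
      (∑ i, f (α i • z)) := by
  rw [← hα.equiv.hasSum_iff]
  refine hasSum_prod_fintype fun i => ?_
  have h5 : (fun γ : Γ => ((fun δ : Δ => ((w ((δ : 𝒢) • z)).toReal : ℂ) * f ((δ : 𝒢) • z)) ∘
      hα.equiv) (γ, i)) = fun γ : Γ => ((w (γ • (α i • z))).toReal : ℂ) * f (α i • z) := by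
    funext γ
    rw [Function.comp_apply, hα.equiv_apply, mul_smul, hf _ γ.2, Subgroup.smul_def]
  rw [h5]
  have := (hw.hasSum_toReal (α i • z)).mul_right (f (α i • z))
  rwa [one_mul] at this

omit [MeasurableConstSMul 𝒢 Z] in
lemma hasSum_rightReps (hw : IsWeight Γ w) (hβ : IsRightReps Γ Δ β) {f : Z → ℂ}
    (hf : ∀ γ ∈ Γ, ∀ z, f (γ • z) = f z) (z : Z) :
    HasSum (fun δ : Δ => ((w ((δ : 𝒢)⁻¹ • z)).toReal : ℂ) * f ((δ : 𝒢)⁻¹ • z))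
      (∑ j, f ((β j)⁻¹ • z)) := by
  rw [← hβ.equiv.hasSum_iff]
  refine hasSum_prod_fintype fun j => ?_
  have h5 : (fun γ : Γ => ((fun δ : Δ => ((w ((δ : 𝒢)⁻¹ • z)).toReal : ℂ) *
      f ((δ : 𝒢)⁻¹ • z)) ∘ hβ.equiv) (γ, j)) =
      (fun γ : Γ => ((w (γ • ((β j)⁻¹ • z))).toReal : ℂ) * f ((β j)⁻¹ • z)) ∘ (Equiv.inv Γ) := by
    funext γ
    rw [Function.comp_apply, Function.comp_apply, hβ.equiv_apply, mul_inv_rev, mul_smul,
      hf _ (inv_mem γ.2), Subgroup.smul_def, Equiv.inv_apply, InvMemClass.coe_inv]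
  rw [h5, (Equiv.inv Γ).hasSum_iff]
  have := (hw.hasSum_toReal ((β j)⁻¹ • z)).mul_right (f ((β j)⁻¹ • z))
  rwa [one_mul] at this

/-- **Adjointness of Hecke correspondences.** -/
theorem integral_hecke_adj (hw : IsWeight Γ w) [Countable Γ] (hα : IsLeftReps Γ Δ α)
    (hβ : IsRightReps Γ Δ β) {F Θ : Z → ℂ} (hF : Measurable F) (hΘ : Measurable Θ)
    (hFi : ∀ γ ∈ Γ, ∀ z, F (γ • z) = F z) (hΘi : ∀ γ ∈ Γ, ∀ z, Θ (γ • z) = Θ z)
    (hint : ∀ i, Integrable (fun z => F (α i • z) * Θ z) (μ.withDensity w)) :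
    ∫ z, (∑ i, F (α i • z)) * Θ z ∂μ.withDensity w =
      ∫ z, F z * ∑ j, Θ ((β j)⁻¹ • z) ∂μ.withDensity w := by
  have hcΔ : Countable Δ := hα.equiv.symm.injective.countable
  have hm : ∀ g : 𝒢, Measurable fun z : Z => g • z := fun g => measurable_const_smul g
  have hwr : Measurable fun z => ((w z).toReal : ℂ) :=
    Complex.measurable_ofReal.comp hw.meas.ennreal_toReal
  have hd : ∀ f : Z → ℂ, ∫ z, f z ∂μ.withDensity w = ∫ z, ((w z).toReal : ℂ) * f z ∂μ := by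
    intro f
    rw [integral_withDensity_eq_integral_toReal_smul hw.meas
      (Filter.Eventually.of_forall fun z => hw.lt_top z)]
    simp only [Complex.real_smul]
  rw [hd, hd]
  -- finiteness
  have hen : ∀ z, ‖((w z).toReal : ℂ)‖ₑ = w z := by
    intro z
    rw [← ofReal_norm, Complex.norm_real, Real.norm_of_nonneg ENNReal.toReal_nonneg,
      ENNReal.ofReal_toReal (hw.ne_top z)]
  have hfin : ∫⁻ z, w z * ((∑ i, ‖F (α i • z)‖ₑ) * ‖Θ z‖ₑ) ∂μ ≠ ∞ := by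
    have h1 : ∀ z, w z * ((∑ i, ‖F (α i • z)‖ₑ) * ‖Θ z‖ₑ) =
        ∑ i, w z * ‖F (α i • z) * Θ z‖ₑ := by
      intro z
      rw [Finset.sum_mul, Finset.mul_sum]
      refine Finset.sum_congr rfl fun i _ => ?_
      rw [enorm_mul]
    simp only [h1]
    rw [lintegral_finsetSum _ fun i _ => ?_]
    · refine (ENNReal.sum_lt_top.mpr fun i _ => ?_).ne
      have h2 := (hint i).2
      rw [HasFiniteIntegral, lintegral_withDensity_eq_lintegral_mul _ hw.meas] at h2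
      · exact h2
      · exact ((hF.comp (hm _)).mul hΘ).enorm
    · exact hw.meas.mul ((hF.comp (hm _)).mul hΘ).enorm
  have hFn : ∀ γ ∈ Γ, ∀ z, ‖F (γ • z)‖ₑ = ‖F z‖ₑ := fun γ hγ z => by rw [hFi γ hγ]
  have hΘn : ∀ γ ∈ Γ, ∀ z, ‖Θ (γ • z)‖ₑ = ‖Θ z‖ₑ := fun γ hγ z => by rw [hΘi γ hγ]
  have hfin2 : ∫⁻ z, w z * (‖F z‖ₑ * ∑ j, ‖Θ ((β j)⁻¹ • z)‖ₑ) ∂μ ≠ ∞ := by
    rw [← lintegral_hecke_adj hw hα hβ hF.enorm hΘ.enorm hFn hΘn]
    exact hfin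
  let a : Δ → Z → ℂ := fun δ z =>
    ((w z).toReal : ℂ) * ((((w ((δ : 𝒢) • z)).toReal : ℂ) * F ((δ : 𝒢) • z)) * Θ z)
  let b : Δ → Z → ℂ := fun δ z =>
    ((w z).toReal : ℂ) * (F z * (((w ((δ : 𝒢)⁻¹ • z)).toReal : ℂ) * Θ ((δ : 𝒢)⁻¹ • z)))
  have ham : ∀ δ, Measurable (a δ) := fun δ =>
    hwr.mul (((hwr.comp (hm _)).mul (hF.comp (hm _))).mul hΘ)
  have hbm : ∀ δ, Measurable (b δ) := fun δ =>
    hwr.mul (hF.mul ((hwr.comp (hm _)).mul (hΘ.comp (hm _))))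
  have hA : ∀ z, ((w z).toReal : ℂ) * ((∑ i, F (α i • z)) * Θ z) = ∑' δ, a δ z := fun z =>
    ((((hasSum_leftReps hw hα hFi z).mul_right (Θ z)).mul_left _).tsum_eq).symm
  have hB : ∀ z, ((w z).toReal : ℂ) * (F z * ∑ j, Θ ((β j)⁻¹ • z)) = ∑' δ, b δ z := fun z =>
    ((((hasSum_rightReps hw hβ hΘi z).mul_left (F z)).mul_left _).tsum_eq).symm
  have hAf : ∑' δ, ∫⁻ z, ‖a δ z‖ₑ ∂μ ≠ ∞ := by
    rw [← lintegral_tsum fun δ => (ham δ).enorm.aemeasurable]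
    convert hfin using 3 with z
    simp only [a, enorm_mul, hen]
    rw [ENNReal.tsum_mul_left, ENNReal.tsum_mul_right,
      tsum_leftReps_mul (f := fun z => ‖F z‖ₑ) hw hα hFn]
  have hBf : ∑' δ, ∫⁻ z, ‖b δ z‖ₑ ∂μ ≠ ∞ := by
    rw [← lintegral_tsum fun δ => (hbm δ).enorm.aemeasurable]
    convert hfin2 using 3 with z
    simp only [b, enorm_mul, hen]
    rw [ENNReal.tsum_mul_left, ENNReal.tsum_mul_left,
      tsum_rightReps_mul (f := fun z => ‖Θ z‖ₑ) hw hβ hΘn]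
  simp only [hA, hB]
  rw [integral_tsum (fun δ => (ham δ).aestronglyMeasurable) hAf,
    integral_tsum (fun δ => (hbm δ).aestronglyMeasurable) hBf]
  refine tsum_congr fun δ => ?_
  rw [← (measurePreserving_smul (δ : 𝒢)⁻¹ μ).integral_comp
    (measurableEmbedding_const_smul _)]
  refine integral_congr_ae (Filter.Eventually.of_forall fun z => ?_)
  simp only [a, b, smul_inv_smul]
  ring

end Complex

end Fermat.Agent.LT
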