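import Mathlib

/-!
# Uniform lattice sums near the edge of convergence

For a lattice `L` in a euclidean space of dimension `n`, a volume preserving linear map `T` with
`‖T x‖ ≤ M ‖x‖`, `‖x‖ ≤ M ‖T x‖`, and `1 < s ≤ 2`:
`∑_{z ∈ L, z + x₀ ≠ 0} ‖T (z + x₀)‖^(-n s) = vol(B) / (covol L * (s - 1)) + O(M^B)`.
-/

set_option autoImplicit false
set_option linter.unusedSectionVars false
set_option linter.unusedVariables false

open MeasureTheory Metric Set Module

namespace Fermat.Agent.LT.LatSum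

section scalar

/-- mean value estimate for `t ^ (-p)` -/
lemma abs_rpow_neg_sub_le {p a b c : ℝ} (hp : 0 < p) (hc : 0 < c) (ha : c ≤ a) (hb : c ≤ b) :
    |a ^ (-p) - b ^ (-p)| ≤ p * c ^ (-p - 1) * |a - b| := by
  have h1 : ∀ x ∈ Ici c, HasDerivWithinAt (fun t : ℝ => t ^ (-p)) (-p * x ^ (-p - 1)) (Ici c) x := by
    intro x hx
    have hx0 : x ≠ 0 := (hc.trans_le hx).ne'
    exact (Real.hasDerivAt_rpow_const (Or.inl hx0)).hasDerivWithinAt
  have h2 : ∀ x ∈ Ici c, ‖-p * x ^ (-p - 1)‖ ≤ p * c ^ (-p - 1) := by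
    intro x hx
    rw [norm_mul, norm_neg, Real.norm_of_nonneg hp.le,
      Real.norm_of_nonneg (Real.rpow_nonneg (hc.le.trans hx) _)]
    refine mul_le_mul_of_nonneg_left ?_ hp.le
    exact Real.rpow_le_rpow_of_nonpos hc hx (by linarith)
  have h3 := (convex_Ici c).norm_image_sub_le_of_norm_hasDerivWithin_le h1 h2
    (show b ∈ Ici c from hb) (show a ∈ Ici c from ha)
  simpa [Real.norm_eq_abs] using h3

/-- crude bound for real powers -/
lemma rpow_le_rpow_abs {y q e k : ℝ} (hq : 1 ≤ q) (h1 : q⁻¹ ≤ y) (h2 : y ≤ q) (he : |e| ≤ k) :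
    y ^ e ≤ q ^ k := by
  have hq0 : 0 < q := zero_lt_one.trans_le hq
  have hy : 0 < y := (inv_pos.mpr hq0).trans_le h1
  rcases le_total 0 e with he0 | he0
  · calc y ^ e ≤ q ^ e := Real.rpow_le_rpow hy.le h2 he0
      _ ≤ q ^ k := Real.rpow_le_rpow_of_exponent_le hq ((le_abs_self e).trans he)
  · calc y ^ e ≤ (q⁻¹) ^ e := Real.rpow_le_rpow_of_nonpos (inv_pos.mpr hq0) h1 he0
      _ = q ^ (-e) := by rw [Real.inv_rpow hq0.le, ← Real.rpow_neg hq0.le]
      _ ≤ q ^ k := Real.rpow_le_rpow_of_exponent_le hq ((neg_le_abs e).trans he)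

/-- the radial function -/
noncomputable def rad (p : ℝ) (r : ℝ) : ℝ := if 1 ≤ r then r ^ (-p) else 0

lemma rad_nonneg (p r : ℝ) : 0 ≤ rad p r := by
  unfold rad
  split_ifs with h
  · exact Real.rpow_nonneg (zero_le_one.trans h) _
  · exact le_rfl

lemma rad_le_one {p : ℝ} (hp : 0 ≤ p) (r : ℝ) : rad p r ≤ 1 := by
  unfold rad
  split_ifs with h
  · exact Real.rpow_le_one_of_one_le_of_nonpos h (neg_nonpos.mpr hp)
  · exact zero_le_one

end scalar

section main

variable {E : Type*} [NormedAddCommGroup E] [InnerProductSpace ℝ E] [FiniteDimensional ℝ E]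
  [MeasurableSpace E] [BorelSpace E]

open Classical in
/-- Pointwise comparison of `‖T x‖ ^ (-p)` with the truncated function at `T (x + u)`. -/
lemma pointwise (T : E →ₗ[ℝ] E) {M δ m₀ R q : ℝ} {n : ℕ} (hn : 1 ≤ n) (hM : 1 ≤ M) (hδ : 0 ≤ δ)
    (hm₀ : 0 < m₀) (hR : R = 2 * δ + 2) (hq1 : R ≤ q) (hq2 : M / m₀ ≤ q)
    (hT1 : ∀ x, ‖T x‖ ≤ M * ‖x‖) (hT2 : ∀ x, ‖x‖ ≤ M * ‖T x‖)
    {p : ℝ} (hp1 : (n : ℝ) ≤ p) (hp2 : p ≤ 2 * n)
    {x u : E} (hx : x = 0 ∨ m₀ ≤ ‖x‖) (hu : ‖T u‖ ≤ δ) :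
    |‖T x‖ ^ (-p) - rad p ‖T (x + u)‖| ≤
      (2 * q ^ (2 * n : ℝ) * (M * R) ^ (n + 1 : ℝ) + 2 * n * δ * 2 ^ (n + 1 : ℝ) * M ^ (n + 1 : ℝ)) *
        (if x = 0 then 1 else ‖x‖ ^ (-(n + 1 : ℝ))) := by
  have hn' : (1 : ℝ) ≤ n := by exact_mod_cast hn
  have hp0 : 0 < p := by linarith
  have hR2 : 2 ≤ R := by rw [hR]; linarith
  have hq : 1 ≤ q := by linarith
  have hM0 : 0 < M := by linarith
  have hMR : 1 ≤ M * R := by nlinarith
  have hK1 : 1 ≤ q ^ (2 * n : ℝ) := Real.one_le_rpow hq (by positivity)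
  have hK2 : 1 ≤ (M * R) ^ (n + 1 : ℝ) := Real.one_le_rpow hMR (by positivity)
  have hK3 : 0 ≤ 2 * (n : ℝ) * δ * 2 ^ (n + 1 : ℝ) * M ^ (n + 1 : ℝ) := by positivity
  by_cases hx0 : x = 0
  · subst hx0
    rw [map_zero, norm_zero, Real.zero_rpow (by linarith), zero_sub, abs_neg,
      abs_of_nonneg (rad_nonneg _ _), if_pos rfl, mul_one]
    refine (rad_le_one hp0.le _).trans ?_
    nlinarith
  · rw [if_neg hx0]
    have hxm : m₀ ≤ ‖x‖ := hx.resolve_left hx0
    have hxp : 0 < ‖x‖ := norm_pos_iff.mpr hx0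
    have hTx : 0 < ‖T x‖ := by
      have := hT2 x
      by_contra h
      have h0 : ‖T x‖ = 0 := le_antisymm (not_lt.mp h) (norm_nonneg _)
      rw [h0, mul_zero] at this
      linarith
    rcases le_or_gt R ‖T x‖ with hfar | hnear
    · -- far
      have hab : |‖T x‖ - ‖T (x + u)‖| ≤ δ := by
        have h1 : |‖T x‖ - ‖T (x + u)‖| ≤ ‖T x - T (x + u)‖ := abs_norm_sub_norm_le _ _
        have h2 : T x - T (x + u) = -(T u) := by rw [map_add]; abel
        rw [h2, norm_neg] at h1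
        exact h1.trans hu
      have hb : ‖T x‖ / 2 ≤ ‖T (x + u)‖ := by
        have := (abs_le.mp hab).2
        have h3 : 2 * δ ≤ ‖T x‖ := by linarith
        linarith
      have hc1 : 1 ≤ ‖T x‖ / 2 := by linarith
      have hrad : rad p ‖T (x + u)‖ = ‖T (x + u)‖ ^ (-p) := by
        unfold rad
        rw [if_pos (hc1.trans hb)]
      rw [hrad]
      have h4 := abs_rpow_neg_sub_le (p := p) (c := ‖T x‖ / 2) hp0 (by linarith)
        (show ‖T x‖ / 2 ≤ ‖T x‖ by linarith) hb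
      refine h4.trans ?_
      have h5 : (‖T x‖ / 2) ^ (-p - 1) ≤ (‖T x‖ / 2) ^ (-(n + 1 : ℝ)) :=
        Real.rpow_le_rpow_of_exponent_le hc1 (by linarith)
      have h6 : (‖T x‖ / 2) ^ (-(n + 1 : ℝ)) = 2 ^ (n + 1 : ℝ) * ‖T x‖ ^ (-(n + 1 : ℝ)) := by
        rw [Real.div_rpow hTx.le zero_le_two, Real.rpow_neg zero_le_two, div_inv_eq_mul, mul_comm]
      have h7 : ‖T x‖ ^ (-(n + 1 : ℝ)) ≤ M ^ (n + 1 : ℝ) * ‖x‖ ^ (-(n + 1 : ℝ)) := by
        have h8 : ‖x‖ / M ≤ ‖T x‖ := by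
          rw [div_le_iff₀ hM0, mul_comm]
          exact hT2 x
        calc ‖T x‖ ^ (-(n + 1 : ℝ)) ≤ (‖x‖ / M) ^ (-(n + 1 : ℝ)) :=
              Real.rpow_le_rpow_of_nonpos (by positivity) h8 (by linarith)
          _ = M ^ (n + 1 : ℝ) * ‖x‖ ^ (-(n + 1 : ℝ)) := by
              rw [Real.div_rpow hxp.le hM0.le, Real.rpow_neg hM0.le, div_inv_eq_mul, mul_comm]
      have hw : 0 ≤ ‖x‖ ^ (-(n + 1 : ℝ)) := Real.rpow_nonneg hxp.le _
      calc p * (‖T x‖ / 2) ^ (-p - 1) * |‖T x‖ - ‖T (x + u)‖|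
          ≤ (2 * n) * (2 ^ (n + 1 : ℝ) * (M ^ (n + 1 : ℝ) * ‖x‖ ^ (-(n + 1 : ℝ)))) * δ := by
            refine mul_le_mul (mul_le_mul hp2 ?_ (by positivity) (by positivity)) hab
              (abs_nonneg _) (by positivity)
            refine h5.trans ?_
            rw [h6]
            exact mul_le_mul_of_nonneg_left h7 (by positivity)
        _ = (2 * n * δ * 2 ^ (n + 1 : ℝ) * M ^ (n + 1 : ℝ)) * ‖x‖ ^ (-(n + 1 : ℝ)) := by ring
        _ ≤ _ := by
            refine mul_le_mul_of_nonneg_right ?_ hw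
            have : 0 ≤ 2 * q ^ (2 * n : ℝ) * (M * R) ^ (n + 1 : ℝ) := by positivity
            linarith
    · -- near
      have hlow : q⁻¹ ≤ ‖T x‖ := by
        have h1 : m₀ / M ≤ ‖T x‖ := by
          rw [div_le_iff₀ hM0, mul_comm]
          exact hxm.trans (hT2 x)
        refine le_trans ?_ h1
        rw [← inv_div]
        exact inv_anti₀ (by positivity) hq2
      have ha : ‖T x‖ ^ (-p) ≤ q ^ (2 * n : ℝ) :=
        rpow_le_rpow_abs hq hlow (hnear.le.trans hq1) (by rw [abs_neg, abs_of_pos hp0]; exact hp2)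
      have ha0 : 0 ≤ ‖T x‖ ^ (-p) := Real.rpow_nonneg hTx.le _
      have hr0 := rad_nonneg p ‖T (x + u)‖
      have hr1 := rad_le_one hp0.le ‖T (x + u)‖
      have h1 : |‖T x‖ ^ (-p) - rad p ‖T (x + u)‖| ≤ 2 * q ^ (2 * n : ℝ) := by
        rw [abs_le]
        constructor <;> linarith
      have h2 : 1 ≤ (M * R) ^ (n + 1 : ℝ) * ‖x‖ ^ (-(n + 1 : ℝ)) := by
        have h3 : ‖x‖ ≤ M * R := (hT2 x).trans (mul_le_mul_of_nonneg_left hnear.le hM0.le)
        rw [Real.rpow_neg hxp.le, ← div_eq_mul_inv, one_le_div (by positivity)]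
        exact Real.rpow_le_rpow hxp.le h3 (by positivity)
      have hw : 0 ≤ ‖x‖ ^ (-(n + 1 : ℝ)) := Real.rpow_nonneg hxp.le _
      calc |‖T x‖ ^ (-p) - rad p ‖T (x + u)‖| ≤ 2 * q ^ (2 * n : ℝ) * 1 := by linarith
        _ ≤ 2 * q ^ (2 * n : ℝ) * ((M * R) ^ (n + 1 : ℝ) * ‖x‖ ^ (-(n + 1 : ℝ))) :=
            mul_le_mul_of_nonneg_left h2 (by positivity)
        _ = (2 * q ^ (2 * n : ℝ) * (M * R) ^ (n + 1 : ℝ)) * ‖x‖ ^ (-(n + 1 : ℝ)) := by ring
        _ ≤ _ := by
            refine mul_le_mul_of_nonneg_right ?_ hw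
            linarith

/-- the radial integral -/
lemma integral_rad [Nontrivial E] {s : ℝ} (hs : 1 < s) :
    Integrable (fun x : E => rad (finrank ℝ E * s) ‖x‖) ∧
    ∫ x : E, rad (finrank ℝ E * s) ‖x‖ = (volume : Measure E).real (ball 0 1) / (s - 1) := by
  set n := finrank ℝ E with hn
  have hn1 : 1 ≤ n := finrank_pos
  have hn' : (1 : ℝ) ≤ n := by exact_mod_cast hn1
  have key : ∀ y ∈ Ioi (0 : ℝ), y ^ (n - 1) • rad (n * s) y =
      (Ici (1 : ℝ)).indicator (fun y => y ^ ((n : ℝ) - 1 - n * s)) y := by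
    intro y hy
    have hy0 : (0 : ℝ) < y := hy
    unfold rad
    by_cases h1 : 1 ≤ y
    · rw [if_pos h1, indicator_of_mem (show y ∈ Ici (1 : ℝ) from h1), smul_eq_mul,
        ← Real.rpow_natCast, ← Real.rpow_add hy0]
      congr 1
      rw [Nat.cast_sub hn1]
      push_cast
      ring
    · rw [if_neg h1, indicator_of_notMem (show y ∉ Ici (1 : ℝ) from h1), smul_zero]
  have hexp : (n : ℝ) - 1 - n * s < -1 := by nlinarith
  have hint : IntegrableOn ((Ici (1 : ℝ)).indicator (fun y : ℝ => y ^ ((n : ℝ) - 1 - n * s)))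
      (Ioi 0) := by
    have h1 : IntegrableOn (fun y : ℝ => y ^ ((n : ℝ) - 1 - n * s)) (Ici 1) :=
      (integrableOn_Ici_iff_integrableOn_Ioi).mpr
        (integrableOn_Ioi_rpow_of_lt hexp zero_lt_one)
    exact (h1.integrable_indicator measurableSet_Ici).integrableOn
  constructor
  · rw [integrable_fun_norm_addHaar (volume : Measure E) (f := rad (n * s))]
    rw [integrableOn_congr_fun key measurableSet_Ioi]
    exact hint
  · rw [integral_fun_norm_addHaar (volume : Measure E) (rad (n * s)),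
      setIntegral_congr_fun measurableSet_Ioi key,
      setIntegral_indicator measurableSet_Ici]
    have h2 : Ioi (0 : ℝ) ∩ Ici 1 = Ici 1 := by
      ext y
      simp only [mem_inter_iff, mem_Ioi, mem_Ici, and_iff_right_iff_imp]
      intro h
      linarith
    rw [h2, integral_Ici_eq_integral_Ioi, integral_Ioi_rpow_of_lt hexp zero_lt_one, Real.one_rpow,
      nsmul_eq_mul, smul_eq_mul]
    have h3 : (n : ℝ) - 1 - n * s + 1 = -(n * (s - 1)) := by ring
    rw [h3]
    have h4 : s - 1 ≠ 0 := by linarith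
    have h5 : (n : ℝ) ≠ 0 := by linarith
    rw [← hn]
    field_simp

variable {ι : Type*} [Fintype ι] (b : Basis ι ℝ E)

open Classical in
/-- the weights are summable -/
lemma summable_weight (x₀ : E) : Summable fun z : Submodule.span ℤ (Set.range b) =>
    if (z : E) + x₀ = 0 then (1 : ℝ) else ‖(z : E) + x₀‖ ^ (-(finrank ℝ E + 1 : ℝ)) := by
  set L := Submodule.span ℤ (Set.range b) with hL
  have hfin : (finrank ℤ L : ℝ) = finrank ℝ E := by
    rw [ZLattice.rank ℝ L]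
  have h1 : Summable fun z : L => ‖(z : E) - (-x₀)‖ ^ (-(finrank ℝ E + 1 : ℝ)) :=
    ZLattice.summable_norm_sub_rpow L _ (by rw [hfin]; linarith) (-x₀)
  have h2 : Summable fun z : L => if (z : E) + x₀ = 0 then (1 : ℝ) else 0 := by
    refine summable_of_hasFiniteSupport ?_
    refine Set.Subsingleton.finite ?_
    intro z hz z' hz'
    rw [Function.mem_support] at hz hz'
    have h3 : (z : E) + x₀ = 0 := by
      by_contra h
      exact hz (if_neg h)
    have h4 : (z' : E) + x₀ = 0 := by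
      by_contra h
      exact hz' (if_neg h)
    apply Subtype.ext
    exact add_right_cancel (h3.trans h4.symm)
  refine Summable.of_nonneg_of_le (fun z => ?_) (fun z => ?_) (h1.add h2)
  · split_ifs
    · exact zero_le_one
    · exact Real.rpow_nonneg (norm_nonneg _) _
  · rw [sub_neg_eq_add]
    by_cases h : (z : E) + x₀ = 0
    · rw [if_pos h, if_pos h]
      have : 0 ≤ ‖(z : E) + x₀‖ ^ (-(finrank ℝ E + 1 : ℝ)) := Real.rpow_nonneg (norm_nonneg _) _
      linarith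
    · rw [if_neg h, if_neg h, add_zero]

/-- the non-zero elements of a coset are bounded away from zero -/
lemma exists_min (x₀ : E) : ∃ m₀ : ℝ, 0 < m₀ ∧ ∀ z : Submodule.span ℤ (Set.range b),
    (z : E) + x₀ = 0 ∨ m₀ ≤ ‖(z : E) + x₀‖ := by
  classical
  set L := Submodule.span ℤ (Set.range b) with hL
  have hsum := summable_weight b x₀
  have h1 : {z : L | 1 ≤ (if (z : E) + x₀ = 0 then (1 : ℝ) else
      ‖(z : E) + x₀‖ ^ (-(finrank ℝ E + 1 : ℝ)))}.Finite := by
    have h2 := hsum.tendsto_cofinite_zero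
    have h3 : ∀ᶠ z : L in Filter.cofinite, (if (z : E) + x₀ = 0 then (1 : ℝ) else
      ‖(z : E) + x₀‖ ^ (-(finrank ℝ E + 1 : ℝ))) < 1 := h2.eventually_lt_const zero_lt_one
    rw [Filter.eventually_cofinite] at h3
    simpa only [not_lt] using h3
  obtain ⟨m, hm, hmin⟩ : ∃ m : ℝ, 0 < m ∧ ∀ z ∈ h1.toFinset, (z : E) + x₀ = 0 ∨
      m ≤ ‖(z : E) + x₀‖ := by
    generalize h1.toFinset = S
    induction S using Finset.induction_on with
    | empty => exact ⟨1, zero_lt_one, fun z hz => absurd hz (Finset.notMem_empty z)⟩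
    | insert a S ha ih =>
      obtain ⟨m, hm, h⟩ := ih
      by_cases h0 : (a : E) + x₀ = 0
      · refine ⟨m, hm, fun z hz => ?_⟩
        rcases Finset.mem_insert.mp hz with rfl | hz
        · exact Or.inl h0
        · exact h z hz
      · refine ⟨min m ‖(a : E) + x₀‖, lt_min hm (norm_pos_iff.mpr h0), fun z hz => ?_⟩
        rcases Finset.mem_insert.mp hz with rfl | hz
        · exact Or.inr (min_le_right _ _)
        · exact (h z hz).imp_right (min_le_left _ _).trans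
  refine ⟨min m 1, lt_min hm zero_lt_one, fun z => ?_⟩
  by_cases hz : z ∈ h1.toFinset
  · exact (hmin z hz).imp_right (min_le_left _ _).trans
  · by_cases h0 : (z : E) + x₀ = 0
    · exact Or.inl h0
    · right
      refine (min_le_right _ _).trans ?_
      by_contra hlt
      apply hz
      rw [Set.Finite.mem_toFinset, Set.mem_ofPred_eq, if_neg h0]
      have hn : 0 < ‖(z : E) + x₀‖ := norm_pos_iff.mpr h0
      exact Real.one_le_rpow_of_pos_of_le_one_of_nonpos hn (not_le.mp hlt).le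
        (by have : (0 : ℝ) ≤ finrank ℝ E := Nat.cast_nonneg _; linarith)

/-- the constant is polynomial in `M` -/
lemma const_bound {n : ℕ} {c m₀ M : ℝ} (hc : 0 ≤ c) (hm₀ : 0 < m₀) (hM : 1 ≤ M) :
    2 * ((2 * (M * c) + 2) + M / m₀) ^ (2 * n : ℝ) * (M * (2 * (M * c) + 2)) ^ (n + 1 : ℝ) +
      2 * n * (M * c) * 2 ^ (n + 1 : ℝ) * M ^ (n + 1 : ℝ) ≤
    (2 * (2 * c + 2 + 1 / m₀) ^ (2 * n : ℝ) * (2 * c + 2) ^ (n + 1 : ℝ) +
      2 * n * c * 2 ^ (n + 1 : ℝ)) * M ^ (4 * n + 2 : ℝ) := by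
  have hM0 : 0 < M := by linarith
  have h1 : (2 * (M * c) + 2) + M / m₀ ≤ M * (2 * c + 2 + 1 / m₀) := by
    have : M * (2 * c + 2 + 1 / m₀) = 2 * (M * c) + 2 * M + M / m₀ := by ring
    rw [this]
    linarith
  have h2 : M * (2 * (M * c) + 2) ≤ M ^ (2 : ℝ) * (2 * c + 2) := by
    rw [Real.rpow_two]
    nlinarith [mul_nonneg hM0.le hc]
  have e1 : ((2 * (M * c) + 2) + M / m₀) ^ (2 * n : ℝ) ≤
      M ^ (2 * n : ℝ) * (2 * c + 2 + 1 / m₀) ^ (2 * n : ℝ) := by
    rw [← Real.mul_rpow hM0.le (by positivity)]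
    exact Real.rpow_le_rpow (by positivity) h1 (by positivity)
  have e2 : (M * (2 * (M * c) + 2)) ^ (n + 1 : ℝ) ≤
      M ^ (2 * (n + 1) : ℝ) * (2 * c + 2) ^ (n + 1 : ℝ) := by
    rw [Real.rpow_mul hM0.le, ← Real.mul_rpow (by positivity) (by positivity)]
    exact Real.rpow_le_rpow (by positivity) h2 (by positivity)
  have e3 : M * M ^ (n + 1 : ℝ) ≤ M ^ (4 * n + 2 : ℝ) := by
    nth_rewrite 1 [← Real.rpow_one M]
    rw [← Real.rpow_add hM0]
    refine Real.rpow_le_rpow_of_exponent_le hM ?_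
    have : (0 : ℝ) ≤ n := Nat.cast_nonneg _
    linarith
  have e4 : M ^ (2 * n : ℝ) * M ^ (2 * (n + 1) : ℝ) = M ^ (4 * n + 2 : ℝ) := by
    rw [← Real.rpow_add hM0]
    congr 1
    ring
  calc _ ≤ 2 * (M ^ (2 * n : ℝ) * (2 * c + 2 + 1 / m₀) ^ (2 * n : ℝ)) *
        (M ^ (2 * (n + 1) : ℝ) * (2 * c + 2) ^ (n + 1 : ℝ)) +
        2 * n * c * 2 ^ (n + 1 : ℝ) * (M * M ^ (n + 1 : ℝ)) := by
        refine add_le_add ?_ (le_of_eq (by ring))
        exact mul_le_mul (mul_le_mul_of_nonneg_left e1 zero_le_two) e2 (by positivity)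
          (by positivity)
    _ ≤ 2 * (M ^ (2 * n : ℝ) * (2 * c + 2 + 1 / m₀) ^ (2 * n : ℝ)) *
        (M ^ (2 * (n + 1) : ℝ) * (2 * c + 2) ^ (n + 1 : ℝ)) +
        2 * n * c * 2 ^ (n + 1 : ℝ) * M ^ (4 * n + 2 : ℝ) := by
        refine add_le_add le_rfl (mul_le_mul_of_nonneg_left e3 (by positivity))
    _ = _ := by
        rw [← e4]
        ring

/-- **Uniform lattice sums near the edge of convergence.** -/
theorem latSum [Nontrivial E] (x₀ : E) : ∃ A B : ℝ, 0 ≤ A ∧ 0 ≤ B ∧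
    ∀ (T : E ≃L[ℝ] E) (M : ℝ), 1 ≤ M → (∀ x, ‖T x‖ ≤ M * ‖x‖) → (∀ x, ‖x‖ ≤ M * ‖T x‖) →
      MeasurePreserving T (volume : Measure E) volume → ∀ s : ℝ, 1 < s → s ≤ 2 →
      (Summable fun z : Submodule.span ℤ (Set.range b) =>
        ‖T ((z : E) + x₀)‖ ^ (-(finrank ℝ E * s : ℝ))) ∧
      |∑' z : Submodule.span ℤ (Set.range b), ‖T ((z : E) + x₀)‖ ^ (-(finrank ℝ E * s : ℝ)) -
        (volume : Measure E).real (ball 0 1) /
          (volume : Measure E).real (ZSpan.fundamentalDomain b) / (s - 1)| ≤ A * M ^ B := by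
  classical
  set L := Submodule.span ℤ (Set.range b) with hL
  set D := ZSpan.fundamentalDomain b with hD
  set n := finrank ℝ E with hn
  have hn1 : 1 ≤ n := finrank_pos
  have hn' : (1 : ℝ) ≤ n := by exact_mod_cast hn1
  obtain ⟨c, hc0, hc⟩ : ∃ c : ℝ, 0 ≤ c ∧ ∀ u ∈ D, ‖u‖ ≤ c := by
    obtain ⟨c, hc⟩ := (ZSpan.fundamentalDomain_isBounded b).exists_norm_le
    exact ⟨max c 0, le_max_right _ _, fun u hu => (hc u hu).trans (le_max_left _ _)⟩
  obtain ⟨m₀, hm₀, hmin⟩ := exists_min b x₀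
  set W : L → ℝ := fun z => if (z : E) + x₀ = 0 then (1 : ℝ) else
    ‖(z : E) + x₀‖ ^ (-(n + 1 : ℝ)) with hW
  have hWs : Summable W := summable_weight b x₀
  have hW0 : ∀ z, 0 ≤ W z := fun z => by
    simp only [hW]
    split_ifs
    · exact zero_le_one
    · exact Real.rpow_nonneg (norm_nonneg _) _
  have hfund : IsAddFundamentalDomain L D (volume : Measure E) :=
    ZSpan.isAddFundamentalDomain b volume
  have hDfin : (volume : Measure E) D ≠ ⊤ :=
    (ZSpan.fundamentalDomain_isBounded b).measure_lt_top.ne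
  have hDmeas : MeasurableSet D := ZSpan.fundamentalDomain_measurableSet b
  set v := (volume : Measure E).real D with hv
  have hv0 : 0 < v := by
    rw [hv, Measure.real]
    exact ENNReal.toReal_pos (ZSpan.measure_fundamentalDomain_ne_zero b) hDfin
  refine ⟨(2 * (2 * c + 2 + 1 / m₀) ^ (2 * n : ℝ) * (2 * c + 2) ^ (n + 1 : ℝ) +
      2 * n * c * 2 ^ (n + 1 : ℝ)) * ∑' z, W z, 4 * n + 2, ?_, by positivity, ?_⟩
  · have : 0 ≤ ∑' z, W z := tsum_nonneg hW0
    positivity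
  intro T M hM hT1 hT2 hTm s hs1 hs2
  set p : ℝ := n * s with hp
  have hp1 : (n : ℝ) ≤ p := by rw [hp]; nlinarith
  have hp2 : p ≤ 2 * n := by rw [hp]; nlinarith
  have hpn : (n : ℝ) < p := by rw [hp]; nlinarith
  have hM0 : 0 < M := by linarith
  set δ := M * c with hδ
  set R := 2 * δ + 2 with hR
  set q := R + M / m₀ with hq
  set K := 2 * q ^ (2 * n : ℝ) * (M * R) ^ (n + 1 : ℝ) +
    2 * n * δ * 2 ^ (n + 1 : ℝ) * M ^ (n + 1 : ℝ) with hK
  have hδ0 : 0 ≤ δ := by positivity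
  have hMm : 0 ≤ M / m₀ := by positivity
  have hK0 : 0 ≤ K := by positivity
  have hR0 : 0 ≤ R := by positivity
  -- the pointwise estimate
  have hpt : ∀ z : L, ∀ u ∈ D,
      |‖T ((z : E) + x₀)‖ ^ (-p) - rad p ‖T ((z : E) + u + x₀)‖| ≤ K * W z := by
    intro z u hu
    have h1 := pointwise (T := (T : E →ₗ[ℝ] E)) (M := M) (δ := δ) (m₀ := m₀) (R := R) (q := q)
      hn1 hM hδ0 hm₀ hR (by rw [hq]; linarith) (by rw [hq]; linarith) hT1 hT2 hp1 hp2
      (x := (z : E) + x₀) (u := u) (hmin z)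
      ((hT1 u).trans (mul_le_mul_of_nonneg_left (hc u hu) hM0.le))
    have h2 : (z : E) + u + x₀ = (z : E) + x₀ + u := by abel
    rw [h2]
    exact h1
  -- integrability
  have hcomp : (fun y : E => rad p ‖T (y + x₀)‖) = (fun x : E => rad p ‖x‖) ∘ T ∘ (· + x₀) := rfl
  have hmp : MeasurePreserving (T ∘ (· + x₀)) (volume : Measure E) volume :=
    hTm.comp (measurePreserving_add_right volume x₀)
  have hemb : MeasurableEmbedding (T ∘ (· + x₀) : E → E) :=
    (T.toHomeomorph.measurableEmbedding).comp (measurableEmbedding_addRight x₀)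
  obtain ⟨hint0, hval0⟩ := integral_rad (E := E) hs1
  have hint : Integrable (fun y : E => rad p ‖T (y + x₀)‖) := by
    rw [hcomp]
    exact (hmp.integrable_comp_emb hemb).mpr hint0
  have hval : ∫ y : E, rad p ‖T (y + x₀)‖ = (volume : Measure E).real (ball 0 1) / (s - 1) := by
    have h1 := hmp.integral_comp hemb (fun x : E => rad p ‖x‖)
    rw [← hval0, ← hn, ← hp, ← h1]
    rfl
  -- summability of the lattice sum
  have hsum : Summable fun z : L => ‖T ((z : E) + x₀)‖ ^ (-p) := by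
    have hfin : (finrank ℤ L : ℝ) = n := by rw [ZLattice.rank ℝ L]
    have h1 : Summable fun z : L => ‖(z : E) - (-x₀)‖ ^ (-p) :=
      ZLattice.summable_norm_sub_rpow L _ (by rw [hfin]; linarith) (-x₀)
    refine Summable.of_nonneg_of_le (fun z => Real.rpow_nonneg (norm_nonneg _) _) (fun z => ?_)
      (h1.mul_left (M ^ p))
    rw [sub_neg_eq_add]
    rcases eq_or_ne ((z : E) + x₀) 0 with h | h
    · rw [h, map_zero, norm_zero, Real.zero_rpow (by linarith), mul_zero]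
    · have hxp : 0 < ‖(z : E) + x₀‖ := norm_pos_iff.mpr h
      have h8 : ‖(z : E) + x₀‖ / M ≤ ‖T ((z : E) + x₀)‖ := by
        rw [div_le_iff₀ hM0, mul_comm]
        exact hT2 _
      calc ‖T ((z : E) + x₀)‖ ^ (-p) ≤ (‖(z : E) + x₀‖ / M) ^ (-p) :=
            Real.rpow_le_rpow_of_nonpos (by positivity) h8 (by linarith)
        _ = M ^ p * ‖(z : E) + x₀‖ ^ (-p) := by
            rw [Real.div_rpow hxp.le hM0.le, Real.rpow_neg hM0.le, div_inv_eq_mul, mul_comm]
  refine ⟨hsum, ?_⟩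
  have hinv : VAddInvariantMeasure L E (volume : Measure E) :=
    ⟨fun z t _ => measure_preimage_add volume (z : E) t⟩
  -- the local errors
  set e : L → ℝ := fun z => ∫ u in D, (‖T ((z : E) + x₀)‖ ^ (-p) - rad p ‖T ((z : E) + u + x₀)‖)
    with he
  have hint' : ∀ z : L, IntegrableOn (fun u : E => rad p ‖T ((z : E) + u + x₀)‖) D := by
    intro z
    have h1 : Integrable (fun u : E => rad p ‖T ((z : E) + u + x₀)‖) := by
      have := (measurePreserving_add_left volume (z : E)).integrable_comp_emb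
        (measurableEmbedding_addLeft (z : E)) (g := fun y : E => rad p ‖T (y + x₀)‖)
      exact this.mpr hint
    exact h1.integrableOn
  have hee : ∀ z, e z = v * ‖T ((z : E) + x₀)‖ ^ (-p) - ∫ u in D, rad p ‖T ((z : E) + u + x₀)‖ := by
    intro z
    simp only [he]
    have h1 : Integrable (fun _ : E => ‖T ((z : E) + x₀)‖ ^ (-p))
        ((volume : Measure E).restrict D) := by
      have : IsFiniteMeasure ((volume : Measure E).restrict D) :=
        isFiniteMeasure_restrict.mpr hDfin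
      exact integrable_const _
    rw [integral_sub h1 (hint' z), setIntegral_const, smul_eq_mul]
  have heb : ∀ z, |e z| ≤ v * (K * W z) := by
    intro z
    have h1 := norm_setIntegral_le_of_norm_le_const (μ := (volume : Measure E)) (s := D)
      (f := fun u => ‖T ((z : E) + x₀)‖ ^ (-p) - rad p ‖T ((z : E) + u + x₀)‖) (C := K * W z)
      hDfin.lt_top (fun u hu => hpt z u hu)
    rw [Real.norm_eq_abs] at h1
    rw [mul_comm]
    exact h1
  have hes : Summable e := by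
    refine Summable.of_norm_bounded ((hWs.mul_left K).mul_left v) (fun z => ?_)
    rw [Real.norm_eq_abs]
    exact heb z
  have htot : ∑' z, e z = v * ∑' z : L, ‖T ((z : E) + x₀)‖ ^ (-p) -
      (volume : Measure E).real (ball 0 1) / (s - 1) := by
    have h1 : ∫ y : E, rad p ‖T (y + x₀)‖ = ∑' z : L, ∫ u in D, rad p ‖T ((z : E) + u + x₀)‖ :=
      hfund.integral_eq_tsum'' _ hint
    have h2 : Summable fun z : L => ∫ u in D, rad p ‖T ((z : E) + u + x₀)‖ := by
      have h3 := (hsum.mul_left v).sub hes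
      refine h3.congr (fun z => ?_)
      rw [hee z]
      ring
    rw [← hval, h1, ← tsum_mul_left, ← (hsum.mul_left v).tsum_sub h2]
    exact tsum_congr hee
  have hbound : |∑' z, e z| ≤ v * (K * ∑' z, W z) := by
    have h1 : |∑' z, e z| ≤ ∑' z, v * (K * W z) := by
      rw [← Real.norm_eq_abs]
      exact tsum_of_norm_bounded ((hWs.mul_left K).mul_left v).hasSum
        (fun z => by rw [Real.norm_eq_abs]; exact heb z)
    rwa [tsum_mul_left, tsum_mul_left] at h1
  have hKle := const_bound (n := n) (c := c) (m₀ := m₀) (M := M) hc0 hm₀ hM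
  have hWtot : 0 ≤ ∑' z, W z := tsum_nonneg hW0
  rw [htot] at hbound
  have h9 : v * ∑' z : L, ‖T ((z : E) + x₀)‖ ^ (-p) - (volume : Measure E).real (ball 0 1) / (s - 1)
      = v * (∑' z : L, ‖T ((z : E) + x₀)‖ ^ (-p) -
        (volume : Measure E).real (ball 0 1) / v / (s - 1)) := by
    field_simp
  rw [h9, abs_mul, abs_of_pos hv0] at hbound
  have h10 := le_of_mul_le_mul_left hbound hv0
  refine h10.trans ?_
  calc K * ∑' z, W z ≤ ((2 * (2 * c + 2 + 1 / m₀) ^ (2 * n : ℝ) * (2 * c + 2) ^ (n + 1 : ℝ) +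
        2 * n * c * 2 ^ (n + 1 : ℝ)) * M ^ (4 * n + 2 : ℝ)) * ∑' z, W z :=
        mul_le_mul_of_nonneg_right hKle hWtot
    _ = _ := by ring

end main

end Fermat.Agent.LT.LatSum
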