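import Fermat.Agent.LT.NonVan2
import Fermat.Agent.LT.NormPull
import Fermat.Agent.LT.Quad.Triv
import Mathlib.Analysis.Complex.Basic

/-!
# Non-vanishing: the system `x` is not of the form `χ + χ⁻¹` at the places of degree one
-/

set_option autoImplicit false

namespace Fermat.Agent.LT.NV

open IsDedekindDomain NumberField WithZero Polynomial
open Fermat.Agent.CFT.SUnits (ord)
open Fermat.Agent.CFT.Global (E mem_E cong mem_cong locPow mem_locPow AboveP above mem_above)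
open Fermat.Agent.LT.Psi (kum kum_eq_zero_iff kum_eq_one_iff zmod_two_eq exists_isRay_kum)

section Comp

variable {F : Type*} [Field F] [NumberField F] {A B : Type*} [AddCommGroup A] [AddCommGroup B]

lemma _root_.Fermat.Agent.LT.IsRay.of_comp {f : A →+ B} (hf : Function.Injective f)
    {S : Finset (HeightOneSpectrum (𝓞 F))} {n : ℕ} {η : HeightOneSpectrum (𝓞 F) → A}
    (h : IsRay S n (fun v => f (η v))) : IsRay S n η := by
  intro x hx
  have h1 := h x hx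
  apply toAdd_eq_zero.mp
  apply hf
  rw [← rayVal_comp, h1, toAdd_one, map_zero]

lemma _root_.Fermat.Agent.LT.IsRay.zsmul (m : ℤ) {S : Finset (HeightOneSpectrum (𝓞 F))} {n : ℕ}
    {η : HeightOneSpectrum (𝓞 F) → A} (h : IsRay S n η) : IsRay S n (fun v => m • η v) := by
  have h1 := IsRay.comp (smulAddHom ℤ A m) h
  exact h1

/-- the sign character `ZMod 2 → ℂˣ` -/
noncomputable def sgn : ZMod 2 →+ Additive ℂˣ :=
  ZMod.lift 2 ⟨(zmultiplesHom (Additive ℂˣ)) (Additive.ofMul (-1)), by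
    rw [zmultiplesHom_apply, Nat.cast_ofNat, ← ofMul_zpow]
    norm_num⟩

lemma sgn_one : sgn 1 = Additive.ofMul (-1) := by
  have h : sgn ((1 : ℤ) : ZMod 2) = _ := ZMod.lift_coe 2 _ 1
  rw [Int.cast_one] at h
  rw [h]
  simp

lemma sgn_injective : Function.Injective sgn := by
  rw [injective_iff_map_eq_zero]
  intro a ha
  have h2 : a = 0 ∨ a = 1 := by
    clear ha
    revert a
    decide
  rcases h2 with h | h
  · exact h
  · exfalso
    rw [h, sgn_one] at ha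
    have h3 : (-1 : ℂˣ) = 1 := ha
    have h4 := congrArg Units.val h3
    norm_num at h4

end Comp

section

variable {K : Type} [Field K] [NumberField K] [IsTotallyComplex K]

/-- **(NV-L)** -/
theorem exists_ne_of_isRay {N : ℕ} (hN : N ≠ 0) (h2N : 2 ∣ N)
    (hd : ∀ p : ℕ, p.Prime → p ≤ 2 * Module.finrank ℚ K → p ∣ N)
    {S : Finset (HeightOneSpectrum (𝓞 K))} (hS : ∀ v, v ∈ S ↔ (N : 𝓞 K) ∈ v.asIdeal)
    {a b : Kˣ} (ha : a ∈ E S)
    (hb : b ∈ E S) (hna : ∀ c : Kˣ, c ^ 2 ≠ a) (hnb : ∀ c : Kˣ, c ^ 2 ≠ b)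
    (hnab : ∀ c : Kˣ, c ^ 2 ≠ a * b) {k : ℕ} (hk : k ≠ 0) {x : HeightOneSpectrum (𝓞 K) → ℂ}
    (hx : ∀ v ∉ S, (Ideal.absNorm v.asIdeal).Prime → (k : 𝓞 K) ∉ v.asIdeal →
      (x v = 0 ∧ ¬ (a ∈ locPow 2 v ∧ b ∈ locPow 2 v)) ∨
      ((x v = 2 ∨ x v = -2) ∧ a ∈ locPow 2 v ∧ b ∈ locPow 2 v))
    {n : ℕ} {χ : HeightOneSpectrum (𝓞 K) → Additive ℂˣ} (hχ : IsRay S n χ) :
    ∃ v ∉ S, (Ideal.absNorm v.asIdeal).Prime ∧ (k : 𝓞 K) ∉ v.asIdeal ∧
      x v ≠ ((χ v).toMul : ℂ) + ((χ v).toMul : ℂ)⁻¹ := by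
  classical
  by_contra hcon
  push Not at hcon
  have hd' : ∀ p : ℕ, p.Prime → p ≤ Module.finrank ℚ K → p ∣ N := fun p hp hle =>
    hd p hp (hle.trans (by omega))
  have hS2 : AboveP 2 S := by
    intro v hv
    rw [hS]
    obtain ⟨c, rfl⟩ := h2N
    rw [Nat.cast_mul]
    exact v.asIdeal.mul_mem_right _ hv
  -- the square of the character at the degree one places
  have key : ∀ v ∉ S, (Ideal.absNorm v.asIdeal).Prime → (k : 𝓞 K) ∉ v.asIdeal →
      ((a ∈ locPow 2 v ∧ b ∈ locPow 2 v) ∧ (χ v).toMul ^ 2 = 1) ∨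
      (¬ (a ∈ locPow 2 v ∧ b ∈ locPow 2 v) ∧ (χ v).toMul ^ 2 = -1) := by
    intro v hv h1 h2
    have h3 := hcon v hv h1 h2
    have h0 : ((χ v).toMul : ℂ) ≠ 0 := Units.ne_zero _
    have hu : ((χ v).toMul : ℂ) * x v = ((χ v).toMul : ℂ) ^ 2 + 1 := by
      rw [h3, mul_add, mul_inv_cancel₀ h0]
      ring
    rcases hx v hv h1 h2 with ⟨h4, h5⟩ | ⟨h4, h5⟩
    · right
      refine ⟨h5, Units.ext ?_⟩
      rw [h4, mul_zero] at hu
      rw [Units.val_pow_eq_pow_val, Units.val_neg, Units.val_one]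
      linear_combination -hu
    · left
      refine ⟨h5, Units.ext ?_⟩
      rw [Units.val_pow_eq_pow_val, Units.val_one]
      rcases h4 with h4 | h4
      · rw [h4] at hu
        have h6 : (((χ v).toMul : ℂ) - 1) ^ 2 = 0 := by linear_combination -hu
        have h7 := sub_eq_zero.mp (pow_eq_zero_iff two_ne_zero |>.mp h6)
        rw [h7]
        norm_num
      · rw [h4] at hu
        have h6 : (((χ v).toMul : ℂ) + 1) ^ 2 = 0 := by linear_combination -hu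
        have h7 : ((χ v).toMul : ℂ) = -1 := by
          have := (pow_eq_zero_iff two_ne_zero).mp h6
          linear_combination this
        rw [h7]
        norm_num
  -- all values are fourth roots of unity
  have h4ray : IsRay S n (fun v => (4 : ℤ) • χ v) := hχ.zsmul 4
  have h4 : ∀ w ∉ S, (χ w).toMul ^ 2 = 1 ∨ (χ w).toMul ^ 2 = -1 := by
    intro w hw
    have h5 := IsRay.eq_zero_of_degOne hN h2N hd' hS h4ray hk (fun v hv h1 h2 => by
      change (χ v).toMul ^ (4 : ℤ) = 1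
      rcases key v hv h1 h2 with ⟨-, h3⟩ | ⟨-, h3⟩
      · rw [show (4 : ℤ) = ((2 * 2 : ℕ) : ℤ) by norm_num, zpow_natCast, pow_mul, h3, one_pow]
      · rw [show (4 : ℤ) = ((2 * 2 : ℕ) : ℤ) by norm_num, zpow_natCast, pow_mul, h3]
        norm_num) hw
    have h6 : (χ w).toMul ^ (4 : ℤ) = 1 := h5
    rw [show (4 : ℤ) = ((2 * 2 : ℕ) : ℤ) by norm_num, zpow_natCast, pow_mul] at h6
    have h7 := congrArg Units.val h6
    rw [Units.val_pow_eq_pow_val, Units.val_one, sq_eq_one_iff] at h7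
    rcases h7 with h | h
    · left
      exact Units.ext h
    · right
      exact Units.ext (by rw [h]; simp)
  have hneg : (-1 : ℂˣ) ≠ 1 := by
    intro h
    have h5 := congrArg Units.val h
    norm_num at h5
  set η : HeightOneSpectrum (𝓞 K) → ZMod 2 := fun v => if (χ v).toMul ^ 2 = 1 then 0 else 1
    with hη
  have h2ray : IsRay S n (fun v => sgn (η v)) := by
    have h5 : IsRay S n (fun v => (2 : ℤ) • χ v) := hχ.zsmul 2
    refine h5.congr fun v hv => ?_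
    change Additive.ofMul ((χ v).toMul ^ (2 : ℤ)) = sgn (η v)
    have h6 : (χ v).toMul ^ (2 : ℤ) = (χ v).toMul ^ 2 := by
      rw [show (2 : ℤ) = ((2 : ℕ) : ℤ) by norm_num, zpow_natCast]
    rw [h6]
    rcases h4 v hv with h | h
    · have h7 : η v = 0 := by
        rw [hη]
        exact if_pos h
      rw [h, h7, map_zero]
      rfl
    · have h7 : η v = 1 := by
        rw [hη]
        exact if_neg (by rw [h]; exact hneg)
      rw [h, h7, sgn_one]
  have hηray : IsRay S n η := IsRay.of_comp sgn_injective h2ray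
  have h5 : ∀ v ∉ S, (Ideal.absNorm v.asIdeal).Prime → (k : 𝓞 K) ∉ v.asIdeal →
      (η v = 0 ↔ a ∈ locPow 2 v ∧ b ∈ locPow 2 v) := by
    intro v hv h1 h2
    rcases key v hv h1 h2 with ⟨h3, h6⟩ | ⟨h3, h6⟩
    · have h7 : η v = 0 := by
        rw [hη]
        exact if_pos h6
      exact ⟨fun _ => h3, fun _ => h7⟩
    · have h7 : η v = 1 := by
        rw [hη]
        exact if_neg (by rw [h6]; exact hneg)
      rw [h7]
      exact ⟨fun h => absurd h one_ne_zero, fun h => absurd h h3⟩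
  exact Quad.false_of_biquadratic hηray hna hnb hnab S fun w hw =>
    IsRay.iff_of_degOne hN h2N hd hS hηray ha hb hna hnb hnab hk h5 hw

/-- **(NV-K)** -/
theorem exists_ne_of_isRay_base {K₀ : Type*} [Field K₀] [NumberField K₀] [Algebra K₀ K]
    [IsGalois K₀ K] {N : ℕ} (hN : N ≠ 0) (h2N : 2 ∣ N)
    (hd : ∀ p : ℕ, p.Prime → p ≤ 2 * Module.finrank ℚ K → p ∣ N)
    {S₀ : Finset (HeightOneSpectrum (𝓞 K₀))} (hS₀ : ∀ v, v ∈ S₀ ↔ (N : 𝓞 K₀) ∈ v.asIdeal)
    {S : Finset (HeightOneSpectrum (𝓞 K))} (hS : ∀ v, v ∈ S ↔ (N : 𝓞 K) ∈ v.asIdeal)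
    {a b : Kˣ} (ha : a ∈ E S)
    (hb : b ∈ E S) (hna : ∀ c : Kˣ, c ^ 2 ≠ a) (hnb : ∀ c : Kˣ, c ^ 2 ≠ b)
    (hnab : ∀ c : Kˣ, c ^ 2 ≠ a * b) {k : ℕ} (hk : k ≠ 0) {x : HeightOneSpectrum (𝓞 K) → ℂ}
    (hx : ∀ v ∉ S, (Ideal.absNorm v.asIdeal).Prime → (k : 𝓞 K) ∉ v.asIdeal →
      (x v = 0 ∧ ¬ (a ∈ locPow 2 v ∧ b ∈ locPow 2 v)) ∨
      ((x v = 2 ∨ x v = -2) ∧ a ∈ locPow 2 v ∧ b ∈ locPow 2 v))
    {n : ℕ} {χ : HeightOneSpectrum (𝓞 K₀) → Additive ℂˣ} (hχ : IsRay S₀ n χ) :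
    ∃ w ∉ S, (Ideal.absNorm w.asIdeal).Prime ∧ (k : 𝓞 K) ∉ w.asIdeal ∧
      (Ideal.absNorm (w.under (𝓞 K₀)).asIdeal).Prime ∧ (k : 𝓞 K₀) ∉ (w.under (𝓞 K₀)).asIdeal ∧
      w.under (𝓞 K₀) ∉ S₀ ∧ fdeg K₀ w = 1 ∧
      x w ≠ ((χ (w.under (𝓞 K₀))).toMul : ℂ) + ((χ (w.under (𝓞 K₀))).toMul : ℂ)⁻¹ := by
  classical
  have hSS : above K S₀ = S := by
    ext w
    rw [mem_above, hS₀, hS]
    exact natCast_mem_under
  obtain ⟨n', hn'⟩ := hχ.pull (L := K)
  rw [hSS] at hn'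
  obtain ⟨w, hw, h1, h2, h3⟩ := exists_ne_of_isRay hN h2N hd hS ha hb hna hnb hnab hk hx hn'
  obtain ⟨h4, h5⟩ := absNorm_under (K := K₀) h1
  refine ⟨w, hw, h1, h2, h4, fun h => h2 (natCast_mem_under.mp h),
    fun h => hw ((hS w).mpr (natCast_mem_under.mp ((hS₀ _).mp h))), h5, ?_⟩
  rwa [pull_of_fdeg h5] at h3

end

section Hom

variable {F : Type*} [Field F] [NumberField F] {C : Type*} [CommGroup C]

/-- characters of a group of ideles modulo principal ideles are ray characters -/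
lemma isRay_of_hom {p : HeightOneSpectrum (𝓞 F) → C} {i : Fˣ → C}
    {S : Finset (HeightOneSpectrum (𝓞 F))} {n : ℕ}
    (hp : ∀ a : Fˣ, (∀ v ∈ S, a ∈ cong v n) →
      (rayVal S (fun v => Additive.ofMul (p v)) a).toAdd = Additive.ofMul (i a))
    (χ : C →* ℂˣ) (hχ : ∀ a, χ (i a) = 1) : IsRay S n (fun v => Additive.ofMul (χ (p v))) := by
  intro a ha
  apply toAdd_eq_zero.mp
  have h := rayVal_comp (MonoidHom.toAdditive χ) S (fun v => Additive.ofMul (p v)) a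
  have h2 : (fun v => Additive.ofMul (χ (p v))) =
      fun v => (MonoidHom.toAdditive χ) (Additive.ofMul (p v)) := rfl
  rw [h2, h, hp a ha]
  change Additive.ofMul (χ (i a)) = 0
  rw [hχ]
  rfl

end Hom

end Fermat.Agent.LT.NV
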