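import Fermat.Agent.LT.NormSym

/-!
# Norm algebra of `PGL2` for a cubic base change

`K`, `E`, `L`, `F` fields, `[E : K] = 2`, `[L : K]` odd (in the application `3`), `F = L E`.

* `exists_norm_of_norm_eq`: an element of `K` which is a norm from `F` to `E` is a norm from `L` to `K`;
* `exists_norm_mul_of_norm_div`: if `γ / σ γ` is a norm from `F` then `z * γ` is one for some `z ∈ K`;
* `exists_norm_div_of_norm_mul`: the converse;
* `exists_norm_mul_iff`: both together;
* `exists_norm_mul_of_local`: with the Hasse norm theorem of `LT/NormSym`.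
-/

set_option autoImplicit false

namespace Fermat.Agent.LT.NormAlg

open IsDedekindDomain NumberField

section Fields

/-- the norm of a finite field extension commutes with inverses. -/
theorem norm_inv' {K L : Type*} [Field K] [Field L] [Algebra K L] [FiniteDimensional K L] (x : L) :
    Algebra.norm K x⁻¹ = (Algebra.norm K x)⁻¹ := by
  by_cases hx : x = 0
  · subst hx
    rw [inv_zero, Algebra.norm_zero, inv_zero]
  · refine eq_inv_of_mul_eq_one_left ?_
    rw [← map_mul, inv_mul_cancel₀ hx, map_one]

theorem norm_div' {K L : Type*} [Field K] [Field L] [Algebra K L] [FiniteDimensional K L] (x y : L) :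
    Algebra.norm K (x / y) = Algebra.norm K x / Algebra.norm K y := by
  rw [div_eq_mul_inv, map_mul, norm_inv', div_eq_mul_inv]

variable {K L E F : Type*} [Field K] [Field L] [Field E] [Field F]
  [Algebra K L] [Algebra K E] [Algebra K F] [Algebra L F] [Algebra E F]
  [IsScalarTower K L F] [IsScalarTower K E F]

omit [Algebra K F] [Algebra E F] [IsScalarTower K L F] [IsScalarTower K E F] [Algebra L F]
  [Field F] in
/-- the norm of an element of the quadratic extension with given conjugation. -/
theorem algebraMap_norm_quadratic [Algebra.IsSeparable K E] (h2 : Module.finrank K E = 2)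
    {σ : E ≃ₐ[K] E} (hσ : σ ≠ 1) (x : E) : algebraMap K E (Algebra.norm K x) = x * σ x := by
  have : FiniteDimensional K E := Module.finite_of_finrank_pos (by omega)
  have : Algebra.IsQuadraticExtension K E := { finrank_eq_two' := h2 }
  have hcard : Fintype.card (E ≃ₐ[K] E) = 2 := by
    rw [← Nat.card_eq_fintype_card, IsGalois.card_aut_eq_finrank, h2]
  classical
  have huniv : (Finset.univ : Finset (E ≃ₐ[K] E)) = {1, σ} := by
    symm
    rw [← Finset.card_eq_iff_eq_univ, Finset.card_pair (Ne.symm hσ), hcard]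
  rw [Algebra.norm_eq_prod_automorphisms, huniv, Finset.prod_pair (Ne.symm hσ)]
  rfl

/-- An element of `K` which is a norm from `F = LE` to `E` is a norm from `L` to `K`
(`[E : K] = 2`, `[L : K]` odd). -/
theorem exists_norm_of_norm_eq [FiniteDimensional K L] [FiniteDimensional K E]
    [FiniteDimensional L F] [FiniteDimensional E F]
    (h2 : Module.finrank K E = 2) (h3 : Odd (Module.finrank K L)) {z : K} {δ : F}
    (h : Algebra.norm E δ = algebraMap K E z) : ∃ l : L, Algebra.norm K l = z := by
  obtain ⟨k, hk⟩ := h3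
  by_cases hz : z = 0
  · refine ⟨0, ?_⟩
    rw [hz, Algebra.norm_zero]
  have h4 : Algebra.norm K (Algebra.norm L δ) = z ^ 2 := by
    rw [Algebra.norm_norm, ← Algebra.norm_norm (S := E), h, Algebra.norm_algebraMap, h2]
  have h5 : Algebra.norm K (algebraMap K L z) = z ^ (2 * k + 1) := by
    rw [Algebra.norm_algebraMap, hk]
  refine ⟨algebraMap K L z * ((Algebra.norm L δ)⁻¹) ^ k, ?_⟩
  rw [map_mul, map_pow, norm_inv', h4, h5, inv_pow, ← pow_mul, pow_succ]
  field_simp

omit [Algebra K F] [IsScalarTower K E F] in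
/-- `γ / γ̄ = N(y)` implies that `z γ` is a norm for some `z ∈ Kˣ`. -/
theorem exists_norm_mul_of_norm_div [Algebra.IsSeparable K E] [FiniteDimensional E F]
    (h2 : Module.finrank K E = 2)
    (h3 : Odd (Module.finrank E F)) {σ : E ≃ₐ[K] E} (hσ : σ ≠ 1) {γ : E} (hγ : γ ≠ 0) {y : F}
    (hy : Algebra.norm E y = γ / σ γ) :
    ∃ z : K, z ≠ 0 ∧ ∃ δ : F, Algebra.norm E δ = algebraMap K E z * γ := by
  have : FiniteDimensional K E := Module.finite_of_finrank_pos (by omega)
  obtain ⟨k, hk⟩ := h3
  have hσγ : σ γ ≠ 0 := by simpa using hγ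
  refine ⟨(Algebra.norm K γ) ^ k, pow_ne_zero _ ((Algebra.norm_ne_zero_iff).2 hγ),
    algebraMap E F γ * (y⁻¹) ^ k, ?_⟩
  rw [map_mul, map_pow, norm_inv', hy, Algebra.norm_algebraMap, hk, map_pow,
    algebraMap_norm_quadratic h2 hσ, inv_div, div_pow, mul_pow, pow_succ, two_mul, pow_add]
  field_simp

/-- The automorphism `σ` of `E / K` extends to `F / L` if `[F : L] = 2`, `[L : K]` is odd and
`F` is generated by `E` over `L` (automatic from the degrees). -/
theorem exists_extension [CharZero K] (h2 : Module.finrank K E = 2)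
    (h3 : Odd (Module.finrank K L)) (hLF : Module.finrank L F = 2) {σ : E ≃ₐ[K] E} (hσ : σ ≠ 1) :
    ∃ τ : F ≃ₐ[L] F, ∀ e : E, τ (algebraMap E F e) = algebraMap E F (σ e) := by
  have hKE : FiniteDimensional K E := Module.finite_of_finrank_pos (by omega)
  have hLF' : FiniteDimensional L F := Module.finite_of_finrank_pos (by omega)
  have hKL : FiniteDimensional K L := Module.finite_of_finrank_pos h3.pos
  have hKF : FiniteDimensional K F := FiniteDimensional.trans K L F
  have : Algebra.IsQuadraticExtension K E := { finrank_eq_two' := h2 }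
  have : Algebra.IsQuadraticExtension L F := { finrank_eq_two' := hLF }
  have : CharZero L := charZero_of_injective_algebraMap (algebraMap K L).injective
  -- a nontrivial automorphism of `F / L`
  have hcard : Nat.card (F ≃ₐ[L] F) = 2 := by rw [IsGalois.card_aut_eq_finrank, hLF]
  obtain ⟨τ, hτ⟩ : ∃ τ : F ≃ₐ[L] F, τ ≠ 1 := by
    by_contra hcon
    push Not at hcon
    have : Nat.card (F ≃ₐ[L] F) ≤ 1 := by
      have : Subsingleton (F ≃ₐ[L] F) := ⟨fun a b => by rw [hcon a, hcon b]⟩
      exact Finite.card_le_one_iff_subsingleton.2 this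
    omega
  refine ⟨τ, ?_⟩
  -- its restriction to `E`
  let τ' : F ≃ₐ[K] F := τ.restrictScalars K
  have hres : ∀ e : E, algebraMap E F ((τ'.restrictNormal E) e) = τ (algebraMap E F e) :=
    fun e => τ'.restrictNormal_commutes E e
  have hone : τ'.restrictNormal E = σ := by
    have hcE : Nat.card (E ≃ₐ[K] E) = 2 := by rw [IsGalois.card_aut_eq_finrank, h2]
    -- the restriction is not trivial: otherwise `E` would embed in `L`
    have hne : τ'.restrictNormal E ≠ 1 := by
      intro h1
      -- every `e` is fixed by `τ`, hence in `L`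
      have hfix : ∀ e : E, ∃ l : L, algebraMap L F l = algebraMap E F e := by
        intro e
        have h4 : ∀ f : F ≃ₐ[L] F, f (algebraMap E F e) = algebraMap E F e := by
          intro f
          have h5 : f = 1 ∨ f = τ := by
            have := Fintype.ofFinite (F ≃ₐ[L] F)
            classical
            have h6 : (Finset.univ : Finset (F ≃ₐ[L] F)) = {1, τ} := by
              symm
              rw [← Finset.card_eq_iff_eq_univ, Finset.card_pair (Ne.symm hτ),
                ← Nat.card_eq_fintype_card, hcard]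
            have h7 := Finset.mem_univ f
            rw [h6] at h7
            simpa using h7
          rcases h5 with rfl | rfl
          · rfl
          · rw [← hres e, h1]
            rfl
        have h5 := (IsGalois.mem_range_algebraMap_iff_fixed (F := L) (E := F)
          (algebraMap E F e)).2 h4
        exact h5
      have : Nonempty (E →ₐ[K] L) := by
        choose g hg using hfix
        have hinj : Function.Injective (algebraMap L F) := (algebraMap L F).injective
        refine ⟨{ toFun := g, map_one' := ?_, map_mul' := ?_, map_zero' := ?_, map_add' := ?_,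
                  commutes' := ?_ }⟩
        · apply hinj; rw [hg, map_one, map_one]
        · intro a b; apply hinj; rw [map_mul, hg, hg, hg, map_mul]
        · apply hinj; rw [hg, map_zero, map_zero]
        · intro a b; apply hinj; rw [map_add, hg, hg, hg, map_add]
        · intro a
          apply hinj
          rw [hg, ← IsScalarTower.algebraMap_apply, ← IsScalarTower.algebraMap_apply]
      obtain ⟨g⟩ := this
      have hdvd : Module.finrank K E ∣ Module.finrank K L := by
        let : Algebra E L := g.toRingHom.toAlgebra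
        have : IsScalarTower K E L := IsScalarTower.of_algebraMap_eq (fun a => (g.commutes a).symm)
        exact ⟨_, (Module.finrank_mul_finrank K E L).symm⟩
      rw [h2] at hdvd
      exact (Nat.not_even_iff_odd.2 h3) (even_iff_two_dvd.2 hdvd)
    have := Fintype.ofFinite (E ≃ₐ[K] E)
    classical
    have h6 : (Finset.univ : Finset (E ≃ₐ[K] E)) = {1, σ} := by
      symm
      rw [← Finset.card_eq_iff_eq_univ, Finset.card_pair (Ne.symm hσ),
        ← Nat.card_eq_fintype_card, hcE]
    have h7 := Finset.mem_univ (τ'.restrictNormal E)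
    rw [h6] at h7
    simp only [Finset.mem_insert, Finset.mem_singleton] at h7
    exact h7.resolve_left hne
  intro e
  rw [← hres e, hone]

omit [Algebra K L] [Algebra K F] [IsScalarTower K L F] [IsScalarTower K E F] in
/-- The norm of `F / E` commutes with the conjugations. -/
theorem norm_conj {σ : E ≃ₐ[K] E} {τ : F ≃ₐ[L] F}
    (hτ : ∀ e : E, τ (algebraMap E F e) = algebraMap E F (σ e)) (x : F) :
    Algebra.norm E (τ x) = σ (Algebra.norm E x) := by
  have h := Algebra.norm_eq_of_equiv_equiv (A₁ := E) (A₂ := E) (B₁ := F) (B₂ := F)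
    (σ : E ≃+* E) (τ : F ≃+* F) (by ext e; exact (hτ e).symm) x
  rw [h]
  exact (σ.apply_symm_apply _).symm

/-- `z γ = N(δ)` implies `γ / γ̄ = N(δ / δ̄)`. -/
theorem exists_norm_div_of_norm_mul [CharZero K] [FiniteDimensional E F]
    (h2 : Module.finrank K E = 2) (h3 : Odd (Module.finrank K L))
    (hLF : Module.finrank L F = 2) {σ : E ≃ₐ[K] E} (hσ : σ ≠ 1) {γ : E} {z : K} (hz : z ≠ 0)
    {δ : F} (hδ : Algebra.norm E δ = algebraMap K E z * γ) :
    ∃ y : F, Algebra.norm E y = γ / σ γ := by
  obtain ⟨τ, hτ⟩ := exists_extension (L := L) (F := F) h2 h3 hLF hσ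
  refine ⟨δ / τ δ, ?_⟩
  rw [norm_div', norm_conj hτ, hδ, map_mul, AlgEquiv.commutes,
    mul_div_mul_left _ _ ((map_ne_zero _).2 hz)]

theorem exists_norm_mul_iff [CharZero K] [FiniteDimensional E F]
    (h2 : Module.finrank K E = 2) (h3 : Odd (Module.finrank K L))
    (hLF : Module.finrank L F = 2) {σ : E ≃ₐ[K] E} (hσ : σ ≠ 1) {γ : E} (hγ : γ ≠ 0) :
    (∃ y : F, Algebra.norm E y = γ / σ γ) ↔
      ∃ z : K, z ≠ 0 ∧ ∃ δ : F, Algebra.norm E δ = algebraMap K E z * γ := by
  have hKL : FiniteDimensional K L := Module.finite_of_finrank_pos h3.pos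
  have hKE : FiniteDimensional K E := Module.finite_of_finrank_pos (by omega)
  have hEF : Odd (Module.finrank E F) := by
    have h1 : Module.finrank K E * Module.finrank E F = Module.finrank K L * Module.finrank L F := by
      rw [Module.finrank_mul_finrank, Module.finrank_mul_finrank]
    rw [h2, hLF, mul_comm] at h1
    have : Module.finrank E F = Module.finrank K L := by omega
    rwa [this]
  refine ⟨fun ⟨y, hy⟩ => exists_norm_mul_of_norm_div h2 hEF hσ hγ hy, ?_⟩
  rintro ⟨z, hz, δ, hδ⟩
  exact exists_norm_div_of_norm_mul h2 h3 hLF hσ hz hδ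

end Fields

section Global

open NormSym
open Fermat.Agent.CFT.SUnits Fermat.Agent.CFT.Global Fermat.Agent.CFT.Places

/-- **Existence of the global norm in `PGL2`**: `[E : K] = 2`, `p` odd, `L = K(a^{1/p})`,
`F = LE = E(a^{1/p})`, `γ ∈ Eˣ`, and at every finite place `w` of `E` (over `v` of `K`) either
`v` splits in `L`, or `γ / γ̄` is a `p`-th power in `E_w`, or `w ∤ p` and `a`, `γ / γ̄` are units:
then `z γ = N_{F/E}(δ)` with `z ∈ Kˣ`, `δ ∈ Fˣ`. -/
theorem exists_norm_mul_of_local {p : ℕ} [Fact p.Prime] {K E : Type} [Field K] [NumberField K]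
    [Field E] [NumberField E] [Algebra K E] [IsTotallyComplex E] {ζ : E}
    (hζ : IsPrimitiveRoot ζ p) (hp : p ≠ 2) (h2 : Module.finrank K E = 2) {a : Kˣ}
    (hna : ∀ b : Kˣ, b ^ p ≠ a) {σ : E ≃ₐ[K] E} (hσ : σ ≠ 1) {γ : Eˣ} {x : Eˣ}
    (hx : (x : E) = γ / σ γ)
    (h : ∀ w : HeightOneSpectrum (𝓞 E), a ∈ locPow p (w.under (𝓞 K)) ∨ x ∈ locPow p w ∨
      ((p : 𝓞 K) ∉ (w.under (𝓞 K)).asIdeal ∧ ord (w.under (𝓞 K)) a = 0 ∧ ord w x = 0))
    {F : Type*} [Field F] [Algebra E F] {α : F}
    (hα : α ^ p = algebraMap E F (algebraMap K E a))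
    (hF : IntermediateField.adjoin E {α} = ⊤) (hdeg : Module.finrank E F = p) :
    ∃ z : K, z ≠ 0 ∧ ∃ δ : F, Algebra.norm E δ = algebraMap K E z * γ := by
  have hodd : Odd p := (Fact.out : p.Prime).odd_of_ne_two hp
  have hc : (Module.finrank K E).Coprime p := by
    rw [h2]
    exact (Nat.coprime_two_left).2 hodd
  obtain ⟨y, hy⟩ := exists_norm_eq_up hζ hc hna h hα hF
  have hEF : FiniteDimensional E F := Module.finite_of_finrank_pos (by rw [hdeg]; exact hodd.pos)
  let : Algebra K F := ((algebraMap E F).comp (algebraMap K E)).toAlgebra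
  have : IsScalarTower K E F := IsScalarTower.of_algebraMap_eq (fun _ => rfl)
  exact exists_norm_mul_of_norm_div h2 (by rw [hdeg]; exact hodd) hσ γ.ne_zero
    (hy.trans hx)

end Global

end Fermat.Agent.LT.NormAlg

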