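import Mathlib
import Fermat.Agent.LT.ThetaInv

/-!
# Poisson summation for rational lattices, in particular over a number field

`(E, T)` is a finite dimensional nondegenerate bilinear space over `ℚ`, `(V, B)` a real one of the
same dimension and `j : E → V` additive with `B (j x) (j y) = T x y` ("`V = E ⊗ ℝ`").
Examples: a number field with its trace form `Tr (x y)` or `Tr (x σ(y))`.
-/

set_option autoImplicit false

noncomputable section

open MeasureTheory Set Filter TopologicalSpace Complex Module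
open scoped Real ComplexConjugate

namespace Fermat.Agent.LT.Poisson

section General

variable {κ : Type*} [Fintype κ] [DecidableEq κ]
variable {E : Type*} [AddCommGroup E] [Module ℚ E]
variable {V : Type*} [NormedAddCommGroup V] [NormedSpace ℝ V]

/-- `(V, B)` is a model of `(E, T) ⊗ ℝ`. -/
structure IsRealModel (T : LinearMap.BilinForm ℚ E) (j : E →+ V) (B : LinearMap.BilinForm ℝ V) :
    Prop where
  nondeg : T.Nondegenerate
  finrank_eq : finrank ℝ V = finrank ℚ E
  map : ∀ x y, B (j x) (j y) = (T x y : ℚ)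

/-- the coordinates of the lattice in `E` spanned by a `ℚ`-basis -/
def latE (b : Basis κ ℚ E) : (κ → ℤ) ≃ Submodule.span ℤ (range b) :=
  (b.restrictScalars ℤ).equivFun.symm.toEquiv

omit [DecidableEq κ] in
theorem coe_latE (b : Basis κ ℚ E) (m : κ → ℤ) :
    (latE b m : E) = ∑ i, m i • b i := by
  change (((b.restrictScalars ℤ).equivFun.symm m : Submodule.span ℤ (range b)) : E) = _
  rw [Basis.equivFun_symm_apply]
  simp

namespace IsRealModel

variable {T : LinearMap.BilinForm ℚ E} {j : E →+ V} {B : LinearMap.BilinForm ℝ V}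
  (h : IsRealModel T j B)

include h

theorem map_dualBasis [FiniteDimensional ℚ E] (b : Basis κ ℚ E) (i k : κ) :
    B (j (T.dualBasis h.nondeg b i)) (j (b k)) = if k = i then 1 else 0 := by
  rw [h.map, LinearMap.BilinForm.apply_dualBasis_left]
  split_ifs <;> simp

theorem linearIndependent (b : Basis κ ℚ E) : LinearIndependent ℝ fun i => j (b i) := by
  have : FiniteDimensional ℚ E := b.finiteDimensional_of_finite
  rw [Fintype.linearIndependent_iff]
  intro r hr k
  have h1 : B (j (T.dualBasis h.nondeg b k)) (∑ i, r i • j (b i)) = r k := by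
    rw [map_sum, Finset.sum_eq_single k]
    · rw [map_smul, h.map_dualBasis]
      simp
    · intro i _ hik
      rw [map_smul, h.map_dualBasis]
      simp [hik]
    · simp
  rw [← h1, hr]
  simp

omit [DecidableEq κ] in
theorem card_eq (b : Basis κ ℚ E) : Fintype.card κ = finrank ℝ V := by
  rw [h.finrank_eq, finrank_eq_card_basis b]

variable [FiniteDimensional ℝ V]

/-- the real basis of `V` given by a basis of `E` -/
def realBasis (b : Basis κ ℚ E) : Basis κ ℝ V :=
  Basis.mk (h.linearIndependent b)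
    ((h.linearIndependent b).span_eq_top_of_card_eq_finrank' (h.card_eq b)).ge

@[simp] theorem realBasis_apply (b : Basis κ ℚ E) (i : κ) : h.realBasis b i = j (b i) := by
  simp [realBasis]

variable [FiniteDimensional ℚ E]

theorem repr_realBasis (b : Basis κ ℚ E) (v : V) (i : κ) :
    (h.realBasis b).repr v i = B (j (T.dualBasis h.nondeg b i)) v := by
  conv_rhs => rw [← (h.realBasis b).sum_repr v]
  rw [map_sum, Finset.sum_eq_single i]
  · rw [map_smul, realBasis_apply, h.map_dualBasis]
    simp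
  · intro k _ hik
    rw [map_smul, realBasis_apply, h.map_dualBasis]
    simp [hik]
  · simp

theorem separatingRight (v : V) (hv : ∀ w, B w v = 0) : v = 0 := by
  let b := Module.finBasis ℚ E
  rw [← (h.realBasis b).sum_repr v]
  refine Finset.sum_eq_zero fun i _ => ?_
  rw [h.repr_realBasis, hv, zero_smul]

omit [FiniteDimensional ℚ E] in
theorem cv_realBasis (b : Basis κ ℚ E) (m : κ → ℤ) :
    cv (h.realBasis b) (zc κ m) = j (∑ i, m i • b i) := by
  rw [cv_apply, map_sum]
  refine Finset.sum_congr rfl fun i _ => ?_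
  rw [realBasis_apply, zc_apply, Int.cast_smul_eq_zsmul, map_zsmul]

theorem co_realBasis (b : Basis κ ℚ E) (m : κ → ℤ) (v : V) :
    co (h.realBasis b) m v = B (j (∑ i, m i • T.dualBasis h.nondeg b i)) v := by
  rw [co, map_sum, map_sum, LinearMap.sum_apply]
  refine Finset.sum_congr rfl fun i _ => ?_
  rw [h.repr_realBasis, map_zsmul, map_zsmul, LinearMap.smul_apply, zsmul_eq_mul]

omit [FiniteDimensional ℝ V] [FiniteDimensional ℚ E] in
theorem dual_eq {Λ : Submodule ℤ E} {b : Basis κ ℚ E} (hΛ : Λ = Submodule.span ℤ (range b)) :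
    T.dualSubmodule Λ = Submodule.span ℤ (range (T.dualBasis h.nondeg b)) := by
  rw [hΛ]
  exact T.dualSubmodule_span_of_basis h.nondeg b

/-! ### Summability -/

omit [FiniteDimensional ℚ E] in
theorem summable_of_decay {b : Basis κ ℚ E} {Λ : Submodule ℤ E}
    (hΛ : Λ = Submodule.span ℤ (range b)) {g : V → ℂ} {β C : ℝ} (hβ : (finrank ℚ E : ℝ) < β)
    (hg : ∀ v, ‖g v‖ ≤ C * (1 + ‖v‖) ^ (-β)) (s : V) : Summable fun x : Λ => g (s + j x) := by
  subst hΛ
  rw [← (latE b).summable_iff]
  have hβ' : (Fintype.card κ : ℝ) < β := by rwa [h.card_eq b, h.finrank_eq]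
  have h1 := (perable_cv_of_decay (h.realBasis b) hβ' hg).summable ((cv (h.realBasis b)).symm s)
  convert h1 using 1
  ext m
  simp only [Function.comp_apply]
  rw [map_add, ContinuousLinearEquiv.apply_symm_apply, h.cv_realBasis, coe_latE]

theorem summable_dual_of_decay {b : Basis κ ℚ E} {Λ : Submodule ℤ E}
    (hΛ : Λ = Submodule.span ℤ (range b)) {g : V → ℂ} {β C : ℝ} (hβ : (finrank ℚ E : ℝ) < β)
    (hg : ∀ v, ‖g v‖ ≤ C * (1 + ‖v‖) ^ (-β)) (s : V) :
    Summable fun x : T.dualSubmodule Λ => g (s + j x) :=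
  h.summable_of_decay (h.dual_eq hΛ) hβ hg s

/-! ### Poisson summation -/

variable [MeasurableSpace V] [BorelSpace V]

/-- **Poisson summation** for a lattice `Λ` in the rational space `E`; `s` any real shift. -/
theorem hasSum_poisson (μ : Measure V) [μ.IsAddHaarMeasure] {b : Basis κ ℚ E} {Λ : Submodule ℤ E}
    (hΛ : Λ = Submodule.span ℤ (range b)) {f : V → ℂ} (hc : Continuous f) {β C : ℝ}
    (hβ : (finrank ℚ E : ℝ) < β) (hf : ∀ v, ‖f v‖ ≤ C * (1 + ‖v‖) ^ (-β))
    (hs : Summable fun y : T.dualSubmodule Λ => fB μ B f (j y)) (s : V) :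
    HasSum (fun y : T.dualSubmodule Λ =>
      (μ.real (parallelepiped (h.realBasis b)) : ℂ)⁻¹ * fB μ B f (j y) *
        cexp (2 * π * I * (B (j y) s : ℝ))) (∑' x : Λ, f (s + j x)) := by
  have hD := h.dual_eq hΛ
  have hfb : ∀ m : κ → ℤ, fb μ (h.realBasis b) f m =
      fB μ B f (j (∑ i, m i • T.dualBasis h.nondeg b i)) := by
    intro m
    rw [fB, fb]
    simp_rw [h.co_realBasis]
  let e : (κ → ℤ) ≃ T.dualSubmodule Λ :=
    (latE (T.dualBasis h.nondeg b)).trans (LinearEquiv.ofEq _ _ hD.symm).toEquiv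
  have he : ∀ m, (e m : E) = ∑ i, m i • T.dualBasis h.nondeg b i :=
    fun m => coe_latE (T.dualBasis h.nondeg b) m
  have hs' : Summable (fb μ (h.realBasis b) f) := by
    rw [← e.summable_iff] at hs
    convert hs using 1
    ext m
    simp only [Function.comp_apply]
    rw [hfb, he]
  have hβ' : (Fintype.card κ : ℝ) < β := by rwa [h.card_eq b, h.finrank_eq]
  have h1 := hasSum_poisson_basis μ (h.realBasis b) hc (perable_cv_of_decay _ hβ' hf) hs' s
  have h2 : ∑' n : κ → ℤ, f (s + cv (h.realBasis b) (zc κ n)) = ∑' x : Λ, f (s + j x) := by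
    rw [← ((latE b).trans (LinearEquiv.ofEq _ _ hΛ.symm).toEquiv).tsum_eq
      (fun x : Λ => f (s + j x))]
    refine tsum_congr fun m => ?_
    rw [h.cv_realBasis, ← coe_latE]
    rfl
  rw [h2] at h1
  rw [← e.hasSum_iff]
  convert h1 using 1
  ext m
  simp only [Function.comp_apply]
  rw [he, h.co_realBasis, hfb]

end IsRealModel

end General

section Model

variable {κ : Type*} [Fintype κ] {E : Type*} [Field E] [NumberField E]

/-- the form `Σ 2 Re(v_k w_k)` on `ℂ^κ` -/
def traceB (κ : Type*) [Fintype κ] : LinearMap.BilinForm ℝ (κ → ℂ) :=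
  LinearMap.mk₂ ℝ (fun v w => ∑ k, 2 * (v k * w k).re)
    (fun v v' w => by simp [add_mul, mul_add, Finset.sum_add_distrib])
    (fun c v w => by
      simp only [Pi.smul_apply, Complex.real_smul, smul_eq_mul]
      rw [Finset.mul_sum]
      refine Finset.sum_congr rfl fun k _ => ?_
      rw [mul_assoc, Complex.re_ofReal_mul]
      ring)
    (fun v w w' => by simp [mul_add, Finset.sum_add_distrib])
    (fun c v w => by
      simp only [Pi.smul_apply, Complex.real_smul, smul_eq_mul]
      rw [Finset.mul_sum]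
      refine Finset.sum_congr rfl fun k _ => ?_
      rw [mul_left_comm (v k), Complex.re_ofReal_mul]
      ring)

@[simp] theorem traceB_apply (v w : κ → ℂ) : traceB κ v w = ∑ k, 2 * (v k * w k).re := rfl

/-- the embedding of `E` in `ℂ^κ` given by a family of complex embeddings -/
def jmap (φ : κ → E →+* ℂ) : E →+ (κ → ℂ) where
  toFun x k := φ k x
  map_zero' := by ext; simp
  map_add' x y := by ext; simp

omit [Fintype κ] in
@[simp] theorem jmap_apply (φ : κ → E →+* ℂ) (x : E) (k : κ) : jmap φ x k = φ k x := rfl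

/-- `φ` is a set of representatives of the complex embeddings modulo conjugation, none is real. -/
def IsCM (φ : κ → E →+* ℂ) : Prop :=
  Function.Bijective (Sum.elim φ fun k => (starRingEnd ℂ).comp (φ k) : κ ⊕ κ → (E →+* ℂ))

theorem IsCM.trace {φ : κ → E →+* ℂ} (h : IsCM φ) (x : E) :
    ((Algebra.trace ℚ E x : ℚ) : ℝ) = ∑ k, 2 * (φ k x).re := by
  have h1 : ((Algebra.trace ℚ E x : ℚ) : ℂ) = ∑ σ : E →+* ℂ, σ x := by
    have := trace_eq_sum_embeddings (K := ℚ) (L := E) ℂ (x := x)
    rw [eq_ratCast] at this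
    rw [this]
    exact (Fintype.sum_equiv (RingHom.equivRatAlgHom (R := E) (S := ℂ)) _ _ fun σ => rfl).symm
  have h2 : ∑ σ : E →+* ℂ, σ x = ∑ k, (φ k x + conj (φ k x)) := by
    rw [← Fintype.sum_equiv (Equiv.ofBijective _ h) (fun s => (Sum.elim φ
      (fun k => (starRingEnd ℂ).comp (φ k)) s : E →+* ℂ) x) _ fun s => rfl, Fintype.sum_sum_type,
      ← Finset.sum_add_distrib]
    rfl
  have h3 := congrArg Complex.re (h1.trans h2)
  rw [Complex.re_sum] at h3
  have h4 : (((Algebra.trace ℚ E x : ℚ) : ℂ)).re = ((Algebra.trace ℚ E x : ℚ) : ℝ) :=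
    Complex.ratCast_re _
  rw [h4] at h3
  rw [h3]
  refine Finset.sum_congr rfl fun k _ => ?_
  simp
  ring

theorem IsCM.isRealModel {φ : κ → E →+* ℂ} (h : IsCM φ) :
    IsRealModel (Algebra.traceForm ℚ E) (jmap φ) (traceB κ) where
  nondeg := traceForm_nondegenerate ℚ E
  finrank_eq := by
    rw [← NumberField.Embeddings.card E ℂ, ← Fintype.card_congr (Equiv.ofBijective _ h),
      Fintype.card_sum, Module.finrank_pi_fintype]
    simp [Complex.finrank_real_complex, mul_two]
  map x y := by
    rw [Algebra.traceForm_apply, h.trace]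
    refine Finset.sum_congr rfl fun k _ => ?_
    rw [jmap_apply, jmap_apply, map_mul]

/-- the form `Tr (x σ(y))` -/
def twForm (σ : E →+* E) : LinearMap.BilinForm ℚ E :=
  (Algebra.traceForm ℚ E).compRight (RingHom.toRatAlgHom σ).toLinearMap

@[simp] theorem twForm_apply (σ : E →+* E) (x y : E) :
    twForm σ x y = Algebra.trace ℚ E (x * σ y) := rfl

theorem twForm_nondegenerate (σ : E ≃+* E) : (twForm (σ : E →+* E)).Nondegenerate := by
  constructor
  · intro x hx
    refine (traceForm_nondegenerate ℚ E).1 x fun y => ?_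
    have := hx (σ.symm y)
    simpa using this
  · intro y hy
    have : σ y = 0 := (traceForm_nondegenerate ℚ E).2 (σ y) fun x => hy x
    simpa using this

/-- the form `Σ 2 Re(v_k w'_k + v'_k w_k)` on `(ℂ × ℂ)^κ` -/
def swapB (κ : Type*) [Fintype κ] : LinearMap.BilinForm ℝ (κ → ℂ × ℂ) :=
  LinearMap.mk₂ ℝ (fun v w => ∑ k, 2 * ((v k).1 * (w k).2 + (v k).2 * (w k).1).re)
    (fun v v' w => by
      rw [← Finset.sum_add_distrib]
      refine Finset.sum_congr rfl fun k _ => ?_
      simp only [Pi.add_apply, Prod.fst_add, Prod.snd_add, Complex.add_re, add_mul]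
      ring)
    (fun c v w => by
      rw [smul_eq_mul, Finset.mul_sum]
      refine Finset.sum_congr rfl fun k _ => ?_
      simp only [Pi.smul_apply, Prod.smul_fst, Prod.smul_snd, Complex.real_smul, mul_assoc,
        Complex.add_re, Complex.re_ofReal_mul]
      ring)
    (fun v w w' => by
      rw [← Finset.sum_add_distrib]
      refine Finset.sum_congr rfl fun k _ => ?_
      simp only [Pi.add_apply, Prod.fst_add, Prod.snd_add, Complex.add_re, mul_add]
      ring)
    (fun c v w => by
      rw [smul_eq_mul, Finset.mul_sum]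
      refine Finset.sum_congr rfl fun k _ => ?_
      simp only [Pi.smul_apply, Prod.smul_fst, Prod.smul_snd, Complex.real_smul, Complex.add_re]
      rw [mul_left_comm (v k).1, mul_left_comm (v k).2, Complex.re_ofReal_mul,
        Complex.re_ofReal_mul]
      ring)

@[simp] theorem swapB_apply (v w : κ → ℂ × ℂ) :
    swapB κ v w = ∑ k, 2 * ((v k).1 * (w k).2 + (v k).2 * (w k).1).re := rfl

/-- `x ↦ (φ_k x, φ_k (σ x))_k` -/
def jpair (φ : κ → E →+* ℂ) (σ : E →+* E) : E →+ (κ → ℂ × ℂ) where
  toFun x k := (φ k x, φ k (σ x))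
  map_zero' := by ext <;> simp
  map_add' x y := by ext <;> simp

omit [Fintype κ] in
@[simp] theorem jpair_apply (φ : κ → E →+* ℂ) (σ : E →+* E) (x : E) (k : κ) :
    jpair φ σ x k = (φ k x, φ k (σ x)) := rfl

/-- `φ_k, φ_k σ` are representatives of the complex embeddings modulo conjugation. -/
def IsPairCM (φ : κ → E →+* ℂ) (σ : E →+* E) : Prop :=
  IsCM (Sum.elim φ fun k => (φ k).comp σ : κ ⊕ κ → E →+* ℂ)

/-- The space `(ℂ × ℂ)^κ` with the form `Σ 2 Re(v_k w'_k + v'_k w_k)` is the real model of
`(E, Tr (x σ(y)))`, for an involution `σ`. -/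
theorem IsPairCM.isRealModel {φ : κ → E →+* ℂ} {σ : E ≃+* E} (hσ : ∀ x, σ (σ x) = x)
    (h : IsPairCM φ (σ : E →+* E)) :
    IsRealModel (twForm (σ : E →+* E)) (jpair φ (σ : E →+* E)) (swapB κ) where
  nondeg := twForm_nondegenerate σ
  finrank_eq := by
    rw [← NumberField.Embeddings.card E ℂ, ← Fintype.card_congr (Equiv.ofBijective _ h),
      Fintype.card_sum, Fintype.card_sum, Module.finrank_pi_fintype]
    simp [Complex.finrank_real_complex]
    ring
  map x y := by
    rw [twForm_apply, h.trace, Fintype.sum_sum_type, ← Finset.sum_add_distrib, swapB_apply]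
    refine Finset.sum_congr rfl fun k _ => ?_
    simp only [Sum.elim_inl, Sum.elim_inr, jpair_apply, RingHom.comp_apply, RingHom.coe_coe,
      map_mul, hσ, Complex.add_re]
    ring

/-! ### The ring of integers -/

/-- the ring of integers as a `ℤ`-submodule of `E` -/
def ringLat (E : Type*) [Field E] [NumberField E] : Submodule ℤ E :=
  Submodule.span ℤ (range (NumberField.integralBasis E))

theorem mem_ringLat {x : E} : x ∈ ringLat E ↔ ∃ y : NumberField.RingOfIntegers E, (y : E) = x := by
  rw [ringLat, NumberField.mem_span_integralBasis]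
  rfl

/-- the integers of `E` as points of `ringLat` -/
def ringLatEquiv (E : Type*) [Field E] [NumberField E] :
    NumberField.RingOfIntegers E ≃ ringLat E :=
  Equiv.ofBijective (fun y => ⟨(y : E), mem_ringLat.mpr ⟨y, rfl⟩⟩)
    ⟨fun _ _ h => NumberField.RingOfIntegers.ext (Subtype.mk.inj h),
      fun ⟨_, hx⟩ => (mem_ringLat.mp hx).imp fun _ hy => Subtype.ext hy⟩

@[simp] theorem coe_ringLatEquiv (y : NumberField.RingOfIntegers E) :
    (ringLatEquiv E y : E) = y := rfl

theorem mem_dual_ringLat {y : E} : y ∈ (Algebra.traceForm ℚ E).dualSubmodule (ringLat E) ↔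
    ∀ x : NumberField.RingOfIntegers E, ∃ n : ℤ, Algebra.trace ℚ E (y * x) = n := by
  rw [LinearMap.BilinForm.mem_dualSubmodule]
  constructor
  · intro h x
    obtain ⟨n, hn⟩ := Submodule.mem_one.mp (h x (mem_ringLat.mpr ⟨x, rfl⟩))
    exact ⟨n, by rw [Algebra.traceForm_apply] at hn; rw [← hn]; simp⟩
  · intro h x hx
    obtain ⟨x, rfl⟩ := mem_ringLat.mp hx
    obtain ⟨n, hn⟩ := h x
    exact Submodule.mem_one.mpr ⟨n, by rw [Algebra.traceForm_apply, hn]; simp⟩

end Model

end Fermat.Agent.LT.Poisson
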