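import Mathlib

/-!
# Regular functions at one place (S47A, block B6, concrete half of 3.4)

* `jinv g = tr(g)² / det(g)` for `2 × 2` matrices: scaling and conjugation invariant;
* for `k₁, k₂` in the Iwahori subgroup and `t = diag(ϖ^n, 1)`, `n ≥ 1`, the value `v (jinv (k₁ t k₂))` is
  exactly `v(ϖ)^(-n)`;
* product formula: a number `a` of a number field with `j = a + 2 + a⁻¹` satisfying `|j|_u = q^n` at a
  finite place `u`, `|j|_w ≤ C` at finitely many places (and at infinity) and `|j|_w ≤ 1` elsewhere has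
  `n < n₀(C)`.
-/

set_option autoImplicit false

namespace Fermat.Agent.LT

open scoped BigOperators

section Jinv

variable {F : Type*} [Field F]

/-- The conjugation and scaling invariant `tr² / det` of a `2 × 2` matrix. -/
noncomputable def jinv (g : Matrix (Fin 2) (Fin 2) F) : F := g.trace ^ 2 / g.det

theorem jinv_smul {z : F} (hz : z ≠ 0) (g : Matrix (Fin 2) (Fin 2) F) :
    jinv (z • g) = jinv g := by
  unfold jinv
  rw [Matrix.trace_smul, Matrix.det_smul, Fintype.card_fin, smul_eq_mul, mul_pow]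
  exact mul_div_mul_left _ _ (pow_ne_zero 2 hz)

theorem jinv_mul_comm (g h : Matrix (Fin 2) (Fin 2) F) : jinv (g * h) = jinv (h * g) := by
  unfold jinv
  rw [Matrix.trace_mul_comm, Matrix.det_mul_comm]

theorem jinv_conj {h : Matrix (Fin 2) (Fin 2) F} (hh : IsUnit h.det)
    (g : Matrix (Fin 2) (Fin 2) F) : jinv (h * g * h⁻¹) = jinv g := by
  rw [jinv_mul_comm, ← Matrix.mul_assoc, Matrix.nonsing_inv_mul _ hh, Matrix.one_mul]

theorem jinv_conj' {h : Matrix (Fin 2) (Fin 2) F} (hh : IsUnit h.det)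
    (g : Matrix (Fin 2) (Fin 2) F) : jinv (h⁻¹ * g * h) = jinv g := by
  rw [jinv_mul_comm, ← Matrix.mul_assoc, Matrix.mul_nonsing_inv _ hh, Matrix.one_mul]

theorem jinv_conj_units (h g : (Matrix (Fin 2) (Fin 2) F)ˣ) :
    jinv ((h⁻¹ * g * h : (Matrix (Fin 2) (Fin 2) F)ˣ) : Matrix (Fin 2) (Fin 2) F)
      = jinv (g : Matrix (Fin 2) (Fin 2) F) := by
  rw [Units.val_mul, jinv_mul_comm, ← Units.val_mul, ← mul_assoc, mul_inv_cancel, one_mul]

theorem jinv_map {F' : Type*} [Field F'] (f : F →+* F') (g : Matrix (Fin 2) (Fin 2) F) :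
    jinv (g.map f) = f (jinv g) := by
  unfold jinv
  rw [map_div₀, map_pow]
  congr 1
  · congr 1
    simp [Matrix.trace, Fin.sum_univ_two]
  · rw [← RingHom.mapMatrix_apply, ← RingHom.map_det]

/-- The invariant of a diagonal matrix, in terms of the ratio of the eigenvalues. -/
theorem jinv_of_roots {g : Matrix (Fin 2) (Fin 2) F} {x y : F} (hx : x ≠ 0) (hy : y ≠ 0)
    (htr : g.trace = x + y) (hdet : g.det = x * y) :
    jinv g = x / y + 2 + (x / y)⁻¹ := by
  unfold jinv
  rw [htr, hdet]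
  field_simp
  ring

/-- If the characteristic polynomial of an invertible matrix has a root in `F`, then
`jinv g = a + 2 + a⁻¹` for some `a ≠ 0` in `F`. -/
theorem exists_ratio_of_root {g : Matrix (Fin 2) (Fin 2) F} (hg : g.det ≠ 0) {x : F}
    (hx : x ^ 2 - g.trace * x + g.det = 0) :
    ∃ a : F, a ≠ 0 ∧ jinv g = a + 2 + a⁻¹ := by
  have hx0 : x ≠ 0 := by
    rintro rfl
    exact hg (by simpa using hx)
  have hy : g.det = x * (g.trace - x) := by linear_combination hx
  have hy0 : g.trace - x ≠ 0 := fun h => hg (by rw [hy, h, mul_zero])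
  exact ⟨x / (g.trace - x), div_ne_zero hx0 hy0,
    jinv_of_roots hx0 hy0 (by ring) hy⟩

end Jinv

section Iwahori

variable {F : Type*} [Field F] {Γ₀ : Type*} [LinearOrderedCommGroupWithZero Γ₀]
  (v : Valuation F Γ₀)

/-- The Iwahori subgroup (upper triangular modulo the maximal ideal), as a predicate. -/
structure IsIwahori (k : Matrix (Fin 2) (Fin 2) F) : Prop where
  h00 : v (k 0 0) = 1
  h11 : v (k 1 1) = 1
  h01 : v (k 0 1) ≤ 1
  h10 : v (k 1 0) < 1

/-- The maximal compact subgroup `GL₂(O_v)`, as a predicate. -/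
structure IsHyper (k : Matrix (Fin 2) (Fin 2) F) : Prop where
  h : ∀ i j, v (k i j) ≤ 1
  hdet : v k.det = 1

variable {v}

theorem gz_mul_lt_one_right {x y : Γ₀} (hx : x ≤ 1) (hy : y < 1) : x * y < 1 :=
  (mul_le_of_le_one_left' hx).trans_lt hy

theorem gz_mul_lt_one_left {x y : Γ₀} (hx : x < 1) (hy : y ≤ 1) : x * y < 1 :=
  (mul_le_of_le_one_right' hy).trans_lt hx

theorem v_add_eq_one {x y : F} (hx : v x = 1) (hy : v y < 1) : v (x + y) = 1 := by
  rw [Valuation.map_add_eq_of_lt_left _ (by rw [hx]; exact hy), hx]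

theorem IsIwahori.det {k : Matrix (Fin 2) (Fin 2) F} (hk : IsIwahori v k) : v k.det = 1 := by
  rw [Matrix.det_fin_two, sub_eq_add_neg]
  apply v_add_eq_one
  · rw [map_mul, hk.h00, hk.h11, one_mul]
  · rw [Valuation.map_neg, map_mul]
    exact gz_mul_lt_one_right hk.h01 hk.h10

theorem IsIwahori.isHyper {k : Matrix (Fin 2) (Fin 2) F} (hk : IsIwahori v k) : IsHyper v k := by
  refine ⟨?_, hk.det⟩
  intro i j
  fin_cases i <;> fin_cases j
  · exact hk.h00.le
  · exact hk.h01
  · exact hk.h10.le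
  · exact hk.h11.le

theorem IsIwahori.one : IsIwahori v (1 : Matrix (Fin 2) (Fin 2) F) :=
  ⟨by simp, by simp, by simp, by simp⟩

theorem IsHyper.one : IsHyper v (1 : Matrix (Fin 2) (Fin 2) F) := IsIwahori.one.isHyper

theorem IsIwahori.mul {k l : Matrix (Fin 2) (Fin 2) F} (hk : IsIwahori v k)
    (hl : IsIwahori v l) : IsIwahori v (k * l) := by
  constructor
  · rw [Matrix.mul_apply, Fin.sum_univ_two]
    apply v_add_eq_one
    · rw [map_mul, hk.h00, hl.h00, one_mul]
    · rw [map_mul]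
      exact gz_mul_lt_one_right hk.h01 hl.h10
  · rw [Matrix.mul_apply, Fin.sum_univ_two, add_comm]
    apply v_add_eq_one
    · rw [map_mul, hk.h11, hl.h11, one_mul]
    · rw [map_mul]
      exact gz_mul_lt_one_left hk.h10 hl.h01
  · rw [Matrix.mul_apply, Fin.sum_univ_two]
    apply Valuation.map_add_le
    · rw [map_mul]; exact mul_le_one' hk.h00.le hl.h01
    · rw [map_mul]; exact mul_le_one' hk.h01 hl.h11.le
  · rw [Matrix.mul_apply, Fin.sum_univ_two]
    apply Valuation.map_add_lt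
    · rw [map_mul]; exact gz_mul_lt_one_left hk.h10 hl.h00.le
    · rw [map_mul]; exact gz_mul_lt_one_right hk.h11.le hl.h10

theorem IsHyper.mul {k l : Matrix (Fin 2) (Fin 2) F} (hk : IsHyper v k)
    (hl : IsHyper v l) : IsHyper v (k * l) := by
  refine ⟨?_, by rw [Matrix.det_mul, map_mul, hk.hdet, hl.hdet, one_mul]⟩
  intro i j
  rw [Matrix.mul_apply, Fin.sum_univ_two]
  apply Valuation.map_add_le <;> rw [map_mul] <;> exact mul_le_one' (hk.h _ _) (hl.h _ _)

theorem IsHyper.trace_le {k : Matrix (Fin 2) (Fin 2) F} (hk : IsHyper v k) : v k.trace ≤ 1 := by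
  rw [Matrix.trace_fin_two]
  exact Valuation.map_add_le _ (hk.h _ _) (hk.h _ _)

/-- At a place where the (projectivised) element is in the maximal compact subgroup the
invariant is integral. -/
theorem IsHyper.jinv_le {k : Matrix (Fin 2) (Fin 2) F} (hk : IsHyper v k) : v (jinv k) ≤ 1 := by
  unfold jinv
  rw [map_div₀, hk.hdet, div_one, map_pow]
  exact pow_le_one' hk.trace_le 2

/-- **The Iwahori computation**: every element of `I t^n I`, `t = diag(ϖ, 1)`, `n ≥ 1`, has
`v (tr² / det) = v(ϖ)^(-n)`. -/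
theorem IsIwahori.v_jinv {k l : Matrix (Fin 2) (Fin 2) F} (hk : IsIwahori v k)
    (hl : IsIwahori v l) {t : F} (ht1 : v t < 1) :
    v (jinv (k * Matrix.diagonal ![t, 1] * l)) = (v t)⁻¹ := by
  have htr : v (k * Matrix.diagonal ![t, 1] * l).trace = 1 := by
    have : (k * Matrix.diagonal ![t, 1] * l).trace
        = k 1 1 * l 1 1 + (k 0 0 * t * l 0 0 + k 0 1 * l 1 0 + k 1 0 * t * l 0 1) := by
      rw [Matrix.trace_fin_two, Matrix.mul_apply, Matrix.mul_apply, Fin.sum_univ_two,
        Fin.sum_univ_two]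
      simp only [Matrix.mul_diagonal]
      simp
      ring
    rw [this]
    apply v_add_eq_one
    · rw [map_mul, hk.h11, hl.h11, one_mul]
    · apply Valuation.map_add_lt
      · apply Valuation.map_add_lt
        · rw [map_mul, map_mul, hk.h00, hl.h00, one_mul, mul_one]; exact ht1
        · rw [map_mul]; exact gz_mul_lt_one_right hk.h01 hl.h10
      · rw [map_mul, map_mul]
        exact gz_mul_lt_one_left (gz_mul_lt_one_left hk.h10 ht1.le) hl.h01
  have hdet : v (k * Matrix.diagonal ![t, 1] * l).det = v t := by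
    rw [Matrix.det_mul, Matrix.det_mul, map_mul, map_mul, hk.det, hl.det, Matrix.det_diagonal,
      Fin.prod_univ_two]
    simp
  unfold jinv
  rw [map_div₀, map_pow, htr, hdet, one_pow, one_div]

theorem IsIwahori.v_jinv_pow {k l : Matrix (Fin 2) (Fin 2) F} (hk : IsIwahori v k)
    (hl : IsIwahori v l) {ϖ : F} (h1 : v ϖ < 1) {n : ℕ} (hn : n ≠ 0) :
    v (jinv (k * Matrix.diagonal ![ϖ ^ n, 1] * l)) = (v ϖ)⁻¹ ^ n := by
  rw [hk.v_jinv hl (t := ϖ ^ n) (by rw [map_pow]; exact pow_lt_one' h1 hn), map_pow, inv_pow]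

end Iwahori

section Ratio

variable {F : Type*} [Field F]

/-- Nonarchimedean absolute values: `|a| > 1` implies `|a + 2 + a⁻¹| = |a|`. -/
theorem abv_ratio_eq {v : AbsoluteValue F ℝ} (hv : IsNonarchimedean v) {a : F} (ha : 1 < v a) :
    v (a + 2 + a⁻¹) = v a := by
  have h2 : v (2 + a⁻¹) ≤ 1 := by
    refine (hv 2 a⁻¹).trans (max_le ?_ ?_)
    · have h11 : v (1 + 1) ≤ max (v 1) (v 1) := hv 1 1
      rw [max_self, map_one] at h11
      rwa [one_add_one_eq_two] at h11
    · rw [map_inv₀]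
      exact inv_le_one_of_one_le₀ ha.le
  rw [add_assoc]
  have hlt : v (2 + a⁻¹) < v a := h2.trans_lt ha
  rw [hv.add_eq_max_of_ne hlt.ne', max_eq_left hlt.le]

theorem abv_ratio_eq' {v : AbsoluteValue F ℝ} (hv : IsNonarchimedean v) {a : F} (ha0 : a ≠ 0)
    (ha : v a < 1) : v (a + 2 + a⁻¹) = (v a)⁻¹ := by
  have h1 : 1 < v a⁻¹ := by
    rw [map_inv₀]
    exact (one_lt_inv₀ (v.pos ha0)).2 ha
  have := abv_ratio_eq hv h1
  rw [inv_inv, map_inv₀] at this
  rw [← this]
  congr 1
  ring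

/-- Nonarchimedean: an integral invariant forces `|a| = 1`. -/
theorem abv_ratio_eq_one {v : AbsoluteValue F ℝ} (hv : IsNonarchimedean v) {a : F} (ha0 : a ≠ 0)
    (h : v (a + 2 + a⁻¹) ≤ 1) : v a = 1 := by
  rcases lt_trichotomy (v a) 1 with h1 | h1 | h1
  · rw [abv_ratio_eq' hv ha0 h1] at h
    exact absurd h (not_le.2 ((one_lt_inv₀ (v.pos ha0)).2 h1))
  · exact h1
  · rw [abv_ratio_eq hv h1] at h
    exact absurd h (not_le.2 h1)

/-- Nonarchimedean: `|a⁻¹| ≤ max 1 |j|`. -/
theorem abv_ratio_inv_le {v : AbsoluteValue F ℝ} (hv : IsNonarchimedean v) {a : F} (ha0 : a ≠ 0) :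
    (v a)⁻¹ ≤ max 1 (v (a + 2 + a⁻¹)) := by
  rcases lt_or_ge (v a) 1 with h1 | h1
  · rw [abv_ratio_eq' hv ha0 h1]; exact le_max_right _ _
  · exact (inv_le_one_of_one_le₀ h1).trans (le_max_left _ _)

/-- Archimedean (any) absolute value: `|a⁻¹| ≤ |j| + 3`. -/
theorem abv_ratio_inv_le_add {v : AbsoluteValue F ℝ} (h2 : v 2 ≤ 2) {a : F} :
    (v a)⁻¹ ≤ v (a + 2 + a⁻¹) + 3 := by
  rcases lt_or_ge (v a) 1 with h1 | h1
  · have h : v a⁻¹ ≤ v (a + 2 + a⁻¹) + v (a + 2) := by
      have := v.sub_le_add (a + 2 + a⁻¹) (a + 2)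
      simpa using this
    have h3 : v (a + 2) ≤ 3 := by
      refine (v.add_le a 2).trans ?_
      linarith
    rw [map_inv₀] at h
    linarith
  · have := inv_le_one_of_one_le₀ h1
    have h0 := v.nonneg (a + 2 + a⁻¹)
    linarith

end Ratio

section Product

open NumberField

variable {K : Type*} [Field K] [NumberField K]

theorem finitePlace_isNonarch (w : FinitePlace K) : IsNonarchimedean (w.1) := by
  intro x y
  exact w.add_le x y

omit [NumberField K] in
theorem infinitePlace_two (w : InfinitePlace K) : w.1 2 ≤ 2 := by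
  have : w 2 = 2 := by
    have := w.map_natCast 2
    simpa using this
  exact this.le

/-- The product formula argument for one orientation of the ratio. -/
theorem product_bound (u : FinitePlace K) (S : Finset (FinitePlace K)) {D : ℝ} (hD : 1 ≤ D)
    {a : K} (ha : a ≠ 0) (hS : ∀ w ∈ S, w ≠ u → (w a)⁻¹ ≤ D)
    (hout : ∀ w ∉ S, w ≠ u → w a = 1) (hinf : ∀ w : InfinitePlace K, (w a)⁻¹ ≤ D) :
    u a ≤ D ^ (S.card + Module.finrank ℚ K) := by
  classical
  have hDpos : 0 < D := lt_of_lt_of_le one_pos hD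
  have hprod := prod_abs_eq_one ha
  have hfin : ∏ᶠ w : FinitePlace K, w a = ∏ w ∈ insert u S, w a := by
    apply finprod_eq_prod_of_mulSupport_subset
    intro w hw
    rw [Function.mem_mulSupport] at hw
    rw [Finset.coe_insert]
    by_cases hwu : w = u
    · exact Or.inl hwu
    · by_cases hwS : w ∈ S
      · exact Or.inr hwS
      · exact absurd (hout w hwS hwu) hw
  have hfin2 : ∏ w ∈ insert u S, w a = u a * ∏ w ∈ S.erase u, w a := by
    rw [← Finset.insert_erase (Finset.mem_insert_self u S), Finset.prod_insert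
      (Finset.notMem_erase u _), Finset.erase_insert_eq_erase]
  have hge : D⁻¹ ^ (S.card) ≤ ∏ w ∈ S.erase u, w a := by
    calc D⁻¹ ^ (S.card) ≤ D⁻¹ ^ (S.erase u).card := by
          apply pow_le_pow_of_le_one (inv_nonneg.2 hDpos.le) (inv_le_one_of_one_le₀ hD)
          exact Finset.card_erase_le
      _ = ∏ w ∈ S.erase u, D⁻¹ := by rw [Finset.prod_const]
      _ ≤ ∏ w ∈ S.erase u, w a := by
          apply Finset.prod_le_prod (fun _ _ => inv_nonneg.2 hDpos.le)
          intro w hw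
          rw [Finset.mem_erase] at hw
          have hpos : 0 < w a := FinitePlace.pos_iff.2 ha
          rw [inv_le_comm₀ hDpos hpos]
          exact hS w hw.2 hw.1
  have hge2 : D⁻¹ ^ (Module.finrank ℚ K) ≤ ∏ w : InfinitePlace K, w a ^ w.mult := by
    rw [← InfinitePlace.sum_mult_eq, ← Finset.prod_pow_eq_pow_sum]
    apply Finset.prod_le_prod (fun _ _ => pow_nonneg (inv_nonneg.2 hDpos.le) _)
    intro w _
    have hpos : 0 < w a := InfinitePlace.pos_iff.2 ha
    apply pow_le_pow_left₀ (inv_nonneg.2 hDpos.le)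
    rw [inv_le_comm₀ hDpos hpos]
    exact hinf w
  rw [hfin, hfin2] at hprod
  have hu : 0 < u a := FinitePlace.pos_iff.2 ha
  have h1 : D⁻¹ ^ (Module.finrank ℚ K) * (u a * D⁻¹ ^ S.card) ≤ 1 := by
    rw [← hprod]
    have e0 : 0 ≤ D⁻¹ ^ (Module.finrank ℚ K) := pow_nonneg (inv_nonneg.2 hDpos.le) _
    have e1 : 0 ≤ D⁻¹ ^ S.card := pow_nonneg (inv_nonneg.2 hDpos.le) _
    apply mul_le_mul hge2 _ (mul_nonneg hu.le e1) (e0.trans hge2)
    exact mul_le_mul_of_nonneg_left hge hu.le
  have h2 : D⁻¹ ^ (Module.finrank ℚ K) * (u a * D⁻¹ ^ S.card)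
      = u a / D ^ (S.card + Module.finrank ℚ K) := by
    rw [pow_add, inv_pow, inv_pow]
    field_simp
  rw [h2, div_le_one (pow_pos hDpos _)] at h1
  exact h1

/-- **Regularity at `u`**: for `n ≥ n₀` no `a ∈ Kˣ` (ratio of eigenvalues) has an invariant
`j = a + 2 + a⁻¹` with `|j|_u = q^n`, bounded by `C` at the finitely many places of `S` and at infinity,
and integral everywhere else. -/
theorem exists_regular_n0 (u : FinitePlace K) {q : ℝ} (hq : 1 < q) (S : Finset (FinitePlace K))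
    (C : ℝ) : ∃ n0 : ℕ, ∀ n ≥ n0, ∀ a : K, a ≠ 0 → u (a + 2 + a⁻¹) = q ^ n →
      (∀ w ∈ S, w ≠ u → w (a + 2 + a⁻¹) ≤ C) → (∀ w ∉ S, w ≠ u → w (a + 2 + a⁻¹) ≤ 1) →
      (∀ w : InfinitePlace K, w (a + 2 + a⁻¹) ≤ C) → False := by
  set D : ℝ := max 1 C + 3 with hDdef
  have hD : 1 ≤ D := by
    have := le_max_left 1 C
    rw [hDdef]; linarith
  obtain ⟨m, hm⟩ := pow_unbounded_of_one_lt (D ^ (S.card + Module.finrank ℚ K)) hq
  refine ⟨max m 1, ?_⟩
  -- one orientation
  have key : ∀ n ≥ max m 1, ∀ a : K, a ≠ 0 → u (a + 2 + a⁻¹) = q ^ n →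
      (∀ w ∈ S, w ≠ u → w (a + 2 + a⁻¹) ≤ C) → (∀ w ∉ S, w ≠ u → w (a + 2 + a⁻¹) ≤ 1) →
      (∀ w : InfinitePlace K, w (a + 2 + a⁻¹) ≤ C) → 1 < u a → False := by
    intro n hn a ha hu hS hout hinf h1
    have hua : u a = q ^ n := by
      rw [← hu]
      exact (abv_ratio_eq (finitePlace_isNonarch u) h1).symm
    have hb := product_bound u S hD ha (fun w hw hwu => ?_) (fun w hw hwu => ?_) (fun w => ?_)
    · rw [hua] at hb
      have : q ^ m ≤ q ^ n := pow_le_pow_right₀ hq.le ((le_max_left m 1).trans hn)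
      linarith
    · have := abv_ratio_inv_le (finitePlace_isNonarch w) ha
      refine this.trans ?_
      have h3 : max 1 (w.1 (a + 2 + a⁻¹)) ≤ max 1 C := max_le_max le_rfl (hS w hw hwu)
      rw [hDdef]
      linarith
    · exact abv_ratio_eq_one (finitePlace_isNonarch w) ha (hout w hw hwu)
    · have := abv_ratio_inv_le_add (infinitePlace_two w) (a := a)
      refine this.trans ?_
      have h3 : w.1 (a + 2 + a⁻¹) ≤ max 1 C := (hinf w).trans (le_max_right _ _)
      rw [hDdef]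
      linarith
  intro n hn a ha hu hS hout hinf
  have hn1 : n ≠ 0 := by
    have := (le_max_right m 1).trans hn
    omega
  have hbig : 1 < u (a + 2 + a⁻¹) := by
    rw [hu]
    exact one_lt_pow₀ hq hn1
  rcases lt_trichotomy (u a) 1 with h1 | h1 | h1
  · have e : ∀ x : K, x⁻¹ + 2 + x⁻¹⁻¹ = x + 2 + x⁻¹ := by
      intro x
      rw [inv_inv]
      ring
    refine key n hn a⁻¹ (inv_ne_zero ha) ?_ ?_ ?_ ?_ ?_
    · rw [e]; exact hu
    · simpa only [e] using hS
    · simpa only [e] using hout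
    · simpa only [e] using hinf
    · rw [map_inv₀]
      exact (one_lt_inv₀ (FinitePlace.pos_iff.2 ha)).2 h1
  · have h2 : u (a + 2 + a⁻¹) ≤ 1 := by
      refine (u.add_le _ _).trans (max_le ((u.add_le _ _).trans (max_le h1.le ?_)) ?_)
      · have h11 : u (1 + 1) ≤ max (u 1) (u 1) := u.add_le 1 1
        rw [max_self, map_one] at h11
        rwa [one_add_one_eq_two] at h11
      · rw [map_inv₀, h1, inv_one]
    linarith
  · exact key n hn a ha hu hS hout hinf h1

/-- The same for matrices: for `n ≥ n₀` every invertible matrix over `K` satisfying the local bounds is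
elliptic (no eigenvalue in `K`); in particular it is neither unipotent nor central. -/
theorem exists_elliptic_n0 (u : FinitePlace K) {q : ℝ} (hq : 1 < q) (S : Finset (FinitePlace K))
    (C : ℝ) : ∃ n0 : ℕ, ∀ n ≥ n0, ∀ g : Matrix (Fin 2) (Fin 2) K, g.det ≠ 0 →
      u (jinv g) = q ^ n → (∀ w ∈ S, w ≠ u → w (jinv g) ≤ C) →
      (∀ w ∉ S, w ≠ u → w (jinv g) ≤ 1) → (∀ w : InfinitePlace K, w (jinv g) ≤ C) →
      ∀ x : K, x ^ 2 - g.trace * x + g.det ≠ 0 := by
  obtain ⟨n0, hn0⟩ := exists_regular_n0 u hq S C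
  refine ⟨n0, fun n hn g hg hu hS hout hinf x hx => ?_⟩
  obtain ⟨a, ha, hj⟩ := exists_ratio_of_root hg hx
  rw [hj] at hu hS hout hinf
  exact hn0 n hn a ha hu hS hout hinf

end Product

end Fermat.Agent.LT
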