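import Mathlib
import Fermat.Agent.LT.Regular

/-!
# Regularity at an odd number of places (S47A, block B6)

The version of `exists_elliptic_n0` where the invariant `tr² / det` has absolute value `q ^ n` at an ODD number
of finite places (one place `u` of `K`, or the three places of `L` above it).
-/

set_option autoImplicit false

namespace Fermat.Agent.LT

open scoped BigOperators
open NumberField IsDedekindDomain HeightOneSpectrum WithZero WithZeroMulInt

section Product

variable {K : Type*} [Field K] [NumberField K]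

/-- The product formula argument for several places. -/
theorem product_bound' (T : Finset (FinitePlace K)) (S : Finset (FinitePlace K)) {D : ℝ} (hD : 1 ≤ D)
    {a : K} (ha : a ≠ 0) (hS : ∀ w ∈ S, w ∉ T → (w a)⁻¹ ≤ D)
    (hout : ∀ w ∉ S, w ∉ T → w a = 1) (hinf : ∀ w : InfinitePlace K, (w a)⁻¹ ≤ D) :
    ∏ u ∈ T, u a ≤ D ^ (S.card + Module.finrank ℚ K) := by
  classical
  have hDpos : 0 < D := lt_of_lt_of_le one_pos hD
  have hprod := prod_abs_eq_one ha
  have hfin : ∏ᶠ w : FinitePlace K, w a = ∏ w ∈ T ∪ (S \ T), w a := by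
    apply finprod_eq_prod_of_mulSupport_subset
    intro w hw
    rw [Function.mem_mulSupport] at hw
    rw [Finset.mem_coe, Finset.mem_union, Finset.mem_sdiff]
    by_cases hwu : w ∈ T
    · exact Or.inl hwu
    · by_cases hwS : w ∈ S
      · exact Or.inr ⟨hwS, hwu⟩
      · exact absurd (hout w hwS hwu) hw
  have hfin2 : ∏ w ∈ T ∪ (S \ T), w a = (∏ w ∈ T, w a) * ∏ w ∈ S \ T, w a :=
    Finset.prod_union Finset.disjoint_sdiff
  have hge : D⁻¹ ^ (S.card) ≤ ∏ w ∈ S \ T, w a := by
    calc D⁻¹ ^ (S.card) ≤ D⁻¹ ^ (S \ T).card := by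
          apply pow_le_pow_of_le_one (inv_nonneg.2 hDpos.le) (inv_le_one_of_one_le₀ hD)
          exact Finset.card_le_card Finset.sdiff_subset
      _ = ∏ w ∈ S \ T, D⁻¹ := by rw [Finset.prod_const]
      _ ≤ ∏ w ∈ S \ T, w a := by
          apply Finset.prod_le_prod (fun _ _ => inv_nonneg.2 hDpos.le)
          intro w hw
          rw [Finset.mem_sdiff] at hw
          have hpos : 0 < w a := FinitePlace.pos_iff.2 ha
          rw [inv_le_comm₀ hDpos hpos]
          exact hS w hw.1 hw.2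
  have hge2 : D⁻¹ ^ (Module.finrank ℚ K) ≤ ∏ w : InfinitePlace K, w a ^ w.mult := by
    rw [← InfinitePlace.sum_mult_eq, ← Finset.prod_pow_eq_pow_sum]
    apply Finset.prod_le_prod (fun _ _ => pow_nonneg (inv_nonneg.2 hDpos.le) _)
    intro w _
    have hpos : 0 < w a := InfinitePlace.pos_iff.2 ha
    apply pow_le_pow_left₀ (inv_nonneg.2 hDpos.le)
    rw [inv_le_comm₀ hDpos hpos]
    exact hinf w
  rw [hfin, hfin2] at hprod
  have hu : 0 < ∏ w ∈ T, w a := Finset.prod_pos fun w _ => FinitePlace.pos_iff.2 ha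
  have h1 : D⁻¹ ^ (Module.finrank ℚ K) * ((∏ w ∈ T, w a) * D⁻¹ ^ S.card) ≤ 1 := by
    rw [← hprod]
    have e0 : 0 ≤ D⁻¹ ^ (Module.finrank ℚ K) := pow_nonneg (inv_nonneg.2 hDpos.le) _
    have e1 : 0 ≤ D⁻¹ ^ S.card := pow_nonneg (inv_nonneg.2 hDpos.le) _
    apply mul_le_mul hge2 _ (mul_nonneg hu.le e1) (e0.trans hge2)
    exact mul_le_mul_of_nonneg_left hge hu.le
  have h2 : D⁻¹ ^ (Module.finrank ℚ K) * ((∏ w ∈ T, w a) * D⁻¹ ^ S.card)
      = (∏ w ∈ T, w a) / D ^ (S.card + Module.finrank ℚ K) := by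
    rw [pow_add, inv_pow, inv_pow]
    field_simp
  rw [h2, div_le_one (pow_pos hDpos _)] at h1
  exact h1

/-- **Regularity at an odd number of places.** -/
theorem exists_regular_n0_odd (T : Finset (FinitePlace K)) (hT : Odd T.card) {q : ℝ} (hq : 1 < q)
    (S : Finset (FinitePlace K)) (C : ℝ) : ∃ n0 : ℕ, ∀ n ≥ n0, ∀ a : K, a ≠ 0 →
      (∀ u ∈ T, u (a + 2 + a⁻¹) = q ^ n) →
      (∀ w ∈ S, w ∉ T → w (a + 2 + a⁻¹) ≤ C) → (∀ w ∉ S, w ∉ T → w (a + 2 + a⁻¹) ≤ 1) →
      (∀ w : InfinitePlace K, w (a + 2 + a⁻¹) ≤ C) → False := by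
  classical
  set D : ℝ := max 1 C + 3 with hDdef
  have hD : 1 ≤ D := by
    have := le_max_left 1 C
    rw [hDdef]; linarith
  obtain ⟨m, hm⟩ := pow_unbounded_of_one_lt (D ^ (S.card + Module.finrank ℚ K)) hq
  refine ⟨max m 1, ?_⟩
  -- the orientation with a majority of `u a = q ^ n`
  have key : ∀ n ≥ max m 1, ∀ a : K, a ≠ 0 → (∀ u ∈ T, u (a + 2 + a⁻¹) = q ^ n) →
      (∀ w ∈ S, w ∉ T → w (a + 2 + a⁻¹) ≤ C) → (∀ w ∉ S, w ∉ T → w (a + 2 + a⁻¹) ≤ 1) →
      (∀ w : InfinitePlace K, w (a + 2 + a⁻¹) ≤ C) →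
      (T.filter fun u => u a < 1).card < (T.filter fun u => ¬ u a < 1).card → False := by
    intro n hn a ha hu hS hout hinf hmaj
    have hn1 : n ≠ 0 := by
      have := (le_max_right m 1).trans hn
      omega
    have hqn : 1 < q ^ n := one_lt_pow₀ hq hn1
    have hval : ∀ u ∈ T, u a = if u a < 1 then (q ^ n)⁻¹ else q ^ n := by
      intro u hu'
      split_ifs with h1
      · have := abv_ratio_eq' (finitePlace_isNonarch u) ha h1
        have h2 : (u a)⁻¹ = q ^ n := by
          rw [← hu u hu']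
          exact this.symm
        rw [← h2, inv_inv]
      · rcases (not_lt.1 h1).lt_or_eq with h2 | h2
        · rw [← hu u hu']
          exact (abv_ratio_eq (finitePlace_isNonarch u) h2).symm
        · exfalso
          have h3 : u (a + 2 + a⁻¹) ≤ 1 := by
            refine (u.add_le _ _).trans (max_le ((u.add_le _ _).trans (max_le h2.symm.le ?_)) ?_)
            · have h11 : u (1 + 1) ≤ max (u 1) (u 1) := u.add_le 1 1
              rw [max_self, map_one] at h11
              rwa [one_add_one_eq_two] at h11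
            · rw [map_inv₀, ← h2, inv_one]
          rw [hu u hu'] at h3
          linarith
    have hprodT : q ^ n ≤ ∏ u ∈ T, u a := by
      rw [Finset.prod_congr rfl hval, Finset.prod_ite, Finset.prod_const, Finset.prod_const]
      obtain ⟨k, hk⟩ : ∃ k, (T.filter fun u => ¬ u a < 1).card
          = (T.filter fun u => u a < 1).card + (k + 1) :=
        ⟨(T.filter fun u => ¬ u a < 1).card - (T.filter fun u => u a < 1).card - 1, by omega⟩
      rw [hk, pow_add, ← mul_assoc, ← mul_pow, inv_mul_cancel₀ (by positivity), one_pow, one_mul,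
        pow_succ]
      exact le_mul_of_one_le_left (by positivity) (one_le_pow₀ hqn.le)
    have hb := product_bound' T S hD ha (fun w hw hwu => ?_) (fun w hw hwu => ?_) (fun w => ?_)
    · have : q ^ m ≤ q ^ n := pow_le_pow_right₀ hq.le ((le_max_left m 1).trans hn)
      linarith
    · have := abv_ratio_inv_le (finitePlace_isNonarch w) ha
      refine this.trans ?_
      have h3 : max 1 (w.1 (a + 2 + a⁻¹)) ≤ max 1 C := max_le_max le_rfl (hS w hw hwu)
      rw [hDdef]
      linarith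
    · exact abv_ratio_eq_one (finitePlace_isNonarch w) ha (hout w hw hwu)
    · have := abv_ratio_inv_le_add (infinitePlace_two w) (a := a)
      refine this.trans ?_
      have h3 : w.1 (a + 2 + a⁻¹) ≤ max 1 C := (hinf w).trans (le_max_right _ _)
      rw [hDdef]
      linarith
  intro n hn a ha hu hS hout hinf
  have hn1 : n ≠ 0 := by
    have := (le_max_right m 1).trans hn
    omega
  have hqn : 1 < q ^ n := one_lt_pow₀ hq hn1
  have hcard := Finset.card_filter_add_card_filter_not (s := T) (fun u => u a < 1)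
  rcases lt_trichotomy (T.filter fun u => u a < 1).card (T.filter fun u => ¬ u a < 1).card with
    h | h | h
  · exact key n hn a ha hu hS hout hinf h
  · rw [h, ← two_mul] at hcard
    rw [← hcard] at hT
    exact (Nat.not_odd_iff_even.2 (even_two_mul _)) hT
  · have e : ∀ x : K, x⁻¹ + 2 + x⁻¹⁻¹ = x + 2 + x⁻¹ := by
      intro x
      rw [inv_inv]
      ring
    have hne1 : ∀ u ∈ T, u a ≠ 1 := by
      intro u hu' h1
      have h3 : u (a + 2 + a⁻¹) ≤ 1 := by
        refine (u.add_le _ _).trans (max_le ((u.add_le _ _).trans (max_le h1.le ?_)) ?_)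
        · have h11 : u (1 + 1) ≤ max (u 1) (u 1) := u.add_le 1 1
          rw [max_self, map_one] at h11
          rwa [one_add_one_eq_two] at h11
        · rw [map_inv₀, h1, inv_one]
      rw [hu u hu'] at h3
      linarith
    have hiff : ∀ u ∈ T, (u a⁻¹ < 1 ↔ ¬ u a < 1) := by
      intro u hu'
      have hpos : 0 < u a := FinitePlace.pos_iff.2 ha
      rw [map_inv₀, inv_lt_one₀ hpos]
      constructor
      · exact fun h => not_lt.2 h.le
      · exact fun h => lt_of_le_of_ne (not_lt.1 h) (Ne.symm (hne1 u hu'))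
    refine key n hn a⁻¹ (inv_ne_zero ha) ?_ ?_ ?_ ?_ ?_
    · simpa only [e] using hu
    · simpa only [e] using hS
    · simpa only [e] using hout
    · simpa only [e] using hinf
    · have e1 : T.filter (fun u => u a⁻¹ < 1) = T.filter (fun u => ¬ u a < 1) :=
        Finset.filter_congr hiff
      have e2 : T.filter (fun u => ¬ u a⁻¹ < 1) = T.filter (fun u => u a < 1) :=
        Finset.filter_congr fun u hu' => by rw [hiff u hu', not_not]
      rw [e1, e2]
      exact h

/-- Matrices: `tr ≠ 0` and no eigenvalue in `K`. -/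
theorem exists_elliptic_n0_odd (T : Finset (FinitePlace K)) (hT : Odd T.card) {q : ℝ} (hq : 1 < q)
    (S : Finset (FinitePlace K)) (C : ℝ) : ∃ n0 : ℕ, ∀ n ≥ n0, ∀ g : Matrix (Fin 2) (Fin 2) K,
      g.det ≠ 0 → (∀ u ∈ T, u (jinv g) = q ^ n) → (∀ w ∈ S, w ∉ T → w (jinv g) ≤ C) →
      (∀ w ∉ S, w ∉ T → w (jinv g) ≤ 1) → (∀ w : InfinitePlace K, w (jinv g) ≤ C) →
      g.trace ≠ 0 ∧ ∀ x : K, x ^ 2 - g.trace * x + g.det ≠ 0 := by
  obtain ⟨n0, hn0⟩ := exists_regular_n0_odd T hT hq S C
  refine ⟨n0, fun n hn g hg hu hS hout hinf => ⟨?_, fun x hx => ?_⟩⟩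
  · intro htr
    obtain ⟨u, huT⟩ : T.Nonempty := by
      rw [← Finset.card_pos]
      exact hT.pos
    have := hu u huT
    rw [jinv, htr] at this
    have h0 : (0 : ℝ) < q ^ n := by positivity
    simp at this
    linarith
  · obtain ⟨a, ha, hj⟩ := exists_ratio_of_root hg hx
    rw [hj] at hu hS hout hinf
    exact hn0 n hn a ha hu hS hout hinf

open HeightOneSpectrum

/-- The absolute value of a finite place in terms of the valuation. -/
theorem finitePlace_mk_apply (v : HeightOneSpectrum (𝓞 K)) (x : K) :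
    FinitePlace.mk v x = toNNReal (absNorm_ne_zero v) (v.valuation K x) := by
  rw [FinitePlace.mk_apply, FinitePlace.norm_embedding']

theorem finitePlace_mk_le {v : HeightOneSpectrum (𝓞 K)} {x : K} {γ : ℤᵐ⁰}
    (h : v.valuation K x ≤ γ) : FinitePlace.mk v x ≤ toNNReal (absNorm_ne_zero v) γ := by
  rw [finitePlace_mk_apply]
  exact_mod_cast (toNNReal_strictMono (one_lt_absNorm_nnreal v)).monotone h

theorem toNNReal_exp (v : HeightOneSpectrum (𝓞 K)) (n : ℕ) :
    ((toNNReal (absNorm_ne_zero v) (exp (n : ℤ)) : NNReal) : ℝ)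
      = ((Ideal.absNorm v.asIdeal : ℕ) : ℝ) ^ n := by
  have h : (exp (n : ℤ) : ℤᵐ⁰) ≠ 0 := exp_ne_zero
  rw [toNNReal_neg_apply (absNorm_ne_zero v) h]
  have : (unzero h).toAdd = (n : ℤ) := rfl
  rw [this]
  simp

/-- **Valuation form**: odd set `T` of places of the same norm `q`, with `v_u (tr²/det) = exp n`, bounded at the
other places of `S` and at infinity, integral elsewhere. -/
theorem exists_elliptic_val (T : Finset (HeightOneSpectrum (𝓞 K))) (hT : Odd T.card) {q : ℕ}
    (hq : ∀ u ∈ T, Ideal.absNorm u.asIdeal = q) (S : Finset (HeightOneSpectrum (𝓞 K)))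
    (C : HeightOneSpectrum (𝓞 K) → ℤᵐ⁰) (R : ℝ) :
    ∃ n0 : ℕ, ∀ n ≥ n0, ∀ g : Matrix (Fin 2) (Fin 2) K, g.det ≠ 0 →
      (∀ u ∈ T, u.valuation K (jinv g) = exp (n : ℤ)) →
      (∀ v ∈ S, v ∉ T → v.valuation K (jinv g) ≤ C v) →
      (∀ v ∉ S, v ∉ T → v.valuation K (jinv g) ≤ 1) →
      (∀ w : InfinitePlace K, w (jinv g) ≤ R) →
      g.trace ≠ 0 ∧ ∀ x : K, x ^ 2 - g.trace * x + g.det ≠ 0 := by
  classical
  obtain ⟨u0, hu0⟩ : T.Nonempty := by
    rw [← Finset.card_pos]
    exact hT.pos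
  have hq1 : (1 : ℝ) < q := by
    rw [← hq u0 hu0]
    exact_mod_cast one_lt_absNorm u0
  have hinj : Function.Injective (FinitePlace.mk (K := K)) := by
    intro v v' h
    exact FinitePlace.mk_eq_iff.1 h
  set Cmax : ℝ := (∑ v ∈ S, ((toNNReal (absNorm_ne_zero v) (C v) : NNReal) : ℝ)) + |R| with hC
  have hCv : ∀ v ∈ S, ((toNNReal (absNorm_ne_zero v) (C v) : NNReal) : ℝ) ≤ Cmax := by
    intro v hv
    have h1 : ((toNNReal (absNorm_ne_zero v) (C v) : NNReal) : ℝ) ≤
        ∑ v ∈ S, ((toNNReal (absNorm_ne_zero v) (C v) : NNReal) : ℝ) :=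
      Finset.single_le_sum (f := fun v => ((toNNReal (absNorm_ne_zero v) (C v) : NNReal) : ℝ))
        (fun _ _ => NNReal.coe_nonneg _) hv
    have h2 := abs_nonneg R
    rw [hC]; linarith
  have hCR : R ≤ Cmax := by
    have h1 : 0 ≤ ∑ v ∈ S, ((toNNReal (absNorm_ne_zero v) (C v) : NNReal) : ℝ) :=
      Finset.sum_nonneg fun _ _ => NNReal.coe_nonneg _
    have h2 := le_abs_self R
    rw [hC]; linarith
  have hTc : Odd (T.image (FinitePlace.mk (K := K))).card := by
    rwa [Finset.card_image_of_injective _ hinj]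
  obtain ⟨n0, hn0⟩ := exists_elliptic_n0_odd (T.image (FinitePlace.mk (K := K))) hTc hq1
    (S.image (FinitePlace.mk (K := K))) Cmax
  have hmem : ∀ (X : Finset (HeightOneSpectrum (𝓞 K))) (v : HeightOneSpectrum (𝓞 K)),
      FinitePlace.mk v ∈ X.image (FinitePlace.mk (K := K)) ↔ v ∈ X := by
    intro X v
    rw [Finset.mem_image]
    constructor
    · rintro ⟨v', hv', h⟩
      rwa [← hinj h]
    · exact fun h => ⟨v, h, rfl⟩
  refine ⟨n0, fun n hn g hg hu hS hout hinf => hn0 n hn g hg ?_ ?_ ?_ ?_⟩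
  · intro w hw
    obtain ⟨u, huT, rfl⟩ := Finset.mem_image.1 hw
    rw [finitePlace_mk_apply, hu u huT, toNNReal_exp, hq u huT]
  · intro w hw hwT
    obtain ⟨v, hv, rfl⟩ := Finset.mem_image.1 hw
    rw [hmem] at hwT
    exact (finitePlace_mk_le (hS v hv hwT)).trans (hCv v hv)
  · intro w hw hwT
    obtain ⟨v, rfl⟩ : ∃ v, FinitePlace.mk v = w := ⟨w.maximalIdeal, FinitePlace.mk_maximalIdeal w⟩
    rw [hmem] at hw hwT
    have := finitePlace_mk_le (hout v hw hwT)
    simpa using this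
  · exact fun w => (hinf w).trans hCR

end Product

end Fermat.Agent.LT
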