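import Fermat.Agent.LT.RegOdd
import Fermat.Agent.LT.IwaCoset
import Fermat.Agent.LT.Space
import Fermat.Agent.LT.Level.Defs
import Fermat.Agent.LT.CosetMap

/-!
# Relative positions and the invariant `tr² / det` (S47A, block B6, regularity)

* `Pos.pos w d d'`: size of the relative position of two points of `GL₂(E)/(H E^×)`, `H ≤ GL₂(O)`;
  invariant, submultiplicative, bounds `w (jinv γ) ≤ pos d (γ d)`;
* `Pos.RV γ d d'`: relative position `I (t, 0; 0, 1) I` with `w t = γ`;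
* `cu_triangle`, `norm_jinv_le_of_cu` at the infinite places.
-/

set_option autoImplicit false

open Matrix NumberField IsDedekindDomain WithZero
open scoped WithZero

noncomputable section

namespace Fermat.Agent.LT.Pos

open Fermat.Agent.LT Fermat.Agent.LT.Lvl Fermat.Agent.LT.Iwa Fermat.Agent.LT.H3

/-! ### Infinite places -/

section Inf

open Complex

/-- The multiplicative triangle inequality. -/
theorem cu_triangle (P S Q : H3) : cu P Q ≤ 2 * (cu P S * cu S Q) := by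
  -- move `S` to `j`
  obtain ⟨g, hg⟩ : ∃ g : GL (Fin 2) ℂ, g • S = j := MulAction.exists_smul_eq _ S j
  rw [← cu_smul g P Q, ← cu_smul g P S, ← cu_smul g S Q, hg]
  generalize g • P = P
  generalize g • Q = Q
  have h1 := P.y_pos
  have h2 := Q.y_pos
  have h3 : normSq (P.z - Q.z) ≤ normSq P.z + normSq Q.z + 1 + normSq P.z * normSq Q.z := by
    have ha : ‖P.z - Q.z‖ ≤ ‖P.z‖ + ‖Q.z‖ := norm_sub_le _ _
    rw [normSq_eq_norm_sq, normSq_eq_norm_sq, normSq_eq_norm_sq]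
    nlinarith [norm_nonneg (P.z - Q.z), norm_nonneg P.z, norm_nonneg Q.z,
      sq_nonneg (‖P.z‖ * ‖Q.z‖ - 1)]
  unfold cu
  rw [z_j, y_j, sub_zero, zero_sub, normSq_neg]
  have h4 : 0 ≤ normSq P.z := normSq_nonneg _
  have h5 : 0 ≤ normSq Q.z := normSq_nonneg _
  have e : 2 * ((normSq P.z + P.y ^ 2 + 1 ^ 2) / (2 * P.y * 1) *
      ((normSq Q.z + 1 ^ 2 + Q.y ^ 2) / (2 * 1 * Q.y))) =
      ((normSq P.z + P.y ^ 2 + 1) * (normSq Q.z + 1 + Q.y ^ 2)) / (2 * P.y * Q.y) := by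
    field_simp
  rw [e]
  apply div_le_div_of_nonneg_right _ (by positivity)
  nlinarith [mul_nonneg h4 (sq_nonneg Q.y), mul_nonneg h5 (sq_nonneg P.y),
    mul_nonneg (sq_nonneg P.y) (sq_nonneg Q.y)]

theorem norm_jinv_le_of_cu {g : GL (Fin 2) ℂ} {P : H3} {R : ℝ} (h : cu P (g • P) ≤ R) :
    ‖jinv (g : Matrix (Fin 2) (Fin 2) ℂ)‖ ≤ 4 * R := by
  obtain ⟨t, rfl⟩ : ∃ t : GL (Fin 2) ℂ, t • j = P := MulAction.exists_smul_eq _ j P
  set h' : GL (Fin 2) ℂ := t⁻¹ * g * t with hh'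
  have e1 : jinv (g : Matrix (Fin 2) (Fin 2) ℂ) = jinv (h' : Matrix (Fin 2) (Fin 2) ℂ) :=
    (jinv_conj_units t g).symm
  have e2 : cu (h' • j) j ≤ R := by
    rw [← cu_smul t, hh', mul_smul, mul_smul, smul_inv_smul, cu_comm]
    exact h
  have e3 := sum_normSq_eq h'
  have hA := adet_pos h'
  have e4 : normSq (h' 0 0) + normSq (h' 0 1) + normSq (h' 1 0) + normSq (h' 1 1)
      ≤ 2 * adet h' * R := by
    rw [e3]
    exact mul_le_mul_of_nonneg_left e2 (by positivity)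
  have n01 := normSq_nonneg (h' 0 1)
  have n10 := normSq_nonneg (h' 1 0)
  rw [e1]
  unfold jinv
  rw [norm_div, norm_pow]
  show ‖(h' : Matrix (Fin 2) (Fin 2) ℂ).trace‖ ^ 2 / adet h' ≤ 4 * R
  rw [div_le_iff₀ hA, Matrix.trace_fin_two]
  have h5 : ‖h' 0 0 + h' 1 1‖ ≤ ‖h' 0 0‖ + ‖h' 1 1‖ := norm_add_le _ _
  rw [normSq_eq_norm_sq, normSq_eq_norm_sq, normSq_eq_norm_sq, normSq_eq_norm_sq] at e4
  rw [normSq_eq_norm_sq] at n01 n10
  have h6 : ‖h' 0 0 + h' 1 1‖ ^ 2 ≤ 2 * (‖h' 0 0‖ ^ 2 + ‖h' 1 1‖ ^ 2) := by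
    nlinarith [norm_nonneg (h' 0 0 + h' 1 1), norm_nonneg (h' 0 0), norm_nonneg (h' 1 1),
      sq_nonneg (‖h' 0 0‖ - ‖h' 1 1‖)]
  show ‖h' 0 0 + h' 1 1‖ ^ 2 ≤ _
  nlinarith

theorem place_jinv_le {F : Type*} [Field F] {x : Xi F} {g : GL (Fin 2) F} {w : InfinitePlace F}
    {R : ℝ} (h : cu (x w) ((g • x) w) ≤ R) :
    w (jinv (g : Matrix (Fin 2) (Fin 2) F)) ≤ 4 * R := by
  rw [Xi.smul_apply] at h
  have h1 := norm_jinv_le_of_cu h
  have h2 : jinv ((GeneralLinearGroup.map (n := Fin 2) w.embedding g : GL (Fin 2) ℂ) :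
      Matrix (Fin 2) (Fin 2) ℂ) = w.embedding (jinv (g : Matrix (Fin 2) (Fin 2) F)) :=
    jinv_map w.embedding (g : Matrix (Fin 2) (Fin 2) F)
  rw [h2, InfinitePlace.norm_embedding_eq] at h1
  exact h1

end Inf

/-! ### Finite places: the size of the relative position -/

section Fin

variable {E Γ : Type*} [Field E] [LinearOrderedCommGroupWithZero Γ] (w : Valuation E Γ)

/-- the maximum of the valuations of the entries -/
def mx (g : GL (Fin 2) E) : Γ := max (max (w (g 0 0)) (w (g 0 1))) (max (w (g 1 0)) (w (g 1 1)))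

variable {w}

theorem le_mx (g : GL (Fin 2) E) (i j : Fin 2) : w (g i j) ≤ mx w g := by
  unfold mx
  fin_cases i <;> fin_cases j
  · exact le_max_of_le_left (le_max_left _ _)
  · exact le_max_of_le_left (le_max_right _ _)
  · exact le_max_of_le_right (le_max_left _ _)
  · exact le_max_of_le_right (le_max_right _ _)

theorem mx_le_iff {g : GL (Fin 2) E} {γ : Γ} : mx w g ≤ γ ↔ ∀ i j, w (g i j) ≤ γ := by
  constructor
  · exact fun h i j => (le_mx g i j).trans h
  · intro h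
    exact max_le (max_le (h 0 0) (h 0 1)) (max_le (h 1 0) (h 1 1))

theorem mx_mul_le (g h : GL (Fin 2) E) : mx w (g * h) ≤ mx w g * mx w h := by
  rw [mx_le_iff]
  intro i j
  rw [Units.val_mul, Matrix.mul_apply, Fin.sum_univ_two]
  apply Valuation.map_add_le <;> rw [map_mul] <;> exact mul_le_mul' (le_mx _ _ _) (le_mx _ _ _)

theorem w_det_ne_zero (g : GL (Fin 2) E) : w (g : Matrix (Fin 2) (Fin 2) E).det ≠ 0 := by
  rw [Valuation.ne_zero_iff]
  exact (Matrix.GeneralLinearGroup.det g).ne_zero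

variable (w) in
/-- the size of a matrix modulo scalars -/
def nrm (g : GL (Fin 2) E) : Γ := mx w g ^ 2 / w (g : Matrix (Fin 2) (Fin 2) E).det

theorem nrm_mul_le (g h : GL (Fin 2) E) : nrm w (g * h) ≤ nrm w g * nrm w h := by
  unfold nrm
  rw [Units.val_mul, Matrix.det_mul, map_mul, div_mul_div_comm, ← mul_pow]
  exact div_le_div_of_nonneg_right (pow_le_pow_left' (mx_mul_le g h) 2) zero_le

theorem nrm_le_one {k : GL (Fin 2) E} (hk : k ∈ GLO w) : nrm w k ≤ 1 := by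
  unfold nrm
  have h1 : w (k : Matrix (Fin 2) (Fin 2) E).det = 1 := (mem_GLO.mp hk).2
  rw [h1, div_one]
  exact pow_le_one' (mx_le_iff.2 (mem_GLO.mp hk).1) 2

theorem nrm_mul_right {g k : GL (Fin 2) E} (hk : k ∈ GLO w) : nrm w (g * k) = nrm w g := by
  apply le_antisymm
  · exact (nrm_mul_le g k).trans (mul_le_of_le_one_right' (nrm_le_one hk))
  · calc nrm w g = nrm w (g * k * k⁻¹) := by rw [mul_inv_cancel_right]
      _ ≤ nrm w (g * k) * nrm w k⁻¹ := nrm_mul_le _ _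
      _ ≤ nrm w (g * k) := mul_le_of_le_one_right' (nrm_le_one (inv_mem hk))

theorem nrm_mul_left {g k : GL (Fin 2) E} (hk : k ∈ GLO w) : nrm w (k * g) = nrm w g := by
  apply le_antisymm
  · exact (nrm_mul_le k g).trans (mul_le_of_le_one_left' (nrm_le_one hk))
  · calc nrm w g = nrm w (k⁻¹ * (k * g)) := by rw [inv_mul_cancel_left]
      _ ≤ nrm w k⁻¹ * nrm w (k * g) := nrm_mul_le _ _
      _ ≤ nrm w (k * g) := mul_le_of_le_one_left' (nrm_le_one (inv_mem hk))

theorem nrm_scalar_mul (z : Eˣ) (g : GL (Fin 2) E) :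
    nrm w (GeneralLinearGroup.scalar (Fin 2) z * g) = nrm w g := by
  have hz : w (z : E) ≠ 0 := (Valuation.ne_zero_iff _).2 z.ne_zero
  have e : ∀ i j, (GeneralLinearGroup.scalar (Fin 2) z * g) i j = (z : E) * g i j := by
    intro i j
    rw [Units.val_mul, GeneralLinearGroup.coe_scalar]
    simp [Matrix.scalar_apply, Matrix.diagonal_mul]
  have e1 : mx w (GeneralLinearGroup.scalar (Fin 2) z * g) = w (z : E) * mx w g := by
    unfold mx
    rw [e, e, e, e, map_mul, map_mul, map_mul, map_mul]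
    have hmono : Monotone fun x : Γ => w (z : E) * x := fun a b h => mul_le_mul_right h _
    rw [hmono.map_max, hmono.map_max, hmono.map_max]
  have e2 : w ((GeneralLinearGroup.scalar (Fin 2) z * g : GL (Fin 2) E) :
      Matrix (Fin 2) (Fin 2) E).det = w (z : E) ^ 2 * w (g : Matrix (Fin 2) (Fin 2) E).det := by
    rw [Matrix.det_fin_two, e, e, e, e, Matrix.det_fin_two, ← map_pow, ← map_mul]
    congr 1
    ring
  unfold nrm
  rw [e1, e2, mul_pow, mul_div_mul_left _ _ (pow_ne_zero 2 hz)]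

theorem w_jinv_le (g : GL (Fin 2) E) : w (jinv (g : Matrix (Fin 2) (Fin 2) E)) ≤ nrm w g := by
  unfold jinv nrm
  rw [map_div₀, map_pow]
  refine div_le_div_of_nonneg_right (pow_le_pow_left' ?_ 2) zero_le
  rw [Matrix.trace_fin_two]
  exact Valuation.map_add_le _ (le_mx _ _ _) (le_mx _ _ _)

theorem one_le_nrm (g : GL (Fin 2) E) : 1 ≤ nrm w g := by
  have h1 : nrm w (1 : GL (Fin 2) E) = 1 := by
    unfold nrm mx
    simp
  have h2 : w (g : Matrix (Fin 2) (Fin 2) E).det ≤ mx w g * mx w g :=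
    val_det_le (fun i j => le_mx g i j)
  unfold nrm
  rw [one_le_div₀ (zero_lt_iff.2 (w_det_ne_zero g)), pow_two]
  exact h2

variable {H : Subgroup (GL (Fin 2) E)} (hH : H ≤ GLO w)

include hH in
theorem nrm_congr {g g' h h' : GL (Fin 2) E} (e : Cos.mk H g = Cos.mk H g')
    (e' : Cos.mk H h = Cos.mk H h') : nrm w (g⁻¹ * h) = nrm w (g'⁻¹ * h') := by
  obtain ⟨z, k, hk, rfl⟩ := Cos.mk_eq_iff.mp e
  obtain ⟨z', k', hk', rfl⟩ := Cos.mk_eq_iff.mp e'
  have e1 : (GeneralLinearGroup.scalar (Fin 2) z * (g * k))⁻¹ *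
      (GeneralLinearGroup.scalar (Fin 2) z' * (h * k')) =
      GeneralLinearGroup.scalar (Fin 2) (z⁻¹ * z') * (k⁻¹ * (g⁻¹ * h * k')) := by
    calc (GeneralLinearGroup.scalar (Fin 2) z * (g * k))⁻¹ *
          (GeneralLinearGroup.scalar (Fin 2) z' * (h * k'))
        = (k⁻¹ * g⁻¹) * ((GeneralLinearGroup.scalar (Fin 2) z)⁻¹ *
          GeneralLinearGroup.scalar (Fin 2) z') * (h * k') := by group
      _ = (k⁻¹ * g⁻¹) * GeneralLinearGroup.scalar (Fin 2) (z⁻¹ * z') * (h * k') := by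
          rw [map_mul, map_inv]
      _ = GeneralLinearGroup.scalar (Fin 2) (z⁻¹ * z') * (k⁻¹ * g⁻¹) * (h * k') := by
          rw [scalar_mul_comm (z⁻¹ * z') (k⁻¹ * g⁻¹)]
      _ = _ := by group
  rw [e1, nrm_scalar_mul, nrm_mul_left (inv_mem (hH hk)), nrm_mul_right (hH hk')]

variable (w) in
open Classical in
/-- **The size of the relative position** (for any `H ≤ GL₂(O)`). -/
def pos (d d' : Cos H) : Γ := nrm w ((Quotient.out d)⁻¹ * Quotient.out d')

include hH in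
theorem pos_mk (g h : GL (Fin 2) E) : pos w (Cos.mk H g) (Cos.mk H h) = nrm w (g⁻¹ * h) := by
  unfold pos
  exact nrm_congr hH (Quotient.out_eq _) (Quotient.out_eq _)

include hH in
theorem pos_smul (g : GL (Fin 2) E) (d d' : Cos H) : pos w (g • d) (g • d') = pos w d d' := by
  obtain ⟨x, rfl⟩ := Cos.mk_surjective d
  obtain ⟨y, rfl⟩ := Cos.mk_surjective d'
  rw [Cos.smul_mk, Cos.smul_mk, pos_mk hH, pos_mk hH]
  congr 1
  group

include hH in
theorem pos_triangle (d d' d'' : Cos H) : pos w d d'' ≤ pos w d d' * pos w d' d'' := by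
  obtain ⟨x, rfl⟩ := Cos.mk_surjective d
  obtain ⟨y, rfl⟩ := Cos.mk_surjective d'
  obtain ⟨z, rfl⟩ := Cos.mk_surjective d''
  rw [pos_mk hH, pos_mk hH, pos_mk hH]
  refine le_trans (le_of_eq ?_) (nrm_mul_le _ _)
  congr 1
  group

include hH in
theorem pos_self (d : Cos H) : pos w d d = 1 := by
  obtain ⟨x, rfl⟩ := Cos.mk_surjective d
  rw [pos_mk hH, inv_mul_cancel]
  apply le_antisymm (nrm_le_one (one_mem _)) (one_le_nrm _)

include hH in
theorem one_le_pos (d d' : Cos H) : 1 ≤ pos w d d' := by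
  obtain ⟨x, rfl⟩ := Cos.mk_surjective d
  obtain ⟨y, rfl⟩ := Cos.mk_surjective d'
  rw [pos_mk hH]
  exact one_le_nrm _

include hH in
theorem w_jinv_le_pos (γ : GL (Fin 2) E) (d : Cos H) :
    w (jinv (γ : Matrix (Fin 2) (Fin 2) E)) ≤ pos w d (γ • d) := by
  obtain ⟨x, rfl⟩ := Cos.mk_surjective d
  rw [Cos.smul_mk, pos_mk hH, ← jinv_conj_units x γ, ← mul_assoc]
  exact w_jinv_le _

include hH in
/-- A row-finite invariant relation has bounded size. -/
theorem exists_pos_le {r : Cos H → Cos H → Prop}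
    (hinv : ∀ (g : GL (Fin 2) E) d d', r d d' → r (g • d) (g • d'))
    (hfin : {d' | r (Cos.mk H 1) d'}.Finite) : ∃ C : Γ, ∀ d d', r d d' → pos w d d' ≤ C := by
  obtain ⟨C, hC⟩ := (hfin.image fun d' => pos w (Cos.mk H 1) d').bddAbove
  refine ⟨C, fun d d' h => ?_⟩
  obtain ⟨x, rfl⟩ := Cos.mk_surjective d
  have h1 := hinv x⁻¹ _ _ h
  rw [Cos.smul_mk, inv_mul_cancel] at h1
  have h2 := hC ⟨_, h1, rfl⟩
  have h3 := pos_smul (w := w) hH x⁻¹ (Cos.mk H x) d'
  rw [Cos.smul_mk, inv_mul_cancel] at h3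
  rw [← h3]
  exact h2

end Fin

/-! ### Iwahori position -/

section Iwahori

variable {E Γ : Type*} [Field E] [LinearOrderedCommGroupWithZero Γ] {w : Valuation E Γ}
  {H : Subgroup (GL (Fin 2) E)}

variable (w) in
/-- relative position `I (t, 0; 0, 1) I` with `w t = γ`. -/
def RV (γ : Γ) (d d' : Cos H) : Prop :=
  ∃ (g : GL (Fin 2) E) (t : Eˣ) (b : E), w (t : E) = γ ∧ w b ≤ 1 ∧ d = Cos.mk H g ∧
    d' = Cos.mk H (g * bor t b)

theorem RV.smul {γ : Γ} {d d' : Cos H} (h : RV w γ d d') (g : GL (Fin 2) E) :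
    RV w γ (g • d) (g • d') := by
  obtain ⟨x, t, b, ht, hb, rfl, rfl⟩ := h
  exact ⟨g * x, t, b, ht, hb, rfl, by rw [Cos.smul_mk, mul_assoc]⟩

theorem RV.jinv (hH : H ≤ Iw w) {γ : Γ} (hγ : γ < 1) {d : Cos H} {x : GL (Fin 2) E}
    (h : RV w γ d (x • d)) : w (jinv (x : Matrix (Fin 2) (Fin 2) E)) = γ⁻¹ := by
  obtain ⟨g, t, b, ht, hb, rfl, e⟩ := h
  rw [Cos.smul_mk] at e
  obtain ⟨z, k, hk, e2⟩ := Cos.mk_eq_iff.mp e.symm
  -- `x g = z (g (t, b; 0, 1) k)`
  have e3 : g⁻¹ * x * g = GeneralLinearGroup.scalar (Fin 2) z * (bor t b * k) := by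
    rw [mul_assoc, e2, ← mul_assoc, ← scalar_mul_comm, mul_assoc]
    congr 1
    group
  rw [← jinv_conj_units g x, e3]
  have e4 : ((GeneralLinearGroup.scalar (Fin 2) z * (bor t b * k) : GL (Fin 2) E) :
      Matrix (Fin 2) (Fin 2) E) = (z : E) • ((!![1, b; 0, 1] * Matrix.diagonal ![(t : E), 1]) *
        (k : Matrix (Fin 2) (Fin 2) E)) := by
    have e5 : (!![(t : E), b; 0, 1] : Matrix (Fin 2) (Fin 2) E) =
        !![1, b; 0, 1] * Matrix.diagonal ![(t : E), 1] := by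
      ext i j
      fin_cases i <;> fin_cases j <;> simp [Matrix.mul_apply, Fin.sum_univ_two]
    rw [Units.val_mul, Units.val_mul, GeneralLinearGroup.coe_scalar, coe_bor, e5]
    ext i j
    simp [Matrix.scalar_apply, Matrix.diagonal_mul]
  rw [e4, jinv_smul z.ne_zero]
  have hu : IsIwahori w (!![1, b; 0, 1] : Matrix (Fin 2) (Fin 2) E) :=
    ⟨by simp, by simp, by simpa using hb, by simp⟩
  have := hu.v_jinv (mem_Iw.mp (hH hk)) (t := (t : E)) (by rw [ht]; exact hγ)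
  rw [this, ht]

theorem rv_of_reach (𝔡 : Datum w) {n : ℕ} {d d' : Cos (Iw w)} (h : 𝔡.Reach n d d') :
    RV w (w 𝔡.ϖ ^ n) d d' := by
  obtain ⟨g, b, hb, rfl, rfl⟩ := h
  refine ⟨g, Units.mk0 (𝔡.ϖ ^ n) (pow_ne_zero _ 𝔡.ϖ_ne), b, by simp, hb, rfl, ?_⟩
  congr 2
  ext i j
  fin_cases i <;> fin_cases j <;> simp [Datum.nt]

end Iwahori

/-! ### Transport along isometries -/

section Transport

variable {E Γ E' : Type*} [Field E] [Field E'] [LinearOrderedCommGroupWithZero Γ]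
  {w : Valuation E Γ} {w' : Valuation E' Γ} (f : E →+* E') (hf : ∀ x, w' (f x) = w x)

include hf in
theorem nrm_map (g : GL (Fin 2) E) : nrm w' (GeneralLinearGroup.map f g) = nrm w g := by
  have e : ∀ i j, (GeneralLinearGroup.map f g) i j = f (g i j) := fun _ _ => rfl
  have e2 : w' ((GeneralLinearGroup.map f g : GL (Fin 2) E') : Matrix (Fin 2) (Fin 2) E').det =
      w (g : Matrix (Fin 2) (Fin 2) E).det := by
    rw [Matrix.det_fin_two, Matrix.det_fin_two, e, e, e, e, ← map_mul, ← map_mul, ← map_sub, hf]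
  unfold nrm mx
  rw [e2, e, e, e, e, hf, hf, hf, hf]

variable {H : Subgroup (GL (Fin 2) E)} {H' : Subgroup (GL (Fin 2) E')}

include hf in
theorem pos_cosetMap (hH : H ≤ GLO w) (hH' : H' ≤ GLO w')
    (h : H ⊔ Subgroup.center _ ≤ (H' ⊔ Subgroup.center _).comap (GeneralLinearGroup.map f))
    (d d' : Cos H) : pos w' (cosetMap (GeneralLinearGroup.map f) h d : Cos H')
      (cosetMap (GeneralLinearGroup.map f) h d') = pos w d d' := by
  obtain ⟨x, rfl⟩ := Cos.mk_surjective d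
  obtain ⟨y, rfl⟩ := Cos.mk_surjective d'
  rw [pos_mk hH, ← nrm_map f hf, map_mul, map_inv]
  exact pos_mk hH' _ _

include hf in
theorem RV.map_coset {γ : Γ} {d d' : Cos H} (hr : RV w γ d d')
    (h : H ⊔ Subgroup.center _ ≤ (H' ⊔ Subgroup.center _).comap (GeneralLinearGroup.map f)) :
    RV w' γ (cosetMap (GeneralLinearGroup.map f) h d : Cos H')
      (cosetMap (GeneralLinearGroup.map f) h d') := by
  obtain ⟨x, t, b, ht, hb, rfl, rfl⟩ := hr
  refine ⟨GeneralLinearGroup.map f x, Units.map (f : E →* E') t, f b, ?_, ?_, rfl, ?_⟩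
  · show w' (f t) = γ
    rw [hf, ht]
  · rw [hf]; exact hb
  · rw [← map_bor, ← map_mul]
    rfl

end Transport

end Fermat.Agent.LT.Pos
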