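import Mathlib

set_option autoImplicit false

/-!
# Riemann sums over a lattice

Comparison of the sum of a function over the orbit of a countable group with its integral, with a
first order error.  Only the modulus of continuity of the function is used (no Fourier analysis).
-/

open MeasureTheory Set Metric
open scoped Pointwise

namespace Fermat.Agent.LT

section Abstract

variable {G α V : Type*} [AddGroup G] [AddAction G α] [MeasurableSpace α] {μ : Measure α}
  [Countable G] [MeasurableConstVAdd G α] [VAddInvariantMeasure G α μ] {s : Set α}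
  [NormedAddCommGroup V] [NormedSpace ℝ V]

theorem hasSum_integral_vadd (h : IsAddFundamentalDomain G s μ) {f : α → V}
    (hf : Integrable f μ) :
    HasSum (fun g : G => ∫ x in s, f (g +ᵥ x) ∂μ) (∫ x, f x ∂μ) := by
  have h1 : HasSum (fun g : G => ∫ x in g +ᵥ s, f x ∂μ) (∫ x, f x ∂μ) := by
    have h2 := h.sum_restrict
    have h3 : Integrable f (Measure.sum fun g : G => μ.restrict (g +ᵥ s)) := by rwa [h2]
    have h4 := hasSum_integral_measure h3
    rwa [h2] at h4
  have h5 := (Equiv.neg G).hasSum_iff.2 h1
  have h6 : ((fun g : G => ∫ x in g +ᵥ s, f x ∂μ) ∘ (Equiv.neg G)) =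
      fun g : G => ∫ x in s, f (-g +ᵥ x) ∂μ := by
    funext g
    exact (measurePreserving_vadd (-g) μ).setIntegral_image_emb
      (measurableEmbedding_const_vadd _) _ _
  rw [h6] at h5
  have h7 := (Equiv.neg G).hasSum_iff.2 h5
  simpa [Function.comp_def] using h7

/-- **Riemann sum error, abstract form.** -/
theorem norm_smul_tsum_sub_integral_le [CompleteSpace V] (h : IsAddFundamentalDomain G s μ)
    (hs : μ s ≠ ⊤) (hsm : MeasurableSet s)
    {f : α → V} (hf : Integrable f μ) (x₀ : α) {B : Set α} (hB : MeasurableSet B)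
    (hBf : μ B ≠ ⊤) {c : ℝ} (hsum : Summable fun g : G => f (g +ᵥ x₀))
    (hc : ∀ (g : G), ∀ u ∈ s, ‖f (g +ᵥ x₀) - f (g +ᵥ u)‖ ≤ B.indicator (fun _ => c) (g +ᵥ u)) :
    ‖μ.real s • ∑' g : G, f (g +ᵥ x₀) - ∫ x, f x ∂μ‖ ≤ c * μ.real B := by
  have hB' : Integrable (B.indicator fun _ : α => c) μ := by
    rw [integrable_indicator_iff hB]
    exact integrableOn_const hBf
  have h1 := hasSum_integral_vadd h hf
  have h2 := hasSum_integral_vadd h hB'
  have hfi : ∀ g : G, IntegrableOn (fun x => f (g +ᵥ x)) s μ := fun g =>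
    (((measurePreserving_vadd g μ).integrable_comp_emb
      (measurableEmbedding_const_vadd g)).2 hf).integrableOn
  have hBi : ∀ g : G, IntegrableOn (fun x => B.indicator (fun _ => c) (g +ᵥ x)) s μ := fun g =>
    (((measurePreserving_vadd g μ).integrable_comp_emb
      (measurableEmbedding_const_vadd g)).2 hB').integrableOn
  have h3 : HasSum (fun g : G => μ.real s • f (g +ᵥ x₀)) (μ.real s • ∑' g : G, f (g +ᵥ x₀)) :=
    hsum.hasSum.const_smul _
  have h4 := h3.sub h1
  have h5 : ∀ g : G, ‖μ.real s • f (g +ᵥ x₀) - ∫ x in s, f (g +ᵥ x) ∂μ‖ ≤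
      ∫ x in s, B.indicator (fun _ => c) (g +ᵥ x) ∂μ := by
    intro g
    have e1 : μ.real s • f (g +ᵥ x₀) = ∫ x in s, f (g +ᵥ x₀) ∂μ := by
      rw [setIntegral_const]
    have e2 : IntegrableOn (fun _ : α => f (g +ᵥ x₀)) s μ :=
      integrableOn_const hs enorm_ne_top
    rw [e1, ← integral_sub e2 (hfi g)]
    refine norm_integral_le_of_norm_le (hBi g) ?_
    exact (ae_restrict_iff' hsm).2 (Filter.Eventually.of_forall fun u hu => hc g u hu)
  have h6 : ∫ x, B.indicator (fun _ => c) x ∂μ = c * μ.real B := by
    rw [integral_indicator_const _ hB, smul_eq_mul, mul_comm]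
  rw [← h6, ← h4.tsum_eq, ← h2.tsum_eq]
  exact (norm_tsum_le_tsum_norm (Summable.of_nonneg_of_le (fun _ => norm_nonneg _) h5
    h2.summable)).trans (Summable.tsum_le_tsum h5
      (Summable.of_nonneg_of_le (fun _ => norm_nonneg _) h5 h2.summable) h2.summable)

end Abstract

section Lattice

variable {E V : Type*} [NormedAddCommGroup E] [NormedSpace ℝ E] [MeasurableSpace E] [BorelSpace E]
  [FiniteDimensional ℝ E] [NormedAddCommGroup V] [NormedSpace ℝ V] [CompleteSpace V]

/-- **Riemann sums over a lattice.**  `f` is Lipschitz with constant `K`, supported in the ball of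
radius `R`; the fundamental parallelepiped of the lattice is contained in the ball of radius `δ`. -/
theorem norm_covolume_smul_tsum_sub_integral_le (L : Submodule ℤ E) [DiscreteTopology L]
    [IsZLattice ℝ L] (μ : Measure E) [μ.IsAddHaarMeasure] {ι : Type*} [Finite ι]
    (b : Module.Basis ι ℤ L) {δ : ℝ}
    (hδ : ∀ u ∈ ZSpan.fundamentalDomain (b.ofZLatticeBasis ℝ), ‖u‖ ≤ δ)
    {f : E → V} {K : ℝ} (hK0 : 0 ≤ K) (hK : ∀ x y, ‖f x - f y‖ ≤ K * ‖x - y‖) {c₀ : E} {R : ℝ}
    (hR : ∀ x, f x ≠ 0 → ‖x - c₀‖ ≤ R) :
    ‖ZLattice.covolume L μ • ∑' ξ : L, f ξ - ∫ x, f x ∂μ‖ ≤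
      K * δ * μ.real (closedBall c₀ (R + δ)) := by
  have : MeasurableVAdd L E := (inferInstance : MeasurableVAdd L.toAddSubgroup E)
  have : VAddInvariantMeasure L E μ := (inferInstance : VAddInvariantMeasure L.toAddSubgroup E μ)
  have : ProperSpace E := FiniteDimensional.proper ℝ E
  set s := ZSpan.fundamentalDomain (b.ofZLatticeBasis ℝ) with hs
  have h := ZLattice.isAddFundamentalDomain b μ
  have hbd : Bornology.IsBounded s := ZSpan.fundamentalDomain_isBounded _
  have hsm : MeasurableSet s := ZSpan.fundamentalDomain_measurableSet _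
  have hs0 : μ s ≠ ⊤ := hbd.measure_lt_top.ne
  have hcont : Continuous f := by
    refine LipschitzWith.continuous (K := ⟨K, hK0⟩) ?_
    refine LipschitzWith.of_dist_le_mul fun x y => ?_
    rw [dist_eq_norm, dist_eq_norm]
    exact hK x y
  have hsupp : HasCompactSupport f := by
    refine HasCompactSupport.intro (isCompact_closedBall c₀ R) fun x hx => ?_
    by_contra h1
    exact hx (by rw [mem_closedBall, dist_eq_norm]; exact hR x h1)
  have hfi : Integrable f μ := hcont.integrable_of_hasCompactSupport hsupp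
  have hfin : (Function.support fun ξ : L => f ((ξ : E) + 0)).Finite := by
    have h1 : ((closedBall c₀ R) ∩ (L : Set E)).Finite := by
      have : DiscreteTopology L.toAddSubgroup := (inferInstance : DiscreteTopology L)
      exact Metric.finite_isBounded_inter_isClosed
        (DiscreteTopology.isDiscrete (s := (L.toAddSubgroup : Set E))) isBounded_closedBall
        (AddSubgroup.isClosed_of_discrete (H := L.toAddSubgroup))
    refine Set.Finite.of_finite_image (f := ((↑) : L → E)) (h1.subset ?_)
      Subtype.val_injective.injOn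
    rintro _ ⟨ξ, hξ, rfl⟩
    refine ⟨?_, ξ.2⟩
    rw [mem_closedBall, dist_eq_norm]
    refine hR _ ?_
    simpa using hξ
  have key := norm_smul_tsum_sub_integral_le (G := L) (s := s) h hs0 hsm hfi (0 : E)
    (B := closedBall c₀ (R + δ)) measurableSet_closedBall
    isBounded_closedBall.measure_lt_top.ne (c := K * δ)
    (summable_of_hasFiniteSupport hfin) ?_
  · rw [ZLattice.covolume_eq_measure_fundamentalDomain L μ h]
    have e1 : ∀ g : L, g +ᵥ (0 : E) = g := fun g => add_zero _
    simpa [e1, ← hs] using key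
  · intro g u hu
    have hδu := hδ u hu
    have hδ0 : 0 ≤ δ := (norm_nonneg u).trans hδu
    change ‖f ((g : E) + 0) - f ((g : E) + u)‖ ≤ _
    rw [add_zero]
    by_cases hB : (g : E) + u ∈ closedBall c₀ (R + δ)
    · have hB' : g +ᵥ u ∈ closedBall c₀ (R + δ) := hB
      rw [indicator_of_mem hB']
      refine (hK _ _).trans ?_
      have : (g : E) - (g + u) = -u := by abel
      rw [this, norm_neg]
      exact mul_le_mul_of_nonneg_left hδu hK0
    · have hB' : g +ᵥ u ∉ closedBall c₀ (R + δ) := hB
      rw [indicator_of_notMem hB']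
      rw [mem_closedBall, dist_eq_norm, not_le] at hB
      have h1 : f ((g : E) + u) = 0 := by
        by_contra h2
        have := hR _ h2
        linarith
      have h2 : f (g : E) = 0 := by
        by_contra h3
        have h4 := hR _ h3
        have h5 : (g : E) + u - c₀ = (g - c₀) + u := by abel
        rw [h5] at hB
        have := norm_add_le ((g : E) - c₀) u
        linarith
      rw [h1, h2, sub_zero, norm_zero]

end Lattice

end Fermat.Agent.LT
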