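import Fermat.Agent.LT.Tau

/-!
# `GL₂(K_v) → GL₂(L_w)` and coset spaces; split places
-/

set_option autoImplicit false

open IsDedekindDomain NumberField
open scoped WithZero Topology Pointwise

namespace Fermat.Agent.LT.Ext

section Base

variable {K L : Type*} [Field K] [Field L] [NumberField K] [NumberField L] [Algebra K L]
  (v : HeightOneSpectrum (𝓞 K)) (w w' : HeightOneSpectrum (𝓞 L)) [w.asIdeal.LiesOver v.asIdeal]
  [w'.asIdeal.LiesOver v.asIdeal]

/-- `GL₂(K_v) → GL₂(L_w)` -/
noncomputable def glBase : GL (Fin 2) (v.adicCompletion K) →* GL (Fin 2) (w.adicCompletion L) :=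
  Matrix.GeneralLinearGroup.map (compat_liesOver (K := K) (L := L) v w).ext

@[simp] theorem glBase_apply (x : GL (Fin 2) (v.adicCompletion K)) (i j : Fin 2) :
    glBase v w x i j = (compat_liesOver (K := K) (L := L) v w).ext (x i j) := rfl

theorem glBase_injective : Function.Injective (glBase (K := K) (L := L) v w) := by
  intro x y h
  refine Units.ext (Matrix.ext fun i j => (compat_liesOver (K := K) (L := L) v w).injective_ext ?_)
  rw [← glBase_apply, ← glBase_apply, h]

theorem glBase_map (γ : GL (Fin 2) K) :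
    glBase v w (Matrix.GeneralLinearGroup.map (algebraMap K (v.adicCompletion K)) γ) =
      Matrix.GeneralLinearGroup.map (algebraMap L (w.adicCompletion L))
        (Matrix.GeneralLinearGroup.map (algebraMap K L) γ) := by
  refine Units.ext (Matrix.ext fun i j => ?_)
  exact (compat_liesOver (K := K) (L := L) v w).ext_algebraMap (γ i j)

variable {G : Type*} [Group G] [Finite G] [MulSemiringAction G L] [IsGaloisGroup G K L]

variable {w w'} in
theorem glExt_glBase {g : G} (h : g • w = w') (x : GL (Fin 2) (v.adicCompletion K)) :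
    glExt h (glBase v w x) = glBase v w' x := by
  refine Units.ext (Matrix.ext fun i j => ?_)
  exact ext_smul_comp (L := L) g (⟨w, inferInstance⟩ : Above L v) ⟨w', inferInstance⟩ h (x i j)

theorem glBase_bijective (hw : MulAction.stabilizer G w = ⊥) :
    Function.Bijective (glBase (K := K) (L := L) v w) := by
  refine ⟨glBase_injective v w, fun y => ?_⟩
  obtain ⟨hi, hs⟩ := bijective_ext_of_stabilizer (K := K) v w G hw
  let e : v.adicCompletion K ≃+* w.adicCompletion L := RingEquiv.ofBijective _ ⟨hi, hs⟩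
  refine ⟨Matrix.GeneralLinearGroup.map (e.symm : w.adicCompletion L →+* v.adicCompletion K) y, ?_⟩
  refine Units.ext (Matrix.ext fun i j => ?_)
  exact e.apply_symm_apply (y i j)

/-- The fixed points of the decomposition group in `GL₂(L_w)` are `GL₂(K_v)`. -/
theorem exists_glBase_of_fixed (y : GL (Fin 2) (w.adicCompletion L))
    (hy : ∀ σ : MulAction.stabilizer G w, glExt σ.2 y = y) : ∃ x, glBase v w x = y := by
  have h1 : ∀ (z : GL (Fin 2) (w.adicCompletion L))
      (hz : ∀ σ : MulAction.stabilizer G w, glExt σ.2 z = z) (i j : Fin 2),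
      ∃ a, (compat_liesOver (K := K) (L := L) v w).ext a = z i j := fun z hz i j =>
    mem_range_of_fixed v w G (z i j) fun σ =>
      (glExt_apply σ.2 z i j).symm.trans (by rw [hz σ])
  have hy' : ∀ σ : MulAction.stabilizer G w, glExt σ.2 y⁻¹ = y⁻¹ := fun σ => by
    rw [map_inv, hy]
  choose a ha using h1 y hy
  choose b hb using h1 y⁻¹ hy'
  have hab : (Matrix.of a) * (Matrix.of b) = (1 : Matrix (Fin 2) (Fin 2) (v.adicCompletion K)) := by
    refine Matrix.ext fun i j => (compat_liesOver (K := K) (L := L) v w).injective_ext ?_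
    have h2 : (y : Matrix (Fin 2) (Fin 2) (w.adicCompletion L)) *
      ((y⁻¹ : GL (Fin 2) (w.adicCompletion L)) : Matrix _ _ _) = 1 := by
      rw [← Units.val_mul, mul_inv_cancel, Units.val_one]
    have h3 := congrFun (congrFun h2 i) j
    rw [Matrix.mul_apply] at h3 ⊢
    rw [map_sum]
    refine (Finset.sum_congr rfl fun k _ => ?_).trans (h3.trans ?_)
    · rw [map_mul, Matrix.of_apply, Matrix.of_apply, ha, hb]
    · rw [Matrix.one_apply, Matrix.one_apply]
      split_ifs <;> simp
  have hba : (Matrix.of b) * (Matrix.of a) = (1 : Matrix (Fin 2) (Fin 2) (v.adicCompletion K)) :=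
    mul_eq_one_comm.mp hab
  exact ⟨⟨Matrix.of a, Matrix.of b, hab, hba⟩, Units.ext (Matrix.ext fun i j => ha i j)⟩

end Base

section DvBase

variable {K L : Type*} [Field K] [Field L] [NumberField K] [NumberField L] [Algebra K L]
  {v : HeightOneSpectrum (𝓞 K)} {w w' : HeightOneSpectrum (𝓞 L)} [w.asIdeal.LiesOver v.asIdeal]
  [w'.asIdeal.LiesOver v.asIdeal]
  {UK : Subgroup (GL (Fin 2) (v.adicCompletion K))}
  {UL : Subgroup (GL (Fin 2) (w.adicCompletion L))}
  {UL' : Subgroup (GL (Fin 2) (w'.adicCompletion L))}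

theorem sup_center_le_comap_base (h : UK ≤ UL.comap (glBase v w)) :
    UK ⊔ Subgroup.center _ ≤ (UL ⊔ Subgroup.center _).comap (glBase v w) :=
  sup_le (h.trans (Subgroup.comap_mono le_sup_left))
    ((Matrix.GeneralLinearGroup.map_center_le _).trans (Subgroup.comap_mono le_sup_right))

/-- `GL₂(K_v) / U_v Z → GL₂(L_w) / U_w Z` -/
noncomputable def dvBase (h : UK ≤ UL.comap (glBase v w)) :
    GL (Fin 2) (v.adicCompletion K) ⧸ (UK ⊔ Subgroup.center _) →
      GL (Fin 2) (w.adicCompletion L) ⧸ (UL ⊔ Subgroup.center _) :=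
  cosetMap (glBase v w) (sup_center_le_comap_base h)

theorem dvBase_mk (h : UK ≤ UL.comap (glBase v w)) (x : GL (Fin 2) (v.adicCompletion K)) :
    dvBase h (x : GL (Fin 2) (v.adicCompletion K) ⧸ (UK ⊔ Subgroup.center _)) =
      ((glBase v w x : GL (Fin 2) (w.adicCompletion L)) :
        GL (Fin 2) (w.adicCompletion L) ⧸ (UL ⊔ Subgroup.center _)) := rfl

theorem dvBase_smul (h : UK ≤ UL.comap (glBase v w)) (γ : GL (Fin 2) (v.adicCompletion K))
    (x : GL (Fin 2) (v.adicCompletion K) ⧸ (UK ⊔ Subgroup.center _)) :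
    dvBase h (γ • x) = glBase v w γ • dvBase h x :=
  cosetMap_smul _ _ _ _

theorem dvBase_one (h : UK ≤ UL.comap (glBase v w)) :
    dvBase h ((1 : GL (Fin 2) (v.adicCompletion K)) :
      GL (Fin 2) (v.adicCompletion K) ⧸ (UK ⊔ Subgroup.center _)) =
      ((1 : GL (Fin 2) (w.adicCompletion L)) :
        GL (Fin 2) (w.adicCompletion L) ⧸ (UL ⊔ Subgroup.center _)) :=
  cosetMap_one _ _

end DvBase

end Fermat.Agent.LT.Ext
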