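import Fermat.Agent.LT.TauBase

/-!
# Split places: `∏_{w ∣ v} GL₂(L_w)/U_w = (GL₂(K_v)/U_v)^G`
-/

set_option autoImplicit false

open IsDedekindDomain NumberField
open scoped WithZero Topology Pointwise

namespace Fermat.Agent.LT.Ext

section Above

variable {K L : Type*} [Field K] [Field L] [NumberField K] [NumberField L] [Algebra K L]
  {v : HeightOneSpectrum (𝓞 K)}
  {G : Type*} [Group G] [Finite G] [MulSemiringAction G L] [IsGaloisGroup G K L]

theorem stabilizer_above_eq_bot {w₀ : Above L v} (hw : MulAction.stabilizer G w₀.1 = ⊥)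
    (w : Above L v) : MulAction.stabilizer G w.1 = ⊥ := by
  obtain ⟨g, hg⟩ := exists_smul_above (K := K) (G := G) w₀ w
  rw [eq_bot_iff]
  intro h hh
  rw [MulAction.mem_stabilizer_iff] at hh
  have h1 : g⁻¹ * h * g ∈ MulAction.stabilizer G w₀.1 := by
    rw [MulAction.mem_stabilizer_iff, mul_smul, mul_smul, hg, hh, ← hg, inv_smul_smul]
  rw [hw, Subgroup.mem_bot] at h1
  rw [Subgroup.mem_bot]
  have h2 : h = g * (g⁻¹ * h * g) * g⁻¹ := by group
  rw [h2, h1]
  group

/-- `g ↦ g w₀` -/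
noncomputable def aboveEquiv {w₀ : Above L v} (hw : MulAction.stabilizer G w₀.1 = ⊥) :
    G ≃ Above L v :=
  Equiv.ofBijective (fun g : G => g • w₀) ⟨fun g h e => by
    have h1 : h⁻¹ * g ∈ MulAction.stabilizer G w₀.1 := by
      rw [MulAction.mem_stabilizer_iff, mul_smul]
      have e' : g • w₀.1 = h • w₀.1 := congrArg Subtype.val e
      rw [e', inv_smul_smul]
    rw [hw, Subgroup.mem_bot, inv_mul_eq_one] at h1
    exact h1.symm, fun w => by
    obtain ⟨g, hg⟩ := exists_smul_above (K := K) (G := G) w₀ w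
    exact ⟨g, Subtype.ext hg⟩⟩

@[simp] theorem aboveEquiv_apply {w₀ : Above L v} (hw : MulAction.stabilizer G w₀.1 = ⊥) (g : G) :
    aboveEquiv hw g = g • w₀ := rfl

@[simp] theorem aboveEquiv_symm_smul {w₀ : Above L v} (hw : MulAction.stabilizer G w₀.1 = ⊥)
    (g : G) : (aboveEquiv hw).symm (g • w₀) = g :=
  (aboveEquiv hw).symm_apply_apply g

end Above

section Split

variable {K L : Type*} [Field K] [Field L] [NumberField K] [NumberField L] [Algebra K L]
  {v : HeightOneSpectrum (𝓞 K)}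
  {G : Type*} [Group G] [Finite G] [MulSemiringAction G L] [IsGaloisGroup G K L]
  {U : ∀ w : HeightOneSpectrum (𝓞 L), Subgroup (GL (Fin 2) (w.adicCompletion L))}
  {UK : Subgroup (GL (Fin 2) (v.adicCompletion K))}

variable (U) in
/-- the local coset space at `w` -/
abbrev Dv (w : HeightOneSpectrum (𝓞 L)) : Type _ :=
  GL (Fin 2) (w.adicCompletion L) ⧸ (U w ⊔ Subgroup.center _)

/-- `GL₂(K_v) ≃ GL₂(L_w)` at a split place. -/
noncomputable def glBaseEquiv (w : Above L v) (hw : MulAction.stabilizer G w.1 = ⊥) :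
    GL (Fin 2) (v.adicCompletion K) ≃* GL (Fin 2) (w.1.adicCompletion L) :=
  MulEquiv.ofBijective (glBase v w.1) (glBase_bijective v w.1 hw)

@[simp] theorem glBaseEquiv_apply (w : Above L v) (hw : MulAction.stabilizer G w.1 = ⊥)
    (x : GL (Fin 2) (v.adicCompletion K)) : glBaseEquiv w hw x = glBase v w.1 x := rfl

/-- The levels at the places over `v` are the images of the level at `v`. -/
def BaseLevel (UK : Subgroup (GL (Fin 2) (v.adicCompletion K)))
    (U : ∀ w : HeightOneSpectrum (𝓞 L), Subgroup (GL (Fin 2) (w.adicCompletion L))) : Prop :=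
  ∀ w : Above L v, (U w.1).comap (glBase v w.1) = UK

theorem baseLevel_of_stable (hU : GStable G U) (w₀ : Above L v)
    (h : (U w₀.1).comap (glBase v w₀.1) = UK) : BaseLevel UK U := by
  intro w
  obtain ⟨g, hg⟩ := exists_smul_above (K := K) (G := G) w₀ w
  ext x
  rw [← h, Subgroup.mem_comap, Subgroup.mem_comap, ← glExt_glBase v hg x]
  exact ⟨fun hx => hU.comap_le hg hx, fun hx => hU g _ _ hg hx⟩

theorem BaseLevel.le (hB : BaseLevel UK U) (w : Above L v) : UK ≤ (U w.1).comap (glBase v w.1) :=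
  (hB w).ge

/-- `Dv(K) v ≃ Dv(L) w` at a split place. -/
noncomputable def dvBaseEquiv (hB : BaseLevel UK U) (w : Above L v)
    (hw : MulAction.stabilizer G w.1 = ⊥) :
    (GL (Fin 2) (v.adicCompletion K) ⧸ (UK ⊔ Subgroup.center _)) ≃ Dv U w.1 :=
  Equiv.ofBijective (dvBase (hB.le w)) ⟨by
    refine cosetMap_injective _ _ ?_
    intro x hx
    rw [Subgroup.mem_comap] at hx
    have h1 : glBaseEquiv w hw x ∈ U w.1 ⊔ Subgroup.center _ := hx
    rw [← SetLike.mem_coe, Subgroup.mul_normal (U w.1) (Subgroup.center _)] at h1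
    obtain ⟨u, hu, z, hz, h2⟩ := h1
    have h3 : x = (glBaseEquiv w hw).symm u * (glBaseEquiv w hw).symm z := by
      rw [← map_mul]
      exact ((glBaseEquiv w hw).symm_apply_eq.mpr h2).symm
    rw [h3]
    refine mul_mem (Subgroup.mem_sup_left ?_) (Subgroup.mem_sup_right ?_)
    · rw [← hB w, Subgroup.mem_comap, ← glBaseEquiv_apply w hw, MulEquiv.apply_symm_apply]
      exact hu
    · rw [Subgroup.mem_center_iff]
      intro y
      apply (glBaseEquiv w hw).injective
      rw [map_mul, map_mul, MulEquiv.apply_symm_apply]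
      exact Subgroup.mem_center_iff.mp hz _,
    cosetMap_surjective _ _ (glBase_bijective v w.1 hw).2⟩

@[simp] theorem dvBaseEquiv_apply (hB : BaseLevel UK U) (w : Above L v)
    (hw : MulAction.stabilizer G w.1 = ⊥)
    (x : GL (Fin 2) (v.adicCompletion K) ⧸ (UK ⊔ Subgroup.center _)) :
    dvBaseEquiv hB w hw x = dvBase (hB.le w) x := rfl

theorem dvMap_dvBase (hU : GStable G U) (hB : BaseLevel UK U) {w w' : Above L v} {g : G}
    (h : g • w.1 = w'.1) (x : GL (Fin 2) (v.adicCompletion K) ⧸ (UK ⊔ Subgroup.center _)) :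
    dvMap hU h (dvBase (hB.le w) x) = dvBase (hB.le w') x := by
  induction x using QuotientGroup.induction_on with
  | H x => rw [dvBase_mk, dvMap_mk, glExt_glBase, dvBase_mk]

/-- The action of `G` on `∏_{w ∣ v} Dv w`. -/
noncomputable def vAct (hU : GStable G U) (g : G) (d : ∀ w : Above L v, Dv U w.1) :
    ∀ w : Above L v, Dv U w.1 :=
  fun w => dvMap hU (inv_smul_above g w) (d (g⁻¹ • w))

theorem vAct_apply_smul (hU : GStable G U) (g : G) (d : ∀ w : Above L v, Dv U w.1)
    {w w' : Above L v} (h : g • w.1 = w'.1) : vAct hU g d w' = dvMap hU h (d w) := by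
  have h1 : g⁻¹ • w' = w := by
    apply Subtype.ext
    rw [coe_smul_above, ← h, inv_smul_smul]
  subst h1
  rfl

variable (U) in
/-- The diagonal action of `GL₂(L)` on `∏_{w ∣ v} Dv w`. -/
noncomputable def vGl (γ : GL (Fin 2) L) (d : ∀ w : Above L v, Dv U w.1) :
    ∀ w : Above L v, Dv U w.1 :=
  fun w => Matrix.GeneralLinearGroup.map (algebraMap L (w.1.adicCompletion L)) γ • d w

/-- The components of a matrix over `L` at a split place `v`. -/
noncomputable def comp {w₀ : Above L v} (hw : MulAction.stabilizer G w₀.1 = ⊥) (g : G) :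
    GL (Fin 2) L →* GL (Fin 2) (v.adicCompletion K) :=
  (glBaseEquiv (g • w₀) (stabilizer_above_eq_bot hw _)).symm.toMonoidHom.comp
    (Matrix.GeneralLinearGroup.map (algebraMap L ((g • w₀).1.adicCompletion L)))

theorem glBase_comp {w₀ : Above L v} (hw : MulAction.stabilizer G w₀.1 = ⊥) (g : G)
    (γ : GL (Fin 2) L) : glBase v (g • w₀).1 (comp hw g γ) =
      Matrix.GeneralLinearGroup.map (algebraMap L ((g • w₀).1.adicCompletion L)) γ :=
  (glBaseEquiv (g • w₀) (stabilizer_above_eq_bot hw _)).apply_symm_apply _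

/-- `comp_g (h γ) = comp_(h⁻¹ g) γ` -/
theorem comp_smul {w₀ : Above L v} (hw : MulAction.stabilizer G w₀.1 = ⊥) (g h : G)
    (γ : GL (Fin 2) L) :
    comp hw g (Matrix.GeneralLinearGroup.map (MulSemiringAction.toRingHom G L h) γ) =
      comp hw (h⁻¹ * g) γ := by
  apply glBase_injective v (g • w₀).1
  have h1 : h • ((h⁻¹ * g) • w₀).1 = (g • w₀).1 := by
    rw [coe_smul_above, coe_smul_above, ← mul_smul, mul_inv_cancel_left]
  rw [glBase_comp, ← glExt_glBase v h1, glBase_comp, glExt_map]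

/-- A matrix over `K` has constant components. -/
theorem comp_base {w₀ : Above L v} (hw : MulAction.stabilizer G w₀.1 = ⊥) (g : G)
    (γ : GL (Fin 2) K) :
    comp hw g (Matrix.GeneralLinearGroup.map (algebraMap K L) γ) =
      Matrix.GeneralLinearGroup.map (algebraMap K (v.adicCompletion K)) γ := by
  apply glBase_injective v (g • w₀).1
  rw [glBase_comp, glBase_map]

/-- **The coset space at a split place** is `(GL₂(K_v)/U_v Z)^G`. -/
noncomputable def splitEquiv (hB : BaseLevel UK U) {w₀ : Above L v}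
    (hw : MulAction.stabilizer G w₀.1 = ⊥) :
    (∀ w : Above L v, Dv U w.1) ≃
      (G → GL (Fin 2) (v.adicCompletion K) ⧸ (UK ⊔ Subgroup.center _)) where
  toFun d g := (dvBaseEquiv hB (g • w₀) (stabilizer_above_eq_bot hw _)).symm (d (g • w₀))
  invFun x w := dvBase (hB.le w) (x ((aboveEquiv hw).symm w))
  left_inv d := by
    funext w
    obtain ⟨g, rfl⟩ := (aboveEquiv hw).surjective w
    change dvBase (hB.le (g • w₀)) ((dvBaseEquiv hB ((aboveEquiv hw).symm (g • w₀) • w₀)
      (stabilizer_above_eq_bot hw _)).symm (d ((aboveEquiv hw).symm (g • w₀) • w₀))) = d (g • w₀)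
    rw [aboveEquiv_symm_smul, ← dvBaseEquiv_apply hB (g • w₀) (stabilizer_above_eq_bot hw _),
      Equiv.apply_symm_apply]
  right_inv x := by
    funext g
    change (dvBaseEquiv hB (g • w₀) (stabilizer_above_eq_bot hw _)).symm
      (dvBase (hB.le (g • w₀)) (x ((aboveEquiv hw).symm (g • w₀)))) = x g
    rw [aboveEquiv_symm_smul, ← dvBaseEquiv_apply hB (g • w₀) (stabilizer_above_eq_bot hw _),
      Equiv.symm_apply_apply]

theorem dvBase_splitEquiv (hB : BaseLevel UK U) {w₀ : Above L v}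
    (hw : MulAction.stabilizer G w₀.1 = ⊥) (d : ∀ w : Above L v, Dv U w.1) (g : G) :
    dvBase (hB.le (g • w₀)) (splitEquiv hB hw d g) = d (g • w₀) := by
  rw [← dvBaseEquiv_apply hB (g • w₀) (stabilizer_above_eq_bot hw _)]
  exact Equiv.apply_symm_apply _ _

theorem dvBase_inj (hB : BaseLevel UK U) (w : Above L v) (hw : MulAction.stabilizer G w.1 = ⊥)
    {x y : GL (Fin 2) (v.adicCompletion K) ⧸ (UK ⊔ Subgroup.center _)}
    (h : dvBase (hB.le w) x = dvBase (hB.le w) y) : x = y :=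
  (dvBaseEquiv hB w hw).injective h

/-- `G` acts by permutation of the components. -/
theorem splitEquiv_vAct (hU : GStable G U) (hB : BaseLevel UK U) {w₀ : Above L v}
    (hw : MulAction.stabilizer G w₀.1 = ⊥) (h g : G) (d : ∀ w : Above L v, Dv U w.1) :
    splitEquiv hB hw (vAct hU h d) g = splitEquiv hB hw d (h⁻¹ * g) := by
  apply dvBase_inj hB (g • w₀) (stabilizer_above_eq_bot hw _)
  have h1 : h • ((h⁻¹ * g) • w₀).1 = (g • w₀).1 := by
    rw [coe_smul_above, coe_smul_above, ← mul_smul, mul_inv_cancel_left]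
  rw [dvBase_splitEquiv, vAct_apply_smul hU h d h1, ← dvMap_dvBase hU hB h1, dvBase_splitEquiv]

/-- `GL₂(L)` acts through the components. -/
theorem splitEquiv_vGl (hB : BaseLevel UK U) {w₀ : Above L v}
    (hw : MulAction.stabilizer G w₀.1 = ⊥) (γ : GL (Fin 2) L) (g : G)
    (d : ∀ w : Above L v, Dv U w.1) :
    splitEquiv hB hw (vGl U γ d) g = comp hw g γ • splitEquiv hB hw d g := by
  apply dvBase_inj hB (g • w₀) (stabilizer_above_eq_bot hw _)
  rw [dvBase_splitEquiv, dvBase_smul, dvBase_splitEquiv, glBase_comp]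
  rfl

/-- The base point. -/
theorem splitEquiv_one (hB : BaseLevel UK U) {w₀ : Above L v}
    (hw : MulAction.stabilizer G w₀.1 = ⊥) (g : G) :
    splitEquiv hB hw (fun w => ((1 : GL (Fin 2) (w.1.adicCompletion L)) : Dv U w.1)) g =
      ((1 : GL (Fin 2) (v.adicCompletion K)) :
        GL (Fin 2) (v.adicCompletion K) ⧸ (UK ⊔ Subgroup.center _)) := by
  apply dvBase_inj hB (g • w₀) (stabilizer_above_eq_bot hw _)
  rw [dvBase_splitEquiv, dvBase_one]

end Split

section Three

variable {G : Type*} [Group G]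

/-- `G = {1, τ, τ²}` has order three. -/
structure IsThree (τ : G) : Prop where
  ne_one : τ ≠ 1
  cube : τ * τ * τ = 1
  all : ∀ g : G, g = 1 ∨ g = τ ∨ g = τ * τ

theorem IsThree.inv {τ : G} (h : IsThree τ) : τ⁻¹ = τ * τ := by
  rw [inv_eq_iff_mul_eq_one, ← mul_assoc, h.cube]

theorem IsThree.inv_mul_inv {τ : G} (h : IsThree τ) : τ⁻¹ * τ⁻¹ = τ := by
  have h1 : τ * τ * (τ * τ) = τ := by
    rw [← mul_assoc, h.cube, one_mul]
  rw [h.inv, h1]

theorem IsThree.cases {τ : G} (h : IsThree τ) (g : G) : g = 1 ∨ g = τ⁻¹ ∨ g = τ⁻¹ * τ⁻¹ := by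
  rw [h.inv_mul_inv, h.inv]
  rcases h.all g with h | h | h
  · exact Or.inl h
  · exact Or.inr (Or.inr h)
  · exact Or.inr (Or.inl h)

theorem IsThree.inv_ne_one {τ : G} (h : IsThree τ) : τ⁻¹ ≠ 1 := fun h' => h.ne_one (inv_eq_one.mp h')

theorem IsThree.inv_ne_self {τ : G} (h : IsThree τ) : τ ≠ τ⁻¹ := fun h' => h.ne_one (by
  have h1 := h.inv_mul_inv
  rw [← h'] at h1
  exact mul_eq_left.mp h1)

open Classical in
/-- `X^G = X³` -/
noncomputable def IsThree.equiv {τ : G} (h : IsThree τ) (X : Type*) : (G → X) ≃ X × X × X where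
  toFun x := (x 1, x τ⁻¹, x (τ⁻¹ * τ⁻¹))
  invFun y g := if g = 1 then y.1 else if g = τ⁻¹ then y.2.1 else y.2.2
  left_inv x := by
    funext g
    rcases h.cases g with rfl | rfl | rfl
    · simp
    · simp [h.ne_one]
    · rw [h.inv_mul_inv]
      simp [h.ne_one, h.inv_ne_self]
  right_inv y := by
    obtain ⟨a, b, c⟩ := y
    simp only [Prod.mk.injEq]
    refine ⟨by simp, by simp [h.ne_one], ?_⟩
    rw [h.inv_mul_inv]
    simp [h.ne_one, h.inv_ne_self]

@[simp] theorem IsThree.equiv_apply {τ : G} (h : IsThree τ) (X : Type*) (x : G → X) :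
    h.equiv X x = (x 1, x τ⁻¹, x (τ⁻¹ * τ⁻¹)) := rfl

variable {K L : Type*} [Field K] [Field L] [NumberField K] [NumberField L] [Algebra K L]
  {v : HeightOneSpectrum (𝓞 K)} [Finite G] [MulSemiringAction G L] [IsGaloisGroup G K L]
  {U : ∀ w : HeightOneSpectrum (𝓞 L), Subgroup (GL (Fin 2) (w.adicCompletion L))}
  {UK : Subgroup (GL (Fin 2) (v.adicCompletion K))}

/-- **A cubic extension at a split place**: the coset space over `v` is `X³`. -/
noncomputable def splitThree {τ : G} (h : IsThree τ) (hB : BaseLevel UK U) {w₀ : Above L v}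
    (hw : MulAction.stabilizer G w₀.1 = ⊥) :
    (∀ w : Above L v, Dv U w.1) ≃
      (GL (Fin 2) (v.adicCompletion K) ⧸ (UK ⊔ Subgroup.center _)) ×
      (GL (Fin 2) (v.adicCompletion K) ⧸ (UK ⊔ Subgroup.center _)) ×
      (GL (Fin 2) (v.adicCompletion K) ⧸ (UK ⊔ Subgroup.center _)) :=
  (splitEquiv hB hw).trans (h.equiv _)

/-- `τ (x₁, x₂, x₃) = (x₂, x₃, x₁)` -/
theorem splitThree_vAct {τ : G} (h : IsThree τ) (hU : GStable G U) (hB : BaseLevel UK U)
    {w₀ : Above L v} (hw : MulAction.stabilizer G w₀.1 = ⊥) (d : ∀ w : Above L v, Dv U w.1) :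
    splitThree h hB hw (vAct hU τ d) =
      ((splitThree h hB hw d).2.1, (splitThree h hB hw d).2.2, (splitThree h hB hw d).1) := by
  simp only [splitThree, Equiv.trans_apply, IsThree.equiv_apply, splitEquiv_vAct, mul_one]
  rw [h.inv_mul_inv, inv_mul_cancel]

/-- `γ (x₁, x₂, x₃) = (γ₁ x₁, γ₂ x₂, γ₃ x₃)` -/
theorem splitThree_vGl {τ : G} (h : IsThree τ) (hB : BaseLevel UK U) {w₀ : Above L v}
    (hw : MulAction.stabilizer G w₀.1 = ⊥) (γ : GL (Fin 2) L) (d : ∀ w : Above L v, Dv U w.1) :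
    splitThree h hB hw (vGl U γ d) =
      (comp hw 1 γ • (splitThree h hB hw d).1, comp hw τ⁻¹ γ • (splitThree h hB hw d).2.1,
        comp hw (τ⁻¹ * τ⁻¹) γ • (splitThree h hB hw d).2.2) := by
  simp only [splitThree, Equiv.trans_apply, IsThree.equiv_apply, splitEquiv_vGl]

/-- The base point. -/
theorem splitThree_one {τ : G} (h : IsThree τ) (hB : BaseLevel UK U) {w₀ : Above L v}
    (hw : MulAction.stabilizer G w₀.1 = ⊥) :
    splitThree h hB hw (fun w => ((1 : GL (Fin 2) (w.1.adicCompletion L)) : Dv U w.1)) =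
      (((1 : GL (Fin 2) (v.adicCompletion K)) : GL (Fin 2) (v.adicCompletion K) ⧸
          (UK ⊔ Subgroup.center _)),
        ((1 : GL (Fin 2) (v.adicCompletion K)) : GL (Fin 2) (v.adicCompletion K) ⧸
          (UK ⊔ Subgroup.center _)),
        ((1 : GL (Fin 2) (v.adicCompletion K)) : GL (Fin 2) (v.adicCompletion K) ⧸
          (UK ⊔ Subgroup.center _))) := by
  simp only [splitThree, Equiv.trans_apply, IsThree.equiv_apply, splitEquiv_one]

/-- `(N δ)₁ = δ₁ δ₂ δ₃` for `N δ = δ τδ τ²δ`. -/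
theorem comp_norm {τ : G} {w₀ : Above L v} (hw : MulAction.stabilizer G w₀.1 = ⊥)
    (δ : GL (Fin 2) L) :
    comp hw 1 (δ * Matrix.GeneralLinearGroup.map (MulSemiringAction.toRingHom G L τ) δ *
      Matrix.GeneralLinearGroup.map (MulSemiringAction.toRingHom G L τ)
        (Matrix.GeneralLinearGroup.map (MulSemiringAction.toRingHom G L τ) δ)) =
      comp hw 1 δ * comp hw τ⁻¹ δ * comp hw (τ⁻¹ * τ⁻¹) δ := by
  rw [map_mul, map_mul, comp_smul, comp_smul, comp_smul, mul_one]

end Three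

end Fermat.Agent.LT.Ext
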