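import Fermat.Agent.LT.Steps
import Fermat.Agent.LT.End.Final

/-!
# The top of the proof of S47

`S47_of_steps`: the conclusion of S47 from exactly one hypothesis per block.
-/

set_option autoImplicit false

open AutomorphicForm FLT.ExplicitLift EisensteinWeightOne WeierstrassCurve LanglandsTunnell
open scoped MatrixGroups
local notation "Γℚ" => (AlgebraicClosure ℚ ≃ₐ[ℚ] AlgebraicClosure ℚ)

namespace Fermat.Agent.LT

open NumberField IsDedekindDomain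

theorem bad_mono {F : Type*} [Field F] [NumberField F] {N N' : ℕ} (h : N ∣ N') :
    bad F N ⊆ bad F N' := by
  intro v hv
  obtain ⟨k, rfl⟩ := h
  show ((N * k : ℕ) : 𝓞 F) ∈ v.asIdeal
  rw [Nat.cast_mul]
  exact v.asIdeal.mul_mem_right _ hv

theorem exists_sqrt_neg_three {K : Type} [Field K] [NumberField K] {ζ : K}
    (hζ : IsPrimitiveRoot ζ 3) : ∃ s : 𝓞 K, s ^ 2 = -3 := by
  have hint : IsIntegral ℤ ζ := hζ.isIntegral (by norm_num)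
  have h : ζ ^ 2 + ζ + 1 = 0 := by
    have h3 : ζ ^ 3 = 1 := hζ.pow_eq_one
    have h1 : ζ ≠ 1 := hζ.ne_one (by norm_num)
    have h2 : (ζ - 1) * (ζ ^ 2 + ζ + 1) = 0 := by linear_combination h3
    exact (mul_eq_zero.mp h2).resolve_left (sub_ne_zero.mpr h1)
  obtain ⟨z, hz⟩ : ∃ z : 𝓞 K, algebraMap (𝓞 K) K z = ζ := ⟨⟨ζ, hint⟩, rfl⟩
  have h1 : z ^ 2 + z + 1 = 0 := by
    apply FaithfulSMul.algebraMap_injective (𝓞 K) K
    rw [map_add, map_add, map_pow, map_one, map_zero, hz, h]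
  exact ⟨1 + 2 * z, by linear_combination 4 * h1⟩

/-- (A) + (B). -/
theorem kInput_of_steps {ρ : Γℚ →* GL (Fin 2) (ZMod 3)} (hT : StepT ρ) (hA : StepA ρ)
    (hA' : StepA' ρ) (hB : StepB ρ) (hK : StepK) (hS : StepS ρ) : KInput ρ := by
  obtain ⟨T, N, x, hN, hT⟩ := hT
  obtain ⟨N₁, m, Φ, hN₁, hΦ⟩ := hA T N x (hT N dvd_rfl hN)
  have hT₁ := hT N₁ hN₁ hΦ.N_ne
  obtain ⟨U, f, hf⟩ := hA' T N₁ m x Φ hT₁ hΦ
  obtain ⟨N₂, a, U', g, hN₂, hN₂', hg, hag⟩ := hB T N₁ x U f hT₁ hf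
  obtain ⟨s, hs⟩ := exists_sqrt_neg_three T.hζ
  obtain ⟨w⟩ : Nonempty (InfinitePlace T.K) := inferInstance
  obtain ⟨N₃, F, hN₃, hF⟩ := hK T.K w s T.finrank_K hs N₂ hN₂' a U' g hg
  refine ⟨T.K, T.fK, T.nK, w.embedding, s, N₃, F, ?_⟩
  exact hS T N₃ x (hT N₃ ((hN₁.trans hN₂).trans hN₃) F.N_ne) w.embedding s F a
    (fun w hw h1 => hag w (fun h => hw (bad_mono hN₃ h)) h1) hF

/-- **S47 from exactly one hypothesis per block.** -/
theorem S47_of_steps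
    (ρ : Γℚ →* GL (Fin 2) (ZMod 3)) (hρ : Continuous ρ) (hsurj : Function.Surjective ρ)
    (hdet : ∀ σ : Γℚ, Matrix.GeneralLinearGroup.det (ρ σ) = modThreeCyclotomicChar σ)
    (Ψ : GL (Fin 2) (ZMod 3) →* GL (Fin 2) (ℤ√(-2)))
    (hΨ : ∀ g, Matrix.GeneralLinearGroup.map red (Ψ g) = g)
    (hT : StepT ρ) (hA : StepA ρ) (hA' : StepA' ρ) (hB : StepB ρ) (hK : StepK) (hS : StepS ρ)
    (hC : StepC ρ) (hD : StepD ρ) :
    ∃ (N : ℕ) (_ : NeZero N) (b : ℕ → ℤ√(-2)),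
      FormalHecke.IsEigensystem
        (fun ℓ => if ℓ ∣ N then 0 else ((chiNegThree ℓ : ℤ) : ℤ√(-2))) b ∧
      CuspForm.IsWeightOneChiNegThreeRealized N b ∧
      ∀ p : ℕ, p.Prime → ¬ p ∣ 3 * N →
        ∀ A : ValuationSubring (AlgebraicClosure ℚ), A.LiesOverPrime p →
          ∀ σ : Γℚ, A.IsFrobeniusAt σ p →
            b p = ((Ψ (ρ σ) : GL (Fin 2) (ℤ√(-2))) : Matrix (Fin 2) (Fin 2) (ℤ√(-2))).trace := by
  obtain ⟨K, _, _, σ, s, N, F, hF⟩ := kInput_of_steps hT hA hA' hB hK hS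
  exact End.concl47 ρ hρ hsurj hdet Ψ hΨ (hD K σ s N F hF (hC K σ s N F hF))

end Fermat.Agent.LT
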