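import Fermat.Agent.LT.Kernel
import Mathlib.Analysis.InnerProductSpace.l2Space
import Mathlib.MeasureTheory.Function.L2Space

/-!
# Traces of products of integral operators

`ν` is a finite measure, `K₁`, `K₂` kernels with uniformly bounded rows resp. columns in `L²(ν)`,
`V` a closed subspace of `L²(ν)` which contains (the conjugates of) the rows of `K₁`, `b` a Hilbert
basis of `V`. Then, with `R₁ f x = ∫ K₁ x y f y`, `R₂* f z = ∫ conj (K₂ y z) f y`,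

  `∑_j (R₁ b_j) x * conj ((R₂* b_j) z) = ∫ K₁ x y * K₂ y z dν(y)`  for all `x`, `z`,

and the sum may be integrated along `z = τ x`.
-/

set_option autoImplicit false
set_option linter.unusedSectionVars false

noncomputable section

open MeasureTheory
open scoped ENNReal ComplexConjugate InnerProductSpace

namespace Fermat.Agent.LT

section hilbert

variable {H ι : Type*} [NormedAddCommGroup H] [InnerProductSpace ℂ H]

/-- Parseval's equality for a Hilbert basis of a closed subspace. -/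
theorem hasSum_inner_mul_inner_sub {V : Submodule ℂ H} [CompleteSpace V] (b : HilbertBasis ι ℂ V)
    {a : H} (ha : a ∈ V) (c : H) :
    HasSum (fun j => ⟪a, (b j : H)⟫_ℂ * ⟪(b j : H), c⟫_ℂ) ⟪a, c⟫_ℂ := by
  have h := b.hasSum_inner_mul_inner ⟨a, ha⟩ (V.orthogonalProjectionOnto c)
  have h0 : ⟪(⟨a, ha⟩ : V), V.orthogonalProjectionOnto c⟫_ℂ = ⟪a, c⟫_ℂ :=
    Submodule.inner_orthogonalProjectionOnto_eq_of_mem_left (⟨a, ha⟩ : V) c
  have h1 : (fun j => ⟪(⟨a, ha⟩ : V), b j⟫_ℂ * ⟪b j, V.orthogonalProjectionOnto c⟫_ℂ) =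
      fun j => ⟪a, (b j : H)⟫_ℂ * ⟪(b j : H), c⟫_ℂ := by
    funext j
    rw [Submodule.inner_orthogonalProjectionOnto_eq_of_mem_left (b j) c]
    rfl
  rw [h0, h1] at h
  exact h

theorem orthonormal_coe {V : Submodule ℂ H} (b : HilbertBasis ι ℂ V) :
    Orthonormal ℂ fun j => (b j : H) :=
  b.orthonormal.comp_linearIsometry V.subtypeₗᵢ

/-- Bessel's inequality with values in `ℝ≥0∞`. -/
theorem tsum_enorm_inner_sq_le {v : ι → H} (hv : Orthonormal ℂ v) (a : H) :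
    ∑' j, ‖⟪v j, a⟫_ℂ‖ₑ ^ 2 ≤ ‖a‖ₑ ^ 2 := by
  have h1 := hv.tsum_inner_products_le a
  have h2 := hv.inner_products_summable a
  have h3 : ∀ j, ‖⟪v j, a⟫_ℂ‖ₑ ^ 2 = ENNReal.ofReal (‖⟪v j, a⟫_ℂ‖ ^ 2) := fun j => by
    rw [ENNReal.ofReal_pow (norm_nonneg _), ofReal_norm]
  simp_rw [h3]
  rw [← ENNReal.ofReal_tsum_of_nonneg (fun j => sq_nonneg _) h2, ← ofReal_norm,
    ← ENNReal.ofReal_pow (norm_nonneg _)]
  exact ENNReal.ofReal_le_ofReal h1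

end hilbert

section kernels

variable {Z ι : Type*} [MeasurableSpace Z] {ν : Measure Z}

/-- the operator of a kernel, pointwise -/
def opR (ν : Measure Z) (K : Z → Z → ℂ) (f : Z → ℂ) (x : Z) : ℂ := ∫ y, K x y * f y ∂ν

/-- the adjoint operator of a kernel, pointwise -/
def opS (ν : Measure Z) (K : Z → Z → ℂ) (f : Z → ℂ) (z : Z) : ℂ := ∫ y, conj (K y z) * f y ∂ν

variable {K K₁ K₂ : Z → Z → ℂ}

theorem memLp_row (hK : Measurable (Function.uncurry K)) {C : ℝ≥0∞} (hC : C ≠ ∞)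
    (h : ∀ x, ∫⁻ y, ‖K x y‖ₑ ^ 2 ∂ν ≤ C) (x : Z) : MemLp (fun y => conj (K x y)) 2 ν := by
  have hm : Measurable fun y => conj (K x y) :=
    (Complex.continuous_conj.measurable).comp (hK.comp measurable_prodMk_left)
  refine ⟨hm.aestronglyMeasurable, ?_⟩
  rw [eLpNorm_lt_top_iff_lintegral_rpow_enorm_lt_top (by simp) (by simp)]
  refine lt_of_le_of_lt ?_ (lt_top_iff_ne_top.mpr hC)
  refine le_trans (le_of_eq ?_) (h x)
  refine lintegral_congr fun y => ?_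
  simp only [ENNReal.toReal_ofNat, ENNReal.rpow_ofNat]
  congr 1
  rw [← ofReal_norm, ← ofReal_norm, RCLike.norm_conj]

theorem memLp_col (hK : Measurable (Function.uncurry K)) {C : ℝ≥0∞} (hC : C ≠ ∞)
    (h : ∀ z, ∫⁻ y, ‖K y z‖ₑ ^ 2 ∂ν ≤ C) (z : Z) : MemLp (fun y => K y z) 2 ν := by
  have hm : Measurable fun y => K y z := hK.comp measurable_prodMk_right
  refine ⟨hm.aestronglyMeasurable, ?_⟩
  rw [eLpNorm_lt_top_iff_lintegral_rpow_enorm_lt_top (by simp) (by simp)]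
  refine lt_of_le_of_lt ?_ (lt_top_iff_ne_top.mpr hC)
  refine le_trans (le_of_eq ?_) (h z)
  refine lintegral_congr fun y => ?_
  simp only [ENNReal.toReal_ofNat, ENNReal.rpow_ofNat]

theorem enorm_toLp_sq_le {f : Z → ℂ} (hf : MemLp f 2 ν) {C : ℝ≥0∞}
    (h : ∫⁻ y, ‖f y‖ₑ ^ 2 ∂ν ≤ C) : ‖hf.toLp f‖ₑ ^ 2 ≤ C := by
  have h1 : ‖hf.toLp f‖ₑ = eLpNorm f 2 ν := by
    rw [Lp.enorm_def, eLpNorm_congr_ae hf.coeFn_toLp]
  rw [h1, eLpNorm_eq_lintegral_rpow_enorm_toReal (by simp) (by simp)]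
  simp only [ENNReal.toReal_ofNat, ENNReal.rpow_ofNat]
  rw [← ENNReal.rpow_natCast, ← ENNReal.rpow_mul]
  norm_num
  exact h

/-- the inner product with a row -/
theorem inner_row (hK : Measurable (Function.uncurry K)) {C : ℝ≥0∞} (hC : C ≠ ∞)
    (h : ∀ x, ∫⁻ y, ‖K x y‖ₑ ^ 2 ∂ν ≤ C) (x : Z) (f : Lp ℂ 2 ν) :
    ⟪(memLp_row hK hC h x).toLp _, f⟫_ℂ = opR ν K f x := by
  rw [L2.inner_def]
  refine integral_congr_ae ?_
  filter_upwards [(memLp_row hK hC h x).coeFn_toLp] with y hy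
  rw [hy, RCLike.inner_apply, RCLike.conj_conj, mul_comm]

/-- the inner product with a column -/
theorem inner_col (hK : Measurable (Function.uncurry K)) {C : ℝ≥0∞} (hC : C ≠ ∞)
    (h : ∀ z, ∫⁻ y, ‖K y z‖ₑ ^ 2 ∂ν ≤ C) (z : Z) (f : Lp ℂ 2 ν) :
    ⟪f, (memLp_col hK hC h z).toLp _⟫_ℂ = conj (opS ν K f z) := by
  rw [← inner_conj_symm, L2.inner_def]
  congr 1
  refine integral_congr_ae ?_
  filter_upwards [(memLp_col hK hC h z).coeFn_toLp] with y hy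
  rw [hy, RCLike.inner_apply, mul_comm]

theorem inner_row_col (hK₁ : Measurable (Function.uncurry K₁))
    (hK₂ : Measurable (Function.uncurry K₂)) {C : ℝ≥0∞} (hC : C ≠ ∞)
    (h₁ : ∀ x, ∫⁻ y, ‖K₁ x y‖ₑ ^ 2 ∂ν ≤ C) (h₂ : ∀ z, ∫⁻ y, ‖K₂ y z‖ₑ ^ 2 ∂ν ≤ C) (x z : Z) :
    ⟪(memLp_row hK₁ hC h₁ x).toLp _, (memLp_col hK₂ hC h₂ z).toLp _⟫_ℂ =
      ∫ y, K₁ x y * K₂ y z ∂ν := by
  rw [inner_row hK₁ hC h₁]
  refine integral_congr_ae ?_
  filter_upwards [(memLp_col hK₂ hC h₂ z).coeFn_toLp] with y hy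
  rw [hy]

/-- **Pointwise expansion.** -/
theorem hasSum_opR_mul_opS (hK₁ : Measurable (Function.uncurry K₁))
    (hK₂ : Measurable (Function.uncurry K₂)) {C : ℝ≥0∞} (hC : C ≠ ∞)
    (h₁ : ∀ x, ∫⁻ y, ‖K₁ x y‖ₑ ^ 2 ∂ν ≤ C) (h₂ : ∀ z, ∫⁻ y, ‖K₂ y z‖ₑ ^ 2 ∂ν ≤ C)
    {V : Submodule ℂ (Lp ℂ 2 ν)} [CompleteSpace V] (b : HilbertBasis ι ℂ V)
    (hV : ∀ x, (memLp_row hK₁ hC h₁ x).toLp _ ∈ V) (x z : Z) :
    HasSum (fun j => opR ν K₁ (b j : Lp ℂ 2 ν) x * conj (opS ν K₂ (b j : Lp ℂ 2 ν) z))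
      (∫ y, K₁ x y * K₂ y z ∂ν) := by
  have h := hasSum_inner_mul_inner_sub b (hV x) ((memLp_col hK₂ hC h₂ z).toLp _)
  rw [inner_row_col hK₁ hK₂ hC h₁ h₂] at h
  simp_rw [inner_row hK₁ hC h₁, inner_col hK₂ hC h₂] at h
  exact h

theorem tsum_enorm_opR_sq_le (hK : Measurable (Function.uncurry K)) {C : ℝ≥0∞} (hC : C ≠ ∞)
    (h : ∀ x, ∫⁻ y, ‖K x y‖ₑ ^ 2 ∂ν ≤ C) {v : ι → Lp ℂ 2 ν} (hv : Orthonormal ℂ v) (x : Z) :
    ∑' j, ‖opR ν K (v j) x‖ₑ ^ 2 ≤ C := by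
  have h1 := tsum_enorm_inner_sq_le hv ((memLp_row hK hC h x).toLp _)
  have h2 : ∀ j, ‖opR ν K (v j) x‖ₑ = ‖⟪v j, (memLp_row hK hC h x).toLp _⟫_ℂ‖ₑ := fun j => by
    rw [← inner_row hK hC h, ← ofReal_norm, ← ofReal_norm, norm_inner_symm]
  simp_rw [h2]
  refine h1.trans (enorm_toLp_sq_le _ ?_)
  refine le_trans (le_of_eq ?_) (h x)
  refine lintegral_congr fun y => ?_
  rw [← ofReal_norm, RCLike.norm_conj, ofReal_norm]

theorem tsum_enorm_opS_sq_le (hK : Measurable (Function.uncurry K)) {C : ℝ≥0∞} (hC : C ≠ ∞)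
    (h : ∀ z, ∫⁻ y, ‖K y z‖ₑ ^ 2 ∂ν ≤ C) {v : ι → Lp ℂ 2 ν} (hv : Orthonormal ℂ v) (z : Z) :
    ∑' j, ‖opS ν K (v j) z‖ₑ ^ 2 ≤ C := by
  have h1 := tsum_enorm_inner_sq_le hv ((memLp_col hK hC h z).toLp _)
  have h2 : ∀ j, ‖opS ν K (v j) z‖ₑ = ‖⟪v j, (memLp_col hK hC h z).toLp _⟫_ℂ‖ₑ := fun j => by
    rw [inner_col hK hC h, ← ofReal_norm, ← ofReal_norm, RCLike.norm_conj]
  simp_rw [h2]
  exact h1.trans (enorm_toLp_sq_le _ (h z))

theorem measurable_opR [SFinite ν] (hK : Measurable (Function.uncurry K)) (f : Lp ℂ 2 ν) :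
    StronglyMeasurable (opR ν K f) := by
  have h1 : StronglyMeasurable (Function.uncurry fun x y => K x y * f y) :=
    hK.stronglyMeasurable.mul ((Lp.stronglyMeasurable f).comp_measurable measurable_snd)
  exact h1.integral_prod_right

theorem measurable_opS [SFinite ν] (hK : Measurable (Function.uncurry K)) (f : Lp ℂ 2 ν) :
    StronglyMeasurable (opS ν K f) := by
  have h1 : StronglyMeasurable (Function.uncurry fun z y => conj (K y z) * f y) :=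
    ((Complex.continuous_conj.measurable.comp (hK.comp measurable_swap)).stronglyMeasurable).mul
      ((Lp.stronglyMeasurable f).comp_measurable measurable_snd)
  exact h1.integral_prod_right

/-- **The trace pairing of two integral operators.** -/
theorem hasSum_integral_opR_mul_opS [IsFiniteMeasure ν] [Countable ι]
    (hK₁ : Measurable (Function.uncurry K₁))
    (hK₂ : Measurable (Function.uncurry K₂)) {C : ℝ≥0∞} (hC : C ≠ ∞)
    (h₁ : ∀ x, ∫⁻ y, ‖K₁ x y‖ₑ ^ 2 ∂ν ≤ C) (h₂ : ∀ z, ∫⁻ y, ‖K₂ y z‖ₑ ^ 2 ∂ν ≤ C)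
    {V : Submodule ℂ (Lp ℂ 2 ν)} [CompleteSpace V] (b : HilbertBasis ι ℂ V)
    (hV : ∀ x, (memLp_row hK₁ hC h₁ x).toLp _ ∈ V) {τ : Z → Z} (hτ : Measurable τ) :
    HasSum (fun j => ∫ x, opR ν K₁ (b j : Lp ℂ 2 ν) x *
      conj (opS ν K₂ (b j : Lp ℂ 2 ν) (τ x)) ∂ν)
      (∫ x, ∫ y, K₁ x y * K₂ y (τ x) ∂ν ∂ν) := by
  set F : ι → Z → ℂ := fun j x => opR ν K₁ (b j : Lp ℂ 2 ν) x *
      conj (opS ν K₂ (b j : Lp ℂ 2 ν) (τ x)) with hF
  have hm : ∀ j, AEStronglyMeasurable (F j) ν := fun j =>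
    ((measurable_opR hK₁ _).aestronglyMeasurable).mul
      (Complex.continuous_conj.comp_aestronglyMeasurable
        ((measurable_opS hK₂ _).comp_measurable hτ).aestronglyMeasurable)
  have hb := orthonormal_coe b
  have hbound : ∀ x, ∑' j, ‖F j x‖ₑ ≤ 2 * C := by
    intro x
    calc ∑' j, ‖F j x‖ₑ
        ≤ ∑' j, (‖opR ν K₁ (b j : Lp ℂ 2 ν) x‖ₑ ^ 2 +
            ‖opS ν K₂ (b j : Lp ℂ 2 ν) (τ x)‖ₑ ^ 2) := by
          refine ENNReal.tsum_le_tsum fun j => ?_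
          have e1 : ‖F j x‖ₑ = ‖opR ν K₁ (b j : Lp ℂ 2 ν) x‖ₑ *
              ‖opS ν K₂ (b j : Lp ℂ 2 ν) (τ x)‖ₑ := by
            rw [hF]
            dsimp only
            rw [enorm_mul]
            congr 1
            rw [← ofReal_norm, RCLike.norm_conj, ofReal_norm]
          rw [e1]
          generalize ‖opR ν K₁ (b j : Lp ℂ 2 ν) x‖ₑ = p
          generalize ‖opS ν K₂ (b j : Lp ℂ 2 ν) (τ x)‖ₑ = q
          rcases le_total p q with h | h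
          · calc p * q ≤ q * q := by gcongr
              _ = q ^ 2 := (sq q).symm
              _ ≤ p ^ 2 + q ^ 2 := le_add_self
          · calc p * q ≤ p * p := by gcongr
              _ = p ^ 2 := (sq p).symm
              _ ≤ p ^ 2 + q ^ 2 := le_self_add
      _ = ∑' j, ‖opR ν K₁ (b j : Lp ℂ 2 ν) x‖ₑ ^ 2 +
            ∑' j, ‖opS ν K₂ (b j : Lp ℂ 2 ν) (τ x)‖ₑ ^ 2 := ENNReal.tsum_add
      _ ≤ C + C := add_le_add (tsum_enorm_opR_sq_le hK₁ hC h₁ hb x)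
            (tsum_enorm_opS_sq_le hK₂ hC h₂ hb (τ x))
      _ = 2 * C := (two_mul C).symm
  have hfin : ∑' j, ∫⁻ x, ‖F j x‖ₑ ∂ν ≠ ∞ := by
    rw [← lintegral_tsum fun j => (hm j).enorm]
    refine ne_top_of_le_ne_top ?_ (lintegral_mono hbound)
    rw [lintegral_const]
    exact ENNReal.mul_ne_top (ENNReal.mul_ne_top (by simp) hC) (measure_ne_top ν _)
  have h1 := integral_tsum hm hfin
  have h2 : ∫ x, ∑' j, F j x ∂ν = ∫ x, ∫ y, K₁ x y * K₂ y (τ x) ∂ν ∂ν := by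
    refine integral_congr_ae (Filter.Eventually.of_forall fun x => ?_)
    exact (hasSum_opR_mul_opS hK₁ hK₂ hC h₁ h₂ b hV x (τ x)).tsum_eq
  rw [← h2, h1]
  refine Summable.hasSum ?_
  have h3 : Summable fun j => ‖∫ x, F j x ∂ν‖ := by
    have h4 : ∑' j, ‖∫ x, F j x ∂ν‖ₑ ≠ ∞ :=
      ne_top_of_le_ne_top hfin (ENNReal.tsum_le_tsum fun j => enorm_integral_le_lintegral_enorm _)
    have h5 : Summable fun j => ‖∫ x, F j x ∂ν‖₊ := by
      rw [← ENNReal.tsum_coe_ne_top_iff_summable]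
      exact h4
    exact NNReal.summable_coe.mpr h5
  exact h3.of_norm

end kernels

end Fermat.Agent.LT
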