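import Mathlib

/-!
# Twisted conjugacy in `GL₂(L)`, `L / K` cyclic of degree three

`τ` a generator of the group of a cubic cyclic extension `L / K`, acting on matrices entrywise.
For `δ ∈ GL₂(L)` let `N δ = δ · τ δ · τ² δ`.  We work with matrices.
-/

set_option autoImplicit false

noncomputable section

namespace Fermat.Agent.LT

open Matrix

/-- `2 × 2` matrices -/
abbrev M2 (F : Type*) := Matrix (Fin 2) (Fin 2) F

section Basic

variable {F : Type*} [Field F]

/-- a matrix is scalar -/
def IsScal (M : M2 F) : Prop := ∃ x : F, M = x • (1 : M2 F)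

theorem isScal_iff (M : M2 F) : IsScal M ↔ M 0 1 = 0 ∧ M 1 0 = 0 ∧ M 0 0 = M 1 1 := by
  constructor
  · rintro ⟨x, rfl⟩
    simp
  · rintro ⟨h1, h2, h3⟩
    refine ⟨M 0 0, ?_⟩
    ext i j
    fin_cases i <;> fin_cases j <;> simp [h1, h2, h3]

/-- The commutant of a non-scalar matrix `M` consists of the `x + y M`. -/
theorem exists_eq_of_commute {M X : M2 F} (hM : ¬ IsScal M) (h : X * M = M * X) :
    ∃ x y : F, X = x • (1 : M2 F) + y • M := by
  have e00 := congrFun (congrFun h 0) 0
  have e01 := congrFun (congrFun h 0) 1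
  have e10 := congrFun (congrFun h 1) 0
  simp only [Matrix.mul_apply, Fin.sum_univ_two] at e00 e01 e10
  rw [isScal_iff, not_and_or, not_and_or] at hM
  rcases hM with hb | hc | hd
  · refine ⟨X 0 0 - X 0 1 / M 0 1 * M 0 0, X 0 1 / M 0 1, ?_⟩
    ext i j
    fin_cases i <;> fin_cases j <;> simp [Matrix.add_apply, Matrix.smul_apply]
    · field_simp
    · field_simp
      linear_combination -e00
    · field_simp
      linear_combination -e01
  · refine ⟨X 0 0 - X 1 0 / M 1 0 * M 0 0, X 1 0 / M 1 0, ?_⟩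
    ext i j
    fin_cases i <;> fin_cases j <;> simp [Matrix.add_apply, Matrix.smul_apply]
    · field_simp
      linear_combination e00
    · field_simp
    · field_simp
      linear_combination e10
  · by_cases hb : M 0 1 = 0
    · by_cases hc : M 1 0 = 0
      · have hd' : M 0 0 - M 1 1 ≠ 0 := sub_ne_zero.mpr hd
        rw [hb] at e01
        rw [hc] at e10
        have h01 : X 0 1 = 0 := by
          have : X 0 1 * (M 0 0 - M 1 1) = 0 := by linear_combination -e01
          exact (mul_eq_zero.mp this).resolve_right hd'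
        have h10 : X 1 0 = 0 := by
          have : X 1 0 * (M 0 0 - M 1 1) = 0 := by linear_combination e10
          exact (mul_eq_zero.mp this).resolve_right hd'
        refine ⟨X 0 0 - (X 0 0 - X 1 1) / (M 0 0 - M 1 1) * M 0 0,
          (X 0 0 - X 1 1) / (M 0 0 - M 1 1), ?_⟩
        ext i j
        fin_cases i <;> fin_cases j <;>
          simp [Matrix.add_apply, Matrix.smul_apply, hb, hc, h01, h10]
        field_simp
        ring
      · refine ⟨X 0 0 - X 1 0 / M 1 0 * M 0 0, X 1 0 / M 1 0, ?_⟩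
        ext i j
        fin_cases i <;> fin_cases j <;> simp [Matrix.add_apply, Matrix.smul_apply]
        · field_simp
          linear_combination e00
        · field_simp
        · field_simp
          linear_combination e10
    · refine ⟨X 0 0 - X 0 1 / M 0 1 * M 0 0, X 0 1 / M 0 1, ?_⟩
      ext i j
      fin_cases i <;> fin_cases j <;> simp [Matrix.add_apply, Matrix.smul_apply]
      · field_simp
      · field_simp
        linear_combination -e00
      · field_simp
        linear_combination -e01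

/-- Two matrices commuting with a non-scalar one commute. -/
theorem commute_of_commute {M X Y : M2 F} (hM : ¬ IsScal M) (hX : X * M = M * X)
    (hY : Y * M = M * Y) : X * Y = Y * X := by
  obtain ⟨x, y, rfl⟩ := exists_eq_of_commute hM hX
  rw [add_mul, mul_add, smul_mul_assoc, smul_mul_assoc, mul_smul_comm, mul_smul_comm, one_mul,
    mul_one, hY]

/-- the companion matrix of `X² - t X + d` -/
def comp2 (t d : F) : M2 F := !![0, -d; 1, t]

/-- A non-scalar matrix is conjugate to a companion matrix. -/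
theorem exists_conj_comp {M : M2 F} (hM : ¬ IsScal M) :
    ∃ g : M2 F, g.det ≠ 0 ∧ M * g = g * comp2 M.trace M.det := by
  have key : ∀ p q : F, (!![p, M 0 0 * p + M 0 1 * q; q, M 1 0 * p + M 1 1 * q] : M2 F).det ≠ 0 →
      ∃ g : M2 F, g.det ≠ 0 ∧ M * g = g * comp2 M.trace M.det := by
    intro p q h
    refine ⟨_, h, ?_⟩
    ext i j
    fin_cases i <;> fin_cases j <;>
      simp [comp2, Matrix.mul_apply, Fin.sum_univ_two, Matrix.trace_fin_two, Matrix.det_fin_two] <;>
      ring
  rw [isScal_iff, not_and_or, not_and_or] at hM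
  by_cases hc : M 1 0 = 0
  · by_cases hb : M 0 1 = 0
    · have hd : M 0 0 ≠ M 1 1 := by
        rcases hM with h | h | h
        · exact absurd hb h
        · exact absurd hc h
        · exact h
      refine key 1 1 ?_
      rw [Matrix.det_fin_two]
      simp [hb, hc]
      exact fun h => hd (by linear_combination -h)
    · refine key 0 1 ?_
      rw [Matrix.det_fin_two]
      simp [hb]
  · refine key 1 0 ?_
    rw [Matrix.det_fin_two]
    simp [hc]

end Basic

/-- `τ` generates the group of the cubic cyclic extension `L / K`. -/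
structure Cyc3 {K L : Type*} [Field K] [Field L] [Algebra K L] (τ : L ≃ₐ[K] L) : Prop where
  cube : ∀ x, τ (τ (τ x)) = x
  fix : ∀ x, τ x = x → x ∈ Set.range (algebraMap K L)
  ne : ∃ x, τ x ≠ x

section Cyc

variable {K L : Type*} [Field K] [Field L] [Algebra K L] {τ : L ≃ₐ[K] L}

/-- entrywise action -/
def mt (τ : L ≃ₐ[K] L) : M2 L →+* M2 L := (τ : L →+* L).mapMatrix

@[simp] theorem mt_apply (M : M2 L) (i j : Fin 2) : mt τ M i j = τ (M i j) := rfl

theorem mt_smul (x : L) (M : M2 L) : mt τ (x • M) = τ x • mt τ M := by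
  ext i j
  simp

theorem trace_mt (M : M2 L) : (mt τ M).trace = τ M.trace := by
  simp [Matrix.trace_fin_two]

theorem det_mt (M : M2 L) : (mt τ M).det = τ M.det := by
  simp [Matrix.det_fin_two]

/-- the norm on `M₂(L)` -/
def nm (τ : L ≃ₐ[K] L) (d : M2 L) : M2 L := d * mt τ d * mt τ (mt τ d)

/-- the norm on `L` -/
def nmL (τ : L ≃ₐ[K] L) (x : L) : L := x * τ x * τ (τ x)

theorem nmL_ne_zero {x : L} (hx : x ≠ 0) : nmL τ x ≠ 0 :=
  mul_ne_zero (mul_ne_zero hx ((map_ne_zero _).mpr hx)) (by simpa using hx)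

theorem nmL_mul (x y : L) : nmL τ (x * y) = nmL τ x * nmL τ y := by
  simp only [nmL, map_mul]
  ring

theorem nmL_inv (x : L) : nmL τ x⁻¹ = (nmL τ x)⁻¹ := by
  simp only [nmL, map_inv₀, mul_inv]

theorem nmL_algebraMap (c : K) : nmL τ (algebraMap K L c) = algebraMap K L c ^ 3 := by
  simp only [nmL, AlgEquiv.commutes]
  ring

theorem nm_smul (x : L) (d : M2 L) : nm τ (x • d) = nmL τ x • nm τ d := by
  simp only [nm, mt_smul, smul_mul_assoc, mul_smul_comm, smul_smul, nmL]
  congr 1
  ring

theorem det_nm (d : M2 L) : (nm τ d).det = nmL τ d.det := by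
  simp only [nm, Matrix.det_mul, det_mt, nmL]

variable (hτ : Cyc3 τ)
include hτ

theorem Cyc3.mt_cube (M : M2 L) : mt τ (mt τ (mt τ M)) = M := by
  ext i j
  simp [hτ.cube]

theorem Cyc3.nmL_mem (x : L) : nmL τ x ∈ Set.range (algebraMap K L) := by
  apply hτ.fix
  simp only [nmL, map_mul, hτ.cube]
  ring

/-- `τ (N δ) = δ⁻¹ (N δ) δ` -/
theorem Cyc3.mul_mt_nm (d : M2 L) : d * mt τ (nm τ d) = nm τ d * d := by
  simp only [nm, map_mul, hτ.mt_cube, mul_assoc]

theorem Cyc3.trace_nm_mem {d : M2 L} (hd : d.det ≠ 0) :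
    (nm τ d).trace ∈ Set.range (algebraMap K L) := by
  apply hτ.fix
  have hu : IsUnit d.det := hd.isUnit
  have h1 : mt τ (nm τ d) = d⁻¹ * nm τ d * d := by
    rw [mul_assoc, ← hτ.mul_mt_nm, ← mul_assoc, Matrix.nonsing_inv_mul _ hu, one_mul]
  rw [← trace_mt, h1, Matrix.trace_mul_comm, ← mul_assoc, Matrix.mul_nonsing_inv _ hu, one_mul]

theorem Cyc3.det_nm_mem (d : M2 L) : (nm τ d).det ∈ Set.range (algebraMap K L) := by
  rw [det_nm]
  exact hτ.nmL_mem _

/-- A root in `L` of a quadratic polynomial over `K` lies in `K`. -/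
theorem Cyc3.root_mem {t n : L} (ht : τ t = t) (hn : τ n = n) {a : L}
    (ha : a ^ 2 - t * a + n = 0) : a ∈ Set.range (algebraMap K L) := by
  apply hτ.fix
  have h1 : (τ a) ^ 2 - t * τ a + n = 0 := by
    have := congrArg τ ha
    simpa [ht, hn] using this
  have h2 : (τ a - a) * (τ a + a - t) = 0 := by linear_combination h1 - ha
  rcases mul_eq_zero.mp h2 with h | h
  · exact sub_eq_zero.mp h
  · have h3 : τ a = t - a := by linear_combination h
    have h4 : τ (τ a) = a := by rw [h3, map_sub, ht, h3]; ring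
    have h5 := hτ.cube a
    rw [h4] at h5
    exact h5

/-- conjugation and the norm -/
theorem Cyc3.nm_conj {d g h : M2 L} (hd : d * mt τ g = g * h) :
    nm τ d * g = g * nm τ h := by
  have e1 : mt τ d * mt τ (mt τ g) = mt τ g * mt τ h := by rw [← map_mul, hd, map_mul]
  have e2 : mt τ (mt τ d) * g = mt τ (mt τ g) * mt τ (mt τ h) := by
    have := congrArg (mt τ) e1
    rw [map_mul, map_mul, hτ.mt_cube] at this
    exact this
  calc nm τ d * g = d * mt τ d * (mt τ (mt τ d) * g) := by rw [nm, mul_assoc]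
    _ = d * (mt τ d * mt τ (mt τ g)) * mt τ (mt τ h) := by rw [e2]; simp only [mul_assoc]
    _ = (d * mt τ g) * mt τ h * mt τ (mt τ h) := by rw [e1]; simp only [mul_assoc]
    _ = g * nm τ h := by rw [hd, nm]; simp only [mul_assoc]

/-- Entries fixed by `τ`. -/
theorem Cyc3.exists_map_eq {M : M2 L} (h : mt τ M = M) :
    ∃ M₀ : M2 K, M₀.map (algebraMap K L) = M := by
  have h1 : ∀ i j, ∃ x : K, algebraMap K L x = M i j := fun i j =>
    hτ.fix _ (congrFun (congrFun h i) j)
  choose f hf using h1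
  exact ⟨Matrix.of f, by ext i j; simp [hf]⟩

omit hτ in
theorem mt_map (M : M2 K) : mt τ (M.map (algebraMap K L)) = M.map (algebraMap K L) := by
  ext i j
  simp

/-- **Representatives.** If `N δ` is not scalar, then `δ` is `τ`-conjugate to an element whose norm
is a companion matrix over `K`. -/
theorem Cyc3.exists_rep {d : M2 L} (hd : d.det ≠ 0) (hs : ¬ IsScal (nm τ d)) :
    ∃ (g h : M2 L) (γ : M2 K), g.det ≠ 0 ∧ h.det ≠ 0 ∧ d * mt τ g = g * h ∧
      nm τ h = γ.map (algebraMap K L) ∧ γ.det ≠ 0 ∧ h * γ.map (algebraMap K L) =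
        γ.map (algebraMap K L) * h := by
  obtain ⟨g, hg, hg'⟩ := exists_conj_comp hs
  have hu : IsUnit g.det := hg.isUnit
  obtain ⟨t, ht⟩ := hτ.trace_nm_mem hd
  obtain ⟨n, hn⟩ := hτ.det_nm_mem d
  set h := g⁻¹ * (d * mt τ g) with hh
  have hdg : d * mt τ g = g * h := by
    rw [hh, ← mul_assoc, Matrix.mul_nonsing_inv _ hu, one_mul]
  have hnh : nm τ h = (comp2 t n).map (algebraMap K L) := by
    have h1 := hτ.nm_conj hdg
    have h2 : g * nm τ h = g * comp2 (nm τ d).trace (nm τ d).det := by rw [← h1, hg']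
    have h3 := congrArg (fun M => g⁻¹ * M) h2
    simp only [← mul_assoc, Matrix.nonsing_inv_mul _ hu, one_mul] at h3
    rw [h3, ← ht, ← hn]
    ext i j
    fin_cases i <;> fin_cases j <;> simp [comp2]
  have hdet : h.det ≠ 0 := by
    rw [hh, Matrix.det_mul, Matrix.det_mul, det_mt]
    refine mul_ne_zero ?_ (mul_ne_zero hd (by simpa using hg))
    rw [Matrix.det_nonsing_inv, Ring.inverse_eq_inv']
    exact inv_ne_zero hg
  refine ⟨g, h, comp2 t n, hg, hdet, hdg, hnh, ?_, ?_⟩
  · have h4 : (nm τ h).det ≠ 0 := by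
      rw [det_nm]
      exact nmL_ne_zero hdet
    rw [hnh] at h4
    intro h5
    apply h4
    rw [← RingHom.mapMatrix_apply, ← RingHom.map_det, h5, map_zero]
  · have h5 := hτ.mul_mt_nm h
    rw [hnh, mt_map] at h5
    exact h5

end Cyc

section Ell

/-- `γ` is elliptic: its characteristic polynomial has no root. -/
def Ell {F : Type*} [Field F] (γ : M2 F) : Prop := ∀ a : F, a ^ 2 - γ.trace * a + γ.det ≠ 0

variable {F : Type*} [Field F]

theorem Ell.not_isScal {γ : M2 F} (h : Ell γ) : ¬ IsScal γ := by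
  rintro ⟨x, rfl⟩
  refine h x ?_
  simp [Matrix.trace_fin_two, Matrix.det_fin_two]
  ring

theorem det_add_smul (γ : M2 F) (x y : F) :
    (x • (1 : M2 F) + y • γ).det = x ^ 2 + x * y * γ.trace + y ^ 2 * γ.det := by
  simp [Matrix.trace_fin_two, Matrix.det_fin_two]
  ring

/-- The commutant of an elliptic element is a field. -/
theorem Ell.det_ne_zero {γ X : M2 F} (h : Ell γ) (hX : X * γ = γ * X) (h0 : X ≠ 0) :
    X.det ≠ 0 := by
  obtain ⟨x, y, rfl⟩ := exists_eq_of_commute h.not_isScal hX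
  rw [det_add_smul]
  intro h1
  by_cases hy : y = 0
  · subst hy
    have : x = 0 := by simpa using h1
    exact h0 (by simp [this])
  · refine h (-x / y) ?_
    field_simp
    linear_combination h1

theorem Ell.det_ne_zero' {γ : M2 F} (h : Ell γ) : γ.det ≠ 0 :=
  fun h0 => h 0 (by rw [h0]; ring)

variable {K L : Type*} [Field K] [Field L] [Algebra K L] {τ : L ≃ₐ[K] L}

/-- the image of a matrix over `K` in the matrices over `L` -/
def up (L : Type*) [Field L] [Algebra K L] (M : M2 K) : M2 L := M.map (algebraMap K L)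

theorem up_mul (M N : M2 K) : up L (M * N) = up L M * up L N := by
  simp [up, Matrix.map_mul]

theorem up_smul (c : K) (M : M2 K) : up L (c • M) = algebraMap K L c • up L M := by
  ext i j
  simp [up]

theorem up_injective : Function.Injective (up L : M2 K → M2 L) := by
  intro M N h
  ext i j
  exact (algebraMap K L).injective (congrFun (congrFun h i) j)

theorem trace_up (M : M2 K) : (up L M).trace = algebraMap K L M.trace := by
  simp [up, Matrix.trace_fin_two]

theorem det_up (M : M2 K) : (up L M).det = algebraMap K L M.det := by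
  simp [up, Matrix.det_fin_two]

theorem mt_up (M : M2 K) : mt τ (up L M) = up L M := mt_map M

variable (hτ : Cyc3 τ)
include hτ

theorem Cyc3.ell_up {γ : M2 K} (h : Ell γ) : Ell (up L γ) := by
  intro a ha
  rw [trace_up, det_up] at ha
  obtain ⟨b, rfl⟩ := hτ.root_mem (AlgEquiv.commutes _ _) (AlgEquiv.commutes _ _) ha
  apply h b
  apply (algebraMap K L).injective
  rw [map_add, map_sub, map_mul, map_pow, map_zero]
  exact ha

omit hτ in
theorem mt_commute {γ : M2 K} {X : M2 L} (h : X * up L γ = up L γ * X) :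
    mt τ X * up L γ = up L γ * mt τ X := by
  have := congrArg (mt τ) h
  rwa [map_mul, map_mul, mt_up] at this

omit hτ in
theorem smul_commute {γ : M2 L} {X : M2 L} (x : L) (h : X * γ = γ * X) :
    (x • X) * γ = γ * (x • X) := by
  rw [smul_mul_assoc, mul_smul_comm, h]

omit hτ in
theorem mul_commute {γ X Y : M2 L} (hX : X * γ = γ * X) (hY : Y * γ = γ * Y) :
    (X * Y) * γ = γ * (X * Y) := by
  rw [mul_assoc, hY, ← mul_assoc, hX, mul_assoc]

omit hτ in
theorem inv_commute {γ X : M2 L} (h0 : X.det ≠ 0) (hX : X * γ = γ * X) :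
    X⁻¹ * γ = γ * X⁻¹ := by
  have hu : IsUnit X.det := h0.isUnit
  calc X⁻¹ * γ = X⁻¹ * γ * (X * X⁻¹) := by rw [Matrix.mul_nonsing_inv _ hu, mul_one]
    _ = X⁻¹ * (X * γ) * X⁻¹ := by rw [hX]; simp only [mul_assoc]
    _ = γ * X⁻¹ := by rw [← mul_assoc, Matrix.nonsing_inv_mul _ hu, one_mul]

/-- **Hilbert's theorem 90** for the commutant of an elliptic `γ ∈ M₂(K)` in `M₂(L)`. -/
theorem Cyc3.hilbert90 {γ : M2 K} (hγ : Ell γ) {η : M2 L} (hη : η * up L γ = up L γ * η)
    (h1 : nm τ η = 1) :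
    ∃ h : M2 L, h.det ≠ 0 ∧ h * up L γ = up L γ * h ∧ η * mt τ h = h := by
  let A : M2 L := η * mt τ η
  let b : L → M2 L := fun c => c • (1 : M2 L) + τ c • η + τ (τ c) • A
  have hA : A * mt τ (mt τ η) = 1 := h1
  have hb : ∀ c, η * mt τ (b c) = b c := by
    intro c
    have e1 : mt τ (b c) = τ c • (1 : M2 L) + τ (τ c) • mt τ η + c • (mt τ η * mt τ (mt τ η)) := by
      simp only [b, A, map_add, mt_smul, map_mul, map_one, hτ.cube]
    rw [e1]
    simp only [b, mul_add, mul_smul_comm, mul_one]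
    have e2 : η * (mt τ η * mt τ (mt τ η)) = 1 := by rw [← mul_assoc]; exact h1
    rw [e2]
    simp only [A]
    abel
  have hbc : ∀ c, b c * up L γ = up L γ * b c := by
    intro c
    simp only [b, A, add_mul, mul_add, smul_mul_assoc, mul_smul_comm, one_mul, mul_one,
      mul_commute hη (mt_commute hη), hη]
  have hne : ∃ c, b c ≠ 0 := by
    by_contra hcon
    push Not at hcon
    obtain ⟨x, hx⟩ := hτ.ne
    have hx2 : τ (τ x) ≠ x := by
      intro h
      have h2 := hτ.cube x
      rw [h] at h2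
      exact hx h2
    have e0 := congrFun (congrFun (hcon 1) 0) 0
    have e1 := congrFun (congrFun (hcon x) 0) 0
    have e2 := congrFun (congrFun (hcon (x ^ 2)) 0) 0
    simp only [b, Matrix.add_apply, Matrix.smul_apply, Matrix.one_apply_eq, smul_eq_mul, mul_one,
      Matrix.zero_apply, map_one, one_mul, map_pow] at e0 e1 e2
    have e3 : (x - τ x) * (x - τ (τ x)) = 0 := by
      linear_combination e2 - (τ x + τ (τ x)) * e1 + τ x * τ (τ x) * e0
    rcases mul_eq_zero.mp e3 with h | h
    · exact hx (sub_eq_zero.mp h).symm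
    · exact hx2 (sub_eq_zero.mp h).symm
  obtain ⟨c, hc⟩ := hne
  exact ⟨b c, (hτ.ell_up hγ).det_ne_zero (hbc c) hc, hbc c, hb c⟩

/-- Hilbert's theorem 90 for `L`. -/
theorem Cyc3.hilbert90L {z : L} (hz : nmL τ z = 1) : ∃ y : L, y ≠ 0 ∧ z * τ y = y := by
  let b : L → L := fun c => c + z * τ c + z * τ z * τ (τ c)
  have hz' : z * τ z * τ (τ z) = 1 := hz
  have hb : ∀ c, z * τ (b c) = b c := by
    intro c
    simp only [b, map_add, map_mul, hτ.cube]
    linear_combination c * hz'
  have hne : ∃ c, b c ≠ 0 := by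
    by_contra hcon
    push Not at hcon
    obtain ⟨x, hx⟩ := hτ.ne
    have hx2 : τ (τ x) ≠ x := by
      intro h
      have h2 := hτ.cube x
      rw [h] at h2
      exact hx h2
    have e0 := hcon 1
    have e1 := hcon x
    have e2 := hcon (x ^ 2)
    simp only [b, map_one, mul_one, map_pow] at e0 e1 e2
    have e3 : (x - τ x) * (x - τ (τ x)) = 0 := by
      linear_combination e2 - (τ x + τ (τ x)) * e1 + τ x * τ (τ x) * e0
    rcases mul_eq_zero.mp e3 with h | h
    · exact hx (sub_eq_zero.mp h).symm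
    · exact hx2 (sub_eq_zero.mp h).symm
  obtain ⟨c, hc⟩ := hne
  exact ⟨b c, hc, hb c⟩

omit hτ in
theorem nm_mul_of_commute {γ : M2 K} (hγ : ¬ IsScal (up L γ)) {X Y : M2 L}
    (hX : X * up L γ = up L γ * X) (hY : Y * up L γ = up L γ * Y) :
    nm τ (X * Y) = nm τ X * nm τ Y := by
  have c1 := commute_of_commute hγ hY (mt_commute (τ := τ) hX)
  have c2 := commute_of_commute hγ (mul_commute hY (mt_commute (τ := τ) hY))
    (mt_commute (τ := τ) (mt_commute (τ := τ) hX))
  simp only [nm, map_mul]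
  calc X * Y * (mt τ X * mt τ Y) * (mt τ (mt τ X) * mt τ (mt τ Y))
      = X * (Y * mt τ X) * mt τ Y * mt τ (mt τ X) * mt τ (mt τ Y) := by
        simp only [mul_assoc]
    _ = X * mt τ X * ((Y * mt τ Y) * mt τ (mt τ X)) * mt τ (mt τ Y) := by
        rw [c1]; simp only [mul_assoc]
    _ = X * mt τ X * mt τ (mt τ X) * (Y * mt τ Y * mt τ (mt τ Y)) := by
        rw [c2]; simp only [mul_assoc]

/-- **Injectivity of the norm**, elements of the commutant. -/
theorem Cyc3.exists_conj_of_commute {γ : M2 K} (hγ : Ell γ) {d d' : M2 L} (hd : d.det ≠ 0)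
    (hd' : d'.det ≠ 0) (hc : d * up L γ = up L γ * d) (hc' : d' * up L γ = up L γ * d') {c : K}
    (h : nm τ d' = algebraMap K L c • nm τ d) :
    ∃ (z : L) (g : M2 L), z ≠ 0 ∧ g.det ≠ 0 ∧ g * up L γ = up L γ * g ∧
      d * mt τ g = z • (g * d') := by
  have hs : ¬ IsScal (up L γ) := (hτ.ell_up hγ).not_isScal
  have hud : IsUnit d.det := hd.isUnit
  set η : M2 L := d⁻¹ * d' with hη
  have hηc : η * up L γ = up L γ * η := mul_commute (inv_commute hd hc) hc'
  have hdη : d * η = d' := by rw [hη, ← mul_assoc, Matrix.mul_nonsing_inv _ hud, one_mul]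
  have hη0 : η.det ≠ 0 := by
    intro h0
    apply hd'
    rw [← hdη, Matrix.det_mul, h0, mul_zero]
  have hnη : nm τ η = algebraMap K L c • (1 : M2 L) := by
    have h1 : nm τ d * nm τ η = nm τ d * (algebraMap K L c • (1 : M2 L)) := by
      rw [← nm_mul_of_commute hs hc hηc, hdη, h, mul_smul_comm, mul_one]
    have hu : IsUnit (nm τ d).det := by
      rw [det_nm]
      exact (nmL_ne_zero hd).isUnit
    have h2 := congrArg (fun M => (nm τ d)⁻¹ * M) h1
    simpa only [← mul_assoc, Matrix.nonsing_inv_mul _ hu, one_mul] using h2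
  have hc2 : nmL τ η.det = algebraMap K L c ^ 2 := by
    rw [← det_nm, hnη, Matrix.det_smul, Matrix.det_one, mul_one, Fintype.card_fin]
  have hc0 : algebraMap K L c ≠ 0 := by
    intro h0
    rw [h0, zero_pow two_ne_zero] at hc2
    exact nmL_ne_zero hη0 hc2
  set z : L := algebraMap K L c / η.det with hz
  have hz0 : z ≠ 0 := div_ne_zero hc0 hη0
  have hnz : nmL τ z = algebraMap K L c := by
    rw [hz, div_eq_mul_inv, nmL_mul, nmL_inv, nmL_algebraMap, hc2]
    field_simp
  have hη' : nm τ (z⁻¹ • η) = 1 := by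
    rw [nm_smul, nmL_inv, hnz, hnη, smul_smul, inv_mul_cancel₀ hc0, one_smul]
  obtain ⟨k, hk0, hkc, hk⟩ := hτ.hilbert90 hγ (smul_commute _ hηc) hη'
  have huk : IsUnit k.det := hk0.isUnit
  have hukτ : IsUnit (mt τ k).det := by
    rw [det_mt]
    exact (by simpa using hk0 : τ k.det ≠ 0).isUnit
  -- `η τ(k) = z k`
  have e1 : η * mt τ k = z • k := by
    rw [smul_mul_assoc] at hk
    have h6 := congrArg (fun M => z • M) hk
    simpa only [smul_smul, mul_inv_cancel₀ hz0, one_smul] using h6
  have hg0 : (k⁻¹).det ≠ 0 := by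
    rw [Matrix.det_nonsing_inv, Ring.inverse_eq_inv']
    exact inv_ne_zero hk0
  have hmtinv : mt τ k⁻¹ = (mt τ k)⁻¹ := by
    symm
    apply Matrix.inv_eq_right_inv
    rw [← map_mul, Matrix.mul_nonsing_inv _ huk, map_one]
  refine ⟨z⁻¹, k⁻¹, inv_ne_zero hz0, hg0, inv_commute hk0 hkc, ?_⟩
  -- `d τ(k)⁻¹ = z⁻¹ k⁻¹ d η`
  have hcomm : ∀ {X Y : M2 L}, X * up L γ = up L γ * X → Y * up L γ = up L γ * Y →
      X * Y = Y * X := fun hX hY => commute_of_commute hs hX hY
  have hτk := mt_commute (τ := τ) hkc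
  have hτki := inv_commute (by rw [det_mt]; simpa using hk0) hτk
  have hki := inv_commute hk0 hkc
  rw [hmtinv, ← hdη]
  have e2 : η = z • (k * (mt τ k)⁻¹) := by
    have := congrArg (fun M => M * (mt τ k)⁻¹) e1
    simpa only [mul_assoc, Matrix.mul_nonsing_inv _ hukτ, mul_one, smul_mul_assoc] using this
  rw [e2, mul_smul_comm, mul_smul_comm, smul_smul, inv_mul_cancel₀ hz0, one_smul]
  rw [← mul_assoc, ← mul_assoc, hcomm hki hc, mul_assoc d, Matrix.nonsing_inv_mul _ huk, mul_one]

/-- **The twisted centraliser** modulo scalars, `tr N δ ≠ 0`. -/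
theorem Cyc3.stab {γ : M2 K} (hγ : Ell γ) (htr : γ.trace ≠ 0) {d : M2 L} (hd : d.det ≠ 0)
    (hN : nm τ d = up L γ) {g : M2 L} (hg : g.det ≠ 0) {z : L} (h : d * mt τ g = z • (g * d)) :
    ∃ (y : L) (e : M2 K), y ≠ 0 ∧ e.det ≠ 0 ∧ e * γ = γ * e ∧ g = y • up L e := by
  have hs : ¬ IsScal (up L γ) := (hτ.ell_up hγ).not_isScal
  have hug : IsUnit g.det := hg.isUnit
  have hc : d * up L γ = up L γ * d := by
    have h5 := hτ.mul_mt_nm d
    rwa [hN, mt_up] at h5
  -- the norm of `z` is one
  have h1 : up L γ * g = nmL τ z • (g * up L γ) := by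
    have h2 : d * mt τ g = g * (z • d) := by rw [h, mul_smul_comm]
    have h3 := hτ.nm_conj h2
    rw [nm_smul, hN, mul_smul_comm] at h3
    exact h3
  have hnz : nmL τ z = 1 := by
    have h2 : g⁻¹ * up L γ * g = nmL τ z • up L γ := by
      rw [mul_assoc, h1, mul_smul_comm, ← mul_assoc, Matrix.nonsing_inv_mul _ hug, one_mul]
    have h3 := congrArg Matrix.trace h2
    rw [Matrix.trace_mul_comm, ← mul_assoc, Matrix.mul_nonsing_inv _ hug, one_mul,
      Matrix.trace_smul, trace_up, smul_eq_mul] at h3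
    have h4 : algebraMap K L γ.trace ≠ 0 := by simpa using htr
    exact mul_right_cancel₀ h4 (h3.symm.trans (one_mul _).symm)
  rw [hnz, one_smul] at h1
  have hgc : g * up L γ = up L γ * g := h1.symm
  obtain ⟨y, hy0, hy⟩ := hτ.hilbert90L hnz
  -- `τ g = z g`
  have h2 : mt τ g = z • g := by
    have h3 : d * mt τ g = d * (z • g) := by
      rw [h, mul_smul_comm, commute_of_commute hs hgc hc]
    have hu : IsUnit d.det := hd.isUnit
    have h4 := congrArg (fun M => d⁻¹ * M) h3
    simpa only [← mul_assoc, Matrix.nonsing_inv_mul _ hu, one_mul] using h4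
  have h3 : mt τ (y • g) = y • g := by
    rw [mt_smul, h2, smul_smul, mul_comm, hy]
  obtain ⟨e, he⟩ := hτ.exists_map_eq h3
  have he' : up L e = y • g := he
  refine ⟨y⁻¹, e, inv_ne_zero hy0, ?_, ?_, ?_⟩
  · intro h0
    have h4 := congrArg Matrix.det he'
    rw [det_up, h0, map_zero, Matrix.det_smul, Fintype.card_fin] at h4
    exact (mul_ne_zero (pow_ne_zero 2 hy0) hg) h4.symm
  · apply up_injective (L := L)
    rw [up_mul, up_mul, he', smul_commute _ hgc]
  · rw [he', smul_smul, inv_mul_cancel₀ hy0, one_smul]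

omit hτ in
/-- The centraliser modulo scalars, `tr γ ≠ 0`. -/
theorem commute_of_conj_smul {γ g : M2 K} (htr : γ.trace ≠ 0) (hg : g.det ≠ 0) {z : K}
    (h : γ * g = z • (g * γ)) : g * γ = γ * g := by
  have hug : IsUnit g.det := hg.isUnit
  have h2 : g⁻¹ * γ * g = z • γ := by
    rw [mul_assoc, h, mul_smul_comm, ← mul_assoc, Matrix.nonsing_inv_mul _ hug, one_mul]
  have h3 := congrArg Matrix.trace h2
  rw [Matrix.trace_mul_comm, ← mul_assoc, Matrix.mul_nonsing_inv _ hug, one_mul,
    Matrix.trace_smul, smul_eq_mul] at h3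
  have hz : z = 1 := mul_right_cancel₀ htr (h3.symm.trans (one_mul _).symm)
  rw [h, hz, one_smul]

end Ell

end Fermat.Agent.LT

end
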