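import Fermat.Agent.LT.TwNorm

/-!
# The commutant of an elliptic matrix as a field

`γ ∈ M₂(K)` elliptic, `E = K[X]/(χ_γ)`, `F = L[X]/(χ_γ)`, and the norm from `F` to `E` in terms
of matrices.
-/

set_option autoImplicit false

noncomputable section

namespace Fermat.Agent.LT

open Matrix Polynomial

section One

variable {R : Type*} [Field R]

/-- the characteristic polynomial -/
def chp (γ : M2 R) : R[X] := X ^ 2 - C γ.trace * X + C γ.det

theorem chp_monic (γ : M2 R) : (chp γ).Monic := by
  unfold chp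
  monicity!

theorem natDegree_chp (γ : M2 R) : (chp γ).natDegree = 2 := by
  unfold chp
  compute_degree!

theorem chp_irreducible {γ : M2 R} (h : Ell γ) : Irreducible (chp γ) := by
  rw [(chp_monic γ).irreducible_iff_roots_eq_zero_of_degree_le_three (by rw [natDegree_chp])
    (by rw [natDegree_chp]; norm_num)]
  rw [Multiset.eq_zero_iff_forall_notMem]
  intro a ha
  rw [mem_roots (chp_monic γ).ne_zero, IsRoot.def] at ha
  apply h a
  simpa [chp] using ha

theorem aeval_chp (γ : M2 R) : aeval γ (chp γ) = 0 := by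
  have h : aeval γ (chp γ) = γ * γ - γ.trace • γ + γ.det • (1 : M2 R) := by
    simp only [chp, map_add, map_sub, map_mul, aeval_X, aeval_C, pow_two,
      Algebra.algebraMap_eq_smul_one, smul_mul_assoc, one_mul]
  rw [h, sq_eq]
  abel

/-- `K[X]/(χ_γ) → M₂(K)` -/
def toM (γ : M2 R) : AdjoinRoot (chp γ) →+* M2 R :=
  Ideal.Quotient.lift (Ideal.span {chp γ}) (aeval γ : R[X] →ₐ[R] M2 R).toRingHom (by
    intro a ha
    rw [Ideal.mem_span_singleton] at ha
    obtain ⟨b, rfl⟩ := ha
    change aeval γ (chp γ * b) = 0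
    rw [map_mul, aeval_chp, zero_mul])

theorem toM_mk (γ : M2 R) (p : R[X]) : toM γ (AdjoinRoot.mk _ p) = aeval γ p := rfl

theorem toM_root (γ : M2 R) : toM γ (AdjoinRoot.root _) = γ := by
  rw [AdjoinRoot.root, toM_mk, aeval_X]

theorem toM_of (γ : M2 R) (x : R) : toM γ (AdjoinRoot.of _ x) = x • (1 : M2 R) := by
  rw [← AdjoinRoot.mk_C, toM_mk, aeval_C, Algebra.algebraMap_eq_smul_one]

theorem toM_commute (γ : M2 R) (x : AdjoinRoot (chp γ)) : toM γ x * γ = γ * toM γ x := by
  have h := congrArg (toM γ) (mul_comm x (AdjoinRoot.root _))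
  rwa [map_mul, map_mul, toM_root] at h

end One

section Two

variable {K L : Type*} [Field K] [Field L] [Algebra K L] {τ : L ≃ₐ[K] L}

theorem up_one : up L (1 : M2 K) = 1 := by
  simp [up, Matrix.map_one]

theorem chp_up (γ : M2 K) : chp (up L γ) = (chp γ).map (algebraMap K L) := by
  simp [chp, trace_up, det_up]

/-- `E → F` -/
def toF (L : Type*) [Field L] [Algebra K L] (γ : M2 K) :
    AdjoinRoot (chp γ) →+* AdjoinRoot (chp (up L γ)) :=
  AdjoinRoot.map (algebraMap K L) _ _ (by rw [chp_up])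

theorem toF_root (γ : M2 K) : toF L γ (AdjoinRoot.root _) = AdjoinRoot.root _ := by
  simp [toF]

theorem toF_of (γ : M2 K) (x : K) :
    toF L γ (AdjoinRoot.of _ x) = AdjoinRoot.of _ (algebraMap K L x) := by
  simp [toF]

/-- the action of `τ` on `F` -/
def tauF (τ : L ≃ₐ[K] L) (γ : M2 K) :
    AdjoinRoot (chp (up L γ)) →+* AdjoinRoot (chp (up L γ)) :=
  AdjoinRoot.map (τ : L →+* L) _ _ (by
    rw [chp_up, Polynomial.map_map]
    have : (τ : L →+* L).comp (algebraMap K L) = algebraMap K L := by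
      ext x
      simp
    rw [this])

theorem tauF_root (γ : M2 K) : tauF τ γ (AdjoinRoot.root _) = AdjoinRoot.root _ := by
  simp [tauF]

theorem tauF_of (γ : M2 K) (x : L) :
    tauF τ γ (AdjoinRoot.of _ x) = AdjoinRoot.of _ (τ x) := by
  simp [tauF]

theorem tauF_toF (γ : M2 K) (x : AdjoinRoot (chp γ)) : tauF τ γ (toF L γ x) = toF L γ x := by
  have : (tauF τ γ).comp (toF L γ) = toF L γ := by
    apply AdjoinRoot.ringHom_ext
    · ext x
      simp [toF_of, tauF_of]
    · simp [toF_root, tauF_root]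
  exact congrArg (fun f => f x) this

theorem toM_tauF (γ : M2 K) (x : AdjoinRoot (chp (up L γ))) :
    toM (up L γ) (tauF τ γ x) = mt τ (toM (up L γ) x) := by
  have : (toM (up L γ)).comp (tauF τ γ) = (mt τ).comp (toM (up L γ)) := by
    apply AdjoinRoot.ringHom_ext
    · ext x : 1
      simp [tauF_of, toM_of, mt_smul]
    · simp [tauF_root, toM_root, mt_up]
  exact congrArg (fun f => f x) this

theorem toM_toF (γ : M2 K) (x : AdjoinRoot (chp γ)) :
    toM (up L γ) (toF L γ x) = up L (toM γ x) := by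
  have : (toM (up L γ)).comp (toF L γ) = ((algebraMap K L).mapMatrix).comp (toM γ) := by
    apply AdjoinRoot.ringHom_ext
    · ext x : 1
      change toM (up L γ) (toF L γ (AdjoinRoot.of _ x)) = up L (toM γ (AdjoinRoot.of _ x))
      rw [toF_of, toM_of, toM_of, up_smul, up_one]
    · change toM (up L γ) (toF L γ (AdjoinRoot.root _)) = up L (toM γ (AdjoinRoot.root _))
      rw [toF_root, toM_root, toM_root]
  exact congrArg (fun f => f x) this

end Two

section Three

variable {K L : Type*} [Field K] [Field L] [Algebra K L] {τ : L ≃ₐ[K] L} {γ : M2 K}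

theorem finrank_adjoinRoot_chp {R : Type*} [Field R] (γ : M2 R) :
    Module.finrank R (AdjoinRoot (chp γ)) = 2 := by
  rw [(AdjoinRoot.powerBasis' (chp_monic γ)).finrank, AdjoinRoot.powerBasis'_dim, natDegree_chp]

theorem finite_adjoinRoot_chp {R : Type*} [Field R] (γ : M2 R) :
    Module.Finite R (AdjoinRoot (chp γ)) :=
  (chp_monic γ).finite_adjoinRoot

/-- the `E`-algebra `F` -/
abbrev algF (L : Type*) [Field L] [Algebra K L] (γ : M2 K) :
    Algebra (AdjoinRoot (chp γ)) (AdjoinRoot (chp (up L γ))) := (toF L γ).toAlgebra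

attribute [local instance] algF

theorem tower_KEF : IsScalarTower K (AdjoinRoot (chp γ)) (AdjoinRoot (chp (up L γ))) :=
  IsScalarTower.of_algebraMap_eq fun x => by
    rw [AdjoinRoot.algebraMap_eq, RingHom.algebraMap_toAlgebra, toF_of,
      IsScalarTower.algebraMap_apply K L (AdjoinRoot (chp (up L γ))), AdjoinRoot.algebraMap_eq]

theorem finrank_EF [FiniteDimensional K L] (hE : Ell γ) (hF : Ell (up L γ)) :
    Module.finrank (AdjoinRoot (chp γ)) (AdjoinRoot (chp (up L γ))) = Module.finrank K L := by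
  have := Fact.mk (chp_irreducible hE)
  have := Fact.mk (chp_irreducible hF)
  have := tower_KEF (γ := γ) (L := L)
  have := finite_adjoinRoot_chp (up L γ)
  have h1 := Module.finrank_mul_finrank K (AdjoinRoot (chp γ)) (AdjoinRoot (chp (up L γ)))
  have h2 := Module.finrank_mul_finrank K L (AdjoinRoot (chp (up L γ)))
  rw [finrank_adjoinRoot_chp] at h1 h2
  omega

theorem finite_EF [FiniteDimensional K L] (hE : Ell γ) (hF : Ell (up L γ)) :
    Module.Finite (AdjoinRoot (chp γ)) (AdjoinRoot (chp (up L γ))) := by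
  have := Fact.mk (chp_irreducible hE)
  have := Fact.mk (chp_irreducible hF)
  have := tower_KEF (γ := γ) (L := L)
  have := finite_adjoinRoot_chp (up L γ)
  have : Module.Finite K (AdjoinRoot (chp (up L γ))) :=
    Module.Finite.trans L (AdjoinRoot (chp (up L γ)))
  exact Module.Finite.of_restrictScalars_finite K _ _

theorem Cyc3.norm_EF (hτ : Cyc3 τ) (h3 : Module.finrank K L = 3) (hE : Ell γ)
    (δ : AdjoinRoot (chp (up L γ))) :
    toF L γ (Algebra.norm (AdjoinRoot (chp γ)) δ) = δ * tauF τ γ δ * tauF τ γ (tauF τ γ δ) := by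
  have hF : Ell (up L γ) := hτ.ell_up hE
  have := Fact.mk (chp_irreducible hE)
  have := Fact.mk (chp_irreducible hF)
  have : FiniteDimensional K L := Module.finite_of_finrank_pos (by omega)
  have := finite_EF hE hF
  have hfr := finrank_EF hE hF
  rw [h3] at hfr
  let T : AdjoinRoot (chp (up L γ)) →ₐ[AdjoinRoot (chp γ)] AdjoinRoot (chp (up L γ)) :=
    { tauF τ γ with commutes' := tauF_toF γ }
  have hT : ∀ x, T x = tauF τ γ x := fun _ => rfl
  let T' : AdjoinRoot (chp (up L γ)) ≃ₐ[AdjoinRoot (chp γ)] AdjoinRoot (chp (up L γ)) :=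
    AlgEquiv.ofBijective T T.bijective
  have hT' : ∀ x, T' x = tauF τ γ x := fun _ => rfl
  obtain ⟨y, hy⟩ := hτ.ne
  have hof : Function.Injective (AdjoinRoot.of (chp (up L γ))) :=
    (AdjoinRoot.of (chp (up L γ))).injective
  have hy2 : τ (τ y) ≠ y := by
    intro h
    have h2 := hτ.cube y
    rw [h] at h2
    exact hy h2
  have h1 : T' ≠ 1 := by
    intro h
    have := congrArg (fun f => f (AdjoinRoot.of (chp (up L γ)) y)) h
    simp only [hT', tauF_of, AlgEquiv.one_apply] at this
    exact hy (hof this)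
  have h2 : T' * T' ≠ 1 := by
    intro h
    have := congrArg (fun f => f (AdjoinRoot.of (chp (up L γ)) y)) h
    simp only [AlgEquiv.mul_apply, hT', tauF_of, AlgEquiv.one_apply] at this
    exact hy2 (hof this)
  have h12 : T' * T' ≠ T' := fun h => h1 (mul_eq_left.mp h)
  classical
  have hle := AlgEquiv.card_le (F := AdjoinRoot (chp γ)) (K := AdjoinRoot (chp (up L γ)))
  rw [hfr] at hle
  have hc3 : ({1, T', T' * T'} : Finset (AdjoinRoot (chp (up L γ)) ≃ₐ[AdjoinRoot (chp γ)]
      AdjoinRoot (chp (up L γ)))).card = 3 := by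
    rw [Finset.card_insert_of_notMem, Finset.card_pair (Ne.symm h12)]
    simp only [Finset.mem_insert, Finset.mem_singleton, not_or]
    exact ⟨Ne.symm h1, Ne.symm h2⟩
  have hcu := Finset.card_le_univ ({1, T', T' * T'} : Finset (AdjoinRoot (chp (up L γ))
    ≃ₐ[AdjoinRoot (chp γ)] AdjoinRoot (chp (up L γ))))
  rw [hc3] at hcu
  have hcard : Fintype.card (AdjoinRoot (chp (up L γ)) ≃ₐ[AdjoinRoot (chp γ)]
    AdjoinRoot (chp (up L γ))) = 3 := le_antisymm hle hcu
  have hgal : IsGalois (AdjoinRoot (chp γ)) (AdjoinRoot (chp (up L γ))) :=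
    IsGalois.of_card_aut_eq_finrank _ _ (by rw [Nat.card_eq_fintype_card, hcard, hfr])
  have huniv : (Finset.univ : Finset (AdjoinRoot (chp (up L γ)) ≃ₐ[AdjoinRoot (chp γ)]
      AdjoinRoot (chp (up L γ)))) = {1, T', T' * T'} := by
    symm
    rw [← Finset.card_eq_iff_eq_univ, hc3, hcard]
  have hn := Algebra.norm_eq_prod_automorphisms (AdjoinRoot (chp γ)) δ
  rw [huniv, Finset.prod_insert, Finset.prod_pair (Ne.symm h12)] at hn
  · rw [RingHom.algebraMap_toAlgebra] at hn
    rw [hn, mul_assoc]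
    rfl
  · simp only [Finset.mem_insert, Finset.mem_singleton, not_or]
    exact ⟨Ne.symm h1, Ne.symm h2⟩

/-- **Norms from `F` and norms of matrices.** -/
theorem Cyc3.isNm_of_norm (hτ : Cyc3 τ) (h3 : Module.finrank K L = 3) (hE : Ell γ) {z : K}
    (hz : z ≠ 0) {δ : AdjoinRoot (chp (up L γ))}
    (h : Algebra.norm (AdjoinRoot (chp γ)) δ = AdjoinRoot.of _ z * AdjoinRoot.root _) :
    IsNm τ γ := by
  have hF : Ell (up L γ) := hτ.ell_up hE
  have := Fact.mk (chp_irreducible hE)
  have := Fact.mk (chp_irreducible hF)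
  have hn := hτ.norm_EF h3 hE δ
  rw [h] at hn
  have h1 := congrArg (toM (up L γ)) hn
  rw [toM_toF, map_mul, map_mul, map_mul, toM_tauF, toM_tauF, toM_tauF, toM_of, toM_root,
    smul_mul_assoc, one_mul, up_smul] at h1
  have hd : δ ≠ 0 := by
    rintro rfl
    rw [map_zero, zero_mul, zero_mul, map_eq_zero] at hn
    rcases mul_eq_zero.mp hn with h2 | h2
    · rw [map_eq_zero] at h2
      exact hz h2
    · have h4 := toM_root γ
      rw [h2, map_zero] at h4
      exact hE.det_ne_zero' (by rw [← h4]; simp)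
  refine ⟨toM (up L γ) δ, ?_, algebraMap K L z, 1, by simpa using hz, by simp, ?_⟩
  · have h2 : toM (up L γ) δ * toM (up L γ) δ⁻¹ = 1 := by
      rw [← map_mul, mul_inv_cancel₀ hd, map_one]
    intro h0
    have h5 := congrArg Matrix.det h2
    rw [Matrix.det_mul, h0, zero_mul, Matrix.det_one] at h5
    exact zero_ne_one h5
  · rw [mul_one, one_mul]
    exact h1.symm

end Three

end Fermat.Agent.LT

end
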