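import Fermat.Agent.LT.TwField
import Fermat.Agent.LT.Regular
import Fermat.Agent.LT.NormAlg

/-!
# The norm criterion of the cubic base change for `PGL₂`, global, in terms of `j = tr² / det`

`K` number field containing `ζ₃`, `L = K(α)`, `α³ = a`.  If at every finite place `v` of `K`
one of the following holds:
* `v` splits in `L` (`a ∈ locPow 3 v`),
* `|j - 4|_v < |81|_v` (`γ` is close to the identity modulo scalars and conjugation),
* `v ∤ 3`, `v(a) = 0` and `v(j) ≥ 0` (`γ` stabilises a lattice modulo scalars),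
then `γ` is a norm from `L`, modulo scalars and conjugation.
-/

set_option autoImplicit false

noncomputable section

namespace Fermat.Agent.LT

open Matrix Polynomial IsDedekindDomain NumberField WithZero
open Fermat.Agent.CFT.SUnits Fermat.Agent.CFT.Global Fermat.Agent.CFT.Places

section Local

variable {E : Type*} [Field E] [NumberField E] {w : HeightOneSpectrum (𝓞 E)}

/-- `(x - 1)² = c x` with `|c| < |3|⁴`: `x` is a local cube. -/
theorem mem_locPow_of_sq {x : Eˣ} {c : E} (hx : ((x : E) - 1) ^ 2 = c * x)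
    (hc : w.valuation E c < w.valuation E 81) : x ∈ locPow 3 w := by
  obtain ⟨e, he⟩ := exists_val_natCast (K := E) 3 (by norm_num) w
  have h81 : w.valuation E (81 : E) = exp (-(4 * e : ℤ)) := by
    have : (81 : E) = ((3 : ℕ) : E) ^ 4 := by norm_num
    rw [this, map_pow, he, ← WithZero.exp_nsmul]
    congr 1
    simp
  rw [h81] at hc
  have hc1 : w.valuation E c < 1 := by
    refine hc.trans_le ?_
    rw [← exp_zero, exp_le_exp]
    omega
  have hx0 : w.valuation E (x : E) ≠ 0 := by
    rw [Valuation.ne_zero_iff]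
    exact x.ne_zero
  have hsq : w.valuation E ((x : E) - 1) ^ 2 = w.valuation E c * w.valuation E (x : E) := by
    rw [← map_pow, hx, map_mul]
  -- `|x| = 1`
  have hx1 : w.valuation E (x : E) = 1 := by
    rcases lt_trichotomy (w.valuation E (x : E)) 1 with h | h | h
    · exfalso
      have h1 : w.valuation E ((x : E) - 1) = 1 := by
        rw [Valuation.map_sub_eq_of_lt_right _ (by rwa [map_one]), map_one]
      rw [h1, one_pow] at hsq
      have h2 : w.valuation E c * w.valuation E (x : E) < 1 := mul_lt_one_of_lt_of_le hc1 h.le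
      exact h2.ne hsq.symm
    · exact h
    · exfalso
      have h1 : w.valuation E ((x : E) - 1) = w.valuation E (x : E) := by
        rw [Valuation.map_sub_eq_of_lt_left _ (by rwa [map_one])]
      rw [h1, pow_two] at hsq
      have h2 := mul_right_cancel₀ hx0 hsq
      rw [h2] at h
      exact (h.trans hc1).false
  rw [hx1, mul_one] at hsq
  refine cong_le_of_newton 3 w (2 * e) (fun k hk => newton 3 (by norm_num) w e he k hk) ?_
  rw [mem_cong]
  by_contra hcon
  push Not at hcon
  have h1 : exp (-(2 * e : ℤ)) ≤ w.valuation E ((x : E) - 1) := by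
    have hne : w.valuation E ((x : E) - 1) ≠ 0 := by
      intro h0
      rw [h0] at hcon
      exact not_lt_zero hcon
    rw [← exp_log hne] at hcon ⊢
    rw [exp_lt_exp] at hcon
    rw [exp_le_exp]
    push_cast at hcon
    omega
  have h2 : exp (-(4 * e : ℤ)) ≤ w.valuation E ((x : E) - 1) ^ 2 := by
    have := pow_le_pow_left' h1 2
    rw [← WithZero.exp_nsmul] at this
    convert this using 2
    rw [smul_neg, nsmul_eq_mul]
    push_cast
    ring
  rw [hsq] at h2
  exact (h2.trans_lt hc).false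

/-- `x + 1/x = c` with `|c| ≤ 1`: `x` is a local unit. -/
theorem ord_eq_zero_of_add_inv {x : Eˣ} {c : E} (hx : (x : E) ^ 2 + 1 = c * x)
    (hc : w.valuation E c ≤ 1) : ord w x = 0 := by
  rw [ord_eq_zero_iff]
  have hx0 : w.valuation E (x : E) ≠ 0 := by
    rw [Valuation.ne_zero_iff]
    exact x.ne_zero
  rcases lt_trichotomy (w.valuation E (x : E)) 1 with h | h | h
  · exfalso
    have h1 : w.valuation E ((x : E) ^ 2 + 1) = 1 := by
      have h3 : w.valuation E ((x : E) ^ 2) < 1 := by
        rw [map_pow]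
        exact pow_lt_one₀ zero_le h two_ne_zero
      rw [Valuation.map_add_eq_of_lt_right _ (by rwa [map_one]), map_one]
    rw [hx, map_mul] at h1
    exact ((mul_le_of_le_one_left' hc).trans_lt h).ne h1
  · exact h
  · exfalso
    have h3 : w.valuation E ((x : E) ^ 2) = w.valuation E (x : E) * w.valuation E (x : E) := by
      rw [map_pow, pow_two]
    have h4 : 1 < w.valuation E ((x : E) ^ 2) := by
      rw [map_pow]
      exact one_lt_pow₀ h two_ne_zero
    have h1 : w.valuation E ((x : E) ^ 2 + 1) = w.valuation E (x : E) * w.valuation E (x : E) := by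
      rw [Valuation.map_add_eq_of_lt_left _ (by rwa [map_one]), h3]
    rw [hx, map_mul] at h1
    have h2 := mul_right_cancel₀ hx0 h1
    rw [h2] at hc
    exact absurd h (not_lt.mpr hc)

end Local

section Global

attribute [local instance] algF

/-- **The global norm theorem for `PGL₂`, cubic Kummer extensions.** -/
theorem isNm_of_local {K : Type} [Field K] [NumberField K] {ζ : K} (hζ : IsPrimitiveRoot ζ 3)
    [IsTotallyComplex K] {L : Type*} [Field L] [Algebra K L] {τ : L ≃ₐ[K] L} (hτ : Cyc3 τ)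
    (h3 : Module.finrank K L = 3) {a : Kˣ} {α : L} (hα : α ^ 3 = algebraMap K L a)
    (hL : IntermediateField.adjoin K {α} = ⊤) {γ : M2 K} (hγ : Ell γ)
    (h : ∀ v : HeightOneSpectrum (𝓞 K), a ∈ locPow 3 v ∨
      v.valuation K (jinv γ - 4) < v.valuation K 81 ∨
      (((3 : ℕ) : 𝓞 K) ∉ v.asIdeal ∧ ord v a = 0 ∧ v.valuation K (jinv γ) ≤ 1)) :
    IsNm τ γ := by
  have : Fact (Nat.Prime 3) := ⟨Nat.prime_three⟩
  have hF : Ell (up L γ) := hτ.ell_up hγ
  have := Fact.mk (chp_irreducible hγ)
  have := Fact.mk (chp_irreducible hF)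
  have : FiniteDimensional K L := Module.finite_of_finrank_pos (by omega)
  have hfinE := finite_adjoinRoot_chp γ
  have hfinEF := finite_EF hγ hF
  have hfr := finrank_EF hγ hF
  rw [h3] at hfr
  have htow := tower_KEF (γ := γ) (L := L)
  have hNE : NumberField (AdjoinRoot (chp γ)) := NumberField.of_module_finite K _
  have hTC : IsTotallyComplex (AdjoinRoot (chp γ)) := isTotallyComplex_of_algebra K _
  have h2 : Module.finrank K (AdjoinRoot (chp γ)) = 2 := finrank_adjoinRoot_chp γ
  -- `τ` moves `α`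
  have hατ : τ α ≠ α := by
    intro h0
    have key : ∀ y ∈ IntermediateField.adjoin K {α}, τ y = y := by
      intro y h1
      induction h1 using IntermediateField.adjoin_induction with
      | mem x hx =>
        rw [Set.mem_singleton_iff] at hx
        rw [hx, h0]
      | algebraMap x => exact AlgEquiv.commutes _ _
      | add x y _ _ hx hy => rw [map_add, hx, hy]
      | inv x _ hx => rw [map_inv₀, hx]
      | mul x y _ _ hx hy => rw [map_mul, hx, hy]
    obtain ⟨y, hy⟩ := hτ.ne
    exact hy (key y (by rw [hL]; trivial))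
  have hα0 : α ≠ 0 := by
    rintro rfl
    exact hατ (map_zero _)
  -- `a` is not a cube
  have hna : ∀ b : Kˣ, b ^ 3 ≠ a := by
    rintro b rfl
    apply hατ
    have hb0 : algebraMap K L b ≠ 0 := by simp
    have h1 : (α / algebraMap K L b) ^ 3 = 1 := by
      rw [_root_.div_pow, hα, Units.val_pow_eq_pow_val, map_pow, div_self (pow_ne_zero _ hb0)]
    obtain ⟨i, -, hi⟩ := (hζ.map_of_injective (algebraMap K L).injective).eq_pow_of_pow_eq_one h1
    have h4 : α = algebraMap K L (ζ ^ i * b) := by
      rw [map_mul, map_pow, hi]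
      field_simp
    rw [h4, AlgEquiv.commutes]
  -- the conjugation of `E`
  obtain ⟨σ, hσ⟩ : ∃ σ : AdjoinRoot (chp γ) ≃ₐ[K] AdjoinRoot (chp γ), σ ≠ 1 := by
    have : Algebra.IsQuadraticExtension K (AdjoinRoot (chp γ)) := { finrank_eq_two' := h2 }
    have hcard : Nat.card (AdjoinRoot (chp γ) ≃ₐ[K] AdjoinRoot (chp γ)) = 2 := by
      rw [IsGalois.card_aut_eq_finrank, h2]
    by_contra hcon
    push Not at hcon
    have : Nat.card (AdjoinRoot (chp γ) ≃ₐ[K] AdjoinRoot (chp γ)) ≤ 1 := by
      have : Subsingleton (AdjoinRoot (chp γ) ≃ₐ[K] AdjoinRoot (chp γ)) :=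
        ⟨fun a b => by rw [hcon a, hcon b]⟩
      exact Finite.card_le_one_iff_subsingleton.2 this
    omega
  set r : AdjoinRoot (chp γ) := AdjoinRoot.root (chp γ) with hr
  have hrq : r ^ 2 - AdjoinRoot.of _ γ.trace * r + AdjoinRoot.of _ γ.det = 0 := by
    have h1 := AdjoinRoot.mk_self (f := chp γ)
    change AdjoinRoot.mk (chp γ) (X ^ 2 - C γ.trace * X + C γ.det) = 0 at h1
    rwa [map_add, map_sub, map_mul, map_pow, AdjoinRoot.mk_X, AdjoinRoot.mk_C,
      AdjoinRoot.mk_C] at h1
  have hσK : ∀ x : K, σ (AdjoinRoot.of _ x) = AdjoinRoot.of _ x := fun x => σ.commutes x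
  have hσr : σ r ≠ r := by
    intro h0
    apply hσ
    apply AlgEquiv.ext
    intro x
    have h1 : (σ : AdjoinRoot (chp γ) →ₐ[K] AdjoinRoot (chp γ)) = AlgHom.id K _ := by
      apply AdjoinRoot.algHom_ext
      exact h0
    exact congrArg (fun f => f x) h1
  have hsum : r + σ r = AdjoinRoot.of _ γ.trace := by
    have h1 := congrArg σ hrq
    rw [map_add, map_sub, map_mul, map_pow, hσK, hσK, map_zero] at h1
    have h4 : (σ r - r) * (r + σ r - AdjoinRoot.of _ γ.trace) = 0 := by
      linear_combination h1 - hrq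
    exact sub_eq_zero.mp ((mul_eq_zero.mp h4).resolve_left (sub_ne_zero.mpr hσr))
  have hprod : r * σ r = AdjoinRoot.of _ γ.det := by
    linear_combination r * hsum - hrq
  have hd0 : AdjoinRoot.of (chp γ) γ.det ≠ 0 := by
    rw [Ne, map_eq_zero]
    exact hγ.det_ne_zero'
  have hr0 : r ≠ 0 := left_ne_zero_of_mul (hprod ▸ hd0)
  have hσr0 : σ r ≠ 0 := right_ne_zero_of_mul (hprod ▸ hd0)
  set x : (AdjoinRoot (chp γ))ˣ := Units.mk0 (r / σ r) (div_ne_zero hr0 hσr0) with hx
  have hxv : (x : AdjoinRoot (chp γ)) = r / σ r := rfl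
  have hj : AdjoinRoot.of (chp γ) (jinv γ) * (r * σ r) = (r + σ r) ^ 2 := by
    rw [hprod, hsum, jinv, map_div₀, map_pow]
    field_simp
  have hj4 : ((x : AdjoinRoot (chp γ)) - 1) ^ 2 =
      algebraMap K (AdjoinRoot (chp γ)) (jinv γ - 4) * x := by
    rw [hxv, map_sub]
    change _ = (AdjoinRoot.of (chp γ) (jinv γ) - algebraMap K _ 4) * _
    rw [map_ofNat]
    field_simp
    linear_combination (-1 : AdjoinRoot (chp γ)) * hj
  have hj2 : (x : AdjoinRoot (chp γ)) ^ 2 + 1 =
      algebraMap K (AdjoinRoot (chp γ)) (jinv γ - 2) * x := by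
    rw [map_sub, map_ofNat] at hj4 ⊢
    linear_combination hj4
  -- the local conditions over `E`
  have hval : ∀ (w : HeightOneSpectrum (𝓞 (AdjoinRoot (chp γ)))) (c d : K),
      (w.under (𝓞 K)).valuation K c < (w.under (𝓞 K)).valuation K d →
      w.valuation _ (algebraMap K (AdjoinRoot (chp γ)) c) <
        w.valuation _ (algebraMap K (AdjoinRoot (chp γ)) d) := by
    intro w c d hcd
    rw [valuation_algebraMap, valuation_algebraMap]
    exact pow_lt_pow_left₀ hcd zero_le (ramificationIdx'_ne_zero w)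
  have hval1 : ∀ (w : HeightOneSpectrum (𝓞 (AdjoinRoot (chp γ)))) (c : K),
      (w.under (𝓞 K)).valuation K c ≤ 1 →
      w.valuation _ (algebraMap K (AdjoinRoot (chp γ)) c) ≤ 1 := by
    intro w c hc
    rw [valuation_algebraMap]
    exact pow_le_one₀ zero_le hc
  have hloc : ∀ w : HeightOneSpectrum (𝓞 (AdjoinRoot (chp γ))),
      a ∈ locPow 3 (w.under (𝓞 K)) ∨ x ∈ locPow 3 w ∨
      (((3 : ℕ) : 𝓞 K) ∉ (w.under (𝓞 K)).asIdeal ∧ ord (w.under (𝓞 K)) a = 0 ∧ ord w x = 0) := by
    intro w
    rcases h (w.under (𝓞 K)) with h1 | h1 | ⟨h1, h4, h5⟩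
    · exact Or.inl h1
    · refine Or.inr (Or.inl (mem_locPow_of_sq hj4 ?_))
      have := hval w _ _ h1
      rwa [map_ofNat] at this
    · refine Or.inr (Or.inr ⟨h1, h4, ord_eq_zero_of_add_inv hj2 ?_⟩)
      refine hval1 w _ ((Valuation.map_sub _ _ _).trans (max_le h5 ?_))
      have h6 := (w.under (𝓞 K)).valuation_le_one (K := K) (2 : 𝓞 K)
      have h7 : algebraMap (𝓞 K) K 2 = 2 := map_ofNat _ 2
      exact (congrArg (fun y => (w.under (𝓞 K)).valuation K y) h7).symm.trans_le h6
  have hα' : (AdjoinRoot.of (chp (up L γ)) α) ^ 3 = algebraMap (AdjoinRoot (chp γ)) _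
      (algebraMap K (AdjoinRoot (chp γ)) a) := by
    rw [← map_pow, hα, ← IsScalarTower.algebraMap_apply,
      IsScalarTower.algebraMap_apply K L (AdjoinRoot (chp (up L γ)))]
    rfl
  have hadj : IntermediateField.adjoin (AdjoinRoot (chp γ))
      {AdjoinRoot.of (chp (up L γ)) α} = ⊤ := by
    have hs := IntermediateField.isSimpleOrder_of_finrank_prime (AdjoinRoot (chp γ))
      (AdjoinRoot (chp (up L γ))) (by rw [hfr]; exact Nat.prime_three)
    refine (hs.eq_bot_or_eq_top _).resolve_left ?_
    intro hb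
    rw [IntermediateField.adjoin_simple_eq_bot_iff, IntermediateField.mem_bot] at hb
    obtain ⟨y, hy⟩ := hb
    have h1 := tauF_toF (τ := τ) γ y
    rw [RingHom.algebraMap_toAlgebra] at hy
    rw [hy, tauF_of] at h1
    exact hατ ((AdjoinRoot.of (chp (up L γ))).injective h1)
  obtain ⟨z, hz, δ, hδ⟩ := NormAlg.exists_norm_mul_of_local (p := 3)
    (hζ.map_of_injective (algebraMap K (AdjoinRoot (chp γ))).injective) (by norm_num) h2 hna hσ
    (γ := Units.mk0 r hr0) (x := x) (by rw [hxv]; rfl) hloc (F := AdjoinRoot (chp (up L γ)))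
    (α := AdjoinRoot.of _ α) hα' hadj hfr
  exact hτ.isNm_of_norm h3 hγ hz hδ

end Global

end Fermat.Agent.LT

end
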