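import Fermat.Agent.LT.TwHasse

/-!
# The invariant `j = tr² / det`: local integrality

* `jinv` is invariant under conjugation and scalars;
* `v(j(γ)) ≤ 1` if `γ` is conjugate modulo scalars to an integral matrix with unit determinant;
* `v(j(γ) - 4) ≤ r²` if `γ` is conjugate modulo scalars to `1 + X` with `v(X i j) ≤ r < 1`.
-/

set_option autoImplicit false

noncomputable section

namespace Fermat.Agent.LT

open Matrix IsDedekindDomain NumberField

section Basic

variable {F : Type*} [Field F]

theorem PConj.jinv_eq {M N : M2 F} (h : PConj M N) : jinv M = jinv N := by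
  obtain ⟨z, g, hz, hg, h⟩ := h
  rw [jinv, jinv, PConj.trace hg h, PConj.det hg h, mul_pow,
    mul_div_mul_left _ _ (pow_ne_zero 2 hz)]

theorem trace_ne_zero_of_pconj {M N : M2 F} (ht : M.trace ≠ 0) (h : PConj M N) :
    N.trace ≠ 0 := by
  obtain ⟨z, g, hz, hg, h⟩ := h
  rw [PConj.trace hg h] at ht
  exact right_ne_zero_of_mul ht

theorem ell_of_pconj {M N : M2 F} (hM : Ell M) (h : PConj M N) : Ell N := by
  obtain ⟨z, g, hz, hg, h⟩ := h
  intro a ha
  apply hM (z * a)
  rw [PConj.trace hg h, PConj.det hg h]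
  linear_combination z ^ 2 * ha

theorem jinv_up {L : Type*} [Field L] [Algebra F L] (M : M2 F) :
    jinv (up L M) = algebraMap F L (jinv M) := jinv_map _ M

/-- Elliptic classes are classified by `j`. -/
theorem pconj_iff_jinv {M N : M2 F} (hM : ¬ IsScal M) (hN : ¬ IsScal N) (hM0 : M.det ≠ 0)
    (hN0 : N.det ≠ 0) (ht : N.trace ≠ 0) : PConj M N ↔ jinv M = jinv N := by
  refine ⟨PConj.jinv_eq, fun h => ?_⟩
  have h1 : M.trace ^ 2 * N.det = N.trace ^ 2 * M.det := by
    rw [jinv, jinv] at h
    field_simp at h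
    linear_combination h
  have ht' : M.trace ≠ 0 := by
    intro h0
    rw [h0, zero_pow two_ne_zero, zero_mul] at h1
    exact (mul_ne_zero (pow_ne_zero 2 ht) hM0) h1.symm
  refine PConj.of_trace_det hM hN (c := M.trace / N.trace) (div_ne_zero ht' ht) ?_ ?_
  · field_simp
  · field_simp
    linear_combination -h1

/-- the determinant and the trace of `1 + X` -/
theorem disc_one_add (X : M2 F) :
    (1 + X).trace ^ 2 - 4 * (1 + X).det = X.trace ^ 2 - 4 * X.det := by
  simp [Matrix.trace_fin_two, Matrix.det_fin_two]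
  ring

end Basic

section Val

variable {F : Type*} [Field F] {Γ₀ : Type*} [LinearOrderedCommGroupWithZero Γ₀]
  (v : Valuation F Γ₀)

theorem val_trace_le {M : M2 F} {r : Γ₀} (h : ∀ i j, v (M i j) ≤ r) : v M.trace ≤ r := by
  rw [Matrix.trace_fin_two]
  exact (v.map_add _ _).trans (max_le (h 0 0) (h 1 1))

theorem val_det_le {M : M2 F} {r : Γ₀} (h : ∀ i j, v (M i j) ≤ r) : v M.det ≤ r ^ 2 := by
  rw [Matrix.det_fin_two, pow_two]
  refine (v.map_sub _ _).trans (max_le ?_ ?_)
  · rw [map_mul]
    exact mul_le_mul' (h 0 0) (h 1 1)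
  · rw [map_mul]
    exact mul_le_mul' (h 0 1) (h 1 0)

/-- `j` is integral on integral matrices with unit determinant. -/
theorem val_jinv_le_one {M : M2 F} (h : ∀ i j, v (M i j) ≤ 1) (hd : v M.det = 1) :
    v (jinv M) ≤ 1 := by
  rw [jinv, map_div₀, hd, div_one, map_pow]
  exact pow_le_one₀ zero_le (val_trace_le v h)

/-- `j` is close to `4` near the identity. -/
theorem val_jinv_sub_le {X : M2 F} {r : Γ₀} (hr : r < 1) (h : ∀ i j, v (X i j) ≤ r) :
    v (jinv (1 + X) - 4) ≤ r ^ 2 := by
  have hdX : v X.det ≤ r := by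
    refine (val_det_le v h).trans ?_
    rw [pow_two]
    exact mul_le_of_le_one_left' hr.le
  have hd : v (1 + X).det = 1 := by
    have h1 : (1 + X).det = 1 + (X.trace + X.det) := by
      simp [Matrix.trace_fin_two, Matrix.det_fin_two]
      ring
    have h2 : v (X.trace + X.det) < 1 :=
      ((v.map_add _ _).trans (max_le (val_trace_le v h) hdX)).trans_lt hr
    rw [h1, Valuation.map_add_eq_of_lt_left _ (by rwa [map_one]), map_one]
  have hd0 : (1 + X).det ≠ 0 := by
    intro h0
    rw [h0, map_zero] at hd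
    exact zero_ne_one hd
  have h3 : jinv (1 + X) - 4 = (X.trace ^ 2 - 4 * X.det) / (1 + X).det := by
    rw [← disc_one_add, jinv]
    field_simp
  rw [h3, map_div₀, hd, div_one]
  have h4 : v (4 : F) ≤ 1 := by
    have h2 : v (1 + 1 : F) ≤ 1 :=
      (v.map_add _ _).trans (max_le (map_one v).le (map_one v).le)
    have h5 : (4 : F) = (1 + 1) + (1 + 1) := by norm_num
    rw [h5]
    exact (v.map_add _ _).trans (max_le h2 h2)
  refine (v.map_sub _ _).trans (max_le ?_ ?_)
  · rw [map_pow]
    exact pow_le_pow_left' (val_trace_le v h) 2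
  · rw [map_mul]
    exact (mul_le_of_le_one_left' h4).trans (val_det_le v h)

/-- conjugate modulo scalars to an integral matrix with unit determinant -/
theorem val_jinv_le_one_of_pconj {M N : M2 F} (hMN : PConj M N) (h : ∀ i j, v (N i j) ≤ 1)
    (hd : v N.det = 1) : v (jinv M) ≤ 1 := by
  rw [hMN.jinv_eq]
  exact val_jinv_le_one v h hd

/-- conjugate modulo scalars to `1 + X`, `X` small -/
theorem val_jinv_sub_le_of_pconj {M X : M2 F} (hMN : PConj M (1 + X)) {r : Γ₀} (hr : r < 1)
    (h : ∀ i j, v (X i j) ≤ r) : v (jinv M - 4) ≤ r ^ 2 := by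
  rw [hMN.jinv_eq]
  exact val_jinv_sub_le v hr h

end Val

section Comp

variable {K : Type*} [Field K] [NumberField K] (v : HeightOneSpectrum (𝓞 K))

/-- `j` at a finite place, read in the completion. -/
theorem valuation_jinv (γ : M2 K) (c : K) :
    v.valuation K (jinv γ - c) =
      Valued.v (jinv (γ.map (algebraMap K (v.adicCompletion K))) -
        algebraMap K (v.adicCompletion K) c) := by
  rw [jinv_map, ← map_sub]
  exact (v.valuedAdicCompletion_eq_valuation' _).symm

/-- Good places: `γ` is conjugate, in the completion and modulo scalars, to an integral matrix with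
unit determinant. -/
theorem valuation_jinv_le_one {γ : M2 K} {N : M2 (v.adicCompletion K)}
    (h : PConj (γ.map (algebraMap K (v.adicCompletion K))) N) (hN : ∀ i j, Valued.v (N i j) ≤ 1)
    (hd : Valued.v N.det = 1) : v.valuation K (jinv γ) ≤ 1 := by
  have h1 := valuation_jinv v γ 0
  rw [sub_zero, map_zero, sub_zero] at h1
  rw [h1]
  exact val_jinv_le_one_of_pconj _ h hN hd

/-- Bad places: `γ` is conjugate, in the completion and modulo scalars, to a matrix close to `1`. -/
theorem valuation_jinv_sub_le {γ : M2 K} {X : M2 (v.adicCompletion K)}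
    (h : PConj (γ.map (algebraMap K (v.adicCompletion K))) (1 + X)) {r : WithZero (Multiplicative ℤ)}
    (hr : r < 1) (hX : ∀ i j, Valued.v (X i j) ≤ r) : v.valuation K (jinv γ - 4) ≤ r ^ 2 := by
  rw [valuation_jinv v γ 4, map_ofNat]
  exact val_jinv_sub_le_of_pconj _ h hr hX

end Comp

end Fermat.Agent.LT

end
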