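import Fermat.Agent.LT.TwClass

/-!
# Twisted classes modulo scalars, and the norm criterion
-/

set_option autoImplicit false

noncomputable section

namespace Fermat.Agent.LT

open Matrix

section General

variable {F : Type*} [Field F]

theorem det_inv_ne_zero {g : M2 F} (hg : g.det ≠ 0) : (g⁻¹).det ≠ 0 := by
  rw [Matrix.det_nonsing_inv, Ring.inverse_eq_inv']
  exact inv_ne_zero hg

theorem mul_inv_of_det {g : M2 F} (hg : g.det ≠ 0) : g * g⁻¹ = 1 :=
  Matrix.mul_nonsing_inv _ hg.isUnit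

theorem inv_mul_of_det {g : M2 F} (hg : g.det ≠ 0) : g⁻¹ * g = 1 :=
  Matrix.nonsing_inv_mul _ hg.isUnit

theorem det_smul_ne_zero {g : M2 F} {z : F} (hz : z ≠ 0) (hg : g.det ≠ 0) :
    (z • g).det ≠ 0 := by
  rw [Matrix.det_smul, Fintype.card_fin]
  exact mul_ne_zero (pow_ne_zero 2 hz) hg

theorem det_mul_ne_zero {g h : M2 F} (hg : g.det ≠ 0) (hh : h.det ≠ 0) : (g * h).det ≠ 0 := by
  rw [Matrix.det_mul]
  exact mul_ne_zero hg hh

/-- conjugate modulo scalars -/
def PConj (M N : M2 F) : Prop := ∃ (z : F) (g : M2 F), z ≠ 0 ∧ g.det ≠ 0 ∧ M * g = z • (g * N)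

theorem PConj.refl (M : M2 F) : PConj M M := ⟨1, 1, one_ne_zero, by simp, by simp⟩

theorem PConj.trans {M N P : M2 F} (h1 : PConj M N) (h2 : PConj N P) : PConj M P := by
  obtain ⟨z, g, hz, hg, h⟩ := h1
  obtain ⟨z', g', hz', hg', h'⟩ := h2
  refine ⟨z * z', g * g', mul_ne_zero hz hz', det_mul_ne_zero hg hg', ?_⟩
  rw [← mul_assoc, h, smul_mul_assoc, mul_assoc g, h', mul_smul_comm, smul_smul, mul_assoc]

theorem PConj.symm {M N : M2 F} (h1 : PConj M N) : PConj N M := by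
  obtain ⟨z, g, hz, hg, h⟩ := h1
  refine ⟨z⁻¹, g⁻¹, inv_ne_zero hz, det_inv_ne_zero hg, ?_⟩
  have h2 : g⁻¹ * M = z • (N * g⁻¹) := by
    have h3 : g⁻¹ * (M * g) * g⁻¹ = g⁻¹ * (z • (g * N)) * g⁻¹ := by rw [h]
    rw [mul_assoc, mul_assoc, mul_inv_of_det hg, mul_one, mul_smul_comm, ← mul_assoc,
      inv_mul_of_det hg, one_mul, smul_mul_assoc] at h3
    exact h3
  rw [h2, smul_smul, inv_mul_cancel₀ hz, one_smul]

theorem PConj.of_smul {M : M2 F} {c : F} (hc : c ≠ 0) : PConj (c • M) M :=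
  ⟨c, 1, hc, by simp, by simp⟩

theorem PConj.trace {M N : M2 F} {z : F} {g : M2 F} (hg : g.det ≠ 0)
    (h : M * g = z • (g * N)) : M.trace = z * N.trace := by
  have h1 : M = z • (g * N * g⁻¹) := by
    rw [← smul_mul_assoc, ← h, mul_assoc, mul_inv_of_det hg, mul_one]
  rw [h1, Matrix.trace_smul, Matrix.trace_mul_comm, ← mul_assoc, inv_mul_of_det hg, one_mul,
    smul_eq_mul]

theorem PConj.det {M N : M2 F} {z : F} {g : M2 F} (hg : g.det ≠ 0)
    (h : M * g = z • (g * N)) : M.det = z ^ 2 * N.det := by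
  have h1 := congrArg Matrix.det h
  rw [Matrix.det_mul, Matrix.det_smul, Matrix.det_mul, Fintype.card_fin] at h1
  have h2 : g.det * (M.det - z ^ 2 * N.det) = 0 := by linear_combination h1
  exact sub_eq_zero.mp ((mul_eq_zero.mp h2).resolve_left hg)

/-- Two non-scalar matrices whose characteristic polynomials match up to a scalar are conjugate
modulo scalars. -/
theorem PConj.of_trace_det {M N : M2 F} (hM : ¬ IsScal M) (hN : ¬ IsScal N) {c : F} (hc : c ≠ 0)
    (ht : M.trace = c * N.trace) (hd : M.det = c ^ 2 * N.det) : PConj M N := by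
  obtain ⟨g, hg, hgM⟩ := exists_conj_comp hM
  obtain ⟨g', hg', hgN⟩ := exists_conj_comp hN
  have h1 : PConj M (comp2 M.trace M.det) := ⟨1, g, one_ne_zero, hg, by rw [one_smul, hgM]⟩
  have h2 : PConj N (comp2 N.trace N.det) := ⟨1, g', one_ne_zero, hg', by rw [one_smul, hgN]⟩
  have h3 : PConj (comp2 M.trace M.det) (comp2 N.trace N.det) := by
    refine ⟨c, !![c, 0; 0, 1], hc, by simpa [Matrix.det_fin_two] using hc, ?_⟩
    rw [ht, hd]
    ext i j
    fin_cases i <;> fin_cases j <;> simp [comp2, Matrix.mul_apply, Fin.sum_univ_two] <;> ring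
  exact (h1.trans h3).trans h2.symm

theorem adj_eq (γ : M2 F) : γ.adjugate = γ.trace • (1 : M2 F) + (-1 : F) • γ := by
  ext i j
  fin_cases i <;> fin_cases j <;> simp [Matrix.adjugate_fin_two, Matrix.trace_fin_two]

theorem sq_eq (γ : M2 F) : γ * γ = γ.trace • γ - γ.det • (1 : M2 F) := by
  ext i j
  fin_cases i <;> fin_cases j <;>
    simp [Matrix.mul_apply, Fin.sum_univ_two, Matrix.trace_fin_two, Matrix.det_fin_two] <;> ring

end General

variable {K L : Type*} [Field K] [Field L] [Algebra K L] {τ : L ≃ₐ[K] L}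

/-- `τ`-conjugate modulo scalars -/
def TwConj (τ : L ≃ₐ[K] L) (d d' : M2 L) : Prop :=
  ∃ (z : L) (g : M2 L), z ≠ 0 ∧ g.det ≠ 0 ∧ d * mt τ g = z • (g * d')

theorem det_mt_ne_zero {g : M2 L} (hg : g.det ≠ 0) : (mt τ g).det ≠ 0 := by
  rw [det_mt]
  simpa using hg

theorem mt_inv {g : M2 L} (hg : g.det ≠ 0) : mt τ g⁻¹ = (mt τ g)⁻¹ := by
  symm
  apply Matrix.inv_eq_right_inv
  rw [← map_mul, mul_inv_of_det hg, map_one]

theorem TwConj.refl (d : M2 L) : TwConj τ d d := ⟨1, 1, one_ne_zero, by simp, by simp⟩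

theorem TwConj.trans {d e f : M2 L} (h1 : TwConj τ d e) (h2 : TwConj τ e f) : TwConj τ d f := by
  obtain ⟨z, g, hz, hg, h⟩ := h1
  obtain ⟨z', g', hz', hg', h'⟩ := h2
  refine ⟨z * z', g * g', mul_ne_zero hz hz', det_mul_ne_zero hg hg', ?_⟩
  rw [map_mul, ← mul_assoc, h, smul_mul_assoc, mul_assoc g, h', mul_smul_comm, smul_smul,
    mul_assoc]

theorem TwConj.symm {d e : M2 L} (h1 : TwConj τ d e) : TwConj τ e d := by
  obtain ⟨z, g, hz, hg, h⟩ := h1
  refine ⟨z⁻¹, g⁻¹, inv_ne_zero hz, det_inv_ne_zero hg, ?_⟩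
  have h2 : g⁻¹ * d = z • (e * mt τ g⁻¹) := by
    have h3 : g⁻¹ * (d * mt τ g) * (mt τ g)⁻¹ = g⁻¹ * (z • (g * e)) * (mt τ g)⁻¹ := by rw [h]
    rw [mul_assoc, mul_assoc, mul_inv_of_det (det_mt_ne_zero hg), mul_one, mul_smul_comm,
      ← mul_assoc, inv_mul_of_det hg, one_mul, smul_mul_assoc, ← mt_inv hg] at h3
    exact h3
  rw [h2, smul_smul, inv_mul_cancel₀ hz, one_smul]

theorem TwConj.of_smul {d : M2 L} {c : L} (hc : c ≠ 0) : TwConj τ (c • d) d :=
  ⟨c, 1, hc, by simp, by simp⟩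

variable (hτ : Cyc3 τ)
include hτ

theorem Cyc3.nm_conj_smul {d e g : M2 L} {z : L} (h : d * mt τ g = z • (g * e)) :
    nm τ d * g = nmL τ z • (g * nm τ e) := by
  have h1 : d * mt τ g = g * (z • e) := by rw [h, mul_smul_comm]
  rw [hτ.nm_conj h1, nm_smul, mul_smul_comm]

/-- The norm is well defined on classes modulo scalars. -/
theorem Cyc3.pconj_nm {d e : M2 L} (h : TwConj τ d e) : PConj (nm τ d) (nm τ e) := by
  obtain ⟨z, g, hz, hg, h⟩ := h
  exact ⟨nmL τ z, g, nmL_ne_zero hz, hg, hτ.nm_conj_smul h⟩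

omit hτ in
theorem nm_det_ne_zero {d : M2 L} (hd : d.det ≠ 0) : (nm τ d).det ≠ 0 := by
  rw [det_nm]
  exact nmL_ne_zero hd

/-- **Representatives with a prescribed norm.** -/
theorem Cyc3.exists_rep' {e : M2 L} (he : e.det ≠ 0) {γ : M2 K} (hγ : Ell γ)
    (ht : γ.trace ≠ 0) (h : PConj (nm τ e) (up L γ)) :
    ∃ (c : K) (e' : M2 L), c ≠ 0 ∧ e'.det ≠ 0 ∧ TwConj τ e e' ∧
      nm τ e' = algebraMap K L c • up L γ ∧ e' * up L γ = up L γ * e' := by
  obtain ⟨c, g₀, hc, hg₀, h0⟩ := h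
  have htr := PConj.trace hg₀ h0
  have hdet := PConj.det hg₀ h0
  rw [trace_up] at htr
  rw [det_up] at hdet
  obtain ⟨b, hb⟩ := hτ.trace_nm_mem he
  obtain ⟨c', rfl⟩ : c ∈ Set.range (algebraMap K L) := by
    refine ⟨b / γ.trace, ?_⟩
    have h1 : algebraMap K L γ.trace ≠ 0 := by simpa using ht
    rw [map_div₀, hb, htr]
    field_simp
  have hc0 : c' ≠ 0 := by
    rintro rfl
    exact hc (map_zero _)
  have hupns : ¬ IsScal (up L γ) := (hτ.ell_up hγ).not_isScal
  have hens : ¬ IsScal (nm τ e) := by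
    rintro ⟨x, hx⟩
    apply hupns
    rw [hx, smul_mul_assoc, one_mul] at h0
    refine ⟨(algebraMap K L c')⁻¹ * x, ?_⟩
    have h2 : ((algebraMap K L c')⁻¹ * x) • (g₀⁻¹ * g₀) = g₀⁻¹ * (g₀ * up L γ) := by
      have h3 : g₀⁻¹ * (x • g₀) = g₀⁻¹ * (algebraMap K L c' • (g₀ * up L γ)) := by rw [h0]
      rw [mul_smul_comm, mul_smul_comm] at h3
      rw [← smul_smul, h3, smul_smul, inv_mul_cancel₀ hc, one_smul]
    rw [← mul_assoc, inv_mul_of_det hg₀, one_mul] at h2
    exact h2.symm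
  obtain ⟨g₂, hg₂, hg₂c⟩ := exists_conj_comp hens
  obtain ⟨k, hk, hkc⟩ : ∃ k : M2 K, k.det ≠ 0 ∧
      comp2 (c' * γ.trace) (c' ^ 2 * γ.det) * k = k * (c' • γ) := by
    have hs1 : ¬ IsScal (c' • γ) := by
      rintro ⟨x, hx⟩
      apply hγ.not_isScal
      refine ⟨c'⁻¹ * x, ?_⟩
      rw [← smul_smul, ← hx, smul_smul, inv_mul_cancel₀ hc0, one_smul]
    obtain ⟨k, hk, hkc⟩ := exists_conj_comp hs1
    refine ⟨k⁻¹, det_inv_ne_zero hk, ?_⟩
    rw [Matrix.trace_smul, Matrix.det_smul, Fintype.card_fin, smul_eq_mul] at hkc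
    have h2 : k⁻¹ * ((c' • γ) * k) * k⁻¹ =
        k⁻¹ * (k * comp2 (c' * γ.trace) (c' ^ 2 * γ.det)) * k⁻¹ := by rw [hkc]
    rw [mul_assoc, mul_assoc, mul_inv_of_det hk, mul_one, ← mul_assoc k⁻¹,
      inv_mul_of_det hk, one_mul] at h2
    exact h2.symm
  set q : M2 L := g₂ * up L k with hq
  have hupk : (up L k).det ≠ 0 := by
    rw [det_up]
    simpa using hk
  have hq0 : q.det ≠ 0 := det_mul_ne_zero hg₂ hupk
  have hqN : nm τ e * q = q * (algebraMap K L c' • up L γ) := by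
    have hcomp : comp2 (nm τ e).trace (nm τ e).det =
        up L (comp2 (c' * γ.trace) (c' ^ 2 * γ.det)) := by
      rw [htr, hdet]
      ext i j
      fin_cases i <;> fin_cases j <;> simp [comp2, up]
    rw [hq, ← mul_assoc, hg₂c, hcomp, mul_assoc, ← up_mul, hkc, up_mul, up_smul, mul_assoc]
  set e' : M2 L := q⁻¹ * (e * mt τ q) with he'
  have hee' : e * mt τ q = q * e' := by
    rw [he', ← mul_assoc, mul_inv_of_det hq0, one_mul]
  have he'0 : e'.det ≠ 0 :=
    det_mul_ne_zero (det_inv_ne_zero hq0) (det_mul_ne_zero he (det_mt_ne_zero hq0))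
  have hne' : nm τ e' = algebraMap K L c' • up L γ := by
    have h1 := hτ.nm_conj hee'
    rw [hqN] at h1
    have h2 := congrArg (fun M => q⁻¹ * M) h1
    simp only [← mul_assoc, inv_mul_of_det hq0, one_mul] at h2
    exact h2.symm
  have he'c : e' * up L γ = up L γ * e' := by
    have h1 := hτ.mul_mt_nm e'
    rw [hne', mt_smul, mt_up, AlgEquiv.commutes, mul_smul_comm, smul_mul_assoc] at h1
    have h2 := congrArg (fun M => (algebraMap K L c')⁻¹ • M) h1
    simpa only [smul_smul, inv_mul_cancel₀ hc, one_smul] using h2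
  exact ⟨c', e', hc0, he'0, ⟨1, q, one_ne_zero, hq0, by rw [one_smul, hee']⟩, hne', he'c⟩

/-- **Injectivity of the norm on classes modulo scalars**, base point over `K`. -/
theorem Cyc3.twConj_of_pconj {d e : M2 L} (hd : d.det ≠ 0) (he : e.det ≠ 0) {γ : M2 K}
    (hγ : Ell γ) (ht : γ.trace ≠ 0) (hdγ : PConj (nm τ d) (up L γ))
    (heγ : PConj (nm τ e) (up L γ)) : TwConj τ d e := by
  obtain ⟨c₁, d', hc₁, hd', t1, n1, k1⟩ := hτ.exists_rep' hd hγ ht hdγ
  obtain ⟨c₂, e', hc₂, he', t2, n2, k2⟩ := hτ.exists_rep' he hγ ht heγ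
  have hc1 : algebraMap K L c₁ ≠ 0 := by simpa using hc₁
  obtain ⟨z, g, hz, hg, -, hzg⟩ := hτ.exists_conj_of_commute hγ hd' he' k1 k2
    (c := c₂ / c₁) (by rw [n2, n1, smul_smul, map_div₀, div_mul_cancel₀ _ hc1])
  exact (t1.trans ⟨z, g, hz, hg, hzg⟩).trans t2.symm

/-- The norm of a twisted class comes from `K`. -/
theorem Cyc3.exists_pconj_up {d : M2 L} (hd : d.det ≠ 0) (hs : Ell (nm τ d))
    (ht : (nm τ d).trace ≠ 0) :
    ∃ γ : M2 K, Ell γ ∧ γ.trace ≠ 0 ∧ PConj (nm τ d) (up L γ) := by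
  obtain ⟨g₁, h₁, γ, hg₁, hh₁, hdh, hnγ, hγ0, hcom⟩ := hτ.exists_rep hd hs.not_isScal
  have h1 : nm τ d * g₁ = (1 : L) • (g₁ * up L γ) := by
    rw [one_smul, hτ.nm_conj hdh, hnγ]
    rfl
  have h2 := PConj.trace hg₁ h1
  have h3 := PConj.det hg₁ h1
  rw [one_mul, trace_up] at h2
  rw [one_pow, one_mul, det_up] at h3
  refine ⟨γ, ?_, ?_, ⟨1, g₁, one_ne_zero, hg₁, h1⟩⟩
  · intro x hx
    apply hs (algebraMap K L x)
    rw [h2, h3, ← map_pow, ← map_mul, ← map_sub, ← map_add, hx, map_zero]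
  · intro h0
    exact ht (by rw [h2, h0, map_zero])

/-- **Injectivity of the norm on classes modulo scalars.** -/
theorem Cyc3.twConj_iff {d e : M2 L} (hd : d.det ≠ 0) (he : e.det ≠ 0)
    (hs : Ell (nm τ d)) (ht : (nm τ d).trace ≠ 0) :
    TwConj τ d e ↔ PConj (nm τ d) (nm τ e) := by
  refine ⟨hτ.pconj_nm, ?_⟩
  intro h
  obtain ⟨γ, hγ, hγt, hdγ⟩ := hτ.exists_pconj_up hd hs ht
  exact hτ.twConj_of_pconj hd he hγ hγt hdγ (h.symm.trans hdγ)

omit hτ in
/-- Conjugacy modulo scalars over `L` of matrices over `K` descends (non-zero trace). -/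
theorem pconj_up_iff {γ γ' : M2 K} (hγ : ¬ IsScal γ) (hγ' : ¬ IsScal γ') (ht : γ'.trace ≠ 0) :
    PConj (up L γ) (up L γ') ↔ PConj γ γ' := by
  constructor
  · rintro ⟨z, g, hz, hg, h⟩
    have h1 := PConj.trace hg h
    have h2 := PConj.det hg h
    rw [trace_up, trace_up] at h1
    rw [det_up, det_up] at h2
    have ht' : algebraMap K L γ'.trace ≠ 0 := by simpa using ht
    have hz' : z = algebraMap K L (γ.trace / γ'.trace) := by
      rw [map_div₀, h1]
      field_simp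
    subst hz'
    have hc0 : γ.trace / γ'.trace ≠ 0 := by
      intro h0
      rw [h0, map_zero] at hz
      exact hz rfl
    refine PConj.of_trace_det hγ hγ' hc0 (by field_simp) ?_
    apply (algebraMap K L).injective
    rw [h2, map_mul, map_pow]
  · rintro ⟨z, g, hz, hg, h⟩
    refine ⟨algebraMap K L z, up L g, by simpa using hz, ?_, ?_⟩
    · rw [det_up]
      simpa using hg
    · rw [← up_mul, h, up_smul, up_mul]

/-- the elliptic class `γ` (over `K`, modulo scalars) **is a norm** from `L` -/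
def IsNm (τ : L ≃ₐ[K] L) (γ : M2 K) : Prop :=
  ∃ d : M2 L, d.det ≠ 0 ∧ PConj (nm τ d) (up L γ)

/-- Being a norm, inside the commutant. -/
theorem Cyc3.isNm_iff {γ : M2 K} (hγ : Ell γ) (ht : γ.trace ≠ 0) :
    IsNm τ γ ↔ ∃ (c : K) (d : M2 L), c ≠ 0 ∧ d.det ≠ 0 ∧ d * up L γ = up L γ * d ∧
      nm τ d = algebraMap K L c • up L γ := by
  constructor
  · rintro ⟨d, hd, h⟩
    obtain ⟨c, e, hc, he, -, hn, hcom⟩ := hτ.exists_rep' hd hγ ht h
    exact ⟨c, e, hc, he, hcom, hn⟩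
  · rintro ⟨c, d, hc, hd, hcom, hn⟩
    refine ⟨d, hd, algebraMap K L c, 1, by simpa using hc, by simp, ?_⟩
    rw [mul_one, one_mul, hn]

omit hτ in
theorem up_adj (γ : M2 K) : up L γ.adjugate = (up L γ).adjugate := by
  ext i j
  fin_cases i <;> fin_cases j <;> simp [up, Matrix.adjugate_fin_two]

omit hτ in
theorem adj_commute {γ X : M2 L} (hX : X * γ = γ * X) : X * γ.adjugate = γ.adjugate * X := by
  rw [adj_eq, mul_add, add_mul, mul_smul_comm, mul_smul_comm, smul_mul_assoc, smul_mul_assoc,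
    mul_one, one_mul, hX]

omit hτ in
/-- If `X` commutes with `γ`, so does its adjugate. -/
theorem commute_adj {γ X : M2 L} (hX : X * γ = γ * X) : X.adjugate * γ = γ * X.adjugate := by
  rw [adj_eq X, add_mul, mul_add, smul_mul_assoc, mul_smul_comm, smul_mul_assoc, mul_smul_comm,
    one_mul, mul_one, hX]

omit hτ in
theorem mt_adj (X : M2 L) : mt τ X.adjugate = (mt τ X).adjugate := by
  ext i j
  fin_cases i <;> fin_cases j <;> simp [Matrix.adjugate_fin_two]

omit hτ in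
theorem nm_adj {γ : M2 K} (hγ : ¬ IsScal (up L γ)) {X : M2 L}
    (hX : X * up L γ = up L γ * X) : nm τ X.adjugate = (nm τ X).adjugate := by
  have c0 := hX
  have c1 := mt_commute (τ := τ) hX
  have c2 := mt_commute (τ := τ) c1
  rw [nm, nm, mt_adj, mt_adj, Matrix.adjugate_mul_distrib, Matrix.adjugate_mul_distrib]
  have d0 := commute_adj c0
  have d1 := commute_adj c1
  have d2 := commute_adj c2
  rw [commute_of_commute hγ (mul_commute d0 d1) d2, commute_of_commute hγ d0 d1]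

/-- **The norm criterion**: `γ` is a norm modulo scalars if and only if `γ / γ̄` is a norm from
`(L E)ˣ`, `E = K[γ]`, `L E` the commutant of `γ` in `M₂(L)`. -/
theorem Cyc3.isNm_iff_div {γ : M2 K} (hγ : Ell γ) (ht : γ.trace ≠ 0) :
    IsNm τ γ ↔ ∃ y : M2 L, y.det ≠ 0 ∧ y * up L γ = up L γ * y ∧
      nm τ y * (up L γ).adjugate = up L γ := by
  rw [hτ.isNm_iff hγ ht]
  have hns : ¬ IsScal (up L γ) := (hτ.ell_up hγ).not_isScal
  have hd0 : (up L γ).det ≠ 0 := by
    rw [det_up]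
    simpa using hγ.det_ne_zero'
  constructor
  · rintro ⟨c, d, hc, hd, hcom, hn⟩
    have hc' : algebraMap K L c ≠ 0 := by simpa using hc
    have had : d.adjugate.det ≠ 0 := by
      rw [Matrix.det_adjugate, Fintype.card_fin]
      exact pow_ne_zero _ hd
    have hcad := commute_adj hcom
    have hy : d * (d.adjugate)⁻¹ * up L γ = up L γ * (d * (d.adjugate)⁻¹) :=
      mul_commute hcom (inv_commute had hcad)
    refine ⟨d * (d.adjugate)⁻¹, det_mul_ne_zero hd (det_inv_ne_zero had), hy, ?_⟩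
    have h1 : nm τ (d * (d.adjugate)⁻¹) * nm τ d.adjugate = nm τ d := by
      rw [← nm_mul_of_commute hns hy hcad, mul_assoc, inv_mul_of_det had, mul_one]
    rw [nm_adj hns hcom, hn, Matrix.adjugate_smul, Fintype.card_fin] at h1
    have h2 := congrArg (fun M => (algebraMap K L c)⁻¹ • M) h1
    simpa only [mul_smul_comm, smul_smul, pow_one, inv_mul_cancel₀ hc', one_smul,
      Nat.add_one_sub_one] using h2
  · rintro ⟨y, hy, hcom, hn⟩
    have hyi := inv_commute hy hcom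
    have hyi0 := det_inv_ne_zero hy
    refine ⟨γ.det, up L γ * y⁻¹, hγ.det_ne_zero', det_mul_ne_zero hd0 hyi0,
      mul_commute rfl hyi, ?_⟩
    rw [nm_mul_of_commute hns rfl hyi]
    have h1 : nm τ (up L γ) = up L γ * up L γ * up L γ := by simp only [nm, mt_up]
    have h2 : nm τ y * nm τ y⁻¹ = 1 := by
      rw [← nm_mul_of_commute hns hcom hyi, mul_inv_of_det hy]
      simp [nm]
    -- `γ = N y · adj γ`
    have hcN : nm τ y * up L γ = up L γ * nm τ y :=
      mul_commute (mul_commute hcom (mt_commute hcom)) (mt_commute (mt_commute hcom))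
    have hcA : nm τ y * (up L γ).adjugate = (up L γ).adjugate * nm τ y := adj_commute
      (by exact hcN)
    have h3 : up L γ * nm τ y⁻¹ = (up L γ).adjugate := by
      have h4 : up L γ * nm τ y⁻¹ = (up L γ).adjugate * nm τ y * nm τ y⁻¹ := by
        rw [← hcA, hn]
      rw [h4, mul_assoc, h2, mul_one]
    rw [h1, mul_assoc, h3, mul_assoc, Matrix.mul_adjugate, mul_smul_comm, mul_one, det_up]

end Fermat.Agent.LT

end
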