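import Mathlib

/-!
# Lattices fixed by a semilinear automorphism (unit element, cyclic cubic unramified case)

* `norm_surjective` : semilocal norm surjectivity for a cyclic cubic Galois algebra, by successive
  approximation;
* `GalSys`, `galois_descent` : Galois descent for modules over a cubic Galois algebra;
* `fixEquiv` : the bijection between the `O'`-lattices `Λ` with `β σ(Λ) = Λ` and the `O`-lattices
  `Λ₀` with `γ Λ₀ = Λ₀`, `γ = N β`.
-/

set_option autoImplicit false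

noncomputable section

namespace Fermat.Agent.LT

section Norm

variable {B : Type*} [CommRing B] (σ : B ≃+* B)

/-- the norm for a cyclic group of order three -/
def N3 (x : B) : B := x * σ x * σ (σ x)

/-- the trace for a cyclic group of order three -/
def Tr3 (x : B) : B := x + σ x + σ (σ x)

theorem N3_mul (x y : B) : N3 σ (x * y) = N3 σ x * N3 σ y := by
  simp only [N3, map_mul]; ring

@[simp] theorem N3_one : N3 σ (1 : B) = 1 := by simp [N3]

theorem σ_N3 (h3 : ∀ x, σ (σ (σ x)) = x) (x : B) : σ (N3 σ x) = N3 σ x := by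
  simp only [N3, map_mul, h3]; ring

theorem σ_Tr3 (h3 : ∀ x, σ (σ (σ x)) = x) (x : B) : σ (Tr3 σ x) = Tr3 σ x := by
  simp only [Tr3, map_add, h3]; ring

theorem σ_pow_mem {J : Ideal B} (hJ : ∀ x ∈ J, σ x ∈ J) (n : ℕ) : ∀ x ∈ J ^ n, σ x ∈ J ^ n := by
  intro x hx
  have h1 : J.map (σ : B →+* B) ≤ J := Ideal.map_le_iff_le_comap.mpr fun y hy => hJ y hy
  have h2 : (J ^ n).map (σ : B →+* B) ≤ J ^ n := by
    rw [Ideal.map_pow]
    exact Ideal.pow_right_mono h1 n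
  exact h2 (Ideal.mem_map_of_mem (σ : B →+* B) hx)

theorem N3_sub_mem {I : Ideal B} (hI : ∀ x ∈ I, σ x ∈ I) {x y : B} (h : x - y ∈ I) :
    N3 σ x - N3 σ y ∈ I := by
  have h1 : σ x - σ y ∈ I := by rw [← map_sub]; exact hI _ h
  have h2 : σ (σ x) - σ (σ y) ∈ I := by rw [← map_sub]; exact hI _ h1
  have h3 : N3 σ x - N3 σ y = σ x * σ (σ x) * (x - y) + y * σ (σ x) * (σ x - σ y) +
      y * σ y * (σ (σ x) - σ (σ y)) := by
    simp only [N3]; ring
  rw [h3]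
  exact I.add_mem (I.add_mem (I.mul_mem_left _ h) (I.mul_mem_left _ h1)) (I.mul_mem_left _ h2)

/-- **Norm surjectivity** for a cubic Galois algebra which is complete for a `σ`-stable ideal. -/
theorem norm_surjective (h3 : ∀ x, σ (σ (σ x)) = x) {t : B} (ht : Tr3 σ t = 1) {J : Ideal B}
    (hJ : ∀ x ∈ J, σ x ∈ J) [IsAdicComplete J B]
    (hres : ∀ a : Bˣ, σ a = a → ∃ u : Bˣ, N3 σ (u : B) - a ∈ J) (a : Bˣ) (ha : σ a = a) :
    ∃ u : Bˣ, N3 σ (u : B) = a := by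
  classical
  have hJ1 : J ≤ Ideal.jacobson ⊥ := IsAdicComplete.le_jacobson_bot J
  -- one step
  have hstep : ∀ n : ℕ, ∀ u : {u : Bˣ // N3 σ (u : B) - a ∈ J ^ (n + 1)},
      ∃ u' : {u : Bˣ // N3 σ (u : B) - a ∈ J ^ (n + 1 + 1)},
        ((u'.1 : B) - u.1 : B) ∈ J ^ (n + 1) := by
    rintro n ⟨u, hu⟩
    have hNu : IsUnit (N3 σ (u : B)) := by
      simp only [N3]
      exact (u.isUnit.mul (u.isUnit.map σ)).mul ((u.isUnit.map σ).map σ)
    obtain ⟨w, hw⟩ := hNu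
    -- `r = a / N u - 1`
    set r : B := (a : B) * (w⁻¹ : Bˣ) - 1 with hr
    have hrJ : r ∈ J ^ (n + 1) := by
      have h1 : r = -((w⁻¹ : Bˣ) : B) * (N3 σ (u : B) - a) := by
        rw [hr, ← hw]
        linear_combination w.inv_mul
      rw [h1]
      exact Ideal.mul_mem_left _ _ hu
    have hσw : σ ((w⁻¹ : Bˣ) : B) = ((w⁻¹ : Bˣ) : B) := by
      have h1 : σ (w : B) = w := by rw [hw]; exact σ_N3 σ h3 _
      have h2 : σ ((w⁻¹ : Bˣ) : B) * w = 1 := by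
        rw [← h1, ← map_mul, w.inv_mul, map_one]
      calc σ ((w⁻¹ : Bˣ) : B) = σ ((w⁻¹ : Bˣ) : B) * (w * (w⁻¹ : Bˣ)) := by rw [w.mul_inv, mul_one]
        _ = ((w⁻¹ : Bˣ) : B) := by rw [← mul_assoc, h2, one_mul]
    have hσr : σ r = r := by rw [hr, map_sub, map_mul, map_one, ha, hσw]
    have hrJ' : t * r ∈ J := J.mul_mem_left _ (Ideal.pow_le_self (Nat.succ_ne_zero n) hrJ)
    have hunit : IsUnit (1 + t * r) := by
      have := Ideal.mem_jacobson_bot.mp (hJ1 hrJ') 1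
      rwa [mul_one, add_comm] at this
    obtain ⟨s, hs⟩ := hunit
    have hN : N3 σ (1 + t * r) = 1 + r + r ^ 2 * (t * σ t + t * σ (σ t) + σ t * σ (σ t) +
        r * (t * σ t * σ (σ t))) := by
      have h1 : t + σ t + σ (σ t) = 1 := ht
      simp only [N3, map_add, map_mul, map_one, hσr]
      linear_combination r * h1
    refine ⟨⟨u * s, ?_⟩, ?_⟩
    · have h1 : N3 σ ((u * s : Bˣ) : B) - a = N3 σ (u : B) * (r ^ 2 * (t * σ t + t * σ (σ t) +
          σ t * σ (σ t) + r * (t * σ t * σ (σ t)))) := by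
        rw [Units.val_mul, N3_mul, hs, hN]
        have h2 : N3 σ (u : B) * (1 + r) = a := by
          rw [hr, ← hw]
          linear_combination (a : B) * w.mul_inv
        linear_combination h2
      rw [h1]
      refine Ideal.mul_mem_left _ _ (Ideal.mul_mem_right _ _ ?_)
      have h2 : r ^ 2 ∈ J ^ ((n + 1) * 2) := by
        rw [pow_mul]
        exact Ideal.pow_mem_pow hrJ 2
      exact Ideal.pow_le_pow_right (by omega) h2
    · have h1 : ((u * s : Bˣ) : B) - u = u * t * r := by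
        rw [Units.val_mul, hs]; ring
      change ((u * s : Bˣ) : B) - u ∈ J ^ (n + 1)
      rw [h1]
      exact Ideal.mul_mem_left _ _ hrJ
  choose f hf using hstep
  obtain ⟨u₀, hu₀⟩ := hres a ha
  let g : (n : ℕ) → {u : Bˣ // N3 σ (u : B) - a ∈ J ^ (n + 1)} := fun n =>
    Nat.rec ⟨u₀, by simpa using hu₀⟩ (fun n u => f n u) n
  have hg : ∀ n, ((g (n + 1)).1 : B) - (g n).1 ∈ J ^ (n + 1) := fun n => hf n (g n)
  have hcauchy : ∀ {m n : ℕ}, m ≤ n → ((g m).1 : B) ≡ (g n).1 [SMOD (J ^ m • ⊤ : Submodule B B)] := by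
    intro m n hmn
    induction n, hmn using Nat.le_induction with
    | base => exact SModEq.refl _
    | succ n hn ih =>
      refine ih.trans ?_
      rw [SModEq.comm, SModEq.sub_mem]
      simp only [smul_eq_mul, Ideal.mul_top]
      exact Ideal.pow_le_pow_right (by omega) (hg n)
  obtain ⟨L, hL⟩ := IsPrecomplete.prec (I := J) (M := B) inferInstance hcauchy
  have hL' : ∀ n, ((g n).1 : B) - L ∈ J ^ n := by
    intro n
    have := hL n
    rw [SModEq.sub_mem] at this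
    simpa only [smul_eq_mul, Ideal.mul_top] using this
  have hNL : N3 σ L = a := by
    rw [← sub_eq_zero]
    refine IsHausdorff.haus (I := J) (M := B) inferInstance _ fun n => ?_
    rw [SModEq.zero]
    simp only [smul_eq_mul, Ideal.mul_top]
    have h1 := N3_sub_mem σ (σ_pow_mem σ hJ n) (hL' n)
    have h2 : N3 σ ((g n).1 : B) - a ∈ J ^ n := Ideal.pow_le_pow_right (Nat.le_succ n) (g n).2
    have h4 : N3 σ L - a = (N3 σ ((g n).1 : B) - a) - (N3 σ ((g n).1 : B) - N3 σ L) := by ring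
    rw [h4]
    exact Ideal.sub_mem _ h2 h1
  have hLu : IsUnit L := by
    have h1 : IsUnit (N3 σ L) := hNL ▸ a.isUnit
    simp only [N3, mul_assoc] at h1
    exact isUnit_of_mul_isUnit_left h1
  obtain ⟨u, rfl⟩ := hLu
  exact ⟨u, hNL⟩

end Norm

section Descent

variable {B : Type*} [CommRing B] (σ : B ≃+* B)

/-- A cubic Galois system inside the subring `O'` : `σ³ = 1`, and the condition of
Chase-Harrison-Rosenberg. -/
structure GalSys (O' : Subring B) where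
  cube : ∀ x, σ (σ (σ x)) = x
  map_mem : ∀ x ∈ O', σ x ∈ O'
  n : ℕ
  e : Fin n → B
  e' : Fin n → B
  e_mem : ∀ i, e i ∈ O'
  e'_mem : ∀ i, e' i ∈ O'
  sum0 : ∑ i, e i * e' i = 1
  sum1 : ∑ i, e i * σ (e' i) = 0
  sum2 : ∑ i, e i * σ (σ (e' i)) = 0
  t : B
  t_mem : t ∈ O'
  tr_t : Tr3 σ t = 1

variable {σ} {O' : Subring B} (G : GalSys σ O')

namespace GalSys

theorem sum_e_tr (x : B) : ∑ i, G.e i * Tr3 σ (G.e' i * x) = x := by
  have h : ∀ i, G.e i * Tr3 σ (G.e' i * x) = (G.e i * G.e' i) * x +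
      (G.e i * σ (G.e' i)) * σ x + (G.e i * σ (σ (G.e' i))) * σ (σ x) := fun i => by
    simp only [Tr3, map_mul]; ring
  rw [Finset.sum_congr rfl fun i _ => h i, Finset.sum_add_distrib, Finset.sum_add_distrib,
    ← Finset.sum_mul, ← Finset.sum_mul, ← Finset.sum_mul, G.sum0, G.sum1, G.sum2]
  ring

end GalSys

/-- stability under multiplication by the elements of a subring -/
def Stab (O' : Subring B) (Λ : AddSubgroup B) : Prop := ∀ a ∈ O', ∀ x ∈ Λ, a * x ∈ Λ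

variable (σ) in
/-- the fixed subring -/
def fixS : Subring B where
  carrier := {x | σ x = x}
  mul_mem' := fun {a b} ha hb => by
    change σ (a * b) = a * b
    rw [map_mul]; exact congrArg₂ _ ha hb
  one_mem' := map_one σ
  add_mem' := fun {a b} ha hb => by
    change σ (a + b) = a + b
    rw [map_add]; exact congrArg₂ _ ha hb
  zero_mem' := map_zero σ
  neg_mem' := fun {a} ha => by
    change σ (-a) = -a
    rw [map_neg]; exact congrArg _ ha

theorem mem_fixS {x : B} : x ∈ fixS σ ↔ σ x = x := Iff.rfl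

/-- extension of scalars to `O'` -/
def ext (O' : Subring B) (Λ : AddSubgroup B) : AddSubgroup B :=
  AddSubgroup.closure {y | ∃ a ∈ O', ∃ x ∈ Λ, y = a * x}

theorem mul_mem_ext {Λ : AddSubgroup B} {a x : B} (ha : a ∈ O') (hx : x ∈ Λ) :
    a * x ∈ ext O' Λ := AddSubgroup.subset_closure ⟨a, ha, x, hx, rfl⟩

theorem le_ext (Λ : AddSubgroup B) : Λ ≤ ext O' Λ := fun x hx => by
  simpa using mul_mem_ext O'.one_mem hx

theorem stab_ext (Λ : AddSubgroup B) : Stab O' (ext O' Λ) := by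
  intro a ha x hx
  induction hx using AddSubgroup.closure_induction with
  | mem y hy =>
    obtain ⟨b, hb, x, hx, rfl⟩ := hy
    rw [← mul_assoc]
    exact mul_mem_ext (O'.mul_mem ha hb) hx
  | zero => rw [mul_zero]; exact AddSubgroup.zero_mem _
  | add y z _ _ hy hz => rw [mul_add]; exact AddSubgroup.add_mem _ hy hz
  | neg y _ hy => rw [mul_neg]; exact AddSubgroup.neg_mem _ hy

theorem ext_le {Λ Λ' : AddSubgroup B} (h : Λ ≤ Λ') (hΛ' : Stab O' Λ') : ext O' Λ ≤ Λ' := by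
  rw [ext, AddSubgroup.closure_le]
  rintro _ ⟨a, ha, x, hx, rfl⟩
  exact hΛ' a ha x (h hx)

theorem ext_mono {Λ Λ' : AddSubgroup B} (h : Λ ≤ Λ') : ext O' Λ ≤ ext O' Λ' :=
  ext_le (h.trans (le_ext Λ')) (stab_ext Λ')

include G in
theorem Tr3_mem {a : B} (ha : a ∈ O') : Tr3 σ a ∈ O' :=
  O'.add_mem (O'.add_mem ha (G.map_mem _ ha)) (G.map_mem _ (G.map_mem _ ha))

include G in
/-- **Galois descent** -/
theorem ext_inf_fix {Λ : AddSubgroup B} (hΛ : Stab O' Λ) (hσ : ∀ x ∈ Λ, σ x ∈ Λ) :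
    ext O' (Λ ⊓ (fixS σ).toAddSubgroup) = Λ := by
  apply le_antisymm (ext_le inf_le_left hΛ)
  intro x hx
  rw [← G.sum_e_tr x]
  refine AddSubgroup.sum_mem _ fun i _ => mul_mem_ext (G.e_mem i) ⟨?_, σ_Tr3 σ G.cube _⟩
  have h1 := hΛ _ (G.e'_mem i) x hx
  exact Λ.add_mem (Λ.add_mem h1 (hσ _ h1)) (hσ _ (hσ _ h1))

include G in
/-- the fixed part of an extended lattice -/
theorem inf_fix_ext {Λ₀ : AddSubgroup B} (h₀ : Λ₀ ≤ (fixS σ).toAddSubgroup)
    (hO : Stab (O' ⊓ fixS σ) Λ₀) : ext O' Λ₀ ⊓ (fixS σ).toAddSubgroup = Λ₀ := by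
  apply le_antisymm
  · rintro x ⟨hx, hσx⟩
    have h1 : ∀ y ∈ ext O' Λ₀, Tr3 σ (G.t * y) ∈ Λ₀ := by
      intro y hy
      induction hy using AddSubgroup.closure_induction with
      | mem y hy =>
        obtain ⟨a, ha, x, hx, rfl⟩ := hy
        have hx' : σ x = x := h₀ hx
        have h2 : Tr3 σ (G.t * (a * x)) = Tr3 σ (G.t * a) * x := by
          simp only [Tr3, map_mul, hx']; ring
        rw [h2]
        exact hO _ ⟨Tr3_mem G (O'.mul_mem G.t_mem ha), σ_Tr3 σ G.cube _⟩ x hx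
      | zero => simp [Tr3]
      | add y z _ _ hy hz =>
        have h2 : Tr3 σ (G.t * (y + z)) = Tr3 σ (G.t * y) + Tr3 σ (G.t * z) := by
          simp only [Tr3, map_mul, map_add]; ring
        rw [h2]
        exact AddSubgroup.add_mem _ hy hz
      | neg y _ hy =>
        have h2 : Tr3 σ (G.t * -y) = -Tr3 σ (G.t * y) := by
          simp only [Tr3, map_mul, map_neg]; ring
        rw [h2]
        exact AddSubgroup.neg_mem _ hy
    have h2 := h1 x hx
    have h3 : Tr3 σ (G.t * x) = x := by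
      have hσx' : σ x = x := hσx
      have h4 : Tr3 σ (G.t * x) = Tr3 σ G.t * x := by
        simp only [Tr3, map_mul, hσx']; ring
      rw [h4, G.tr_t, one_mul]
    rwa [h3] at h2
  · exact fun x hx => ⟨le_ext Λ₀ hx, h₀ hx⟩

include G in
theorem map_ext {Λ₀ : AddSubgroup B} (h₀ : Λ₀ ≤ (fixS σ).toAddSubgroup) :
    ∀ x ∈ ext O' Λ₀, σ x ∈ ext O' Λ₀ := by
  intro x hx
  induction hx using AddSubgroup.closure_induction with
  | mem y hy =>
    obtain ⟨a, ha, x, hx, rfl⟩ := hy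
    have hx' : σ x = x := h₀ hx
    rw [map_mul, hx']
    exact mul_mem_ext (G.map_mem _ ha) hx
  | zero => rw [map_zero]; exact AddSubgroup.zero_mem _
  | add y z _ _ hy hz => rw [map_add]; exact AddSubgroup.add_mem _ hy hz
  | neg y _ hy => rw [map_neg]; exact AddSubgroup.neg_mem _ hy

end Descent

section Fix

variable {B : Type*} [CommRing B] {σ : B ≃+* B} {O' : Subring B}

/-- transport of an additive subgroup by `σ` -/
def mapσ (σ : B ≃+* B) (Λ : AddSubgroup B) : AddSubgroup B := Λ.map (σ : B →+ B)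

theorem mem_mapσ {Λ : AddSubgroup B} {x : B} : x ∈ mapσ σ Λ ↔ ∃ y ∈ Λ, σ y = x :=
  AddSubgroup.mem_map

/-- dilation by a unit -/
def dil (u : Bˣ) (Λ : AddSubgroup B) : AddSubgroup B := Λ.map (AddMonoidHom.mulLeft (u : B))

theorem mem_dil {Λ : AddSubgroup B} {u : Bˣ} {x : B} :
    x ∈ dil u Λ ↔ ∃ y ∈ Λ, (u : B) * y = x := AddSubgroup.mem_map

theorem mem_dil' {Λ : AddSubgroup B} {u : Bˣ} {x : B} :
    x ∈ dil u Λ ↔ ((u⁻¹ : Bˣ) : B) * x ∈ Λ := by
  rw [mem_dil]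
  constructor
  · rintro ⟨y, hy, rfl⟩
    rwa [← mul_assoc, u.inv_mul, one_mul]
  · intro h
    exact ⟨_, h, by rw [← mul_assoc, u.mul_inv, one_mul]⟩

theorem dil_dil (u v : Bˣ) (Λ : AddSubgroup B) : dil u (dil v Λ) = dil (u * v) Λ := by
  ext x
  rw [mem_dil', mem_dil', mem_dil', mul_inv_rev, Units.val_mul, mul_assoc]

@[simp] theorem dil_one (Λ : AddSubgroup B) : dil (1 : Bˣ) Λ = Λ := by
  ext x
  rw [mem_dil', inv_one, Units.val_one, one_mul]

theorem dil_inv_dil (u : Bˣ) (Λ : AddSubgroup B) : dil u⁻¹ (dil u Λ) = Λ := by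
  rw [dil_dil, inv_mul_cancel, dil_one]

theorem dil_dil_inv (u : Bˣ) (Λ : AddSubgroup B) : dil u (dil u⁻¹ Λ) = Λ := by
  rw [dil_dil, mul_inv_cancel, dil_one]

theorem dil_injective (u : Bˣ) : Function.Injective (dil (B := B) u) := fun Λ Λ' h => by
  rw [← dil_inv_dil u Λ, h, dil_inv_dil]

theorem dil_mono {u : Bˣ} {Λ Λ' : AddSubgroup B} (h : Λ ≤ Λ') : dil u Λ ≤ dil u Λ' :=
  AddSubgroup.map_mono h

theorem mapσ_dil (u : Bˣ) (Λ : AddSubgroup B) :
    mapσ σ (dil u Λ) = dil (Units.map (σ : B →* B) u) (mapσ σ Λ) := by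
  ext x
  simp only [mem_mapσ, mem_dil]
  constructor
  · rintro ⟨_, ⟨y, hy, rfl⟩, rfl⟩
    exact ⟨σ y, ⟨y, hy, rfl⟩, by rw [map_mul]; rfl⟩
  · rintro ⟨_, ⟨y, hy, rfl⟩, rfl⟩
    exact ⟨u * y, ⟨y, hy, rfl⟩, by rw [map_mul]; rfl⟩

theorem mapσ_mono {Λ Λ' : AddSubgroup B} (h : Λ ≤ Λ') : mapσ σ Λ ≤ mapσ σ Λ' :=
  AddSubgroup.map_mono h

theorem mapσ_cube (h3 : ∀ x, σ (σ (σ x)) = x) (Λ : AddSubgroup B) :
    mapσ σ (mapσ σ (mapσ σ Λ)) = Λ := by
  ext x
  simp only [mem_mapσ]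
  constructor
  · rintro ⟨_, ⟨_, ⟨y, hy, rfl⟩, rfl⟩, rfl⟩
    rwa [h3]
  · intro hx
    exact ⟨_, ⟨_, ⟨x, hx, rfl⟩, rfl⟩, h3 x⟩

theorem mapσ_eq_of_forall (h3 : ∀ x, σ (σ (σ x)) = x) {Λ : AddSubgroup B}
    (h : ∀ x ∈ Λ, σ x ∈ Λ) : mapσ σ Λ = Λ := by
  apply le_antisymm
  · intro x hx
    obtain ⟨y, hy, rfl⟩ := mem_mapσ.mp hx
    exact h y hy
  · intro x hx
    exact mem_mapσ.mpr ⟨_, h _ (h _ hx), h3 x⟩

theorem Stab.dil {Λ : AddSubgroup B} (h : Stab O' Λ) (u : Bˣ) : Stab O' (dil u Λ) := by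
  intro a ha x hx
  obtain ⟨y, hy, rfl⟩ := mem_dil.mp hx
  exact mem_dil.mpr ⟨a * y, h a ha y hy, by ring⟩

/-- stability of the order generated by `O'` and `γ^{±1}` -/
theorem stab_closure {Λ : AddSubgroup B} (hΛ : Stab O' Λ) {γ : Bˣ} (hγ : LT.dil γ Λ = Λ) :
    Stab (Subring.closure ((O' : Set B) ∪ {(γ : B), ((γ⁻¹ : Bˣ) : B)})) Λ := by
  intro a ha
  induction ha using Subring.closure_induction with
  | mem a ha =>
    rcases ha with ha | rfl | rfl
    · exact hΛ a ha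
    · intro x hx
      rw [← hγ]
      exact mem_dil.mpr ⟨x, hx, rfl⟩
    · intro x hx
      rw [← hγ] at hx
      exact mem_dil'.mp hx
  | zero => intro x _; rw [zero_mul]; exact Λ.zero_mem
  | one => intro x hx; rwa [one_mul]
  | add a b _ _ ha hb => intro x hx; rw [add_mul]; exact Λ.add_mem (ha x hx) (hb x hx)
  | neg a _ ha => intro x hx; rw [neg_mul]; exact Λ.neg_mem (ha x hx)
  | mul a b _ _ ha hb => intro x hx; rw [mul_assoc]; exact ha _ (hb x hx)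

theorem dil_eq_of_stab {R' : Subring B} {Λ : AddSubgroup B} (hΛ : Stab R' Λ) {u : Bˣ}
    (hu : (u : B) ∈ R') (hu' : ((u⁻¹ : Bˣ) : B) ∈ R') : dil u Λ = Λ := by
  ext x
  rw [mem_dil']
  refine ⟨fun h => ?_, hΛ _ hu' x⟩
  have := hΛ _ hu _ h
  rwa [← mul_assoc, u.mul_inv, one_mul] at this

/-- The data: `β = u c / σ(c)` with `u` a unit of the order generated by `O'` and
`γ = N β = N u`. -/
structure FixData (G : GalSys σ O') where
  β : Bˣ
  c : Bˣ
  u : Bˣ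
  γ : Bˣ
  eq : β = u * c * (Units.map (σ : B →* B) c)⁻¹
  norm : (γ : B) = N3 σ (β : B)
  mem : (u : B) ∈ Subring.closure ((O' : Set B) ∪ {(γ : B), ((γ⁻¹ : Bˣ) : B)})
  mem' : ((u⁻¹ : Bˣ) : B) ∈ Subring.closure ((O' : Set B) ∪ {(γ : B), ((γ⁻¹ : Bˣ) : B)})

theorem comm_aux {M : Type*} [CommGroup M] (a b c x y z : M) :
    a * x * y⁻¹ * (b * y * z⁻¹) * (c * z * x⁻¹) = a * b * c := by
  have h : a * x * y⁻¹ * (b * y * z⁻¹) * (c * z * x⁻¹) =
      a * b * c * (x * x⁻¹) * (y * y⁻¹) * (z * z⁻¹) := by ac_rfl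
  rw [h, mul_inv_cancel, mul_inv_cancel, mul_inv_cancel, mul_one, mul_one, mul_one]

namespace FixData

variable {G : GalSys σ O'} (D : FixData G)

theorem γ_fix : σ (D.γ : B) = D.γ := by
  rw [D.norm]
  exact σ_N3 σ G.cube _

theorem γ_eq : D.γ = D.u * Units.map (σ : B →* B) D.u *
    Units.map (σ : B →* B) (Units.map (σ : B →* B) D.u) := by
  have h3 : Units.map (σ : B →* B) (Units.map (σ : B →* B) (Units.map (σ : B →* B) D.c)) = D.c :=
    Units.ext (G.cube _)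
  have h1 : D.γ = D.β * Units.map (σ : B →* B) D.β *
      Units.map (σ : B →* B) (Units.map (σ : B →* B) D.β) := Units.ext D.norm
  rw [h1, D.eq]
  simp only [map_mul, map_inv, h3]
  exact comm_aux _ _ _ _ _ _

/-- the normalised subgroup is fixed by `u σ` -/
theorem iff_u (Λ : AddSubgroup B) : dil D.β (mapσ σ Λ) = Λ ↔
    dil D.u (mapσ σ (dil D.c⁻¹ Λ)) = dil D.c⁻¹ Λ := by
  rw [mapσ_dil, dil_dil, map_inv]
  have h1 : D.u * (Units.map (σ : B →* B) D.c)⁻¹ = D.c⁻¹ * D.β := by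
    rw [D.eq]
    have h : D.c⁻¹ * (D.u * D.c * (Units.map (σ : B →* B) D.c)⁻¹) =
        D.u * (Units.map (σ : B →* B) D.c)⁻¹ * (D.c * D.c⁻¹) := by ac_rfl
    rw [h, mul_inv_cancel, mul_one]
  rw [h1, ← dil_dil]
  exact (dil_injective _).eq_iff.symm

theorem iff_fix {Λ : AddSubgroup B} (hΛ : Stab O' Λ) : dil D.u (mapσ σ Λ) = Λ ↔
    mapσ σ Λ = Λ ∧ dil D.γ Λ = Λ := by
  constructor
  · intro h
    have hγ : dil D.γ Λ = Λ := by
      have h1 : dil D.u (mapσ σ (dil D.u (mapσ σ (dil D.u (mapσ σ Λ))))) = Λ := by rw [h, h, h]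
      rw [mapσ_dil, mapσ_dil, mapσ_dil, mapσ_cube G.cube, dil_dil, dil_dil,
        ← D.γ_eq] at h1
      exact h1
    have h1 := dil_eq_of_stab (stab_closure hΛ hγ) D.mem D.mem'
    refine ⟨?_, hγ⟩
    apply dil_injective D.u
    rw [h, h1]
  · rintro ⟨h1, h2⟩
    rw [h1]
    exact dil_eq_of_stab (stab_closure hΛ h2) D.mem D.mem'

/-- the subgroups on the `L`-side -/
abbrev LSet : Type _ := {Λ : AddSubgroup B // Stab O' Λ ∧ dil D.β (mapσ σ Λ) = Λ}

/-- the subgroups on the `K`-side -/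
abbrev KSet : Type _ := {Λ : AddSubgroup B // Λ ≤ (fixS σ).toAddSubgroup ∧
  Stab (O' ⊓ fixS σ) Λ ∧ dil D.γ Λ = Λ}

/-- **The bijection between fixed lattices.** -/
def fixEquiv : D.LSet ≃ D.KSet where
  toFun Λ := ⟨dil D.c⁻¹ Λ.1 ⊓ (fixS σ).toAddSubgroup, inf_le_right, by
    intro a ha x hx
    exact ⟨(Λ.2.1.dil _) a ha.1 x hx.1, (fixS σ).mul_mem ha.2 hx.2⟩, by
    have h := ((D.iff_fix (Λ.2.1.dil _)).mp ((D.iff_u _).mp Λ.2.2)).2
    ext x
    rw [mem_dil']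
    constructor
    · rintro ⟨h1, h2⟩
      refine ⟨?_, ?_⟩
      · rw [← h]; exact mem_dil'.mpr h1
      · have h3 : x = D.γ * (((D.γ⁻¹ : Bˣ) : B) * x) := by
          rw [← mul_assoc, D.γ.mul_inv, one_mul]
        rw [h3]
        exact (fixS σ).mul_mem D.γ_fix h2
    · rintro ⟨h1, h2⟩
      have h1' : x ∈ dil D.c⁻¹ Λ.1 := h1
      have h2' : σ x = x := h2
      rw [← h] at h1'
      refine ⟨mem_dil'.mp h1', ?_⟩
      have h4 : σ ((D.γ⁻¹ : Bˣ) : B) * D.γ = 1 := by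
        rw [← D.γ_fix, ← map_mul, D.γ.inv_mul, map_one]
      have h5 : σ ((D.γ⁻¹ : Bˣ) : B) = ((D.γ⁻¹ : Bˣ) : B) := by
        calc σ ((D.γ⁻¹ : Bˣ) : B) = σ ((D.γ⁻¹ : Bˣ) : B) * (D.γ * (D.γ⁻¹ : Bˣ)) := by
              rw [D.γ.mul_inv, mul_one]
          _ = ((D.γ⁻¹ : Bˣ) : B) := by rw [← mul_assoc, h4, one_mul]
      change σ _ = _
      rw [map_mul, h5, h2']⟩
  invFun Λ := ⟨dil D.c (ext O' Λ.1), (stab_ext Λ.1).dil _, by
    rw [D.iff_u, dil_inv_dil, D.iff_fix (stab_ext Λ.1)]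
    refine ⟨mapσ_eq_of_forall G.cube (map_ext G Λ.2.1), ?_⟩
    have h : ∀ u : Bˣ, dil u Λ.1 = Λ.1 → dil u (ext O' Λ.1) ≤ ext O' Λ.1 := by
      intro u hu x hx
      obtain ⟨y, hy, rfl⟩ := mem_dil.mp hx
      clear hx
      induction hy using AddSubgroup.closure_induction with
      | mem y hy =>
        obtain ⟨a, ha, z, hz, rfl⟩ := hy
        rw [mul_left_comm]
        refine mul_mem_ext ha ?_
        rw [← hu]
        exact mem_dil.mpr ⟨z, hz, rfl⟩
      | zero => rw [mul_zero]; exact AddSubgroup.zero_mem _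
      | add y z _ _ hy hz => rw [mul_add]; exact AddSubgroup.add_mem _ hy hz
      | neg y _ hy => rw [mul_neg]; exact AddSubgroup.neg_mem _ hy
    apply le_antisymm (h _ Λ.2.2.2)
    have h1 : dil D.γ⁻¹ Λ.1 = Λ.1 := by
      conv_lhs => rw [← Λ.2.2.2]
      exact dil_inv_dil _ _
    have h2 := dil_mono (u := D.γ) (h _ h1)
    rwa [dil_dil_inv] at h2⟩
  left_inv Λ := Subtype.ext (by
    change dil D.c (ext O' (dil D.c⁻¹ Λ.1 ⊓ (fixS σ).toAddSubgroup)) = Λ.1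
    have h := ((D.iff_fix (Λ.2.1.dil _)).mp ((D.iff_u _).mp Λ.2.2)).1
    rw [ext_inf_fix G (Λ.2.1.dil _) (fun x hx => by
      rw [← h]; exact mem_mapσ.mpr ⟨x, hx, rfl⟩), dil_dil_inv])
  right_inv Λ := Subtype.ext (by
    change dil D.c⁻¹ (dil D.c (ext O' Λ.1)) ⊓ (fixS σ).toAddSubgroup = Λ.1
    rw [dil_inv_dil, inf_fix_ext G Λ.2.1 Λ.2.2.1])

theorem fixEquiv_apply (Λ : D.LSet) :
    (D.fixEquiv Λ).1 = dil D.c⁻¹ Λ.1 ⊓ (fixS σ).toAddSubgroup := rfl

theorem fixEquiv_symm_apply (Λ : D.KSet) : (D.fixEquiv.symm Λ).1 = dil D.c (ext O' Λ.1) := rfl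

/-- the bijection respects inclusions -/
theorem fixEquiv_le_iff (Λ Λ' : D.LSet) : (D.fixEquiv Λ).1 ≤ (D.fixEquiv Λ').1 ↔ Λ.1 ≤ Λ'.1 := by
  constructor
  · intro h
    have h1 := dil_mono (u := D.c) (ext_mono (O' := O') h)
    rw [← fixEquiv_symm_apply, ← fixEquiv_symm_apply, D.fixEquiv.symm_apply_apply,
      D.fixEquiv.symm_apply_apply] at h1
    exact h1
  · exact fun h => inf_le_inf_right _ (dil_mono h)

/-- the bijection is equivariant for the fixed units -/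
theorem fixEquiv_dil {e : Bˣ} (he : σ (e : B) = e) (Λ : D.LSet)
    (h : Stab O' (dil e Λ.1) ∧ dil D.β (mapσ σ (dil e Λ.1)) = dil e Λ.1) :
    (D.fixEquiv ⟨dil e Λ.1, h⟩).1 = dil e (D.fixEquiv Λ).1 := by
  have he' : σ ((e⁻¹ : Bˣ) : B) = ((e⁻¹ : Bˣ) : B) := by
    have h4 : σ ((e⁻¹ : Bˣ) : B) * e = 1 := by
      conv_lhs => rw [← he]
      rw [← map_mul, e.inv_mul, map_one]
    calc σ ((e⁻¹ : Bˣ) : B) = σ ((e⁻¹ : Bˣ) : B) * (e * (e⁻¹ : Bˣ)) := by
          rw [e.mul_inv, mul_one]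
      _ = ((e⁻¹ : Bˣ) : B) := by rw [← mul_assoc, h4, one_mul]
  rw [fixEquiv_apply, fixEquiv_apply]
  ext x
  rw [mem_dil']
  constructor
  · rintro ⟨h1, h2⟩
    refine ⟨?_, (fixS σ).mul_mem he' h2⟩
    have h3 : x ∈ dil D.c⁻¹ (dil e Λ.1) := h1
    rw [dil_dil, mul_comm, ← dil_dil] at h3
    exact mem_dil'.mp h3
  · rintro ⟨h1, h2⟩
    refine ⟨?_, ?_⟩
    · have h3 : x ∈ dil e (dil D.c⁻¹ Λ.1) := mem_dil'.mpr h1
      rw [dil_dil, mul_comm, ← dil_dil] at h3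
      exact h3
    · have h3 : x = e * (((e⁻¹ : Bˣ) : B) * x) := by
        rw [← mul_assoc, e.mul_inv, one_mul]
      rw [h3]
      exact (fixS σ).mul_mem he h2

/-- `e Λ` is again on the `L`-side -/
theorem dil_mem {e : Bˣ} (he : σ (e : B) = e) (Λ : D.LSet) :
    Stab O' (dil e Λ.1) ∧ dil D.β (mapσ σ (dil e Λ.1)) = dil e Λ.1 := by
  refine ⟨Λ.2.1.dil _, ?_⟩
  have h1 : Units.map (σ : B →* B) e = e := Units.ext he
  rw [mapσ_dil, h1, dil_dil, mul_comm, ← dil_dil, Λ.2.2]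

end FixData

end Fix

end Fermat.Agent.LT

end
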