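import Fermat.Agent.LT.UnitRes

/-!
# The unit places, local theorem

`F / K` cyclic cubic, unramified, inert (complete discretely valued fields with finite residue
fields), `δ ∈ GL₂(F)`, `γ ∈ GL₂(K)` not scalar, `δ γ = γ δ`, `δ · τ δ · τ² δ = γ`.
Then the classes `x ∈ GL₂(F) / F^× GL₂(O')` with `δ τ x = x` and the classes
`y ∈ GL₂(K) / K^× GL₂(O)` with `γ y = y` correspond to each other, `x = c y` with `c ∈ F[γ]^×`.
-/

set_option autoImplicit false

noncomputable section

namespace Fermat.Agent.LT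

open Matrix

section H90

variable {F : Type*} [Field F]

/-- evaluation of the quadratic algebra at a root -/
def qeval {Ω : Type*} [CommRing Ω] [Algebra F Ω] {A T : F} (l : Ω)
    (hl : l * l = algebraMap F Ω A + algebraMap F Ω T * l) : QuadraticAlgebra F A T →+* Ω where
  toFun z := algebraMap F Ω z.re + algebraMap F Ω z.im * l
  map_zero' := by simp
  map_one' := by simp [QuadraticAlgebra.re_one, QuadraticAlgebra.im_one]
  map_add' x y := by
    simp only [QuadraticAlgebra.re_add, QuadraticAlgebra.im_add, map_add]; ring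
  map_mul' x y := by
    simp only [QuadraticAlgebra.re_mul, QuadraticAlgebra.im_mul, map_add, map_mul]
    linear_combination (-(algebraMap F Ω x.im) * (algebraMap F Ω y.im)) * hl

/-- one root : a scalar `z` such that the Hilbert 90 element does not vanish -/
theorem exists_ne_zero_char {Ω : Type*} [Field Ω] [Algebra F Ω] (τ : F ≃+* F)
    (h3 : ∀ x, τ (τ (τ x)) = x) (h1 : ∃ x, τ x ≠ x) (p q : Ω) :
    ∃ z : F, algebraMap F Ω z + p * algebraMap F Ω (τ z) + q * algebraMap F Ω (τ (τ z)) ≠ 0 := by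
  classical
  by_contra! hcon
  obtain ⟨x, hx⟩ := h1
  let i : F →* Ω := (algebraMap F Ω : F →* Ω)
  have hi : ∀ y, i y = algebraMap F Ω y := fun y => rfl
  let f : Fin 3 → (F →* Ω) := ![i, i.comp (τ : F →* F), i.comp ((τ : F →* F).comp (τ : F →* F))]
  have hinj : Function.Injective i := (algebraMap F Ω).injective
  have hf : Function.Injective f := by
    intro i' j' hij
    have h := DFunLike.congr_fun hij x
    fin_cases i' <;> fin_cases j' <;>
      first
      | rfl
      | (exfalso
         simp only [f, Fin.zero_eta, Fin.mk_one, Fin.reduceFinMk, Matrix.cons_val_zero,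
           Matrix.cons_val_one, Matrix.cons_val, MonoidHom.comp_apply] at h
         have h' := hinj h
         first
         | exact hx h'
         | exact hx h'.symm
         | exact hx (((congrArg τ h').trans (h3 x)))
         | exact hx (((congrArg τ h'.symm).trans (h3 x)))
         | exact hx (τ.injective h')
         | exact hx (τ.injective h').symm)
  have hli := (linearIndependent_monoidHom F Ω).comp f hf
  rw [Fintype.linearIndependent_iff] at hli
  have := hli ![1, p, q] (by
    funext y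
    have := hcon y
    simpa [Fin.sum_univ_three, f, hi] using this) 0
  exact one_ne_zero this

/-- **Hilbert 90** for a quadratic algebra (any discriminant). -/
theorem hilbert90_quad (τ : F ≃+* F) (h3 : ∀ x, τ (τ (τ x)) = x) (h1 : ∃ x, τ x ≠ x)
    {A T : F} (hA : τ A = A) (hT : τ T = T) (e : QuadraticAlgebra F A T)
    (he : N3 (qmap τ hA hT) e = 1) :
    ∃ c : (QuadraticAlgebra F A T)ˣ, e * qmap τ hA hT c = c := by
  set σ := qmap τ hA hT with hσ
  let Ω := AlgebraicClosure F
  let C : F →+* QuadraticAlgebra F A T := algebraMap F _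
  have hC : ∀ z, σ (C z) = C (τ z) := fun z => by
    ext <;> simp [hσ, C]
  have σ3 : ∀ x, σ (σ (σ x)) = x := fun x => by
    ext
    · exact h3 _
    · exact h3 _
  let c : F → QuadraticAlgebra F A T := fun z => C z + e * C (τ z) + e * σ e * C (τ (τ z))
  have hc : ∀ z, e * σ (c z) = c z := by
    intro z
    have h : e * σ e * σ (σ e) = 1 := he
    simp only [c, map_add, map_mul, hC, h3]
    linear_combination C z * h
  have hadd : ∀ z w, c (z + w) = c z + c w := by
    intro z w
    simp only [c, map_add]; ring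
  -- the roots
  obtain ⟨l, hl⟩ : ∃ l : Ω, l * l = algebraMap F Ω A + algebraMap F Ω T * l := by
    obtain ⟨l, hl⟩ := IsAlgClosed.exists_root
      (Polynomial.X ^ 2 + (Polynomial.C (-(algebraMap F Ω T)) * Polynomial.X +
        Polynomial.C (-(algebraMap F Ω A))) : Polynomial Ω) (by
        have : (Polynomial.X ^ 2 + (Polynomial.C (-(algebraMap F Ω T)) * Polynomial.X +
          Polynomial.C (-(algebraMap F Ω A))) : Polynomial Ω).degree = 2 := by
          compute_degree!
        rw [this]; norm_num)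
    refine ⟨l, ?_⟩
    simp only [Polynomial.IsRoot.def, Polynomial.eval_add, Polynomial.eval_pow,
      Polynomial.eval_X, Polynomial.eval_mul, Polynomial.eval_C] at hl
    linear_combination hl
  set m : Ω := algebraMap F Ω T - l with hm
  have hm2 : m * m = algebraMap F Ω A + algebraMap F Ω T * m := by
    rw [hm]; linear_combination hl
  have hnorm : ∀ x : QuadraticAlgebra F A T,
      algebraMap F Ω x.norm = qeval l hl x * qeval m hm2 x := by
    intro x
    change _ = (algebraMap F Ω x.re + algebraMap F Ω x.im * l) *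
      (algebraMap F Ω x.re + algebraMap F Ω x.im * m)
    rw [QuadraticAlgebra.norm_def]
    simp only [map_add, map_sub, map_mul]
    rw [hm]
    linear_combination (algebraMap F Ω x.im) ^ 2 * hl
  have hval : ∀ (k : Ω) (hk) (z : F), qeval (A := A) (T := T) k hk (c z) =
      algebraMap F Ω z + qeval k hk e * algebraMap F Ω (τ z) +
        qeval k hk (e * σ e) * algebraMap F Ω (τ (τ z)) := by
    intro k hk z
    have hCk : ∀ y, qeval (A := A) (T := T) k hk (C y) = algebraMap F Ω y := by
      intro y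
      change algebraMap F Ω (C y).re + algebraMap F Ω (C y).im * k = _
      simp [C]
    simp only [c, map_add, map_mul, hCk]
  obtain ⟨z1, hz1⟩ := exists_ne_zero_char (Ω := Ω) τ h3 h1 (qeval l hl e) (qeval l hl (e * σ e))
  obtain ⟨z2, hz2⟩ := exists_ne_zero_char (Ω := Ω) τ h3 h1 (qeval m hm2 e) (qeval m hm2 (e * σ e))
  rw [← hval] at hz1 hz2
  have hex : ∃ z, qeval l hl (c z) ≠ 0 ∧ qeval m hm2 (c z) ≠ 0 := by
    by_cases h4 : qeval m hm2 (c z1) = 0
    · by_cases h5 : qeval l hl (c z2) = 0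
      · refine ⟨z1 + z2, ?_, ?_⟩
        · rw [hadd, map_add, h5, add_zero]; exact hz1
        · rw [hadd, map_add, h4, zero_add]; exact hz2
      · exact ⟨z2, h5, hz2⟩
    · exact ⟨z1, hz1, h4⟩
  obtain ⟨z, hz, hz'⟩ := hex
  have hu : IsUnit (c z) := by
    rw [QuadraticAlgebra.isUnit_iff_norm_isUnit, isUnit_iff_ne_zero]
    intro h
    have := hnorm (c z)
    rw [h, map_zero] at this
    exact (mul_ne_zero hz hz') this.symm
  obtain ⟨u, hu⟩ := hu
  exact ⟨u, by rw [hu, hc]⟩

end H90

/-- unramified inert cubic data -/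
structure Unr {K F : Type*} [Field K] [Field F] (f : K →+* F) (τ : F ≃+* F)
    (O : ValuationSubring F) where
  cube : ∀ x, τ (τ (τ x)) = x
  map_f : ∀ x, τ (f x) = f x
  exists_f : ∀ x, τ x = x → ∃ y, f y = x
  s : O ≃+* O
  coe_s : ∀ x : O, ((s x : O) : F) = τ x
  ϖ : O
  res : ResData s ϖ
  ϖ_ne : ϖ ≠ 0
  unif : ∀ x : F, x ≠ 0 → ∃ (n : ℤ) (u : Oˣ), x = (ϖ : F) ^ n * ((u : O) : F)

section Split

variable {K F : Type*} [Field K] [Field F] {f : K →+* F} {τ : F ≃+* F} {O : ValuationSubring F}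
  (U : Unr f τ O)

/-- inclusion of quadratic algebras -/
def qincl (O : ValuationSubring F) (A T : O) :
    QuadraticAlgebra O A T →+* QuadraticAlgebra F (A : F) (T : F) where
  toFun z := ⟨(z.re : F), (z.im : F)⟩
  map_zero' := by ext <;> simp
  map_one' := by ext <;> simp [QuadraticAlgebra.re_one, QuadraticAlgebra.im_one]
  map_add' x y := by ext <;> simp
  map_mul' x y := by ext <;> simp

namespace Unr

include U

theorem τϖ : τ (U.ϖ : F) = U.ϖ := by
  rw [← U.coe_s, U.res.fix]

theorem τ_ne : ∃ x, τ x ≠ x := by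
  obtain ⟨x, hx⟩ := U.res.ne
  refine ⟨x, fun h => hx ?_⟩
  have h1 : U.s x = x := by
    apply Subtype.ext
    rw [U.coe_s, h]
  rw [h1, sub_self]
  exact Submodule.zero_mem _

theorem map_mem {x : F} (hx : x ∈ O) : τ x ∈ O := by
  have := U.coe_s ⟨x, hx⟩
  rw [← this]
  exact (U.s ⟨x, hx⟩).2

theorem exists_uc {A T : F} (hA : τ A = A) (hT : τ T = T) (hAO : A ∈ O) (hAO' : A⁻¹ ∈ O)
    (hA0 : A ≠ 0) (hTO : T ∈ O) (δ : (QuadraticAlgebra F A T)ˣ)
    (hδ : N3 (qmap τ hA hT) (δ : QuadraticAlgebra F A T) = QuadraticAlgebra.omega) :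
    ∃ (x y x' y' : F) (c : (QuadraticAlgebra F A T)ˣ), x ∈ O ∧ y ∈ O ∧ x' ∈ O ∧ y' ∈ O ∧
      (⟨x, y⟩ * ⟨x', y'⟩ : QuadraticAlgebra F A T) = 1 ∧
      N3 (qmap τ hA hT) (⟨x, y⟩ : QuadraticAlgebra F A T) = QuadraticAlgebra.omega ∧
      (δ : QuadraticAlgebra F A T) * qmap τ hA hT c = ⟨x, y⟩ * c := by
  let A' : O := ⟨A, hAO⟩
  let T' : O := ⟨T, hTO⟩
  have hA' : U.s A' = A' := Subtype.ext (by rw [U.coe_s]; exact hA)
  have hT' : U.s T' = T' := Subtype.ext (by rw [U.coe_s]; exact hT)
  -- `ω` is a unit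
  let A'' : O := ⟨A⁻¹, hAO'⟩
  have hAA : A' * A'' = 1 := Subtype.ext (mul_inv_cancel₀ hA0)
  let ω : (QuadraticAlgebra O A' T')ˣ :=
    ⟨⟨0, 1⟩, ⟨-(A'' * T'), A''⟩, by
      refine QuadraticAlgebra.ext ?_ ?_
      · simp only [QuadraticAlgebra.re_mul, QuadraticAlgebra.re_one]
        linear_combination hAA
      · simp only [QuadraticAlgebra.im_mul, QuadraticAlgebra.im_one]
        ring, by
      refine QuadraticAlgebra.ext ?_ ?_
      · simp only [QuadraticAlgebra.re_mul, QuadraticAlgebra.re_one]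
        linear_combination hAA
      · simp only [QuadraticAlgebra.im_mul, QuadraticAlgebra.im_one]
        ring⟩
  obtain ⟨u, hu⟩ := U.res.norm_quad hA' hT' ω (by ext <;> simp [ω])
  set i := qincl O A' T' with hi
  have hcomm : ∀ z, qmap τ hA hT (i z) = i (qmap U.s hA' hT' z) := by
    intro z
    ext
    · exact (U.coe_s _).symm
    · exact (U.coe_s _).symm
  have hNi : ∀ z, N3 (qmap τ hA hT) (i z) = i (N3 (qmap U.s hA' hT') z) := by
    intro z
    simp only [N3, map_mul, hcomm]
  have hNu : N3 (qmap τ hA hT) (i u) = QuadraticAlgebra.omega := by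
    rw [hNi, hu]
    ext <;> simp [hi, qincl, ω]
  have huu : i u * i ((u⁻¹ : (QuadraticAlgebra O A' T')ˣ) : QuadraticAlgebra O A' T') = 1 := by
    rw [← map_mul, u.mul_inv, map_one]
  -- Hilbert 90
  set w : QuadraticAlgebra F A T :=
    i ((u⁻¹ : (QuadraticAlgebra O A' T')ˣ) : QuadraticAlgebra O A' T') with hw
  have hNw : N3 (qmap τ hA hT) w * QuadraticAlgebra.omega = 1 := by
    rw [← hNu, ← N3_mul, mul_comm, huu, N3_one]
  have h90 : N3 (qmap τ hA hT) ((δ : QuadraticAlgebra F A T) * w) = 1 := by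
    rw [N3_mul, hδ, mul_comm, hNw]
  obtain ⟨c, hc⟩ := hilbert90_quad τ U.cube U.τ_ne hA hT _ h90
  refine ⟨(u : QuadraticAlgebra O A' T').re, (u : QuadraticAlgebra O A' T').im,
    ((u⁻¹ : (QuadraticAlgebra O A' T')ˣ) : QuadraticAlgebra O A' T').re,
    ((u⁻¹ : (QuadraticAlgebra O A' T')ˣ) : QuadraticAlgebra O A' T').im, c,
    Subtype.prop _, Subtype.prop _, Subtype.prop _, Subtype.prop _, huu, hNu, ?_⟩
  change (δ : QuadraticAlgebra F A T) * qmap τ hA hT c = i u * c
  calc (δ : QuadraticAlgebra F A T) * qmap τ hA hT c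
      = i u * ((δ : QuadraticAlgebra F A T) * w * qmap τ hA hT c) := by
        linear_combination (-(δ : QuadraticAlgebra F A T) * qmap τ hA hT c) * huu
    _ = i u * c := by rw [hc]

end Unr

end Split

section Descent2

variable {O : Type*} [CommRing O] {s : O ≃+* O} {ϖ : O}

/-- the dual basis -/
theorem ResData.exists_dual (R : ResData s ϖ) : ∃ e e' : Fin 3 → O, ∑ i, e i * e' i = 1 ∧
    ∑ i, e i * s (e' i) = 0 ∧ ∑ i, e i * s (s (e' i)) = 0 := by
  obtain ⟨θ, ⟨u, hu⟩, ⟨v, hv⟩⟩ := R.exists_theta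
  set d : O := ((u⁻¹ : Oˣ) : O) * ((v⁻¹ : Oˣ) : O) with hd
  have hd1 : (θ - s θ) * (θ - s (s θ)) * d = 1 := by
    rw [← hu, ← hv, hd]
    calc (u : O) * v * (((u⁻¹ : Oˣ) : O) * ((v⁻¹ : Oˣ) : O))
        = ((u : O) * ((u⁻¹ : Oˣ) : O)) * ((v : O) * ((v⁻¹ : Oˣ) : O)) := by ring
      _ = 1 := by rw [u.mul_inv, v.mul_inv, mul_one]
  have h3 := R.cube
  refine ⟨![1, θ, θ ^ 2], ![s θ * s (s θ) * d, -(s θ + s (s θ)) * d, d], ?_, ?_, ?_⟩
  · simp only [Fin.sum_univ_three, Matrix.cons_val_zero, Matrix.cons_val_one, Matrix.cons_val]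
    linear_combination hd1
  · simp only [Fin.sum_univ_three, Matrix.cons_val_zero, Matrix.cons_val_one, Matrix.cons_val,
      map_mul, map_add, map_neg, h3]
    ring
  · simp only [Fin.sum_univ_three, Matrix.cons_val_zero, Matrix.cons_val_one, Matrix.cons_val,
      map_mul, map_add, map_neg, h3]
    ring

/-- `H¹(⟨s⟩, GL₂(O)) = 1` -/
theorem ResData.h1_gl2 (R : ResData s ϖ) (k : Matrix (Fin 2) (Fin 2) O)
    (hk : k * k.map s * (k.map s).map s = 1) :
    ∃ b : Matrix (Fin 2) (Fin 2) O, IsUnit b.det ∧ k * b.map s = b := by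
  obtain ⟨e, e', h0, h1, h2⟩ := R.exists_dual
  let b : Fin 3 → Matrix (Fin 2) (Fin 2) O := fun i =>
    e' i • (1 : Matrix (Fin 2) (Fin 2) O) + s (e' i) • k + s (s (e' i)) • (k * k.map s)
  have hb : ∀ i, k * (b i).map s = b i := by
    intro i
    have hmap : (b i).map s = s (e' i) • (1 : Matrix (Fin 2) (Fin 2) O) +
        s (s (e' i)) • k.map s + e' i • (k.map s * (k.map s).map s) := by
      ext p q
      simp only [b, Matrix.map_apply, Matrix.add_apply, Matrix.smul_apply, Matrix.mul_apply,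
        smul_eq_mul, map_add, map_mul, map_sum, R.cube]
      congr 2
      by_cases hpq : p = q
      · subst hpq; simp
      · simp [Matrix.one_apply_ne hpq]
    rw [hmap]
    simp only [mul_add, Matrix.mul_smul, mul_one]
    rw [← mul_assoc, hk]
    simp only [b]
    abel
  have hsum : ∀ p q, ∑ i, e i * b i p q = (1 : Matrix (Fin 2) (Fin 2) O) p q := by
    intro p q
    have h : ∀ i, e i * b i p q = (e i * e' i) * (1 : Matrix (Fin 2) (Fin 2) O) p q +
        (e i * s (e' i)) * k p q + (e i * s (s (e' i))) * (k * k.map s) p q := by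
      intro i
      simp only [b, Matrix.add_apply, Matrix.smul_apply, smul_eq_mul]
      ring
    rw [Finset.sum_congr rfl fun i _ => h i, Finset.sum_add_distrib, Finset.sum_add_distrib,
      ← Finset.sum_mul, ← Finset.sum_mul, ← Finset.sum_mul, h0, h1, h2]
    ring
  -- the columns
  have hex : ∃ i j, IsUnit (b i 0 0 * b j 1 1 - b j 0 1 * b i 1 0) := by
    by_contra! hcon
    have h4 : ∀ i j, b i 0 0 * b j 1 1 - b j 0 1 * b i 1 0 ∈ Ideal.span {ϖ} := by
      intro i j
      by_contra h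
      exact hcon i j (R.isUnit_iff.mpr h)
    have h5 : (1 : O) = ∑ i, ∑ j, e i * e j * (b i 0 0 * b j 1 1 - b j 0 1 * b i 1 0) := by
      have h6 : ∑ i, ∑ j, e i * e j * (b i 0 0 * b j 1 1 - b j 0 1 * b i 1 0) =
          (∑ i, e i * b i 0 0) * (∑ j, e j * b j 1 1) -
          (∑ i, e i * b i 1 0) * (∑ j, e j * b j 0 1) := by
        rw [Finset.sum_mul_sum, Finset.sum_mul_sum, ← Finset.sum_sub_distrib]
        refine Finset.sum_congr rfl fun i _ => ?_
        rw [← Finset.sum_sub_distrib]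
        refine Finset.sum_congr rfl fun j _ => ?_
        ring
      rw [h6, hsum, hsum, hsum, hsum]
      simp
    have h7 : (1 : O) ∈ Ideal.span {ϖ} := by
      rw [h5]
      exact Ideal.sum_mem _ fun i _ => Ideal.sum_mem _ fun j _ =>
        Ideal.mul_mem_left _ _ (h4 i j)
    exact (Ideal.ne_top_iff_one _).mp R.maximal.ne_top h7
  obtain ⟨i, j, hij⟩ := hex
  refine ⟨!![b i 0 0, b j 0 1; b i 1 0, b j 1 1], ?_, ?_⟩
  · rw [Matrix.det_fin_two_of]; exact hij
  · have hi := hb i
    have hj := hb j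
    ext p q
    have hi' := congrFun (congrFun hi p) 0
    have hj' := congrFun (congrFun hj p) 1
    rw [Matrix.mul_apply, Fin.sum_univ_two] at hi' hj' ⊢
    simp only [Matrix.map_apply] at hi' hj' ⊢
    fin_cases q
    · fin_cases p <;> simpa using hi'
    · fin_cases p <;> simpa using hj'

end Descent2

end Fermat.Agent.LT

end
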