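import Fermat.Agent.LT.UnitLoc

/-!
# The unit places, matrix form
-/

set_option autoImplicit false

noncomputable section

namespace Fermat.Agent.LT

open Matrix

section Basics

variable {F : Type*} [Field F]

/-- entries in `O` -/
def IsInt (O : ValuationSubring F) (m : Matrix (Fin 2) (Fin 2) F) : Prop := ∀ i j, m i j ∈ O

theorem IsInt.mul {O : ValuationSubring F} {m n : Matrix (Fin 2) (Fin 2) F} (hm : IsInt O m)
    (hn : IsInt O n) : IsInt O (m * n) := fun i j => by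
  rw [Matrix.mul_apply]
  exact O.toSubring.sum_mem fun k _ => O.mul_mem _ _ (hm i k) (hn k j)

theorem IsInt.add {O : ValuationSubring F} {m n : Matrix (Fin 2) (Fin 2) F} (hm : IsInt O m)
    (hn : IsInt O n) : IsInt O (m + n) := fun i j => O.add_mem _ _ (hm i j) (hn i j)

theorem IsInt.smul {O : ValuationSubring F} {m : Matrix (Fin 2) (Fin 2) F} (hm : IsInt O m)
    {a : F} (ha : a ∈ O) : IsInt O (a • m) := fun i j => O.mul_mem _ _ ha (hm i j)

theorem isInt_one (O : ValuationSubring F) : IsInt O (1 : Matrix (Fin 2) (Fin 2) F) := fun i j => by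
  rw [Matrix.one_apply]
  split_ifs
  · exact O.one_mem
  · exact O.zero_mem

theorem IsInt.det {O : ValuationSubring F} {m : Matrix (Fin 2) (Fin 2) F} (hm : IsInt O m) :
    m.det ∈ O := by
  rw [Matrix.det_fin_two]
  exact O.sub_mem (O.mul_mem _ _ (hm 0 0) (hm 1 1)) (O.mul_mem _ _ (hm 0 1) (hm 1 0))

theorem IsInt.trace {O : ValuationSubring F} {m : Matrix (Fin 2) (Fin 2) F} (hm : IsInt O m) :
    m.trace ∈ O := by
  rw [Matrix.trace_fin_two]
  exact O.add_mem _ _ (hm 0 0) (hm 1 1)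

/-- `GL₂(O)` -/
def GU (O : ValuationSubring F) : Subgroup (GL (Fin 2) F) where
  carrier := {g | IsInt O (g : Matrix (Fin 2) (Fin 2) F) ∧
    IsInt O ((g⁻¹ : GL (Fin 2) F) : Matrix (Fin 2) (Fin 2) F)}
  mul_mem' := by
    rintro a b ⟨h1, h2⟩ ⟨h3, h4⟩
    refine ⟨?_, ?_⟩
    · rw [GeneralLinearGroup.coe_mul]; exact h1.mul h3
    · rw [_root_.mul_inv_rev, GeneralLinearGroup.coe_mul]; exact h4.mul h2
  one_mem' := ⟨isInt_one O, by rw [inv_one]; exact isInt_one O⟩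
  inv_mem' := by
    rintro a ⟨h1, h2⟩
    exact ⟨h2, by rw [inv_inv]; exact h1⟩

theorem mem_GU {O : ValuationSubring F} {g : GL (Fin 2) F} : g ∈ GU O ↔
    IsInt O (g : Matrix (Fin 2) (Fin 2) F) ∧
    IsInt O ((g⁻¹ : GL (Fin 2) F) : Matrix (Fin 2) (Fin 2) F) := Iff.rfl

/-- scalars times `GL₂(O)` -/
def PU (O : ValuationSubring F) (g : GL (Fin 2) F) : Prop :=
  ∃ z : Fˣ, ∃ k ∈ GU O, g = GeneralLinearGroup.scalar (Fin 2) z * k

theorem scalar_comm (z : Fˣ) (g : GL (Fin 2) F) :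
    GeneralLinearGroup.scalar (Fin 2) z * g = g * GeneralLinearGroup.scalar (Fin 2) z :=
  GeneralLinearGroup.scalar_commute _ _

theorem scalar_coe (z : Fˣ) (g : GL (Fin 2) F) :
    ((GeneralLinearGroup.scalar (Fin 2) z * g : GL (Fin 2) F) : Matrix (Fin 2) (Fin 2) F) =
      (z : F) • (g : Matrix (Fin 2) (Fin 2) F) := by
  rw [GeneralLinearGroup.coe_mul, GeneralLinearGroup.coe_scalar]
  ext i j
  simp

theorem PU.mul {O : ValuationSubring F} {g h : GL (Fin 2) F} (hg : PU O g) (hh : PU O h) :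
    PU O (g * h) := by
  obtain ⟨z, k, hk, rfl⟩ := hg
  obtain ⟨w, l, hl, rfl⟩ := hh
  refine ⟨z * w, k * l, (GU O).mul_mem hk hl, ?_⟩
  rw [map_mul]
  calc GeneralLinearGroup.scalar (Fin 2) z * k * (GeneralLinearGroup.scalar (Fin 2) w * l)
      = GeneralLinearGroup.scalar (Fin 2) z * (k * GeneralLinearGroup.scalar (Fin 2) w) * l := by
        group
    _ = _ := by rw [← scalar_comm]; group

theorem PU.inv {O : ValuationSubring F} {g : GL (Fin 2) F} (hg : PU O g) : PU O g⁻¹ := by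
  obtain ⟨z, k, hk, rfl⟩ := hg
  refine ⟨z⁻¹, k⁻¹, (GU O).inv_mem hk, ?_⟩
  rw [_root_.mul_inv_rev, ← map_inv, scalar_comm]

theorem PU.of_mem {O : ValuationSubring F} {g : GL (Fin 2) F} (hg : g ∈ GU O) : PU O g :=
  ⟨1, g, hg, by rw [map_one, one_mul]⟩

theorem PU.scalar {O : ValuationSubring F} (z : Fˣ) : PU O (GeneralLinearGroup.scalar (Fin 2) z) :=
  ⟨z, 1, (GU O).one_mem, by rw [mul_one]⟩

theorem PU.scalar_mul_iff {O : ValuationSubring F} {z : Fˣ} {g : GL (Fin 2) F} :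
    PU O (GeneralLinearGroup.scalar (Fin 2) z * g) ↔ PU O g := by
  constructor
  · intro h
    have := (PU.scalar (O := O) z⁻¹).mul h
    rwa [← mul_assoc, ← map_mul, inv_mul_cancel, map_one, one_mul] at this
  · exact fun h => (PU.scalar z).mul h

/-- units of the valuation ring -/
def IsU (O : ValuationSubring F) (x : F) : Prop := x ∈ O ∧ x⁻¹ ∈ O

theorem IsU.mul {O : ValuationSubring F} {x y : F} (hx : IsU O x) (hy : IsU O y) :
    IsU O (x * y) := ⟨O.mul_mem _ _ hx.1 hy.1, by rw [mul_inv]; exact O.mul_mem _ _ hx.2 hy.2⟩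

theorem IsU.inv {O : ValuationSubring F} {x : F} (hx : IsU O x) : IsU O x⁻¹ :=
  ⟨hx.2, by rw [inv_inv]; exact hx.1⟩

theorem IsU.of_sq {O : ValuationSubring F} {x : F} (hx : IsU O (x * x)) (h0 : x ≠ 0) :
    IsU O x := by
  rcases O.mem_or_inv_mem x with h | h
  · refine ⟨h, ?_⟩
    have h1 : x⁻¹ = (x * x)⁻¹ * x := by field_simp
    rw [h1]
    exact O.mul_mem _ _ hx.2 h
  · refine ⟨?_, h⟩
    have h1 : x = (x * x) * x⁻¹ := by field_simp
    rw [h1]
    exact O.mul_mem _ _ hx.1 h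

theorem isU_det {O : ValuationSubring F} {g : GL (Fin 2) F} (hg : g ∈ GU O) :
    IsU O ((g : Matrix (Fin 2) (Fin 2) F).det) := by
  refine ⟨hg.1.det, ?_⟩
  have h1 := hg.2.det
  have h2 : ((g⁻¹ : GL (Fin 2) F) : Matrix (Fin 2) (Fin 2) F).det *
      (g : Matrix (Fin 2) (Fin 2) F).det = 1 := by
    rw [← Matrix.det_mul, ← GeneralLinearGroup.coe_mul, inv_mul_cancel,
      GeneralLinearGroup.coe_one, Matrix.det_one]
  rw [← eq_inv_of_mul_eq_one_left h2]
  exact h1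

theorem det_scalar_mul (z : Fˣ) (g : GL (Fin 2) F) :
    ((GeneralLinearGroup.scalar (Fin 2) z * g : GL (Fin 2) F) : Matrix (Fin 2) (Fin 2) F).det =
      z * z * (g : Matrix (Fin 2) (Fin 2) F).det := by
  rw [scalar_coe, Matrix.det_smul, Fintype.card_fin]
  ring

theorem scalar_mem_GU {O : ValuationSubring F} {z : Fˣ} (hz : IsU O (z : F)) :
    GeneralLinearGroup.scalar (Fin 2) z ∈ GU O := by
  have h : ∀ w : Fˣ, (w : F) ∈ O → IsInt O ((GeneralLinearGroup.scalar (Fin 2) w : GL (Fin 2) F) :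
      Matrix (Fin 2) (Fin 2) F) := by
    intro w hw
    have := (isInt_one O).smul hw
    have h1 := scalar_coe w 1
    rw [mul_one, GeneralLinearGroup.coe_one] at h1
    rw [h1]
    exact this
  refine ⟨h z hz.1, ?_⟩
  rw [← map_inv]
  refine h _ ?_
  rw [Units.val_inv_eq_inv_val]
  exact hz.2

/-- `PU` with unit determinant is `GU` -/
theorem PU.mem {O : ValuationSubring F} {g : GL (Fin 2) F} (hg : PU O g)
    (hd : IsU O ((g : Matrix (Fin 2) (Fin 2) F).det)) : g ∈ GU O := by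
  obtain ⟨z, k, hk, rfl⟩ := hg
  rw [det_scalar_mul] at hd
  have hk' := isU_det hk
  have hk0 : (k : Matrix (Fin 2) (Fin 2) F).det ≠ 0 := k.det_ne_zero
  have h1 := hd.mul hk'.inv
  rw [mul_assoc, mul_inv_cancel₀ hk0, mul_one] at h1
  exact (GU O).mul_mem (scalar_mem_GU (h1.of_sq z.ne_zero)) hk

end Basics

section Maps

variable {K F : Type*} [Field K] [Field F]

/-- `τ` on `GL₂(F)` -/
abbrev tG (τ : F ≃+* F) : GL (Fin 2) F →* GL (Fin 2) F := GeneralLinearGroup.map (τ : F →+* F)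

/-- `GL₂(K) → GL₂(F)` -/
abbrev fG (f : K →+* F) : GL (Fin 2) K →* GL (Fin 2) F := GeneralLinearGroup.map f

theorem tG_apply (τ : F ≃+* F) (g : GL (Fin 2) F) (i j : Fin 2) : tG τ g i j = τ (g i j) := rfl

theorem fG_apply (f : K →+* F) (g : GL (Fin 2) K) (i j : Fin 2) : fG f g i j = f (g i j) := rfl

theorem fG_injective (f : K →+* F) : Function.Injective (fG f) := by
  intro a b h
  ext i j
  have h1 : fG f a i j = fG f b i j := by rw [h]
  exact f.injective h1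

theorem fG_scalar (f : K →+* F) (z : Kˣ) :
    fG f (GeneralLinearGroup.scalar (Fin 2) z) =
      GeneralLinearGroup.scalar (Fin 2) (Units.map (f : K →* F) z) := by
  ext i j
  rw [fG_apply, GeneralLinearGroup.coe_scalar, GeneralLinearGroup.coe_scalar]
  fin_cases i <;> fin_cases j <;> simp

theorem tG_scalar (τ : F ≃+* F) (z : Fˣ) :
    tG τ (GeneralLinearGroup.scalar (Fin 2) z) =
      GeneralLinearGroup.scalar (Fin 2) (Units.map (τ : F →* F) z) :=
  fG_scalar (τ : F →+* F) z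

theorem det_fG (f : K →+* F) (g : GL (Fin 2) K) :
    (fG f g : Matrix (Fin 2) (Fin 2) F).det = f ((g : Matrix (Fin 2) (Fin 2) K).det) := by
  rw [Matrix.det_fin_two, Matrix.det_fin_two]
  simp only [fG_apply, map_sub, map_mul]

theorem mem_GU_fG {f : K →+* F} {O : ValuationSubring F} {g : GL (Fin 2) K} :
    fG f g ∈ GU O ↔ g ∈ GU (O.comap f) := by
  rw [mem_GU, mem_GU, ← map_inv]
  rfl

theorem GU_eq_of_det {O : ValuationSubring F} {g : GL (Fin 2) F}
    (h : IsInt O (g : Matrix (Fin 2) (Fin 2) F))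
    (hd : ((g : Matrix (Fin 2) (Fin 2) F).det)⁻¹ ∈ O) : g ∈ GU O := by
  refine ⟨h, ?_⟩
  rw [GeneralLinearGroup.coe_inv, Matrix.inv_def, Ring.inverse_eq_inv', Matrix.adjugate_fin_two]
  refine IsInt.smul ?_ hd
  intro i j
  fin_cases i <;> fin_cases j
  · exact h 1 1
  · exact O.neg_mem _ (h 0 1)
  · exact O.neg_mem _ (h 1 0)
  · exact h 0 0

/-- elements `x + y γ`, `x, y ∈ O` -/
def InO (O : ValuationSubring F) (γ g : Matrix (Fin 2) (Fin 2) F) : Prop :=
  ∃ x ∈ O, ∃ y ∈ O, g = x • (1 : Matrix (Fin 2) (Fin 2) F) + y • γ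

theorem InO.comm {O : ValuationSubring F} {γ g h : Matrix (Fin 2) (Fin 2) F} (hg : InO O γ g)
    (hh : h * γ = γ * h) : g * h = h * g := by
  obtain ⟨x, -, y, -, rfl⟩ := hg
  simp only [add_mul, mul_add, Matrix.smul_mul, Matrix.mul_smul, one_mul, mul_one, hh]

theorem InO.conj {O : ValuationSubring F} {γ g : Matrix (Fin 2) (Fin 2) F} (hg : InO O γ g)
    (x : GL (Fin 2) F)
    (h : IsInt O (((x⁻¹ : GL (Fin 2) F) : Matrix (Fin 2) (Fin 2) F) * γ * x)) :
    IsInt O (((x⁻¹ : GL (Fin 2) F) : Matrix (Fin 2) (Fin 2) F) * g * x) := by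
  obtain ⟨a, ha, b, hb, rfl⟩ := hg
  have h1 : ((x⁻¹ : GL (Fin 2) F) : Matrix (Fin 2) (Fin 2) F) *
      (a • (1 : Matrix (Fin 2) (Fin 2) F) + b • γ) * x =
      a • (1 : Matrix (Fin 2) (Fin 2) F) +
        b • (((x⁻¹ : GL (Fin 2) F) : Matrix (Fin 2) (Fin 2) F) * γ * x) := by
    simp only [add_mul, mul_add, Matrix.smul_mul, Matrix.mul_smul, mul_one]
    rw [← GeneralLinearGroup.coe_mul, inv_mul_cancel, GeneralLinearGroup.coe_one]
  rw [h1]
  exact ((isInt_one O).smul ha).add (h.smul hb)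

theorem conj_mem_GU {O : ValuationSubring F} {γ : Matrix (Fin 2) (Fin 2) F} {g : GL (Fin 2) F}
    (hg : InO O γ (g : Matrix (Fin 2) (Fin 2) F))
    (hg' : InO O γ ((g⁻¹ : GL (Fin 2) F) : Matrix (Fin 2) (Fin 2) F)) (x : GL (Fin 2) F)
    (h : IsInt O (((x⁻¹ : GL (Fin 2) F) : Matrix (Fin 2) (Fin 2) F) * γ * x)) :
    x⁻¹ * g * x ∈ GU O := by
  refine ⟨?_, ?_⟩
  · rw [GeneralLinearGroup.coe_mul, GeneralLinearGroup.coe_mul]
    exact hg.conj x h
  · have h1 : (x⁻¹ * g * x)⁻¹ = x⁻¹ * g⁻¹ * x := by group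
    rw [h1, GeneralLinearGroup.coe_mul, GeneralLinearGroup.coe_mul]
    exact hg'.conj x h

end Maps

section Main

variable {K F : Type*} [Field K] [Field F] {f : K →+* F} {τ : F ≃+* F} {O : ValuationSubring F}
  (U : Unr f τ O)

namespace Unr

include U

theorem tG_cube (g : GL (Fin 2) F) : tG τ (tG τ (tG τ g)) = g := by
  ext i j
  simp only [tG_apply, U.cube]

theorem tG_fG (g : GL (Fin 2) K) : tG τ (fG f g) = fG f g := by
  ext i j
  rw [tG_apply, fG_apply, U.map_f]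

theorem exists_fG {g : GL (Fin 2) F} (h : tG τ g = g) : ∃ h : GL (Fin 2) K, fG f h = g := by
  have h1 : ∀ i j, ∃ y, f y = g i j := by
    intro i j
    apply U.exists_f
    conv_rhs => rw [← h]
    rfl
  choose m hm using h1
  have hmm : (Matrix.of m).map f = (g : Matrix (Fin 2) (Fin 2) F) := by
    ext i j
    exact hm i j
  have hdet : (Matrix.of m).det ≠ 0 := by
    intro h0
    have h2 : f ((Matrix.of m).det) = (g : Matrix (Fin 2) (Fin 2) F).det := by
      rw [← hmm, RingHom.map_det]; rfl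
    rw [h0, map_zero] at h2
    exact g.det_ne_zero h2.symm
  refine ⟨GeneralLinearGroup.mkOfDetNeZero (Matrix.of m) hdet, ?_⟩
  ext i j
  exact hm i j

theorem mem_GU_tG {g : GL (Fin 2) F} (hg : g ∈ GU O) : tG τ g ∈ GU O := by
  refine ⟨fun i j => U.map_mem (hg.1 i j), ?_⟩
  rw [← map_inv]
  exact fun i j => U.map_mem (hg.2 i j)

theorem PU_tG {g : GL (Fin 2) F} (hg : PU O g) : PU O (tG τ g) := by
  obtain ⟨z, k, hk, rfl⟩ := hg
  exact ⟨Units.map (τ : F →* F) z, tG τ k, U.mem_GU_tG hk, by rw [map_mul, tG_scalar]⟩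

theorem exists_ϖ : ∃ p : K, f p = U.ϖ ∧ p ≠ 0 := by
  obtain ⟨p, hp⟩ := U.exists_f _ U.τϖ
  refine ⟨p, hp, ?_⟩
  rintro rfl
  rw [map_zero] at hp
  exact U.ϖ_ne (Subtype.ext hp.symm)

/-- every scalar is a unit times a scalar from `K` -/
theorem exists_scalar (z : Fˣ) : ∃ (p : Kˣ) (u : Fˣ), IsU O (u : F) ∧
    z = Units.map (f : K →* F) p * u := by
  obtain ⟨n, u, hu⟩ := U.unif z z.ne_zero
  obtain ⟨p, hp, hp0⟩ := U.exists_ϖ
  have hu' : IsU O ((u : O) : F) := by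
    refine ⟨(u : O).2, ?_⟩
    have h1 : ((u : O) : F) * (((u⁻¹ : Oˣ) : O) : F) = 1 := by
      have := congrArg (Subtype.val) u.mul_inv
      exact this
    rw [← eq_inv_of_mul_eq_one_right h1]
    exact ((u⁻¹ : Oˣ) : O).2
  have hne : ((u : O) : F) ≠ 0 := by
    intro h0
    rw [h0, mul_zero] at hu
    exact z.ne_zero hu
  refine ⟨Units.mk0 p hp0 ^ n, Units.mk0 _ hne, hu', ?_⟩
  ext
  rw [hu]
  simp [hp]

theorem PU_fG {g : GL (Fin 2) K} : PU O (fG f g) ↔ PU (O.comap f) g := by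
  constructor
  · rintro ⟨z, k, hk, h⟩
    obtain ⟨p, u, hu, rfl⟩ := U.exists_scalar z
    refine ⟨p, GeneralLinearGroup.scalar (Fin 2) p⁻¹ * g, ?_, ?_⟩
    · rw [← mem_GU_fG, map_mul, fG_scalar, h, ← mul_assoc, ← map_mul]
      have h2 : Units.map (f : K →* F) p⁻¹ * (Units.map (f : K →* F) p * u) = u := by
        rw [← mul_assoc, ← map_mul, inv_mul_cancel, map_one, one_mul]
      rw [h2]
      exact (GU O).mul_mem (scalar_mem_GU hu) hk
    · rw [← mul_assoc, ← map_mul, mul_inv_cancel, map_one, one_mul]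
  · rintro ⟨z, k, hk, rfl⟩
    exact ⟨_, fG f k, mem_GU_fG.mpr hk, by rw [map_mul, fG_scalar]⟩

/-- descent -/
theorem exists_descent {y : GL (Fin 2) F} (hy : y⁻¹ * tG τ y ∈ GU O) :
    ∃ b ∈ GU O, ∃ g : GL (Fin 2) K, fG f g = y * b := by
  set k := y⁻¹ * tG τ y with hk
  have hcoc : k * tG τ k * tG τ (tG τ k) = 1 := by
    rw [hk]
    simp only [map_mul, map_inv, U.tG_cube]
    group
  let kO : Matrix (Fin 2) (Fin 2) O := fun i j => ⟨k i j, hy.1 i j⟩
  have hkO : kO * kO.map U.s * (kO.map U.s).map U.s = 1 := by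
    ext i j
    have h1 := congrArg (fun g : GL (Fin 2) F => g i j) hcoc
    simp only [GeneralLinearGroup.coe_mul, GeneralLinearGroup.coe_one, Matrix.mul_apply,
      Fin.sum_univ_two] at h1
    simp only [Matrix.mul_apply, Fin.sum_univ_two, Matrix.map_apply]
    have h2 : (((1 : Matrix (Fin 2) (Fin 2) O) i j : O) : F) =
        (1 : Matrix (Fin 2) (Fin 2) F) i j := by
      by_cases h : i = j
      · subst h; simp
      · simp [Matrix.one_apply_ne h]
    rw [h2, ← h1]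
    simp only [AddMemClass.coe_add, MulMemClass.coe_mul, U.coe_s, kO]
    rfl
  obtain ⟨b, hb, hkb⟩ := U.res.h1_gl2 kO hkO
  let bM : Matrix (Fin 2) (Fin 2) F := fun i j => (b i j : F)
  have hdet : bM.det = ((b.det : O) : F) := by
    rw [Matrix.det_fin_two, Matrix.det_fin_two]
    rfl
  obtain ⟨d, hd⟩ := hb
  have hdd : ((d : O) : F) * (((d⁻¹ : Oˣ) : O) : F) = 1 := congrArg (Subtype.val) d.mul_inv
  have hdet0 : bM.det ≠ 0 := by
    rw [hdet, ← hd]
    exact left_ne_zero_of_mul_eq_one hdd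
  let bG : GL (Fin 2) F := GeneralLinearGroup.mkOfDetNeZero bM hdet0
  have hbG : bG ∈ GU O := by
    refine GU_eq_of_det (fun i j => (b i j).2) ?_
    change (bM.det)⁻¹ ∈ O
    rw [hdet, ← hd, ← eq_inv_of_mul_eq_one_right hdd]
    exact ((d⁻¹ : Oˣ) : O).2
  have hkbG : k * tG τ bG = bG := by
    ext i j
    have h1 := congrArg (fun m : Matrix (Fin 2) (Fin 2) O => ((m i j : O) : F)) hkb
    simp only [Matrix.mul_apply, Fin.sum_univ_two, Matrix.map_apply, AddMemClass.coe_add,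
      MulMemClass.coe_mul, U.coe_s] at h1
    rw [GeneralLinearGroup.coe_mul, Matrix.mul_apply, Fin.sum_univ_two]
    exact h1
  refine ⟨bG, hbG, U.exists_fG ?_⟩
  have h2 : tG τ y = y * k := by rw [hk]; group
  rw [map_mul, h2, mul_assoc, hkbG]

variable {δ c u : GL (Fin 2) F} {γ : GL (Fin 2) K}

theorem exists_of_fix (hN : δ * tG τ δ * tG τ (tG τ δ) = fG f γ)
    (hu : InO O (fG f γ : Matrix (Fin 2) (Fin 2) F) (u : Matrix (Fin 2) (Fin 2) F))
    (hu' : InO O (fG f γ : Matrix (Fin 2) (Fin 2) F)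
      ((u⁻¹ : GL (Fin 2) F) : Matrix (Fin 2) (Fin 2) F))
    (hc : c * fG f γ = fG f γ * c) (huc : δ * tG τ c = u * c) {x : GL (Fin 2) F}
    (hx : x⁻¹ * δ * tG τ x ∈ GU O) :
    ∃ y : GL (Fin 2) K, y⁻¹ * γ * y ∈ GU (O.comap f) ∧ x⁻¹ * (c * fG f y) ∈ GU O := by
  set k := x⁻¹ * δ * tG τ x with hk
  have hγx : x⁻¹ * fG f γ * x = k * tG τ k * tG τ (tG τ k) := by
    rw [← hN, hk]
    simp only [map_mul, map_inv, U.tG_cube]
    group
  have hγx' : x⁻¹ * fG f γ * x ∈ GU O := by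
    rw [hγx]
    exact (GU O).mul_mem ((GU O).mul_mem hx (U.mem_GU_tG hx)) (U.mem_GU_tG (U.mem_GU_tG hx))
  have huu : u * c = c * u := by
    apply Units.ext
    exact hu.comm (congrArg Units.val hc)
  have hux : x⁻¹ * u⁻¹ * x ∈ GU O := by
    refine conj_mem_GU hu' (by rwa [inv_inv]) x ?_
    have := hγx'.1
    rwa [GeneralLinearGroup.coe_mul, GeneralLinearGroup.coe_mul] at this
  have hy : (c⁻¹ * x)⁻¹ * tG τ (c⁻¹ * x) ∈ GU O := by
    have h1 : (c⁻¹ * x)⁻¹ * tG τ (c⁻¹ * x) = (x⁻¹ * u⁻¹ * x) * k := by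
      have h2 : (tG τ c)⁻¹ = (u * c)⁻¹ * δ := by rw [← huc]; group
      rw [map_mul, map_inv, h2, hk]
      group
    rw [h1]
    exact (GU O).mul_mem hux hx
  obtain ⟨b, hb, g, hg⟩ := U.exists_descent hy
  refine ⟨g, ?_, ?_⟩
  · rw [← mem_GU_fG, map_mul, map_mul, map_inv, hg]
    have h1 : (c⁻¹ * x * b)⁻¹ * fG f γ * (c⁻¹ * x * b) = b⁻¹ * (x⁻¹ * fG f γ * x) * b := by
      have h2 : c * fG f γ * c⁻¹ = fG f γ := by rw [hc]; group
      calc (c⁻¹ * x * b)⁻¹ * fG f γ * (c⁻¹ * x * b)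
          = b⁻¹ * (x⁻¹ * (c * fG f γ * c⁻¹) * x) * b := by group
        _ = _ := by rw [h2]
    rw [h1]
    exact (GU O).mul_mem ((GU O).mul_mem ((GU O).inv_mem hb) hγx') hb
  · rw [hg]
    have h1 : x⁻¹ * (c * (c⁻¹ * x * b)) = b := by group
    rwa [h1]

theorem fix_of_exists
    (hu : InO O (fG f γ : Matrix (Fin 2) (Fin 2) F) (u : Matrix (Fin 2) (Fin 2) F))
    (hu' : InO O (fG f γ : Matrix (Fin 2) (Fin 2) F)
      ((u⁻¹ : GL (Fin 2) F) : Matrix (Fin 2) (Fin 2) F))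
    (hc : c * fG f γ = fG f γ * c) (huc : δ * tG τ c = u * c) {x : GL (Fin 2) F}
    {y : GL (Fin 2) K} (hy : y⁻¹ * γ * y ∈ GU (O.comap f)) (hxy : PU O (x⁻¹ * (c * fG f y))) :
    PU O (x⁻¹ * δ * tG τ x) := by
  set κ := x⁻¹ * (c * fG f y) with hκ
  have hx : x = c * fG f y * κ⁻¹ := by rw [hκ]; group
  have huu : u * c = c * u := by
    apply Units.ext
    exact hu.comm (congrArg Units.val hc)
  have h1 : x⁻¹ * δ * tG τ x = κ * ((fG f y)⁻¹ * u * fG f y) * (tG τ κ)⁻¹ := by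
    rw [hx]
    simp only [map_mul, map_inv, U.tG_fG]
    have h2 : c⁻¹ * (δ * tG τ c) = u := by rw [huc, huu]; group
    calc (c * fG f y * κ⁻¹)⁻¹ * δ * (tG τ c * fG f y * (tG τ κ)⁻¹)
        = κ * ((fG f y)⁻¹ * (c⁻¹ * (δ * tG τ c)) * fG f y) * (tG τ κ)⁻¹ := by group
      _ = _ := by rw [h2]
  rw [h1]
  have h3 : (fG f y)⁻¹ * u * fG f y ∈ GU O := by
    refine conj_mem_GU hu hu' (fG f y) ?_
    have := mem_GU_fG.mpr hy
    rw [map_mul, map_mul, map_inv] at this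
    have h4 := this.1
    rwa [GeneralLinearGroup.coe_mul, GeneralLinearGroup.coe_mul] at h4
  exact (hxy.mul (PU.of_mem h3)).mul (U.PU_tG hxy).inv

end Unr

end Main

section Rho

variable {F : Type*} [Field F]

/-- Cayley-Hamilton -/
theorem cayley2 (m : Matrix (Fin 2) (Fin 2) F) :
    m * m = (-m.det) • (1 : Matrix (Fin 2) (Fin 2) F) + m.trace • m := by
  ext i j
  fin_cases i <;> fin_cases j <;>
    simp [Matrix.mul_apply, Fin.sum_univ_two, Matrix.det_fin_two, Matrix.trace_fin_two] <;> ring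

/-- the map `F[ω] → M₂(F)`, `ω ↦ m` -/
def rho (m : Matrix (Fin 2) (Fin 2) F) :
    QuadraticAlgebra F (-m.det) m.trace →ₐ[F] Matrix (Fin 2) (Fin 2) F :=
  QuadraticAlgebra.lift ⟨m, cayley2 m⟩

theorem rho_apply (m : Matrix (Fin 2) (Fin 2) F) (z : QuadraticAlgebra F (-m.det) m.trace) :
    rho m z = z.re • (1 : Matrix (Fin 2) (Fin 2) F) + z.im • m := rfl

/-- not scalar -/
def NonSc (m : Matrix (Fin 2) (Fin 2) F) : Prop := m 0 1 ≠ 0 ∨ m 1 0 ≠ 0 ∨ m 0 0 ≠ m 1 1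

theorem rho_injective {m : Matrix (Fin 2) (Fin 2) F} (hm : NonSc m) :
    Function.Injective (rho m) := by
  rw [injective_iff_map_eq_zero]
  intro z hz
  rw [rho_apply] at hz
  have h00 := congrFun (congrFun hz 0) 0
  have h01 := congrFun (congrFun hz 0) 1
  have h10 := congrFun (congrFun hz 1) 0
  have h11 := congrFun (congrFun hz 1) 1
  simp [Matrix.add_apply, Matrix.smul_apply] at h00 h01 h10 h11
  have him : z.im = 0 := by
    rcases hm with h | h | h
    · exact h01.resolve_right h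
    · exact h10.resolve_right h
    · have h1 : z.im * (m 0 0 - m 1 1) = 0 := by linear_combination h00 - h11
      exact (mul_eq_zero.mp h1).resolve_right (sub_ne_zero.mpr h)
  ext
  · simpa [him] using h00
  · exact him

theorem exists_rho {m g : Matrix (Fin 2) (Fin 2) F} (hm : NonSc m) (h : g * m = m * g) :
    ∃ z : QuadraticAlgebra F (-m.det) m.trace, rho m z = g := by
  have h00 := congrFun (congrFun h 0) 0
  have h01 := congrFun (congrFun h 0) 1
  have h10 := congrFun (congrFun h 1) 0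
  have h11 := congrFun (congrFun h 1) 1
  simp only [Matrix.mul_apply, Fin.sum_univ_two] at h00 h01 h10 h11
  rcases hm with h1 | h1 | h1
  · refine ⟨⟨g 0 0 - g 0 1 / m 0 1 * m 0 0, g 0 1 / m 0 1⟩, ?_⟩
    rw [rho_apply]
    ext i j
    fin_cases i <;> fin_cases j <;> simp
    · field_simp
    · field_simp
      linear_combination h00
    · field_simp
      linear_combination h01
  · refine ⟨⟨g 0 0 - g 1 0 / m 1 0 * m 0 0, g 1 0 / m 1 0⟩, ?_⟩
    rw [rho_apply]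
    ext i j
    fin_cases i <;> fin_cases j <;> simp
    · field_simp
      linear_combination -h00
    · field_simp
    · field_simp
      linear_combination -h10
  · have h2 : m 0 0 - m 1 1 ≠ 0 := sub_ne_zero.mpr h1
    refine ⟨⟨g 0 0 - (g 0 0 - g 1 1) / (m 0 0 - m 1 1) * m 0 0,
      (g 0 0 - g 1 1) / (m 0 0 - m 1 1)⟩, ?_⟩
    rw [rho_apply]
    ext i j
    fin_cases i <;> fin_cases j <;> simp
    · field_simp
      linear_combination h01
    · field_simp
      linear_combination -h10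
    · field_simp
      ring

theorem rho_det (m : Matrix (Fin 2) (Fin 2) F) (z : QuadraticAlgebra F (-m.det) m.trace) :
    (rho m z).det = z.norm := by
  rw [rho_apply, QuadraticAlgebra.norm_def, Matrix.det_fin_two]
  simp [Matrix.det_fin_two, Matrix.trace_fin_two]
  ring

end Rho

section Exist

variable {K F : Type*} [Field K] [Field F] {f : K →+* F} {τ : F ≃+* F} {O : ValuationSubring F}
  (U : Unr f τ O)

namespace Unr

include U

variable {δ : GL (Fin 2) F} {γ : GL (Fin 2) K}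

theorem exists_cu (hns : NonSc (fG f γ : Matrix (Fin 2) (Fin 2) F))
    (hcomm : δ * fG f γ = fG f γ * δ) (hN : δ * tG τ δ * tG τ (tG τ δ) = fG f γ)
    (hdet : IsU O ((fG f γ : Matrix (Fin 2) (Fin 2) F).det))
    (htr : (fG f γ : Matrix (Fin 2) (Fin 2) F).trace ∈ O) :
    ∃ c u : GL (Fin 2) F,
      InO O (fG f γ : Matrix (Fin 2) (Fin 2) F) (u : Matrix (Fin 2) (Fin 2) F) ∧
      InO O (fG f γ : Matrix (Fin 2) (Fin 2) F)
        ((u⁻¹ : GL (Fin 2) F) : Matrix (Fin 2) (Fin 2) F) ∧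
      (∃ a b : F, (c : Matrix (Fin 2) (Fin 2) F) = a • (1 : Matrix (Fin 2) (Fin 2) F) +
        b • (fG f γ : Matrix (Fin 2) (Fin 2) F)) ∧ δ * tG τ c = u * c := by
  set m : Matrix (Fin 2) (Fin 2) F := (fG f γ : Matrix (Fin 2) (Fin 2) F) with hm
  have hmτ : m.map τ = m := by
    have := congrArg Units.val (U.tG_fG γ)
    exact this
  have hA : τ (-m.det) = -m.det := by
    rw [map_neg]
    have h1 : τ m.det = (m.map τ).det := by
      have := RingHom.map_det (τ : F →+* F) m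
      exact this
    rw [h1, hmτ]
  have hT : τ m.trace = m.trace := by
    have h1 : τ m.trace = (m.map τ).trace := by
      rw [Matrix.trace_fin_two, Matrix.trace_fin_two, map_add]; rfl
    rw [h1, hmτ]
  have hσ : ∀ z, rho m (qmap τ hA hT z) = (rho m z).map τ := by
    intro z
    rw [rho_apply, rho_apply, qmap_re, qmap_im]
    ext i j
    have hmij : τ (m i j) = m i j := congrFun (congrFun hmτ i) j
    by_cases hij : i = j
    · subst hij; simp [hmij]
    · simp [Matrix.one_apply_ne hij, hmij]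
  have hinj := rho_injective hns
  obtain ⟨q, hq⟩ := exists_rho hns (congrArg Units.val hcomm)
  have hqu : IsUnit q := by
    rw [QuadraticAlgebra.isUnit_iff_norm_isUnit, ← rho_det, hq, isUnit_iff_ne_zero]
    exact δ.det_ne_zero
  obtain ⟨q, rfl⟩ := hqu
  have hNq : N3 (qmap τ hA hT) (q : QuadraticAlgebra F (-m.det) m.trace) =
      QuadraticAlgebra.omega := by
    apply hinj
    rw [N3, map_mul, map_mul, hσ, hσ, hσ, hq]
    have h1 : rho m QuadraticAlgebra.omega = m := by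
      rw [rho_apply, QuadraticAlgebra.omega_re, QuadraticAlgebra.omega_im]; simp
    rw [h1]
    exact congrArg Units.val hN
  have hd0 : m.det ≠ 0 := (fG f γ).det_ne_zero
  obtain ⟨x, y, x', y', c, hx, hy, hx', hy', h1, -, h3⟩ := U.exists_uc hA hT
    (O.neg_mem _ hdet.1) (by rw [inv_neg]; exact O.neg_mem _ hdet.2) (neg_ne_zero.mpr hd0) htr q hNq
  let c' : GL (Fin 2) F := Units.map (rho m : _ →* Matrix (Fin 2) (Fin 2) F) c
  let u' : GL (Fin 2) F := ⟨rho m ⟨x, y⟩, rho m ⟨x', y'⟩, by rw [← map_mul, h1, map_one], by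
    rw [← map_mul, mul_comm, h1, map_one]⟩
  refine ⟨c', u', ⟨x, hx, y, hy, rfl⟩, ⟨x', hx', y', hy', rfl⟩, ⟨_, _, rfl⟩, ?_⟩
  apply Units.ext
  have h4 := congrArg (rho m) h3
  rw [map_mul, map_mul, hσ, hq] at h4
  exact h4

theorem isU_of_unit (u : Oˣ) : IsU O ((u : O) : F) := by
  refine ⟨(u : O).2, ?_⟩
  have h1 : ((u : O) : F) * (((u⁻¹ : Oˣ) : O) : F) = 1 := congrArg (Subtype.val) u.mul_inv
  rw [← eq_inv_of_mul_eq_one_right h1]
  exact ((u⁻¹ : Oˣ) : O).2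

theorem isU_map {x : F} (hx : IsU O x) : IsU O (τ x) :=
  ⟨U.map_mem hx.1, by rw [← map_inv₀]; exact U.map_mem hx.2⟩

theorem isU_div {x : F} (hx : x ≠ 0) : IsU O (τ x * x⁻¹) := by
  obtain ⟨n, u, hu⟩ := U.unif x hx
  have h1 := U.isU_of_unit u
  have h0 : (U.ϖ : F) ^ n ≠ 0 := by
    intro h
    rw [h, zero_mul] at hu
    exact hx hu
  have h2 : τ x * x⁻¹ = τ ((u : O) : F) * (((u : O) : F))⁻¹ := by
    have h3 : τ x = (U.ϖ : F) ^ n * τ ((u : O) : F) := by
      rw [hu, map_mul, map_zpow₀, U.τϖ]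
    rw [h3]
    conv_lhs => rw [hu]
    rw [mul_inv]
    calc (U.ϖ : F) ^ n * τ ((u : O) : F) * (((U.ϖ : F) ^ n)⁻¹ * (((u : O) : F))⁻¹)
        = ((U.ϖ : F) ^ n * ((U.ϖ : F) ^ n)⁻¹) * (τ ((u : O) : F) * (((u : O) : F))⁻¹) := by ring
      _ = _ := by rw [mul_inv_cancel₀ h0, one_mul]
  rw [h2]
  exact (U.isU_map h1).mul h1.inv

theorem isU_f {x : K} : IsU O (f x) ↔ IsU (O.comap f) x := by
  rw [IsU, IsU, ← map_inv₀]
  rfl

theorem det_tG (g : GL (Fin 2) F) :
    (tG τ g : Matrix (Fin 2) (Fin 2) F).det = τ ((g : Matrix (Fin 2) (Fin 2) F).det) :=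
  det_fG (τ : F →+* F) g

theorem exists_norm_scalar (hN : δ * tG τ δ * tG τ (tG τ δ) = fG f γ)
    (h : (∃ x, PU O (x⁻¹ * δ * tG τ x)) ∨ ∃ y, PU (O.comap f) (y⁻¹ * γ * y)) :
    ∃ z : Kˣ, IsU O ((δ : Matrix (Fin 2) (Fin 2) F).det * (f z * f z)⁻¹) := by
  have hf0 : ∀ z : Kˣ, f (z : K) ≠ 0 := fun z => (map_ne_zero f).mpr z.ne_zero
  have hd0 : (δ : Matrix (Fin 2) (Fin 2) F).det ≠ 0 := δ.det_ne_zero
  rcases h with ⟨x, w, k, hk, h⟩ | ⟨y, w, k, hk, h⟩
  · have h1 := congrArg (fun g : GL (Fin 2) F => (g : Matrix (Fin 2) (Fin 2) F).det) h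
    have hx0 : (x : Matrix (Fin 2) (Fin 2) F).det ≠ 0 := x.det_ne_zero
    have hxx : ((x⁻¹ : GL (Fin 2) F) : Matrix (Fin 2) (Fin 2) F).det =
        ((x : Matrix (Fin 2) (Fin 2) F).det)⁻¹ := by
      apply eq_inv_of_mul_eq_one_left
      rw [← Matrix.det_mul, ← GeneralLinearGroup.coe_mul, inv_mul_cancel,
        GeneralLinearGroup.coe_one, Matrix.det_one]
    rw [det_scalar_mul, GeneralLinearGroup.coe_mul, GeneralLinearGroup.coe_mul, Matrix.det_mul,
      Matrix.det_mul, U.det_tG, hxx] at h1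
    obtain ⟨p, u, hu, rfl⟩ := U.exists_scalar w
    refine ⟨p, ?_⟩
    have hk' := isU_det hk
    have hd := U.isU_div hx0
    have hu0 : (u : F) ≠ 0 := u.ne_zero
    have key : (δ : Matrix (Fin 2) (Fin 2) F).det * (f p * f p)⁻¹ =
        (u : F) * u * (k : Matrix (Fin 2) (Fin 2) F).det *
          (τ ((x : Matrix (Fin 2) (Fin 2) F).det) *
            ((x : Matrix (Fin 2) (Fin 2) F).det)⁻¹)⁻¹ := by
      have hτ0 : τ ((x : Matrix (Fin 2) (Fin 2) F).det) ≠ 0 := by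
        rw [Ne, map_eq_zero]; exact hx0
      have hp := hf0 p
      simp only [Units.val_mul, Units.coe_map, MonoidHom.coe_coe] at h1
      field_simp at h1 ⊢
      linear_combination h1
    rw [key]
    exact ((hu.mul hu).mul hk').mul hd.inv
  · have h1 := congrArg (fun g : GL (Fin 2) K => (g : Matrix (Fin 2) (Fin 2) K).det) h
    have hy0 : (y : Matrix (Fin 2) (Fin 2) K).det ≠ 0 := y.det_ne_zero
    have hyy : ((y⁻¹ : GL (Fin 2) K) : Matrix (Fin 2) (Fin 2) K).det =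
        ((y : Matrix (Fin 2) (Fin 2) K).det)⁻¹ := by
      apply eq_inv_of_mul_eq_one_left
      rw [← Matrix.det_mul, ← GeneralLinearGroup.coe_mul, inv_mul_cancel,
        GeneralLinearGroup.coe_one, Matrix.det_one]
    rw [det_scalar_mul, GeneralLinearGroup.coe_mul, GeneralLinearGroup.coe_mul, Matrix.det_mul,
      Matrix.det_mul, hyy, mul_right_comm, inv_mul_cancel₀ hy0, one_mul] at h1
    have h2 := congrArg (fun g : GL (Fin 2) F => (g : Matrix (Fin 2) (Fin 2) F).det) hN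
    rw [det_fG, h1, GeneralLinearGroup.coe_mul, GeneralLinearGroup.coe_mul, Matrix.det_mul,
      Matrix.det_mul, U.det_tG, U.det_tG, U.det_tG, map_mul, map_mul] at h2
    obtain ⟨p, u, hu, hpu⟩ := U.exists_scalar (Units.mk0 _ hd0)
    have hpu' : (δ : Matrix (Fin 2) (Fin 2) F).det = f p * u := by
      have := congrArg Units.val hpu
      exact this
    refine ⟨w * p⁻¹, ?_⟩
    have hk' : IsU O (f ((k : Matrix (Fin 2) (Fin 2) K).det)) := U.isU_f.mpr (isU_det hk)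
    have e1 := U.isU_map hu
    have e2 := U.isU_map e1
    have hu0 : (u : F) ≠ 0 := u.ne_zero
    have key : (δ : Matrix (Fin 2) (Fin 2) F).det *
        (f ((w * p⁻¹ : Kˣ) : K) * f ((w * p⁻¹ : Kˣ) : K))⁻¹ =
        f ((k : Matrix (Fin 2) (Fin 2) K).det) * (τ (u : F))⁻¹ * (τ (τ (u : F)))⁻¹ := by
      have hp := hf0 p
      have hw := hf0 w
      have h3 : τ (u : F) ≠ 0 := by rw [Ne, map_eq_zero]; exact hu0
      have h4 : τ (τ (u : F)) ≠ 0 := by rw [Ne, map_eq_zero]; exact h3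
      rw [hpu'] at h2 ⊢
      simp only [map_mul, U.map_f] at h2
      simp only [Units.val_mul, Units.val_inv_eq_inv_val, map_mul, map_inv₀]
      field_simp
      linear_combination h2
    rw [key]
    exact (hk'.mul e1.inv).mul e2.inv

omit U in
theorem PU_conj_scalar {O' : ValuationSubring F} (w : Fˣ) (δ x y : GL (Fin 2) F) :
    PU O' (x⁻¹ * (GeneralLinearGroup.scalar (Fin 2) w * δ) * y) ↔ PU O' (x⁻¹ * δ * y) := by
  have h : x⁻¹ * (GeneralLinearGroup.scalar (Fin 2) w * δ) * y =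
      GeneralLinearGroup.scalar (Fin 2) w * (x⁻¹ * δ * y) := by
    rw [← mul_assoc, ← scalar_comm]
    group
  rw [h, PU.scalar_mul_iff]

theorem det_conj_isU (x : GL (Fin 2) F)
    (hδ : IsU O ((δ : Matrix (Fin 2) (Fin 2) F).det)) :
    IsU O ((x⁻¹ * δ * tG τ x : GL (Fin 2) F) : Matrix (Fin 2) (Fin 2) F).det := by
  have hx0 : (x : Matrix (Fin 2) (Fin 2) F).det ≠ 0 := x.det_ne_zero
  have hxx : ((x⁻¹ : GL (Fin 2) F) : Matrix (Fin 2) (Fin 2) F).det =
      ((x : Matrix (Fin 2) (Fin 2) F).det)⁻¹ := by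
    apply eq_inv_of_mul_eq_one_left
    rw [← Matrix.det_mul, ← GeneralLinearGroup.coe_mul, inv_mul_cancel,
      GeneralLinearGroup.coe_one, Matrix.det_one]
  rw [GeneralLinearGroup.coe_mul, GeneralLinearGroup.coe_mul, Matrix.det_mul,
      Matrix.det_mul, U.det_tG, hxx]
  have h1 := hδ.mul (U.isU_div hx0)
  convert h1 using 1
  ring

omit U in
theorem det_conj_isU' {O' : ValuationSubring K} (y : GL (Fin 2) K)
    (hγ : IsU O' ((γ : Matrix (Fin 2) (Fin 2) K).det)) :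
    IsU O' ((y⁻¹ * γ * y : GL (Fin 2) K) : Matrix (Fin 2) (Fin 2) K).det := by
  have hy0 : (y : Matrix (Fin 2) (Fin 2) K).det ≠ 0 := y.det_ne_zero
  have hyy : ((y⁻¹ : GL (Fin 2) K) : Matrix (Fin 2) (Fin 2) K).det =
      ((y : Matrix (Fin 2) (Fin 2) K).det)⁻¹ := by
    apply eq_inv_of_mul_eq_one_left
    rw [← Matrix.det_mul, ← GeneralLinearGroup.coe_mul, inv_mul_cancel,
      GeneralLinearGroup.coe_one, Matrix.det_one]
  rw [GeneralLinearGroup.coe_mul, GeneralLinearGroup.coe_mul, Matrix.det_mul,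
      Matrix.det_mul, hyy, mul_right_comm, inv_mul_cancel₀ hy0, one_mul]
  exact hγ

/-- **the local theorem at the unit places** -/
theorem unit_place (hns : NonSc (γ : Matrix (Fin 2) (Fin 2) K))
    (hcomm : δ * fG f γ = fG f γ * δ) (hN : δ * tG τ δ * tG τ (tG τ δ) = fG f γ)
    (h : (∃ x, PU O (x⁻¹ * δ * tG τ x)) ∨ ∃ y, PU (O.comap f) (y⁻¹ * γ * y)) :
    ∃ c : GL (Fin 2) F, (∃ a b : F, (c : Matrix (Fin 2) (Fin 2) F) =
        a • (1 : Matrix (Fin 2) (Fin 2) F) + b • (fG f γ : Matrix (Fin 2) (Fin 2) F)) ∧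
      ∀ x : GL (Fin 2) F, PU O (x⁻¹ * δ * tG τ x) ↔
        ∃ y : GL (Fin 2) K, PU (O.comap f) (y⁻¹ * γ * y) ∧ PU O (x⁻¹ * (c * fG f y)) := by
  obtain ⟨z, hz⟩ := U.exists_norm_scalar hN h
  -- normalise
  set zf : Fˣ := Units.map (f : K →* F) z with hzf
  set δ1 : GL (Fin 2) F := GeneralLinearGroup.scalar (Fin 2) zf⁻¹ * δ with hδ1
  set γ1 : GL (Fin 2) K := GeneralLinearGroup.scalar (Fin 2) (z⁻¹ * z⁻¹ * z⁻¹) * γ with hγ1
  have hzτ : Units.map (τ : F →* F) zf⁻¹ = zf⁻¹ := by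
    rw [map_inv, hzf]
    congr 1
    ext
    exact U.map_f _
  have hmapz : Units.map (f : K →* F) z⁻¹ = zf⁻¹ := by rw [map_inv]
  have hfγ1 : fG f γ1 = GeneralLinearGroup.scalar (Fin 2) (zf⁻¹ * zf⁻¹ * zf⁻¹) * fG f γ := by
    have h1 : Units.map (f : K →* F) (z⁻¹ * z⁻¹ * z⁻¹) = zf⁻¹ * zf⁻¹ * zf⁻¹ := by
      rw [map_mul, map_mul, hmapz]
    rw [hγ1, map_mul, fG_scalar, h1]
  have hδτ : tG τ δ1 = GeneralLinearGroup.scalar (Fin 2) zf⁻¹ * tG τ δ := by
    rw [hδ1, map_mul, tG_scalar, hzτ]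
  have hδτ2 : tG τ (tG τ δ1) = GeneralLinearGroup.scalar (Fin 2) zf⁻¹ * tG τ (tG τ δ) := by
    rw [hδτ, map_mul, tG_scalar, hzτ]
  have hN1 : δ1 * tG τ δ1 * tG τ (tG τ δ1) = fG f γ1 := by
    rw [hδτ2, hδτ, hfγ1, hδ1, ← hN, map_mul, map_mul]
    set s := GeneralLinearGroup.scalar (Fin 2) zf⁻¹ with hs
    have hc : ∀ g, s * g = g * s := fun g => scalar_comm _ g
    calc s * δ * (s * tG τ δ) * (s * tG τ (tG τ δ))
        = s * (δ * s) * (tG τ δ * s) * tG τ (tG τ δ) := by group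
      _ = s * (s * δ) * (s * tG τ δ) * tG τ (tG τ δ) := by rw [hc δ, hc (tG τ δ)]
      _ = s * s * (δ * s) * tG τ δ * tG τ (tG τ δ) := by group
      _ = s * s * (s * δ) * tG τ δ * tG τ (tG τ δ) := by rw [hc δ]
      _ = s * s * s * (δ * tG τ δ * tG τ (tG τ δ)) := by group
  have hdδ1 : IsU O ((δ1 : Matrix (Fin 2) (Fin 2) F).det) := by
    rw [hδ1, det_scalar_mul]
    have h1 : ((zf⁻¹ : Fˣ) : F) = (f z)⁻¹ := by
      rw [Units.val_inv_eq_inv_val, hzf]; rfl
    rw [h1]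
    convert hz using 1
    rw [mul_inv]; ring
  have hdγ1 : IsU O ((fG f γ1 : Matrix (Fin 2) (Fin 2) F).det) := by
    rw [← hN1, GeneralLinearGroup.coe_mul, GeneralLinearGroup.coe_mul, Matrix.det_mul,
      Matrix.det_mul, U.det_tG, U.det_tG, U.det_tG]
    exact (hdδ1.mul (U.isU_map hdδ1)).mul (U.isU_map (U.isU_map hdδ1))
  have hdγ1' : IsU (O.comap f) ((γ1 : Matrix (Fin 2) (Fin 2) K).det) := by
    rw [← U.isU_f, ← det_fG]
    exact hdγ1
  -- the two conditions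
  have hPx : ∀ x, PU O (x⁻¹ * δ * tG τ x) ↔ x⁻¹ * δ1 * tG τ x ∈ GU O := by
    intro x
    rw [← PU_conj_scalar zf⁻¹ δ x (tG τ x)]
    exact ⟨fun h => h.mem (U.det_conj_isU x hdδ1), fun h => PU.of_mem h⟩
  have hPy : ∀ y, PU (O.comap f) (y⁻¹ * γ * y) ↔ y⁻¹ * γ1 * y ∈ GU (O.comap f) := by
    intro y
    rw [← PU_conj_scalar (z⁻¹ * z⁻¹ * z⁻¹) γ y y]
    exact ⟨fun h => h.mem (det_conj_isU' y hdγ1'), fun h => PU.of_mem h⟩
  -- the trace
  have htr : (fG f γ1 : Matrix (Fin 2) (Fin 2) F).trace ∈ O := by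
    have hconj : ∀ x : GL (Fin 2) F, IsInt O ((x⁻¹ * fG f γ1 * x : GL (Fin 2) F) :
        Matrix (Fin 2) (Fin 2) F) → (fG f γ1 : Matrix (Fin 2) (Fin 2) F).trace ∈ O := by
      intro x hx
      have h1 := hx.trace
      rwa [GeneralLinearGroup.coe_mul, Matrix.trace_mul_comm, ← GeneralLinearGroup.coe_mul,
        ← mul_assoc, mul_inv_cancel, one_mul] at h1
    rcases h with ⟨x, hx⟩ | ⟨y, hy⟩
    · rw [hPx] at hx
      apply hconj x
      set k := x⁻¹ * δ1 * tG τ x with hk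
      have hγx : x⁻¹ * fG f γ1 * x = k * tG τ k * tG τ (tG τ k) := by
        rw [← hN1, hk]
        simp only [map_mul, map_inv, U.tG_cube]
        group
      rw [hγx]
      exact ((GU O).mul_mem ((GU O).mul_mem hx (U.mem_GU_tG hx))
        (U.mem_GU_tG (U.mem_GU_tG hx))).1
    · rw [hPy] at hy
      apply hconj (fG f y)
      rw [← map_inv, ← map_mul, ← map_mul]
      exact (mem_GU_fG.mpr hy).1
  -- commutation
  have hcomm1 : δ1 * fG f γ1 = fG f γ1 * δ1 := by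
    rw [hfγ1, hδ1]
    set s := GeneralLinearGroup.scalar (Fin 2) zf⁻¹ with hs
    set s3 := GeneralLinearGroup.scalar (Fin 2) (zf⁻¹ * zf⁻¹ * zf⁻¹) with hs3
    have hc : ∀ g, s * g = g * s := fun g => scalar_comm _ g
    have hc3 : ∀ g, s3 * g = g * s3 := fun g => scalar_comm _ g
    calc s * δ * (s3 * fG f γ) = s * (δ * s3) * fG f γ := by group
      _ = s * s3 * (δ * fG f γ) := by rw [← hc3]; group
      _ = s * (s3 * fG f γ) * δ := by rw [hcomm]; group
      _ = s3 * fG f γ * (s * δ) := by rw [hc]; group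
  have hns1 : NonSc (fG f γ1 : Matrix (Fin 2) (Fin 2) F) := by
    have h1 : ∀ i j, (fG f γ1) i j = ((zf⁻¹ * zf⁻¹ * zf⁻¹ : Fˣ) : F) * f (γ i j) := by
      intro i j
      rw [hfγ1, scalar_coe]
      rfl
    rw [NonSc, h1, h1, h1, h1]
    have h0 := (zf⁻¹ * zf⁻¹ * zf⁻¹).ne_zero
    rcases hns with h | h | h
    · exact Or.inl (mul_ne_zero h0 ((map_ne_zero f).mpr h))
    · exact Or.inr (Or.inl (mul_ne_zero h0 ((map_ne_zero f).mpr h)))
    · exact Or.inr (Or.inr fun h2 => h (f.injective (mul_left_cancel₀ h0 h2)))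
  obtain ⟨c, u, hu, hu', ⟨a, b, hc⟩, huc⟩ := U.exists_cu hns1 hcomm1 hN1 hdγ1 htr
  have hcγ : c * fG f γ1 = fG f γ1 * c := by
    apply Units.ext
    rw [Units.val_mul, Units.val_mul, hc]
    simp only [add_mul, mul_add, Matrix.smul_mul, Matrix.mul_smul, one_mul, mul_one]
  refine ⟨c, ⟨a, b * ((zf⁻¹ * zf⁻¹ * zf⁻¹ : Fˣ) : F), ?_⟩, fun x => ?_⟩
  · rw [hc, hfγ1, scalar_coe, smul_smul]
  · rw [hPx]
    constructor
    · intro hx
      obtain ⟨y, hy, hxy⟩ := U.exists_of_fix hN1 hu hu' hcγ huc hx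
      exact ⟨y, (hPy y).mpr hy, PU.of_mem hxy⟩
    · rintro ⟨y, hy, hxy⟩
      rw [hPy] at hy
      exact (U.fix_of_exists hu hu' hcγ huc hy hxy).mem (U.det_conj_isU x hdδ1)

end Unr

end Exist

end Fermat.Agent.LT

end
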