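import Fermat.Agent.LT.UnitFix

/-!
# Residual norm surjectivity

* `norm_finite_field` : an automorphism of order three of a finite field : fixed elements are norms;
* `norm_finite_ring` : the same for a finite ring all of whose maximal ideals are stable with
  non-trivial action on the residue fields;
* `norm_quadratic` : the ring `k'[γ]`, `γ` quadratic over the fixed field of `k'`.
-/

set_option autoImplicit false

noncomputable section

namespace Fermat.Agent.LT

section FF

variable {M : Type*} [Field M] [Finite M]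

theorem norm_finite_field (φ : M ≃+* M) (h3 : ∀ x, φ (φ (φ x)) = x) (h1 : ∃ x, φ x ≠ x)
    (a : M) (ha : φ a = a) : ∃ u : M, N3 φ u = a := by
  classical
  let ψ : RingAut M := φ
  have hord : orderOf ψ = 3 := by
    rw [orderOf_eq_prime_iff]
    constructor
    · exact RingEquiv.ext fun x => h3 x
    · intro h
      obtain ⟨x, hx⟩ := h1
      exact hx (RingEquiv.congr_fun h x)
  let G := Subgroup.zpowers ψ
  have hfo : IsOfFinOrder ψ := by
    rw [← orderOf_pos_iff, hord]; norm_num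
  have : Finite G := Finite.of_equiv _ (finEquivZPowers hfo)
  have : Fintype G := Fintype.ofFinite G
  let K0 := FixedPoints.subfield G M
  have hK0 : a ∈ K0 := by
    rintro ⟨g, hg⟩
    obtain ⟨n, rfl⟩ := Subgroup.mem_zpowers_iff.mp hg
    have h2 : ∀ n : ℤ, (ψ ^ n) a = a := by
      intro n
      have : ψ ∈ MulAction.stabilizer (RingAut M) a := ha
      exact (MulAction.stabilizer (RingAut M) a).zpow_mem this n
    exact h2 n
  obtain ⟨u, hu⟩ := FiniteField.norm_surjective K0 M ⟨a, hK0⟩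
  refine ⟨u, ?_⟩
  have h2 : (algebraMap K0 M (Algebra.norm K0 u)) = ∏ s : Gal(M/K0), s u :=
    Algebra.norm_eq_prod_automorphisms K0 u
  rw [hu] at h2
  change a = _ at h2
  rw [h2]
  rw [← Equiv.prod_comp (FixedPoints.toAlgAutMulEquiv G M).toEquiv]
  have h4 : ∀ g : G, ((FixedPoints.toAlgAutMulEquiv G M).toEquiv g) u = (g : RingAut M) u :=
    fun g => rfl
  rw [Finset.prod_congr rfl fun g _ => h4 g]
  rw [← Equiv.prod_comp ((finCongr hord.symm).trans (finEquivZPowers hfo))]
  rw [Fin.prod_univ_three]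
  rfl

end FF

theorem isAdicComplete_of_pow_eq_bot {B : Type*} [CommRing B] {J : Ideal B} {n : ℕ}
    (h : J ^ n = ⊥) : IsAdicComplete J B where
  haus' := by
    intro x hx
    have := hx n
    rw [SModEq.zero] at this
    simpa [h] using this
  prec' := by
    intro f hf
    refine ⟨f n, fun m => ?_⟩
    rcases le_total m n with hmn | hmn
    · exact hf hmn
    · have h1 := hf hmn
      rw [SModEq.sub_mem, h] at h1
      have h2 : f n - f m = 0 := by simpa using h1
      rw [← sub_eq_zero.mp h2]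

/-- finite rings -/
theorem norm_finite_ring {A : Type*} [CommRing A] [Finite A] (σ : A ≃+* A)
    (h3 : ∀ x, σ (σ (σ x)) = x) {t : A} (ht : Tr3 σ t = 1)
    (hst : ∀ I : Ideal A, I.IsMaximal → (∀ x ∈ I, σ x ∈ I) ∧ ∃ x, σ x - x ∉ I)
    (a : Aˣ) (ha : σ (a : A) = a) : ∃ u : Aˣ, N3 σ (u : A) = a := by
  classical
  obtain ⟨n, hn⟩ := IsArtinianRing.isNilpotent_jacobson_bot (R := A)
  have := isAdicComplete_of_pow_eq_bot (J := Ideal.jacobson (⊥ : Ideal A)) (n := n) hn
  have hmem : ∀ x : A, x ∈ Ideal.jacobson (⊥ : Ideal A) ↔ ∀ I : Ideal A, I.IsMaximal → x ∈ I := by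
    intro x
    rw [Ideal.jacobson, Submodule.mem_sInf]
    exact ⟨fun h I hI => h I ⟨bot_le, hI⟩, fun h I hI => h I hI.2⟩
  refine norm_surjective σ h3 ht (J := Ideal.jacobson ⊥) ?_ ?_ a ha
  · intro x hx
    rw [hmem] at hx ⊢
    exact fun I hI => (hst I hI).1 x (hx I hI)
  · intro a ha
    -- the residue fields
    have hres : ∀ I : MaximalSpectrum A, ∃ g : A, N3 σ g - a ∈ I.asIdeal := by
      rintro ⟨I, hI⟩
      obtain ⟨hs, x, hx⟩ := hst I hI
      have hmap : I = I.map (σ : A →+* A) := by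
        apply le_antisymm
        · intro y hy
          have h1 := hs _ (hs _ hy)
          have h2 := Ideal.mem_map_of_mem (σ : A →+* A) h1
          change σ (σ (σ y)) ∈ _ at h2
          rwa [h3] at h2
        · exact Ideal.map_le_iff_le_comap.mpr fun y hy => hs y hy
      let : Field (A ⧸ I) := Ideal.Quotient.field I
      have : Finite (A ⧸ I) := Finite.of_surjective _ (Ideal.Quotient.mk_surjective (I := I))
      let φ : (A ⧸ I) ≃+* (A ⧸ I) := Ideal.quotientEquiv I I σ hmap
      have hφ : ∀ y : A, φ (Ideal.Quotient.mk I y) = Ideal.Quotient.mk I (σ y) := fun y => rfl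
      obtain ⟨u, hu⟩ := norm_finite_field φ (fun z => by
        obtain ⟨y, rfl⟩ := Ideal.Quotient.mk_surjective z
        rw [hφ, hφ, hφ, h3]) ⟨Ideal.Quotient.mk I x, fun h => hx (by
          rw [hφ] at h
          exact Ideal.Quotient.eq.mp h)⟩ (Ideal.Quotient.mk I (a : A)) (by rw [hφ, ha])
      obtain ⟨g, rfl⟩ := Ideal.Quotient.mk_surjective u
      refine ⟨g, Ideal.Quotient.eq.mp ?_⟩
      rw [← hu]
      simp only [N3, map_mul, hφ]
    choose g hg using hres
    have hcop : Pairwise fun I J : MaximalSpectrum A => IsCoprime I.asIdeal J.asIdeal := by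
      intro I J hIJ
      have := I.isMaximal
      have := J.isMaximal
      exact Ideal.isCoprime_of_isMaximal (fun h => hIJ (MaximalSpectrum.ext h))
    obtain ⟨r, hr⟩ := Ideal.exists_forall_sub_mem_ideal hcop g
    have hr2 : ∀ I : MaximalSpectrum A, N3 σ r - a ∈ I.asIdeal := by
      intro I
      have h1 := N3_sub_mem σ (hst I.asIdeal I.isMaximal).1 (hr I)
      have h2 := I.asIdeal.add_mem h1 (hg I)
      have h4 : N3 σ r - a = N3 σ r - N3 σ (g I) + (N3 σ (g I) - a) := by ring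
      rwa [h4]
    have hunit : IsUnit r := by
      by_contra hnu
      obtain ⟨I, hI, hrI⟩ := exists_max_ideal_of_mem_nonunits hnu
      have h1 := hr2 ⟨I, hI⟩
      have h2 : N3 σ r ∈ I := by
        simp only [N3, mul_assoc]
        exact I.mul_mem_right _ hrI
      have h4 : (a : A) ∈ I := by
        have := I.sub_mem h2 h1
        simpa using this
      exact hI.ne_top (Ideal.eq_top_of_isUnit_mem _ h4 a.isUnit)
    obtain ⟨u, rfl⟩ := hunit
    exact ⟨u, (hmem _).mpr fun I hI => hr2 ⟨I, hI⟩⟩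

/-- automorphisms of finite fields are powers of Frobenius -/
theorem exists_frob_pow {k : Type*} [Field k] [Finite k] (p : ℕ) [Fact p.Prime] [CharP k p]
    (s : k ≃+* k) : ∃ m : ℕ, ∀ x, s x = x ^ p ^ m := by
  let : Algebra (ZMod p) k := ZMod.algebra k p
  let s' : Gal(k/ZMod p) := AlgEquiv.ofRingEquiv (f := s) fun r => by
    rw [← ZMod.intCast_zmod_cast r, map_intCast, map_intCast]
  obtain ⟨n, hn⟩ := (FiniteField.bijective_frobeniusAlgEquivOfAlgebraic_pow (ZMod p) k).2 s'
  refine ⟨n, fun x => ?_⟩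
  have h1 : s x = s' x := rfl
  rw [h1, ← hn]
  simp only [AlgEquiv.coe_pow, FiniteField.coe_frobeniusAlgEquivOfAlgebraic_iterate, ZMod.card]

/-- an element of trace one -/
theorem exists_trace_one {k : Type*} [Field k] (s : k ≃+* k) (s3 : ∀ x, s (s (s x)) = x)
    (s1 : ∃ x, s x ≠ x) : ∃ t, Tr3 s t = 1 := by
  classical
  by_contra! hcon
  have h0 : ∀ x, Tr3 s x = 0 := by
    intro x
    by_contra h
    refine hcon (x / Tr3 s x) ?_
    have h1 : s (Tr3 s x) = Tr3 s x := σ_Tr3 s s3 x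
    have h2 : Tr3 s (x / Tr3 s x) = Tr3 s x / Tr3 s x := by
      conv_lhs => rw [Tr3]
      simp only [map_div₀, h1]
      rw [← add_div, ← add_div]
      rfl
    rw [h2, div_self h]
  obtain ⟨x, hx⟩ := s1
  -- three distinct characters
  let f : Fin 3 → (k →* k) := ![MonoidHom.id k, (s : k →* k), (s : k →* k).comp (s : k →* k)]
  have hf : Function.Injective f := by
    intro i j hij
    fin_cases i <;> fin_cases j <;> first | rfl | (exfalso; have h := DFunLike.congr_fun hij x; simp [f] at h)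
    · exact hx h.symm
    · have h4 := congrArg s h
      rw [s3] at h4
      exact hx h4
    · exact hx h
    · exact hx h.symm
    · have h4 := congrArg s h
      rw [s3] at h4
      exact hx h4.symm
    · exact hx h
  have hli := (linearIndependent_monoidHom k k).comp f hf
  rw [Fintype.linearIndependent_iff] at hli
  have := hli (fun _ => 1) (by
    funext y
    have := h0 y
    simpa [Fin.sum_univ_three, f, Tr3] using this) 0
  exact one_ne_zero this

/-- the ring `k'[γ]`, `γ` quadratic over the fixed field of the automorphism `s` of `k'` -/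
theorem norm_quadratic {k A : Type*} [Field k] [Finite k] [CommRing A] (s : k ≃+* k)
    (s3 : ∀ x, s (s (s x)) = x) (s1 : ∃ x, s x ≠ x) (ι : k →+* A) (σ : A ≃+* A)
    (hσ : ∀ x, σ (ι x) = ι (s x)) (γ : A) (hγ : σ γ = γ) (T D : k) (hT : s T = T) (hD : s D = D)
    (hq : γ ^ 2 = ι T * γ - ι D) (hgen : ∀ z : A, ∃ x y, z = ι x + ι y * γ)
    (a : Aˣ) (ha : σ (a : A) = a) : ∃ u : Aˣ, N3 σ (u : A) = a := by
  classical
  have : Finite A := Finite.of_surjective (fun z : k × k => ι z.1 + ι z.2 * γ) fun z => by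
    obtain ⟨x, y, h⟩ := hgen z
    exact ⟨(x, y), h.symm⟩
  have h3 : ∀ z, σ (σ (σ z)) = z := by
    intro z
    obtain ⟨x, y, rfl⟩ := hgen z
    simp only [map_add, map_mul, hσ, hγ, s3]
  obtain ⟨t, ht⟩ := exists_trace_one s s3 s1
  have ht' : Tr3 σ (ι t) = 1 := by
    have := congrArg ι ht
    simpa only [Tr3, map_add, map_one, hσ] using this
  refine norm_finite_ring σ h3 ht' ?_ a ha
  intro I hI
  let : Field (A ⧸ I) := Ideal.Quotient.field I
  let mk := Ideal.Quotient.mk I
  let j : k →+* A ⧸ I := mk.comp ι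
  obtain ⟨p, hp⟩ := CharP.exists k
  have hpp : p.Prime := CharP.char_is_prime k p
  have : Fact p.Prime := ⟨hpp⟩
  have : CharP (A ⧸ I) p := charP_of_injective_ringHom j.injective p
  obtain ⟨m, hm⟩ := exists_frob_pow p s
  -- `s x = x ^ (p ^ (4 m))`
  have hs4 : ∀ x, s x = x ^ p ^ (4 * m) := by
    intro x
    have h4 : s (s (s (s x))) = s x := by rw [s3]
    rw [← h4, hm, hm, hm, hm, ← pow_mul, ← pow_mul, ← pow_mul, ← pow_add, ← pow_add, ← pow_add]
    congr 2
    ring
  -- the image of `γ`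
  set g : A ⧸ I := mk γ with hg
  have hq' : g ^ 2 = j T * g - j D := by
    rw [hg, ← map_pow, hq, map_sub, map_mul]
    rfl
  have hTm : j T ^ p ^ m = j T := by rw [← map_pow, ← hm, hT]
  have hDm : j D ^ p ^ m = j D := by rw [← map_pow, ← hm, hD]
  have h1 : g ^ p ^ m = g ∨ g ^ p ^ m = j T - g := by
    have h2 : (g ^ p ^ m) ^ 2 = j T * g ^ p ^ m - j D := by
      rw [← pow_mul, mul_comm, pow_mul, hq', sub_pow_char_pow, mul_pow, hTm, hDm]
    have h5 : (g ^ p ^ m - g) * (g ^ p ^ m - (j T - g)) = 0 := by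
      linear_combination h2 - hq'
    rcases mul_eq_zero.mp h5 with h | h
    · exact Or.inl (sub_eq_zero.mp h)
    · exact Or.inr (sub_eq_zero.mp h)
  have h2 : (g ^ p ^ m) ^ p ^ m = g := by
    rcases h1 with h | h
    · rw [h, h]
    · rw [h, sub_pow_char_pow, hTm, h]; ring
  have h4 : g ^ p ^ (4 * m) = g := by
    have h5 : p ^ (4 * m) = p ^ m * p ^ m * p ^ m * p ^ m := by ring
    rw [h5, pow_mul, pow_mul, pow_mul, h2, h2]
  have hkey : ∀ z : A, mk (σ z) = mk z ^ p ^ (4 * m) := by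
    intro z
    obtain ⟨x, y, rfl⟩ := hgen z
    simp only [map_add, map_mul, hσ, hγ]
    rw [add_pow_char_pow, mul_pow, ← hg, h4]
    change j (s x) + j (s y) * g = j x ^ _ + j y ^ _ * g
    rw [hs4, hs4, map_pow, map_pow]
  constructor
  · intro x hx
    have h5 : mk x = 0 := Ideal.Quotient.eq_zero_iff_mem.mpr hx
    have h6 := hkey x
    rw [h5, zero_pow (pow_ne_zero _ hpp.ne_zero)] at h6
    exact Ideal.Quotient.eq_zero_iff_mem.mp h6
  · obtain ⟨x, hx⟩ := s1
    refine ⟨ι x, fun h => hx ?_⟩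
    rw [hσ, ← map_sub] at h
    have h5 : j (s x - x) = 0 := Ideal.Quotient.eq_zero_iff_mem.mpr h
    exact sub_eq_zero.mp ((map_eq_zero j).mp h5)

section Quad

variable {O : Type*} [CommRing O]

/-- the automorphism of the quadratic algebra -/
def qmap (s : O ≃+* O) {A T : O} (hA : s A = A) (hT : s T = T) :
    QuadraticAlgebra O A T ≃+* QuadraticAlgebra O A T where
  toFun z := ⟨s z.re, s z.im⟩
  invFun z := ⟨s.symm z.re, s.symm z.im⟩
  left_inv z := by ext <;> simp
  right_inv z := by ext <;> simp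
  map_mul' x y := by
    ext <;> simp only [QuadraticAlgebra.re_mul, QuadraticAlgebra.im_mul, map_add, map_mul, hA, hT]
  map_add' x y := by
    ext <;> simp only [QuadraticAlgebra.re_add, QuadraticAlgebra.im_add, map_add]

@[simp] theorem qmap_re (s : O ≃+* O) {A T : O} (hA : s A = A) (hT : s T = T)
    (z : QuadraticAlgebra O A T) : (qmap s hA hT z).re = s z.re := rfl

@[simp] theorem qmap_im (s : O ≃+* O) {A T : O} (hA : s A = A) (hT : s T = T)
    (z : QuadraticAlgebra O A T) : (qmap s hA hT z).im = s z.im := rfl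

theorem mem_span_pow_iff {A T : O} (ϖ : O) (n : ℕ) (z : QuadraticAlgebra O A T) :
    z ∈ (Ideal.span {(⟨ϖ, 0⟩ : QuadraticAlgebra O A T)}) ^ n ↔ ϖ ^ n ∣ z.re ∧ ϖ ^ n ∣ z.im := by
  rw [Ideal.span_singleton_pow, Ideal.mem_span_singleton]
  have h : ((⟨ϖ, 0⟩ : QuadraticAlgebra O A T)) ^ n = algebraMap O _ (ϖ ^ n) := by
    rw [map_pow]; rfl
  rw [h, QuadraticAlgebra.algebraMap_dvd_iff]

theorem isAdicComplete_quad {A T : O} (ϖ : O) [h : IsAdicComplete (Ideal.span {ϖ}) O] :
    IsAdicComplete (Ideal.span {(⟨ϖ, 0⟩ : QuadraticAlgebra O A T)})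
      (QuadraticAlgebra O A T) where
  haus' := by
    intro x hx
    have hz : ∀ y : O, (∀ n, ϖ ^ n ∣ y) → y = 0 := by
      intro y hy
      refine IsHausdorff.haus (I := Ideal.span {ϖ}) (M := O) inferInstance _ fun n => ?_
      rw [SModEq.zero]
      simp only [smul_eq_mul, Ideal.mul_top, Ideal.span_singleton_pow, Ideal.mem_span_singleton]
      exact hy n
    have h1 : ∀ n, ϖ ^ n ∣ x.re ∧ ϖ ^ n ∣ x.im := by
      intro n
      have := hx n
      rw [SModEq.zero] at this
      simp only [smul_eq_mul, Ideal.mul_top] at this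
      exact (mem_span_pow_iff ϖ n x).mp this
    exact QuadraticAlgebra.ext (hz _ fun n => (h1 n).1) (hz _ fun n => (h1 n).2)
  prec' := by
    intro f hf
    have h1 : ∀ {m n : ℕ}, m ≤ n → ϖ ^ m ∣ (f m - f n).re ∧ ϖ ^ m ∣ (f m - f n).im := by
      intro m n hmn
      have := hf hmn
      rw [SModEq.sub_mem] at this
      simp only [smul_eq_mul, Ideal.mul_top] at this
      exact (mem_span_pow_iff ϖ m _).mp this
    have key : ∀ g : ℕ → O, (∀ {m n : ℕ}, m ≤ n → ϖ ^ m ∣ g m - g n) →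
        ∃ L, ∀ n, ϖ ^ n ∣ g n - L := by
      intro g hg
      obtain ⟨L, hL⟩ := IsPrecomplete.prec (I := Ideal.span {ϖ}) (M := O) inferInstance
        (f := g) (fun {m n} hmn => by
          rw [SModEq.sub_mem]
          simp only [smul_eq_mul, Ideal.mul_top, Ideal.span_singleton_pow,
            Ideal.mem_span_singleton]
          exact hg hmn)
      refine ⟨L, fun n => ?_⟩
      have := hL n
      rw [SModEq.sub_mem] at this
      simpa only [smul_eq_mul, Ideal.mul_top, Ideal.span_singleton_pow,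
            Ideal.mem_span_singleton] using this
    obtain ⟨L1, hL1⟩ := key (fun n => (f n).re) fun hmn => (h1 hmn).1
    obtain ⟨L2, hL2⟩ := key (fun n => (f n).im) fun hmn => (h1 hmn).2
    refine ⟨⟨L1, L2⟩, fun n => ?_⟩
    rw [SModEq.sub_mem]
    simp only [smul_eq_mul, Ideal.mul_top]
    exact (mem_span_pow_iff ϖ n _).mpr ⟨hL1 n, hL2 n⟩

/-- the residue field data -/
structure ResData (s : O ≃+* O) (ϖ : O) : Prop where
  cube : ∀ x, s (s (s x)) = x
  fix : s ϖ = ϖ
  complete : IsAdicComplete (Ideal.span {ϖ}) O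
  maximal : (Ideal.span {ϖ} : Ideal O).IsMaximal
  finite : Finite (O ⧸ Ideal.span {ϖ})
  ne : ∃ x, s x - x ∉ Ideal.span {ϖ}

namespace ResData

variable {s : O ≃+* O} {ϖ : O} (R : ResData s ϖ)

include R

theorem isUnit_iff {x : O} : IsUnit x ↔ x ∉ Ideal.span {ϖ} := by
  have := R.complete
  have := R.maximal
  constructor
  · intro h hx
    exact this.ne_top (Ideal.eq_top_of_isUnit_mem _ hx h)
  · intro hx
    obtain ⟨y, hy⟩ := Ideal.Quotient.exists_inv (I := Ideal.span {ϖ})
      (a := Ideal.Quotient.mk _ x) (fun h => hx (Ideal.Quotient.eq_zero_iff_mem.mp h))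
    obtain ⟨y, rfl⟩ := Ideal.Quotient.mk_surjective y
    rw [← map_mul, ← map_one (Ideal.Quotient.mk _), Ideal.Quotient.eq] at hy
    have h1 := IsAdicComplete.le_jacobson_bot (Ideal.span {ϖ}) hy
    have h2 := Ideal.mem_jacobson_bot.mp h1 1
    rw [mul_one, sub_add_cancel] at h2
    exact isUnit_of_mul_isUnit_left h2

theorem map_mem {x : O} (hx : x ∈ Ideal.span {ϖ}) : s x ∈ Ideal.span {ϖ} := by
  rw [Ideal.mem_span_singleton] at hx ⊢
  obtain ⟨y, rfl⟩ := hx
  rw [map_mul, R.fix]
  exact dvd_mul_right _ _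

/-- the automorphism of the residue field -/
def res : (O ⧸ Ideal.span {ϖ}) ≃+* (O ⧸ Ideal.span {ϖ}) :=
  Ideal.quotientEquiv _ _ s (by
    apply le_antisymm
    · intro y hy
      have h1 := R.map_mem (R.map_mem hy)
      have h2 := Ideal.mem_map_of_mem (s : O →+* O) h1
      change s (s (s y)) ∈ _ at h2
      rwa [R.cube] at h2
    · exact Ideal.map_le_iff_le_comap.mpr fun y hy => R.map_mem hy)

theorem res_mk (x : O) : R.res (Ideal.Quotient.mk _ x) = Ideal.Quotient.mk _ (s x) := rfl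

/-- an element with unit differences of conjugates -/
theorem exists_theta : ∃ θ : O, IsUnit (θ - s θ) ∧ IsUnit (θ - s (s θ)) := by
  obtain ⟨x, hx⟩ := R.ne
  refine ⟨x, R.isUnit_iff.mpr fun h => hx ?_, R.isUnit_iff.mpr fun h => hx ?_⟩
  · rw [← neg_sub]; exact Submodule.neg_mem _ h
  · have h1 := R.map_mem h
    rwa [map_sub, R.cube] at h1

/-- the trace-one element -/
theorem exists_tr : ∃ t : O, Tr3 s t = 1 := by
  obtain ⟨θ, h1, h2⟩ := R.exists_theta
  obtain ⟨u, hu⟩ := h1
  obtain ⟨v, hv⟩ := h2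
  -- `t = θ ^ 2 / ((θ - sθ)(θ - s²θ))`
  set a := θ with ha
  set b := s θ with hb
  set c := s (s θ) with hc
  have hsu : s (u : O) = b - c := by rw [hu, map_sub]
  have hssu : s (s (u : O)) = c - a := by rw [hsu, map_sub, ← hc, hc, R.cube]
  have hsv : s (v : O) = b - a := by rw [hv, map_sub, R.cube]
  have hssv : s (s (v : O)) = c - b := by rw [hsv, map_sub]
  refine ⟨θ ^ 2 * (((u⁻¹ : Oˣ) : O) * ((v⁻¹ : Oˣ) : O)), ?_⟩
  have i1 : (u : O) * ((u⁻¹ : Oˣ) : O) = 1 := u.mul_inv
  have i2 : (v : O) * ((v⁻¹ : Oˣ) : O) = 1 := v.mul_inv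
  have i3 := congrArg s i1
  have i4 := congrArg s i2
  have i5 := congrArg s i3
  have i6 := congrArg s i4
  simp only [map_mul, map_one] at i3 i4 i5 i6
  rw [hu] at i1
  rw [hv] at i2
  rw [hsu] at i3
  rw [hsv] at i4
  rw [hssu] at i5
  rw [hssv] at i6
  simp only [Tr3, map_mul, map_pow]
  rw [← hc, ← hb, ← ha]
  -- everything is a polynomial identity after multiplying by the units
  have hunit : IsUnit ((a - b) * (a - c) * (b - c)) := by
    rw [← hu, ← hv, ← hsu]
    exact (u.isUnit.mul v.isUnit).mul (u.isUnit.map s)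
  apply hunit.mul_left_cancel
  generalize ((u⁻¹ : Oˣ) : O) = x1 at *
  generalize ((v⁻¹ : Oˣ) : O) = y1 at *
  generalize s x1 = x2 at *
  generalize s y1 = y2 at *
  generalize s x2 = x3 at *
  generalize s y2 = y3 at *
  have e1 : (a - b) * (a - c) * (b - c) * (a ^ 2 * (x1 * y1)) = (b - c) * a ^ 2 := by
    linear_combination (b - c) * a ^ 2 * ((a - c) * y1) * i1 + (b - c) * a ^ 2 * i2
  have e2 : (a - b) * (a - c) * (b - c) * (b ^ 2 * (x2 * y2)) = -(a - c) * b ^ 2 := by
    linear_combination -(a - c) * b ^ 2 * ((b - a) * y2) * i3 - (a - c) * b ^ 2 * i4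
  have e3 : (a - b) * (a - c) * (b - c) * (c ^ 2 * (x3 * y3)) = (a - b) * c ^ 2 := by
    linear_combination (a - b) * c ^ 2 * ((c - b) * y3) * i5 + (a - b) * c ^ 2 * i6
  rw [mul_add, mul_add, e1, e2, e3]
  ring

/-- **Norm surjectivity for `O[γ]`.** -/
theorem norm_quad {A T : O} (hA : s A = A) (hT : s T = T) (a : (QuadraticAlgebra O A T)ˣ)
    (ha : qmap s hA hT a = a) : ∃ u : (QuadraticAlgebra O A T)ˣ,
      N3 (qmap s hA hT) (u : QuadraticAlgebra O A T) = a := by
  have := R.complete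
  have := R.maximal
  have := R.finite
  have hc := isAdicComplete_quad (A := A) (T := T) ϖ
  set J : Ideal (QuadraticAlgebra O A T) := Ideal.span {(⟨ϖ, 0⟩ : QuadraticAlgebra O A T)} with hJ
  set σ := qmap s hA hT with hσ
  have hmemJ : ∀ z, z ∈ J ↔ ϖ ∣ z.re ∧ ϖ ∣ z.im := by
    intro z
    have := mem_span_pow_iff (A := A) (T := T) ϖ 1 z
    simpa only [pow_one] using this
  have h3 : ∀ x, σ (σ (σ x)) = x := fun x => by
    ext
    · exact R.cube _
    · exact R.cube _
  have hJσ : ∀ x ∈ J, σ x ∈ J := by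
    intro x hx
    rw [hmemJ] at hx ⊢
    have h1 : ∀ y, ϖ ∣ y → ϖ ∣ s y := fun y hy => by
      rw [← Ideal.mem_span_singleton] at hy ⊢
      exact R.map_mem hy
    exact ⟨h1 _ hx.1, h1 _ hx.2⟩
  obtain ⟨t, ht⟩ := R.exists_tr
  have ht' : Tr3 σ (⟨t, 0⟩ : QuadraticAlgebra O A T) = 1 := by
    ext
    · simpa [Tr3, hσ, QuadraticAlgebra.re_one] using ht
    · simp [Tr3, hσ, QuadraticAlgebra.im_one]
  refine norm_surjective σ h3 ht' hJσ ?_ a ha
  intro a ha
  have hmap : J = J.map (σ : _ →+* QuadraticAlgebra O A T) := by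
    apply le_antisymm
    · intro y hy
      have h1 := hJσ _ (hJσ _ hy)
      have h2 := Ideal.mem_map_of_mem (σ : _ →+* QuadraticAlgebra O A T) h1
      change σ (σ (σ y)) ∈ _ at h2
      rwa [h3] at h2
    · exact Ideal.map_le_iff_le_comap.mpr fun y hy => hJσ y hy
  let σ' : (_ ⧸ J) ≃+* (_ ⧸ J) := Ideal.quotientEquiv J J σ hmap
  have hσ' : ∀ y, σ' (Ideal.Quotient.mk J y) = Ideal.Quotient.mk J (σ y) := fun y => rfl
  let : Field (O ⧸ Ideal.span {ϖ}) := Ideal.Quotient.field _
  let ι : (O ⧸ Ideal.span {ϖ}) →+* (_ ⧸ J) :=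
    Ideal.quotientMap J (algebraMap O (QuadraticAlgebra O A T)) (by
      intro x hx
      rw [Ideal.mem_comap, hmemJ]
      rw [Ideal.mem_span_singleton] at hx
      exact ⟨by simpa using hx, by simp⟩)
  have hι : ∀ x : O, ι (Ideal.Quotient.mk _ x) =
    Ideal.Quotient.mk J (algebraMap O (QuadraticAlgebra O A T) x) := fun x => rfl
  have hsalg : ∀ x : O, σ (algebraMap O (QuadraticAlgebra O A T) x) =
      algebraMap O (QuadraticAlgebra O A T) (s x) := by
    intro x
    ext <;> simp [hσ]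
  obtain ⟨x0, hx0⟩ := R.ne
  obtain ⟨v, hv⟩ := norm_quadratic (k := O ⧸ Ideal.span {ϖ}) (A := _ ⧸ J) R.res
    (fun z => by
      obtain ⟨y, rfl⟩ := Ideal.Quotient.mk_surjective z
      rw [R.res_mk, R.res_mk, R.res_mk, R.cube])
    ⟨Ideal.Quotient.mk _ x0, fun h => hx0 (Ideal.Quotient.eq.mp h)⟩ ι σ'
    (fun z => by
      obtain ⟨y, rfl⟩ := Ideal.Quotient.mk_surjective z
      rw [R.res_mk, hι, hι, hσ', hsalg])
    (Ideal.Quotient.mk J (QuadraticAlgebra.omega : QuadraticAlgebra O A T))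
    (by
      rw [hσ']
      congr 1
      ext <;> simp [hσ])
    (Ideal.Quotient.mk _ T) (-Ideal.Quotient.mk _ A) (by rw [R.res_mk, hT])
    (by rw [map_neg, R.res_mk, hA])
    (by
      rw [hι, map_neg, hι, sub_neg_eq_add, ← map_pow, ← map_mul, ← map_add]
      congr 1
      ext <;> simp [pow_two])
    (fun z => by
      obtain ⟨y, rfl⟩ := Ideal.Quotient.mk_surjective z
      refine ⟨Ideal.Quotient.mk _ y.re, Ideal.Quotient.mk _ y.im, ?_⟩
      rw [hι, hι, ← map_mul, ← map_add]
      congr 1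
      ext <;> simp)
    (Units.map (Ideal.Quotient.mk J : _ →* _ ⧸ J) a) (by
      change σ' (Ideal.Quotient.mk J a) = Ideal.Quotient.mk J a
      rw [hσ', ha])
  obtain ⟨w, hw⟩ := Ideal.Quotient.mk_surjective (v : _ ⧸ J)
  have hwu : IsUnit w := by
    obtain ⟨w', hw'⟩ := Ideal.Quotient.mk_surjective ((v⁻¹ : (_ ⧸ J)ˣ) : _ ⧸ J)
    have h1 : Ideal.Quotient.mk J (w * w') = Ideal.Quotient.mk J 1 := by
      rw [map_mul, hw, hw', v.mul_inv, map_one]
    rw [Ideal.Quotient.eq] at h1
    have h1 := IsAdicComplete.le_jacobson_bot J h1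
    have h2 := Ideal.mem_jacobson_bot.mp h1 1
    rw [mul_one, sub_add_cancel] at h2
    exact isUnit_of_mul_isUnit_left h2
  obtain ⟨u, rfl⟩ := hwu
  refine ⟨u, Ideal.Quotient.eq.mp ?_⟩
  have h5 : Ideal.Quotient.mk J (N3 σ (u : QuadraticAlgebra O A T)) =
      N3 σ' (Ideal.Quotient.mk J (u : QuadraticAlgebra O A T)) := by
    simp only [N3, map_mul, hσ']
  rw [h5, hw, hv]
  rfl

end ResData

end Quad

end Fermat.Agent.LT

end
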